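import Mathlib.NumberTheory.ModularForms.JacobiTheta.OneVariable
import Mathlib.NumberTheory.ModularForms.LevelOne.DimensionFormula
import Mathlib.RingTheory.PowerSeries.Inverse
import Fermat.Agent.KummerES.Weak

/-!
# The modular function `λ` from theta constants

`thF = θ₃⁴`, `thG = θ₄⁴`, `thK = -θ₂⁴` (weight two), Jacobi's identity, their non-vanishing, and
`lam = -thK / thF` with its behaviour under `S`, `T` and its integral expansion in `exp (πiτ)`.
-/

set_option autoImplicit false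

noncomputable section

open UpperHalfPlane Filter Topology Complex ModularGroup
open scoped Real MatrixGroups Manifold ModularForm
open Fermat.Agent.KummerES

namespace Fermat.Agent.AtP

/-! ## Power series and expansions -/

/-- Integral power series as complex Laurent series. -/
def ofPS : PowerSeries ℤ →+* LaurentSeries ℂ :=
  (HahnSeries.ofPowerSeries ℤ ℂ).comp (PowerSeries.map (Int.castRingHom ℂ))

/-- The coefficients of nonnegative degree of `ofPS`. -/
lemma ofPS_coeff_natCast (s : PowerSeries ℤ) (n : ℕ) :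
    (ofPS s).coeff (n : ℤ) = ((PowerSeries.coeff n s : ℤ) : ℂ) := by
  rw [ofPS, RingHom.comp_apply, HahnSeries.ofPowerSeries_apply_coeff]
  simp

/-- `ofPS` has no terms of negative degree. -/
lemma ofPS_coeff_neg (s : PowerSeries ℤ) {i : ℤ} (hi : i < 0) : (ofPS s).coeff i = 0 := by
  rw [ofPS, RingHom.comp_apply, HahnSeries.ofPowerSeries_apply]
  refine HahnSeries.embDomain_of_notMem_range ?_
  rintro ⟨n, rfl⟩
  simp at hi
  omega

lemma ofPS_injective : Function.Injective ofPS := fun a b h => by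
  refine PowerSeries.ext fun n => Int.cast_injective (α := ℂ) ?_
  rw [← ofPS_coeff_natCast, ← ofPS_coeff_natCast, h]

lemma hasExp_ofPS {L : ℕ} {f : ℍ → ℂ} (s : PowerSeries ℤ)
    (h : ∀ τ, HasSum (fun n : ℕ => ((PowerSeries.coeff n s : ℤ) : ℂ) * qL L τ ^ n) (f τ)) :
    HasExp L f (ofPS s) := fun τ => by
  rw [← (Nat.cast_injective (R := ℤ)).hasSum_iff]
  · simpa [Function.comp_def, ofPS_coeff_natCast] using h τ
  · intro i hi
    rw [ofPS_coeff_neg s (not_le.1 fun h0 => hi ⟨i.toNat, Int.toNat_of_nonneg h0⟩), zero_mul]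

open Classical in
/-- The series `∑ n, X ^ g n` for an injective `g`. -/
def sparse (g : ℕ → ℕ) : PowerSeries ℤ :=
  PowerSeries.mk fun m => if ∃ n, g n = m then 1 else 0

lemma hasSum_sparse {g : ℕ → ℕ} (hg : Function.Injective g) {q a : ℂ}
    (h : HasSum (fun n => q ^ g n) a) :
    HasSum (fun m : ℕ => ((PowerSeries.coeff m (sparse g) : ℤ) : ℂ) * q ^ m) a := by
  rw [← hg.hasSum_iff]
  · simpa [Function.comp_def, sparse] using h
  · intro m hm
    simp [sparse, fun n => show g n ≠ m from fun e => hm ⟨n, e⟩]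

/-- A periodic holomorphic function bounded at `i∞` has an expansion. -/
lemma exists_hasExp_of_bounded {L : ℕ} [NeZero L] {f : ℍ → ℂ}
    (hper : Function.Periodic (f ∘ ofComplex) (L : ℂ)) (hf : MDiff f) (hb : IsBoundedAtImInfty f) :
    ∃ s : LaurentSeries ℂ, HasExp L f s := by
  have hL : (0 : ℝ) < L := by exact_mod_cast Nat.pos_of_ne_zero (NeZero.ne L)
  refine ⟨HahnSeries.ofPowerSeries ℤ ℂ (qExpansion L f), fun τ => ?_⟩
  rw [← (Nat.cast_injective (R := ℤ)).hasSum_iff]
  · have := hasSum_qExpansion hL (by simpa using hper) hf hb τ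
    simpa [Function.comp_def, qL] using this
  · intro i hi
    have : (HahnSeries.ofPowerSeries ℤ ℂ (qExpansion L f)).coeff i = 0 := by
      rw [HahnSeries.ofPowerSeries_apply]
      refine HahnSeries.embDomain_of_notMem_range ?_
      rintro ⟨n, rfl⟩
      exact hi ⟨n, rfl⟩
    rw [this, zero_mul]

/-! ## The theta constants -/

lemma qL_two (τ : ℍ) : qL 2 τ = cexp (π * Complex.I * τ) := by
  rw [qL, Function.Periodic.qParam]
  congr 1
  push_cast
  ring

/-- `θ₃`. -/
def th3 : ℍ → ℂ := fun τ => jacobiTheta τ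

/-- `θ₂ / (2 exp (πiτ/4))`. -/
def psiFun : ℍ → ℂ := fun τ => jacobiTheta₂ ((τ : ℂ) / 2) τ / 2

/-- The series of `θ₃`. -/
def th3PS : PowerSeries ℤ := 1 + 2 * sparse fun n => (n + 1) ^ 2

/-- The series of `psiFun`. -/
def psiPS : PowerSeries ℤ := sparse fun n => n * (n + 1)

lemma sq_succ_injective : Function.Injective fun n : ℕ => (n + 1) ^ 2 := fun a b h => by
  simpa using Nat.pow_left_injective two_ne_zero h

lemma mul_succ_injective : Function.Injective fun n : ℕ => n * (n + 1) :=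
  StrictMono.injective fun a b h => by
    show a * (a + 1) < b * (b + 1)
    exact Nat.mul_lt_mul_of_lt_of_le h (by omega) (by omega)

/-- The series of `θ₃` starts with `1`. -/
lemma constantCoeff_th3PS : PowerSeries.constantCoeff th3PS = 1 := by
  have : PowerSeries.constantCoeff (sparse fun n => (n + 1) ^ 2) = 0 := by
    rw [← PowerSeries.coeff_zero_eq_constantCoeff_apply, sparse, PowerSeries.coeff_mk,
      if_neg (fun ⟨n, hn⟩ => by simp at hn)]
  simp [th3PS, this]

/-- The series of `psiFun` starts with `1`. -/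
lemma constantCoeff_psiPS : PowerSeries.constantCoeff psiPS = 1 := by
  rw [← PowerSeries.coeff_zero_eq_constantCoeff_apply, psiPS, sparse, PowerSeries.coeff_mk,
    if_pos ⟨0, rfl⟩]

lemma hasExp_th3 : HasExp 2 th3 (ofPS th3PS) := by
  have h : HasExp 2 (fun τ : ℍ => (jacobiTheta τ - 1) / 2)
      (ofPS (sparse fun n => (n + 1) ^ 2)) := by
    refine hasExp_ofPS _ fun τ => hasSum_sparse sq_succ_injective ?_
    convert hasSum_nat_jacobiTheta τ.im_pos using 1
    funext n
    rw [qL_two, ← Complex.exp_nat_mul]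
    congr 1
    push_cast
    ring
  have h2 := HasExp.one.add ((h.add h))
  rw [th3PS, map_add, map_one, two_mul, map_add]
  convert h2 using 1
  funext τ
  simp only [th3, Pi.add_apply, Pi.one_apply]
  ring

lemma hasExp_psiFun : HasExp 2 psiFun (ofPS psiPS) := by
  refine hasExp_ofPS _ fun τ => hasSum_sparse mul_succ_injective ?_
  have h := (hasSum_jacobiTheta₂_term ((τ : ℂ) / 2) τ.im_pos).nat_add_neg_add_one
  refine HasSum.congr_fun (h.div_const 2) fun n => ?_
  have e : ∀ m : ℤ, jacobiTheta₂_term m ((τ : ℂ) / 2) τ = cexp (π * Complex.I * τ * (m * (m + 1))) :=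
    fun m => by rw [jacobiTheta₂_term]; congr 1; ring
  rw [e, e, qL_two, ← Complex.exp_nat_mul]
  push_cast
  rw [show (π * Complex.I * τ * ((-((n : ℂ) + 1)) * (-((n : ℂ) + 1) + 1)) : ℂ) =
      π * Complex.I * τ * ((n : ℂ) * ((n : ℂ) + 1)) by ring]
  ring_nf

/-- `θ₃⁴`. -/
def thF : ℍ → ℂ := th3 ^ 4

/-- `θ₄⁴`. -/
def thG : ℍ → ℂ := comp thF T

/-- `-θ₂⁴`. -/
def thK : ℍ → ℂ := fun τ => -16 * qL 2 τ * psiFun τ ^ 4

/-- `T` translates by one. -/
lemma coe_T_smul (τ : ℍ) : ((T • τ : ℍ) : ℂ) = τ + 1 := by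
  rw [modular_T_smul, coe_vadd]; push_cast; ring

/-- `S` is `τ ↦ -1/τ`. -/
lemma coe_S_smul (τ : ℍ) : ((S • τ : ℍ) : ℂ) = -1 / τ := by
  rw [modular_S_smul]; simp [inv_neg, neg_div]

/-- `T` takes `θ₃⁴` to `θ₄⁴`. -/
lemma thF_T (τ : ℍ) : thF (T • τ) = thG τ := rfl

lemma th3_T_T (τ : ℍ) : th3 (T • (T • τ)) = th3 τ := by
  rw [th3, th3, coe_T_smul, coe_T_smul, add_assoc, show (1 : ℂ) + 1 = 2 by norm_num, add_comm,
    jacobiTheta_two_add]

lemma thG_T (τ : ℍ) : thG (T • τ) = thF τ := by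
  simp only [thG, comp_apply, thF, Pi.pow_apply, th3_T_T]

lemma zetaC_two : zetaC 2 = -1 := by
  rw [zetaC, show (2 * π * Complex.I / (2 : ℕ) : ℂ) = π * Complex.I by push_cast; ring, Complex.exp_pi_mul_I]

lemma qL_two_T (τ : ℍ) : qL 2 (T • τ) = -qL 2 τ := by
  simpa [zetaC_two] using qL_T_zpow_smul 2 1 τ

lemma psiFun_T (τ : ℍ) : psiFun (T • τ) = psiFun τ := by
  rw [psiFun, psiFun, coe_T_smul, jacobiTheta₂, jacobiTheta₂]
  congr 1
  refine tsum_congr fun n => ?_
  rw [jacobiTheta₂_term, jacobiTheta₂_term]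
  obtain ⟨m, hm⟩ := Int.even_mul_succ_self n
  have hm' : (n : ℂ) * (n + 1) = m + m := by exact_mod_cast hm
  rw [show 2 * π * Complex.I * n * ((τ + 1) / 2) + π * Complex.I * n ^ 2 * (τ + 1) =
    (2 * π * Complex.I * n * (τ / 2) + π * Complex.I * n ^ 2 * τ) + (m : ℂ) * (2 * π * Complex.I) by
      linear_combination (π * Complex.I : ℂ) * hm', Complex.exp_add, Complex.exp_int_mul_two_pi_mul_I,
    mul_one]

lemma thK_T (τ : ℍ) : thK (T • τ) = -thK τ := by
  simp only [thK, qL_two_T, psiFun_T]; ring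

lemma neg_I_mul_cpow_four (τ : ℍ) : ((-Complex.I * τ) ^ (1 / 2 : ℂ)) ^ 4 = -(τ : ℂ) ^ 2 := by
  rw [show (4 : ℕ) = 2 * 2 from rfl, pow_mul]
  conv_lhs => rw [one_div, show ((2 : ℂ)) = ((2 : ℕ) : ℂ) by norm_num,
    Complex.cpow_nat_inv_pow _ two_ne_zero]
  rw [mul_pow, neg_sq, I_sq, neg_one_mul]

/-- The functional equation of `θ₃⁴` under `S`. -/
lemma thF_S (τ : ℍ) : thF (S • τ) = -(τ : ℂ) ^ 2 * thF τ := by
  simp only [thF, Pi.pow_apply, th3, jacobiTheta_S_smul, mul_pow, neg_I_mul_cpow_four]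

lemma thG_S (τ : ℍ) : thG (S • τ) = (τ : ℂ) ^ 2 * thK τ := by
  have hτ : (τ : ℂ) ≠ 0 := ne_zero τ
  have hc : (-Complex.I * (τ : ℂ)) ^ (1 / 2 : ℂ) ≠ 0 := fun h0 => by
    have := neg_I_mul_cpow_four τ
    rw [h0, zero_pow (by norm_num), eq_comm, neg_eq_zero] at this
    exact pow_ne_zero 2 hτ this
  have h1 : jacobiTheta ((S • τ : ℍ) + 1) = jacobiTheta₂ (1 / 2) (-1 / τ) := by
    rw [coe_S_smul, jacobiTheta, jacobiTheta₂]
    refine tsum_congr fun n => ?_
    rw [jacobiTheta₂_term]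
    obtain ⟨m, hm⟩ := Int.even_mul_succ_self n
    have hm' : (n : ℂ) * (n + 1) = m + m := by exact_mod_cast hm
    rw [show π * Complex.I * (n : ℂ) ^ 2 * (-1 / τ + 1) =
      (2 * π * Complex.I * n * (1 / 2) + π * Complex.I * n ^ 2 * (-1 / τ)) + ((m - n : ℤ) : ℂ) * (2 * π * Complex.I) by
        push_cast; linear_combination (π * Complex.I : ℂ) * hm', Complex.exp_add,
      Complex.exp_int_mul_two_pi_mul_I, mul_one]
  have h2 : jacobiTheta₂ (1 / 2) (-1 / τ) =
      (-Complex.I * τ) ^ (1 / 2 : ℂ) * cexp (π * Complex.I * τ / 4) * jacobiTheta₂ ((τ : ℂ) / 2) τ := by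
    have h := jacobiTheta₂_functional_equation ((τ : ℂ) / 2) τ
    rw [show (τ : ℂ) / 2 / τ = 1 / 2 by field_simp] at h
    rw [show -π * Complex.I * ((τ : ℂ) / 2) ^ 2 / τ = -(π * Complex.I * τ / 4) by field_simp; ring,
      Complex.exp_neg] at h
    rw [h]
    field_simp
  simp only [thG, comp_apply, thF, Pi.pow_apply, th3, coe_T_smul, h1, h2, mul_pow,
    neg_I_mul_cpow_four, thK, qL_two, psiFun, ← Complex.exp_nat_mul]
  rw [show ((4 : ℕ) : ℂ) * (π * Complex.I * τ / 4) = π * Complex.I * τ by push_cast; ring]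
  ring

/-- `S` is an involution of the upper half plane. -/
lemma S_smul_S_smul (τ : ℍ) : S • (S • τ) = τ := by
  apply UpperHalfPlane.ext
  rw [coe_S_smul, coe_S_smul]
  field_simp [ne_zero τ]

lemma thK_S (τ : ℍ) : thK (S • τ) = (τ : ℂ) ^ 2 * thG τ := by
  have h := thG_S (S • τ)
  rw [S_smul_S_smul, coe_S_smul] at h
  rw [h]
  field_simp [ne_zero τ]

lemma mdiff_th3 : MDiff th3 := by
  rw [UpperHalfPlane.mdifferentiable_iff]
  intro z hz
  refine DifferentiableAt.differentiableWithinAt ?_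
  exact (differentiableAt_jacobiTheta hz).congr_of_eventuallyEq
    (Filter.eventuallyEq_of_mem (isOpen_upperHalfPlaneSet.mem_nhds hz)
      fun w hw => by simp [th3, ofComplex_apply_of_im_pos hw])

lemma mdiff_psiFun : MDiff psiFun := by
  rw [UpperHalfPlane.mdifferentiable_iff]
  intro z hz
  refine DifferentiableAt.differentiableWithinAt ?_
  have h : DifferentiableAt ℂ (fun w : ℂ => jacobiTheta₂ (w / 2) w / 2) z := by
    have hp : DifferentiableAt ℂ (fun w : ℂ => ((w / 2, w) : ℂ × ℂ)) z := by fun_prop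
    have hq : DifferentiableAt ℂ (fun q : ℂ × ℂ => jacobiTheta₂ q.1 q.2) (z / 2, z) :=
      (hasFDerivAt_jacobiTheta₂ (z / 2) hz).differentiableAt
    exact DifferentiableAt.div_const
      (DifferentiableAt.comp (f := fun w : ℂ => ((w / 2, w) : ℂ × ℂ)) z hq hp) 2
  exact h.congr_of_eventuallyEq (Filter.eventuallyEq_of_mem
    (isOpen_upperHalfPlaneSet.mem_nhds hz) fun w hw => by
      simp [psiFun, ofComplex_apply_of_im_pos hw])

lemma mdiff_qL_two : MDiff (qL 2) := by
  rw [UpperHalfPlane.mdifferentiable_iff]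
  intro z hz
  refine DifferentiableAt.differentiableWithinAt ?_
  have h : DifferentiableAt ℂ (fun w : ℂ => cexp (π * Complex.I * w)) z := by fun_prop
  exact h.congr_of_eventuallyEq (Filter.eventuallyEq_of_mem
    (isOpen_upperHalfPlaneSet.mem_nhds hz) fun w hw => by
      simp [qL_two, ofComplex_apply_of_im_pos hw])

/-- `θ₃⁴` is holomorphic. -/
lemma mdiff_thF : MDiff thF := mdiff_th3.pow 4

lemma mdiff_thG : MDiff thG := mdiff_comp mdiff_thF T

lemma mdiff_thK : MDiff thK :=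
  (mdifferentiable_const.mul mdiff_qL_two).mul (mdiff_psiFun.pow 4)

/-- The series of `thF`. -/
def thFPS : PowerSeries ℤ := th3PS ^ 4

/-- The series of `thG`. -/
def thGPS : PowerSeries ℤ := PowerSeries.rescale (-1) thFPS

/-- The series of `thK`. -/
def thKPS : PowerSeries ℤ := -(16 * PowerSeries.X * psiPS ^ 4)

/-- The expansion of `θ₃⁴`. -/
lemma hasExp_thF : HasExp 2 thF (ofPS thFPS) := by
  rw [thFPS, map_pow]; exact hasExp_th3.pow 4

lemma hasExp_thG : HasExp 2 thG (ofPS thGPS) := by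
  have h := hasExp_thF.comp_T_zpow 1
  rw [zpow_one] at h
  refine (?_ : twist _ _ (ofPS thFPS) = ofPS thGPS) ▸ h
  ext i
  rw [twist_coeff]
  simp only [zpow_one, zetaC_two]
  rcases lt_or_ge i 0 with hi | hi
  · rw [ofPS_coeff_neg _ hi, ofPS_coeff_neg _ hi, mul_zero]
  · lift i to ℕ using hi
    rw [ofPS_coeff_natCast, ofPS_coeff_natCast, thGPS, PowerSeries.coeff_rescale]
    push_cast
    rfl

lemma hasExp_thK : HasExp 2 thK (ofPS thKPS) := by
  have h := ((HasExp.single (L := 2) 1 (-16)).mul (hasExp_psiFun.pow 4))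
  convert h using 1
  · funext τ; simp [thK]
  · rw [thKPS, map_neg, map_mul, map_mul, map_pow, map_ofNat]
    have hX : ofPS PowerSeries.X = HahnSeries.single (1 : ℤ) (1 : ℂ) := by
      simp [ofPS]
    rw [hX, show (16 : LaurentSeries ℂ) = HahnSeries.single (0 : ℤ) (16 : ℂ) from
      (map_ofNat (HahnSeries.C (Γ := ℤ) (R := ℂ)) 16).symm, HahnSeries.single_mul_single, mul_one,
      zero_add, show HahnSeries.single (1 : ℤ) (-16 : ℂ) = -HahnSeries.single (1 : ℤ) (16 : ℂ) by
        ext i; rcases eq_or_ne i 1 with rfl | hi <;> simp [*]]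
    ring

/-! ## Level-one consequences -/

/-- The slash action of `S`. -/
lemma slash_S_apply (f : ℍ → ℂ) (k : ℤ) (τ : ℍ) :
    (f ∣[k] S) τ = f (S • τ) * (τ : ℂ) ^ (-k) := by
  rw [ModularForm.SL_slash_apply, denom_S]

/-- The slash action of `T`. -/
lemma slash_T_apply (f : ℍ → ℂ) (k : ℤ) (τ : ℍ) : (f ∣[k] T) τ = f (T • τ) := by
  rw [ModularForm.SL_slash_apply]
  simp [denom, T]

/-- The level-one cusp form attached to an `S`, `T` invariant function. -/
def cuspFormOfST (f : ℍ → ℂ) (k : ℤ) (hf : MDiff f) (hS : f ∣[k] S = f) (hT : f ∣[k] T = f)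
    (h0 : IsZeroAtImInfty f) : CuspForm 𝒮ℒ k where
  toFun := f
  slash_action_eq' := by
    rintro _ ⟨γ, rfl⟩
    exact SlashInvariantForm.slash_action_generators_SL2Z hS hT γ
  holo' := hf
  zero_at_cusps' hc := by
    rw [OnePoint.isZeroAt_iff_forall_SL2Z hc]
    intro γ _
    rw [SlashInvariantForm.slash_action_generators_SL2Z hS hT γ]
    exact h0

lemma tendsto_thF : Tendsto thF atImInfty (𝓝 1) := by
  have h := hasExp_thF.tendsto_atImInfty fun i hi => ofPS_coeff_neg _ hi
  rwa [show (0 : ℤ) = ((0 : ℕ) : ℤ) from rfl, ofPS_coeff_natCast,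
    PowerSeries.coeff_zero_eq_constantCoeff, thFPS, map_pow, constantCoeff_th3PS, one_pow,
    Int.cast_one] at h

lemma tendsto_thG : Tendsto thG atImInfty (𝓝 1) := by
  have h := hasExp_thG.tendsto_atImInfty fun i hi => ofPS_coeff_neg _ hi
  rwa [show (0 : ℤ) = ((0 : ℕ) : ℤ) from rfl, ofPS_coeff_natCast, thGPS, PowerSeries.coeff_rescale,
    PowerSeries.coeff_zero_eq_constantCoeff, thFPS, map_pow, constantCoeff_th3PS, one_pow,
    pow_zero, one_mul, Int.cast_one] at h

lemma tendsto_thK : Tendsto thK atImInfty (𝓝 0) := by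
  have h := hasExp_thK.tendsto_atImInfty fun i hi => ofPS_coeff_neg _ hi
  rwa [show (0 : ℤ) = ((0 : ℕ) : ℤ) from rfl, ofPS_coeff_natCast,
    PowerSeries.coeff_zero_eq_constantCoeff, thKPS, map_neg, map_mul, map_mul,
    PowerSeries.constantCoeff_X, mul_zero, zero_mul, neg_zero, Int.cast_zero] at h

/-- Jacobi's identity. -/
theorem thF_eq : thF = thG - thK := by
  set f : ℍ → ℂ := (thF - thG + thK) ^ 2
  have hS : f ∣[(4 : ℤ)] S = f := by
    funext τ
    rw [slash_S_apply]
    simp only [f, Pi.pow_apply, Pi.add_apply, Pi.sub_apply, thF_S, thG_S, thK_S]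
    rw [zpow_neg, zpow_ofNat]
    field_simp [ne_zero τ]
    ring
  have hT : f ∣[(4 : ℤ)] T = f := by
    funext τ
    rw [slash_T_apply]
    simp only [f, Pi.pow_apply, Pi.add_apply, Pi.sub_apply, thF_T, thG_T, thK_T]
    ring
  have h0 : IsZeroAtImInfty f := by
    have := ((tendsto_thF.sub tendsto_thG).add tendsto_thK).pow 2
    simpa [IsZeroAtImInfty, ZeroAtFilter, f, Pi.pow_def, Pi.add_def, Pi.sub_def] using this
  have hF := cuspFormOfST f 4 (((mdiff_thF.sub mdiff_thG).add mdiff_thK).pow 2) hS hT h0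
  have hz : cuspFormOfST f 4 (((mdiff_thF.sub mdiff_thG).add mdiff_thK).pow 2) hS hT h0 = 0 :=
    rank_zero_iff_forall_zero.mp (CuspForm.rank_eq_zero_of_weight_lt_twelve (by norm_num)) _
  funext τ
  have h := DFunLike.congr_fun hz τ
  change (thF τ - thG τ + thK τ) ^ 2 = 0 at h
  rw [Pi.sub_apply]
  linear_combination (pow_eq_zero_iff two_ne_zero).1 h

lemma thKPS_ne_zero : thKPS ≠ 0 := fun h => by
  have := congrArg (PowerSeries.coeff 1) h
  rw [thKPS, map_neg, mul_assoc, map_zero, neg_eq_zero,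
    show (16 : PowerSeries ℤ) = PowerSeries.C 16 from (map_ofNat _ 16).symm,
    PowerSeries.coeff_C_mul, PowerSeries.coeff_succ_X_mul,
    PowerSeries.coeff_zero_eq_constantCoeff, map_pow, constantCoeff_psiPS] at this
  norm_num at this

lemma thFPS_ne_zero : thFPS ≠ 0 := fun h => by
  have := congrArg PowerSeries.constantCoeff h
  rw [thFPS, map_pow, constantCoeff_th3PS, map_zero, one_pow] at this
  exact one_ne_zero this

lemma thGPS_ne_zero : thGPS ≠ 0 := fun h => by
  have := congrArg (PowerSeries.coeff 0) h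
  rw [thGPS, PowerSeries.coeff_rescale, PowerSeries.coeff_zero_eq_constantCoeff, thFPS, map_pow,
    constantCoeff_th3PS, map_zero, pow_zero, one_pow, one_mul] at this
  exact one_ne_zero this

/-- The product `(thF thG thK)²` is a non-zero multiple of `Δ`, so has no zeros. -/
theorem thF_mul_thG_mul_thK_ne_zero (τ : ℍ) : thF τ * thG τ * thK τ ≠ 0 := by
  set f : ℍ → ℂ := (thF * thG * thK) ^ 2
  have hS : f ∣[(12 : ℤ)] S = f := by
    funext τ
    rw [slash_S_apply]
    simp only [f, Pi.pow_apply, Pi.mul_apply, thF_S, thG_S, thK_S]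
    rw [zpow_neg, zpow_ofNat]
    field_simp [ne_zero τ]
  have hT : f ∣[(12 : ℤ)] T = f := by
    funext τ
    rw [slash_T_apply]
    simp only [f, Pi.pow_apply, Pi.mul_apply, thF_T, thG_T, thK_T]
    ring
  have h0 : IsZeroAtImInfty f := by
    have := ((tendsto_thF.mul tendsto_thG).mul tendsto_thK).pow 2
    simpa [IsZeroAtImInfty, ZeroAtFilter, f, Pi.pow_def, Pi.mul_def] using this
  obtain ⟨c, hc⟩ := CuspForm.exists_smul_discriminant_of_weight_eq_twelve
    (cuspFormOfST f 12 (((mdiff_thF.mul mdiff_thG).mul mdiff_thK).pow 2) hS hT h0)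
  intro h
  have hτ := DFunLike.congr_fun hc τ
  change c * ModularForm.discriminant τ = (thF τ * thG τ * thK τ) ^ 2 at hτ
  rw [h, zero_pow two_ne_zero, mul_eq_zero] at hτ
  have hf : f = 0 := by
    funext z
    have := DFunLike.congr_fun hc z
    change c * ModularForm.discriminant z = f z at this
    rw [← this, hτ.resolve_right (ModularForm.discriminant_ne_zero τ), zero_mul, Pi.zero_apply]
  have hs := ((hasExp_thF.mul hasExp_thG).mul hasExp_thK).pow 2
  rw [show (thF * thG * thK) ^ 2 = 0 from hf] at hs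
  have := hs.eq_zero_of_fun_zero
  rw [← map_mul, ← map_mul, ← map_pow, map_eq_zero_iff _ ofPS_injective,
    pow_eq_zero_iff two_ne_zero] at this
  simp [thFPS_ne_zero, thGPS_ne_zero, thKPS_ne_zero] at this

/-- `θ₃⁴` has no zero. -/
lemma thF_ne_zero (τ : ℍ) : thF τ ≠ 0 := fun h => thF_mul_thG_mul_thK_ne_zero τ (by simp [h])

lemma thG_ne_zero (τ : ℍ) : thG τ ≠ 0 := fun h => thF_mul_thG_mul_thK_ne_zero τ (by simp [h])

lemma thK_ne_zero (τ : ℍ) : thK τ ≠ 0 := fun h => thF_mul_thG_mul_thK_ne_zero τ (by simp [h])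

/-! ## The function `λ` -/

/-- The modular function `λ`. -/
def lam : ℍ → ℂ := fun τ => -thK τ / thF τ

/-- `1 - λ = θ₄⁴/θ₃⁴`. -/
lemma one_sub_lam (τ : ℍ) : 1 - lam τ = thG τ / thF τ := by
  have h := congrFun thF_eq τ
  rw [Pi.sub_apply] at h
  rw [lam]
  field_simp [thF_ne_zero τ]
  linear_combination h

/-- `λ` does not take the value `0`. -/
lemma lam_ne_zero (τ : ℍ) : lam τ ≠ 0 :=
  div_ne_zero (neg_ne_zero.2 (thK_ne_zero τ)) (thF_ne_zero τ)

/-- `λ` does not take the value `1`. -/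
lemma lam_ne_one (τ : ℍ) : lam τ ≠ 1 := fun h => by
  have := one_sub_lam τ
  rw [h, sub_self] at this
  exact div_ne_zero (thG_ne_zero τ) (thF_ne_zero τ) this.symm

/-- `λ (-1/τ) = 1 - λ τ`. -/
lemma lam_S (τ : ℍ) : lam (S • τ) = 1 - lam τ := by
  rw [one_sub_lam, lam, thK_S, thF_S]
  field_simp [ne_zero τ, thF_ne_zero τ]

/-- `λ (τ + 1) = λ τ/(λ τ - 1)`. -/
lemma lam_T (τ : ℍ) : lam (T • τ) = lam τ / (lam τ - 1) := by
  rw [show lam τ - 1 = -(1 - lam τ) by ring, one_sub_lam, lam, lam, thK_T, thF_T]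
  field_simp [thF_ne_zero τ, thG_ne_zero τ]

/-- `λ` is holomorphic. -/
lemma mdiff_lam : MDiff lam := by
  rw [UpperHalfPlane.mdifferentiable_iff]
  exact (UpperHalfPlane.mdifferentiable_iff.1 mdiff_thK).neg.div
    (UpperHalfPlane.mdifferentiable_iff.1 mdiff_thF) fun z _ => thF_ne_zero _

lemma tendsto_lam : Tendsto lam atImInfty (𝓝 0) := by
  have := tendsto_thK.neg.div tendsto_thF one_ne_zero
  rw [neg_zero, zero_div] at this
  exact this

/-- The series of `λ` in `exp (πiτ)`. -/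
def lamPS : PowerSeries ℤ := 16 * PowerSeries.X * psiPS ^ 4 * PowerSeries.invOfUnit thFPS 1

lemma lamPS_mul_thFPS : lamPS * thFPS = -thKPS := by
  have h : thFPS * PowerSeries.invOfUnit thFPS 1 = 1 := PowerSeries.mul_invOfUnit _ _
    (by rw [thFPS, map_pow, constantCoeff_th3PS, one_pow, Units.val_one])
  rw [lamPS, thKPS, neg_neg, mul_assoc, mul_comm (PowerSeries.invOfUnit thFPS 1), h, mul_one]

lemma lam_T_T (τ : ℍ) : lam (T • (T • τ)) = lam τ := by
  simp only [lam, thK_T, thF_T, thG_T, neg_neg]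

/-- The expansion of `λ` in `exp (πiτ)`. -/
theorem hasExp_lam : HasExp 2 lam (ofPS lamPS) := by
  have hper : Function.Periodic (lam ∘ ofComplex) ((2 : ℕ) : ℂ) := fun z => by
    rcases le_or_gt z.im 0 with hz | hz
    · rw [Function.comp_apply, Function.comp_apply,
        ofComplex_apply_of_im_nonpos (by simpa using hz), ofComplex_apply_of_im_nonpos hz]
    · rw [Function.comp_apply, Function.comp_apply, ofComplex_apply_of_im_pos hz,
        ofComplex_apply_of_im_pos (by simpa using hz), ← lam_T_T ⟨z, hz⟩]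
      congr 1
      apply UpperHalfPlane.ext
      rw [coe_T_smul, coe_T_smul]
      push_cast
      ring
  obtain ⟨s, hs⟩ := exists_hasExp_of_bounded hper mdiff_lam (tendsto_lam.isBigO_one ℝ)
  have h1 : HasExp 2 (lam * thF) (ofPS (lamPS * thFPS)) := by
    have : lam * thF = -thK := funext fun τ => div_mul_cancel₀ _ (thF_ne_zero τ)
    rw [this, lamPS_mul_thFPS, map_neg]
    exact hasExp_thK.neg
  have h2 := (hs.mul hasExp_thF).series_eq h1
  rw [map_mul] at h2
  rw [← mul_right_cancel₀ ((map_ne_zero_iff _ ofPS_injective).2 thFPS_ne_zero) h2]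
  exact hs

/-- `λ` vanishes at `i∞`. -/
lemma constantCoeff_lamPS : PowerSeries.constantCoeff lamPS = 0 := by simp [lamPS]

/-- The series of `λ` starts with `16 exp (πiτ)`. -/
lemma coeff_one_lamPS : PowerSeries.coeff 1 lamPS = 16 := by
  rw [lamPS, show (16 : PowerSeries ℤ) = PowerSeries.C 16 from (map_ofNat _ 16).symm,
    mul_assoc, mul_assoc, PowerSeries.coeff_C_mul, PowerSeries.coeff_succ_X_mul,
    PowerSeries.coeff_zero_eq_constantCoeff, map_mul, map_pow, constantCoeff_psiPS,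
    PowerSeries.constantCoeff_invOfUnit]
  norm_num

end Fermat.Agent.AtP
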