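import Fermat.Agent.KummerES.RatioAlgebra
import Fermat.Agent.AtP.LambdaTheta

/-!
# The action of `SL(2,ℤ)` on `λ`

`mob δ x` is the cross ratio of the permuted branch values `0, 1, x`; `lam (δ • τ) = mob δ (lam τ)`.
-/

set_option autoImplicit false

noncomputable section

open UpperHalfPlane CongruenceSubgroup
open scoped MatrixGroups
open Fermat.Agent.KummerES

namespace Fermat.Agent.AtP

/-- The branch value attached to a nonzero vector modulo two. -/
def branchVal {K : Type*} [Zero K] [One K] (v : Ind 2) (x : K) : K :=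
  if v = ![1, 1] then x else if v = ![0, 1] then 1 else 0

/-- The Möbius transformation of `λ` attached to an element of `SL(2,ℤ)`. -/
def mob {K : Type*} [Field K] (δ : SL(2, ℤ)) (x : K) : K :=
  (branchVal (vAct ![1, 1] δ) x - branchVal (vAct ![1, 0] δ) x) /
    (branchVal (vAct ![0, 1] δ) x - branchVal (vAct ![1, 0] δ) x)

theorem ind_two_cases : ∀ v : Ind 2, v ≠ 0 → v = ![1, 1] ∨ v = ![1, 0] ∨ v = ![0, 1] := by decide

theorem vAct_two_injective (δ : SL(2, ℤ)) : Function.Injective fun v : Ind 2 => vAct v δ :=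
  fun v w h => by simpa [vAct_mul] using congrArg (fun u => vAct u δ⁻¹) h

theorem vAct_two_ne_zero (δ : SL(2, ℤ)) {v : Ind 2} (hv : v ≠ 0) : vAct v δ ≠ 0 :=
  fun h => hv (vAct_two_injective δ (h.trans (by simp [vAct])))

section Field

variable {K : Type*} [Field K] {x : K}

theorem branchVal_injective (hx0 : x ≠ 0) (hx1 : x ≠ 1) {v w : Ind 2} (hv : v ≠ 0) (hw : w ≠ 0)
    (h : branchVal v x = branchVal w x) : v = w := by
  have e : (![1, 0] : Ind 2) ≠ ![1, 1] ∧ (![0, 1] : Ind 2) ≠ ![1, 1] ∧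
      (![1, 0] : Ind 2) ≠ ![0, 1] := by decide
  rcases ind_two_cases v hv with rfl | rfl | rfl <;>
    rcases ind_two_cases w hw with rfl | rfl | rfl <;>
    first
    | rfl
    | (simp [branchVal, e.1, e.2.1, e.2.2, hx0, hx1, hx0.symm, hx1.symm] at h)

theorem mob_den_ne_zero (hx0 : x ≠ 0) (hx1 : x ≠ 1) (δ : SL(2, ℤ)) :
    branchVal (vAct ![0, 1] δ) x - branchVal (vAct ![1, 0] δ) x ≠ 0 := fun h => by
  have := branchVal_injective hx0 hx1 (vAct_two_ne_zero δ (by decide))
    (vAct_two_ne_zero δ (by decide)) (sub_eq_zero.1 h)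
  exact absurd (vAct_two_injective δ this) (by decide)

/-- The identity acts trivially on the values of `λ`. -/
theorem mob_one (x : K) : mob 1 x = x := by
  simp [mob, branchVal, show (![1, 0] : Ind 2) ≠ ![1, 1] by decide,
    show (![0, 1] : Ind 2) ≠ ![1, 1] by decide, show (![1, 0] : Ind 2) ≠ ![0, 1] by decide]

/-- `Γ(2)` acts trivially on the values of `λ`. -/
theorem mob_of_mem_Gamma {δ : SL(2, ℤ)} (h : δ ∈ Gamma 2) (x : K) : mob δ x = x := by
  have := mob_one x
  rw [mob] at this ⊢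
  rwa [vAct_of_mem_Gamma _ h, vAct_of_mem_Gamma _ h, vAct_of_mem_Gamma _ h, ← vAct_one ![1, 1],
    ← vAct_one ![1, 0], ← vAct_one ![0, 1]]

/-- The branch values of `mob δ x` are an affine image of the permuted ones of `x`. -/
theorem branchVal_vAct (hx0 : x ≠ 0) (hx1 : x ≠ 1) (δ : SL(2, ℤ)) {v : Ind 2} (hv : v ≠ 0) :
    branchVal (vAct v δ) x =
      (branchVal (vAct ![0, 1] δ) x - branchVal (vAct ![1, 0] δ) x) * branchVal v (mob δ x) +
        branchVal (vAct ![1, 0] δ) x := by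
  have hd := mob_den_ne_zero hx0 hx1 δ
  have e : (![1, 0] : Ind 2) ≠ ![1, 1] ∧ (![0, 1] : Ind 2) ≠ ![1, 1] ∧
      (![1, 0] : Ind 2) ≠ ![0, 1] := by decide
  rcases ind_two_cases v hv with rfl | rfl | rfl
  · rw [show branchVal (![1, 1] : Ind 2) (mob δ x) = mob δ x by simp [branchVal], mob]
    field_simp
    ring
  · simp [branchVal, e.1, e.2.2]
  · simp [branchVal, e.2.1]

/-- The Möbius transformations form an action. -/
theorem mob_mob (hx0 : x ≠ 0) (hx1 : x ≠ 1) (δ₁ δ₂ : SL(2, ℤ)) :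
    mob δ₁ (mob δ₂ x) = mob (δ₁ * δ₂) x := by
  have hd := mob_den_ne_zero hx0 hx1 δ₂
  have key : ∀ v : Ind 2, v ≠ 0 → branchVal (vAct v (δ₁ * δ₂)) x =
      (branchVal (vAct ![0, 1] δ₂) x - branchVal (vAct ![1, 0] δ₂) x) *
        branchVal (vAct v δ₁) (mob δ₂ x) + branchVal (vAct ![1, 0] δ₂) x := fun v hv => by
    rw [← vAct_mul, branchVal_vAct hx0 hx1 δ₂ (vAct_two_ne_zero δ₁ hv)]
  conv_rhs => rw [mob, key _ (by decide), key _ (by decide), key _ (by decide), add_sub_add_right_eq_sub,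
    add_sub_add_right_eq_sub, ← mul_sub, ← mul_sub, mul_div_mul_left _ _ hd]
  rfl

/-- The six possible transformations. -/
theorem mob_cases (δ : SL(2, ℤ)) :
    (∀ x : K, mob δ x = x) ∨ (∀ x : K, mob δ x = 1 - x) ∨ (∀ x : K, mob δ x = x⁻¹) ∨
      (∀ x : K, mob δ x = (1 - x)⁻¹) ∨ (∀ x : K, mob δ x = x / (x - 1)) ∨
      (∀ x : K, mob δ x = (x - 1) / x) := by
  have e : (![1, 0] : Ind 2) ≠ ![1, 1] ∧ (![0, 1] : Ind 2) ≠ ![1, 1] ∧
      (![1, 0] : Ind 2) ≠ ![0, 1] := by decide
  have hinj : ∀ {v w : Ind 2}, v ≠ w → vAct v δ ≠ vAct w δ :=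
    fun hne h => hne (vAct_two_injective δ h)
  rcases ind_two_cases _ (vAct_two_ne_zero δ (v := ![1, 1]) (by decide)) with ha | ha | ha <;>
    rcases ind_two_cases _ (vAct_two_ne_zero δ (v := ![1, 0]) (by decide)) with hb | hb | hb <;>
    rcases ind_two_cases _ (vAct_two_ne_zero δ (v := ![0, 1]) (by decide)) with hc | hc | hc <;>
    first
    | exact absurd (ha.trans hb.symm) (hinj (by decide))
    | exact absurd (ha.trans hc.symm) (hinj (by decide))
    | exact absurd (hb.trans hc.symm) (hinj (by decide))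
    | (refine Or.inl fun x => ?_
       rcases eq_or_ne x 0 with h0 | h0
       · simp [h0, mob, branchVal, ha, hb, hc, e.1, e.2.1, e.2.2]
       rcases eq_or_ne x 1 with h1 | h1
       · simp [h1, mob, branchVal, ha, hb, hc, e.1, e.2.1, e.2.2]
       have h2 : x - 1 ≠ 0 := sub_ne_zero.2 h1
       have h3 : 1 - x ≠ 0 := sub_ne_zero.2 h1.symm
       simp [mob, branchVal, ha, hb, hc, e.1, e.2.1, e.2.2]
       try field_simp
       try ring
       done)
    | (refine Or.inr (Or.inl fun x => ?_)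
       rcases eq_or_ne x 0 with h0 | h0
       · simp [h0, mob, branchVal, ha, hb, hc, e.1, e.2.1, e.2.2]
       rcases eq_or_ne x 1 with h1 | h1
       · simp [h1, mob, branchVal, ha, hb, hc, e.1, e.2.1, e.2.2]
       have h2 : x - 1 ≠ 0 := sub_ne_zero.2 h1
       have h3 : 1 - x ≠ 0 := sub_ne_zero.2 h1.symm
       simp [mob, branchVal, ha, hb, hc, e.1, e.2.1, e.2.2]
       try field_simp
       try ring
       done)
    | (refine Or.inr (Or.inr (Or.inl fun x => ?_))
       rcases eq_or_ne x 0 with h0 | h0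
       · simp [h0, mob, branchVal, ha, hb, hc, e.1, e.2.1, e.2.2]
       rcases eq_or_ne x 1 with h1 | h1
       · simp [h1, mob, branchVal, ha, hb, hc, e.1, e.2.1, e.2.2]
       have h2 : x - 1 ≠ 0 := sub_ne_zero.2 h1
       have h3 : 1 - x ≠ 0 := sub_ne_zero.2 h1.symm
       simp [mob, branchVal, ha, hb, hc, e.1, e.2.1, e.2.2]
       try field_simp
       try ring)
    | (refine Or.inr (Or.inr (Or.inr (Or.inl fun x => ?_)))
       rcases eq_or_ne x 0 with h0 | h0
       · simp [h0, mob, branchVal, ha, hb, hc, e.1, e.2.1, e.2.2]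
       rcases eq_or_ne x 1 with h1 | h1
       · simp [h1, mob, branchVal, ha, hb, hc, e.1, e.2.1, e.2.2]
       have h2 : x - 1 ≠ 0 := sub_ne_zero.2 h1
       have h3 : 1 - x ≠ 0 := sub_ne_zero.2 h1.symm
       simp [mob, branchVal, ha, hb, hc, e.1, e.2.1, e.2.2]
       try field_simp
       try ring)
    | (refine Or.inr (Or.inr (Or.inr (Or.inr (Or.inl fun x => ?_))))
       rcases eq_or_ne x 0 with h0 | h0
       · simp [h0, mob, branchVal, ha, hb, hc, e.1, e.2.1, e.2.2]
       rcases eq_or_ne x 1 with h1 | h1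
       · simp [h1, mob, branchVal, ha, hb, hc, e.1, e.2.1, e.2.2]
       have h2 : x - 1 ≠ 0 := sub_ne_zero.2 h1
       have h3 : 1 - x ≠ 0 := sub_ne_zero.2 h1.symm
       simp [mob, branchVal, ha, hb, hc, e.1, e.2.1, e.2.2]
       try field_simp
       try ring
       done)
    | (refine Or.inr (Or.inr (Or.inr (Or.inr (Or.inr fun x => ?_))))
       rcases eq_or_ne x 0 with h0 | h0
       · simp [h0, mob, branchVal, ha, hb, hc, e.1, e.2.1, e.2.2]
       rcases eq_or_ne x 1 with h1 | h1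
       · simp [h1, mob, branchVal, ha, hb, hc, e.1, e.2.1, e.2.2]
       have h2 : x - 1 ≠ 0 := sub_ne_zero.2 h1
       have h3 : 1 - x ≠ 0 := sub_ne_zero.2 h1.symm
       simp [mob, branchVal, ha, hb, hc, e.1, e.2.1, e.2.2]
       try field_simp
       try ring)

end Field

/-- The action of `S` and `T` on the nonzero vectors modulo two. -/
theorem vAct_S_T :
    (vAct (![1, 1] : Ind 2) ModularGroup.S = ![1, 1] ∧
      vAct (![1, 0] : Ind 2) ModularGroup.S = ![0, 1] ∧
      vAct (![0, 1] : Ind 2) ModularGroup.S = ![1, 0]) ∧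
    (vAct (![1, 1] : Ind 2) ModularGroup.T = ![1, 0] ∧
      vAct (![1, 0] : Ind 2) ModularGroup.T = ![1, 1] ∧
      vAct (![0, 1] : Ind 2) ModularGroup.T = ![0, 1]) := by
  decide

/-- The transformation law of `λ`. -/
theorem lam_smul (δ : SL(2, ℤ)) (τ : ℍ) : lam (δ • τ) = mob δ (lam τ) := by
  have hmem : δ ∈ Subgroup.closure ({ModularGroup.S, ModularGroup.T} : Set SL(2, ℤ)) := by
    simp [SpecialLinearGroup.SL2Z_generators]
  induction hmem using Subgroup.closure_induction generalizing τ with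
  | mem g hg =>
    obtain ⟨⟨a1, a2, a3⟩, b1, b2, b3⟩ := vAct_S_T
    rcases hg with rfl | rfl
    · rw [lam_S, mob, a1, a2, a3]
      simp [branchVal, show (![1, 0] : Ind 2) ≠ ![1, 1] by decide,
        show (![0, 1] : Ind 2) ≠ ![1, 1] by decide, show (![1, 0] : Ind 2) ≠ ![0, 1] by decide,
        div_neg]
    · rw [lam_T, mob, b1, b2, b3]
      simp [branchVal, show (![1, 0] : Ind 2) ≠ ![1, 1] by decide,
        show (![0, 1] : Ind 2) ≠ ![1, 1] by decide, show (![1, 0] : Ind 2) ≠ ![0, 1] by decide]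
      rw [← neg_sub (lam τ) 1, div_neg, neg_div, neg_neg]
  | one => rw [one_smul, mob_one]
  | mul g₁ g₂ _ _ h₁ h₂ => rw [mul_smul, h₁, h₂, mob_mob (lam_ne_zero τ) (lam_ne_one τ)]
  | inv g _ h =>
    have e := h (g⁻¹ • τ)
    rw [smul_inv_smul] at e
    rw [e, mob_mob (lam_ne_zero _) (lam_ne_one _), inv_mul_cancel, mob_one]

/-- `λ` is invariant under `Γ(2)`. -/
theorem comp_lam_of_mem_Gamma {γ : SL(2, ℤ)} (h : γ ∈ Gamma 2) : comp lam γ = lam :=
  funext fun τ => by rw [comp_apply, lam_smul, mob_of_mem_Gamma h]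

end Fermat.Agent.AtP
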