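import Mathlib.NumberTheory.ModularForms.NormTrace
import Fermat.Agent.KummerES.RatioExp
import Fermat.Agent.AtP.LambdaMobius

/-!
# `weak Γ(2) 2 B` is the ring `B[λ, 1/λ, 1/(1-λ)]` when `1/2 ∈ B`
-/

set_option autoImplicit false

noncomputable section

open UpperHalfPlane CongruenceSubgroup Filter Topology
open scoped MatrixGroups Manifold ModularForm
open Fermat.Agent.KummerES

namespace Fermat.Agent.AtP

/-- No terms of negative degree. -/
def IsRegularSeries (s : LaurentSeries ℂ) : Prop := ∀ i < 0, s.coeff i = 0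

/-- Integral power series give regular series. -/
lemma isRegularSeries_ofPS (s : PowerSeries ℤ) : IsRegularSeries (ofPS s) :=
  fun _ hi => ofPS_coeff_neg s hi

lemma ofPS_mem_coeffSubring (B : Subring ℂ) (s : PowerSeries ℤ) : ofPS s ∈ coeffSubring B :=
  fun i => by
  rcases lt_or_ge i 0 with hi | hi
  · rw [ofPS_coeff_neg s hi]; exact zero_mem _
  · lift i to ℕ using hi
    rw [ofPS_coeff_natCast]
    exact intCast_mem _ _

/-! ## The series of the six functions -/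

/-- `λ / 16 s`. -/
def wPS : PowerSeries ℤ := psiPS ^ 4 * PowerSeries.invOfUnit thFPS 1

/-- `λ = 16 s wPS` as series. -/
lemma lamPS_eq : lamPS = 16 * PowerSeries.X * wPS := by rw [lamPS, wPS]; ring

/-- The constant term of `wPS` is `1`. -/
lemma constantCoeff_wPS : PowerSeries.constantCoeff wPS = 1 := by
  simp [wPS, constantCoeff_psiPS]

/-- `16 s / λ`. -/
def wInvPS : PowerSeries ℤ := PowerSeries.invOfUnit wPS 1

/-- `1 / (1 - λ)`. -/
def oneSubInvPS : PowerSeries ℤ := PowerSeries.invOfUnit (1 - lamPS) 1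

lemma wPS_mul_inv : wPS * wInvPS = 1 :=
  PowerSeries.mul_invOfUnit _ _ (by rw [constantCoeff_wPS, Units.val_one])

lemma oneSub_mul_inv : (1 - lamPS) * oneSubInvPS = 1 :=
  PowerSeries.mul_invOfUnit _ _ (by simp [constantCoeff_lamPS])

/-- The constant term of `wInvPS` is `1`. -/
lemma constantCoeff_wInvPS : PowerSeries.constantCoeff wInvPS = 1 := by simp [wInvPS]

/-- The series of `1 / λ`. -/
def lamInvS : LaurentSeries ℂ := HahnSeries.single (-1 : ℤ) (16⁻¹ : ℂ) * ofPS wInvPS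

/-- The parameter as a Laurent series. -/
lemma ofPS_X : ofPS PowerSeries.X = HahnSeries.single (1 : ℤ) (1 : ℂ) := by simp [ofPS]

lemma ofPS_lamPS_mul_lamInvS : ofPS lamPS * lamInvS = 1 := by
  have h16 : (16 : LaurentSeries ℂ) = HahnSeries.single (0 : ℤ) (16 : ℂ) :=
    (map_ofNat (HahnSeries.C (Γ := ℤ) (R := ℂ)) 16).symm
  rw [lamPS_eq, lamInvS, map_mul, map_mul, map_ofNat, ofPS_X, h16]
  calc HahnSeries.single (0 : ℤ) (16 : ℂ) * HahnSeries.single (1 : ℤ) (1 : ℂ) * ofPS wPS *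
        (HahnSeries.single (-1 : ℤ) (16⁻¹ : ℂ) * ofPS wInvPS)
      = HahnSeries.single (0 : ℤ) (16 : ℂ) * HahnSeries.single (1 : ℤ) (1 : ℂ) *
          HahnSeries.single (-1 : ℤ) (16⁻¹ : ℂ) * ofPS (wPS * wInvPS) := by rw [map_mul]; ring
    _ = 1 := by
      rw [wPS_mul_inv, map_one ofPS, mul_one, HahnSeries.single_mul_single,
        HahnSeries.single_mul_single]
      simp

lemma ofPS_lamPS_ne_zero : ofPS lamPS ≠ 0 := left_ne_zero_of_mul_eq_one ofPS_lamPS_mul_lamInvS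

/-- The expansion of `1/λ`. -/
lemma hasExp_lam_inv : HasExp 2 (fun τ => (lam τ)⁻¹) lamInvS := by
  have h := hasExp_lam.inv lam_ne_zero ofPS_lamPS_ne_zero
  rwa [inv_eq_of_mul_eq_one_right ofPS_lamPS_mul_lamInvS] at h

/-- The expansion of `1 - λ`. -/
lemma hasExp_one_sub_lam : HasExp 2 (fun τ => 1 - lam τ) (ofPS (1 - lamPS)) := by
  rw [map_sub, map_one]
  exact HasExp.one.sub hasExp_lam

/-- The expansion of `1/(1 - λ)`. -/
lemma hasExp_one_sub_lam_inv : HasExp 2 (fun τ => (1 - lam τ)⁻¹) (ofPS oneSubInvPS) := by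
  have h : ofPS (1 - lamPS) * ofPS oneSubInvPS = 1 := by
    rw [← map_mul, oneSub_mul_inv, map_one]
  have hh := hasExp_one_sub_lam.inv (fun τ => sub_ne_zero.2 (lam_ne_one τ).symm)
    (left_ne_zero_of_mul_eq_one h)
  rwa [inv_eq_of_mul_eq_one_right h] at hh

/-- The expansion of `λ/(λ - 1)`. -/
lemma hasExp_lam_div : HasExp 2 (fun τ => lam τ / (lam τ - 1)) (ofPS (-(lamPS * oneSubInvPS))) := by
  rw [map_neg, map_mul]
  convert (hasExp_lam.mul hasExp_one_sub_lam_inv).neg using 1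
  funext τ
  simp only [Pi.neg_apply, Pi.mul_apply, div_eq_mul_inv]
  rw [show lam τ - 1 = -(1 - lam τ) by ring, inv_neg]
  ring

/-- The series of `(λ - 1) / λ`, with its leading term split off. -/
lemma hasExp_sub_div : HasExp 2 (fun τ => (lam τ - 1) / lam τ)
    (HahnSeries.single (-1 : ℤ) (-16⁻¹ : ℂ) * ofPS (wInvPS - 16 * PowerSeries.X)) := by
  have h : (1 : LaurentSeries ℂ) - lamInvS =
      HahnSeries.single (-1 : ℤ) (-16⁻¹ : ℂ) * ofPS (wInvPS - 16 * PowerSeries.X) := by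
    rw [map_sub, map_mul, map_ofNat, ofPS_X, mul_sub, lamInvS,
      show (16 : LaurentSeries ℂ) = HahnSeries.single (0 : ℤ) (16 : ℂ) from
        (map_ofNat (HahnSeries.C (Γ := ℤ) (R := ℂ)) 16).symm,
      HahnSeries.single_mul_single, HahnSeries.single_mul_single]
    have hneg : HahnSeries.single (-1 : ℤ) (-16⁻¹ : ℂ) = -HahnSeries.single (-1 : ℤ) (16⁻¹ : ℂ) := by
      ext i
      rcases eq_or_ne i (-1) with rfl | hi <;> simp [*]
    have h1 : HahnSeries.single ((-1 : ℤ) + (0 + 1)) ((-16⁻¹ : ℂ) * (16 * 1)) = (-1 : LaurentSeries ℂ) := by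
      ext i
      rcases eq_or_ne i 0 with rfl | hi <;> simp [*, HahnSeries.coeff_one]
    rw [h1, hneg]
    ring
  rw [← h]
  convert HasExp.one.sub hasExp_lam_inv using 1
  funext τ
  simp only [Pi.sub_apply, Pi.one_apply]
  rw [sub_div, div_self (lam_ne_zero τ), one_div]

/-! ## Membership -/

variable {B : Subring ℂ}

/-- `λ ∘ δ` is a Möbius transform of `λ`. -/
lemma comp_lam_eq (δ : SL(2, ℤ)) : comp lam δ = fun τ => mob δ (lam τ) :=
  funext fun τ => by rw [comp_apply, lam_smul]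

/-- `1/16` lies in a ring containing `1/2`. -/
lemma inv_sixteen_mem (hB : (2 : ℂ)⁻¹ ∈ B) : (16 : ℂ)⁻¹ ∈ B := by
  rw [show (16 : ℂ) = 2 ^ 4 by norm_num, ← inv_pow]
  exact pow_mem hB 4

/-- `λ` is weakly holomorphic of level two. -/
lemma lam_mem_weak (hB : (2 : ℂ)⁻¹ ∈ B) : lam ∈ weak (Gamma 2) 2 B := by
  refine ⟨mdiff_lam, fun γ hγ => comp_lam_of_mem_Gamma hγ, fun δ => ?_⟩
  rw [comp_lam_eq]
  have hsingle : ∀ c : ℂ, c ∈ B → ∀ s : PowerSeries ℤ,
      HahnSeries.single (-1 : ℤ) c * ofPS s ∈ coeffSubring B :=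
    fun c hc s => mul_mem (single_mem_coeffSubring _ hc) (ofPS_mem_coeffSubring B s)
  rcases mob_cases (K := ℂ) δ with h | h | h | h | h | h <;> simp only [h]
  · exact ⟨_, ofPS_mem_coeffSubring B _, hasExp_lam⟩
  · exact ⟨_, ofPS_mem_coeffSubring B _, hasExp_one_sub_lam⟩
  · exact ⟨_, hsingle _ (inv_sixteen_mem hB) _, hasExp_lam_inv⟩
  · exact ⟨_, ofPS_mem_coeffSubring B _, hasExp_one_sub_lam_inv⟩
  · exact ⟨_, ofPS_mem_coeffSubring B _, hasExp_lam_div⟩
  · exact ⟨_, hsingle _ (neg_mem (inv_sixteen_mem hB)) _, hasExp_sub_div⟩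

/-- `S` acts by `x ↦ 1 - x`. -/
lemma mob_S (x : ℂ) : mob ModularGroup.S x = 1 - x := by
  obtain ⟨⟨a1, a2, a3⟩, -⟩ := vAct_S_T
  simp [mob, branchVal, a1, a2, a3, show (![1, 0] : Ind 2) ≠ ![1, 1] by decide,
    show (![0, 1] : Ind 2) ≠ ![1, 1] by decide, show (![1, 0] : Ind 2) ≠ ![0, 1] by decide,
    div_neg]

/-- `δ` with `λ ∘ δ = 1 / λ`. -/
def invElt : SL(2, ℤ) := ModularGroup.T * ModularGroup.S * ModularGroup.T

lemma lam_invElt (τ : ℍ) : lam (invElt • τ) = (lam τ)⁻¹ := by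
  have h1 : lam τ - 1 ≠ 0 := sub_ne_zero.2 (lam_ne_one τ)
  have e : ((lam τ - 1 - lam τ) / (lam τ - 1)) - 1 = -lam τ / (lam τ - 1) := by
    field_simp
    ring
  simp only [invElt, mul_smul, lam_T, lam_S]
  rw [one_sub_div h1, e]
  field_simp [lam_ne_zero τ]
  ring

lemma lam_invElt_S (τ : ℍ) : lam ((invElt * ModularGroup.S) • τ) = (1 - lam τ)⁻¹ := by
  rw [mul_smul, lam_invElt, lam_S]

/-- `1/λ` is weakly holomorphic of level two. -/
lemma lam_inv_mem_weak (hB : (2 : ℂ)⁻¹ ∈ B) : (fun τ => (lam τ)⁻¹) ∈ weak (Gamma 2) 2 B := by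
  have : (Gamma 2).Normal := Gamma_normal 2
  have h := comp_mem_weak (lam_mem_weak hB) invElt
  rwa [show comp lam invElt = fun τ => (lam τ)⁻¹ from funext lam_invElt] at h

/-- `1/(1 - λ)` is weakly holomorphic of level two. -/
lemma one_sub_lam_inv_mem_weak (hB : (2 : ℂ)⁻¹ ∈ B) :
    (fun τ => (1 - lam τ)⁻¹) ∈ weak (Gamma 2) 2 B := by
  have : (Gamma 2).Normal := Gamma_normal 2
  have h := comp_mem_weak (lam_mem_weak hB) (invElt * ModularGroup.S)
  rwa [show comp lam (invElt * ModularGroup.S) = fun τ => (1 - lam τ)⁻¹ from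
    funext lam_invElt_S] at h

/-! ## Cusps -/

/-- Representatives of the three cusps of `Γ(2)`. -/
def cuspRep : Fin 3 → SL(2, ℤ) := ![1, ModularGroup.S, ModularGroup.T * ModularGroup.S]

/-- Every cusp is equivalent to one of the three representatives. -/
lemma exists_cuspRep (δ : SL(2, ℤ)) :
    ∃ (c : Fin 3) (k : ℕ), δ * (cuspRep c * ModularGroup.T ^ k)⁻¹ ∈ Gamma 2 := by
  have key : ∀ M : Matrix (Fin 2) (Fin 2) (ZMod 2), M.det = 1 → ∃ (c : Fin 3) (k : Fin 2),
      M = ((cuspRep c * ModularGroup.T ^ (k : ℕ) : SL(2, ℤ)) : Matrix (Fin 2) (Fin 2) ℤ).map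
        (Int.castRingHom (ZMod 2)) := by
    decide
  set f : SL(2, ℤ) →* SL(2, ZMod 2) := Matrix.SpecialLinearGroup.map (Int.castRingHom (ZMod 2))
  obtain ⟨c, k, h⟩ := key (f δ : SL(2, ZMod 2)) (f δ).2
  refine ⟨c, k, ?_⟩
  have e : f δ = f (cuspRep c * ModularGroup.T ^ (k : ℕ)) := Subtype.ext h
  rw [Gamma, MonoidHom.mem_ker]
  change f _ = 1
  rw [map_mul, map_inv, e, mul_inv_cancel]

variable (B) in
/-- Constants. -/
def constHom : B →+* weak (Gamma 2) 2 B where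
  toFun b := ⟨fun _ => (b : ℂ), const_mem_weak b.2⟩
  map_one' := rfl
  map_zero' := rfl
  map_add' _ _ := rfl
  map_mul' _ _ := rfl

lemma expAt_constHom (δ : SL(2, ℤ)) (b : B) :
    expAt (Gamma 2) 2 B δ (constHom B b) = HahnSeries.single 0 (b : ℂ) :=
  HasExp.expansion_eq (f := comp (fun _ => (b : ℂ)) δ) (HasExp.const _)

/-- A function regular at the three cusps is constant. -/
theorem eq_constHom_of_regular (f : weak (Gamma 2) 2 B)
    (hreg : ∀ c, IsRegularSeries (expAt (Gamma 2) 2 B (cuspRep c) f)) :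
    ∃ b : B, f = constHom B b := by
  have hall : ∀ δ : SL(2, ℤ), ∃ s, IsRegularSeries s ∧ HasExp 2 (comp f.1 δ) s := fun δ => by
    obtain ⟨c, k, hγ⟩ := exists_cuspRep δ
    have hh := (hasExp_expansion f.2 (cuspRep c)).comp_T_zpow (k : ℤ)
    refine ⟨twist _ (zpow_ne_zero (k : ℤ) (zetaC_ne_zero 2)) (expansion 2 (comp f.1 (cuspRep c))),
      fun i hi => ?_, ?_⟩
    · exact (twist_coeff _ _ _ _).trans (by
        rw [show (expansion 2 (comp f.1 (cuspRep c))).coeff i = 0 from hreg c i hi, mul_zero])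
    · rw [comp_comp, zpow_natCast ModularGroup.T k] at hh
      convert hh using 1
      conv_lhs => rw [← inv_mul_cancel_right δ (cuspRep c * ModularGroup.T ^ k), ← comp_comp,
        f.2.2.1 _ hγ]
  have hbdd : ∀ γ : SL(2, ℤ), IsBoundedAtImInfty (f.1 ∣[(0 : ℤ)] γ) := fun γ => by
    obtain ⟨s, hs, hh⟩ := hall γ
    have e : (f.1 ∣[(0 : ℤ)] γ) = comp f.1 γ := by
      funext τ
      rw [ModularForm.SL_slash_apply]
      simp
    rw [e]
    exact (hh.tendsto_atImInfty hs).isBigO_one ℝ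
  let F : ModularForm ((Gamma 2 : Subgroup SL(2, ℤ)) : Subgroup (GL (Fin 2) ℝ)) 0 :=
    { toFun := f.1
      slash_action_eq' := by
        rintro _ ⟨γ, hγ, rfl⟩
        funext τ
        change (f.1 ∣[(0 : ℤ)] (γ : SL(2, ℤ))) τ = f.1 τ
        rw [ModularForm.SL_slash_apply]
        simpa using congrFun (f.2.2.1 γ hγ) τ
      holo' := f.2.1
      bdd_at_cusps' := fun hc => by
        rw [Subgroup.IsArithmetic.isCusp_iff_isCusp_SL2Z] at hc
        rw [OnePoint.isBoundedAt_iff_forall_SL2Z hc]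
        exact fun γ _ => hbdd γ }
  obtain ⟨a, ha⟩ := ModularForm.eq_const_of_weight_zero F
  have hfa : f.1 = fun _ => a := ha
  have hexp : expAt (Gamma 2) 2 B 1 f = HahnSeries.single 0 a := by
    refine HasExp.expansion_eq ?_
    rw [hfa]
    exact HasExp.const a
  have hab : a ∈ B := by
    have := expansion_mem f.2 (1 : SL(2, ℤ)) 0
    rw [← expAt_apply, hexp] at this
    simpa using this
  exact ⟨⟨a, hab⟩, Subtype.ext hfa⟩

/-- The function with a simple pole at the cusp `c` only. -/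
def poleFun : Fin 3 → ℍ → ℂ :=
  ![fun τ => (lam τ)⁻¹, fun τ => (1 - lam τ)⁻¹, lam]

lemma poleFun_mem (hB : (2 : ℂ)⁻¹ ∈ B) : ∀ c, poleFun c ∈ weak (Gamma 2) 2 B
  | 0 => lam_inv_mem_weak hB
  | 1 => one_sub_lam_inv_mem_weak hB
  | 2 => lam_mem_weak hB

/-- `poleFun` in the weak ring. -/
def pole (hB : (2 : ℂ)⁻¹ ∈ B) (c : Fin 3) : weak (Gamma 2) 2 B := ⟨poleFun c, poleFun_mem hB c⟩

/-- `λ` at the third cusp. -/
lemma lam_cuspRep_two (τ : ℍ) :
    lam ((ModularGroup.T * ModularGroup.S) • τ) = (lam τ - 1) / lam τ := by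
  rw [mul_smul, lam_T, lam_S, show 1 - lam τ - 1 = -lam τ by ring, div_neg, ← neg_div, neg_sub]

lemma expAt_pole (hB : (2 : ℂ)⁻¹ ∈ B) (c : Fin 3) :
    (∃ (e : ℂ) (w : PowerSeries ℤ), (e = 16⁻¹ ∨ e = -16⁻¹) ∧ PowerSeries.constantCoeff w = 1 ∧
      expAt (Gamma 2) 2 B (cuspRep c) (pole hB c) =
        HahnSeries.single (-1 : ℤ) e * ofPS w) ∧
    ∀ c' ≠ c, IsRegularSeries (expAt (Gamma 2) 2 B (cuspRep c') (pole hB c)) := by
  have hS : ∀ τ, 1 - lam (ModularGroup.S • τ) = lam τ := fun τ => by rw [lam_S]; ring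
  have hTS : ∀ τ, 1 - (lam τ - 1) / lam τ = (lam τ)⁻¹ := fun τ => by
    field_simp [lam_ne_zero τ]
    ring
  have E : ∀ (g : ℍ → ℂ) (hg : g ∈ weak (Gamma 2) 2 B) (δ : SL(2, ℤ)) (s : LaurentSeries ℂ),
      HasExp 2 (fun τ => g (δ • τ)) s → expAt (Gamma 2) 2 B δ ⟨g, hg⟩ = s :=
    fun g hg δ s h => HasExp.expansion_eq h
  have hr : PowerSeries.constantCoeff (wInvPS - 16 * PowerSeries.X) = 1 := by
    simp [constantCoeff_wInvPS]
  have E' : ∀ (g : ℍ → ℂ) (hg : g ∈ weak (Gamma 2) 2 B) (δ : SL(2, ℤ)) (h : ℍ → ℂ)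
      (s : LaurentSeries ℂ), (∀ τ, g (δ • τ) = h τ) → HasExp 2 h s →
      expAt (Gamma 2) 2 B δ ⟨g, hg⟩ = s :=
    fun g hg δ h s e hh => E g hg δ s (by rwa [funext e])
  have hR : ∀ (g : ℍ → ℂ) (hg : g ∈ weak (Gamma 2) 2 B) (δ : SL(2, ℤ)) (h : ℍ → ℂ)
      (s : PowerSeries ℤ), (∀ τ, g (δ • τ) = h τ) → HasExp 2 h (ofPS s) →
      IsRegularSeries (expAt (Gamma 2) 2 B δ ⟨g, hg⟩) := fun g hg δ h s e hh => by
    rw [E' g hg δ h _ e hh]
    exact isRegularSeries_ofPS _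
  fin_cases c <;> (refine ⟨?_, fun c' hc' => ?_⟩)
  · exact ⟨_, _, Or.inl rfl, constantCoeff_wInvPS,
      E' _ _ _ _ _ (fun τ => congrArg (poleFun 0) (one_smul _ τ)) hasExp_lam_inv⟩
  · fin_cases c'
    · exact absurd rfl hc'
    · exact hR _ _ _ _ _ (fun τ => congrArg (fun z : ℂ => z⁻¹) (lam_S τ)) hasExp_one_sub_lam_inv
    · exact hR _ _ _ _ _ (fun τ => (congrArg (fun z : ℂ => z⁻¹) (lam_cuspRep_two τ)).trans
        (inv_div _ _)) hasExp_lam_div
  · exact ⟨_, _, Or.inl rfl, constantCoeff_wInvPS,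
      E' _ _ _ _ _ (fun τ => congrArg (fun z : ℂ => z⁻¹) (hS τ)) hasExp_lam_inv⟩
  · fin_cases c'
    · exact hR _ _ _ _ _ (fun τ => congrArg (poleFun 1) (one_smul _ τ)) hasExp_one_sub_lam_inv
    · exact absurd rfl hc'
    · refine hR _ _ _ _ _ (fun τ => ?_) hasExp_lam
      show (1 - lam ((ModularGroup.T * ModularGroup.S) • τ))⁻¹ = _
      rw [lam_cuspRep_two, hTS, inv_inv]
  · exact ⟨_, _, Or.inr rfl, hr, E' _ _ _ _ _ lam_cuspRep_two hasExp_sub_div⟩
  · fin_cases c'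
    · exact hR _ _ _ _ _ (fun τ => congrArg lam (one_smul _ τ)) hasExp_lam
    · exact hR _ _ _ _ _ lam_S hasExp_one_sub_lam
    · exact absurd rfl hc'

/-- Principal parts at one cusp can be removed by a polynomial in its pole function. -/
theorem exists_clear (hB : (2 : ℂ)⁻¹ ∈ B) (c : Fin 3) (f : weak (Gamma 2) 2 B) :
    ∃ Q : Polynomial B,
      IsRegularSeries (expAt (Gamma 2) 2 B (cuspRep c)
        (f - Q.eval₂ (constHom B) (pole hB c))) ∧
      ∀ c' ≠ c, ∀ i < 0,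
        (expAt (Gamma 2) 2 B (cuspRep c') (f - Q.eval₂ (constHom B) (pole hB c))).coeff i =
          (expAt (Gamma 2) 2 B (cuspRep c') f).coeff i := by
  obtain ⟨⟨e, w, he, hw, hpole⟩, hoth⟩ := expAt_pole hB c
  have he0 : e ≠ 0 := by rcases he with rfl | rfl <;> norm_num
  have heB : e⁻¹ ∈ B := by
    rcases he with rfl | rfl
    · rw [inv_inv]; exact natCast_mem B 16
    · rw [inv_neg, inv_inv]; exact neg_mem (natCast_mem B 16)
  suffices H : ∀ (n : ℕ) (g : weak (Gamma 2) 2 B),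
      (∀ i < -(n : ℤ), (expAt (Gamma 2) 2 B (cuspRep c) g).coeff i = 0) →
      ∃ Q : Polynomial B, IsRegularSeries (expAt (Gamma 2) 2 B (cuspRep c)
        (g - Q.eval₂ (constHom B) (pole hB c))) ∧
      ∀ c' ≠ c, ∀ i < 0,
        (expAt (Gamma 2) 2 B (cuspRep c') (g - Q.eval₂ (constHom B) (pole hB c))).coeff i =
          (expAt (Gamma 2) 2 B (cuspRep c') g).coeff i by
    set m := (expAt (Gamma 2) 2 B (cuspRep c) f).order
    refine H (-m).toNat f fun i hi => HahnSeries.coeff_eq_zero_of_lt_order (show i < m by omega)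
  intro n
  induction n with
  | zero => exact fun g hg => ⟨0, by
    simp only [Polynomial.eval₂_zero, sub_zero]
    exact fun i hi => hg i (by simpa using hi), by simp⟩
  | succ n ih =>
    intro g hg
    set a : ℂ := (expAt (Gamma 2) 2 B (cuspRep c) g).coeff (-((n + 1 : ℕ) : ℤ)) * e⁻¹ ^ (n + 1)
    have haB : a ∈ B := mul_mem (expansion_mem g.2 _ _) (pow_mem heB _)
    set u := constHom B ⟨a, haB⟩ * pole hB c ^ (n + 1)
    have hu : ∀ d, expAt (Gamma 2) 2 B (cuspRep d) u =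
        HahnSeries.single 0 a * expAt (Gamma 2) 2 B (cuspRep d) (pole hB c) ^ (n + 1) := fun d => by
      rw [map_mul, map_pow, expAt_constHom]
    have hexp : expAt (Gamma 2) 2 B (cuspRep c) u =
        HahnSeries.single (-((n + 1 : ℕ) : ℤ)) (a * e ^ (n + 1)) * ofPS (w ^ (n + 1)) := by
      rw [hu, hpole, mul_pow, HahnSeries.single_pow, map_pow ofPS, ← mul_assoc,
        HahnSeries.single_mul_single, zero_add]
      simp
    have key : ∀ i < -(n : ℤ), (expAt (Gamma 2) 2 B (cuspRep c) (g - u)).coeff i = 0 := by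
      intro i hi
      rw [map_sub, HahnSeries.coeff_sub, hexp, HahnSeries.coeff_single_mul]
      rcases lt_or_ge i (-((n + 1 : ℕ) : ℤ)) with h | h
      · rw [hg i h, ofPS_coeff_neg _ (by omega), mul_zero, sub_zero]
      · obtain rfl : i = -((n + 1 : ℕ) : ℤ) := by push_cast at h ⊢; omega
        rw [sub_self, show (0 : ℤ) = ((0 : ℕ) : ℤ) from rfl, ofPS_coeff_natCast,
          PowerSeries.coeff_zero_eq_constantCoeff_apply, map_pow, hw, one_pow, Int.cast_one,
          mul_one]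
        simp only [a, inv_pow]
        rw [mul_assoc, inv_mul_cancel₀ (pow_ne_zero _ he0), mul_one, sub_self]
    obtain ⟨Q, hQ1, hQ2⟩ := ih (g - u) key
    have e2 : g - (Q + Polynomial.monomial (n + 1) (⟨a, haB⟩ : B)).eval₂ (constHom B) (pole hB c) =
        (g - u) - Q.eval₂ (constHom B) (pole hB c) := by
      rw [Polynomial.eval₂_add, Polynomial.eval₂_monomial]; ring
    refine ⟨Q + Polynomial.monomial (n + 1) (⟨a, haB⟩ : B), by rw [e2]; exact hQ1, fun c' hc' i hi => ?_⟩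
    have hreg : (expAt (Gamma 2) 2 B (cuspRep c') u).coeff i = 0 := by
      rw [hu, HahnSeries.coeff_single_zero_mul]
      refine mul_eq_zero_of_right _ ?_
      have : ∀ k : ℕ, IsRegularSeries (expAt (Gamma 2) 2 B (cuspRep c') (pole hB c) ^ k) := by
        intro k
        induction k with
        | zero => intro j hj; simp [HahnSeries.coeff_one, hj.ne]
        | succ k ihk =>
          intro j hj
          rw [pow_succ, HahnSeries.coeff_mul]
          refine Finset.sum_eq_zero fun q hq => ?_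
          obtain ⟨-, -, hsum⟩ := Finset.mem_antidiagonal.mp hq
          rcases lt_or_ge q.1 0 with hq1 | hq1
          · rw [ihk _ hq1, zero_mul]
          · rw [hoth c' hc' q.2 (by omega), mul_zero]
      exact this _ i hi
    rw [e2, hQ2 c' hc' i hi, map_sub, HahnSeries.coeff_sub, hreg, sub_zero]

lemma coe_eval₂_pole (hB : (2 : ℂ)⁻¹ ∈ B) (c : Fin 3) (Q : Polynomial B) (τ : ℍ) :
    (Q.eval₂ (constHom B) (pole hB c)).1 τ = Q.eval₂ B.subtype (poleFun c τ) := by
  induction Q using Polynomial.induction_on' with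
  | add p q hp hq => rw [Polynomial.eval₂_add, Polynomial.eval₂_add, ← hp, ← hq]; rfl
  | monomial n a =>
    rw [Polynomial.eval₂_monomial, Polynomial.eval₂_monomial]
    rfl

/-- Partial fractions in `λ`. -/
theorem exists_partialFractions (hB : (2 : ℂ)⁻¹ ∈ B) {f : ℍ → ℂ} (hf : f ∈ weak (Gamma 2) 2 B) :
    ∃ P Q R : Polynomial B, ∀ τ, f τ = P.eval₂ B.subtype (lam τ)⁻¹ +
      Q.eval₂ B.subtype (1 - lam τ)⁻¹ + R.eval₂ B.subtype (lam τ) := by
  obtain ⟨P, hP1, hP2⟩ := exists_clear hB 0 ⟨f, hf⟩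
  set f1 := (⟨f, hf⟩ : weak (Gamma 2) 2 B) - P.eval₂ (constHom B) (pole hB 0)
  obtain ⟨Q, hQ1, hQ2⟩ := exists_clear hB 1 f1
  set f2 := f1 - Q.eval₂ (constHom B) (pole hB 1)
  obtain ⟨R, hR1, hR2⟩ := exists_clear hB 2 f2
  obtain ⟨b, hb⟩ := eq_constHom_of_regular (f2 - R.eval₂ (constHom B) (pole hB 2)) fun c i hi => by
    fin_cases c
    · exact (hR2 0 (by decide) i hi).trans ((hQ2 0 (by decide) i hi).trans (hP1 i hi))
    · exact (hR2 1 (by decide) i hi).trans (hQ1 i hi)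
    · exact hR1 i hi
  refine ⟨P, Q, R + Polynomial.C b, fun τ => ?_⟩
  have := congrArg (fun g : weak (Gamma 2) 2 B => g.1 τ) hb
  simp only [f2, f1] at this
  change f τ - (P.eval₂ (constHom B) (pole hB 0)).1 τ - (Q.eval₂ (constHom B) (pole hB 1)).1 τ -
    (R.eval₂ (constHom B) (pole hB 2)).1 τ = (b : ℂ) at this
  rw [coe_eval₂_pole, coe_eval₂_pole, coe_eval₂_pole] at this
  rw [Polynomial.eval₂_add, Polynomial.eval₂_C]
  simp only [poleFun, Matrix.cons_val_zero, Matrix.cons_val_one, Matrix.cons_val] at this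
  change f τ = _ + _ + (_ + (b : ℂ))
  linear_combination this

/-- A function regular at the cusps where `λ` is `0` or `1` is a polynomial in `λ`. -/
theorem exists_polynomial (hB : (2 : ℂ)⁻¹ ∈ B) {f : ℍ → ℂ} (hf : f ∈ weak (Gamma 2) 2 B)
    (h0 : ∀ s, HasExp 2 f s → IsRegularSeries s)
    (h1 : ∀ s, HasExp 2 (comp f ModularGroup.S) s → IsRegularSeries s) :
    ∃ R : Polynomial B, ∀ τ, f τ = R.eval₂ B.subtype (lam τ) := by
  obtain ⟨R, hR1, hR2⟩ := exists_clear hB 2 ⟨f, hf⟩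
  obtain ⟨b, hb⟩ := eq_constHom_of_regular
    ((⟨f, hf⟩ : weak (Gamma 2) 2 B) - R.eval₂ (constHom B) (pole hB 2)) fun c i hi => by
    fin_cases c
    · refine (hR2 0 (by decide) i hi).trans (h0 _ ?_ i hi)
      have := hasExp_expansion hf (1 : SL(2, ℤ))
      rw [comp_one] at this
      simpa [expAt_apply, cuspRep] using this
    · refine (hR2 1 (by decide) i hi).trans (h1 _ ?_ i hi)
      simpa [expAt_apply, cuspRep] using hasExp_expansion hf ModularGroup.S
    · exact hR1 i hi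
  refine ⟨R + Polynomial.C b, fun τ => ?_⟩
  have := congrArg (fun g : weak (Gamma 2) 2 B => g.1 τ) hb
  change f τ - (R.eval₂ (constHom B) (pole hB 2)).1 τ = (b : ℂ) at this
  rw [coe_eval₂_pole] at this
  rw [Polynomial.eval₂_add, Polynomial.eval₂_C]
  simp only [poleFun, Matrix.cons_val] at this
  change f τ = _ + (b : ℂ)
  linear_combination this

end Fermat.Agent.AtP
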