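import Fermat.Agent.KummerES.BaseFromChart
import Fermat.Agent.KummerES.HeckeWeak
import Fermat.Agent.AtP.LambdaRing

/-!
# `1 / λ` as the coordinate of level two, read at every even level

`lamBase L h : BaseData 2 L` has `t = 1 / λ` (which has its pole at `∞`) and bad values `0, 1`.
-/

set_option autoImplicit false

noncomputable section

open UpperHalfPlane CongruenceSubgroup
open scoped MatrixGroups Manifold Real
open Fermat.Agent.KummerES ModularCurve

namespace Fermat.Agent.AtP

/-- `1/2` lies in `ℤ[ζ_L, 1/L]` for even `L`. -/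
lemma inv_two_mem_zetaRing {L : ℕ} [NeZero L] (h : 2 ∣ L) : (2 : ℂ)⁻¹ ∈ zetaRing L := by
  obtain ⟨e, rfl⟩ := h
  have he : e ≠ 0 := fun h0 => NeZero.ne (2 * e) (by rw [h0, mul_zero])
  have : (2 : ℂ)⁻¹ = (e : ℂ) * ((2 * e : ℕ) : ℂ)⁻¹ := by
    have : (e : ℂ) ≠ 0 := by exact_mod_cast he
    push_cast
    field_simp
  rw [this]
  exact mul_mem (natCast_mem _ _) (inv_natCast_mem_zetaRing _)

/-- Level two functions read at an even level. -/
lemma weak_two_le {L : ℕ} [NeZero L] (h : 2 ∣ L) (B : Subring ℂ) :
    weak (Gamma 2) 2 B ≤ weak (Gamma 2) L B := by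
  obtain ⟨e, rfl⟩ := h
  have : NeZero e := ⟨fun h0 => NeZero.ne (2 * e) (by rw [h0, mul_zero])⟩
  rintro f ⟨h1, h2, h3⟩
  refine ⟨h1, h2, fun δ => ?_⟩
  obtain ⟨s, hs, hs'⟩ := h3 δ
  exact ⟨_, qExpand_mem_coeffSubring e hs, hs'.dilate e⟩

lemma hasLead_dilate {B : Subring ℂ} {c : ℂ} (hc : UnitIn B c) {w : PowerSeries ℤ}
    (hw : PowerSeries.constantCoeff w = 1) (e : ℕ) [NeZero e] :
    HasLead B (qExpand ℂ e (HahnSeries.single (-1 : ℤ) c * ofPS w)) (-(e : ℤ)) := by
  have he : (0 : ℤ) < e := by exact_mod_cast Nat.pos_of_ne_zero (NeZero.ne e)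
  have key : ∀ m : ℤ, (HahnSeries.single (-1 : ℤ) c * ofPS w).coeff m = c * (ofPS w).coeff (m + 1) :=
    fun m => by rw [HahnSeries.coeff_single_mul, sub_neg_eq_add]
  refine ⟨fun i hi => ?_, ?_⟩
  · by_cases hd : (e : ℤ) ∣ i
    · obtain ⟨m, rfl⟩ := hd
      rw [qExpand_coeff_mul, key, ofPS_coeff_neg _ (by nlinarith), mul_zero]
    · exact qExpand_coeff_of_not_dvd _ _ hd
  · rw [show -(e : ℤ) = (e : ℤ) * (-1) by ring, qExpand_coeff_mul, key,
      show (-1 : ℤ) + 1 = ((0 : ℕ) : ℤ) by norm_num, ofPS_coeff_natCast,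
      PowerSeries.coeff_zero_eq_constantCoeff_apply, hw]
    simpa using hc

lemma coeff_qExpand_ofPS_neg (w : PowerSeries ℤ) (e : ℕ) [NeZero e] :
    ∀ i < 0, (qExpand ℂ e (ofPS w)).coeff i = 0 := fun i hi => by
  by_cases hd : (e : ℤ) ∣ i
  · obtain ⟨m, rfl⟩ := hd
    rw [qExpand_coeff_mul, ofPS_coeff_neg _ (by nlinarith [Int.natCast_nonneg e])]
  · exact qExpand_coeff_of_not_dvd _ _ hd

lemma expansion_dilate {L e : ℕ} [NeZero L] [NeZero e] (hL : L = 2 * e) {f : ℍ → ℂ}
    {s : LaurentSeries ℂ} (h : HasExp 2 f s) : expansion L f = qExpand ℂ e s := by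
  subst hL
  exact (h.dilate e).expansion_eq

/-- `δ` with `λ ∘ δ` and `1/λ ∘ δ` at the two finite-valued cusps of `1/λ`. -/
def lamCusp : Fin 2 → SL(2, ℤ) := ![ModularGroup.S, ModularGroup.T * ModularGroup.S]

lemma lamCusp_cover (g : SL(2, ℤ)) :
    ∃ (i : Option (Fin 2)) (y : ℤ) (γ : SL(2, ℤ)), γ ∈ Gamma 2 ∧
      (g = γ * i.elim 1 lamCusp * ModularGroup.T ^ y ∨
        g = -(γ * i.elim 1 lamCusp * ModularGroup.T ^ y)) := by
  obtain ⟨c, k, h⟩ := exists_cuspRep g
  refine ⟨![none, some 0, some 1] c, (k : ℤ), _, h, Or.inl ?_⟩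
  have : (![none, some 0, some 1] c : Option (Fin 2)).elim 1 lamCusp = cuspRep c := by
    fin_cases c <;> rfl
  rw [this, zpow_natCast, mul_assoc, inv_mul_cancel_right]

section Chart

variable (L : ℕ) [NeZero L] (h : 2 ∣ L)

include h in
lemma half_ne_zero : L / 2 ≠ 0 := fun h0 => NeZero.ne L (by
  have := Nat.div_mul_cancel h; rw [h0, zero_mul] at this; exact this.symm)

/-- The chart of level two with coordinate `1 / λ`. -/
def lamChart : Chart 2 L :=
  have : NeZero (L / 2) := ⟨half_ne_zero L h⟩
  have hL : L = 2 * (L / 2) := (Nat.mul_div_cancel' h).symm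
  have h2 : (2 : ℂ)⁻¹ ∈ zetaRing L := inv_two_mem_zetaRing h
  have h16 : UnitIn (zetaRing L) (16 : ℂ)⁻¹ :=
    UnitIn.mk' (inv_sixteen_mem h2) (by norm_num) (by simp)
  have hm : ∀ {f : ℍ → ℂ}, f ∈ weak (Gamma 2) 2 (zetaRing L) → f ∈ weak (Gamma 2) L (zetaRing L) :=
    fun hf => weak_two_le h _ hf
  have hTS := lam_cuspRep_two
  have hS : comp (fun τ => (lam τ)⁻¹) ModularGroup.S = fun τ => (1 - lam τ)⁻¹ :=
    funext fun τ => by simp only [comp_apply, lam_S]
  { e := L / 2
    e_pos := Nat.pos_of_ne_zero (half_ne_zero L h)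
    hL := (Nat.div_mul_cancel h).symm
    t := fun τ => (lam τ)⁻¹
    t_mem := hm (lam_inv_mem_weak h2)
    δ := lamCusp
    cover := lamCusp_cover
    val := ![1, 0]
    val_mem := fun x => by fin_cases x <;> simp [one_mem, zero_mem]
    inv := ![fun τ => (1 - lam τ)⁻¹ - 1, lam]
    inv_mem := fun x => by
      fin_cases x
      · exact sub_mem (hm (one_sub_lam_inv_mem_weak h2)) (one_mem _)
      · exact hm (lam_mem_weak h2)
    inv_mul := fun x => by
      funext τ
      have h0 := lam_ne_zero τ
      have h1 : 1 - lam τ ≠ 0 := sub_ne_zero.2 (lam_ne_one τ).symm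
      fin_cases x <;> simp
      · field_simp
        ring
      · field_simp
    t_inf := by
      rw [expansion_dilate hL hasExp_lam_inv, lamInvS]
      exact hasLead_dilate h16 constantCoeff_wInvPS _
    t_reg := fun x => by
      fin_cases x
      · simp only [lamCusp, Fin.zero_eta, Matrix.cons_val_zero, hS]
        rw [expansion_dilate hL hasExp_one_sub_lam_inv]
        exact coeff_qExpand_ofPS_neg _ _
      · have e : comp (fun τ => (lam τ)⁻¹) (ModularGroup.T * ModularGroup.S) =
            fun τ => lam τ / (lam τ - 1) :=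
          funext fun τ => by rw [comp_apply, hTS, inv_div]
        simp only [lamCusp, Fin.mk_one, Matrix.cons_val_one, Matrix.cons_val_zero, e]
        rw [expansion_dilate hL hasExp_lam_div]
        exact coeff_qExpand_ofPS_neg _ _
    inv_pole := fun x => by
      fin_cases x
      · have e : comp (fun τ => (1 - lam τ)⁻¹ - 1) ModularGroup.S = (fun τ => (lam τ)⁻¹) - 1 :=
          funext fun τ => by
            simp only [comp_apply, Pi.sub_apply, Pi.one_apply, lam_S, sub_sub_cancel]
        simp only [lamCusp, Fin.zero_eta, Matrix.cons_val_zero, e]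
        have e' : HasExp 2 ((fun τ => (lam τ)⁻¹) - 1)
            (HahnSeries.single (-1 : ℤ) (16⁻¹ : ℂ) * ofPS (wInvPS - 16 * PowerSeries.X)) := by
          have := hasExp_lam_inv.sub HasExp.one
          convert this using 1
          rw [map_sub, map_mul, map_ofNat, ofPS_X, lamInvS, mul_sub,
            show (16 : LaurentSeries ℂ) = HahnSeries.single (0 : ℤ) (16 : ℂ) from
              (map_ofNat (HahnSeries.C (Γ := ℤ) (R := ℂ)) 16).symm,
            HahnSeries.single_mul_single, HahnSeries.single_mul_single]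
          congr 1
          ext i
          rcases eq_or_ne i 0 with rfl | hi <;> simp [*, HahnSeries.coeff_one]
        rw [expansion_dilate hL e']
        exact hasLead_dilate h16 (by simp [constantCoeff_wInvPS]) _
      · have e : comp lam (ModularGroup.T * ModularGroup.S) = fun τ => (lam τ - 1) / lam τ :=
          funext fun τ => by rw [comp_apply, hTS]
        simp only [lamCusp, Fin.mk_one, Matrix.cons_val_one, Matrix.cons_val_zero, e]
        rw [expansion_dilate hL hasExp_sub_div]
        exact hasLead_dilate h16.neg (by simp [constantCoeff_wInvPS]) _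
    inv_reg := fun x i hi => by
      have reg : ∀ {f : ℍ → ℂ} {w : PowerSeries ℤ}, HasExp 2 f (ofPS w) →
          ∀ j < 0, (expansion L f).coeff j = 0 := fun {f w} hf => by
        rw [expansion_dilate hL hf]
        exact coeff_qExpand_ofPS_neg _ _
      fin_cases x
      · rcases i with _ | i
        · refine reg (w := oneSubInvPS - 1) ?_
          rw [map_sub, map_one]
          simp only [Option.elim_none, comp_one]
          exact hasExp_one_sub_lam_inv.sub HasExp.one
        · fin_cases i
          · exact absurd rfl hi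
          · refine reg (w := lamPS - 1) ?_
            rw [map_sub, map_one]
            convert hasExp_lam.sub HasExp.one using 1
            funext τ
            simp only [Option.elim_some, lamCusp, Fin.mk_one, Matrix.cons_val_one,
              Matrix.cons_val_zero, comp_apply, hTS, Fin.zero_eta, Pi.sub_apply, Pi.one_apply]
            have h0 := lam_ne_zero τ
            have : 1 - (lam τ - 1) / lam τ = (lam τ)⁻¹ := by field_simp; ring
            rw [this, inv_inv]
      · rcases i with _ | i
        · refine reg (w := lamPS) ?_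
          simpa using hasExp_lam
        · fin_cases i
          · refine reg (w := 1 - lamPS) ?_
            convert hasExp_one_sub_lam using 1
            funext τ
            simp only [Option.elim_some, lamCusp, Fin.zero_eta, Matrix.cons_val_zero, Fin.mk_one,
              Matrix.cons_val_one, comp_apply, lam_S]
          · exact absurd rfl hi }

/-- The base data of level two with `t = 1 / λ`. -/
def lamBase : BaseData 2 L := (lamChart L h).toBaseData 4 rfl rfl

/-- The bad values of the base data are `0` and `1`. -/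
lemma lamBase_bad : (lamBase L h).bad = {0, 1} := by
  change Finset.univ.image (![1, 0] : Fin 2 → ℂ) = _
  ext c
  simp [Fin.exists_fin_two, eq_comm, or_comm]

end Chart

end Fermat.Agent.AtP
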