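import Fermat.Agent.AtP.Ctx
import Fermat.Agent.AtP.LambdaBase
import Fermat.Agent.KummerES.Base
import Fermat.Agent.KummerES.SpecialFibreMain
import Mathlib.RingTheory.Multiplicity

/-!
# The level `2 M` ring over the coefficients of Mazur's principle at `p`
-/

set_option autoImplicit false

noncomputable section

open CongruenceSubgroup
open scoped MatrixGroups
open Fermat.Agent.KummerES
open ModularCurve (coeffMap)

namespace Fermat.Agent.AtP

namespace Coeff

variable {p : ℕ} [hp : Fact p.Prime] (C : Coeff p) {M : ℕ} [NeZero M]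

omit [NeZero M] in
/-- `p ∤ 2 M` when `p` is odd and prime to `M`. -/
lemma not_dvd_two_mul (hp2 : p ≠ 2) (hpM : ¬ p ∣ M) : ¬ p ∣ 2 * M := fun h =>
  (hp.out.dvd_mul.1 h).elim (fun h2 => hp2 ((Nat.prime_dvd_prime_iff_eq hp.out Nat.prime_two).1 h2))
    hpM

/-- The level `2 M` structure with `t = 1 / λ`. -/
def levelHyp (hp2 : p ≠ 2) (hpM : ¬ p ∣ M) : LevelHyp 2 (2 * M) C.B where
  D := ratioData (2 * M)
  T := lamBase (2 * M) (Dvd.intro M rfl)
  le := (C.zetaRing_le (not_dvd_two_mul hp2 hpM)).trans C.le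
  two_le := le_rfl
  dvd := Dvd.intro M rfl

/-- The coefficient ring satisfies `CoeffHyp` at level `2 M`. -/
theorem coeffHyp (hp2 : p ≠ 2) (hpM : ¬ p ∣ M) : CoeffHyp C.B (C.unif : ℂ) (2 * M) where
  dvr := C.dvr
  mem := C.unif.2
  irred := C.irred
  ne_zero := NeZero.ne _
  unit := C.le (C.zeta_mem _ (not_dvd_two_mul hp2 hpM)).2
  zeta := C.le (C.zeta_mem _ (not_dvd_two_mul hp2 hpM)).1

variable (M)

/-- The uniformiser as a function. -/
def piA : LRing (2 * M) C.B := constL (L := 2 * M) (C.unif : ℂ) C.unif.2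

/-- The expansion at `∞`. -/
def expA : LRing (2 * M) C.B →+* LaurentSeries C.B := expB (2 * M) C.B 1

/-- The field valued expansion at `∞`. -/
def expK : LRing (2 * M) C.B →+* LaurentSeries ℂ := (coeffMap C.B.subtype).comp (C.expA M)

omit hp in
/-- Series over the coefficient ring inject into complex series. -/
lemma coeffMap_subtype_injective' : Function.Injective (coeffMap C.B.subtype) := fun _ _ h =>
  HahnSeries.ext (funext fun i => Subtype.ext (congrArg (fun z => z.coeff i) h :))

omit hp in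
/-- The field valued expansion is the analytic expansion. -/
lemma expK_apply (a : LRing (2 * M) C.B) : C.expK M a = expansion (2 * M) a.1 := by
  rw [expK, RingHom.comp_apply, expA, coeffMap_expB, expAt_apply, comp_one]

omit hp in
/-- The expansion at `∞` is injective. -/
lemma expK_injective : Function.Injective (C.expK M) := fun a b h => by
  rw [expK, RingHom.comp_apply, RingHom.comp_apply, expA, coeffMap_expB, coeffMap_expB] at h
  exact expAt_injective 1 h

omit hp in
lemma isDomain_A : IsDomain (LRing (2 * M) C.B) := isDomain_LRing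

omit hp in
/-- The uniformiser expands to a constant series. -/
lemma expA_piA : C.expA M (C.piA M) = HahnSeries.C C.unif := expB_constL _ _ _

omit hp in
/-- The expansion of the uniformiser is nonzero. -/
lemma expA_piA_ne_zero : C.expA M (C.piA M) ≠ 0 := by
  rw [expA_piA]
  exact fun h => C.irred.ne_zero (HahnSeries.C_injective (by rw [h, map_zero]))

variable {M}

/-- The uniformiser is prime in the ring of level `2 M`. -/
lemma prime_piA (hp2 : p ≠ 2) (hpM : ¬ p ∣ M) : Prime (C.piA M) :=
  ((C.levelHyp hp2 hpM).specialFibre (C.coeffHyp hp2 hpM)).prime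

/-- Saturation of the expansion at `∞`. -/
lemma piA_dvd_of_expA (hp2 : p ≠ 2) (hpM : ¬ p ∣ M) {a : LRing (2 * M) C.B}
    (h : C.expA M (C.piA M) ∣ C.expA M a) : C.piA M ∣ a := by
  rw [expA_piA] at h
  exact Ideal.mem_span_singleton.1
    (((C.levelHyp hp2 hpM).specialFibre (C.coeffHyp hp2 hpM)).mem_span 1 a
      ((kerAt_iff_dvd C.unif.2 1 a).2 h))

/-- Every nonzero function is a power of `ϖ` times a function nonzero modulo `ϖ`. -/
lemma exists_eq_piA_pow_mul (hp2 : p ≠ 2) (hpM : ¬ p ∣ M) {D : LRing (2 * M) C.B} (hD : D ≠ 0) :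
    ∃ (v : ℕ) (D₀ : LRing (2 * M) C.B), D = C.piA M ^ v * D₀ ∧ ¬ C.piA M ∣ D₀ := by
  have := ((C.levelHyp hp2 hpM).specialFibre (C.coeffHyp hp2 hpM)).noetherian
  have := C.isDomain_A M
  obtain ⟨v, D₀, h1, h2⟩ := WfDvdMonoid.max_power_factor hD (C.prime_piA hp2 hpM).irreducible
  exact ⟨v, D₀, h2, h1⟩

end Coeff

end Fermat.Agent.AtP
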