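import Fermat.Agent.AtP.Model
import Mathlib.RingTheory.PowerSeries.Ideal
import Mathlib.RingTheory.LaurentSeries
import Mathlib.LinearAlgebra.FiniteDimensional.Basic

/-!
# A certificate `u x = v a ^ p` at every prime makes `x` a `p`-th power up to units

Also: the integral elements generated by `z` do not change when the generator changes.
-/

set_option autoImplicit false

noncomputable section

namespace Fermat.Agent.AtP

open Polynomial

/-- If `x` satisfies a certificate at every prime not dividing `π`, then `x` is `π ^ i` times a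
unit times a `p`-th power. -/
theorem exists_eq_pi_pow_mul_unit_mul_pow {R : Type*} [CommRing R] [IsDomain R]
    [WfDvdMonoid R] [DecompositionMonoid R] {π : R} (hπ : Prime π) {p : ℕ} (hp : p ≠ 0) :
    ∀ x : R, x ≠ 0 →
      (∀ P, Prime P → ¬ P ∣ π → P ∣ x → ∃ u v A : R, ¬ P ∣ u ∧ ¬ P ∣ v ∧ u * x = v * A ^ p) →
      ∃ (i : ℕ) (u G : R), IsUnit u ∧ x = π ^ i * u * G ^ p := by
  intro x
  induction x using WellFounded.induction (wellFounded_dvdNotUnit (α := R)) with
  | _ x ih =>
    intro hx h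
    by_cases hu : IsUnit x
    · exact ⟨0, x, 1, hu, by simp⟩
    by_cases hπx : π ∣ x
    · obtain ⟨x', rfl⟩ := hπx
      have hx' : x' ≠ 0 := right_ne_zero_of_mul hx
      obtain ⟨i, u, G, hu', rfl⟩ := ih x' ⟨hx', π, hπ.not_isUnit, mul_comm _ _⟩ hx'
        fun P hP hPπ hPx => by
          obtain ⟨u, v, A, h1, h2, h3⟩ := h P hP hPπ (hPx.mul_left _)
          exact ⟨u * π, v, A, fun hd => (hP.dvd_or_dvd hd).elim h1 hPπ, h2, by rw [← h3]; ring⟩
      exact ⟨i + 1, u, G, hu', by ring⟩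
    obtain ⟨P, hPirr, hPx⟩ := WfDvdMonoid.exists_irreducible_factor hu hx
    have hP : Prime P := irreducible_iff_prime.1 hPirr
    have hPπ : ¬ P ∣ π := fun hd =>
      hπx ((hP.associated_of_dvd hπ hd).symm.dvd.trans hPx)
    obtain ⟨u, v, A, hu1, hv1, he⟩ := h P hP hPπ hPx
    have hPA : P ∣ A := hP.dvd_of_dvd_pow ((hP.dvd_or_dvd (he ▸ hPx.mul_left u)).resolve_left hv1)
    obtain ⟨A', rfl⟩ := hPA
    obtain ⟨x', rfl⟩ : P ^ p ∣ x := hP.pow_dvd_of_dvd_mul_left p hu1
      ⟨v * A' ^ p, by rw [he]; ring⟩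
    have hx' : x' ≠ 0 := right_ne_zero_of_mul hx
    obtain ⟨i, w, G, hw, rfl⟩ := ih x'
      ⟨hx', P ^ p, fun hh => hP.not_isUnit ((isUnit_pow_iff hp).1 hh), mul_comm _ _⟩ hx'
      fun Q hQ hQπ hQx => by
        by_cases hQP : Q ∣ P
        · have hass := (hQ.associated_of_dvd hP hQP)
          refine ⟨u, v, A', fun hd => hu1 (hass.symm.dvd.trans hd),
            fun hd => hv1 (hass.symm.dvd.trans hd),
            mul_left_cancel₀ (pow_ne_zero p hP.ne_zero) ?_⟩
          linear_combination he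
        · obtain ⟨u₁, v₁, A₁, h1, h2, h3⟩ := h Q hQ hQπ (hQx.mul_left _)
          exact ⟨u₁ * P ^ p, v₁, A₁,
            fun hd => (hQ.dvd_or_dvd hd).elim h1 fun h' => hQP (hQ.dvd_of_dvd_pow h'),
            h2, by rw [← h3]; ring⟩
    exact ⟨i, w, P * G, hw, by ring⟩

/-- In a unique factorisation domain, for finitely many certificates `α D_j x = β_j A_j ^ p` with
`∑ C_j D_j = π ^ N`, `x` not divisible by `π` is a unit times a `p`-th power. -/
theorem exists_eq_unit_mul_pow {R : Type*} [CommRing R] [IsDomain R] [WfDvdMonoid R]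
    [DecompositionMonoid R] {π : R} (hπ : Prime π) {p : ℕ} (hp : p ≠ 0) {x : R} (hx : ¬ π ∣ x)
    {m : ℕ} {Cc D A : Fin m → R} {α β γ : R}
    (hα : ∀ P, Prime P → ¬ P ∣ π → P ∣ x → ¬ P ∣ α) (hβ : ∀ P, Prime P → ¬ P ∣ π → P ∣ x → ¬ P ∣ β)
    (hγ : ∀ P, Prime P → ¬ P ∣ π → P ∣ x → ¬ P ∣ γ)
    (he : ∀ j, α * D j * x = β * A j ^ p) (hsum : ∑ j, Cc j * D j = γ) :
    ∃ u G : R, IsUnit u ∧ x = u * G ^ p := by
  have hx0 : x ≠ 0 := fun h => hx (h ▸ dvd_zero _)
  obtain ⟨i, u, G, hu, hxe⟩ := exists_eq_pi_pow_mul_unit_mul_pow hπ hp x hx0 fun P hP hPπ hPx => by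
    obtain ⟨j, hj⟩ : ∃ j, ¬ P ∣ D j := by
      by_contra hall
      push Not at hall
      exact hγ P hP hPπ hPx (hsum ▸ Finset.dvd_sum fun j _ => (hall j).mul_left _)
    exact ⟨α * D j, β, A j, fun hd => (hP.dvd_or_dvd hd).elim (hα P hP hPπ hPx) hj,
      hβ P hP hPπ hPx, he j⟩
  cases i with
  | zero => exact ⟨u, G, hu, by rw [hxe]; ring⟩
  | succ i => exact absurd ⟨π ^ i * u * G ^ p, by rw [hxe]; ring⟩ hx

/-- Dividing a congruence by a power of a prime. -/
theorem exists_div_of_congr {R : Type*} [CommRing R] [IsDomain R] {P : R} (hP : Prime P) {N : ℕ}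
    {D x A : R} (hD : ¬ P ∣ D) (h : P ^ (N + 1) ∣ D * x - P ^ N * A) :
    ∃ y, x = P ^ N * y ∧ P ∣ D * y - A := by
  obtain ⟨y, rfl⟩ : P ^ N ∣ x := by
    refine hP.pow_dvd_of_dvd_mul_left N hD ?_
    simpa using dvd_add ((pow_dvd_pow P N.le_succ).trans h) (dvd_mul_right (P ^ N) A)
  refine ⟨y, rfl, (mul_dvd_mul_iff_left (pow_ne_zero N hP.ne_zero)).1 ?_⟩
  rwa [mul_sub, ← pow_succ, ← mul_left_comm]

section Generator

variable {A K : Type*} [CommRing A] [IsDomain A] [Field K] {φ : A →+* K} {z z' : K}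

/-- Elements of the algebra generated by an element of `algElts φ z'` lie in it. -/
theorem algElts_le_algElts (hz : z ∈ algElts φ z') :
    algElts φ z ≤ algElts φ z' := by
  rintro e ⟨he, P, D, hD, hP⟩
  obtain ⟨-, P', D', hD', hP'⟩ := hz
  refine ⟨he, ∑ i ∈ Finset.range (P.natDegree + 1),
    C (P.coeff i * D' ^ (P.natDegree - i)) * P' ^ i, D * D' ^ P.natDegree,
    mul_ne_zero hD (pow_ne_zero _ hD'), ?_⟩
  rw [map_mul, mul_right_comm, hP, eval₂_finsetSum, eval₂_eq_sum_range, Finset.sum_mul]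
  refine Finset.sum_congr rfl fun i hi => ?_
  rw [eval₂_mul, eval₂_C, eval₂_pow, ← hP', mul_pow, map_mul, map_pow, map_pow,
    ← pow_sub_mul_pow (φ D') (Nat.lt_succ_iff.1 (Finset.mem_range.1 hi))]
  ring

/-- **Change of generator.** If `w v = u` for polynomials `w, u` in `z` and `v` has no equation of
degree at most that of `z`, then `z` is generated by `v`. -/
theorem mem_algElts_of_mul_eq {V : A[X]} (hV : V.Monic) (hz : V.eval₂ φ z = 0) {v : K}
    {U W : A[X]} (hW : W.eval₂ φ z ≠ 0) (hUW : W.eval₂ φ z * v = U.eval₂ φ z)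
    (hv : ∀ Q : A[X], Q.natDegree < V.natDegree → Q.eval₂ φ v = 0 → Q = 0) :
    z ∈ algElts φ v := by
  set n := V.natDegree
  let T : Option (Fin n) → A[X] := fun i => i.elim (X * W ^ n) fun j => U ^ (j : ℕ) * W ^ (n - j)
  let vec : Option (Fin n) → (Fin n → A) := fun i k => (T i %ₘ V).coeff k
  have hred : ∀ Q : A[X], (Q %ₘ V).eval₂ φ z = Q.eval₂ φ z := fun Q => by
    conv_rhs => rw [← modByMonic_add_div Q (q := V)]
    rw [eval₂_add, eval₂_mul, hz, zero_mul, add_zero]
  have hdep : ¬ LinearIndependent A vec := fun hli => by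
    have := hli.fintype_card_le_finrank
    simp at this
  obtain ⟨g, hg, i₀, hi₀⟩ := Fintype.not_linearIndependent_iff.1 hdep
  -- the relation holds after evaluation at `z`
  have hn : n ≠ 0 := fun h0 => by
    have : V = 1 := eq_one_of_monic_natDegree_zero hV h0
    rw [this, eval₂_one] at hz
    exact one_ne_zero hz
  have h1 : (∑ i, C (g i) * T i) %ₘ V = 0 := by
    rw [← modByMonicHom_apply, map_sum]
    simp only [← smul_eq_C_mul, map_smul, modByMonicHom_apply]
    ext k
    by_cases hk : k < n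
    · have := congrFun hg ⟨k, hk⟩
      simp only [Finset.sum_apply, Pi.smul_apply, Pi.zero_apply, vec] at this
      rw [coeff_zero, ← this, finsetSum_coeff]
      simp
    · rw [coeff_zero, finsetSum_coeff]
      refine Finset.sum_eq_zero fun i _ => ?_
      rw [coeff_smul, coeff_eq_zero_of_natDegree_lt, smul_zero]
      exact lt_of_lt_of_le (natDegree_modByMonic_lt _ hV fun h0 => by
        rw [h0, eval₂_one] at hz; exact one_ne_zero hz) (not_lt.1 hk)
  have h2 : (∑ i, C (g i) * T i).eval₂ φ z = 0 := by rw [← hred, h1, eval₂_zero]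
  set R : A[X] := ∑ j : Fin n, monomial (j : ℕ) (g (some j)) with hR
  have h3 : W.eval₂ φ z ^ n * (φ (g none) * z + R.eval₂ φ v) = 0 := by
    rw [← h2, Fintype.sum_option, eval₂_add, eval₂_mul, eval₂_C, hR, eval₂_finsetSum,
      eval₂_finsetSum, mul_add, Finset.mul_sum]
    refine congrArg₂ (· + ·) ?_ (Finset.sum_congr rfl fun j _ => ?_)
    · simp only [T, Option.elim_none, eval₂_mul, eval₂_X, eval₂_pow]; ring
    · simp only [T, Option.elim_some, eval₂_mul, eval₂_C, eval₂_pow, eval₂_monomial, ← hUW]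
      rw [mul_pow, ← pow_sub_mul_pow (W.eval₂ φ z) j.2.le]
      ring
  have h4 := (mul_eq_zero.1 h3).resolve_left (pow_ne_zero _ hW)
  have hg0 : g none ≠ 0 := fun h0 => by
    rw [h0, map_zero, zero_mul, zero_add] at h4
    have hdeg : R.natDegree < V.natDegree := lt_of_le_of_lt
      (natDegree_sum_le_of_forall_le (n := n - 1) _ _ fun j _ =>
        (natDegree_monomial_le _).trans (by omega)) (by omega)
    have hR0 := hv R hdeg h4
    cases i₀ with
    | none => exact hi₀ h0
    | some j =>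
      have := congrArg (fun Q : A[X] => Q.coeff j) hR0
      simp only [R, finsetSum_coeff, coeff_monomial, coeff_zero] at this
      rw [Finset.sum_eq_single j (fun b _ hb => if_neg fun h => hb (Fin.ext h))
        (by simp), if_pos rfl] at this
      exact hi₀ this
  refine ⟨isIntegralElem_of_root φ z hV hz, -R, g none, hg0, ?_⟩
  rw [eval₂_neg]
  linear_combination h4

end Generator

end Fermat.Agent.AtP
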