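import Fermat.Agent.AtP.LambdaDeriv
import Fermat.Agent.AtP.LambdaMobius

/-!
# The conjugates of `g (p τ)` and of `g'(τ) / g'(p τ)`

The `p + 1` matrices of determinant `p`, their permutation under `SL(2,ℤ)`, and the two families of
functions whose symmetric functions give the modular polynomials.
-/

set_option autoImplicit false

noncomputable section

open UpperHalfPlane CongruenceSubgroup Filter Topology
open scoped MatrixGroups Manifold Real
open Fermat.Agent.KummerES

namespace Fermat.Agent.AtP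

/-! ## Integral matrices of positive determinant -/

/-- An integral matrix with positive determinant as an element of `GL(2, ℝ)`. -/
def posGL (A : Matrix (Fin 2) (Fin 2) ℤ) (hA : 0 < A.det) : GL (Fin 2) ℝ :=
  Matrix.GeneralLinearGroup.mkOfDetNeZero (A.map (Int.cast : ℤ → ℝ)) (by
    rw [← Int.cast_det]
    exact_mod_cast hA.ne')

lemma posGL_det_pos (A : Matrix (Fin 2) (Fin 2) ℤ) (hA : 0 < A.det) :
    0 < (posGL A hA).det.val := by
  simp only [Matrix.GeneralLinearGroup.val_det_apply, posGL,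
    Matrix.GeneralLinearGroup.val_mkOfDetNeZero]
  rw [← Int.cast_det]
  exact_mod_cast hA

/-- The action of an integral matrix of positive determinant. -/
lemma coe_posGL_smul (A : Matrix (Fin 2) (Fin 2) ℤ) (hA : 0 < A.det) (τ : ℍ) :
    ((posGL A hA • τ : ℍ) : ℂ) =
      ((A 0 0 : ℂ) * τ + A 0 1) / ((A 1 0 : ℂ) * τ + A 1 1) := by
  rw [coe_smul_of_det_pos (posGL_det_pos A hA), num, denom]
  simp [posGL]

/-- The action is compatible with products of matrices. -/
lemma posGL_mul_smul {A B C : Matrix (Fin 2) (Fin 2) ℤ} (hA : 0 < A.det) (hB : 0 < B.det)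
    (hC : 0 < C.det) (h : A * B = C) (τ : ℍ) :
    posGL A hA • (posGL B hB • τ) = posGL C hC • τ := by
  rw [← mul_smul]
  congr 1
  ext i j
  subst h
  simp [posGL, Matrix.mul_apply]

/-- On `SL(2, ℤ)` the action is the usual one. -/
lemma posGL_SL_smul (δ : SL(2, ℤ)) (h : 0 < (δ : Matrix (Fin 2) (Fin 2) ℤ).det) (τ : ℍ) :
    posGL δ h • τ = δ • τ := by
  rw [ModularGroup.sl_moeb]
  congr 1
  ext i j
  simp [posGL]

/-- Chain rule for an integral Möbius transformation. -/
lemma hasDerivAt_comp_posGL {g : ℍ → ℂ} (hg : MDiff g) (A : Matrix (Fin 2) (Fin 2) ℤ)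
    (hA : 0 < A.det) (τ : ℍ) :
    HasDerivAt ((fun w => g (posGL A hA • w)) ∘ ofComplex)
      (deriv (g ∘ ofComplex) (posGL A hA • τ : ℍ) *
        ((A.det : ℂ) / ((A 1 0 : ℂ) * τ + A 1 1) ^ 2)) (τ : ℂ) := by
  have hden : (A 1 0 : ℂ) * τ + A 1 1 ≠ 0 := by
    have := denom_ne_zero_of_im (posGL A hA) τ.im_ne_zero
    simpa [denom, posGL] using this
  have h1 : HasDerivAt (fun z : ℂ => ((A 0 0 : ℂ) * z + A 0 1) / ((A 1 0 : ℂ) * z + A 1 1))
      ((A.det : ℂ) / ((A 1 0 : ℂ) * τ + A 1 1) ^ 2) (τ : ℂ) := by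
    have := (((hasDerivAt_id (τ : ℂ)).const_mul (A 0 0 : ℂ)).add_const (A 0 1 : ℂ)).div
      (((hasDerivAt_id (τ : ℂ)).const_mul (A 1 0 : ℂ)).add_const (A 1 1 : ℂ)) hden
    refine this.congr_deriv ?_
    rw [Matrix.det_fin_two]
    push_cast
    simp only [id_eq, mul_one]
    ring
  have hd : DifferentiableAt ℂ (g ∘ ofComplex)
      (((A 0 0 : ℂ) * τ + A 0 1) / ((A 1 0 : ℂ) * τ + A 1 1)) := by
    rw [← coe_posGL_smul A hA τ]
    exact UpperHalfPlane.mdifferentiableAt_iff.1 (hg _)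
  have h2 := hd.hasDerivAt.comp (τ : ℂ) h1
  rw [coe_posGL_smul]
  refine h2.congr_of_eventuallyEq ?_
  refine Filter.eventuallyEq_of_mem (isOpen_upperHalfPlaneSet.mem_nhds τ.im_pos) fun w hw => ?_
  simp only [Function.comp_apply, ofComplex_apply_of_im_pos hw]
  rw [show ((A 0 0 : ℂ) * w + A 0 1) / ((A 1 0 : ℂ) * w + A 1 1) =
    ((posGL A hA • (⟨w, hw⟩ : ℍ) : ℍ) : ℂ) from (coe_posGL_smul A hA ⟨w, hw⟩).symm]
  rw [ofComplex_apply]

/-! ## The matrices of determinant `p` -/

variable {p : ℕ} [hp : Fact p.Prime]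

/-- `[[p,0],[0,1]]` and `[[1,2b],[0,p]]`. -/
def conjMat : Option (ZMod p) → Matrix (Fin 2) (Fin 2) ℤ
  | none => !![(p : ℤ), 0; 0, 1]
  | some b => !![1, 2 * (b.val : ℤ); 0, (p : ℤ)]

/-- The matrices `conjMat i` have determinant `p`. -/
lemma det_conjMat (i : Option (ZMod p)) : (conjMat i).det = p := by
  cases i <;> simp [conjMat, Matrix.det_fin_two]

/-- The matrices `conjMat i` have positive determinant. -/
lemma det_conjMat_pos (i : Option (ZMod p)) : 0 < (conjMat i).det := by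
  rw [det_conjMat]; exact_mod_cast hp.out.pos

/-- The corresponding maps of the upper half plane. -/
def conjMap (i : Option (ZMod p)) (τ : ℍ) : ℍ := posGL (conjMat i) (det_conjMat_pos i) • τ

/-- The first map is `τ ↦ p τ`. -/
lemma coe_conjMap_none (τ : ℍ) : ((conjMap (none : Option (ZMod p)) τ : ℍ) : ℂ) = p * τ := by
  simp [conjMap, coe_posGL_smul, conjMat]

/-- The other maps are `τ ↦ (τ + 2 b) / p`. -/
lemma coe_conjMap_some (b : ZMod p) (τ : ℍ) :
    ((conjMap (some b) τ : ℍ) : ℂ) = ((τ : ℂ) + 2 * (b.val : ℂ)) / p := by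
  simp [conjMap, coe_posGL_smul, conjMat]

/-- Every matrix of determinant `p` is a translate of some `conjMat j`. -/
lemma exists_decomp (hp2 : p ≠ 2) (A : Matrix (Fin 2) (Fin 2) ℤ) (hA : A.det = p) :
    ∃ (j : Option (ZMod p)) (D : SL(2, ℤ)), A = D.1 * conjMat j := by
  have hpZ : (p : ℤ) ≠ 0 := by exact_mod_cast hp.out.ne_zero
  rw [Matrix.det_fin_two] at hA
  by_cases hcol : (p : ℤ) ∣ A 0 0 ∧ (p : ℤ) ∣ A 1 0
  · obtain ⟨⟨a, ha⟩, c, hc⟩ := hcol
    refine ⟨none, ⟨!![a, A 0 1; c, A 1 1], ?_⟩, ?_⟩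
    · rw [Matrix.det_fin_two_of]
      apply mul_left_cancel₀ hpZ
      rw [ha, hc] at hA
      linear_combination hA
    · ext i j
      fin_cases i <;> fin_cases j <;>
        simp [conjMat, Matrix.mul_apply, Fin.sum_univ_two, ha, hc, mul_comm]
  · have h2 : (2 : ZMod p) ≠ 0 := by
      intro h0
      have : ((2 : ℕ) : ZMod p) = 0 := by exact_mod_cast h0
      rw [ZMod.natCast_eq_zero_iff] at this
      exact hp2 ((Nat.prime_dvd_prime_iff_eq hp.out Nat.prime_two).1 this)
    have hdet : (A 0 0 : ZMod p) * A 1 1 = A 0 1 * A 1 0 := by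
      have := congrArg (Int.cast : ℤ → ZMod p) hA
      push_cast at this
      rw [ZMod.natCast_self, sub_eq_zero] at this
      exact this
    obtain ⟨b, hb0, hb1⟩ : ∃ b : ZMod p, (A 0 1 : ZMod p) = 2 * b * A 0 0 ∧
        (A 1 1 : ZMod p) = 2 * b * A 1 0 := by
      by_cases ha : (A 0 0 : ZMod p) = 0
      · have hc : (A 1 0 : ZMod p) ≠ 0 := fun hc => hcol
          ⟨(ZMod.intCast_zmod_eq_zero_iff_dvd _ p).1 ha, (ZMod.intCast_zmod_eq_zero_iff_dvd _ p).1 hc⟩
        refine ⟨(A 1 1 : ZMod p) / (2 * A 1 0), ?_, by field_simp⟩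
        rw [ha, mul_zero]
        rw [ha, zero_mul] at hdet
        exact (mul_eq_zero.1 hdet.symm).resolve_right hc
      · refine ⟨(A 0 1 : ZMod p) / (2 * A 0 0), by field_simp, ?_⟩
        field_simp
        linear_combination hdet
    obtain ⟨x, hx⟩ : (p : ℤ) ∣ A 0 1 - 2 * (b.val : ℤ) * A 0 0 := by
      rw [← ZMod.intCast_zmod_eq_zero_iff_dvd]
      push_cast
      rw [ZMod.natCast_zmod_val, hb0, sub_self]
    obtain ⟨y, hy⟩ : (p : ℤ) ∣ A 1 1 - 2 * (b.val : ℤ) * A 1 0 := by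
      rw [← ZMod.intCast_zmod_eq_zero_iff_dvd]
      push_cast
      rw [ZMod.natCast_zmod_val, hb1, sub_self]
    refine ⟨some b, ⟨!![A 0 0, x; A 1 0, y], ?_⟩, ?_⟩
    · rw [Matrix.det_fin_two_of]
      apply mul_left_cancel₀ hpZ
      linear_combination hA - (A 0 0) * hy + (A 1 0) * hx
    · ext i j
      fin_cases i <;> fin_cases j <;> simp [conjMat, Matrix.mul_apply, Fin.sum_univ_two, -ZMod.natCast_val]
      · linear_combination hx
      · linear_combination hy

/-- The matrices `conjMat i` are inequivalent under `SL(2, ℤ)`. -/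
lemma conjMat_unique {i j : Option (ZMod p)} (hp2 : p ≠ 2) (D : SL(2, ℤ))
    (h : conjMat i = D.1 * conjMat j) : i = j := by
  have e00 := congrArg (fun M : Matrix (Fin 2) (Fin 2) ℤ => M 0 0) h
  have e10 := congrArg (fun M : Matrix (Fin 2) (Fin 2) ℤ => M 1 0) h
  have e01 := congrArg (fun M : Matrix (Fin 2) (Fin 2) ℤ => M 0 1) h
  have hdet := D.2
  rw [Matrix.det_fin_two] at hdet
  have hp1 : ¬ (p : ℤ) ∣ 1 := fun hd => hp.out.ne_one (by exact_mod_cast Int.eq_one_of_dvd_one (by positivity) hd)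
  rcases i with _ | b <;> rcases j with _ | b'
  · rfl
  · exfalso
    simp [conjMat, Matrix.mul_apply, Fin.sum_univ_two, -ZMod.natCast_val] at e00 e10
    rw [← e10, mul_zero, sub_zero] at hdet
    exact hp1 ⟨D.1 1 1, by linear_combination -hdet - (D.1 1 1) * e00⟩
  · exfalso
    simp [conjMat, Matrix.mul_apply, Fin.sum_univ_two, -ZMod.natCast_val] at e00 e10
    exact hp1 ⟨D.1 0 0, by linear_combination e00⟩
  · simp [conjMat, Matrix.mul_apply, Fin.sum_univ_two, -ZMod.natCast_val] at e00 e01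
    rw [← e00, one_mul] at e01
    have h2 : (2 : ZMod p) ≠ 0 := fun h0 => by
      have : ((2 : ℕ) : ZMod p) = 0 := by exact_mod_cast h0
      rw [ZMod.natCast_eq_zero_iff] at this
      exact hp2 ((Nat.prime_dvd_prime_iff_eq hp.out Nat.prime_two).1 this)
    have := congrArg (Int.cast : ℤ → ZMod p) e01
    push_cast at this
    rw [ZMod.natCast_zmod_val, ZMod.natCast_zmod_val, ZMod.natCast_self, mul_zero, add_zero] at this
    rw [mul_left_cancel₀ h2 this]

lemma mob_congr {K : Type*} [Field K] {δ δ' : SL(2, ℤ)}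
    (h : (δ.1.map (Int.castRingHom (ZMod 2))) = δ'.1.map (Int.castRingHom (ZMod 2))) (x : K) :
    mob δ x = mob δ' x := by
  have : ∀ v : Ind 2, vAct v δ = vAct v δ' := fun v => by unfold vAct; rw [h]
  simp [mob, this]

/-- The matrices `conjMat i` are trivial modulo two. -/
lemma conjMat_mod_two (hp2 : p ≠ 2) (i : Option (ZMod p)) :
    (conjMat i).map (Int.castRingHom (ZMod 2)) = 1 := by
  have h1 : ((p : ℕ) : ZMod 2) = 1 :=
    ZMod.natCast_eq_one_iff_odd.2 (hp.out.odd_of_ne_two hp2)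
  have h2 : (2 : ZMod 2) = 0 := rfl
  ext a b
  cases i <;> fin_cases a <;> fin_cases b <;> simp [conjMat, h1, h2]

/-- The permutation of the conjugates by `δ`, with the accompanying element of `SL(2,ℤ)`. -/
lemma exists_perm (hp2 : p ≠ 2) (δ : SL(2, ℤ)) :
    ∃ pr : Option (ZMod p) → Option (ZMod p), Function.Bijective pr ∧
      ∀ i, ∃ D : SL(2, ℤ), conjMat i * δ.1 = D.1 * conjMat (pr i) ∧
        D.1.map (Int.castRingHom (ZMod 2)) = δ.1.map (Int.castRingHom (ZMod 2)) := by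
  choose pr D hD using fun i : Option (ZMod p) => exists_decomp hp2 (conjMat i * δ.1)
    (by rw [Matrix.det_mul, det_conjMat, δ.2, mul_one])
  refine ⟨pr, Finite.injective_iff_bijective.1 fun i i' hii => ?_, fun i => ⟨D i, hD i, ?_⟩⟩
  · refine conjMat_unique hp2 (D i * (D i')⁻¹) ?_
    have e1 := hD i
    have e2 := hD i'
    rw [← hii] at e2
    have hinv : ∀ E : SL(2, ℤ), E⁻¹.1 * E.1 = 1 := fun E => by
      rw [← Matrix.SpecialLinearGroup.coe_mul, inv_mul_cancel, Matrix.SpecialLinearGroup.coe_one]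
    have hinv' : δ.1 * δ⁻¹.1 = 1 := by
      rw [← Matrix.SpecialLinearGroup.coe_mul, mul_inv_cancel, Matrix.SpecialLinearGroup.coe_one]
    calc conjMat i = conjMat i * δ.1 * δ⁻¹.1 := by rw [mul_assoc, hinv', mul_one]
      _ = (D i).1 * conjMat (pr i) * δ⁻¹.1 := by rw [e1]
      _ = (D i).1 * ((D i')⁻¹.1 * ((D i').1 * conjMat (pr i))) * δ⁻¹.1 := by
        rw [← mul_assoc (D i')⁻¹.1, hinv, one_mul]
      _ = ((D i * (D i')⁻¹ : SL(2, ℤ))).1 * conjMat i' := by
        rw [← e2, Matrix.SpecialLinearGroup.coe_mul, mul_assoc, mul_assoc, mul_assoc, hinv', mul_one,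
          mul_assoc]
  · have := congrArg (fun M : Matrix (Fin 2) (Fin 2) ℤ => M.map (Int.castRingHom (ZMod 2))) (hD i)
    rw [Matrix.map_mul, Matrix.map_mul, conjMat_mod_two hp2, conjMat_mod_two hp2, one_mul,
      mul_one] at this
    exact this.symm

/-! ## The families of functions -/

variable (p) in
/-- The conjugates of `g (p τ)`. -/
def muFun (g : ℍ → ℂ) (i : Option (ZMod p)) : ℍ → ℂ := fun τ => g (conjMap i τ)

variable (p) in
/-- The conjugates of `g'(τ) / g'(pτ)`. -/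
def vFun (g : ℍ → ℂ) (i : Option (ZMod p)) : ℍ → ℂ := fun τ =>
  (p : ℂ) * deriv (g ∘ ofComplex) τ / deriv (muFun p g i ∘ ofComplex) τ

/-- The translates of `λ` are holomorphic. -/
lemma mdiff_comp_lam (δ : SL(2, ℤ)) : MDiff (comp lam δ) := mdiff_comp mdiff_lam δ

/-- A single conjugate under `δ`, from a decomposition `M_i δ = D M_j` with `D ≡ δ (mod 2)`. -/
lemma comp_muFun_eq {δ D : SL(2, ℤ)} {i j : Option (ZMod p)}
    (hD1 : conjMat i * δ.1 = D.1 * conjMat j)
    (hD2 : D.1.map (Int.castRingHom (ZMod 2)) = δ.1.map (Int.castRingHom (ZMod 2))) :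
    comp (muFun p lam i) δ = muFun p (comp lam δ) j ∧
      comp (vFun p lam i) δ = vFun p (comp lam δ) j := by
  have hδ : 0 < (δ : Matrix (Fin 2) (Fin 2) ℤ).det := by rw [δ.2]; norm_num
  have hmu : comp (muFun p lam i) δ = muFun p (comp lam δ) j := by
    funext τ
    have hDp : 0 < (D : Matrix (Fin 2) (Fin 2) ℤ).det := by rw [D.2]; norm_num
    have hC : 0 < (conjMat i * δ.1).det := by
      rw [Matrix.det_mul, δ.2, mul_one]; exact det_conjMat_pos i
    simp only [comp_apply, muFun, conjMap]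
    rw [← posGL_SL_smul δ hδ τ, posGL_mul_smul _ _ hC rfl,
      ← posGL_mul_smul hDp (det_conjMat_pos j) hC hD1.symm, posGL_SL_smul D hDp, lam_smul,
      lam_smul, mob_congr hD2]
  refine ⟨hmu, ?_⟩
  funext τ
  have hg : MDiff (muFun p lam i) := by
    intro z
    rw [UpperHalfPlane.mdifferentiableAt_iff]
    exact (hasDerivAt_comp_posGL mdiff_lam (conjMat i) (det_conjMat_pos i) z).differentiableAt
  have h1 := hasDerivAt_comp_posGL mdiff_lam δ.1 hδ τ
  have h2 := hasDerivAt_comp_posGL hg δ.1 hδ τ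
  simp only [posGL_SL_smul δ hδ] at h1 h2
  have e1 : deriv (comp lam δ ∘ ofComplex) τ = _ := h1.deriv
  have e2 := h2.deriv
  rw [show ((fun w => muFun p lam i (δ • w)) ∘ ofComplex) =
    muFun p (comp lam δ) j ∘ ofComplex by rw [← hmu]; rfl] at e2
  simp only [comp_apply, vFun, e1, e2]
  have hne : ((δ.1.det : ℂ) / ((δ.1 1 0 : ℂ) * τ + δ.1 1 1) ^ 2) ≠ 0 := by
    rw [δ.2]
    have := denom_ne_zero_of_im (posGL δ.1 hδ) τ.im_ne_zero
    simp only [denom, posGL] at this
    simp only [Int.cast_one, ne_eq, div_eq_zero_iff, one_ne_zero, pow_eq_zero_iff two_ne_zero,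
      false_or]
    simpa using this
  rw [← mul_assoc, mul_div_mul_right _ _ hne]

/-- `SL(2, ℤ)` permutes the conjugates. -/
lemma comp_muFun (hp2 : p ≠ 2) (δ : SL(2, ℤ)) :
    ∃ pr : Option (ZMod p) → Option (ZMod p), Function.Bijective pr ∧
      (∀ i, comp (muFun p lam i) δ = muFun p (comp lam δ) (pr i)) ∧
      ∀ i, comp (vFun p lam i) δ = vFun p (comp lam δ) (pr i) := by
  obtain ⟨pr, hπ, hD⟩ := exists_perm hp2 δ
  refine ⟨pr, hπ, fun i => ?_, fun i => ?_⟩ <;> obtain ⟨D, hD1, hD2⟩ := hD i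
  · exact (comp_muFun_eq hD1 hD2).1
  · exact (comp_muFun_eq hD1 hD2).2

/-- The first conjugate of `g'(τ)/g'(pτ)` in terms of `dSlash`. -/
lemma vFun_none {g : ℍ → ℂ} (hg : MDiff g) (τ : ℍ) :
    vFun p g none τ = dSlash 2 g τ / dSlash 2 g (conjMap (none : Option (ZMod p)) τ) := by
  have h : deriv (muFun p g none ∘ ofComplex) τ = _ :=
    (hasDerivAt_comp_posGL hg (conjMat (none : Option (ZMod p))) (det_conjMat_pos none) τ).deriv
  have hp0 : (p : ℂ) ≠ 0 := by exact_mod_cast hp.out.ne_zero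
  rw [vFun, h, dSlash, dSlash, det_conjMat,
    show ((conjMat (none : Option (ZMod p))) 1 0 : ℤ) = 0 by simp [conjMat],
    show ((conjMat (none : Option (ZMod p))) 1 1 : ℤ) = 1 by simp [conjMat],
    mul_div_mul_left _ _ (div_ne_zero (by norm_num)
      (by simp [Real.pi_ne_zero, Complex.I_ne_zero]))]
  rw [conjMap]
  push_cast
  simp only [zero_mul, zero_add, one_pow, div_one]
  field_simp

/-- The other conjugates of `g'(τ)/g'(pτ)` in terms of `dSlash`. -/
lemma vFun_some {g : ℍ → ℂ} (hg : MDiff g) (b : ZMod p) (τ : ℍ) :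
    vFun p g (some b) τ = (p : ℂ) ^ 2 * (dSlash 2 g τ / dSlash 2 g (conjMap (some b) τ)) := by
  have h : deriv (muFun p g (some b) ∘ ofComplex) τ = _ :=
    (hasDerivAt_comp_posGL hg (conjMat (some b)) (det_conjMat_pos _) τ).deriv
  have hp0 : (p : ℂ) ≠ 0 := by exact_mod_cast hp.out.ne_zero
  rw [vFun, h, dSlash, dSlash, det_conjMat,
    show ((conjMat (some b)) 1 0 : ℤ) = 0 by simp [conjMat],
    show ((conjMat (some b)) 1 1 : ℤ) = p by simp [conjMat],
    mul_div_mul_left _ _ (div_ne_zero (by norm_num)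
      (by simp [Real.pi_ne_zero, Complex.I_ne_zero]))]
  rw [conjMap]
  push_cast
  simp only [zero_mul, zero_add]
  field_simp

end Fermat.Agent.AtP
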