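import Fermat.Agent.Eisenstein.P1Family
import Fermat.Agent.KummerES.HeckeWeak
import Fermat.Agent.KummerES.LevelRing
import Fermat.Agent.AtP.LambdaPConj

/-!
# The level `Γ₀(p) ∩ Γ(L)` over the level `Γ(L)`

Representatives in `Γ(L)` of the `p + 1` cosets, the map `swapMap` exchanging the two cusps, and
the descent of symmetric expressions in the conjugates to level `L`.
-/

set_option autoImplicit false

noncomputable section

open UpperHalfPlane CongruenceSubgroup
open Polynomial hiding comp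
open scoped MatrixGroups Manifold
open Fermat.Agent.KummerES
open Fermat.Agent.Eisenstein (toP1 act act_mul act_one act_none_eq_none_iff actPerm)

namespace Fermat.Agent.AtP

variable (p : ℕ) [hp : Fact p.Prime] (L : ℕ)

/-- `Γ₀(p) ∩ Γ(L)`. -/
def levelP : Subgroup SL(2, ℤ) := Gamma0 p ⊓ Gamma L

variable {p L}

omit hp in
/-- Membership in `Γ₀(p) ∩ Γ(L)`. -/
theorem mem_levelP {γ : SL(2, ℤ)} : γ ∈ levelP p L ↔ γ ∈ Gamma0 p ∧ γ ∈ Gamma L := Iff.rfl

variable (p L)

/-- A natural number `m` with `p ∣ 1 + L² m`. -/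
def descM : ℕ := (-1 / (L : ZMod p) ^ 2).val

variable {p L}

theorem natCast_L_ne_zero (hpL : ¬ p ∣ L) : (L : ZMod p) ≠ 0 := fun h =>
  hpL ((ZMod.natCast_eq_zero_iff _ _).1 h)

/-- `p ∣ 1 + L ^ 2 m` for `m = descM p L`. -/
theorem descM_spec (hpL : ¬ p ∣ L) : ((1 + (L : ℤ) * (L * descM p L) : ℤ) : ZMod p) = 0 := by
  have h := natCast_L_ne_zero hpL
  push_cast [descM, ZMod.natCast_val, ZMod.cast_id', id_eq]
  field_simp
  ring

theorem descM_ne_zero (hpL : ¬ p ∣ L) : ((descM p L : ℕ) : ZMod p) ≠ 0 := fun h => by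
  have := descM_spec (p := p) (L := L) hpL
  push_cast at this
  rw [h] at this
  simp at this

variable (p L)

/-- An element of `Γ(L)` taking `∞` to the other cusp of `Γ₀(p)`. -/
def swapSL : SL(2, ℤ) :=
  ⟨!![1, (L : ℤ); (L : ℤ) * descM p L, 1 + (L : ℤ) * (L * descM p L)], by
    rw [Matrix.det_fin_two_of]; ring⟩

/-- The matrix of `swapSL`. -/
theorem coe_swapSL : ((swapSL p L : SL(2, ℤ)) : Matrix (Fin 2) (Fin 2) ℤ) =
    !![1, (L : ℤ); (L : ℤ) * descM p L, 1 + (L : ℤ) * (L * descM p L)] := rfl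

/-- The representatives in `Γ(L)` of the cosets of `Γ₀(p) ∩ Γ(L)`. -/
def descRep : Option (ZMod p) → SL(2, ℤ)
  | none => 1
  | some k => swapSL p L * ModularGroup.T ^ ((L : ℤ) * (k.val : ℤ))

variable {p L}

/-- `swapSL` lies in `Γ(L)`. -/
theorem swapSL_mem_Gamma : swapSL p L ∈ Gamma L := by
  rw [Gamma_mem]
  simp [coe_swapSL]

/-- The representatives lie in `Γ(L)`. -/
theorem descRep_mem (x : Option (ZMod p)) : descRep p L x ∈ Gamma L := by
  cases x with
  | none => exact one_mem _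
  | some k =>
    exact mul_mem (swapSL_mem_Gamma (p := p))
      (ModularGroup_T_pow_mem_Gamma (L : ℤ) _ (dvd_mul_right _ _))

theorem act_descRep_some (hpL : ¬ p ∣ L) (k : ZMod p) :
    act (none : Option (ZMod p)) (descRep p L (some k)) = some ((L : ZMod p) * k) := by
  have hm := descM_ne_zero (p := p) (L := L) hpL
  have hL := natCast_L_ne_zero hpL
  have hs := descM_spec (p := p) (L := L) hpL
  push_cast at hs
  simp [act, toP1, Fermat.Agent.Eisenstein.imgC, Fermat.Agent.Eisenstein.imgD, descRep, coe_swapSL,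
    Matrix.SpecialLinearGroup.coe_mul, ModularGroup.coe_T_zpow, Matrix.mul_apply, Fin.sum_univ_two, hm, hL, -ZMod.natCast_val,
    ZMod.natCast_zmod_val, hs]

/-- The representatives meet each of the `p + 1` cosets once. -/
theorem bijective_act_descRep (hpL : ¬ p ∣ L) :
    Function.Bijective fun x => act (none : Option (ZMod p)) (descRep p L x) := by
  refine Finite.injective_iff_bijective.1 fun x y h => ?_
  have h0 : act (none : Option (ZMod p)) (descRep p L none) = none := act_one none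
  rcases x with _ | a <;> rcases y with _ | b <;>
    simp only [h0, act_descRep_some hpL, reduceCtorEq, Option.some.injEq] at h ⊢
  exact mul_left_cancel₀ (natCast_L_ne_zero hpL) h

variable (p L) in
/-- The index of the coset of an element of `Γ(L)`. -/
def cosetIdx (γ : SL(2, ℤ)) : Option (ZMod p) :=
  Function.invFun (fun x => act (none : Option (ZMod p)) (descRep p L x)) (act none γ)

theorem act_descRep_cosetIdx (hpL : ¬ p ∣ L) (γ : SL(2, ℤ)) :
    act (none : Option (ZMod p)) (descRep p L (cosetIdx p L γ)) = act none γ :=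
  Function.invFun_eq ((bijective_act_descRep hpL).2 _)

theorem mul_descRep_inv_mem (hpL : ¬ p ∣ L) {γ : SL(2, ℤ)} (hγ : γ ∈ Gamma L) :
    γ * (descRep p L (cosetIdx p L γ))⁻¹ ∈ levelP p L := by
  refine mem_levelP.2 ⟨?_, mul_mem hγ (inv_mem (descRep_mem _))⟩
  refine (act_none_eq_none_iff (p := p) _).1 ?_
  rw [act_mul, ← act_descRep_cosetIdx hpL γ, ← act_mul, mul_inv_cancel, act_one]

/-- The conjugates of a function. -/
def conjFun (F : ℍ → ℂ) (x : Option (ZMod p)) : ℍ → ℂ := comp F (descRep p L x)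

/-- The first conjugate of a function is the function itself. -/
theorem conjFun_none (F : ℍ → ℂ) : conjFun (p := p) (L := L) F none = F := comp_one F

/-- The permutation of the conjugates by an element of `Γ(L)`. -/
theorem exists_conjFun_perm (hpL : ¬ p ∣ L) {γ : SL(2, ℤ)} (hγ : γ ∈ Gamma L) :
    ∃ e : Option (ZMod p) ≃ Option (ZMod p), ∀ F : ℍ → ℂ, (∀ g ∈ levelP p L, comp F g = F) →
      ∀ x, comp (conjFun (L := L) F x) γ = conjFun (L := L) F (e x) := by
  have hb := bijective_act_descRep (p := p) (L := L) hpL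
  refine ⟨((Equiv.ofBijective _ hb).trans (actPerm γ)).trans (Equiv.ofBijective _ hb).symm,
    fun F hF x => ?_⟩
  set y := (((Equiv.ofBijective _ hb).trans (actPerm γ)).trans (Equiv.ofBijective _ hb).symm) x
  have hy : y = cosetIdx p L (descRep p L x * γ) := by
    refine hb.1 ?_
    show act (none : Option (ZMod p)) (descRep p L y) = act none (descRep p L _)
    rw [act_descRep_cosetIdx hpL, act_mul]
    exact Equiv.ofBijective_apply_symm_apply (fun x => act (none : Option (ZMod p)) (descRep p L x))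
      hb _
  rw [conjFun, conjFun, comp_comp, hy]
  conv_lhs => rw [← inv_mul_cancel_right (descRep p L x * γ) (descRep p L (cosetIdx p L (descRep p L x * γ)))]
  rw [← comp_comp, hF _ (mul_descRep_inv_mem hpL (mul_mem (descRep_mem x) hγ))]

theorem conj_T_pow_mem {δ : SL(2, ℤ)} (hδ : δ ∈ Gamma0 p) :
    δ * ModularGroup.T ^ (L : ℤ) * δ⁻¹ ∈ levelP p L := by
  refine mem_levelP.2 ⟨mul_mem (mul_mem hδ ?_) (inv_mem hδ), (Gamma_normal L).conj_mem _
    (ModularGroup_T_pow_mem_Gamma (L : ℤ) (L : ℤ) dvd_rfl) δ⟩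
  rw [Gamma0_mem]
  simp [-zpow_natCast, ModularGroup.coe_T_zpow]

variable [NeZero L]

/-- At the cusps `δ ∞`, `δ ∈ Γ₀(p)`, the parameter is `exp (2πiτ/L)`. -/
theorem exists_hasExp_Gamma0 {B : Subring ℂ} {F : ℍ → ℂ}
    (hF : F ∈ weak (levelP p L) (p * L) B) {δ : SL(2, ℤ)} (hδ : δ ∈ Gamma0 p) :
    ∃ s ∈ coeffSubring B, HasExp L (comp F δ) s := by
  obtain ⟨s, hs, hs'⟩ := hF.2.2 δ
  rw [mul_comm] at hs'
  refine exists_hasExp_of_comp_T_pow hs' hs ?_
  rw [comp_comp, show δ * ModularGroup.T ^ (L : ℤ)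
    = (δ * ModularGroup.T ^ (L : ℤ) * δ⁻¹) * δ by group, ← comp_comp,
    hF.2.1 _ (conj_T_pow_mem hδ)]

/-- At cusps `δ ∞`, `δ ∈ Γ₀(p)`, the parameter is `exp (2πiτ/L)`. -/
theorem hasExp_expansion_Gamma0 {B : Subring ℂ} {F : ℍ → ℂ}
    (hF : F ∈ weak (levelP p L) (p * L) B) {δ : SL(2, ℤ)} (hδ : δ ∈ Gamma0 p) :
    HasExp L (comp F δ) (expansion L (comp F δ)) := by
  obtain ⟨s, -, hs⟩ := exists_hasExp_Gamma0 hF hδ
  rwa [hs.expansion_eq]

/-- At `∞` the parameter is `exp (2πiτ/L)`. -/
theorem hasExp_expansion_infty {B : Subring ℂ} {F : ℍ → ℂ}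
    (hF : F ∈ weak (levelP p L) (p * L) B) : HasExp L F (expansion L F) := by
  simpa using hasExp_expansion_Gamma0 hF (one_mem (Gamma0 p))

omit [NeZero L] in
/-- Functions of level `L` have level `Γ₀(p) ∩ Γ(L)`. -/
theorem weak_Gamma_le_levelP [NeZero L] (B : Subring ℂ) :
    weak (Gamma L) L B ≤ weak (levelP p L) (p * L) B := by
  rintro f ⟨h1, h2, h3⟩
  refine ⟨h1, fun γ hγ => h2 γ hγ.2, fun δ => ?_⟩
  obtain ⟨s, hs, hs'⟩ := h3 δ
  rw [mul_comm]
  exact ⟨_, qExpand_mem_coeffSubring p hs, hs'.dilate p⟩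

/-- A combination of the conjugates fixed by every permutation is of level `L`. -/
theorem mem_weak_of_symmetric {ι : Type*} (hpL : ¬ p ∣ L) {B : Subring ℂ} {Fs : ι → ℍ → ℂ}
    (hFs : ∀ i, Fs i ∈ weak (levelP p L) (p * L) B) (Φ : (ι → Option (ZMod p) → ℂ) → ℂ)
    (hsym : ∀ (e : Option (ZMod p) ≃ Option (ZMod p)) (v : ι → Option (ZMod p) → ℂ),
      Φ (fun i x => v i (e x)) = Φ v)
    (hpoly : ∀ (R : Subring (ℍ → ℂ)) (G : ι → Option (ZMod p) → ℍ → ℂ), (∀ i x, G i x ∈ R) →
      (fun τ => Φ fun i x => G i x τ) ∈ R) :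
    (fun τ => Φ fun i x => conjFun (L := L) (Fs i) x τ) ∈ weak (Gamma L) L B := by
  set f : ℍ → ℂ := fun τ => Φ fun i x => conjFun (L := L) (Fs i) x τ with hf
  have hinv : ∀ γ ∈ Gamma L, comp f γ = f := fun γ hγ => by
    obtain ⟨e, he⟩ := exists_conjFun_perm (p := p) hpL hγ
    funext τ
    have h : ∀ i x, conjFun (L := L) (Fs i) x (γ • τ) = conjFun (L := L) (Fs i) (e x) τ := fun i x =>
      congrFun (he (Fs i) (hFs i).2.1 x) τ
    simp only [hf, comp_apply, h]
    exact hsym e fun i x => conjFun (L := L) (Fs i) x τ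
  have hR : f ∈ weak (⊥ : Subgroup SL(2, ℤ)) (p * L) B :=
    hpoly _ _ fun i x => by
      refine ⟨mdiff_comp (hFs i).1 _, fun γ hγ => ?_, fun δ => ?_⟩
      · rw [Subgroup.mem_bot.1 hγ, comp_one]
      · rw [conjFun, comp_comp]; exact (hFs i).2.2 _
  refine ⟨hR.1, hinv, fun δ => ?_⟩
  obtain ⟨s, hs, hs'⟩ := hR.2.2 δ
  rw [mul_comm] at hs'
  exact exists_hasExp_of_comp_T_pow hs' hs (comp_comp_T_pow hinv δ)

omit [NeZero L] in
/-- The Lagrange coefficients of `G` with respect to `Y`. -/
def lagrangeCoeff (G Y : ℍ → ℂ) (j : ℕ) : ℍ → ℂ := fun τ =>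
  ∑ x : Option (ZMod p), conjFun (L := L) G x τ *
    (∏ y ∈ Finset.univ.erase x, (X - C (conjFun (L := L) Y y τ))).coeff j

/-- The Lagrange coefficients are functions of level `L`. -/
theorem lagrangeCoeff_mem (hpL : ¬ p ∣ L) {B : Subring ℂ} {G Y : ℍ → ℂ}
    (hG : G ∈ weak (levelP p L) (p * L) B) (hY : Y ∈ weak (levelP p L) (p * L) B) (j : ℕ) :
    lagrangeCoeff (p := p) (L := L) G Y j ∈ weak (Gamma L) L B := by
  classical
  refine mem_weak_of_symmetric (ι := Bool) (B := B) hpL (Fs := fun i => if i then G else Y)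
    (fun i => by cases i <;> simp [hG, hY])
    (fun v => ∑ x, v true x * (∏ y ∈ Finset.univ.erase x, (X - C (v false y))).coeff j) ?_ ?_
  · intro e v
    dsimp only
    refine Fintype.sum_equiv e _ _ fun x => ?_
    congr 2
    refine Finset.prod_equiv e (fun y => ?_) fun y _ => rfl
    simp
  · intro R W hW
    have h : ∀ (T : Finset (Option (ZMod p))) (k : ℕ),
        (fun τ => (∏ y ∈ T, (X - C (W false y τ))).coeff k) ∈ R := by
      intro T
      induction T using Finset.induction_on with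
      | empty =>
        intro k
        simp only [Finset.prod_empty, coeff_one]
        split_ifs
        · exact one_mem R
        · exact zero_mem R
      | insert a T ha ih =>
        intro k
        simp only [Finset.prod_insert ha, sub_mul, coeff_sub, coeff_C_mul]
        cases k with
        | zero =>
          simp only [mul_coeff_zero, coeff_X_zero, zero_mul, zero_sub]
          exact neg_mem (mul_mem (hW false a) (ih 0))
        | succ k =>
          simp only [coeff_X_mul]
          exact sub_mem (ih k) (mul_mem (hW false a) (ih (k + 1)))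
    have e : (fun τ => ∑ x, W true x τ * (∏ y ∈ Finset.univ.erase x, (X - C (W false y τ))).coeff j)
        = ∑ x, W true x * fun τ => (∏ y ∈ Finset.univ.erase x, (X - C (W false y τ))).coeff j := by
      funext τ
      simp
    rw [e]
    exact sum_mem fun x _ => mul_mem (hW true x) (h _ j)

omit [NeZero L] in
/-- The derivative of the polynomial of `Y` at `Y`. -/
def diffFun (Y : ℍ → ℂ) : ℍ → ℂ := fun τ =>
  ∏ y ∈ Finset.univ.erase (none : Option (ZMod p)), (Y τ - conjFun (L := L) Y y τ)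

omit [NeZero L] in
/-- `G` times `diffFun` is the Lagrange combination of the powers of `Y`. -/
theorem mul_diffFun_eq (G Y : ℍ → ℂ) (τ : ℍ) :
    G τ * diffFun (p := p) (L := L) Y τ =
      ∑ j ∈ Finset.range (p + 1), lagrangeCoeff (p := p) (L := L) G Y j τ * Y τ ^ j := by
  classical
  simp only [lagrangeCoeff, Finset.sum_mul, mul_assoc]
  rw [Finset.sum_comm]
  have h : ∀ x : Option (ZMod p), ∑ j ∈ Finset.range (p + 1),
      conjFun (L := L) G x τ * ((∏ y ∈ Finset.univ.erase x,
        (X - C (conjFun (L := L) Y y τ))).coeff j * Y τ ^ j) =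
      conjFun (L := L) G x τ * ∏ y ∈ Finset.univ.erase x, (Y τ - conjFun (L := L) Y y τ) := fun x => by
    rw [← Finset.mul_sum, ← eval_eq_sum_range' (n := p + 1), eval_prod]
    · simp
    · rw [natDegree_finsetProd_X_sub_C_eq_card, Finset.card_erase_of_mem (Finset.mem_univ _),
        Finset.card_univ, Fintype.card_option, ZMod.card]
      omega
  rw [Finset.sum_congr rfl fun x _ => h x, Finset.sum_eq_single none]
  · rw [conjFun_none, diffFun]
  · intro x _ hx
    rw [Finset.prod_eq_zero (Finset.mem_erase.2 ⟨Ne.symm hx, Finset.mem_univ none⟩)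
      (by rw [conjFun_none, sub_self]), mul_zero]
  · simp

end Fermat.Agent.AtP
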