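import Fermat.Agent.AtP.LambdaPReduction

/-!
# The conjugates of `λ (p τ)` and `λ'(τ) / λ'(p τ)` form one orbit of distinct functions

Also the relation `v ∂ₓΦ + p ∂ᵧΦ = 0` between the two families.
-/

set_option autoImplicit false

noncomputable section

open UpperHalfPlane CongruenceSubgroup Polynomial
open scoped MatrixGroups Manifold Real
open Fermat.Agent.KummerES ModularCurve

namespace Fermat.Agent.AtP

variable {p : ℕ} [hp : Fact p.Prime]

/-- How an element of `Γ(2)` moves one conjugate to another. -/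
lemma comp_muFun_eq_of_mem_Gamma {γ D : SL(2, ℤ)} {i j : Option (ZMod p)} (hγ : γ ∈ Gamma 2)
    (hD : D ∈ Gamma 2) (h : conjMat i * γ.1 = D.1 * conjMat j) :
    comp (muFun p lam i) γ = muFun p lam j ∧ comp (vFun p lam i) γ = vFun p lam j := by
  have e : ∀ {E : SL(2, ℤ)}, E ∈ Gamma 2 → E.1.map (Int.castRingHom (ZMod 2)) = 1 := fun hE => by
    rw [Gamma_mem'] at hE
    simpa using congrArg Subtype.val hE
  obtain ⟨h1, h2⟩ := comp_muFun_eq h (by rw [e hγ, e hD])
  rw [comp_lam_of_mem_Gamma hγ] at h1 h2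
  exact ⟨h1, h2⟩

/-- `Γ(2)` moves `λ (pτ)` to each of its conjugates. -/
theorem exists_Gamma_two_transitive (hp2 : p ≠ 2) (b : ZMod p) :
    ∃ γ ∈ Gamma 2, comp (muFun p lam none) γ = muFun p lam (some b) ∧
      comp (vFun p lam none) γ = vFun p lam (some b) := by
  obtain ⟨t, ht⟩ := hp.out.odd_of_ne_two hp2
  -- an odd `a` congruent to `4 b` modulo `p`
  obtain ⟨a, ⟨m, hm⟩, ha⟩ : ∃ a : ℤ, Odd a ∧ (p : ℤ) ∣ a - 4 * (b.val : ℤ) :=
    ⟨4 * (b.val : ℤ) + p, ⟨2 * (b.val : ℤ) + t, by
      have : (p : ℤ) = 2 * t + 1 := by exact_mod_cast ht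
      linarith⟩, ⟨1, by ring⟩⟩
  obtain ⟨y, hy⟩ := ha
  let γ : SL(2, ℤ) := ⟨!![a, 2 * (m * m + m); 2, a], by
    rw [Matrix.det_fin_two_of, hm]; ring⟩
  let D : SL(2, ℤ) := ⟨!![(p : ℤ) * a, 2 * (m * m + m) - 2 * (b.val : ℤ) * a; 2, y], by
    rw [Matrix.det_fin_two_of]
    linear_combination -(a * hy) + (a + 2 * m + 1) * hm⟩
  have hmem : ∀ (E : SL(2, ℤ)), Odd (E.1 0 0) → Even (E.1 0 1) → Even (E.1 1 0) → Odd (E.1 1 1) →
      E ∈ Gamma 2 := fun E h00 h01 h10 h11 => by
    rw [Gamma_mem]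
    refine ⟨?_, ?_, ?_, ?_⟩
    · exact ZMod.intCast_eq_one_iff_odd.2 h00
    · exact ZMod.intCast_eq_zero_iff_even.2 h01
    · exact ZMod.intCast_eq_zero_iff_even.2 h10
    · exact ZMod.intCast_eq_one_iff_odd.2 h11
  have hodd : Odd a := ⟨m, hm⟩
  have hpodd : Odd (p : ℤ) := by rw [Int.odd_coe_nat]; exact hp.out.odd_of_ne_two hp2
  have hyodd : Odd y := by
    refine (Int.odd_mul.1 (?_ : Odd ((p : ℤ) * y))).2
    rw [← hy]
    exact hodd.sub_even ⟨2 * (b.val : ℤ), by ring⟩
  have hγ : γ ∈ Gamma 2 := hmem γ hodd ⟨m * m + m, by simp [γ]; ring⟩ ⟨1, rfl⟩ hodd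
  have hD : D ∈ Gamma 2 := hmem D (hpodd.mul hodd)
    ⟨m * m + m - (b.val : ℤ) * a, by simp [D]; ring⟩ ⟨1, rfl⟩ hyodd
  refine ⟨γ, hγ, comp_muFun_eq_of_mem_Gamma hγ hD ?_⟩
  ext i j
  fin_cases i <;> fin_cases j <;>
    simp [γ, D, conjMat, Matrix.mul_apply, Fin.sum_univ_two, -ZMod.natCast_val]
  · ring
  · linear_combination hy

lemma exists_mem_Gamma_two_to_none (hp2 : p ≠ 2) (i : Option (ZMod p)) :
    ∃ γ ∈ Gamma 2, comp (vFun p lam i) γ = vFun p lam none := by
  cases i with
  | none => exact ⟨1, one_mem _, comp_one _⟩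
  | some b =>
    obtain ⟨γ, hγ, -, hv⟩ := exists_Gamma_two_transitive hp2 b
    refine ⟨γ⁻¹, inv_mem hγ, ?_⟩
    rw [← hv, comp_comp, mul_inv_cancel, comp_one]

/-- `v` differs from each of its conjugates. -/
lemma vFun_none_ne_some (hp2 : p ≠ 2) (b : ZMod p) : vFun p lam none ≠ vFun p lam (some b) := by
  intro h
  have hd : ∀ τ, dSlash 2 lam τ ≠ 0 := fun τ => (dSlash_ne_zero_iff τ).2 (deriv_lam_ne_zero τ)
  set t := coeffMap iota2 (thetaOp R2 l2) with ht
  have hD : HasExp 2 (dSlash 2 lam) t := by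
    rw [ht, coeffMap_thetaOp]; exact HasExp.dSlash exp2_l2
  have ht0 : t ≠ 0 := (isUnit_thetaOp_l2.map (coeffMap iota2)).ne_zero
  have hq : qExpand ℂ p t ≠ 0 := (map_ne_zero_iff _ (qExpand_injective p)).2 ht0
  have h1 := (hD.mul ((hasExp_comp_conjMap_none hD).inv (fun τ => hd _) hq)).dilate p
  have h2 := (HasExp.const (L := 2 * p) ((p : ℂ) ^ 2)).mul
      ((hD.dilate p).mul ((hasExp_comp_conjMap_some hD b).inv (fun τ => hd _)
        (coe_twistU_units t (zetaUnit p b) ht0)))
  have e1 : vFun p lam none = dSlash 2 lam * (dSlash 2 lam ∘ conjMap (none : Option (ZMod p)))⁻¹ :=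
    funext fun τ => (vFun_none mdiff_lam τ).trans (div_eq_mul_inv _ _)
  have e2 : vFun p lam (some b) = (fun _ => (p : ℂ) ^ 2) *
      (dSlash 2 lam * (dSlash 2 lam ∘ conjMap (some b))⁻¹) :=
    funext fun τ => (vFun_some mdiff_lam b τ).trans (by rw [div_eq_mul_inv]; rfl)
  rw [← e1, h, e2] at h1
  have hs := h1.series_eq h2
  -- so `vInf` is a root of the polynomial of the other conjugates
  have e3 : qExpand ℂ p (coeffMap iota2 (vInf p l2)) =
      twistU (zetaUnit p b) (coeffMap iota2 (vBase p l2)) := by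
    have hc : twistU (zetaUnit p b) (coeffMap iota2 ((p : LaurentSeries R2) ^ 2)) =
        HahnSeries.single (0 : ℤ) ((p : ℂ) ^ 2) := by
      rw [map_pow, map_natCast, map_pow, map_natCast,
        ← map_natCast (HahnSeries.C (Γ := ℤ) (R := ℂ)), ← map_pow]
      rfl
    rw [vBase, map_mul, map_mul, hc, map_mul, map_mul, map_ringInverse _ isUnit_thetaOp_l2,
      map_inv₀, ← qExpand_coeffMap, twist_qExpand_eq p (zetaUnit_pow b), vInf,
      map_mul (coeffMap iota2), map_ringInverse _ (isUnit_thetaOp_l2.map (qExpand R2 p)),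
      ← qExpand_coeffMap]
    exact hs
  have hroot : (normPoly p (vBase p l2)).eval (vInf p l2) = 0 := by
    have hinj : Function.Injective ((qExpand ℂ p).comp (coeffMap iota2)) :=
      (qExpand_injective p).comp coeffMap_iota2_injective
    apply hinj
    rw [map_zero, ← eval₂_at_apply, ← eval_map, normPoly_map (isPrimitiveRoot_zetaC p), eval_prod]
    refine Finset.prod_eq_zero (Finset.mem_univ b) ?_
    rw [eval_sub, eval_X, eval_C, RingHom.comp_apply, e3]
    exact sub_self _
  have h3 := congrArg (coeffMap (red2 hp2)) hroot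
  rw [map_zero, ← eval₂_at_apply, ← eval_map, normPoly_congr] at h3
  have h4 : coeffMap (red2 hp2) (vBase p l2) = 0 := by
    rw [vBase, map_mul, map_pow, map_natCast,
      show ((p : ℕ) : LaurentSeries (ZMod p)) = 0 by
        rw [← map_natCast (HahnSeries.C (Γ := ℤ) (R := ZMod p)), ZMod.natCast_self, map_zero],
      zero_pow two_ne_zero, zero_mul]
  rw [h4, eval_sub, eval_pow, eval_X, eval_C, sub_zero, pow_eq_zero_iff hp.out.ne_zero] at h3
  refine (IsUnit.map (coeffMap (red2 hp2)) ?_).ne_zero h3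
  exact isUnit_thetaOp_l2.mul ((isUnit_thetaOp_l2.map (qExpand R2 p)).ringInverse)

/-- The conjugates of `v` are distinct. -/
theorem vFun_injective (hp2 : p ≠ 2) : Function.Injective (vFun p lam) := by
  have key : ∀ i, vFun p lam i = vFun p lam none → i = none := fun i hi => by
    cases i with
    | none => rfl
    | some b => exact absurd hi.symm (vFun_none_ne_some hp2 b)
  intro i j hij
  obtain ⟨γ, hγ, hi⟩ := exists_mem_Gamma_two_to_none hp2 i
  obtain ⟨pr, hpr, -, hv⟩ := comp_muFun (p := p) hp2 γ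
  rw [comp_lam_of_mem_Gamma hγ] at hv
  refine hpr.1 ((key _ ?_).trans (key _ ?_).symm)
  · rw [← hv, hi]
  · rw [← hv, ← hij, hi]

/-- The conjugates of `λ (pτ)` are distinct. -/
theorem muFun_injective (hp2 : p ≠ 2) : Function.Injective (muFun p lam) := fun i j hij =>
  vFun_injective hp2 (funext fun τ => by simp only [vFun, hij])

/-! ## The relation between `v` and the partial derivatives -/

/-- The partial derivative in the inner variable. -/
def dX {A : Type*} [CommRing A] (P : A[X][X]) : A[X][X] :=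
  P.sum fun k R => monomial k (derivative R)

lemma hasDerivAt_ev2 (P : R2[X][X]) {f g : ℂ → ℂ} {f' g' z : ℂ} (hf : HasDerivAt f f' z)
    (hg : HasDerivAt g g' z) :
    HasDerivAt (fun w => ev2 iota2 (f w) (g w) P)
      (ev2 iota2 (f z) (g z) (dX P) * f' + ev2 iota2 (f z) (g z) (derivative P) * g') z := by
  induction P using Polynomial.induction_on' with
  | add P Q hP hQ =>
    have hd : dX (P + Q) = dX P + dX Q :=
      sum_add_index P Q _ (fun i => by simp) (fun i a b => by simp)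
    simp only [map_add, hd]
    exact (hP.add hQ).congr_deriv (by ring)
  | monomial k R =>
    have hd : dX (monomial k R) = monomial k (derivative R) := sum_monomial_index _ _ (by simp)
    simp only [hd, derivative_monomial, ev2, coe_eval₂RingHom, eval₂_monomial]
    have hR : HasDerivAt (fun w => R.eval₂ iota2 (f w)) ((derivative R).eval₂ iota2 (f z) * f') z := by
      have := ((R.map iota2).hasDerivAt (f z)).comp z hf
      simpa [eval_map, derivative_map, Function.comp_def] using this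
    refine (hR.mul (hg.pow k)).congr_deriv ?_
    rw [eval₂_mul, ← C_eq_natCast, eval₂_C, map_natCast, Pi.pow_apply]
    ring

/-- `v ∂ₓΦ + p ∂ᵧΦ = 0`. -/
theorem vFun_relation (hp2 : p ≠ 2) (i : Option (ZMod p)) (τ : ℍ) :
    vFun p lam i τ * ev2 iota2 (lam τ) (muFun p lam i τ) (dX (lamPoly p)) +
      (p : ℂ) * ev2 iota2 (lam τ) (muFun p lam i τ) (derivative (lamPoly p)) = 0 := by
  have hmu := hasDerivAt_comp_posGL mdiff_lam (conjMat i) (det_conjMat_pos i) τ
  have hl : HasDerivAt (lam ∘ ofComplex) (deriv (lam ∘ ofComplex) τ) (τ : ℂ) :=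
    (UpperHalfPlane.mdifferentiableAt_iff.1 (mdiff_lam τ)).hasDerivAt
  have hne : deriv (muFun p lam i ∘ ofComplex) τ ≠ 0 := by
    rw [show muFun p lam i ∘ ofComplex = (fun w => lam (posGL (conjMat i) (det_conjMat_pos i) • w)) ∘
      ofComplex from rfl, hmu.deriv, det_conjMat]
    refine mul_ne_zero (deriv_lam_ne_zero _) (div_ne_zero (by exact_mod_cast hp.out.ne_zero) ?_)
    have := denom_ne_zero_of_im (posGL (conjMat i) (det_conjMat_pos i)) τ.im_ne_zero
    simp only [denom, posGL] at this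
    exact pow_ne_zero _ (by simpa using this)
  have hmu' : HasDerivAt (muFun p lam i ∘ ofComplex) (deriv (muFun p lam i ∘ ofComplex) τ) (τ : ℂ) :=
    hmu.differentiableAt.hasDerivAt
  have h := hasDerivAt_ev2 (lamPoly p) hl hmu'
  have h0 : HasDerivAt (fun w => ev2 iota2 ((lam ∘ ofComplex) w) ((muFun p lam i ∘ ofComplex) w)
      (lamPoly p)) 0 (τ : ℂ) := by
    simp only [Function.comp_apply, ev2_lamPoly_muFun hp2]
    exact hasDerivAt_const _ _
  have := h.unique h0
  simp only [Function.comp_apply, ofComplex_apply] at this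
  rw [vFun]
  field_simp
  linear_combination (p : ℂ) * this

end Fermat.Agent.AtP
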