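import Fermat.Agent.AtP.SeriesNormMap
import Fermat.Agent.KummerES.LocalSeries
import Mathlib.RingTheory.HahnSeries.Multiplication
import Mathlib.RingTheory.RootsOfUnity.PrimitiveRoots

/-!
# Leading coefficients and roots of Laurent series over a subfield
-/

set_option autoImplicit false

noncomputable section

namespace Fermat.Agent.AtP

open KummerES (twist)
open ModularCurve (qExpand coeffMap)
open HahnSeries (single)

variable {K : Type*} [Field K]

/-- The leading coefficient of a power. -/
lemma leadingCoeff_pow' (s : LaurentSeries K) :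
    ∀ n : ℕ, (s ^ n).leadingCoeff = s.leadingCoeff ^ n
  | 0 => by rw [pow_zero, pow_zero, HahnSeries.leadingCoeff_one]
  | n + 1 => by rw [pow_succ, HahnSeries.leadingCoeff_mul, leadingCoeff_pow' s n, pow_succ]

lemma order_twist (z : K) (hz : z ≠ 0) (s : LaurentSeries K) : (twist z hz s).order = s.order := by
  rcases eq_or_ne s 0 with rfl | hs
  · rw [map_zero]
  have hs' : twist z hz s ≠ 0 := (map_ne_zero _).mpr hs
  refine le_antisymm (HahnSeries.order_le_of_coeff_ne_zero ?_)
    (HahnSeries.order_le_of_coeff_ne_zero ?_)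
  · rw [KummerES.twist_coeff]
    exact mul_ne_zero (zpow_ne_zero _ hz) (HahnSeries.coeff_order_eq_zero.not.mpr hs)
  · have := HahnSeries.coeff_order_eq_zero.not.mpr hs'
    rw [KummerES.twist_coeff] at this
    exact right_ne_zero_of_mul this

lemma leadingCoeff_twist (z : K) (hz : z ≠ 0) (s : LaurentSeries K) :
    (twist z hz s).leadingCoeff = z ^ s.order * s.leadingCoeff := by
  rw [HahnSeries.leadingCoeff_eq, order_twist, KummerES.twist_coeff, HahnSeries.leadingCoeff_eq]

/-- `qExpand` keeps the leading coefficient. -/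
lemma leadingCoeff_qExpand (e : ℕ) [NeZero e] (s : LaurentSeries K) :
    (qExpand K e s).leadingCoeff = s.leadingCoeff := by
  rcases eq_or_ne s 0 with rfl | hs
  · rw [map_zero]
  have h0 : qExpand K e s ≠ 0 := (map_ne_zero _).mpr hs
  have h1 : (qExpand K e s).order = e * s.order := by
    refine le_antisymm (HahnSeries.order_le_of_coeff_ne_zero ?_) ?_
    · rw [ModularCurve.qExpand_coeff_mul]
      exact HahnSeries.coeff_order_eq_zero.not.mpr hs
    · have hne := HahnSeries.coeff_order_eq_zero.not.mpr h0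
      by_cases hd : (e : ℤ) ∣ (qExpand K e s).order
      · obtain ⟨i, hi⟩ := hd
        rw [hi, ModularCurve.qExpand_coeff_mul] at hne
        rw [hi]
        exact mul_le_mul_of_nonneg_left (HahnSeries.order_le_of_coeff_ne_zero hne)
          (Int.natCast_nonneg e)
      · exact absurd (ModularCurve.qExpand_coeff_of_not_dvd e s hd) hne
  rw [HahnSeries.leadingCoeff_eq, h1, ModularCurve.qExpand_coeff_mul, HahnSeries.leadingCoeff_eq]

/-- The leading coefficient of a norm is the power of the leading coefficient, up to sign. -/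
lemma exists_leadingCoeff_uNorm (r : ℕ) [NeZero r] {ζ : K} (hζ : IsPrimitiveRoot ζ r)
    (s : LaurentSeries K) :
    ∃ ε : K, (ε = 1 ∨ ε = -1) ∧ (uNorm r s).leadingCoeff = ε * s.leadingCoeff ^ r := by
  have h := congrArg HahnSeries.leadingCoeff (qExpand_uNorm r hζ s)
  rw [leadingCoeff_qExpand] at h
  have key : ∀ T : Finset (Fin r), (∏ j ∈ T, twist (ζ ^ (j : ℕ))
      (pow_ne_zero _ (hζ.ne_zero (NeZero.ne r))) s).leadingCoeff
      = (ζ ^ s.order) ^ (∑ j ∈ T, (j : ℕ)) * s.leadingCoeff ^ T.card := by
    intro T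
    classical
    induction T using Finset.induction_on with
    | empty => simp [HahnSeries.leadingCoeff_one]
    | insert a T ha ih =>
      rw [Finset.prod_insert ha, HahnSeries.leadingCoeff_mul, ih, leadingCoeff_twist,
        Finset.sum_insert ha, Finset.card_insert_of_notMem ha, pow_succ', pow_add,
        ← zpow_natCast ζ (a : ℕ), ← zpow_mul, mul_comm ((a : ℕ) : ℤ), zpow_mul, zpow_natCast]
      ring
  rw [key, Finset.card_univ, Fintype.card_fin] at h
  refine ⟨_, ?_, h⟩
  rw [← sq_eq_one_iff, ← pow_mul, Fin.sum_univ_eq_sum_range (fun j => j), Finset.sum_range_id_mul_two,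
    pow_mul, ← zpow_natCast (ζ ^ s.order), ← zpow_mul, mul_comm, zpow_mul, zpow_natCast,
    hζ.pow_eq_one, one_zpow, one_pow]

/-- A series over a subfield whose leading coefficient is an `n`-th power there is an `n`-th power
there, as soon as it is one. -/
theorem exists_root_of_leadingCoeff {n : ℕ} (hn : (n : K) ≠ 0) (F : Subfield K)
    {S : LaurentSeries K} (hSF : ∀ i, S.coeff i ∈ F) {e : K} (he : e ∈ F)
    (hlead : S.leadingCoeff = e ^ n) {X : LaurentSeries K} (hX : X ^ n = S) :
    ∃ Y : LaurentSeries K, (∀ i, Y.coeff i ∈ F) ∧ Y ^ n = S ∧ Y.leadingCoeff = e := by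
  have hn0 : n ≠ 0 := fun h => hn (by rw [h, Nat.cast_zero])
  rcases eq_or_ne S 0 with rfl | hS
  · refine ⟨0, fun i => by simp [zero_mem], by rw [zero_pow hn0], ?_⟩
    rw [HahnSeries.leadingCoeff_zero] at hlead ⊢
    exact (eq_zero_of_pow_eq_zero hlead.symm).symm
  have hc : S.leadingCoeff ≠ 0 := HahnSeries.leadingCoeff_ne_zero.mpr hS
  have he0 : e ≠ 0 := fun h0 => hc (by rw [hlead, h0, zero_pow hn0])
  set c : F := ⟨(e ^ n)⁻¹, inv_mem (pow_mem he n)⟩
  set P : PowerSeries F :=
    PowerSeries.mk fun i => c * ⟨S.coeff (S.order + i), hSF _⟩ with hP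
  have hP0 : PowerSeries.constantCoeff P = 1 := by
    rw [← PowerSeries.coeff_zero_eq_constantCoeff_apply, hP, PowerSeries.coeff_mk]
    refine Subtype.ext ?_
    show (e ^ n)⁻¹ * S.coeff (S.order + (0 : ℕ)) = 1
    rw [Nat.cast_zero, add_zero, ← HahnSeries.leadingCoeff_eq, hlead,
      inv_mul_cancel₀ (pow_ne_zero _ he0)]
  have hnF : IsUnit (n : F) := isUnit_iff_ne_zero.mpr fun h => hn (by
    have := congrArg Subtype.val h
    push_cast at this
    exact this)
  obtain ⟨w, hw, hw0⟩ := KummerES.exists_pow_eq_of_constantCoeff_one n hnF P hP0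
  set w' : LaurentSeries K := coeffMap F.subtype (w : LaurentSeries F) with hw'
  refine ⟨single X.order e * w', fun i => ?_, ?_, ?_⟩
  · rw [HahnSeries.coeff_single_mul]
    exact mul_mem he (Subtype.mem _)
  · have hordS : S.order = n • X.order := by rw [← hX, HahnSeries.order_pow]
    rw [mul_pow, HahnSeries.single_pow, ← hordS, hw', ← map_pow, ← map_pow, hw]
    ext i
    rw [HahnSeries.coeff_single_mul, ModularCurve.coeffMap_coeff, PowerSeries.coeff_coe]
    split_ifs with hi
    · rw [map_zero, mul_zero, HahnSeries.coeff_eq_zero_of_lt_order (by omega)]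
    · rw [hP, PowerSeries.coeff_mk]
      show e ^ n * ((e ^ n)⁻¹ * S.coeff (S.order + ((i - S.order).natAbs : ℕ))) = S.coeff i
      rw [← mul_assoc, mul_inv_cancel₀ (pow_ne_zero _ he0), one_mul,
        show S.order + ((i - S.order).natAbs : ℤ) = i by omega]
  · have hw0' : w'.coeff 0 = 1 := by
      rw [hw', ModularCurve.coeffMap_coeff, ← Nat.cast_zero,
        LaurentSeries.coeff_coe_powerSeries, PowerSeries.coeff_zero_eq_constantCoeff_apply, hw0,
        map_one]
    have hw1 : w'.order = 0 := by
      refine le_antisymm (HahnSeries.order_le_of_coeff_ne_zero (by rw [hw0']; exact one_ne_zero)) ?_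
      by_contra hlt
      push Not at hlt
      have hne : w' ≠ 0 := fun h => by
        rw [h, HahnSeries.coeff_zero] at hw0'
        exact zero_ne_one hw0'
      have := HahnSeries.coeff_order_eq_zero.not.mpr hne
      rw [hw', ModularCurve.coeffMap_coeff, PowerSeries.coeff_coe, if_pos hlt, map_zero] at this
      exact this rfl
    rw [HahnSeries.leadingCoeff_mul, HahnSeries.leadingCoeff_of_single,
      HahnSeries.leadingCoeff_eq, hw1, hw0', mul_one]

/-- Two `n`-th roots differ by a constant root of unity. -/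
theorem exists_rootOfUnity_of_pow_eq {n : ℕ} [NeZero n] {ζ : K} (hζ : IsPrimitiveRoot ζ n)
    {X Y : LaurentSeries K} (hX : X ≠ 0) (h : Y ^ n = X ^ n) :
    ∃ μ : K, μ ^ n = 1 ∧ Y = single 0 μ * X := by
  obtain ⟨i, -, hi⟩ := (hζ.map_of_injective
    (f := (HahnSeries.C : K →+* LaurentSeries K)) HahnSeries.C_injective).eq_pow_of_pow_eq_one
    (ξ := Y / X) (by rw [div_pow, h, div_self (pow_ne_zero _ hX)])
  refine ⟨ζ ^ i, by rw [← pow_mul, mul_comm, pow_mul, hζ.pow_eq_one, one_pow], ?_⟩
  rw [← HahnSeries.C_apply, map_pow, hi, div_mul_cancel₀ _ hX]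

end Fermat.Agent.AtP
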