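import Fermat.Agent.AtP.SeriesProd
import Fermat.Agent.AtP.SeriesLead

/-!
# The series identities of a Kummer root at `∞` and after `W_r`

For `f = g ^ n` with rational expansion `s` at `∞` of leading coefficient `1`: the products of
roots with trivial multiplier give `uNorm r s * s ^ m = H ^ n`,
`(uNorm ℓ s * s (q ^ ℓ)) * s ^ m = H ^ n` and `s_W * s ^ m = H ^ n` with rational `H`.
-/

set_option autoImplicit false

noncomputable section

open UpperHalfPlane CongruenceSubgroup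
open scoped MatrixGroups Manifold OnePoint

namespace Fermat.Agent.AtP

open HeckeLattice (toGL Idx rep)
open KummerES (comp HasExp weak rootPow IsKummer qL zetaC coeffSubring expansion twist)
open Matrix.SpecialLinearGroup (mapGL)
open ModularCurve (qExpand coeffMap)
open HahnSeries (single)

variable {r M : ℕ} [hr : Fact r.Prime]

/-- `T` lies in every `Γ₀(N)`. -/
lemma T_mem_Gamma0_series (N : ℕ) : ModularGroup.T ∈ Gamma0 N := by
  rw [Gamma0_mem]; simp [ModularGroup.coe_T]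

/-- Expansion in `q = exp (2πiτ)` of an invariant function. -/
lemma exists_exp_one {Γ : Subgroup SL(2, ℤ)} {L : ℕ} [NeZero L] {B : Subring ℂ} {f : ℍ → ℂ}
    (hf : f ∈ weak Γ L B) (hT : ModularGroup.T ∈ Γ) :
    HasExp 1 f (expansion 1 f) ∧ expansion 1 f ∈ coeffSubring B := by
  obtain ⟨s, hs, hs'⟩ := hf.2.2 1
  rw [KummerES.comp_one] at hs'
  have h1 : ∀ L', L' = L → HasExp L' f s := fun L' hL => by rw [hL]; exact hs'
  obtain ⟨t, ht, ht'⟩ := KummerES.exists_hasExp_of_comp_T_pow (L := 1) (h1 _ (one_mul L)) hs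
    (by rw [Nat.cast_one, zpow_one]; exact hf.2.1 _ hT)
  rw [ht'.expansion_eq]
  exact ⟨ht', ht⟩

lemma hasExp_prod_heckeMatrix {ℓ : ℕ} [hℓ : Fact ℓ.Prime] {f : ℍ → ℂ} {s : LaurentSeries ℂ}
    (hs : HasExp 1 f s) :
    HasExp ℓ (fun τ => ∏ j : ZMod ℓ, f (ModularForm.heckeMatrix ℓ j.val • τ))
      (qExpand ℂ ℓ (uNorm ℓ s)) := by
  classical
  have hl0 := hℓ.out.ne_zero
  have hfac : ∀ j : ZMod ℓ, HasExp ℓ (fun τ => f (ModularForm.heckeMatrix ℓ j.val • τ))
      (twist (zetaC ℓ ^ j.val) (pow_ne_zero _ (KummerES.zetaC_ne_zero ℓ)) s) := fun j => by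
    have h := hs.subst (L' := ℓ) (fun τ => ModularForm.heckeMatrix ℓ j.val • τ)
      (pow_ne_zero j.val (KummerES.zetaC_ne_zero ℓ)) 1 (KummerES.qL_one_heckeMatrix ℓ j.val)
    rwa [ModularCurve.qExpand_one_apply] at h
  have hprod : ∀ T : Finset (ZMod ℓ),
      HasExp ℓ (fun τ => ∏ j ∈ T, f (ModularForm.heckeMatrix ℓ j.val • τ))
        (∏ j ∈ T, twist (zetaC ℓ ^ j.val) (pow_ne_zero _ (KummerES.zetaC_ne_zero ℓ)) s) := by
    intro T
    induction T using Finset.induction_on with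
    | empty => simpa [Pi.one_def] using (HasExp.one (L := ℓ))
    | insert a T ha ih =>
      simp only [Finset.prod_insert ha]
      exact (hfac a).mul ih
  rw [qExpand_uNorm ℓ (KummerES.isPrimitiveRoot_zetaC ℓ)]
  convert hprod Finset.univ using 1
  symm
  refine Fintype.prod_bijective (fun j : ZMod ℓ => (⟨j.val, j.val_lt⟩ : Fin ℓ)) ?_ _ _ fun j => rfl
  refine (Fintype.bijective_iff_injective_and_card _).mpr
    ⟨fun x y hxy => ZMod.val_injective ℓ (congrArg Fin.val hxy), by simp⟩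

/-- The expansion of the `U_r` product is the norm. -/
theorem hasExp_uProd {f : ℍ → ℂ} {s : LaurentSeries ℂ} (hs : HasExp 1 f s) :
    HasExp 1 ((uReps r M).prodFun f) (uNorm r s) := by
  refine HasExp.of_qExpand (L := 1) r ?_
  have h : ∀ L, L = r → HasExp L ((uReps r M).prodFun f) (qExpand ℂ r (uNorm r s)) := fun L hL => by
    rw [hL]; exact hasExp_prod_heckeMatrix hs
  exact h _ (one_mul r)

/-- The series of the Hecke product. -/
abbrev heckeSer {R : Type*} [CommRing R] (ℓ : ℕ) [NeZero ℓ] (s : LaurentSeries R) :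
    LaurentSeries R := uNorm ℓ s * qExpand R ℓ s

/-- The expansion of the `T_ℓ` product. -/
theorem hasExp_heckeProd {N ℓ : ℕ} [hℓ : Fact ℓ.Prime] (hℓN : ¬ ℓ ∣ N) {f : ℍ → ℂ}
    {s : LaurentSeries ℂ} (hs : HasExp 1 f s) :
    HasExp 1 ((Reps.ofCosetSystem (HeckeLattice.gamma0System N ℓ hℓN)).prodFun f)
      (heckeSer ℓ s) := by
  classical
  refine HasExp.of_qExpand (L := 1) ℓ ?_
  have hV : HasExp ℓ (fun τ => f (ModularForm.heckeDiagMatrix ℓ • τ))
      (qExpand ℂ (ℓ * ℓ) s) := by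
    have h := hs.subst (L' := ℓ) (fun τ => ModularForm.heckeDiagMatrix ℓ • τ) one_ne_zero (ℓ * ℓ)
      (KummerES.qL_one_heckeDiagMatrix ℓ)
    have ht : twist (1 : ℂ) one_ne_zero s = s := by ext i; simp
    rwa [ht] at h
  have h := (hasExp_prod_heckeMatrix hs).mul hV
  rw [← ModularCurve.qExpand_qExpand, ← map_mul] at h
  have h' : ∀ L, L = ℓ → HasExp L
      ((Reps.ofCosetSystem (HeckeLattice.gamma0System N ℓ hℓN)).prodFun f)
      (qExpand ℂ ℓ (heckeSer ℓ s)) := fun L hL => by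
    rw [hL]
    convert h using 1
    funext τ
    show ∏ x : Option (ZMod ℓ), f (rep ℓ x • τ) = _
    rw [Fintype.prod_option, mul_comm]
    rfl
  exact h' _ (one_mul ℓ)

/-- The norm keeps a subring of coefficients. -/
lemma coeff_uNorm_mem {F : Subring ℂ} {e : ℕ} [NeZero e] {s : LaurentSeries ℂ}
    (hs : s ∈ coeffSubring F) : uNorm e s ∈ coeffSubring F := by
  let s' : LaurentSeries F :=
    { coeff := fun i => ⟨s.coeff i, hs i⟩
      isPWO_support' := s.isPWO_support.mono fun i hi h0 => hi (Subtype.ext h0) }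
  intro i
  rw [show s = coeffMap F.subtype s' by ext j; rfl, ← coeffMap_uNorm, ModularCurve.coeffMap_coeff]
  exact Subtype.mem _

/-- The Hecke product keeps a subring of coefficients. -/
lemma coeff_heckeSer_mem {F : Subring ℂ} {ℓ : ℕ} [NeZero ℓ] {s : LaurentSeries ℂ}
    (hs : s ∈ coeffSubring F) : heckeSer ℓ s ∈ coeffSubring F :=
  mul_mem (coeff_uNorm_mem hs) (KummerES.qExpand_mem_coeffSubring ℓ hs)

/-- The leading coefficient of the Hecke product. -/
lemma exists_leadingCoeff_heckeSer (ℓ : ℕ) [NeZero ℓ] (s : LaurentSeries ℂ) :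
    ∃ ε : ℂ, (ε = 1 ∨ ε = -1) ∧
      (heckeSer ℓ s).leadingCoeff = ε * s.leadingCoeff ^ (ℓ + 1) := by
  obtain ⟨ε, hε, h⟩ := exists_leadingCoeff_uNorm ℓ (KummerES.isPrimitiveRoot_zetaC ℓ) s
  refine ⟨ε, hε, ?_⟩
  rw [HahnSeries.leadingCoeff_mul, h, leadingCoeff_qExpand, pow_succ, mul_assoc]

section W

variable {b d : ℤ} (h : (r : ℤ) * d - (M : ℤ) * b = 1)

/-- `f` composed with the Atkin–Lehner matrix. -/
def wFun (f : ℍ → ℂ) : ℍ → ℂ := (alReps h).prodFun f

/-- The values of `wFun`. -/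
lemma wFun_apply (f : ℍ → ℂ) (τ : ℍ) : wFun h f τ = f (Newforms.alW r M b d h • τ) := by
  rw [wFun, Reps.prodFun, Fintype.prod_unique]; rfl

lemma wFun_mul (f g : ℍ → ℂ) : wFun h (f * g) = wFun h f * wFun h g := (alReps h).prodFun_mul f g

lemma wFun_pow (f : ℍ → ℂ) (n : ℕ) : wFun h (f ^ n) = wFun h f ^ n := (alReps h).prodFun_pow f n

/-- `T_ℓ` commutes with `W` on invariant functions. -/
theorem wFun_heckeProd {ℓ : ℕ} [hl : Fact ℓ.Prime] (hℓN : ¬ ℓ ∣ r * M) {f : ℍ → ℂ}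
    (hf : ∀ γ ∈ Gamma0 (r * M), comp f γ = f) :
    wFun h ((Reps.ofCosetSystem (HeckeLattice.gamma0System (r * M) ℓ hℓN)).prodFun f)
      = (Reps.ofCosetSystem (HeckeLattice.gamma0System (r * M) ℓ hℓN)).prodFun (wFun h f) := by
  choose e g hg using exists_rep_mul_alW h hℓN (ℓ := ℓ)
  set T := Reps.ofCosetSystem (HeckeLattice.gamma0System (r * M) ℓ hℓN)
  have hinj : Function.Injective e := fun x y hxy => by
    refine T.inj (g y * (g x)⁻¹) x y ?_
    refine mul_right_cancel (b := Newforms.alW r M b d h) ?_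
    show toGL (g y * (g x)⁻¹) * rep ℓ x * Newforms.alW r M b d h
      = rep ℓ y * Newforms.alW r M b d h
    rw [mul_assoc, hg x, hg y, hxy, HeckeLattice.toGL_mul, mul_assoc, ← mul_assoc (toGL (g x)⁻¹),
      ← HeckeLattice.toGL_mul, inv_mul_cancel, HeckeLattice.toGL_one, one_mul]
  have hbij : Function.Bijective e := Finite.injective_iff_bijective.mp hinj
  funext τ
  rw [wFun_apply]
  show ∏ x, f (rep ℓ x • (Newforms.alW r M b d h • τ)) = ∏ x, wFun h f (rep ℓ x • τ)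
  rw [← hbij.prod_comp (fun x => wFun h f (rep ℓ x • τ))]
  refine Finset.prod_congr rfl fun x _ => ?_
  rw [← mul_smul, hg x, mul_smul, mul_smul, wFun_apply, KummerES.toGL_smul]
  exact congrFun (hf _ (g x).2) _

variable {L n : ℕ} [NeZero L] [NeZero n]

/-- The hypothesis proved by descent: a rational invariant function stays rational after `W`, and
both expansions have bounded denominators. -/
def RatHyp (L : ℕ) (F : Subfield ℂ) (π : ℂ) (B : Subring ℂ) : Prop :=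
  ∀ G ∈ weak (Gamma L) L ⊤, (∀ γ ∈ Gamma0 (r * M), comp G γ = G) →
    expansion 1 G ∈ coeffSubring F.toSubring →
    expansion 1 (wFun h G) ∈ coeffSubring F.toSubring ∧
      ∃ N : ℕ, single 0 (π ^ N) * expansion 1 G ∈ coeffSubring B ∧
        single 0 (π ^ N) * expansion 1 (wFun h G) ∈ coeffSubring B

variable (hL : Gamma L ≤ Gamma0 (r * M))
include hL

/-- `wFun` keeps level `Γ₀(r M)`. -/
lemma wFun_mem {G : ℍ → ℂ} (hG : G ∈ weak (Gamma L) L ⊤)
    (hinv : ∀ γ ∈ Gamma0 (r * M), comp G γ = G) : wFun h G ∈ weak (Gamma0 (r * M)) L ⊤ := by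
  have h1 := Reps.prodFun_mem_weak (isStd_alReps h) hL (Subring.mem_top _) hG hinv
  exact ⟨h1.1, fun γ hγ => (alReps h).comp_prodFun_eq hinv hγ, h1.2.2⟩

omit hr [NeZero L] hL h in
/-- The power of a Kummer root has level `Γ₀(r M)`. -/
lemma pow_mem_Gamma0 {χ : Additive (Gamma0 (r * M)) →+ ZMod n} {g : ℍ → ℂ}
    (hg : IsKummer L n χ g) : g ^ n ∈ weak (Gamma0 (r * M)) L ⊤ :=
  ⟨hg.pow_mem.1, fun _ hγ => hg.pow_comp_eq hγ, hg.pow_mem.2.2⟩

variable {χ : Additive (Gamma0 (r * M)) →+ ZMod n} {g : ℍ → ℂ} (hg : IsKummer L n χ g)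
variable (F : Subfield ℂ) {π : ℂ} {B : Subring ℂ}
include hg

omit hr h in
/-- A modular root with rational expansion. -/
theorem exists_root_infty {P : Type*} [Fintype P]
    (C : Reps (Gamma0 (r * M)) (Gamma0 (r * M)) P) {ℓ : ℕ} [Fact ℓ.Prime] (hC : C.IsStd ℓ)
    {m : ℕ} (hrel : C.transfer χ + m • χ = 0) {E : LaurentSeries ℂ}
    (hE : HasExp 1 (C.prodFun (g ^ n)) E) (hEF : E ∈ coeffSubring F.toSubring)
    (hs : expansion 1 (g ^ n) ∈ coeffSubring F.toSubring) {e : ℂ} (he : e ∈ F)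
    (hlead : (E * expansion 1 (g ^ n) ^ m).leadingCoeff = e ^ n) :
    ∃ k ∈ weak (Gamma0 (r * M)) L ⊤, expansion 1 k ∈ coeffSubring F.toSubring ∧
      expansion 1 k ^ n = E * expansion 1 (g ^ n) ^ m ∧
      k ^ n = C.prodFun (g ^ n) * (g ^ n) ^ m := by
  obtain ⟨hk, hkn⟩ := exists_modular_of_rel C hC hL hg m hrel
  obtain ⟨hX, -⟩ := exists_exp_one hk (T_mem_Gamma0_series _)
  obtain ⟨hs', -⟩ := exists_exp_one (pow_mem_Gamma0 hg) (T_mem_Gamma0_series _)
  set k := C.prodFun g * g ^ m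
  set X := expansion 1 k
  have hXn : X ^ n = E * expansion 1 (g ^ n) ^ m :=
    (hkn ▸ hX.pow n).series_eq (hE.mul (hs'.pow m))
  obtain ⟨Y, hYF, hYn, -⟩ := exists_root_of_leadingCoeff (Nat.cast_ne_zero.mpr (NeZero.ne n)) F
    (mul_mem hEF (pow_mem hs m)) he hlead hXn
  rcases eq_or_ne X 0 with hX0 | hX0
  · exact ⟨k, hk, by rw [show expansion 1 k = X from rfl, hX0]; exact zero_mem _, hXn, hkn⟩
  obtain ⟨μ, hμ, hY⟩ := exists_rootOfUnity_of_pow_eq (KummerES.isPrimitiveRoot_zetaC n) hX0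
    (hYn.trans hXn.symm)
  have hμk : HasExp 1 ((fun _ => μ) * k) Y := hY ▸ (HasExp.const μ).mul hX
  refine ⟨(fun _ => μ) * k, mul_mem (KummerES.const_mem_weak (Subring.mem_top _)) hk, ?_, ?_, ?_⟩
  · rw [hμk.expansion_eq]; exact hYF
  · rw [hμk.expansion_eq, hYn]
  · rw [mul_pow, ← hkn]
    funext τ
    simp [hμ]

/-- The identity after `W` of a rational root from `T_ℓ`: it makes the leading coefficient of `s_W`
an `n`-th power. -/
theorem exists_leadingCoeff_w (hn : Odd n) {ℓ : ℕ} [Fact ℓ.Prime] (hℓN : ¬ ℓ ∣ r * M) {m : ℕ}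
    (hrel : HeckeLattice.transfer hℓN χ + m • χ = 0) (hcop : (ℓ + 1 + m).Coprime n)
    (hrat : RatHyp h L F π B) (hs : expansion 1 (g ^ n) ∈ coeffSubring F.toSubring)
    (hlead : (expansion 1 (g ^ n)).leadingCoeff = 1) :
    ∃ c ∈ F, (expansion 1 (wFun h (g ^ n))).leadingCoeff = c ^ n := by
  set T := Reps.ofCosetSystem (HeckeLattice.gamma0System (r * M) ℓ hℓN)
  have hf := pow_mem_Gamma0 hg
  obtain ⟨hs', -⟩ := exists_exp_one hf (T_mem_Gamma0_series _)
  obtain ⟨ε, hε, hεl⟩ := exists_leadingCoeff_heckeSer ℓ (expansion 1 (g ^ n))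
  have hε' : ∀ {ε : ℂ}, ε = 1 ∨ ε = -1 → ε ∈ F ∧ ε ^ n = ε := by
    rintro ε (rfl | rfl)
    · exact ⟨one_mem _, one_pow n⟩
    · exact ⟨neg_mem (one_mem _), hn.neg_one_pow⟩
  obtain ⟨k, hk, hkF, -, hkn⟩ := exists_root_infty hL hg F T (isStd_gamma0 hℓN) hrel
    (hasExp_heckeProd hℓN hs') (coeff_heckeSer_mem hs) hs (e := ε) (hε' hε).1 (by
      rw [HahnSeries.leadingCoeff_mul, hεl, leadingCoeff_pow', hlead, (hε' hε).2]
      simp)
  have hfW := wFun_mem h hL hg.pow_mem hf.2.1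
  obtain ⟨hsW, -⟩ := exists_exp_one hfW (T_mem_Gamma0_series _)
  obtain ⟨hkW, -⟩ := exists_exp_one (wFun_mem h hL (KummerES.weak_mono hL le_rfl hk) hk.2.1)
    (T_mem_Gamma0_series _)
  set SW := expansion 1 (wFun h (g ^ n))
  have heq : expansion 1 (wFun h k) ^ n = heckeSer ℓ SW * SW ^ m := by
    refine (hkW.pow n).series_eq ?_
    rw [← wFun_pow, hkn, wFun_mul, wFun_pow, wFun_heckeProd h hℓN hf.2.1]
    exact (hasExp_heckeProd hℓN hsW).mul (hsW.pow m)
  obtain ⟨hkWF, -⟩ := hrat k (KummerES.weak_mono hL le_rfl hk) hk.2.1 hkF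
  obtain ⟨hSWF, -⟩ := hrat _ hg.pow_mem hf.2.1 hs
  set u := SW.leadingCoeff
  set c' := (expansion 1 (wFun h k)).leadingCoeff
  obtain ⟨ε', hε₁, hεl'⟩ := exists_leadingCoeff_heckeSer ℓ SW
  have h1 : c' ^ n = ε' * u ^ (ℓ + 1 + m) := by
    rw [← leadingCoeff_pow', heq, HahnSeries.leadingCoeff_mul, hεl', leadingCoeff_pow',
      pow_add u (ℓ + 1) m, mul_assoc]
  have hu : u ∈ F := by
    rw [show u = SW.leadingCoeff from rfl, HahnSeries.leadingCoeff_eq]; exact hSWF _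
  have hc' : c' ∈ F := by
    rw [show c' = (expansion 1 (wFun h k)).leadingCoeff from rfl, HahnSeries.leadingCoeff_eq]
    exact hkWF _
  rcases eq_or_ne u 0 with hu0 | hu0
  · exact ⟨0, zero_mem _, by rw [hu0, zero_pow (NeZero.ne n)]⟩
  obtain ⟨x, y, hxy⟩ := Nat.isCoprime_iff_coprime.mpr hcop
  have hε0 : ε' ≠ 0 := by rcases hε₁ with rfl | rfl <;> norm_num
  refine ⟨(c' / ε') ^ x * u ^ y, mul_mem (zpow_mem (div_mem hc' (hε' hε₁).1) x) (zpow_mem hu y), ?_⟩
  have hsplit : ((c' / ε') ^ x * u ^ y) ^ n = ((c' / ε') ^ n) ^ x * (u ^ n) ^ y := by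
    rw [mul_pow, ← zpow_natCast ((c' / ε') ^ x), ← zpow_natCast (u ^ y), ← zpow_mul, ← zpow_mul,
      mul_comm x, mul_comm y, zpow_mul, zpow_mul, zpow_natCast, zpow_natCast]
  rw [hsplit, div_pow, h1, (hε' hε₁).2, mul_div_cancel_left₀ _ hε0, ← zpow_natCast u,
    ← zpow_natCast u n, ← zpow_mul, ← zpow_mul, ← zpow_add₀ hu0,
    show ((ℓ + 1 + m : ℕ) : ℤ) * x + (n : ℤ) * y = 1 by linear_combination hxy, zpow_one]

end W

end Fermat.Agent.AtP
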