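import Fermat.Agent.AtP.SeriesAlgebra
import Fermat.Agent.KummerES.Weak

/-!
# Series over a subring of `ℂ` and their content
-/

set_option autoImplicit false

noncomputable section

namespace Fermat.Agent.AtP

open ModularCurve (qExpand coeffMap)
open HahnSeries (single)

/-- The scalar `c` as a series. -/
abbrev cst {R : Type*} [CommRing R] (c : R) : LaurentSeries R := single 0 c

/-- Scalar series multiply. -/
lemma cst_mul {R : Type*} [CommRing R] (a b : R) : cst a * cst b = cst (a * b) := by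
  rw [cst, cst, cst, HahnSeries.single_mul_single, add_zero]

/-- Powers of scalar series. -/
lemma cst_pow {R : Type*} [CommRing R] (a : R) (n : ℕ) : cst a ^ n = cst (a ^ n) := by
  rw [cst, cst, HahnSeries.single_pow, smul_zero]

variable {B : Subring ℂ}

/-- Series over a subring inject into complex series. -/
lemma coeffMap_subtype_injective :
    Function.Injective (coeffMap B.subtype : LaurentSeries B → LaurentSeries ℂ) := fun x y h => by
  ext i
  exact congrArg (fun u : LaurentSeries ℂ => u.coeff i) h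

/-- A series with coefficients in `B` comes from a series over `B`. -/
lemma exists_coeffMap_eq {s : LaurentSeries ℂ} (hs : s ∈ KummerES.coeffSubring B) :
    ∃ S : LaurentSeries B, coeffMap B.subtype S = s :=
  ⟨{ coeff := fun i => ⟨s.coeff i, hs i⟩
     isPWO_support' := s.isPWO_support.mono fun i hi h0 => hi (Subtype.ext h0) }, by ext i; rfl⟩

lemma coeffMap_cst {R S : Type*} [CommRing R] [CommRing S] (f : R →+* S) (c : R) :
    coeffMap f (cst c) = cst (f c) := by
  ext i
  rcases eq_or_ne i 0 with rfl | hi <;> simp [*]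

/-- `t` has content `π ^ e` and normalised series `T`. -/
def HasContent (π : B) (t : LaurentSeries ℂ) (e : ℤ) (T : LaurentSeries B) : Prop :=
  IsPrim π T ∧ t = cst ((π : ℂ) ^ e) * coeffMap B.subtype T

namespace HasContent

variable {π : B} (h : ContentHyp π)
include h

/-- `π` is a nonzero complex number. -/
lemma pi_ne_zero : (π : ℂ) ≠ 0 := fun h0 => h.prime.ne_zero (Subtype.ext h0)

/-- A series with bounded denominators has a content. -/
lemma exists_content {t : LaurentSeries ℂ} (ht : t ≠ 0) {N : ℕ}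
    (hN : cst ((π : ℂ) ^ N) * t ∈ KummerES.coeffSubring B) :
    ∃ e T, HasContent π t e T := by
  obtain ⟨S, hS⟩ := exists_coeffMap_eq hN
  have hπ := pi_ne_zero h
  have hS0 : S ≠ 0 := fun h0 => by
    rw [h0, map_zero] at hS
    exact mul_ne_zero (HahnSeries.single_ne_zero (pow_ne_zero N hπ)) ht hS.symm
  obtain ⟨n, T, hT, hST⟩ := h.exists_isPrim hS0
  refine ⟨(n : ℤ) - N, T, hT, ?_⟩
  have key : cst ((π : ℂ) ^ N) * t = cst ((π : ℂ) ^ n) * coeffMap B.subtype T := by
    rw [← hS, hST, map_mul]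
    congr 1
    rw [show B.subtype = B.subtype from rfl]
    refine (coeffMap_cst B.subtype _).trans ?_
    simp
  refine mul_left_cancel₀ (a := cst ((π : ℂ) ^ N)) (HahnSeries.single_ne_zero (pow_ne_zero N hπ)) ?_
  rw [key, ← mul_assoc, cst_mul, ← zpow_natCast (π : ℂ) N, ← zpow_natCast (π : ℂ) n,
    ← zpow_add₀ hπ]
  congr 3
  ring

/-- The content is unique. -/
lemma unique {t : LaurentSeries ℂ} {a b : ℤ} {X Y : LaurentSeries B} (hX : HasContent π t a X)
    (hY : HasContent π t b Y) : a = b ∧ X = Y := by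
  have hπ := pi_ne_zero h
  set c := min a b
  obtain ⟨i, hi⟩ : ∃ i : ℕ, a = c + i := ⟨(a - c).toNat, by omega⟩
  obtain ⟨j, hj⟩ : ∃ j : ℕ, b = c + j := ⟨(b - c).toNat, by omega⟩
  have h1 : cst ((π : ℂ) ^ i) * coeffMap B.subtype X = cst ((π : ℂ) ^ j) * coeffMap B.subtype Y := by
    refine mul_left_cancel₀ (a := cst ((π : ℂ) ^ c)) (HahnSeries.single_ne_zero (zpow_ne_zero c hπ)) ?_
    rw [← mul_assoc, ← mul_assoc, cst_mul, cst_mul, ← zpow_natCast, ← zpow_natCast,
      ← zpow_add₀ hπ, ← zpow_add₀ hπ, ← hi, ← hj, ← hX.2, ← hY.2]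
  obtain ⟨h2, h3⟩ := h.eq_of_isPrim hX.1 hY.1 (a := i) (b := j)
    (coeffMap_subtype_injective (by
      rw [map_mul, map_mul]
      simpa [coeffMap_cst] using h1))
  exact ⟨by omega, h3⟩

/-- Contents add under products. -/
lemma mul {t u : LaurentSeries ℂ} {a b : ℤ} {X Y : LaurentSeries B} (hX : HasContent π t a X)
    (hY : HasContent π u b Y) : HasContent π (t * u) (a + b) (X * Y) := by
  refine ⟨h.isPrim_mul hX.1 hY.1, ?_⟩
  rw [hX.2, hY.2, map_mul, zpow_add₀ (pi_ne_zero h), ← cst_mul]
  ring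

/-- Contents scale under powers. -/
lemma pow {t : LaurentSeries ℂ} {a : ℤ} {X : LaurentSeries B} (hX : HasContent π t a X) (n : ℕ) :
    HasContent π (t ^ n) (a * n) (X ^ n) := by
  refine ⟨h.isPrim_pow hX.1 n, ?_⟩
  rw [hX.2, mul_pow, cst_pow, map_pow, zpow_mul, zpow_natCast]

omit h in
/-- The content of a norm. -/
lemma uNorm {r : ℕ} [NeZero r] {t : LaurentSeries ℂ} {a : ℤ} {X : LaurentSeries B}
    (hX : HasContent π t a X) (hprim : IsPrim π (AtP.uNorm r X)) :
    HasContent π (AtP.uNorm r t) (a * r) (AtP.uNorm r X) := by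
  refine ⟨hprim, ?_⟩
  rw [hX.2, map_mul, uNorm_single_zero, coeffMap_uNorm, zpow_mul, zpow_natCast]

omit h in
/-- `qExpand` keeps the content. -/
lemma qExpand {r : ℕ} [NeZero r] {t : LaurentSeries ℂ} {a : ℤ} {X : LaurentSeries B}
    (hX : HasContent π t a X) :
    HasContent π (ModularCurve.qExpand ℂ r t) a (ModularCurve.qExpand B r X) := by
  refine ⟨?_, ?_⟩
  · obtain ⟨i, hi⟩ := hX.1
    exact ⟨(r : ℤ) * i, by rwa [ModularCurve.qExpand_coeff_mul]⟩
  · rw [hX.2, map_mul, ModularCurve.coeffMap_qExpand]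
    simp only [cst, ModularCurve.qExpand_single,
      mul_zero]

end HasContent

end Fermat.Agent.AtP
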