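import Fermat.Agent.AtP.AssemblyBase
import Fermat.Agent.AtP.DescentLevel
import Fermat.Agent.AtP.LambdaPGalois
import Fermat.Agent.AtP.LambdaBase
import Fermat.Agent.AtP.SeriesRoots
import Fermat.Agent.AtP.SeriesScale
import Fermat.Agent.KummerES.LevelMain
import Fermat.Agent.KummerES.Ratio
import Fermat.Agent.KummerES.ReductionSeries

/-!
# `λ(pτ)` over the ring of level `2 M`
-/

set_option autoImplicit false

noncomputable section

open UpperHalfPlane CongruenceSubgroup Polynomial
open scoped MatrixGroups Manifold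
open Fermat.Agent.KummerES ModularCurve

namespace Fermat.Agent.AtP

variable {p : ℕ} [hp : Fact p.Prime] (C : Coeff p) (M : ℕ) [NeZero M]

local notation "A" => LRing (2 * M) C.B

/-- `ℤ[1/2]` inside the coefficients. -/
def Coeff.ofR2 : R2 →+* C.B := Subring.inclusion (C.two_le.trans C.le)

omit hp in
/-- `1/2` lies in the coefficient ring. -/
lemma Coeff.inv_two_mem : (2 : ℂ)⁻¹ ∈ C.B := C.le (C.two_le inv_two_mem_B2)

/-- The constants of `ℤ[1/2]` at level `2 M`. -/
def constR2 : R2 →+* A where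
  toFun c := constL ((c : R2) : ℂ) (C.le (C.two_le c.2))
  map_one' := rfl
  map_mul' _ _ := rfl
  map_zero' := rfl
  map_add' _ _ := rfl

/-- `λ` at level `2 M`. -/
def lamA : A := ⟨lam, weak_Gamma_le_mul 2 M C.B (lam_mem_weak C.inv_two_mem)⟩

/-- The series of `ℤ[1/2]` read at level `2 M`. -/
def serLift : LaurentSeries R2 →+* LaurentSeries C.B :=
  (coeffMap C.ofR2).comp (qExpand R2 M)

/-- The series of `λ(pτ)` at `∞`. -/
def muSer : LaurentSeries C.B := serLift C M (qExpand R2 p l2)

omit hp in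
/-- `serLift` is the series of `ℤ[1/2]` in the parameter of level `2 M`. -/
lemma coeffMap_serLift (s : LaurentSeries R2) :
    coeffMap C.B.subtype (serLift C M s) = qExpand ℂ M (coeffMap iota2 s) := by
  rw [serLift, RingHom.comp_apply, ← ModularCurve.coeffMap_qExpand]
  ext i
  rfl

omit hp in
lemma expB_eq_serLift {f : A} {s : LaurentSeries R2} (h : Exp2 2 f.1 s) :
    expB (2 * M) C.B 1 f = serLift C M s := by
  refine coeffMap_subtype_injective ?_
  rw [coeffMap_expB, coeffMap_serLift, expAt_apply, comp_one]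
  exact (HasExp.dilate M h).expansion_eq

omit hp in
lemma expB_lamA : expB (2 * M) C.B 1 (lamA C M) = serLift C M l2 :=
  expB_eq_serLift C M exp2_l2

omit hp in
lemma expB_comp_constR2 :
    (expB (2 * M) C.B 1).comp (constR2 C M) = (serLift C M).comp HahnSeries.C :=
  R2_ringHom_ext _ _

/-- The modular polynomial over the ring of level `2 M`. -/
def lamPolyA : A[X] := (lamPoly p).map (eval₂RingHom (constR2 C M) (lamA C M))

theorem lamPolyA_monic (hp2 : p ≠ 2) : (lamPolyA C M).Monic := (lamPoly_monic hp2).map _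

omit hp in
lemma expB_comp_eval :
    (expB (2 * M) C.B 1).comp (eval₂RingHom (constR2 C M) (lamA C M)) =
      (serLift C M).comp (eval₂RingHom HahnSeries.C l2) :=
  Polynomial.ringHom_ext
    (fun a => by
      simp only [RingHom.comp_apply, coe_eval₂RingHom, eval₂_C]
      exact DFunLike.congr_fun (expB_comp_constR2 C M) a)
    (by simp only [RingHom.comp_apply, coe_eval₂RingHom, eval₂_X, expB_lamA])

/-- `λ(pτ)` is a root of the modular polynomial. -/
theorem eval₂_lamPolyA_muSer (hp2 : p ≠ 2) :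
    (lamPolyA C M).eval₂ (expB (2 * M) C.B 1) (muSer C M) = 0 := by
  rw [eval₂_eq_eval_map, lamPolyA, Polynomial.map_map, expB_comp_eval, ← Polynomial.map_map,
    lamPoly_series hp2, muSer, eval_map, eval₂_at_apply, muSeries, eval_mul, eval_sub, eval_X,
    eval_C, sub_self, zero_mul, map_zero]

lemma exists_qExpand_l2_sub (hp2 : p ≠ 2) :
    ∃ t, qExpand R2 p l2 - l2 ^ p = HahnSeries.single 0 (p : R2) * t := by
  refine exists_eq_smul_of_coeff _ fun i => natCast_dvd_of_red2_eq_zero hp2 ?_
  have h : coeffMap (red2 hp2) (qExpand R2 p l2 - l2 ^ p) = 0 := by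
    rw [map_sub, map_pow, ModularCurve.coeffMap_qExpand, pow_char_eq_qExpand (p := p),
      ZMod.frobenius_zmod, sub_eq_zero]
    congr 1
  rw [← ModularCurve.coeffMap_coeff, h, HahnSeries.coeff_zero]

omit hp in
lemma serLift_single (c : R2) :
    serLift C M (HahnSeries.single 0 c) = HahnSeries.C (C.ofR2 c) := by
  rw [serLift, RingHom.comp_apply, ModularCurve.qExpand_single, mul_zero,
    ModularCurve.coeffMap_single, HahnSeries.C_apply]

lemma unif_dvd_natCast : C.unif ∣ ((p : ℕ) : C.B) :=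
  ⟨C.unif ^ (p - 1) * C.mu, by
    rw [C.p_eq, ← mul_assoc, ← pow_succ', Nat.sub_add_cancel hp.out.one_le]⟩

/-- The Kronecker congruence on series. -/
theorem unif_dvd_muSer_sub (hp2 : p ≠ 2) :
    HahnSeries.C C.unif ∣ muSer C M - expB (2 * M) C.B 1 (lamA C M ^ p) := by
  obtain ⟨t, ht⟩ := exists_qExpand_l2_sub (p := p) hp2
  rw [map_pow, expB_lamA, muSer, ← map_pow, ← map_sub, ht, map_mul, serLift_single, map_natCast]
  exact dvd_mul_of_dvd_left (_root_.map_dvd _ (unif_dvd_natCast C)) _

omit [NeZero M] in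
/-- The uniformiser divides `p` in the ring of level `2 M`. -/
lemma piA_dvd_natCast : C.piA M ∣ ((p : ℕ) : A) := by
  obtain ⟨c, hc⟩ := unif_dvd_natCast C
  refine ⟨constL (c : ℂ) c.2, Subtype.ext (funext fun τ => ?_)⟩
  simpa [Coeff.piA] using congrArg (fun x : C.B => (x : ℂ)) hc

omit hp in
lemma eval_lamPow (F : R2[X][X]) :
    (F.map (eval₂RingHom (constR2 C M) (lamA C M))).eval (lamA C M ^ p) =
      ev2 (constR2 C M) (lamA C M) (lamA C M ^ p) F :=
  (ev2_eq_eval _ _ _ _).symm

/-- `λ ^ p` is a root of the modular polynomial modulo the uniformiser. -/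
lemma eval_lamPolyA_pow (hp2 : p ≠ 2) :
    (lamPolyA C M).eval (lamA C M ^ p) ∈ Ideal.span {C.piA M} := by
  rw [Ideal.mem_span_singleton, lamPolyA, eval_lamPow, lamPoly_eq hp2, map_add, map_mul, map_mul]
  refine dvd_add (dvd_mul_of_dvd_left ?_ _) (dvd_mul_of_dvd_left ?_ _)
  · simp only [ev2, coe_eval₂RingHom, map_sub, map_pow, eval₂_C, eval₂_X,
      sub_self, dvd_zero]
  · simp only [ev2, map_natCast]
    exact piA_dvd_natCast C M

lemma exists_derivative_eq (hp2 : p ≠ 2) :
    ∃ c : A, (derivative (lamPolyA C M)).eval (lamA C M ^ p) =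
      lamA C M ^ (p * p) - lamA C M + ((p : ℕ) : A) * c := by
  rw [lamPolyA, derivative_map, eval_lamPow, lamPoly_eq hp2]
  refine ⟨ev2 (constR2 C M) (lamA C M) (lamA C M ^ p) (derivative (lamH p)), ?_⟩
  simp only [derivative_mul, derivative_sub, derivative_pow, derivative_C,
    derivative_X, mul_zero, zero_mul, zero_sub, zero_add, map_add, map_mul, map_sub,
    map_neg, map_one, map_pow]
  simp [ev2]
  ring

/-- The derivative at `λ ^ p` is not divisible by the uniformiser. -/
theorem not_piA_dvd_derivative (hp2 : p ≠ 2) :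
    ¬ C.piA M ∣ (derivative (lamPolyA C M)).eval (lamA C M ^ p) := by
  intro hdvd
  have := C.charP
  obtain ⟨c, hc⟩ := exists_derivative_eq C M hp2
  rw [hc, dvd_add_left (dvd_mul_of_dvd_left (piA_dvd_natCast C M) c)] at hdvd
  have h1 := _root_.map_dvd (coeffMap (IsLocalRing.residue C.B)) (_root_.map_dvd (expB (2 * M) C.B 1) hdvd)
  have hu : coeffMap (IsLocalRing.residue C.B) (expB (2 * M) C.B 1 (C.piA M)) = 0 := by
    rw [Coeff.piA, expB_constL, HahnSeries.C_apply, ModularCurve.coeffMap_single,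
      show IsLocalRing.residue C.B ⟨(C.unif : ℂ), C.unif.2⟩ = 0 from
        Ideal.Quotient.eq_zero_iff_mem.mpr C.unif_mem, map_zero]
  rw [hu, zero_dvd_iff] at h1
  set ι := ZMod.castHom dvd_rfl (IsLocalRing.ResidueField C.B)
  have hhom : (IsLocalRing.residue C.B).comp C.ofR2 = ι.comp (red2 hp2) := R2_ringHom_ext _ _
  have hser : ∀ s, coeffMap (IsLocalRing.residue C.B) (serLift C M s) =
      qExpand _ M (coeffMap ι (coeffMap (red2 hp2) s)) := fun s => by
    rw [serLift, RingHom.comp_apply, ← ModularCurve.coeffMap_qExpand,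
      ← ModularCurve.coeffMap_qExpand]
    ext i
    simp only [ModularCurve.coeffMap_coeff]
    exact DFunLike.congr_fun hhom _
  rw [map_sub, map_pow, expB_lamA, map_sub, map_pow, hser, coeffMap_red2_l2, ← map_pow,
    ← map_pow, ← map_sub, ← map_sub, map_eq_zero_iff _ (qExpand_injective M), map_eq_zero] at h1
  have h2 : (X : (ZMod p)[X]) ^ (p * p) - X = 0 :=
    aeval_lamBar_injective hp2 (by simpa using h1)
  have h3 := congrArg (fun P : (ZMod p)[X] => P.coeff 1) h2
  rw [coeff_sub, coeff_X_pow, if_neg (by nlinarith [hp.out.two_le]), coeff_X, if_pos rfl,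
    coeff_zero, zero_sub, neg_eq_zero] at h3
  exact one_ne_zero h3

/-! ## Minimality -/

omit [NeZero M] in
/-- `Γ(2 M)` moves `λ(pτ)` to each of its conjugates. -/
theorem exists_Gamma_transitive (hp2 : p ≠ 2) (hpM : ¬ p ∣ M) (i : Option (ZMod p)) :
    ∃ γ ∈ Gamma (2 * M), comp (muFun p lam none) γ = muFun p lam i := by
  cases i with
  | none => exact ⟨1, one_mem _, comp_one _⟩
  | some b =>
    have hne : ((4 * M * M : ℕ) : ZMod p) ≠ 0 := by
      rw [Ne, ZMod.natCast_eq_zero_iff, hp.out.dvd_mul, hp.out.dvd_mul]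
      rintro ((h | h) | h)
      · exact hp2 ((Nat.prime_dvd_prime_iff_eq hp.out Nat.prime_two).mp
          (hp.out.dvd_of_dvd_pow (show p ∣ 2 ^ 2 from h)))
      · exact hpM h
      · exact hpM h
    set t : ℤ := ((((4 * b * M - 1) * ((4 * M * M : ℕ) : ZMod p)⁻¹ : ZMod p).val : ℕ) : ℤ)
    obtain ⟨y, hy⟩ : (p : ℤ) ∣ 1 + 4 * M * M * t - 4 * (b.val : ℤ) * M := by
      rw [← ZMod.intCast_zmod_eq_zero_iff_dvd]
      simp only [t]
      push_cast
      rw [ZMod.natCast_zmod_val, ZMod.natCast_zmod_val]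
      have hinv := mul_inv_cancel₀ hne
      push_cast at hinv ⊢
      linear_combination (4 * b * (M : ZMod p) - 1) * hinv
    let γ : SL(2, ℤ) := ⟨!![1, 2 * M * t; 2 * M, 1 + 4 * M * M * t], by
      rw [Matrix.det_fin_two_of]; ring⟩
    let D : SL(2, ℤ) := ⟨!![(p : ℤ), 2 * M * t - 2 * (b.val : ℤ); 2 * M, y], by
      rw [Matrix.det_fin_two_of]; linear_combination -hy⟩
    have hmem : γ ∈ Gamma (2 * M) := by
      have h0 : (2 : ZMod (2 * M)) * (M : ZMod (2 * M)) = 0 := by
        exact_mod_cast ZMod.natCast_self (2 * M)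
      rw [Gamma_mem]
      refine ⟨by simp [γ], ?_, ?_, ?_⟩ <;> simp [γ]
      · rw [h0, zero_mul]
      · exact h0
      · linear_combination (2 * (M : ZMod (2 * M)) * (t : ZMod (2 * M))) * h0
    refine ⟨γ, hmem, (comp_muFun_eq_of_mem_Gamma (Gamma_le_of_dvd (dvd_mul_right 2 M) hmem) (D := D)
      ?_ ?_).1⟩
    · have hp1 : ((p : ℕ) : ZMod 2) = 1 := ZMod.natCast_eq_one_iff_odd.2 (hp.out.odd_of_ne_two hp2)
      have h20 : (2 : ZMod 2) = 0 := rfl
      have hy1 : (y : ZMod 2) = 1 := by
        have := congrArg (Int.cast : ℤ → ZMod 2) hy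
        push_cast at this
        rw [hp1, one_mul, show (4 : ZMod 2) = 0 from rfl] at this
        simpa using this.symm
      rw [Gamma_mem]
      refine ⟨?_, ?_, ?_, ?_⟩ <;> simp [D, hp1, h20, hy1]
    · ext i j
      fin_cases i <;> fin_cases j <;>
        simp [γ, D, conjMat, Matrix.mul_apply, Fin.sum_univ_two, -ZMod.natCast_val]
      · ring
      · linear_combination hy

/-- The modular polynomial is the minimal polynomial of `λ(pτ)` at level `2 M`. -/
theorem lamPolyA_dvd (hp2 : p ≠ 2) (hpM : ¬ p ∣ M) (Q : A[X])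
    (hQ : Q.eval₂ (expB (2 * M) C.B 1) (muSer C M) = 0) : lamPolyA C M ∣ Q := by
  classical
  have hmonic := lamPolyA_monic C M hp2
  rw [← Polynomial.modByMonic_eq_zero_iff_dvd hmonic]
  set R := Q %ₘ lamPolyA C M with hR
  have hdeg : R.natDegree < p + 1 := by
    have h1 := natDegree_modByMonic_lt Q hmonic fun h1 => by
      have := congrArg natDegree h1
      rw [lamPolyA, (lamPoly_monic hp2).natDegree_map, natDegree_lamPoly hp2, natDegree_one] at this
      omega
    rwa [lamPolyA, (lamPoly_monic hp2).natDegree_map, natDegree_lamPoly hp2] at h1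
  have hR0 : R.eval₂ (expB (2 * M) C.B 1) (muSer C M) = 0 := by
    rw [hR, eval₂_modByMonic_eq_self_of_root (eval₂_lamPolyA_muSer C M hp2), hQ]
  have hmu : HasExp (2 * M) (muFun p lam none) (coeffMap C.B.subtype (muSer C M)) := by
    rw [muSer, coeffMap_serLift, ← qExpand_coeffMap]
    exact (hasExp_comp_conjMap_none exp2_l2).dilate M
  have hfun : ∀ τ : ℍ, (R.map ((Pi.evalRingHom (fun _ : ℍ => ℂ) τ).comp
      (weak (Gamma (2 * M)) (2 * M) C.B).subtype)).eval (muFun p lam none τ) = 0 := by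
    have key : ∀ P : A[X], HasExp (2 * M)
        (fun τ => (P.map ((Pi.evalRingHom (fun _ : ℍ => ℂ) τ).comp
          (weak (Gamma (2 * M)) (2 * M) C.B).subtype)).eval (muFun p lam none τ))
        (coeffMap C.B.subtype (P.eval₂ (expB (2 * M) C.B 1) (muSer C M))) := by
      intro P
      induction P using Polynomial.induction_on' with
      | add P P' hP hP' =>
        simp only [Polynomial.map_add, eval_add, eval₂_add, map_add]
        exact hP.add hP'
      | monomial k a =>
        simp only [Polynomial.map_monomial, eval_monomial, eval₂_monomial, map_mul, map_pow]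
        refine HasExp.mul ?_ (hmu.pow k)
        rw [coeffMap_expB, expAt_apply, comp_one]
        have := hasExp_expansion a.2 1
        rwa [comp_one] at this
    intro τ
    have h0 := key R
    rw [hR0, map_zero] at h0
    exact congrFun (h0.fun_eq HasExp.zero) τ
  -- every conjugate is a root
  have hall : ∀ (i : Option (ZMod p)) (τ : ℍ), (R.map ((Pi.evalRingHom (fun _ : ℍ => ℂ) τ).comp
      (weak (Gamma (2 * M)) (2 * M) C.B).subtype)).eval (muFun p lam i τ) = 0 := by
    intro i τ
    obtain ⟨γ, hγ, hi⟩ := exists_Gamma_transitive M hp2 hpM i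
    have h := hfun (γ • τ)
    rw [show muFun p lam none (γ • τ) = muFun p lam i τ from congrFun hi τ] at h
    rw [← h]
    congr 1
    refine Polynomial.ext fun k => ?_
    simp only [Polynomial.coeff_map, RingHom.comp_apply, Pi.evalRingHom_apply, Subring.subtype_apply]
    exact (congrFun ((R.coeff k).2.2.1 γ hγ) τ).symm
  refine Polynomial.ext fun k => Subtype.ext ?_
  rw [coeff_zero, ZeroMemClass.coe_zero]
  let s := (Finset.univ ×ˢ Finset.univ : Finset (Option (ZMod p) × Option (ZMod p))).filter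
    fun x => x.1 ≠ x.2
  let F : Option (Option (ZMod p) × Option (ZMod p)) → ℍ → ℂ :=
    fun x => x.elim ((R.coeff k).1) fun x => muFun p lam x.1 - muFun p lam x.2
  have hmd : ∀ i, MDiff (muFun p lam i) := fun i => by
    intro z
    rw [UpperHalfPlane.mdifferentiableAt_iff]
    exact (hasDerivAt_comp_posGL mdiff_lam (conjMat i) (det_conjMat_pos i) z).differentiableAt
  have hF : ∀ x ∈ insert none (s.map Function.Embedding.some), MDiff (F x) := by
    rintro (_ | x) -
    · exact (R.coeff k).2.1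
    · exact (hmd x.1).sub (hmd x.2)
  have hzero : (∏ x ∈ insert none (s.map Function.Embedding.some), F x) = 0 := by
    funext τ
    rw [Finset.prod_apply, Pi.zero_apply, Finset.prod_eq_zero_iff]
    by_contra hcon
    push Not at hcon
    refine hcon none (Finset.mem_insert_self _ _) ?_
    have hinj : Function.Injective fun i => muFun p lam i τ := by
      intro i j hij
      by_contra hne
      refine hcon (some (i, j)) (Finset.mem_insert_of_mem
        (Finset.mem_map_of_mem _ (by simp [s, hne]))) ?_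
      simpa [F, sub_eq_zero] using hij
    have h1 : R.map ((Pi.evalRingHom (fun _ : ℍ => ℂ) τ).comp
        (weak (Gamma (2 * M)) (2 * M) C.B).subtype) = 0 := by
      refine Polynomial.eq_zero_of_natDegree_lt_card_of_eval_eq_zero _ hinj (fun i => hall i τ) ?_
      rw [Fintype.card_option, ZMod.card]
      exact lt_of_le_of_lt natDegree_map_le hdeg
    simpa [F] using congrArg (fun P : ℂ[X] => P.coeff k) h1
  obtain ⟨x, hx, hx0⟩ := (UpperHalfPlane.prod_eq_zero_iff hF).mp hzero
  rcases Finset.mem_insert.mp hx with rfl | hx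
  · exact hx0
  · obtain ⟨⟨i, j⟩, hij, rfl⟩ := Finset.mem_map.mp hx
    simp only [s, Finset.mem_filter] at hij
    exact absurd (muFun_injective hp2 (sub_eq_zero.mp hx0)) hij.2

/-! ## The Atkin–Lehner matrix at level `2 M` -/

omit [NeZero M] in
/-- A solution of `p d - 2 M b = 1` with `b` even. -/
theorem exists_alData (hp2 : p ≠ 2) (hpM : ¬ p ∣ M) :
    ∃ b d : ℤ, (p : ℤ) * d - ((2 * M : ℕ) : ℤ) * b = 1 ∧ Even b := by
  have hcop : Nat.Coprime p (4 * M) := (Nat.Prime.coprime_iff_not_dvd hp.out).mpr fun h => by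
    rcases hp.out.dvd_mul.mp h with h | h
    · exact hp2 ((Nat.prime_dvd_prime_iff_eq hp.out Nat.prime_two).mp
        (hp.out.dvd_of_dvd_pow (show p ∣ 2 ^ 2 from h)))
    · exact hpM h
  obtain ⟨u, v, huv⟩ := Nat.isCoprime_iff_coprime.mpr hcop
  exact ⟨-2 * v, u, by push_cast at huv ⊢; linear_combination huv, ⟨-v, by ring⟩⟩

variable {M} {b d : ℤ} (h2 : (p : ℤ) * d - ((2 * M : ℕ) : ℤ) * b = 1)

omit [NeZero M] in
lemma alW_two_mul_smul (τ : ℍ) : Newforms.alW p (2 * M) b d h2 • τ =
    Newforms.alSL p (2 * M) b d h2 • conjMap (none : Option (ZMod p)) τ := by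
  rw [Newforms.alW, mul_smul]
  show Newforms.alSL p (2 * M) b d h2 • (ModularForm.heckeDiagMatrix p • τ) = _
  congr 1
  ext1
  rw [ModularForm.coe_heckeDiagMatrix_smul hp.out.ne_zero, coe_conjMap_none]

variable {b₀ d₀ : ℤ} (h : (p : ℤ) * d₀ - (M : ℤ) * b₀ = 1)

omit [NeZero M] in
/-- On `Γ₀(pM)`-invariant functions the two Atkin–Lehner matrices agree. -/
theorem wFun_eq_wFun {G : ℍ → ℂ} (hG : ∀ γ ∈ Gamma0 (p * M), comp G γ = G) :
    wFun h G = wFun h2 G := by
  funext τ
  rw [wFun_apply, wFun_apply, alW_two_mul_smul]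
  have hmem : Newforms.alSL p (2 * M) b d h2 * (Newforms.alSL p M b₀ d₀ h)⁻¹ ∈ Gamma0 (p * M) := by
    rw [Gamma0_mem, ZMod.intCast_zmod_eq_zero_iff_dvd]
    refine ⟨2 * d₀ - d, ?_⟩
    simp [Newforms.alSL, Matrix.mul_apply, Fin.sum_univ_two, Matrix.adjugate_fin_two]
    ring
  have hh := congrFun (hG _ hmem) (Newforms.alSL p M b₀ d₀ h • conjMap (none : Option (ZMod p)) τ)
  rw [comp_apply, mul_smul, inv_smul_smul] at hh
  rw [hh, Newforms.alW, mul_smul]
  congr 1
  show _ • (ModularForm.heckeDiagMatrix p • τ) = _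
  congr 1
  ext1
  rw [ModularForm.coe_heckeDiagMatrix_smul hp.out.ne_zero, coe_conjMap_none]

end Fermat.Agent.AtP
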