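import Mathlib.Algebra.MonoidAlgebra.Basic
import Mathlib.RingTheory.RootsOfUnity.PrimitiveRoots
import Mathlib.Algebra.Polynomial.BigOperators
import Mathlib.FieldTheory.Finite.Basic
import Fermat.Prelude.Def_ModularCurve_X0
import Fermat.Prelude.Def_ModularCurve_LaurentCoeff
import Fermat.Prelude.Thm_ModularCurve_coeffMap_qExpand

/-!
# The product of the conjugates `F(ζ^b x)` of a Laurent series

For `F ∈ R((x))` there is a monic polynomial over `R((y))`, `y = x^p`, whose image is
`∏_b (T - F(ζ^b x))`, and which is congruent to `T^p - F(y)` modulo `p`.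
The proof takes place over the group ring of `ZMod p`, so no cyclotomic theory is needed.
-/

set_option autoImplicit false

noncomputable section

open Polynomial ModularCurve

namespace Fermat.Agent.AtP

section Twist

variable {A B : Type*} [CommRing A] [CommRing B]

/-- Multiply the `i`-th coefficient by `c ^ i`, for a unit `c`. -/
def twistU (c : Aˣ) : LaurentSeries A →+* LaurentSeries A where
  toFun s :=
    { coeff := fun i => (↑(c ^ i) : A) * s.coeff i
      isPWO_support' := s.isPWO_support.mono fun i hi h0 => hi (by simp [h0]) }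
  map_one' := by
    ext i
    show (↑(c ^ i) : A) * (1 : LaurentSeries A).coeff i = (1 : LaurentSeries A).coeff i
    rcases eq_or_ne i 0 with rfl | hi <;> simp [HahnSeries.coeff_one, *]
  map_zero' := by ext i; simp
  map_add' s t := by ext i; simp [mul_add]
  map_mul' s t := by
    ext i
    simp only [HahnSeries.coeff_mul, Finset.mul_sum]
    refine Finset.sum_congr ?_ fun q hq => ?_
    · ext q
      simp only [Finset.mem_antidiagonal, HahnSeries.mem_support, ne_eq, Units.mul_right_eq_zero]
    · rw [← (Finset.mem_antidiagonal.mp hq).2.2, zpow_add, Units.val_mul]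
      ring

/-- The coefficients of a twist. -/
@[simp] theorem twistU_coeff (c : Aˣ) (s : LaurentSeries A) (i : ℤ) :
    (twistU c s).coeff i = (↑(c ^ i) : A) * s.coeff i := rfl

/-- Twists compose. -/
theorem twistU_twistU (c d : Aˣ) (s : LaurentSeries A) :
    twistU c (twistU d s) = twistU (c * d) s := by
  ext i; simp [mul_zpow, mul_assoc]

/-- The trivial twist. -/
theorem twistU_one (s : LaurentSeries A) : twistU 1 s = s := by
  ext i; simp

theorem coeffMap_twistU (f : A →+* B) (c : Aˣ) (s : LaurentSeries A) :
    coeffMap f (twistU c s) = twistU (Units.map f.toMonoidHom c) (coeffMap f s) := by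
  ext i
  simp [← map_zpow, map_mul]

end Twist

section Frobenius

variable {p : ℕ} [hp : Fact p.Prime]

/-- Over the prime field, the `p`-th power of a series is the substitution `x ↦ x^p`. -/
theorem pow_eq_qExpand (s : LaurentSeries (ZMod p)) : s ^ p = qExpand (ZMod p) p s := by
  have : CharP (LaurentSeries (ZMod p)) p :=
    charP_of_injective_ringHom (HahnSeries.C_injective (Γ := ℤ) (R := ZMod p)) p
  have hp0 : (0 : ℤ) < p := by exact_mod_cast hp.out.pos
  have main : ∀ T : Finset ℤ, ∀ c : ℤ → ZMod p,
      (∑ i ∈ T, HahnSeries.single i (c i)) ^ p =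
        qExpand (ZMod p) p (∑ i ∈ T, HahnSeries.single i (c i)) := fun T c => by
    rw [sum_pow_char, map_sum]
    refine Finset.sum_congr rfl fun i _ => ?_
    rw [HahnSeries.single_pow, qExpand_single, ZMod.pow_card, nsmul_eq_mul]
  ext k
  obtain ⟨N, hN⟩ : ∃ N : ℤ, k < p * N := ⟨|k| + 1, by nlinarith [abs_nonneg k, le_abs_self k]⟩
  set T := Finset.Ico s.order N
  set a : LaurentSeries (ZMod p) := ∑ i ∈ T, HahnSeries.single i (s.coeff i)
  set b := s - a
  have ha : ∀ i < N, a.coeff i = s.coeff i := fun i hi => by
    simp only [a, HahnSeries.coeff_sum, HahnSeries.coeff_single]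
    rcases lt_or_ge i s.order with h | h
    · rw [HahnSeries.coeff_eq_zero_of_lt_order h]
      refine Finset.sum_eq_zero fun x hx => if_neg ?_
      simp only [T, Finset.mem_Ico] at hx
      omega
    · refine (Finset.sum_eq_single i (fun x _ hx => if_neg hx.symm) fun hmem => ?_).trans (if_pos rfl)
      exact absurd (Finset.mem_Ico.2 ⟨h, hi⟩) hmem
  have hb : ∀ i < N, b.coeff i = 0 := fun i hi => by simp [b, ha i hi]
  have hbp : ∀ (n : ℕ) i, i < n * N → (b ^ n).coeff i = 0 := by
    intro n
    induction n with
    | zero => intro i hi; rw [pow_zero, HahnSeries.coeff_one, if_neg (by simp at hi; omega)]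
    | succ n ih =>
      intro i hi
      rw [pow_succ, HahnSeries.coeff_mul]
      refine Finset.sum_eq_zero fun q hq => ?_
      obtain ⟨-, -, hsum⟩ := Finset.mem_antidiagonal.mp hq
      rcases lt_or_ge q.1 (n * N) with h | h
      · rw [ih _ h, zero_mul]
      · rw [hb q.2 (by push_cast at hi; nlinarith), mul_zero]
  have e : s = a + b := by simp [b]
  rw [e, add_pow_char, HahnSeries.coeff_add, hbp p k hN, add_zero, main, map_add,
    HahnSeries.coeff_add]
  suffices (qExpand (ZMod p) p b).coeff k = 0 by rw [this, add_zero]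
  by_cases hk : (p : ℤ) ∣ k
  · obtain ⟨m, rfl⟩ := hk
    rw [qExpand_coeff_mul, hb m (lt_of_mul_lt_mul_left hN hp0.le)]
  · exact qExpand_coeff_of_not_dvd _ _ hk

end Frobenius

section Norm

variable (p : ℕ) [hp : Fact p.Prime] (R : Type*) [CommRing R]

/-- The group ring of `ZMod p`. -/
abbrev GroupRing := AddMonoidAlgebra R (ZMod p)

/-- The group element `[b]`, as a unit. -/
def grp (b : ZMod p) : (GroupRing p R)ˣ :=
  Units.map (AddMonoidAlgebra.of R (ZMod p)) (toUnits (Multiplicative.ofAdd b))

variable {p R}

theorem grp_val (b : ZMod p) : (grp p R b : GroupRing p R) = AddMonoidAlgebra.single b 1 := rfl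

theorem grp_add (b c : ZMod p) : grp p R (b + c) = grp p R b * grp p R c :=
  Units.ext (by simp [grp_val, AddMonoidAlgebra.single_mul_single])

theorem grp_zero : grp p R 0 = 1 := Units.ext rfl

theorem grp_zpow (b : ZMod p) (n : ℤ) : grp p R b ^ n = grp p R ((n : ZMod p) * b) := by
  induction n using Int.induction_on with
  | zero => simp [grp_zero]
  | succ i ih => rw [zpow_add_one, ih, ← grp_add]; congr 1; push_cast; ring
  | pred i ih =>
    rw [zpow_sub_one, ih, eq_comm, eq_mul_inv_iff_mul_eq, ← grp_add]; congr 1; push_cast; ring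

/-- Constants in the group ring. -/
abbrev groupIncl : R →+* GroupRing p R := AddMonoidAlgebra.singleZeroRingHom

/-- The automorphism `[b] ↦ [a b]`. -/
def dil (a : ZMod p) : GroupRing p R →+* GroupRing p R :=
  AddMonoidAlgebra.mapDomainRingHom R (AddMonoidHom.mulLeft a)

theorem dil_single (a b : ZMod p) (r : R) :
    dil (R := R) a (AddMonoidAlgebra.single b r) = AddMonoidAlgebra.single (a * b) r := by
  simp [dil, AddMonoidAlgebra.mapDomainRingHom]

/-- The product of the generic conjugates. -/
def conjProd (F : LaurentSeries R) : (LaurentSeries (GroupRing p R))[X] :=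
  ∏ b : ZMod p, (X - Polynomial.C (twistU (grp p R b) (coeffMap groupIncl F)))

theorem conjProd_dil (F : LaurentSeries R) {a : ZMod p} (ha : a ≠ 0) :
    (conjProd F).map (coeffMap (dil (R := R) a)) = conjProd F := by
  have hu : ∀ b, Units.map (dil (R := R) a).toMonoidHom (grp p R b) = grp p R (a * b) :=
    fun b => Units.ext (by simp [grp_val, dil_single])
  have hi : (dil (R := R) a).comp groupIncl = groupIncl :=
    RingHom.ext fun r => by simp [dil_single]
  simp only [conjProd, Polynomial.map_prod, Polynomial.map_sub, map_X, map_C, coeffMap_twistU, hu,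
    coeffMap_coeffMap, hi]
  exact Fintype.prod_equiv (Equiv.mulLeft₀ a ha) _ _ fun b => rfl

theorem conjProd_shift (F : LaurentSeries R) :
    (conjProd F).map (twistU (grp p R 1)) = conjProd F := by
  simp only [conjProd, Polynomial.map_prod, Polynomial.map_sub, map_X, map_C, twistU_twistU,
    ← grp_add]
  exact Fintype.prod_equiv (Equiv.addLeft (1 : ZMod p)) _ _ fun b => rfl

/-- The series over `R` underlying an invariant series over the group ring. -/
def descend (s : LaurentSeries (GroupRing p R)) : LaurentSeries R :=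
  HahnSeries.ofSuppBddBelow (fun m : ℤ => (s.coeff (p * m)).coeff 0 - (s.coeff (p * m)).coeff 1)
    ⟨min s.order 0, fun m hm => by
      by_contra h
      push Not at h
      have hp1 : (1 : ℤ) ≤ p := by exact_mod_cast hp.out.one_le
      have hlt : (p : ℤ) * m < s.order := by
        have := min_le_left s.order 0
        have := min_le_right s.order 0
        nlinarith
      exact hm (by simp [HahnSeries.coeff_eq_zero_of_lt_order hlt])⟩

/-- The coefficients of the descended series. -/
@[simp] theorem descend_coeff (s : LaurentSeries (GroupRing p R)) (m : ℤ) :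
    (descend s).coeff m = (s.coeff (p * m)).coeff 0 - (s.coeff (p * m)).coeff 1 := rfl

variable (p R) in
/-- The invariance shared by the coefficients of `conjProd`. -/
structure IsInvariant (s : LaurentSeries (GroupRing p R)) : Prop where
  dil_eq : ∀ a : ZMod p, a ≠ 0 → coeffMap (dil (R := R) a) s = s
  shift_eq : twistU (grp p R 1) s = s

theorem isInvariant_coeff (F : LaurentSeries R) (k : ℕ) :
    IsInvariant p R ((conjProd F).coeff k) :=
  ⟨fun a ha => by rw [← Polynomial.coeff_map, conjProd_dil F ha],
    by rw [← Polynomial.coeff_map, conjProd_shift F]⟩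

theorem IsInvariant.apply_eq_one {s : LaurentSeries (GroupRing p R)} (h : IsInvariant p R s)
    (n : ℤ) {g : ZMod p} (hg : g ≠ 0) : (s.coeff n).coeff g = (s.coeff n).coeff 1 := by
  have := congrArg (fun t : LaurentSeries (GroupRing p R) => (t.coeff n).coeff g) (h.dil_eq g hg)
  simp only [coeffMap_coeff] at this
  rw [← this]
  simp only [dil, AddMonoidAlgebra.mapDomainRingHom_apply, AddMonoidAlgebra.coeff_mapDomain]
  have key := Finsupp.mapDomain_apply (f := fun b : ZMod p => g * b) (mul_right_injective₀ hg)
    (s.coeff n).coeff 1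
  simp only [mul_one] at key
  exact key

theorem IsInvariant.apply_eq_zero {s : LaurentSeries (GroupRing p R)} (h : IsInvariant p R s)
    (n : ℤ) (hn : (n : ZMod p) ≠ 0) (g : ZMod p) : (s.coeff n).coeff g = (s.coeff n).coeff 0 := by
  have h1 : ∀ g, (s.coeff n).coeff g = (s.coeff n).coeff (g - n) := fun g => by
    have := congrArg (fun t : LaurentSeries (GroupRing p R) => (t.coeff n).coeff g) h.shift_eq
    simp only [twistU_coeff, grp_zpow, grp_val, mul_one] at this
    conv_lhs => rw [← this]
    rw [AddMonoidAlgebra.coeff_single_mul_apply, one_mul, neg_add_eq_sub]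
  have hz : (s.coeff n).coeff (n : ZMod p) = (s.coeff n).coeff 0 := by rw [h1, sub_self]
  rcases eq_or_ne g 0 with rfl | hg
  · rfl
  · rw [h.apply_eq_one n hg, ← h.apply_eq_one n hn, hz]

variable {K : Type*} [Field K]

/-- Evaluation of the group ring at a `p`-th root of unity. -/
def evalRoot (ι : R →+* K) (χ : Multiplicative (ZMod p) →* K) : GroupRing p R →+* K :=
  AddMonoidAlgebra.liftNCRingHom ι χ fun _ _ => Commute.all _ _

theorem evalRoot_single (ι : R →+* K) (χ : Multiplicative (ZMod p) →* K) (b : ZMod p) (r : R) :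
    evalRoot ι χ (AddMonoidAlgebra.single b r) = ι r * χ (Multiplicative.ofAdd b) :=
  AddMonoidAlgebra.liftNC_single _ _ _ _

theorem evalRoot_eq_sum (ι : R →+* K) (χ : Multiplicative (ZMod p) →* K) (x : GroupRing p R) :
    evalRoot ι χ x = ∑ b, ι (x.coeff b) * χ (Multiplicative.ofAdd b) := by
  induction x using AddMonoidAlgebra.induction_linear with
  | zero => simp
  | add x y hx hy => simp [map_add, hx, hy, add_mul, Finset.sum_add_distrib]
  | single b r =>
    rw [evalRoot_single, Finset.sum_eq_single b]
    · simp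
    · intro c _ hc; simp [Finsupp.single_eq_of_ne hc]
    · simp

/-- The character `b ↦ ζ^b`. -/
def rootChar {ζ : K} (hζ : IsPrimitiveRoot ζ p) : Multiplicative (ZMod p) →* K where
  toFun b := ζ ^ (Multiplicative.toAdd b).val
  map_one' := by simp
  map_mul' a b := by
    rw [← pow_add, toAdd_mul, ZMod.val_add]
    exact pow_eq_pow_of_modEq (Nat.mod_modEq _ _) hζ.pow_eq_one

/-- The image of `[b]`. -/
def rootUnit {ζ : K} (hζ : IsPrimitiveRoot ζ p) (b : ZMod p) : Kˣ :=
  Units.mk0 (ζ ^ b.val) (pow_ne_zero _ (hζ.ne_zero hp.out.ne_zero))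

variable {ι : R →+* K} {ζ : K} (hζ : IsPrimitiveRoot ζ p)

theorem sum_rootChar : ∑ b : ZMod p, rootChar hζ (Multiplicative.ofAdd b) = 0 := by
  have h := hζ.geom_sum_eq_zero hp.out.one_lt
  rw [← h]
  refine Finset.sum_nbij' (fun b => b.val) (fun i => (i : ZMod p)) ?_ ?_ ?_ ?_ ?_
  · exact fun b _ => Finset.mem_range.2 b.val_lt
  · exact fun i _ => Finset.mem_univ _
  · exact fun b _ => ZMod.natCast_zmod_val b
  · exact fun i hi => ZMod.val_natCast_of_lt (Finset.mem_range.1 hi)
  · exact fun b _ => rfl

theorem IsInvariant.coeffMap_evalRoot {s : LaurentSeries (GroupRing p R)} (h : IsInvariant p R s) :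
    coeffMap (evalRoot ι (rootChar hζ)) s = qExpand K p (coeffMap ι (descend s)) := by
  ext n
  rw [coeffMap_coeff, evalRoot_eq_sum]
  by_cases hn : (p : ℤ) ∣ n
  · obtain ⟨m, rfl⟩ := hn
    rw [qExpand_coeff_mul, coeffMap_coeff, descend_coeff, map_sub]
    set c := s.coeff (↑p * m)
    have key : ∀ b : ZMod p, ι (c.coeff b) * rootChar hζ (Multiplicative.ofAdd b) =
        ι (c.coeff 1) * rootChar hζ (Multiplicative.ofAdd b) +
          if b = 0 then ι (c.coeff 0) - ι (c.coeff 1) else 0 := fun b => by
      rcases eq_or_ne b 0 with rfl | hb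
      · simp
      · rw [if_neg hb, add_zero, h.apply_eq_one _ hb]
    rw [Finset.sum_congr rfl fun b _ => key b, Finset.sum_add_distrib, ← Finset.mul_sum,
      sum_rootChar hζ, mul_zero, zero_add, Finset.sum_ite_eq']
    simp
  · have hn' : (n : ZMod p) ≠ 0 := fun h0 => hn ((ZMod.intCast_zmod_eq_zero_iff_dvd n p).1 h0)
    rw [qExpand_coeff_of_not_dvd _ _ hn]
    simp only [h.apply_eq_zero n hn']
    rw [← Finset.mul_sum, sum_rootChar hζ, mul_zero]

theorem IsInvariant.coeffMap_augment {s : LaurentSeries (GroupRing p R)} (h : IsInvariant p R s)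
    (π : R →+* ZMod p) :
    coeffMap (evalRoot π (1 : Multiplicative (ZMod p) →* ZMod p)) s =
      qExpand (ZMod p) p (coeffMap π (descend s)) := by
  ext n
  rw [coeffMap_coeff, evalRoot_eq_sum]
  simp only [MonoidHom.one_apply, mul_one]
  by_cases hn : (p : ℤ) ∣ n
  · obtain ⟨m, rfl⟩ := hn
    rw [qExpand_coeff_mul, coeffMap_coeff, descend_coeff, map_sub]
    set c := s.coeff (↑p * m)
    have key : ∀ b : ZMod p, π (c.coeff b) = π (c.coeff 1) + if b = 0 then π (c.coeff 0) - π (c.coeff 1) else 0 :=
      fun b => by
      rcases eq_or_ne b 0 with rfl | hb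
      · simp
      · rw [if_neg hb, add_zero, h.apply_eq_one _ hb]
    rw [Finset.sum_congr rfl fun b _ => key b, Finset.sum_add_distrib, Finset.sum_const,
      Finset.card_univ, ZMod.card, nsmul_eq_mul, ZMod.natCast_self, zero_mul, zero_add,
      Finset.sum_ite_eq']
    simp
  · have hn' : (n : ZMod p) ≠ 0 := fun h0 => hn ((ZMod.intCast_zmod_eq_zero_iff_dvd n p).1 h0)
    rw [qExpand_coeff_of_not_dvd _ _ hn]
    simp only [h.apply_eq_zero n hn', Finset.sum_const, Finset.card_univ, ZMod.card, nsmul_eq_mul,
      ZMod.natCast_self, zero_mul]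

variable (p) in
/-- The norm of `T - F` from `R((x))` to `R((x^p))`. -/
def normPoly (F : LaurentSeries R) : (LaurentSeries R)[X] :=
  ∑ k ∈ Finset.range (p + 1), monomial k (descend (p := p) ((conjProd (p := p) F).coeff k))

/-- The coefficients of the norm polynomial. -/
theorem coeff_normPoly (F : LaurentSeries R) (k : ℕ) :
    (normPoly p F).coeff k = descend ((conjProd (p := p) F).coeff k) := by
  rw [normPoly, finsetSum_coeff]
  simp only [coeff_monomial]
  rw [Finset.sum_ite_eq' (Finset.range (p + 1)) k]
  split_ifs with hk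
  · rfl
  · have : (conjProd (p := p) F).natDegree < k := by
      refine lt_of_le_of_lt (natDegree_prod_le _ _) ?_
      refine lt_of_le_of_lt (Finset.sum_le_card_nsmul _ _ 1 fun b _ => natDegree_X_sub_C_le _) ?_
      simp only [Finset.card_univ, ZMod.card, smul_eq_mul, mul_one]
      simp only [Finset.mem_range] at hk
      omega
    rw [coeff_eq_zero_of_natDegree_lt this]
    ext m; simp

/-- After `y ↦ x ^ p` and a choice of `ζ`, `normPoly p F` is `∏_b (T - F(ζ^b x))`. -/
theorem normPoly_map (F : LaurentSeries R) :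
    (normPoly p F).map ((qExpand K p).comp (coeffMap ι)) =
      ∏ b : ZMod p, (X - Polynomial.C (twistU (rootUnit hζ b) (coeffMap ι F))) := by
  have e : (normPoly p F).map ((qExpand K p).comp (coeffMap ι)) =
      (conjProd F).map (coeffMap (evalRoot ι (rootChar hζ))) := by
    refine Polynomial.ext fun k => ?_
    rw [Polynomial.coeff_map, Polynomial.coeff_map, coeff_normPoly, RingHom.comp_apply,
      (isInvariant_coeff F k).coeffMap_evalRoot hζ]
  have hu : ∀ b, Units.map (evalRoot ι (rootChar hζ)).toMonoidHom (grp p R b) = rootUnit hζ b :=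
    fun b => Units.ext (by simp [grp_val, evalRoot_single, rootUnit, rootChar])
  have hi : (evalRoot ι (rootChar hζ)).comp groupIncl = ι :=
    RingHom.ext fun r => by simp [evalRoot_single, rootChar]
  rw [e, conjProd, Polynomial.map_prod]
  simp only [Polynomial.map_sub, map_X, map_C, coeffMap_twistU, hu, coeffMap_coeffMap, hi]

/-- Modulo `p`, `normPoly p F` is `T ^ p - F`. -/
theorem normPoly_congr (F : LaurentSeries R) (π : R →+* ZMod p) :
    (normPoly p F).map (coeffMap π) = X ^ p - Polynomial.C (coeffMap π F) := by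
  have : CharP (LaurentSeries (ZMod p)) p :=
    charP_of_injective_ringHom (HahnSeries.C_injective (Γ := ℤ) (R := ZMod p)) p
  have : CharP (LaurentSeries (ZMod p))[X] p :=
    charP_of_injective_ringHom (Polynomial.C_injective (R := LaurentSeries (ZMod p))) p
  refine Polynomial.map_injective (qExpand (ZMod p) p) (qExpand_injective p) ?_
  have e : ((normPoly p F).map (coeffMap π)).map (qExpand (ZMod p) p) =
      (conjProd F).map (coeffMap (evalRoot π (1 : Multiplicative (ZMod p) →* ZMod p))) := by
    refine Polynomial.ext fun k => ?_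
    rw [Polynomial.coeff_map, Polynomial.coeff_map, Polynomial.coeff_map, coeff_normPoly,
      (isInvariant_coeff F k).coeffMap_augment π]
  have hu : ∀ b, Units.map (evalRoot π (1 : Multiplicative (ZMod p) →* ZMod p)).toMonoidHom
      (grp p R b) = 1 := fun b => Units.ext (by simp [grp_val, evalRoot_single])
  have hi : (evalRoot π (1 : Multiplicative (ZMod p) →* ZMod p)).comp groupIncl = π :=
    RingHom.ext fun r => by simp [evalRoot_single]
  rw [e, conjProd, Polynomial.map_prod]
  simp only [Polynomial.map_sub, map_X, map_C, coeffMap_twistU, hu, coeffMap_coeffMap, hi,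
    twistU_one, Polynomial.map_pow]
  rw [Finset.prod_const, Finset.card_univ, ZMod.card, sub_pow_char, ← map_pow, pow_eq_qExpand]

end Norm

end Fermat.Agent.AtP
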