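import Mathlib.RingTheory.Localization.Away.Basic
import Fermat.Agent.KummerES.HeckeWeak
import Fermat.Agent.AtP.LambdaPConj
import Fermat.Agent.AtP.LambdaPNorm
import Fermat.Agent.AtP.LambdaRing

/-!
# The series of the conjugates of `g (p τ)` and of `g'(τ) / g'(p τ)`

`R2 = ℤ[1/2]`; every translate of `λ` has a unit series over `R2` with unit derivative.
-/

set_option autoImplicit false

noncomputable section

open UpperHalfPlane CongruenceSubgroup Polynomial
open scoped MatrixGroups Manifold Real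
open Fermat.Agent.KummerES ModularCurve

namespace Fermat.Agent.AtP

/-! ## `ℤ[1/2]` -/

/-- The map from the localisation of `ℤ` at `2` to `ℂ`. -/
def awayToC : Localization.Away (2 : ℤ) →+* ℂ :=
  IsLocalization.Away.lift (2 : ℤ) (g := Int.castRingHom ℂ) (by simp)

/-- `ℤ[1/2]` inside `ℂ`. -/
def B2 : Subring ℂ := awayToC.range

/-- `ℤ[1/2]`. -/
abbrev R2 : Type := B2

/-- The inclusion of `ℤ[1/2]` in `ℂ`. -/
abbrev iota2 : R2 →+* ℂ := B2.subtype

/-- The inclusion of `ℤ[1/2]` in `ℂ` is injective. -/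
lemma iota2_injective : Function.Injective iota2 := Subtype.val_injective

/-- The surjection of the localisation onto `ℤ[1/2]`. -/
def awayR2 : Localization.Away (2 : ℤ) →+* R2 := awayToC.rangeRestrict

/-- The map from the localisation onto `ℤ[1/2]` is surjective. -/
lemma awayR2_surjective : Function.Surjective awayR2 := awayToC.rangeRestrict_surjective

/-- The map from the localisation onto `ℤ[1/2]` is injective. -/
lemma awayR2_injective : Function.Injective awayR2 := by
  have hc : Function.Injective awayToC := by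
    rw [awayToC, IsLocalization.Away.lift, IsLocalization.lift_injective_iff]
    intro x y
    have hinj : Function.Injective (algebraMap ℤ (Localization.Away (2 : ℤ))) :=
      IsLocalization.injective _ (M := Submonoid.powers (2 : ℤ))
        (powers_le_nonZeroDivisors_of_noZeroDivisors two_ne_zero)
    exact ⟨fun h => congrArg _ (hinj h), fun h => congrArg _ (Int.cast_injective h)⟩
  exact fun x y h => hc (congrArg (Subtype.val : R2 → ℂ) h)

/-- Ring maps out of `ℤ[1/2]` are unique. -/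
lemma R2_ringHom_ext {A : Type*} [CommRing A] (f g : R2 →+* A) : f = g :=
  (RingHom.cancel_right awayR2_surjective).1
    (IsLocalization.ringHom_ext (Submonoid.powers (2 : ℤ)) (RingHom.ext_int _ _))

/-- `1/2` lies in `ℤ[1/2]`. -/
lemma inv_two_mem_B2 : (2 : ℂ)⁻¹ ∈ B2 := by
  refine ⟨IsLocalization.Away.invSelf (2 : ℤ), eq_inv_of_mul_eq_one_right ?_⟩
  have h := congrArg awayToC (IsLocalization.Away.mul_invSelf (S := Localization.Away (2 : ℤ)) (2 : ℤ))
  simpa [awayToC, map_ofNat] using h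

lemma isUnit_two_R2 : IsUnit (2 : R2) := by
  refine IsUnit.of_mul_eq_one ⟨_, inv_two_mem_B2⟩ (Subtype.ext ?_)
  show (2 : ℂ) * (2 : ℂ)⁻¹ = 1
  norm_num

lemma isUnit_sixteen_R2 : IsUnit (16 : R2) := by
  rw [show (16 : R2) = 2 ^ 4 by norm_num]
  exact isUnit_two_R2.pow 4

/-! ## Series over `ℤ[1/2]` -/

/-- Expansions with coefficients in `ℤ[1/2]`. -/
def Exp2 (L : ℕ) (f : ℍ → ℂ) (s : LaurentSeries R2) : Prop := HasExp L f (coeffMap iota2 s)

/-- Series over `R2` have coefficients in `ℤ[1/2]`. -/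
lemma coeffMap_mem_B2 (s : LaurentSeries R2) : coeffMap iota2 s ∈ coeffSubring B2 := fun i => by
  rw [coeffMap_coeff]; exact SetLike.coe_mem _

/-- Series over `ℤ[1/2]` inject into complex series. -/
lemma coeffMap_iota2_injective : Function.Injective (coeffMap iota2) := fun a b h => by
  ext i
  have := congrArg (fun t : LaurentSeries ℂ => t.coeff i) h
  simp only [coeffMap_coeff] at this
  exact this

/-- Integral series in `LaurentSeries ℤ[1/2]`. -/
def ofPS2 : PowerSeries ℤ →+* LaurentSeries R2 :=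
  (HahnSeries.ofPowerSeries ℤ R2).comp (PowerSeries.map (Int.castRingHom R2))

/-- The coefficients of nonnegative degree of `ofPS2`. -/
lemma ofPS2_coeff_natCast (s : PowerSeries ℤ) (n : ℕ) :
    (ofPS2 s).coeff (n : ℤ) = ((PowerSeries.coeff n s : ℤ) : R2) := by
  simp [ofPS2]

/-- `ofPS2` has no terms of negative degree. -/
lemma ofPS2_coeff_neg (s : PowerSeries ℤ) {i : ℤ} (hi : i < 0) : (ofPS2 s).coeff i = 0 := by
  simp only [ofPS2, RingHom.comp_apply, HahnSeries.ofPowerSeries_apply]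
  refine HahnSeries.embDomain_of_notMem_range ?_
  rintro ⟨n, rfl⟩
  simp at hi
  omega

lemma coeffMap_ofPS2 (s : PowerSeries ℤ) : coeffMap iota2 (ofPS2 s) = ofPS s := by
  ext i
  rw [coeffMap_coeff]
  rcases lt_or_ge i 0 with hi | hi
  · rw [ofPS_coeff_neg s hi, ofPS2_coeff_neg s hi, map_zero]
  · lift i to ℕ using hi
    rw [ofPS_coeff_natCast, ofPS2_coeff_natCast, map_intCast]

lemma isUnit_ofPS2 {s : PowerSeries ℤ} (hs : PowerSeries.constantCoeff s = 1) :
    IsUnit (ofPS2 s) :=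
  (PowerSeries.isUnit_iff_constantCoeff.2 (by rw [hs]; exact isUnit_one)).map ofPS2

lemma isUnit_ofPS2_X : IsUnit (ofPS2 PowerSeries.X) := by
  refine IsUnit.of_mul_eq_one (HahnSeries.single (-1 : ℤ) 1) ?_
  simp [ofPS2]

/-- The series of `λ` over `ℤ[1/2]`. -/
def l2 : LaurentSeries R2 := ofPS2 lamPS

/-- `l2` is the expansion of `λ`. -/
lemma exp2_l2 : Exp2 2 lam l2 := by
  unfold Exp2 l2
  rw [coeffMap_ofPS2]
  exact hasExp_lam

lemma isUnit_l2 : IsUnit l2 := by
  rw [l2, lamPS_eq, map_mul, map_mul, map_ofNat]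
  refine (IsUnit.mul ?_ isUnit_ofPS2_X).mul (isUnit_ofPS2 constantCoeff_wPS)
  rw [show (16 : LaurentSeries R2) = HahnSeries.C (16 : R2) from (map_ofNat _ 16).symm]
  exact isUnit_sixteen_R2.map _

lemma isUnit_one_sub_l2 : IsUnit (1 - l2) := by
  rw [l2, ← map_one ofPS2, ← map_sub]
  exact isUnit_ofPS2 (by simp [constantCoeff_lamPS])

lemma thetaOp_l2 : thetaOp R2 l2 = ofPS2 dlamPS :=
  coeffMap_iota2_injective (by
    rw [coeffMap_thetaOp, l2, coeffMap_ofPS2, thetaOp_lamPS, coeffMap_ofPS2])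

/-! ## The translates of `λ` -/

/-- A unit series with unit derivative. -/
structure IsGood (s : LaurentSeries R2) : Prop where
  unit : IsUnit s
  thetaUnit : IsUnit (thetaOp R2 s)

lemma thetaOp_one : thetaOp R2 1 = 0 := by
  have h := thetaOp_mul R2 1 1
  rw [mul_one, one_mul] at h
  linear_combination -h

/-- `θ` of the series of `λ` is a unit. -/
lemma isUnit_thetaOp_l2 : IsUnit (thetaOp R2 l2) := by
  rw [thetaOp_l2, dlamPS, map_mul, map_mul, map_sub, map_one]
  exact (isUnit_l2.mul isUnit_one_sub_l2).mul (isUnit_ofPS2 (by simp [thFPS, constantCoeff_th3PS]))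

lemma inv_aux {A : Type*} [CommRing A] (u : Aˣ) {a b : A} (h : 0 = ↑u * a + ↑u⁻¹ * b) :
    a = -(↑u⁻¹ ^ 2 * b) := by
  linear_combination (-(↑u⁻¹ : A)) * h - a * u.inv_mul

lemma div_aux {A : Type*} [CommRing A] (l u : Aˣ) (d : A) (h : (↑l : A) + ↑u = 1) :
    -(↑l * -(↑u⁻¹ ^ 2 * -d) + ↑u⁻¹ * d) = -(↑u⁻¹ ^ 2 * d) := by
  linear_combination (-(↑u⁻¹ ^ 2 * d)) * h + (↑u⁻¹ * d) * u.inv_mul

lemma sub_aux {A : Type*} [CommRing A] (l u : Aˣ) (d : A) (h : (↑l : A) + ↑u = 1) :
    -(↑u * -(↑l⁻¹ ^ 2 * d) + ↑l⁻¹ * -d) = ↑l⁻¹ ^ 2 * d := by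
  linear_combination (↑l⁻¹ ^ 2 * d) * h - (↑l⁻¹ * d) * l.inv_mul

lemma neg_aux {A : Type*} [CommRing A] (a b : A) : -(a * -b) = a * b := by ring

lemma isUnit_neg_mul {A : Type*} [CommRing A] {a b : A} (ha : IsUnit a) (hb : IsUnit b) :
    IsUnit (-(a * b)) := (ha.mul hb).neg

lemma thetaOp_inv (u : (LaurentSeries R2)ˣ) :
    thetaOp R2 (↑u⁻¹ : LaurentSeries R2) = -(↑u⁻¹ ^ 2 * thetaOp R2 ↑u) := by
  have h := thetaOp_mul R2 (↑u : LaurentSeries R2) ↑u⁻¹
  rw [Units.mul_inv, thetaOp_one] at h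
  exact inv_aux u h

lemma exp2_inv {f : ℍ → ℂ} (hf : ∀ τ, f τ ≠ 0) {u : (LaurentSeries R2)ˣ} (h : Exp2 2 f ↑u) :
    Exp2 2 (fun τ => (f τ)⁻¹) ↑u⁻¹ := by
  have h' : coeffMap iota2 ↑u * coeffMap iota2 ↑u⁻¹ = 1 := by
    rw [← map_mul, Units.mul_inv, map_one]
  have hh := HasExp.inv h hf (left_ne_zero_of_mul_eq_one h')
  rwa [inv_eq_of_mul_eq_one_right h'] at hh

/-- Every translate of `λ` has a good series over `ℤ[1/2]`. -/
theorem exists_good (δ : SL(2, ℤ)) : ∃ s, Exp2 2 (comp lam δ) s ∧ IsGood s := by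
  set l := isUnit_l2.unit with hl
  set u := isUnit_one_sub_l2.unit with hu
  have hlv : (↑l : LaurentSeries R2) = l2 := isUnit_l2.unit_spec
  have huv : (↑u : LaurentSeries R2) = 1 - l2 := isUnit_one_sub_l2.unit_spec
  have hθl : IsUnit (thetaOp R2 ↑l) := hlv ▸ isUnit_thetaOp_l2
  have hθu : thetaOp R2 ↑u = -thetaOp R2 ↑l := by
    rw [huv, hlv, map_sub, thetaOp_one, zero_sub]
  have hsum : (↑l : LaurentSeries R2) + ↑u = 1 := by rw [hlv, huv]; ring
  have el : Exp2 2 lam ↑l := hlv ▸ exp2_l2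
  have eu : Exp2 2 (fun τ => 1 - lam τ) ↑u := by
    unfold Exp2; rw [huv, map_sub, map_one]
    exact HasExp.one.sub exp2_l2
  have eli := exp2_inv lam_ne_zero el
  have eui := exp2_inv (fun τ => sub_ne_zero.2 (lam_ne_one τ).symm) eu
  have hli : IsUnit (↑l⁻¹ : LaurentSeries R2) := Units.isUnit _
  have hui : IsUnit (↑u⁻¹ : LaurentSeries R2) := Units.isUnit _
  rcases mob_cases (K := ℂ) δ with h | h | h | h | h | h <;>
    rw [comp_lam_eq] <;> simp only [h]
  · exact ⟨_, el, Units.isUnit _, hθl⟩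
  · exact ⟨_, eu, Units.isUnit _, hθu ▸ hθl.neg⟩
  · exact ⟨_, eli, hli, by rw [thetaOp_inv]; exact isUnit_neg_mul (hli.pow 2) hθl⟩
  · exact ⟨_, eui, hui, by rw [thetaOp_inv, hθu, neg_aux]; exact (hui.pow 2).mul hθl⟩
  · refine ⟨-(↑l * ↑u⁻¹), ?_, isUnit_neg_mul (Units.isUnit l) hui, ?_⟩
    · unfold Exp2 at el eui ⊢
      rw [map_neg, map_mul]
      convert (el.mul eui).neg using 1
      funext τ
      simp only [Pi.neg_apply, Pi.mul_apply, div_eq_mul_inv]
      rw [show lam τ - 1 = -(1 - lam τ) by ring, inv_neg]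
      ring
    · have e : thetaOp R2 (-(↑l * ↑u⁻¹)) = -(↑u⁻¹ ^ 2 * thetaOp R2 ↑l) := by
        rw [map_neg, thetaOp_mul, thetaOp_inv, hθu]
        exact div_aux l u _ hsum
      rw [e]; exact isUnit_neg_mul (hui.pow 2) hθl
  · refine ⟨-(↑u * ↑l⁻¹), ?_, isUnit_neg_mul (Units.isUnit u) hli, ?_⟩
    · unfold Exp2 at eu eli ⊢
      rw [map_neg, map_mul]
      convert (eu.mul eli).neg using 1
      funext τ
      simp only [Pi.neg_apply, Pi.mul_apply]
      rw [div_eq_mul_inv]
      ring
    · have e : thetaOp R2 (-(↑u * ↑l⁻¹)) = ↑l⁻¹ ^ 2 * thetaOp R2 ↑l := by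
        rw [map_neg, thetaOp_mul, thetaOp_inv, hθu]
        exact sub_aux l u _ hsum
      rw [e]; exact (hli.pow 2).mul hθl

/-! ## Expansions of symmetric functions -/

/-- The constant coefficient of `(X - a) q`. -/
lemma coeff_X_sub_C_mul_zero' {A : Type*} [CommRing A] (a : A) (q : A[X]) :
    ((X - C a) * q).coeff 0 = -(a * q.coeff 0) := by simp [sub_mul]

/-- The higher coefficients of `(X - a) q`. -/
lemma coeff_X_sub_C_mul_succ' {A : Type*} [CommRing A] (a : A) (q : A[X]) (k : ℕ) :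
    ((X - C a) * q).coeff (k + 1) = q.coeff k - a * q.coeff (k + 1) := by simp [sub_mul]

/-- The coefficients of a product of linear factors have expansions. -/
lemma hasExp_prod_coeff {L : ℕ} {α : Type*} [DecidableEq α] (T : Finset α) (f : α → ℍ → ℂ)
    (s : α → LaurentSeries ℂ) (h : ∀ a ∈ T, HasExp L (f a) (s a)) (k : ℕ) :
    HasExp L (fun τ => (∏ a ∈ T, (X - C (f a τ))).coeff k)
      ((∏ a ∈ T, (X - C (s a))).coeff k) := by
  induction T using Finset.induction_on generalizing k with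
  | empty =>
    simp only [Finset.prod_empty, coeff_one]
    split_ifs
    · exact HasExp.one
    · exact HasExp.zero
  | insert a T ha ih =>
    simp only [Finset.prod_insert ha]
    have hT : ∀ b ∈ T, HasExp L (f b) (s b) := fun b hb => h b (Finset.mem_insert_of_mem hb)
    have ha' := h a (Finset.mem_insert_self a T)
    cases k with
    | zero =>
      simp only [coeff_X_sub_C_mul_zero']
      exact (ha'.mul (ih hT 0)).neg
    | succ k =>
      simp only [coeff_X_sub_C_mul_succ']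
      exact (ih hT k).sub (ha'.mul (ih hT (k + 1)))

/-- Twisting by an `N`-th root of unity fixes series in `q ^ N`. -/
lemma twist_qExpand_eq {K : Type*} [Field K] {c : Kˣ} (N : ℕ) [NeZero N] (hc : c ^ N = 1)
    (s : LaurentSeries K) : twistU c (qExpand K N s) = qExpand K N s := by
  ext i
  rw [twistU_coeff]
  by_cases hi : (N : ℤ) ∣ i
  · obtain ⟨m, rfl⟩ := hi
    rw [zpow_mul, zpow_natCast, hc]
    simp
  · rw [qExpand_coeff_of_not_dvd _ _ hi, mul_zero]

variable {p : ℕ} [hp : Fact p.Prime]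

instance : NeZero p := ⟨hp.out.ne_zero⟩

variable (p) in
/-- The `ζ`-twists. -/
def zetaUnit (b : ZMod p) : ℂˣ := rootUnit (isPrimitiveRoot_zetaC p) b

/-- The units `zetaUnit p b` are `p`-th roots of unity. -/
lemma zetaUnit_pow (b : ZMod p) : zetaUnit p b ^ p = 1 := by
  refine Units.ext ?_
  rw [zetaUnit, Units.val_pow_eq_pow_val, rootUnit, Units.val_mk0, ← pow_mul, mul_comm, pow_mul,
    (isPrimitiveRoot_zetaC p).pow_eq_one, one_pow, Units.val_one]

lemma qL_conjMap_none (τ : ℍ) :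
    qL 2 (conjMap (none : Option (ZMod p)) τ) = 1 * qL 2 τ ^ p := by
  rw [one_mul, qL, qL, Function.Periodic.qParam, Function.Periodic.qParam, ← Complex.exp_nat_mul,
    coe_conjMap_none]
  congr 1
  ring

lemma qL_conjMap_some (b : ZMod p) (τ : ℍ) :
    qL 2 (conjMap (some b) τ) = zetaC p ^ b.val * qL (2 * p) τ ^ 1 := by
  rw [pow_one, qL, qL, zetaC, Function.Periodic.qParam, Function.Periodic.qParam,
    ← Complex.exp_nat_mul, ← Complex.exp_add, coe_conjMap_some]
  congr 1
  have : (p : ℂ) ≠ 0 := by exact_mod_cast hp.out.ne_zero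
  push_cast
  field_simp
  ring

/-- The expansion of `g (pτ)`. -/
lemma hasExp_comp_conjMap_none {g : ℍ → ℂ} {s : LaurentSeries ℂ} (h : HasExp 2 g s) :
    HasExp 2 (g ∘ conjMap (none : Option (ZMod p))) (qExpand ℂ p s) := by
  have := h.subst (conjMap (none : Option (ZMod p))) one_ne_zero p qL_conjMap_none
  convert this using 3
  ext i; simp

/-- The expansion of `g ((τ + 2b)/p)` is a twist. -/
lemma hasExp_comp_conjMap_some {g : ℍ → ℂ} {s : LaurentSeries ℂ} (h : HasExp 2 g s) (b : ZMod p) :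
    HasExp (2 * p) (g ∘ conjMap (some b)) (twistU (zetaUnit p b) s) := by
  have := h.subst (conjMap (some b)) (pow_ne_zero _ (zetaC_ne_zero p)) 1 (qL_conjMap_some b)
  rw [qExpand_one_apply] at this
  convert this using 2
  ext i
  simp [zetaUnit, rootUnit]

/-- A twist of a nonzero series is nonzero. -/
lemma coe_twistU_units (u : (LaurentSeries ℂ)) (c : ℂˣ) (h : u ≠ 0) : twistU c u ≠ 0 := fun h0 => h <| by
  have := congrArg (twistU c⁻¹) h0
  rwa [twistU_twistU, inv_mul_cancel, twistU_one, map_zero] at this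

/-- `dSlash` vanishes exactly where the derivative does. -/
lemma dSlash_ne_zero_iff {g : ℍ → ℂ} (τ : ℍ) :
    dSlash 2 g τ ≠ 0 ↔ deriv (g ∘ ofComplex) τ ≠ 0 := by
  simp [dSlash, Real.pi_ne_zero, Complex.I_ne_zero]

/-- The translates of `λ` have nowhere vanishing derivative. -/
lemma deriv_comp_lam_ne_zero (δ : SL(2, ℤ)) (τ : ℍ) :
    deriv (comp lam δ ∘ ofComplex) τ ≠ 0 := by
  have hδ : 0 < (δ : Matrix (Fin 2) (Fin 2) ℤ).det := by rw [δ.2]; norm_num
  have h1 := hasDerivAt_comp_posGL mdiff_lam δ.1 hδ τ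
  simp only [posGL_SL_smul δ hδ] at h1
  rw [show comp lam δ ∘ ofComplex = (fun w => lam (δ • w)) ∘ ofComplex from rfl, h1.deriv]
  refine mul_ne_zero (deriv_lam_ne_zero _) ?_
  have := denom_ne_zero_of_im (posGL δ.1 hδ) τ.im_ne_zero
  simp only [denom, posGL] at this
  rw [δ.2]
  simp only [Int.cast_one, ne_eq, div_eq_zero_iff, one_ne_zero, pow_eq_zero_iff two_ne_zero,
    false_or]
  simpa using this

variable (p)

/-- The polynomial of the series of the conjugates of `g (pτ)`. -/
def muSeries (σ : LaurentSeries R2) : (LaurentSeries R2)[X] :=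
  (X - C (qExpand R2 p σ)) * normPoly p σ

/-- The series of `g'(τ) / g'(pτ)`. -/
def vInf (σ : LaurentSeries R2) : LaurentSeries R2 :=
  thetaOp R2 σ * Ring.inverse (qExpand R2 p (thetaOp R2 σ))

/-- The series whose twists are those of the other conjugates. -/
def vBase (σ : LaurentSeries R2) : LaurentSeries R2 :=
  (p : LaurentSeries R2) ^ 2 * (qExpand R2 p (thetaOp R2 σ) * Ring.inverse (thetaOp R2 σ))

/-- The polynomial of the series of the conjugates of `g'(τ) / g'(pτ)`. -/
def vSeries (σ : LaurentSeries R2) : (LaurentSeries R2)[X] :=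
  (X - C (vInf p σ)) * normPoly p (vBase p σ)

variable {p}

/-- `qExpand` commutes with maps of coefficients. -/
lemma qExpand_coeffMap {A B : Type*} [CommRing A] [CommRing B] (f : A →+* B) (s : LaurentSeries A) :
    qExpand B p (coeffMap f s) = coeffMap f (qExpand A p s) :=
  (coeffMap_qExpand f p s).symm

/-- The roots of the series polynomials, at level `2 p`. -/
lemma series_map (a b : LaurentSeries R2) :
    ((X - C a) * normPoly p b).map ((qExpand ℂ p).comp (coeffMap iota2)) =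
      ∏ i : Option (ZMod p), (X - C (i.elim (qExpand ℂ p (coeffMap iota2 a))
        fun c => twistU (zetaUnit p c) (coeffMap iota2 b))) := by
  rw [Polynomial.map_mul, normPoly_map (isPrimitiveRoot_zetaC p), Fintype.prod_option,
    Polynomial.map_sub, Polynomial.map_X, Polynomial.map_C]
  rfl

/-- The expansions of the elementary symmetric functions of `muFun`. -/
theorem hasExp_muFun_coeff {g : ℍ → ℂ} {σ : LaurentSeries R2} (h : Exp2 2 g σ) (k : ℕ) :
    HasExp 2 (fun τ => (∏ i, (X - C (muFun p g i τ))).coeff k)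
      (coeffMap iota2 ((muSeries p σ).coeff k)) := by
  refine HasExp.of_qExpand p ?_
  have e : qExpand ℂ p (coeffMap iota2 ((muSeries p σ).coeff k)) =
      ((muSeries p σ).map ((qExpand ℂ p).comp (coeffMap iota2))).coeff k := by
    rw [Polynomial.coeff_map, RingHom.comp_apply]
  rw [e, muSeries, series_map]
  refine hasExp_prod_coeff _ (fun i => muFun p g i) _ (fun i _ => ?_) k
  cases i with
  | none =>
    rw [Option.elim_none, ← qExpand_coeffMap]
    exact (hasExp_comp_conjMap_none h).dilate p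
  | some b => exact hasExp_comp_conjMap_some h b

/-- A ring map to a field sends inverses of units to inverses. -/
lemma map_ringInverse {A B : Type*} [CommRing A] [Field B] (f : A →+* B) {a : A} (ha : IsUnit a) :
    f (Ring.inverse a) = (f a)⁻¹ := by
  refine eq_inv_of_mul_eq_one_right ?_
  rw [← map_mul, Ring.mul_inverse_cancel _ ha, map_one]

/-- The expansions of the elementary symmetric functions of `vFun`. -/
theorem hasExp_vFun_coeff {g : ℍ → ℂ} {σ : LaurentSeries R2} (hg : MDiff g) (h : Exp2 2 g σ)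
    (hd : ∀ τ : ℍ, deriv (g ∘ ofComplex) τ ≠ 0) (hθ : IsUnit (thetaOp R2 σ)) (k : ℕ) :
    HasExp 2 (fun τ => (∏ i, (X - C (vFun p g i τ))).coeff k)
      (coeffMap iota2 ((vSeries p σ).coeff k)) := by
  refine HasExp.of_qExpand p ?_
  have e : qExpand ℂ p (coeffMap iota2 ((vSeries p σ).coeff k)) =
      ((vSeries p σ).map ((qExpand ℂ p).comp (coeffMap iota2))).coeff k := by
    rw [Polynomial.coeff_map, RingHom.comp_apply]
  rw [e, vSeries, series_map]
  refine hasExp_prod_coeff _ (fun i => vFun p g i) _ (fun i _ => ?_) k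
  have hD : HasExp 2 (dSlash 2 g) (coeffMap iota2 (thetaOp R2 σ)) := by
    rw [coeffMap_thetaOp]; exact HasExp.dSlash h
  have hD0 : ∀ τ, dSlash 2 g τ ≠ 0 := fun τ => (dSlash_ne_zero_iff τ).2 (hd τ)
  set t := coeffMap iota2 (thetaOp R2 σ) with ht
  have ht0 : t ≠ 0 := (hθ.map (coeffMap iota2)).ne_zero
  cases i with
  | none =>
    have hq : qExpand ℂ p t ≠ 0 := (map_ne_zero_iff _ (qExpand_injective p)).2 ht0
    have h1 := (hD.mul ((hasExp_comp_conjMap_none hD).inv (fun τ => hD0 _) hq)).dilate p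
    rw [show vFun p g none = fun τ => dSlash 2 g τ *
        ((dSlash 2 g ∘ conjMap (none : Option (ZMod p))) τ)⁻¹ from
      funext fun τ => (vFun_none hg τ).trans (div_eq_mul_inv _ _)]
    refine Eq.mp ?_ h1
    rw [Option.elim_none, vInf, map_mul (coeffMap iota2),
      map_ringInverse _ (hθ.map (qExpand R2 p)), ← qExpand_coeffMap]
    rfl
  | some b =>
    have hw := coe_twistU_units t (zetaUnit p b) ht0
    have h1 := (HasExp.const (L := 2 * p) ((p : ℂ) ^ 2)).mul
      ((hD.dilate p).mul ((hasExp_comp_conjMap_some hD b).inv (fun τ => hD0 _) hw))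
    rw [show vFun p g (some b) = fun τ => (p : ℂ) ^ 2 * (dSlash 2 g τ *
        ((dSlash 2 g ∘ conjMap (some b)) τ)⁻¹) from
      funext fun τ => (vFun_some hg b τ).trans (by rw [div_eq_mul_inv]; rfl)]
    have e2 : twistU (zetaUnit p b) (coeffMap iota2 (vBase p σ)) =
        HahnSeries.single (0 : ℤ) ((p : ℂ) ^ 2) * (qExpand ℂ p t * (twistU (zetaUnit p b) t)⁻¹) := by
      have hc : twistU (zetaUnit p b) (coeffMap iota2 ((p : LaurentSeries R2) ^ 2)) =
          HahnSeries.single (0 : ℤ) ((p : ℂ) ^ 2) := by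
        rw [map_pow, map_natCast, map_pow, map_natCast,
          ← map_natCast (HahnSeries.C (Γ := ℤ) (R := ℂ)), ← map_pow]
        rfl
      rw [vBase, map_mul, map_mul, hc, map_mul, map_mul, map_ringInverse _ hθ, map_inv₀,
        ← qExpand_coeffMap, twist_qExpand_eq p (zetaUnit_pow b)]
    rw [Option.elim_some, e2]
    exact h1

end Fermat.Agent.AtP
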