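import Fermat.Agent.KummerES.RatioExp
import Fermat.Agent.AtP.LambdaPSeries

/-!
# The modular polynomial of `λ (p τ)` and the polynomial of `λ'(τ) / λ'(p τ)`

Both have coefficients in `ℤ[1/2][λ]`; their images at the cusp `∞` are products of explicit series.
-/

set_option autoImplicit false

noncomputable section

open UpperHalfPlane CongruenceSubgroup Polynomial
open scoped MatrixGroups Manifold Real
open Fermat.Agent.KummerES ModularCurve

namespace Fermat.Agent.AtP

/-- Evaluation of a polynomial in two variables (inner variable at `x`, outer at `y`). -/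
def ev2 {A K : Type*} [CommRing A] [CommRing K] (φ : A →+* K) (x y : K) : A[X][X] →+* K :=
  eval₂RingHom (eval₂RingHom φ x) y

/-- Evaluation in two variables as an iterated evaluation. -/
lemma ev2_eq_eval {A K : Type*} [CommRing A] [CommRing K] (φ : A →+* K) (x y : K) (P : A[X][X]) :
    ev2 φ x y P = (P.map (eval₂RingHom φ x)).eval y :=
  (eval_map _ _).symm

variable {p : ℕ} [hp : Fact p.Prime]

/-- The elementary symmetric functions of a family. -/
def symFun (F : Option (ZMod p) → ℍ → ℂ) (k : ℕ) : ℍ → ℂ :=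
  fun τ => (∏ i, (X - C (F i τ))).coeff k

lemma symFun_comp_bij (F : Option (ZMod p) → ℍ → ℂ) {pr : Option (ZMod p) → Option (ZMod p)}
    (h : Function.Bijective pr) (k : ℕ) : symFun (fun i => F (pr i)) k = symFun F k := by
  funext τ
  exact congrArg (fun P => Polynomial.coeff P k)
    (Fintype.prod_bijective pr h (fun i => X - C (F (pr i) τ)) (fun i => X - C (F i τ)) fun _ => rfl)

lemma symFun_top (F : Option (ZMod p) → ℍ → ℂ) (τ : ℍ) : symFun F (p + 1) τ = 1 := by
  have h := monic_prod_X_sub_C (fun i => F i τ) Finset.univ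
  have hd := natDegree_finsetProd_X_sub_C_eq_card (Finset.univ : Finset (Option (ZMod p)))
    (fun i => F i τ)
  rw [Finset.card_univ, Fintype.card_option, ZMod.card] at hd
  have := h.coeff_natDegree
  rwa [hd] at this

lemma symFun_gt (F : Option (ZMod p) → ℍ → ℂ) {k : ℕ} (hk : p + 1 < k) (τ : ℍ) :
    symFun F k τ = 0 := by
  refine coeff_eq_zero_of_natDegree_lt ?_
  rwa [natDegree_finsetProd_X_sub_C_eq_card, Finset.card_univ, Fintype.card_option, ZMod.card]

lemma deriv_comp_lam_one_ne_zero (τ : ℍ) : deriv (lam ∘ ofComplex) τ ≠ 0 := deriv_lam_ne_zero τ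

/-- The expansion of a translated coefficient function, for both families. -/
lemma exists_exp_symFun (hp2 : p ≠ 2) (k : ℕ) (δ : SL(2, ℤ)) :
    ∃ σ, Exp2 2 (comp lam δ) σ ∧
      HasExp 2 (comp (symFun (muFun p lam) k) δ) (coeffMap iota2 ((muSeries p σ).coeff k)) ∧
      HasExp 2 (comp (symFun (vFun p lam) k) δ) (coeffMap iota2 ((vSeries p σ).coeff k)) := by
  obtain ⟨σ, hσ, hgood⟩ := exists_good δ
  obtain ⟨pr, hpr, hmu, hv⟩ := comp_muFun hp2 δ
  refine ⟨σ, hσ, ?_, ?_⟩
  · rw [show comp (symFun (muFun p lam) k) δ = symFun (fun i => comp (muFun p lam i) δ) k from rfl,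
      funext hmu, symFun_comp_bij (muFun p (comp lam δ)) hpr]
    exact hasExp_muFun_coeff hσ k
  · rw [show comp (symFun (vFun p lam) k) δ = symFun (fun i => comp (vFun p lam i) δ) k from rfl,
      funext hv, symFun_comp_bij (vFun p (comp lam δ)) hpr]
    exact hasExp_vFun_coeff (mdiff_comp_lam δ) hσ (deriv_comp_lam_ne_zero δ) hgood.thetaUnit k

lemma comp_symFun_of_mem_Gamma (hp2 : p ≠ 2) {γ : SL(2, ℤ)} (hγ : γ ∈ Gamma 2) (k : ℕ) :
    comp (symFun (muFun p lam) k) γ = symFun (muFun p lam) k ∧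
      comp (symFun (vFun p lam) k) γ = symFun (vFun p lam) k := by
  obtain ⟨pr, hpr, hmu, hv⟩ := comp_muFun hp2 γ
  rw [comp_lam_of_mem_Gamma hγ] at hmu hv
  constructor
  · rw [show comp (symFun (muFun p lam) k) γ = symFun (fun i => comp (muFun p lam i) γ) k from rfl,
      funext hmu, symFun_comp_bij (muFun p lam) hpr]
  · rw [show comp (symFun (vFun p lam) k) γ = symFun (fun i => comp (vFun p lam i) γ) k from rfl,
      funext hv, symFun_comp_bij (vFun p lam) hpr]

theorem symFun_mem_weak (hp2 : p ≠ 2) (k : ℕ) :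
    symFun (muFun p lam) k ∈ weak (Gamma 2) 2 B2 ∧
      symFun (vFun p lam) k ∈ weak (Gamma 2) 2 B2 := by
  obtain ⟨σ, -, h1, h2⟩ := exists_exp_symFun (p := p) hp2 k 1
  rw [comp_one] at h1 h2
  refine ⟨⟨h1.mdiff, fun γ hγ => (comp_symFun_of_mem_Gamma hp2 hγ k).1, fun δ => ?_⟩,
    ⟨h2.mdiff, fun γ hγ => (comp_symFun_of_mem_Gamma hp2 hγ k).2, fun δ => ?_⟩⟩ <;>
    obtain ⟨σ, -, h1, h2⟩ := exists_exp_symFun (p := p) hp2 k δ
  · exact ⟨_, coeffMap_mem_B2 _, h1⟩
  · exact ⟨_, coeffMap_mem_B2 _, h2⟩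

/-! ## Regularity of the coefficients for `λ (p τ)` -/

/-- The subring of series without terms of negative degree. -/
def regSubring : Subring (LaurentSeries ℂ) := (HahnSeries.ofPowerSeries ℤ ℂ).range

lemma mem_regSubring {s : LaurentSeries ℂ} : s ∈ regSubring ↔ IsRegularSeries s := by
  constructor
  · rintro ⟨t, rfl⟩ i hi
    rw [HahnSeries.ofPowerSeries_apply]
    refine HahnSeries.embDomain_of_notMem_range ?_
    rintro ⟨n, rfl⟩
    simp at hi
    omega
  · intro h
    refine ⟨PowerSeries.mk fun n => s.coeff (n : ℤ), ?_⟩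
    ext i
    rcases lt_or_ge i 0 with hi | hi
    · rw [h i hi, HahnSeries.ofPowerSeries_apply]
      refine HahnSeries.embDomain_of_notMem_range ?_
      rintro ⟨n, rfl⟩
      simp at hi
      omega
    · lift i to ℕ using hi
      simp

lemma isRegularSeries_twistU {c : ℂˣ} {s : LaurentSeries ℂ} (h : IsRegularSeries s) :
    IsRegularSeries (twistU c s) := fun i hi => by simp [h i hi]

lemma isRegularSeries_qExpand (N : ℕ) [NeZero N] {s : LaurentSeries ℂ} (h : IsRegularSeries s) :
    IsRegularSeries (qExpand ℂ N s) := fun i hi => by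
  by_cases hd : (N : ℤ) ∣ i
  · obtain ⟨m, rfl⟩ := hd
    rw [qExpand_coeff_mul]
    exact h m (by nlinarith [(Nat.cast_pos.2 (Nat.pos_of_ne_zero (NeZero.ne N)) : (0 : ℤ) < N)])
  · exact qExpand_coeff_of_not_dvd _ _ hd

lemma coeff_prod_mem {A α : Type*} [CommRing A] (S : Subring A) (T : Finset α) (s : α → A)
    (h : ∀ a ∈ T, s a ∈ S) (k : ℕ) : (∏ a ∈ T, (X - C (s a))).coeff k ∈ S := by
  classical
  induction T using Finset.induction_on generalizing k with
  | empty =>
    simp only [Finset.prod_empty, coeff_one]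
    split_ifs
    · exact one_mem _
    · exact zero_mem _
  | insert a T ha ih =>
    have hT : ∀ b ∈ T, s b ∈ S := fun b hb => h b (Finset.mem_insert_of_mem hb)
    have ha' := h a (Finset.mem_insert_self a T)
    rw [Finset.prod_insert ha]
    cases k with
    | zero => rw [coeff_X_sub_C_mul_zero']; exact neg_mem (mul_mem ha' (ih hT 0))
    | succ k =>
      rw [coeff_X_sub_C_mul_succ']
      exact sub_mem (ih hT k) (mul_mem ha' (ih hT (k + 1)))

lemma isRegularSeries_muSeries {σ : LaurentSeries R2}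
    (h : IsRegularSeries (coeffMap iota2 σ)) (k : ℕ) :
    IsRegularSeries (coeffMap iota2 ((muSeries p σ).coeff k)) := by
  have key : IsRegularSeries (qExpand ℂ p (coeffMap iota2 ((muSeries p σ).coeff k))) := by
    rw [show qExpand ℂ p (coeffMap iota2 ((muSeries p σ).coeff k)) =
      ((muSeries p σ).map ((qExpand ℂ p).comp (coeffMap iota2))).coeff k by
        rw [Polynomial.coeff_map, RingHom.comp_apply], muSeries, series_map, ← mem_regSubring]
    refine coeff_prod_mem _ _ _ (fun i _ => mem_regSubring.2 ?_) k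
    cases i with
    | none =>
      rw [Option.elim_none, ← qExpand_coeffMap]
      exact isRegularSeries_qExpand p (isRegularSeries_qExpand p h)
    | some b => exact isRegularSeries_twistU h
  intro i hi
  have := key ((p : ℤ) * i) (by nlinarith [(Nat.cast_pos.2 hp.out.pos : (0 : ℤ) < p)])
  rwa [qExpand_coeff_mul] at this

theorem regular_symFun_muFun (hp2 : p ≠ 2) (k : ℕ) {δ : SL(2, ℤ)} {s0 : PowerSeries ℤ}
    (hδ : HasExp 2 (comp lam δ) (ofPS s0)) {s : LaurentSeries ℂ}
    (hs : HasExp 2 (comp (symFun (muFun p lam) k) δ) s) : IsRegularSeries s := by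
  obtain ⟨σ, hσ, h1, -⟩ := exists_exp_symFun (p := p) hp2 k δ
  rw [hs.series_eq h1]
  refine isRegularSeries_muSeries ?_ k
  rw [hσ.series_eq hδ]
  exact isRegularSeries_ofPS s0

/-- The coefficients of the modular polynomial are polynomials in `λ`. -/
theorem exists_symFun_muFun_eq (hp2 : p ≠ 2) (k : ℕ) :
    ∃ R : R2[X], ∀ τ, symFun (muFun p lam) k τ = R.eval₂ iota2 (lam τ) := by
  refine exists_polynomial inv_two_mem_B2 (symFun_mem_weak (p := p) hp2 k).1 (fun s hs => ?_)
    fun s hs => ?_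
  · exact regular_symFun_muFun hp2 k (δ := 1) (s0 := lamPS) (by rw [comp_one]; exact hasExp_lam)
      (by rwa [comp_one])
  · refine regular_symFun_muFun hp2 k (δ := ModularGroup.S) (s0 := 1 - lamPS) ?_ hs
    rw [comp_lam_eq]
    simp only [mob_S]
    exact hasExp_one_sub_lam

/-! ## Assembling the polynomials -/

omit hp in
lemma exists_monicPoly {f : ℕ → ℍ → ℂ} (h : ∀ k, ∃ R : R2[X], ∀ τ, f k τ = R.eval₂ iota2 (lam τ))
    (ht : ∀ τ, f (p + 1) τ = 1) (hg : ∀ k, p + 1 < k → ∀ τ, f k τ = 0) :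
    ∃ P : R2[X][X], P.Monic ∧ P.natDegree = p + 1 ∧
      ∀ k τ, (P.map (eval₂RingHom iota2 (lam τ))).coeff k = f k τ := by
  choose R hR using h
  have hlt : (∑ k ∈ Finset.range (p + 1), monomial k (R k) : R2[X][X]).degree < (p + 1 : ℕ) :=
    (degree_sum_le _ _).trans_lt ((Finset.sup_lt_iff (WithBot.bot_lt_coe _)).2 fun k hk =>
      (degree_monomial_le _ _).trans_lt (Nat.cast_lt.2 (Finset.mem_range.1 hk)))
  refine ⟨X ^ (p + 1) + ∑ k ∈ Finset.range (p + 1), monomial k (R k), monic_X_pow_add hlt, ?_,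
    fun k τ => ?_⟩
  · rw [natDegree_add_eq_left_of_degree_lt (by rwa [degree_X_pow]), natDegree_X_pow]
  · rw [Polynomial.coeff_map, coeff_add, finsetSum_coeff, coeff_X_pow]
    simp only [coeff_monomial, Finset.sum_ite_eq', Finset.mem_range]
    rcases lt_trichotomy k (p + 1) with hk | rfl | hk
    · rw [if_neg hk.ne, if_pos hk, zero_add, coe_eval₂RingHom, hR]
    · simp [ht]
    · rw [if_neg hk.ne', if_neg (not_lt.2 hk.le), add_zero, map_zero, hg k hk]

variable (p) in
/-- The defining property of the modular polynomial. -/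
def IsLamPoly (P : R2[X][X]) : Prop :=
  P.Monic ∧ P.natDegree = p + 1 ∧
    ∀ τ, P.map (eval₂RingHom iota2 (lam τ)) = ∏ i, (X - C (muFun p lam i τ))

open Classical in
variable (p) in
/-- The modular polynomial of `λ (pτ)` over `λ (τ)`. -/
def lamPoly : R2[X][X] := if h : ∃ P, IsLamPoly p P then h.choose else 0

theorem isLamPoly_lamPoly (hp2 : p ≠ 2) : IsLamPoly p (lamPoly p) := by
  have h : ∃ P, IsLamPoly p P := by
    obtain ⟨P, h1, h2, h3⟩ := exists_monicPoly (p := p) (exists_symFun_muFun_eq hp2)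
      (symFun_top _) fun k hk => symFun_gt _ hk
    exact ⟨P, h1, h2, fun τ => Polynomial.ext fun k => h3 k τ⟩
  rw [lamPoly, dif_pos h]
  exact h.choose_spec

/-- The modular polynomial is monic. -/
theorem lamPoly_monic (hp2 : p ≠ 2) : (lamPoly p).Monic := (isLamPoly_lamPoly hp2).1

/-- The modular polynomial has degree `p + 1`. -/
theorem natDegree_lamPoly (hp2 : p ≠ 2) : (lamPoly p).natDegree = p + 1 :=
  (isLamPoly_lamPoly hp2).2.1

/-- The roots of the modular polynomial are the conjugates of `λ (pτ)`. -/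
theorem lamPoly_roots (hp2 : p ≠ 2) (τ : ℍ) :
    (lamPoly p).map (eval₂RingHom iota2 (lam τ)) = ∏ i, (X - C (muFun p lam i τ)) :=
  (isLamPoly_lamPoly hp2).2.2 τ

/-- Each conjugate of `λ (pτ)` is a root of the modular polynomial. -/
theorem ev2_lamPoly_muFun (hp2 : p ≠ 2) (i : Option (ZMod p)) (τ : ℍ) :
    ev2 iota2 (lam τ) (muFun p lam i τ) (lamPoly p) = 0 := by
  rw [ev2_eq_eval, lamPoly_roots hp2, eval_prod]
  exact Finset.prod_eq_zero (Finset.mem_univ i) (by simp)

/-- Polynomials in `λ` have the obvious expansions. -/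
lemma hasExp_eval_lam (R : R2[X]) :
    HasExp 2 (fun τ => R.eval₂ iota2 (lam τ)) (coeffMap iota2 (R.eval₂ HahnSeries.C l2)) := by
  induction R using Polynomial.induction_on' with
  | add P Q hP hQ =>
    simp only [eval₂_add, map_add]
    exact hP.add hQ
  | monomial n a =>
    simp only [eval₂_monomial, map_mul, map_pow]
    have hc : HasExp 2 (fun _ => iota2 a) (coeffMap iota2 (HahnSeries.C a)) := by
      have e : coeffMap iota2 (HahnSeries.C a) = HahnSeries.single (0 : ℤ) (iota2 a) := by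
        ext i
        rcases eq_or_ne i 0 with rfl | hi <;> simp [*, HahnSeries.C]
      rw [e]
      exact HasExp.const _
    exact hc.mul (HasExp.pow exp2_l2 n)

/-- An identity of functions between polynomials in `λ` gives the identity of series. -/
lemma eval_l2_eq {R : R2[X]} {f : ℍ → ℂ} {s : LaurentSeries R2} (h : Exp2 2 f s)
    (hR : ∀ τ, R.eval₂ iota2 (lam τ) = f τ) : R.eval₂ HahnSeries.C l2 = s := by
  refine coeffMap_iota2_injective ((hasExp_eval_lam R).series_eq ?_)
  rw [funext hR]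
  exact h

/-- The modular polynomial at `∞` is the product over the series of the conjugates. -/
theorem lamPoly_series (hp2 : p ≠ 2) :
    (lamPoly p).map (eval₂RingHom HahnSeries.C l2) = muSeries p l2 := by
  refine Polynomial.ext fun k => ?_
  rw [Polynomial.coeff_map, coe_eval₂RingHom]
  refine eval_l2_eq (f := symFun (muFun p lam) k) (hasExp_muFun_coeff exp2_l2 k) fun τ => ?_
  rw [symFun, ← lamPoly_roots hp2, Polynomial.coeff_map, coe_eval₂RingHom]

/-! ## `λ'(τ) / λ'(pτ)` -/

lemma exists_inv_clear {A K : Type*} [CommRing A] [Field K] (φ : A →+* K) (P : A[X]) {n : ℕ}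
    (hn : P.natDegree ≤ n) :
    ∃ Q : A[X], ∀ x : K, x ≠ 0 → Q.eval₂ φ x = x ^ n * P.eval₂ φ x⁻¹ := by
  refine ⟨∑ i ∈ Finset.range (n + 1), C (P.coeff i) * X ^ (n - i), fun x hx => ?_⟩
  rw [eval₂_eq_sum_range' φ (Nat.lt_succ_of_le hn), Finset.mul_sum, eval₂_finsetSum]
  refine Finset.sum_congr rfl fun i hi => ?_
  rw [eval₂_mul, eval₂_C, eval₂_X_pow, pow_sub₀ x hx (Nat.lt_succ_iff.1 (Finset.mem_range.1 hi)),
    inv_pow]
  ring

lemma exists_clear_den {f : ℍ → ℂ} (hf : f ∈ weak (Gamma 2) 2 B2) :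
    ∃ N, ∀ n ≥ N, ∃ R : R2[X],
      ∀ τ, R.eval₂ iota2 (lam τ) = (lam τ * (1 - lam τ)) ^ n * f τ := by
  obtain ⟨P, Q, R, h⟩ := exists_partialFractions inv_two_mem_B2 hf
  refine ⟨max P.natDegree Q.natDegree, fun n hn => ?_⟩
  obtain ⟨P', hP⟩ := exists_inv_clear iota2 P (le_trans (le_max_left _ _) hn)
  obtain ⟨Q', hQ⟩ := exists_inv_clear iota2 Q (le_trans (le_max_right _ _) hn)
  refine ⟨(1 - X) ^ n * P' + X ^ n * Q'.comp (1 - X) + (X * (1 - X)) ^ n * R, fun τ => ?_⟩
  simp only [eval₂_add, eval₂_mul, eval₂_pow, eval₂_sub, eval₂_one, eval₂_X, eval₂_comp]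
  rw [hP _ (lam_ne_zero τ), hQ _ (sub_ne_zero.2 (lam_ne_one τ).symm), h τ, mul_pow]
  ring

variable (p) in
/-- The defining property of the polynomial of `λ'(τ)/λ'(pτ)`. -/
def IsVPoly (n : ℕ) (P : R2[X][X]) : Prop :=
  P.natDegree ≤ p + 1 ∧ P.coeff (p + 1) = (X * (1 - X)) ^ n ∧
    ∀ τ, P.map (eval₂RingHom iota2 (lam τ)) =
      C ((lam τ * (1 - lam τ)) ^ n) * ∏ i, (X - C (vFun p lam i τ))

/-- A polynomial for `λ'(τ)/λ'(pτ)` exists. -/
theorem exists_vPoly (hp2 : p ≠ 2) : ∃ n P, IsVPoly p n P := by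
  choose N hN using fun k => exists_clear_den (symFun_mem_weak (p := p) hp2 k).2
  refine ⟨∑ k ∈ Finset.range (p + 1), N k, ?_⟩
  set n := ∑ k ∈ Finset.range (p + 1), N k
  choose R hR using fun (k : ℕ) (hk : k ∈ Finset.range (p + 1)) =>
    hN k n (Finset.single_le_sum (fun i _ => Nat.zero_le (N i)) hk)
  let P : R2[X][X] := monomial (p + 1) ((X * (1 - X)) ^ n) +
    ∑ k ∈ (Finset.range (p + 1)).attach, monomial k.1 (R k.1 k.2)
  have hc : ∀ k, P.coeff k = (if p + 1 = k then (X * (1 - X)) ^ n else 0) +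
      if hk : k ∈ Finset.range (p + 1) then R k hk else 0 := fun k => by
    simp only [P, coeff_add, coeff_monomial, finsetSum_coeff]
    congr 1
    split_ifs with hk
    · rw [Finset.sum_eq_single ⟨k, hk⟩]
      · simp
      · exact fun b _ hb => if_neg fun h => hb (Subtype.ext h)
      · simp
    · exact Finset.sum_eq_zero fun b _ => if_neg (fun h : b.1 = k => hk (h ▸ b.2))
  refine ⟨P, natDegree_le_iff_coeff_eq_zero.2 fun k hk => ?_, ?_, fun τ => ?_⟩
  · rw [hc, if_neg hk.ne, dif_neg (by rw [Finset.mem_range]; omega), add_zero]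
  · rw [hc, if_pos rfl, dif_neg (by simp), add_zero]
  · refine Polynomial.ext fun k => ?_
    rw [Polynomial.coeff_map, coeff_C_mul, coe_eval₂RingHom, hc]
    change _ = _ * symFun (vFun p lam) k τ
    rcases lt_trichotomy k (p + 1) with hk | rfl | hk
    · rw [if_neg hk.ne', dif_pos (Finset.mem_range.2 hk), zero_add, hR]
    · rw [if_pos rfl, dif_neg (by simp), add_zero, symFun_top, mul_one, eval₂_pow, eval₂_mul,
        eval₂_sub, eval₂_one, eval₂_X]
    · rw [if_neg hk.ne, dif_neg (by rw [Finset.mem_range]; omega), add_zero, eval₂_zero,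
        symFun_gt _ hk, mul_zero]

open Classical in
variable (p) in
/-- The exponent clearing the denominators of `vPoly`. -/
def ordExp : ℕ := if h : ∃ n P, IsVPoly p n P then h.choose else 0

open Classical in
variable (p) in
/-- The polynomial of `λ'(τ)/λ'(pτ)` over `ℤ[1/2][λ]`. -/
def vPoly : R2[X][X] := if h : ∃ P, IsVPoly p (ordExp p) P then h.choose else 0

/-- `vPoly` has the defining property. -/
theorem isVPoly_vPoly (hp2 : p ≠ 2) : IsVPoly p (ordExp p) (vPoly p) := by
  have h : ∃ n P, IsVPoly p n P := exists_vPoly hp2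
  have h' : ∃ P, IsVPoly p (ordExp p) P := by
    rw [ordExp, dif_pos h]
    exact h.choose_spec
  rw [vPoly, dif_pos h']
  exact h'.choose_spec

theorem vPoly_roots (hp2 : p ≠ 2) (τ : ℍ) :
    (vPoly p).map (eval₂RingHom iota2 (lam τ)) =
      C ((lam τ * (1 - lam τ)) ^ ordExp p) * ∏ i, (X - C (vFun p lam i τ)) :=
  (isVPoly_vPoly hp2).2.2 τ

/-- Each conjugate of `λ'(τ)/λ'(pτ)` is a root of `vPoly`. -/
theorem ev2_vPoly_vFun (hp2 : p ≠ 2) (i : Option (ZMod p)) (τ : ℍ) :
    ev2 iota2 (lam τ) (vFun p lam i τ) (vPoly p) = 0 := by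
  rw [ev2_eq_eval, vPoly_roots hp2, eval_mul, eval_prod,
    Finset.prod_eq_zero (Finset.mem_univ i) (by simp), mul_zero]

/-- `vPoly` at `∞` is a scaled product over the series of the conjugates. -/
theorem vPoly_series (hp2 : p ≠ 2) :
    (vPoly p).map (eval₂RingHom HahnSeries.C l2) =
      C ((l2 * (1 - l2)) ^ ordExp p) * vSeries p l2 := by
  refine Polynomial.ext fun k => ?_
  rw [Polynomial.coeff_map, coeff_C_mul, coe_eval₂RingHom]
  refine eval_l2_eq (f := fun τ => (lam τ * (1 - lam τ)) ^ ordExp p * symFun (vFun p lam) k τ)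
    ?_ fun τ => ?_
  · unfold Exp2
    rw [map_mul, map_pow, map_mul, map_sub, map_one]
    have hθ : IsUnit (thetaOp R2 l2) := isUnit_thetaOp_l2
    exact ((exp2_l2.mul (HasExp.one.sub exp2_l2)).pow _).mul
      (hasExp_vFun_coeff mdiff_lam exp2_l2 deriv_comp_lam_one_ne_zero hθ k)
  · rw [symFun, ← coeff_C_mul, ← vPoly_roots hp2, Polynomial.coeff_map, coe_eval₂RingHom]

end Fermat.Agent.AtP
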