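import Fermat.Agent.AtP.LambdaPKey
import Fermat.Agent.AtP.LambdaPModular

/-!
# The Kronecker congruence at level `(2, p)` and the supersingular points

`lamPoly = (X^p - Y)(X - Y^p) + p * lamH`, `vPoly ≡ (X(1-X))^n Y^(p+1) - ordPoly * Y^p`, and at a
zero `x ≠ 0, 1` of `ordPoly`: `x^(p²) = x` and `lamH (x, x^p) ≠ 0`.
-/

set_option autoImplicit false

noncomputable section

open UpperHalfPlane CongruenceSubgroup Polynomial
open scoped MatrixGroups Manifold Real
open Fermat.Agent.KummerES ModularCurve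

namespace Fermat.Agent.AtP

variable {p : ℕ} [hp : Fact p.Prime]

lemma isUnit_two_zmod (hp2 : p ≠ 2) : IsUnit ((2 : ℤ) : ZMod p) := by
  refine IsUnit.mk0 _ fun h0 => ?_
  rw [Int.cast_ofNat] at h0
  have : ((2 : ℕ) : ZMod p) = 0 := by exact_mod_cast h0
  rw [ZMod.natCast_eq_zero_iff] at this
  exact hp2 ((Nat.prime_dvd_prime_iff_eq hp.out Nat.prime_two).1 this)

/-- Reduction of the localisation modulo `p`. -/
def awayRed (hp2 : p ≠ 2) : Localization.Away (2 : ℤ) →+* ZMod p :=
  IsLocalization.Away.lift (2 : ℤ) (g := Int.castRingHom (ZMod p)) (isUnit_two_zmod hp2)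

/-- Reduction of `ℤ[1/2]` modulo `p`. -/
def red2 (hp2 : p ≠ 2) : R2 →+* ZMod p :=
  (awayRed hp2).comp (RingEquiv.ofBijective awayR2 ⟨awayR2_injective, awayR2_surjective⟩).symm.toRingHom

lemma red2_awayR2 (hp2 : p ≠ 2) (z : Localization.Away (2 : ℤ)) :
    red2 hp2 (awayR2 z) = awayRed hp2 z :=
  congrArg (awayRed hp2)
    ((RingEquiv.ofBijective awayR2 ⟨awayR2_injective, awayR2_surjective⟩).symm_apply_apply z)

/-- The kernel of `red2` is generated by `p`. -/
lemma natCast_dvd_of_red2_eq_zero (hp2 : p ≠ 2) {r : R2} (h : red2 hp2 r = 0) : (p : R2) ∣ r := by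
  obtain ⟨z, rfl⟩ := awayR2_surjective r
  rw [red2_awayR2] at h
  obtain ⟨a, s, rfl⟩ := IsLocalization.exists_mk'_eq (Submonoid.powers (2 : ℤ)) z
  rw [awayRed, IsLocalization.Away.lift, IsLocalization.lift_mk', Units.mul_inv_eq_iff_eq_mul,
    zero_mul] at h
  rw [eq_intCast, ZMod.intCast_zmod_eq_zero_iff_dvd] at h
  obtain ⟨b, rfl⟩ := h
  exact ⟨awayR2 (IsLocalization.mk' _ b s), by
    rw [← map_natCast awayR2, ← map_mul, ← map_natCast (algebraMap ℤ (Localization.Away (2 : ℤ))),
      IsLocalization.mul_mk'_eq_mk'_of_mul]⟩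

/-- Coefficientwise divisibility in two variables. -/
lemma C_C_dvd_of_map_eq_zero (hp2 : p ≠ 2) {P : R2[X][X]}
    (h : P.map (mapRingHom (red2 hp2)) = 0) : C (C (p : R2)) ∣ P := by
  rw [C_dvd_iff_dvd_coeff]
  intro k
  rw [C_dvd_iff_dvd_coeff]
  intro j
  refine natCast_dvd_of_red2_eq_zero hp2 ?_
  have := congrArg (fun Q : (ZMod p)[X][X] => (Q.coeff k).coeff j) h
  simpa using this

/-! ## The reduced series of `λ` -/

variable (p) in
/-- `λ` modulo `p`, as a power series. -/
def lamBarPS : PowerSeries (ZMod p) := PowerSeries.map (Int.castRingHom (ZMod p)) lamPS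

variable (p) in
/-- `λ` modulo `p`. -/
def lamBar : LaurentSeries (ZMod p) := HahnSeries.ofPowerSeries ℤ (ZMod p) (lamBarPS p)

lemma coeffMap_red2_ofPS2 (hp2 : p ≠ 2) (s : PowerSeries ℤ) :
    coeffMap (red2 hp2) (ofPS2 s) =
      HahnSeries.ofPowerSeries ℤ (ZMod p) (PowerSeries.map (Int.castRingHom (ZMod p)) s) := by
  ext i
  rw [coeffMap_coeff]
  rcases lt_or_ge i 0 with hi | hi
  · rw [ofPS2_coeff_neg s hi, map_zero, HahnSeries.ofPowerSeries_apply]
    symm
    refine HahnSeries.embDomain_of_notMem_range ?_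
    rintro ⟨n, rfl⟩
    simp at hi
    omega
  · lift i to ℕ using hi
    rw [ofPS2_coeff_natCast, map_intCast]
    simp

/-- The series of `λ` reduces to `lamBar`. -/
lemma coeffMap_red2_l2 (hp2 : p ≠ 2) : coeffMap (red2 hp2) l2 = lamBar p :=
  coeffMap_red2_ofPS2 hp2 lamPS

lemma lamBarPS_ne_zero (hp2 : p ≠ 2) : lamBarPS p ≠ 0 := by
  intro h
  have := congrArg (PowerSeries.coeff 1) h
  rw [lamBarPS, PowerSeries.coeff_map, coeff_one_lamPS, map_zero] at this
  have h2 : ((2 : ℤ) : ZMod p) ^ 4 = 0 := by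
    rw [← Int.cast_pow]
    simpa using this
  exact (isUnit_two_zmod hp2).ne_zero ((pow_eq_zero_iff (by norm_num)).1 h2)

lemma aeval_lamBar (q : (ZMod p)[X]) :
    aeval (lamBar p) q = HahnSeries.ofPowerSeries ℤ (ZMod p)
      (q.eval₂ (PowerSeries.C (R := ZMod p)) (lamBarPS p)) := by
  rw [aeval_def, hom_eval₂, lamBar]
  congr 1

/-- `λ` modulo `p` is transcendental. -/
lemma aeval_lamBar_injective (hp2 : p ≠ 2) :
    Function.Injective (aeval (lamBar p) : (ZMod p)[X] →ₐ[ZMod p] LaurentSeries (ZMod p)) := by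
  rw [injective_iff_map_eq_zero]
  intro q hq
  rw [aeval_lamBar, map_eq_zero_iff _ HahnSeries.ofPowerSeries_injective] at hq
  induction q using Polynomial.recOnHorner with
  | M0 => rfl
  | MC q a h0 ha ih =>
    exfalso
    have := congrArg (PowerSeries.constantCoeff (R := ZMod p)) hq
    rw [map_zero, eval₂_add, map_add, eval₂_C, PowerSeries.constantCoeff_C, hom_eval₂] at this
    rw [show PowerSeries.constantCoeff (lamBarPS p) = 0 by
      rw [lamBarPS, ← PowerSeries.coeff_zero_eq_constantCoeff_apply, PowerSeries.coeff_map]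
      simp [constantCoeff_lamPS], eval₂_at_zero, h0, map_zero, zero_add] at this
    exact ha this
  | MX q _ ih =>
    rw [eval₂_mul, eval₂_X, mul_eq_zero] at hq
    rw [ih (hq.resolve_right (lamBarPS_ne_zero hp2)), zero_mul]

/-- The square relating evaluation at `l2` and at `lamBar`. -/
lemma eval_l2_comp (hp2 : p ≠ 2) :
    (coeffMap (red2 hp2)).comp (eval₂RingHom HahnSeries.C l2) =
      (aeval (lamBar p) : (ZMod p)[X] →ₐ[ZMod p] LaurentSeries (ZMod p)).toRingHom.comp
        (mapRingHom (red2 hp2)) := by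
  refine Polynomial.ringHom_ext' (R2_ringHom_ext _ _) ?_
  simp [coeffMap_red2_l2 hp2]

/-- A series in `q ^ p` reduces to a `p`-th power. -/
lemma coeffMap_qExpand_red (hp2 : p ≠ 2) (s : LaurentSeries R2) :
    coeffMap (red2 hp2) (qExpand R2 p s) = coeffMap (red2 hp2) s ^ p := by
  rw [pow_eq_qExpand, qExpand_coeffMap]

lemma thetaOp_lamBar (hp2 : p ≠ 2) :
    coeffMap (red2 hp2) (thetaOp R2 l2) = thetaOp (ZMod p) (lamBar p) := by
  rw [coeffMap_thetaOp, coeffMap_red2_l2]

lemma thetaOp_lamBar_ne_zero (hp2 : p ≠ 2) : thetaOp (ZMod p) (lamBar p) ≠ 0 := by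
  rw [← thetaOp_lamBar hp2]
  exact (isUnit_thetaOp_l2.map _).ne_zero

/-! ## The Kronecker congruence -/

lemma muSeries_red (hp2 : p ≠ 2) :
    (muSeries p l2).map (coeffMap (red2 hp2)) =
      (C (lamBar p) ^ p - X) * (C (lamBar p) - X ^ p) := by
  rw [muSeries, Polynomial.map_mul, normPoly_congr, Polynomial.map_sub, Polynomial.map_X,
    Polynomial.map_C, coeffMap_qExpand_red hp2, coeffMap_red2_l2 hp2, map_pow]
  ring

/-- The Kronecker product under a ring map. -/
lemma kronecker_aux {A B : Type*} [CommRing A] [CommRing B] (f : A[X] →+* B) (n : ℕ) :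
    (((C (X : A[X])) ^ n - X) * (C (X : A[X]) - X ^ n)).map f =
      (C (f X) ^ n - X) * (C (f X) - X ^ n) := by
  simp only [Polynomial.map_mul, Polynomial.map_sub, Polynomial.map_pow, Polynomial.map_C,
    Polynomial.map_X]

theorem lamPoly_map_red (hp2 : p ≠ 2) :
    (lamPoly p).map (mapRingHom (red2 hp2)) =
      (C (X : (ZMod p)[X]) ^ p - X) * (C X - X ^ p) := by
  refine Polynomial.map_injective
    (aeval (lamBar p) : (ZMod p)[X] →ₐ[ZMod p] LaurentSeries (ZMod p)).toRingHom
    (aeval_lamBar_injective hp2) ?_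
  rw [Polynomial.map_map, ← eval_l2_comp hp2, ← Polynomial.map_map, lamPoly_series hp2,
    muSeries_red hp2, kronecker_aux]
  simp

open Classical in
variable (p) in
/-- `lamPoly` minus the Kronecker product, divided by `p`. -/
def lamH : R2[X][X] :=
  if h : C (C (p : R2)) ∣ lamPoly p - (C (X : R2[X]) ^ p - X) * (C X - X ^ p) then h.choose else 0

/-- **The Kronecker congruence** for `lamPoly`, with its correction term. -/
theorem lamPoly_eq (hp2 : p ≠ 2) :
    lamPoly p = (C (X : R2[X]) ^ p - X) * (C X - X ^ p) + C (C (p : R2)) * lamH p := by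
  have h : C (C (p : R2)) ∣ lamPoly p - (C (X : R2[X]) ^ p - X) * (C X - X ^ p) := by
    refine C_C_dvd_of_map_eq_zero hp2 ?_
    rw [Polynomial.map_sub, lamPoly_map_red hp2, kronecker_aux]
    simp
  rw [lamH, dif_pos h, ← h.choose_spec]
  ring

lemma node_eq_aux {A : Type*} [CommRing A] (pA l q H a : A) (n : ℕ)
    (ha : l ^ n - q = pA * a) (h : (l ^ n - q) * (l - q ^ n) + pA * H = 0) :
    pA * (a * (l - q ^ n) + H) = 0 := by
  rw [ha] at h
  linear_combination h

lemma thetaOp_pow_succ {A : Type*} [CommRing A] (a : LaurentSeries A) (n : ℕ) :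
    thetaOp A (a ^ (n + 1)) = ((n : LaurentSeries A) + 1) * a ^ n * thetaOp A a := by
  induction n with
  | zero => simp
  | succ n ih =>
    rw [pow_succ _ (n + 1), thetaOp_mul, ih]
    push_cast
    ring

lemma natCast_mul_cancel {a b : LaurentSeries R2}
    (h : (p : LaurentSeries R2) * a = (p : LaurentSeries R2) * b) : a = b := by
  refine coeffMap_iota2_injective ?_
  have h' := congrArg (coeffMap iota2) h
  rw [map_mul, map_mul, map_natCast] at h'
  refine mul_left_cancel₀ ?_ h'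
  rw [← map_natCast (HahnSeries.C (Γ := ℤ) (R := ℂ))]
  exact (map_ne_zero_iff _ HahnSeries.C_injective).2 (by exact_mod_cast hp.out.ne_zero)

/-- A series reducing to zero is a multiple of `p`. -/
lemma exists_natCast_mul_eq (hp2 : p ≠ 2) {s : LaurentSeries R2}
    (h : coeffMap (red2 hp2) s = 0) : ∃ a, s = (p : LaurentSeries R2) * a := by
  have hd : ∀ i, (p : R2) ∣ s.coeff i := fun i => natCast_dvd_of_red2_eq_zero hp2 (by
    simpa using congrArg (fun t : LaurentSeries (ZMod p) => t.coeff i) h)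
  choose c hc using hd
  have hp0 : (p : R2) ≠ 0 := fun h0 => hp.out.ne_zero (by
    have := congrArg iota2 h0
    rw [map_natCast, map_zero] at this
    exact_mod_cast this)
  refine ⟨{ coeff := c, isPWO_support' := s.isPWO_support.mono fun i hi => ?_ }, ?_⟩
  · rw [HahnSeries.mem_support, hc]
    exact mul_ne_zero hp0 hi
  · ext i
    rw [show (p : LaurentSeries R2) = HahnSeries.C (p : R2) from (map_natCast HahnSeries.C p).symm,
      HahnSeries.C_mul_eq_smul, HahnSeries.coeff_smul, smul_eq_mul, ← hc]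

/-- The series `A` with `p A = λ^p - λ(q^p)`, reduced. -/
theorem exists_node_series (hp2 : p ≠ 2) :
    ∃ A : LaurentSeries (ZMod p),
      A * (lamBar p ^ (p ^ 2) - lamBar p) =
          aeval (lamBar p) (((lamH p).map (mapRingHom (red2 hp2))).eval ((X : (ZMod p)[X]) ^ p)) ∧
        thetaOp (ZMod p) A = (lamBar p ^ (p - 1) - thetaOp (ZMod p) (lamBar p) ^ (p - 1)) *
          thetaOp (ZMod p) (lamBar p) := by
  set q := qExpand R2 p l2
  set E : R2[X] →+* LaurentSeries R2 := eval₂RingHom HahnSeries.C l2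
  obtain ⟨a, ha⟩ : ∃ a, l2 ^ p - q = (p : LaurentSeries R2) * a := exists_natCast_mul_eq hp2 (by
    rw [map_sub, map_pow, coeffMap_qExpand_red hp2, sub_self])
  have hrel : (l2 ^ p - q) * (l2 - q ^ p) + (p : LaurentSeries R2) * ((lamH p).map E).eval q = 0 := by
    have h := congrArg (fun P : R2[X][X] => (P.map E).eval q) (lamPoly_eq hp2)
    simp only [lamPoly_series hp2, E] at h
    rw [muSeries, eval_mul, eval_sub, eval_X, eval_C, sub_self, zero_mul, Polynomial.map_add,
      kronecker_aux, Polynomial.map_mul, Polynomial.map_C, eval_add, eval_mul, eval_mul, eval_sub,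
      eval_sub, eval_pow, eval_pow, eval_C, eval_C, eval_X, map_natCast, map_natCast] at h
    simp only [coe_eval₂RingHom, eval₂_X] at h
    exact h.symm
  have hrel' : a * (l2 - q ^ p) + ((lamH p).map E).eval q = 0 :=
    natCast_mul_cancel (p := p) ((node_eq_aux _ _ _ _ _ p ha hrel).trans (mul_zero _).symm)
  refine ⟨coeffMap (red2 hp2) a, ?_, ?_⟩
  · have h := congrArg (coeffMap (red2 hp2)) hrel'
    rw [map_add, map_mul, map_sub, map_pow, coeffMap_qExpand_red hp2, coeffMap_red2_l2 hp2,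
      ← pow_mul, ← sq, map_zero, eval_map, hom_eval₂, eval_l2_comp hp2,
      coeffMap_qExpand_red hp2, coeffMap_red2_l2 hp2] at h
    rw [eval_map, ← AlgHom.coe_toRingHom, hom_eval₂, AlgHom.coe_toRingHom, map_pow, aeval_X]
    simp only [AlgHom.toRingHom_eq_coe] at h ⊢
    linear_combination -h
  · have h : thetaOp R2 a = l2 ^ (p - 1) * thetaOp R2 l2 - qExpand R2 p (thetaOp R2 l2) := by
      have h1 := congrArg (thetaOp R2) ha
      rw [map_sub, thetaOp_qExpand] at h1
      conv_lhs at h1 => rw [show l2 ^ p = l2 ^ (p - 1 + 1) by rw [Nat.sub_add_cancel hp.out.one_le],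
        thetaOp_pow_succ]
      rw [← nsmul_eq_mul p a, map_nsmul, nsmul_eq_mul, ← Nat.cast_add_one,
        Nat.sub_add_cancel hp.out.one_le, mul_assoc] at h1
      exact natCast_mul_cancel (p := p) (h1.symm.trans (mul_sub _ _ _).symm)
    rw [← coeffMap_thetaOp, h, map_sub, map_mul, map_pow, coeffMap_qExpand_red hp2,
      coeffMap_red2_l2 hp2, thetaOp_lamBar hp2]
    rw [← pow_sub_one_mul hp.out.ne_zero (thetaOp (ZMod p) (lamBar p))]
    ring

/-! ## The ordinary locus polynomial -/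

variable (p) in
/-- The polynomial vanishing at the supersingular points. -/
def ordPoly (hp2 : p ≠ 2) : (ZMod p)[X] := -((vPoly p).map (mapRingHom (red2 hp2))).coeff p

lemma vSeries_red (hp2 : p ≠ 2) :
    (vSeries p l2).map (coeffMap (red2 hp2)) =
      (X - C (thetaOp (ZMod p) (lamBar p) / thetaOp (ZMod p) (lamBar p) ^ p)) * X ^ p := by
  have h1 : coeffMap (red2 hp2) (vInf p l2) =
      thetaOp (ZMod p) (lamBar p) / thetaOp (ZMod p) (lamBar p) ^ p := by
    rw [vInf, map_mul, map_ringInverse _ (isUnit_thetaOp_l2.map (qExpand R2 p)),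
      coeffMap_qExpand_red hp2, thetaOp_lamBar hp2, div_eq_mul_inv]
  have h2 : coeffMap (red2 hp2) (vBase p l2) = 0 := by
    have : ((p : ℕ) : LaurentSeries (ZMod p)) = 0 := by
      rw [← map_natCast (HahnSeries.C (Γ := ℤ) (R := ZMod p)), ZMod.natCast_self, map_zero]
    rw [vBase, map_mul, map_pow, map_natCast, this, zero_pow two_ne_zero, zero_mul]
  rw [vSeries, Polynomial.map_mul, normPoly_congr, Polynomial.map_sub, Polynomial.map_X,
    Polynomial.map_C, h1, h2, map_zero, sub_zero]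

lemma vPoly_red_lamBar (hp2 : p ≠ 2) :
    ((vPoly p).map (mapRingHom (red2 hp2))).map
        (aeval (lamBar p) : (ZMod p)[X] →ₐ[ZMod p] LaurentSeries (ZMod p)).toRingHom =
      C ((lamBar p * (1 - lamBar p)) ^ ordExp p) *
        ((X - C (thetaOp (ZMod p) (lamBar p) / thetaOp (ZMod p) (lamBar p) ^ p)) * X ^ p) := by
  rw [Polynomial.map_map, ← eval_l2_comp hp2, ← Polynomial.map_map, vPoly_series hp2,
    Polynomial.map_mul, Polynomial.map_C, vSeries_red hp2, map_pow, map_mul, map_sub, map_one,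
    coeffMap_red2_l2 hp2]

lemma coeff_shift_aux {A : Type*} [CommRing A] (c V : A) (n : ℕ) :
    (C c * ((X - C V) * X ^ n)).coeff n = -(c * V) := by
  have : C c * ((X - C V) * X ^ n) = C c * X ^ (n + 1) - C (c * V) * X ^ n := by
    rw [C_mul]; ring
  rw [this, coeff_sub, coeff_C_mul_X_pow, coeff_C_mul_X_pow, if_neg (by omega), if_pos rfl,
    zero_sub]

lemma split_aux {A : Type*} [CommRing A] (c V : A) (n : ℕ) :
    C c * X ^ (n + 1) - C (c * V) * X ^ n = C c * ((X - C V) * X ^ n) := by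
  rw [C_mul]; ring

theorem aeval_ordPoly (hp2 : p ≠ 2) :
    aeval (lamBar p) (ordPoly p hp2) = (lamBar p * (1 - lamBar p)) ^ ordExp p *
      (thetaOp (ZMod p) (lamBar p) / thetaOp (ZMod p) (lamBar p) ^ p) := by
  have h := congrArg (fun P : (LaurentSeries (ZMod p))[X] => P.coeff p) (vPoly_red_lamBar hp2)
  simp only [coeff_shift_aux] at h
  rw [Polynomial.coeff_map, AlgHom.toRingHom_eq_coe, RingHom.coe_coe] at h
  rw [ordPoly, map_neg, h, neg_neg]

theorem ordPoly_series (hp2 : p ≠ 2) :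
    aeval (lamBar p) (ordPoly p hp2) * thetaOp (ZMod p) (lamBar p) ^ (p - 1) =
      (lamBar p * (1 - lamBar p)) ^ ordExp p := by
  rw [aeval_ordPoly hp2, mul_assoc, div_mul_eq_mul_div, ← pow_succ',
    Nat.sub_add_cancel hp.out.one_le, div_self (pow_ne_zero _ (thetaOp_lamBar_ne_zero hp2)),
    mul_one]

/-- The reduction of `vPoly` modulo `p`. -/
theorem vPoly_map_red (hp2 : p ≠ 2) :
    (vPoly p).map (mapRingHom (red2 hp2)) =
      C ((X * (1 - X)) ^ ordExp p) * X ^ (p + 1) - C (ordPoly p hp2) * X ^ p := by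
  refine Polynomial.map_injective
    (aeval (lamBar p) : (ZMod p)[X] →ₐ[ZMod p] LaurentSeries (ZMod p)).toRingHom
    (aeval_lamBar_injective hp2) ?_
  have hc : (aeval (lamBar p) : (ZMod p)[X] →ₐ[ZMod p] LaurentSeries (ZMod p)).toRingHom
      ((X * (1 - X)) ^ ordExp p) = (lamBar p * (1 - lamBar p)) ^ ordExp p := by simp
  have hP : (aeval (lamBar p) : (ZMod p)[X] →ₐ[ZMod p] LaurentSeries (ZMod p)).toRingHom
      (ordPoly p hp2) = _ := aeval_ordPoly hp2
  rw [vPoly_red_lamBar hp2, Polynomial.map_sub, Polynomial.map_mul, Polynomial.map_mul,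
    Polynomial.map_C, Polynomial.map_C, Polynomial.map_pow, Polynomial.map_pow, Polynomial.map_X,
    hc, hP, split_aux]

/-- At a supersingular point `x`: `x^(p²) = x` and `lamH (x, x^p) ≠ 0`. -/
theorem lamPoly_node (hp2 : p ≠ 2) {k : Type*} [Field k] [CharP k p] (φ : R2 →+* k) {x : k}
    (hx0 : x ≠ 0) (hx1 : x ≠ 1)
    (hx : (ordPoly p hp2).eval₂ (ZMod.castHom dvd_rfl k) x = 0) :
    x ^ (p ^ 2) = x ∧ ev2 φ x (x ^ p) (lamH p) ≠ 0 := by
  let : Algebra (ZMod p) k := ZMod.algebra k p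
  obtain ⟨A, hA, hDA⟩ := exists_node_series (p := p) hp2
  set N := ((lamH p).map (mapRingHom (red2 hp2))).eval ((X : (ZMod p)[X]) ^ p) with hN
  have hid := lambdaP_polynomial_identity (p := p) (thetaOp (ZMod p)) (thetaOp_mul (ZMod p))
    (aeval_lamBar_injective hp2) (thetaOp_lamBar_ne_zero hp2) (N := N) (P := ordPoly p hp2)
    (den := (X * (1 - X)) ^ ordExp p) hA hDA
    (by rw [ordPoly_series hp2, map_pow, map_mul, map_sub, map_one, aeval_X])
  have hx' : aeval x (ordPoly p hp2) = 0 := by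
    rw [aeval_def, Subsingleton.elim (algebraMap (ZMod p) k) (ZMod.castHom dvd_rfl k)]
    exact hx
  have hden : aeval x ((X * (1 - X) : (ZMod p)[X]) ^ ordExp p) ≠ 0 := by
    rw [map_pow, map_mul, map_sub, map_one, aeval_X]
    exact pow_ne_zero _ (mul_ne_zero hx0 (sub_ne_zero.2 hx1.symm))
  obtain ⟨h1, h2⟩ := lambdaP_zero_key hid hx' hden
  refine ⟨h1, ?_⟩
  rw [hN, eval_map, ← AlgHom.coe_toRingHom, hom_eval₂, AlgHom.coe_toRingHom, map_pow, aeval_X] at h2
  rwa [show ((aeval x : (ZMod p)[X] →ₐ[ZMod p] k) : (ZMod p)[X] →+* k).comp (mapRingHom (red2 hp2)) =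
    eval₂RingHom φ x from Polynomial.ringHom_ext' (R2_ringHom_ext _ _) (by simp)] at h2

end Fermat.Agent.AtP
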