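import Mathlib.RingTheory.AdicCompletion.RingHom
import Mathlib.RingTheory.PowerSeries.Trunc
import Mathlib.Tactic

/-!
# Substitution into power series and fixed points in adically complete rings
-/

set_option autoImplicit false

noncomputable section

namespace Fermat.Agent.AtP

open PowerSeries

variable {B R : Type*} [CommRing B] [CommRing R] {I : Ideal R}

/-- A map contracting on an ideal has a fixed point there. -/
theorem exists_fixedPoint_mem [IsAdicComplete I R] (F : R → R) (hF0 : F 0 ∈ I)
    (hF : ∀ (n : ℕ) (a b : R), a ∈ I → b ∈ I → a - b ∈ I ^ n → F a - F b ∈ I ^ (n + 1)) :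
    ∃ x ∈ I, F x = x := by
  have hI : ∀ n, F^[n] 0 ∈ I := by
    intro n
    induction n with
    | zero => simp
    | succ n ih =>
      rw [Function.iterate_succ_apply', ← sub_add_cancel (F (F^[n] 0)) (F 0)]
      exact add_mem (Ideal.pow_le_self one_ne_zero (hF 0 _ _ ih (zero_mem I) (by simp))) hF0
  have hstep : ∀ n, F^[n + 1] 0 - F^[n] 0 ∈ I ^ n := by
    intro n
    induction n with
    | zero => simp
    | succ n ih =>
      have h := hF n _ _ (hI (n + 1)) (hI n) ih
      rwa [← Function.iterate_succ_apply' F (n + 1), ← Function.iterate_succ_apply' F n] at h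
  have hcauchy : ∀ {m n : ℕ}, m ≤ n → F^[n] 0 - F^[m] 0 ∈ I ^ m := by
    intro m n hmn
    induction n, hmn using Nat.le_induction with
    | base => simp
    | succ n hmn ih =>
      rw [← sub_add_sub_cancel _ (F^[n] 0)]
      exact add_mem (Ideal.pow_le_pow_right hmn (hstep n)) ih
  obtain ⟨x, hx⟩ := IsPrecomplete.prec (I := I) inferInstance (f := fun n => F^[n] 0)
    (fun {m n} hmn => by
      rw [SModEq.sub_mem, smul_eq_mul, Ideal.mul_top]
      have := neg_mem (hcauchy hmn)
      rwa [neg_sub] at this)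
  simp only [SModEq.sub_mem, smul_eq_mul, Ideal.mul_top] at hx
  have hxI : x ∈ I := by
    rw [← sub_sub_cancel (F^[1] 0) x]
    exact sub_mem (hI 1) (by simpa using hx 1)
  refine ⟨x, hxI, sub_eq_zero.mp (IsHausdorff.haus (I := I) inferInstance _ fun n => ?_)⟩
  rw [SModEq.zero, smul_eq_mul, Ideal.mul_top]
  have h1 : F x - F^[n + 1] 0 ∈ I ^ (n + 1) := by
    rw [Function.iterate_succ_apply']
    have := neg_mem (hx n)
    rw [neg_sub] at this
    exact hF n _ _ hxI (hI n) this
  have h2 := add_mem (Ideal.pow_le_pow_right (Nat.le_succ n) h1)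
    (Ideal.pow_le_pow_right (Nat.le_succ n) (hx (n + 1)))
  simpa using h2

/-- A contracting self map of an adically complete ring has a fixed point. -/
theorem exists_fixedPoint [IsAdicComplete I R] (F : R → R)
    (hF : ∀ (n : ℕ) (a b : R), a - b ∈ I ^ n → F a - F b ∈ I ^ (n + 1)) :
    ∃ x : R, F x = x := by
  obtain ⟨x, -, hx⟩ := exists_fixedPoint_mem (I := I) (fun z => F (z + F 0) - F 0)
    (by simpa using hF 0 (F 0) 0 (by simp)) fun n a b _ _ h => by
      have := hF n (a + F 0) (b + F 0) (by simpa using h)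
      simpa using this
  exact ⟨x + F 0, eq_add_of_sub_eq hx⟩

section Eval

variable (φ : B →+* R) (a : R) (ha : a ∈ I)
include ha

theorem eval₂_trunc_sub_mem (n : ℕ) (P : Polynomial B) :
    (trunc n (P : B⟦X⟧)).eval₂ φ a - P.eval₂ φ a ∈ I ^ n := by
  have h : (Polynomial.X : Polynomial B) ^ n ∣ trunc n (P : B⟦X⟧) - P := by
    rw [Polynomial.X_pow_dvd_iff]
    intro d hd
    simp [coeff_trunc, hd]
  obtain ⟨Q, hQ⟩ := h
  have := congrArg (Polynomial.eval₂ φ a) hQ
  rw [Polynomial.eval₂_sub, Polynomial.eval₂_mul, Polynomial.eval₂_pow, Polynomial.eval₂_X] at this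
  rw [this]
  exact Ideal.mul_mem_right _ _ (Ideal.pow_mem_pow ha n)

/-- Substitution of `a ∈ I` modulo `I ^ n`. -/
def evalMod (n : ℕ) : B⟦X⟧ →+* R ⧸ I ^ n where
  toFun f := Ideal.Quotient.mk (I ^ n) ((trunc n f).eval₂ φ a)
  map_one' := by
    cases n with
    | zero =>
      rw [Ideal.Quotient.eq.mpr (show (trunc 0 (1 : B⟦X⟧)).eval₂ φ a - 1 ∈ I ^ 0 by simp), map_one]
    | succ n => rw [trunc_one, Polynomial.eval₂_one, map_one]
  map_zero' := by simp
  map_add' f g := by simp
  map_mul' f g := by
    rw [← map_mul, Ideal.Quotient.eq, ← Polynomial.eval₂_mul, ← trunc_trunc_mul_trunc f g,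
      ← Polynomial.coe_mul]
    exact eval₂_trunc_sub_mem φ a ha n _

variable [IsAdicComplete I R]

omit [IsAdicComplete I R] in
theorem evalMod_comp {m n : ℕ} (hle : m ≤ n) :
    (Ideal.Quotient.factorPow I hle).comp (evalMod φ a ha n) = evalMod φ a ha m :=
  RingHom.ext fun f => by
    simp only [evalMod, RingHom.coe_mk, RingHom.coe_comp, Function.comp_apply, MonoidHom.coe_mk,
      OneHom.coe_mk]
    rw [Ideal.Quotient.factor_mk, Ideal.Quotient.eq]
    have := eval₂_trunc_sub_mem φ a ha m (trunc n f)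
    rw [trunc_trunc_of_le f hle] at this
    rw [← neg_sub]
    exact neg_mem this

/-- Substitution of an element of `I` into power series, coefficients mapped by `φ`. -/
def evalSeries : B⟦X⟧ →+* R :=
  IsAdicComplete.liftRingHom I (evalMod φ a ha) (evalMod_comp φ a ha)

/-- Substitution is approximated by the truncations. -/
theorem evalSeries_sub_mem (n : ℕ) (f : B⟦X⟧) :
    evalSeries φ a ha f - (trunc n f).eval₂ φ a ∈ I ^ n :=
  Ideal.Quotient.eq.mp (IsAdicComplete.mk_liftRingHom I (evalMod φ a ha) (evalMod_comp φ a ha) n f)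

/-- Substitution extends evaluation of polynomials. -/
@[simp] theorem evalSeries_coe (P : Polynomial B) :
    evalSeries φ a ha (P : B⟦X⟧) = P.eval₂ φ a := by
  refine sub_eq_zero.mp (IsHausdorff.haus (I := I) inferInstance _ fun n => ?_)
  rw [SModEq.zero, smul_eq_mul, Ideal.mul_top]
  have := add_mem (evalSeries_sub_mem φ a ha n (P : B⟦X⟧)) (eval₂_trunc_sub_mem φ a ha n P)
  rwa [sub_add_sub_cancel] at this

/-- Substitution sends the variable to `a`. -/
@[simp] theorem evalSeries_X : evalSeries φ a ha X = a := by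
  rw [← Polynomial.coe_X, evalSeries_coe, Polynomial.eval₂_X]

/-- Substitution on constants. -/
@[simp] theorem evalSeries_C (b : B) : evalSeries φ a ha (C b) = φ b := by
  rw [← Polynomial.coe_C, evalSeries_coe, Polynomial.eval₂_C]

end Eval

end Fermat.Agent.AtP
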