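import Fermat.Agent.AtP.NodeBranch
import Fermat.Agent.AtP.SeriesEval
import Fermat.Agent.KummerLocal.UFDRoot
import Mathlib.FieldTheory.IsAlgClosed.Basic
import Mathlib.RingTheory.PowerSeries.Expand

/-!
# Orders on the two branches of a node

A function which is a unit times a `p`-th power away from the node, and congruent modulo `ϖ ^ 2`
on each branch to quotients of functions without `ε`-parts of the coordinate of the branch, has
orders on the two branches linked by the slopes of the coordinates.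
-/

set_option autoImplicit false

noncomputable section

open IsLocalRing
open scoped PowerSeries DualNumber

namespace Fermat.Agent.AtP

section PthPower

variable {k : Type*} [Field k] {p : ℕ}

theorem pow_eq_map_expand [ExpChar k p] (hp : p.Prime) (g : PowerSeries k) :
    g ^ p = PowerSeries.map (frobenius k p) (PowerSeries.expand p hp.ne_zero g) :=
  (MvPowerSeries.map_frobenius_expand p hp.ne_zero).symm

/-- `p`-th powers are the series supported in degrees divisible by `p`, `k` being algebraically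
closed of characteristic `p`. -/
theorem exists_pow_eq_of_coeff_eq_zero [IsAlgClosed k] (hp : p.Prime) [CharP k p]
    {f : PowerSeries k} (h : ∀ n, ¬ p ∣ n → PowerSeries.coeff n f = 0) :
    ∃ g, g ^ p = f := by
  classical
  have := Fact.mk hp
  choose r hr using fun n : ℕ => IsAlgClosed.exists_pow_nat_eq (PowerSeries.coeff (p * n) f) hp.pos
  refine ⟨PowerSeries.mk r, ?_⟩
  ext n
  rw [pow_eq_map_expand hp, PowerSeries.coeff_map]
  by_cases hn : p ∣ n
  · obtain ⟨m, rfl⟩ := hn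
    rw [PowerSeries.coeff_expand_mul, PowerSeries.coeff_mk, frobenius_def, hr]
  · rw [PowerSeries.coeff_expand_of_not_dvd p hp.ne_zero _ hn, map_zero, h n hn]

theorem coeff_pow_eq_zero (hp : p.Prime) [CharP k p] (g : PowerSeries k) {n : ℕ} (hn : ¬ p ∣ n) :
    PowerSeries.coeff n (g ^ p) = 0 := by
  have := Fact.mk hp
  rw [pow_eq_map_expand hp, PowerSeries.coeff_map,
    PowerSeries.coeff_expand_of_not_dvd p hp.ne_zero _ hn, map_zero]

end PthPower

variable {B : Type} [CommRing B] [IsDomain B] [IsDiscreteValuationRing B] {ϖ : B}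
variable {p : ℕ} (hp : p.Prime) [CharP (ResidueField B) p] [IsAlgClosed (ResidueField B)]
variable (hϖ : Irreducible ϖ)
variable (red₂ : B →+* DualNumber (ResidueField B))
  (hfst : ∀ b, TrivSqZeroExt.fst (red₂ b) = residue B b)
  (hsnd : TrivSqZeroExt.snd (red₂ ϖ) = 1)

local notation "ι" => HahnSeries.ofPowerSeries ℤ (ResidueField B)
local notation "β'" => β red₂ hfst (mem_max_of_irreducible hϖ) hsnd
local notation "q'" => q₁ ϖ (mem_max_of_irreducible hϖ)

/-- A coordinate on the branch `y = 0`: a `p`-th power of order `p` modulo `ϖ`, with `ε`-part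
vanishing to order `p`; `c` is the ratio of the two leading coefficients. -/
structure IsBranchCoord (p : ℕ) (u : Node ϖ) (c : ResidueField B) : Prop where
  pth : ∃ g, q₁ ϖ (mem_max_of_irreducible hϖ) u = g ^ p
  order : ∃ w v : PowerSeries (ResidueField B),
    q₁ ϖ (mem_max_of_irreducible hϖ) u = PowerSeries.X ^ p * w ∧
    TrivSqZeroExt.snd (β red₂ hfst (mem_max_of_irreducible hϖ) hsnd u) =
      ι (PowerSeries.X ^ p * v) ∧
    PowerSeries.constantCoeff w ≠ 0 ∧
    PowerSeries.constantCoeff v = c * PowerSeries.constantCoeff w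

/-- No `ε`-part in the coefficients. -/
def IsEpsFree (F : B⟦X⟧) : Prop := ∀ n, TrivSqZeroExt.snd (red₂ (PowerSeries.coeff n F)) = 0

variable [IsLocalRing (Node ϖ)] [IsAdicComplete (maximalIdeal (Node ϖ)) (Node ϖ)]
variable {u : Node ϖ} (hum : u ∈ maximalIdeal (Node ϖ)) {c : ResidueField B}

local notation "E" => evalSeries (nc ϖ) u hum

section Coord

variable (hu : IsBranchCoord hϖ red₂ hfst hsnd p u c)
include hp hu

/-- The reduction of a function of the coordinate is a `p`-th power. -/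
theorem exists_pow_eq_q₁_eval (F : B⟦X⟧) : ∃ g, g ^ p = q' (E F) := by
  have := Fact.mk hp
  obtain ⟨g, hg⟩ := hu.pth
  obtain ⟨w, -, hw, -⟩ := hu.order
  refine exists_pow_eq_of_coeff_eq_zero hp fun n hn => ?_
  have hsplit : F = (PowerSeries.trunc (n + 1) F : B⟦X⟧) +
      PowerSeries.X ^ (n + 1) * PowerSeries.mk fun i => PowerSeries.coeff (i + (n + 1)) F := by
    rw [add_comm]; exact PowerSeries.eq_X_pow_mul_shift_add_trunc (n + 1) F
  rw [hsplit, map_add, map_mul, map_pow, evalSeries_X, evalSeries_coe, map_add, map_mul, map_pow,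
    hw, map_add]
  have h2 : PowerSeries.coeff n ((PowerSeries.X ^ p * w) ^ (n + 1) *
      q' (E (PowerSeries.mk fun i => PowerSeries.coeff (i + (n + 1)) F))) = 0 := by
    rw [mul_pow, ← pow_mul, mul_assoc, PowerSeries.coeff_X_pow_mul', if_neg]
    have : n + 1 ≤ p * (n + 1) := Nat.le_mul_of_pos_left _ hp.pos
    omega
  rw [h2, add_zero, Polynomial.hom_eval₂]
  obtain ⟨G, hG⟩ : ∃ G, (PowerSeries.trunc (n + 1) F).eval₂ ((q').comp (nc ϖ)) (q' u) = G ^ p := by
    generalize PowerSeries.trunc (n + 1) F = P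
    induction P using Polynomial.induction_on' with
    | add P Q hP hQ =>
      obtain ⟨G, hG⟩ := hP
      obtain ⟨H, hH⟩ := hQ
      have : CharP (PowerSeries (ResidueField B)) p :=
        charP_of_injective_ringHom (f := PowerSeries.C) PowerSeries.C_injective p
      exact ⟨G + H, by rw [Polynomial.eval₂_add, hG, hH, add_pow_char]⟩
    | monomial m b =>
      obtain ⟨b', hb'⟩ := IsAlgClosed.exists_pow_nat_eq (residue B b) hp.pos
      exact ⟨PowerSeries.C b' * g ^ m, by
        rw [Polynomial.eval₂_monomial, RingHom.comp_apply, q₁_nc, hg, mul_pow, ← map_pow, hb',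
          ← pow_mul, ← pow_mul, mul_comm m p]⟩
  rw [hG]
  exact coeff_pow_eq_zero hp G hn

omit [CharP (ResidueField B) p] [IsAlgClosed (ResidueField B)] in
/-- The `ε`-part of a function of the coordinate. -/
theorem snd_β_eval {F : B⟦X⟧} (hF : IsEpsFree red₂ F) :
    TrivSqZeroExt.snd (β' (E F)) =
      TrivSqZeroExt.snd (β' u) * ι (q' (E (PowerSeries.derivative B F))) := by
  obtain ⟨w, v, hw, hv, -⟩ := hu.order
  rw [← sub_eq_zero]
  set Δ : B⟦X⟧ → LaurentSeries (ResidueField B) := fun G =>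
    TrivSqZeroExt.snd (β' (E G)) -
      TrivSqZeroExt.snd (β' u) * ι (q' (E (PowerSeries.derivative B G))) with hΔ
  show Δ F = 0
  have hadd : ∀ G H, Δ (G + H) = Δ G + Δ H := fun G H => by simp [hΔ]; ring
  have hfstu : TrivSqZeroExt.fst (β' u) = ι (PowerSeries.X ^ p * w) := by rw [β_fst, hw]
  -- polynomials
  have hpoly : ∀ P : Polynomial B, (∀ n, TrivSqZeroExt.snd (red₂ (P.coeff n)) = 0) →
      Δ (P : B⟦X⟧) = 0 := by
    intro P hP
    rw [P.as_sum_support]
    have hsum : ∀ (s : Finset ℕ), Δ ((∑ n ∈ s, Polynomial.monomial n (P.coeff n) : Polynomial B) : B⟦X⟧)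
        = 0 := by
      intro s
      induction s using Finset.induction_on with
      | empty => simp [hΔ]
      | insert a s ha ih =>
        rw [Finset.sum_insert ha, Polynomial.coe_add, hadd, ih, add_zero]
        simp only [hΔ]
        rw [← Polynomial.C_mul_X_pow_eq_monomial, Polynomial.coe_mul, Polynomial.coe_pow,
          Polynomial.coe_C, Polynomial.coe_X, Derivation.leibniz, PowerSeries.derivative_C,
          PowerSeries.derivative_pow, PowerSeries.derivative_X]
        simp only [smul_eq_mul, mul_zero, add_zero, map_mul, map_pow, map_natCast, evalSeries_C,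
          evalSeries_X, β_nc, q₁_nc, HahnSeries.ofPowerSeries_C, hP a, mul_one,
          TrivSqZeroExt.snd_mul, TrivSqZeroExt.snd_pow, TrivSqZeroExt.fst_pow,
          TrivSqZeroExt.fst_add, TrivSqZeroExt.snd_add, TrivSqZeroExt.fst_inl,
          TrivSqZeroExt.snd_inl, TrivSqZeroExt.fst_inr, TrivSqZeroExt.snd_inr, map_zero,
          hfstu, hw, smul_eq_mul, MulOpposite.smul_eq_mul_unop, MulOpposite.unop_op, nsmul_eq_mul,
          zero_mul, Nat.pred_eq_sub_one, add_zero]
        ring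
    exact hsum _
  -- the tails
  refine HahnSeries.ext (funext fun i => ?_)
  rw [HahnSeries.coeff_zero]
  obtain ⟨n, hn⟩ : ∃ n : ℕ, i + 1 < n := ⟨(i + 2).toNat, by omega⟩
  have hsplit : F = (PowerSeries.trunc (n + 1) F : B⟦X⟧) +
      PowerSeries.X ^ (n + 1) * PowerSeries.mk fun j => PowerSeries.coeff (j + (n + 1)) F := by
    rw [add_comm]; exact PowerSeries.eq_X_pow_mul_shift_add_trunc (n + 1) F
  set G := PowerSeries.mk fun j => PowerSeries.coeff (j + (n + 1)) F with hG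
  rw [hsplit, hadd, hpoly _ (fun m => by
    rw [PowerSeries.coeff_trunc]; split_ifs with h
    · exact hF m
    · simp), zero_add]
  -- every `ε`-part has at most a simple pole
  have hpole : ∀ r : Node ϖ, ∃ g, HahnSeries.single (1 : ℤ) 1 * TrivSqZeroExt.snd (β' r) = ι g := by
    intro r
    obtain ⟨a, b, rfl⟩ := exists_eq_of_add_mul_nx ϖ r
    refine ⟨PowerSeries.X * epsPart red₂ a + PowerSeries.derivative _ (PowerSeries.map (residue B) a)
      + (PowerSeries.X * epsPart red₂ b + PowerSeries.derivative _ (PowerSeries.map (residue B) b))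
        * PowerSeries.X, ?_⟩
    have h1 : HahnSeries.single (1 : ℤ) (1 : ResidueField B) * HahnSeries.single (-1 : ℤ) 1 = 1 := by
      rw [HahnSeries.single_mul_single, add_neg_cancel, mul_one]; rfl
    simp only [map_add, map_mul, β_of, β_nx, branchHom, RingHom.coe_mk, MonoidHom.coe_mk,
      OneHom.coe_mk, TrivSqZeroExt.snd_add, TrivSqZeroExt.snd_mul, TrivSqZeroExt.fst_add,
      TrivSqZeroExt.fst_inl, TrivSqZeroExt.snd_inl, TrivSqZeroExt.fst_inr, TrivSqZeroExt.snd_inr,
      HahnSeries.ofPowerSeries_X, smul_eq_mul, MulOpposite.smul_eq_mul_unop, MulOpposite.unop_op,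
      mul_zero, zero_add, add_zero]
    linear_combination (ι (PowerSeries.derivative _ (PowerSeries.map (residue B) a)) +
      ι (PowerSeries.derivative _ (PowerSeries.map (residue B) b)) *
        HahnSeries.single (1 : ℤ) 1) * h1
  obtain ⟨g, hg⟩ := hpole (E G)
  have key : HahnSeries.single (1 : ℤ) 1 * Δ (PowerSeries.X ^ (n + 1) * G) =
      ι ((PowerSeries.X ^ p * w) ^ (n + 1) * g - PowerSeries.X ^ p * v * PowerSeries.X *
        (PowerSeries.X ^ p * w) ^ (n + 1) * q' (E (PowerSeries.derivative B G))) := by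
    simp only [hΔ, Derivation.leibniz, PowerSeries.derivative_pow, PowerSeries.derivative_X,
      smul_eq_mul, map_add, map_mul, map_pow, map_natCast, evalSeries_X, mul_one,
      TrivSqZeroExt.snd_mul, TrivSqZeroExt.snd_pow, TrivSqZeroExt.fst_pow, β_fst, hfstu, hv, hw,
      map_sub, HahnSeries.ofPowerSeries_X, nsmul_eq_mul, Nat.pred_eq_sub_one,
      MulOpposite.smul_eq_mul_unop, MulOpposite.unop_op]
    linear_combination ((HahnSeries.single (1 : ℤ) 1) ^ p * ι w) ^ (n + 1) * hg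
  have hc := congrArg (fun s : LaurentSeries (ResidueField B) => s.coeff (i + 1)) key
  simp only [HahnSeries.coeff_single_mul, one_mul, add_sub_cancel_right] at hc
  rw [hc]
  rcases lt_or_ge (i + 1) 0 with hneg | hpos
  · rw [HahnSeries.ofPowerSeries_apply, HahnSeries.embDomain_of_notMem_range]
    rintro ⟨m, hm⟩
    have : (m : ℤ) = i + 1 := hm
    omega
  · lift i + 1 to ℕ using hpos with m hm
    rw [HahnSeries.ofPowerSeries_apply_coeff, PowerSeries.X_pow_dvd_iff.1 ?_ m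
      (show m < n + 1 by omega)]
    exact dvd_sub (((pow_dvd_pow_of_dvd ((dvd_pow_self _ hp.ne_zero).mul_right w) _)).mul_right _)
      (((pow_dvd_pow_of_dvd ((dvd_pow_self _ hp.ne_zero).mul_right w) _).mul_left _).mul_right _)

omit [CharP (ResidueField B) p] [IsAlgClosed (ResidueField B)] in
/-- The logarithmic `ε`-part has constant term `c` times the order. -/
theorem exists_log {F : B⟦X⟧} (hF : IsEpsFree red₂ F) {n : ℕ} {F₁ : PowerSeries (ResidueField B)}
    (hF₁ : PowerSeries.map (residue B) F = PowerSeries.X ^ n * F₁)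
    (hF₁0 : PowerSeries.constantCoeff F₁ ≠ 0) :
    q' (E F) ≠ 0 ∧ ∃ b : PowerSeries (ResidueField B),
      TrivSqZeroExt.snd (β' (E F)) = ι (q' (E F)) * ι b ∧ PowerSeries.constantCoeff b = c * n := by
  obtain ⟨w, v, hw, hv, hw0, hvc⟩ := hu.order
  have hsplit : F = (PowerSeries.trunc n F : B⟦X⟧) +
      PowerSeries.X ^ n * PowerSeries.mk fun i => PowerSeries.coeff (i + n) F := by
    rw [add_comm]; exact PowerSeries.eq_X_pow_mul_shift_add_trunc n F
  set G := PowerSeries.mk fun i => PowerSeries.coeff (i + n) F with hG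
  have hlow : ∀ m < n, residue B (PowerSeries.coeff m F) = 0 := fun m hm => by
    have h := congrArg (PowerSeries.coeff m) hF₁
    rwa [PowerSeries.coeff_map, PowerSeries.coeff_X_pow_mul', if_neg (by omega)] at h
  have hG0 : residue B (PowerSeries.constantCoeff G) = PowerSeries.constantCoeff F₁ := by
    have h := congrArg (PowerSeries.coeff n) hF₁
    rw [PowerSeries.coeff_map, PowerSeries.coeff_X_pow_mul', if_pos le_rfl, Nat.sub_self,
      PowerSeries.coeff_zero_eq_constantCoeff_apply] at h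
    rw [← h, hG, ← PowerSeries.coeff_zero_eq_constantCoeff_apply, PowerSeries.coeff_mk, zero_add]
  have hEP : ∀ P : Polynomial B, (∀ m, residue B (P.coeff m) = 0) → q' (E (P : B⟦X⟧)) = 0 := by
    intro P hP
    rw [evalSeries_coe, Polynomial.hom_eval₂, Polynomial.eval₂_eq_sum_range]
    refine Finset.sum_eq_zero fun m _ => ?_
    rw [RingHom.comp_apply, q₁_nc, hP, map_zero, zero_mul]
  have htr : ∀ m, residue B ((PowerSeries.trunc n F).coeff m) = 0 := fun m => by
    rw [PowerSeries.coeff_trunc]; split_ifs with h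
    · exact hlow m h
    · exact map_zero _
  have hqG : PowerSeries.constantCoeff (q' (E G)) ≠ 0 := by
    obtain ⟨r, hr⟩ : PowerSeries.X ∣ G - PowerSeries.C (PowerSeries.constantCoeff G) := by
      rw [PowerSeries.X_dvd_iff]; simp
    rw [show G = PowerSeries.X * r + PowerSeries.C (PowerSeries.constantCoeff G) by rw [← hr]; ring,
      map_add, map_mul, evalSeries_X, evalSeries_C, map_add, map_mul, q₁_nc, map_add, map_mul,
      hw, map_mul, map_pow, PowerSeries.constantCoeff_X, zero_pow hp.ne_zero, zero_mul, zero_mul,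
      zero_add, PowerSeries.constantCoeff_C, hG0]
    exact hF₁0
  have hqF : q' (E F) = (PowerSeries.X ^ p * w) ^ n * q' (E G) := by
    rw [hsplit, map_add, map_mul, map_pow, evalSeries_X, map_add, hEP _ htr, map_mul, map_pow, hw,
      zero_add]
  have hw1 : w ≠ 0 := fun h => hw0 (by rw [h, map_zero])
  refine ⟨?_, ?_⟩
  · rw [hqF]
    exact mul_ne_zero (pow_ne_zero _ (mul_ne_zero (pow_ne_zero _ PowerSeries.X_ne_zero) hw1))
      fun h => hqG (by rw [h, map_zero])
  obtain ⟨wi, hwi⟩ := (PowerSeries.isUnit_iff_constantCoeff.2 hw0.isUnit).exists_right_inv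
  obtain ⟨gi, hgi⟩ := (PowerSeries.isUnit_iff_constantCoeff.2 hqG.isUnit).exists_right_inv
  refine ⟨v * wi * ((n : PowerSeries (ResidueField B)) +
    PowerSeries.X ^ p * w * gi * q' (E (PowerSeries.derivative B G))), ?_, ?_⟩
  · rw [snd_β_eval hp hϖ red₂ hfst hsnd hum hu hF, hv, ← map_mul, ← map_mul, hqF]
    congr 1
    have hd : q' (E (PowerSeries.derivative B F)) * (PowerSeries.X ^ p * w) =
        (PowerSeries.X ^ p * w) ^ n * ((n : PowerSeries (ResidueField B)) * q' (E G) +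
          PowerSeries.X ^ p * w * q' (E (PowerSeries.derivative B G))) := by
      rw [hsplit, map_add, Derivation.leibniz, PowerSeries.derivative_pow,
        PowerSeries.derivative_X, PowerSeries.derivative_coe]
      simp only [smul_eq_mul, mul_one, map_add, map_mul, map_pow, map_natCast, evalSeries_X, hw]
      rw [hEP _ (fun m => by
        rw [Polynomial.coeff_derivative, map_mul, htr, zero_mul])]
      rcases n with _ | n
      · simp; ring
      · rw [Nat.add_sub_cancel, pow_succ]; ring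
    linear_combination (v * wi) * hd
      + (v * (q' (E (PowerSeries.derivative B F))) * PowerSeries.X ^ p) * (-hwi)
      - (v * wi * PowerSeries.X ^ p * w * (PowerSeries.X ^ p * w) ^ n *
          q' (E (PowerSeries.derivative B G))) * hgi
  · have h := congrArg PowerSeries.constantCoeff hwi
    rw [map_mul, map_one] at h
    simp only [map_mul, map_add, map_natCast, map_pow, PowerSeries.constantCoeff_X,
      zero_pow hp.ne_zero, zero_mul, add_zero, hvc]
    linear_combination (c * (n : ResidueField B)) * h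

end Coord

section Main

variable [IsDomain (Node ϖ)]

include hp

omit [CharP (ResidueField B) p] [IsAlgClosed (ResidueField B)] [IsLocalRing (Node ϖ)]
  [IsAdicComplete (maximalIdeal (Node ϖ)) (Node ϖ)] in
theorem exists_eq_pow_of_mul_pow_eq {V b e : PowerSeries (ResidueField B)} (hb : b ≠ 0)
    (h : V * b ^ p = e ^ p) : ∃ g, V = g ^ p := by
  obtain ⟨g, rfl⟩ : b ∣ e := (IsIntegrallyClosed.pow_dvd_pow_iff hp.ne_zero).1
    ⟨V, by rw [← h, mul_comm]⟩
  exact ⟨g, mul_right_cancel₀ (pow_ne_zero p hb) (by rw [h, mul_pow, mul_comm])⟩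

/-- The datum of a branch: `f = x ^ l y ^ m V` is, up to a constant, a quotient of functions of the
coordinate without `ε`-parts, modulo `y ^ (i + 2)`. -/
theorem branch_log (hu : IsBranchCoord hϖ red₂ hfst hsnd p u c) {f V : Node ϖ} {l m i : ℕ}
    (hf : f = nx ϖ ^ l * ny ϖ ^ m * V) (hV : ¬ ny ϖ ∣ V) (hl : p ∣ l) (hi : p ∣ i)
    {a d : B⟦X⟧} (ha : IsEpsFree red₂ a) (hd : IsEpsFree red₂ d) {na nd : ℕ}
    {a' d' : PowerSeries (ResidueField B)}
    (haF : PowerSeries.map (residue B) a = PowerSeries.X ^ na * a')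
    (ha0 : PowerSeries.constantCoeff a' ≠ 0)
    (hdF : PowerSeries.map (residue B) d = PowerSeries.X ^ nd * d')
    (hd0 : PowerSeries.constantCoeff d' ≠ 0)
    {w : B} (hw : IsUnit w) (hw2 : TrivSqZeroExt.snd (red₂ w) = 0)
    (h : ny ϖ ^ (i + 2) ∣ E d * f - E a * nc ϖ (w * ϖ ^ i)) :
    m = i ∧ (∃ g, q' V = g ^ p) ∧ ∃ bV : PowerSeries (ResidueField B),
      TrivSqZeroExt.snd (β' V) = ι (q' V) * ι bV ∧
      PowerSeries.constantCoeff bV = c * ((na : ResidueField B) - nd) := by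
  have := Fact.mk hp
  obtain ⟨hqa, ba, hba, hba0⟩ := exists_log hp hϖ red₂ hfst hsnd hum hu ha haF ha0
  obtain ⟨hqd, bd, hbd, hbd0⟩ := exists_log hp hϖ red₂ hfst hsnd hum hu hd hdF hd0
  have hy := prime_ny hϖ
  have hker : ∀ r : Node ϖ, q' r = 0 ↔ ny ϖ ∣ r := fun r => by
    rw [← RingHom.mem_ker, ker_q₁ hϖ, Ideal.mem_span_singleton]
  have hwr : residue B w ≠ 0 := (residue_ne_zero_iff_isUnit w).2 hw
  have hL : ¬ ny ϖ ∣ E d * nx ϖ ^ l * V := by
    rw [← hker, map_mul, map_mul, map_pow, q₁_nx]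
    exact mul_ne_zero (mul_ne_zero hqd (pow_ne_zero _ PowerSeries.X_ne_zero))
      (fun h => hV ((hker V).1 h))
  have hR : ¬ ny ϖ ∣ E a * nc ϖ w * nx ϖ ^ i := by
    rw [← hker, map_mul, map_mul, map_pow, q₁_nx, q₁_nc]
    exact mul_ne_zero (mul_ne_zero hqa (by simpa using hwr)) (pow_ne_zero _ PowerSeries.X_ne_zero)
  set Lf := E d * nx ϖ ^ l * V with hLf
  set Rf := E a * nc ϖ w * nx ϖ ^ i with hRf
  have h' : ny ϖ ^ (i + 2) ∣ ny ϖ ^ m * Lf - ny ϖ ^ i * Rf := by
    convert h using 1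
    rw [hf, map_mul (nc ϖ), map_pow, ← nx_mul_ny, hLf, hRf, mul_pow]
    ring
  have hmi : m = i := by
    rcases lt_trichotomy m i with hlt | heq | hgt
    · refine absurd ?_ hL
      have h1 := dvd_add ((pow_dvd_pow _ (show m + 1 ≤ i + 2 by omega)).trans h')
        ((pow_dvd_pow _ (show m + 1 ≤ i by omega)).mul_right Rf)
      rw [sub_add_cancel, pow_succ] at h1
      exact (mul_dvd_mul_iff_left (pow_ne_zero m hy.ne_zero)).1 h1
    · exact heq
    · refine absurd ?_ hR
      have h1 := dvd_sub ((pow_dvd_pow _ (show i + 1 ≤ m by omega)).mul_right Lf)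
        ((pow_dvd_pow _ (show i + 1 ≤ i + 2 by omega)).trans h')
      rw [sub_sub_cancel, pow_succ] at h1
      exact (mul_dvd_mul_iff_left (pow_ne_zero i hy.ne_zero)).1 h1
  refine ⟨hmi, ?_⟩
  subst hmi
  obtain ⟨z, hz⟩ : ny ϖ ^ 2 ∣ Lf - Rf := by
    rw [pow_add, ← mul_sub] at h'
    exact (mul_dvd_mul_iff_left (pow_ne_zero m hy.ne_zero)).1 h'
  have hβ : β' Lf = β' Rf := by
    rw [← sub_eq_zero, ← map_sub, hz, map_mul, map_pow, β_ny, sq, TrivSqZeroExt.inr_mul_inr,
      zero_mul]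
  have h1 : ι (q' Lf) = ι (q' Rf) := by
    rw [← β_fst red₂ hfst (mem_max_of_irreducible hϖ) hsnd, hβ, β_fst]
  have h1' : q' Lf = q' Rf := HahnSeries.ofPowerSeries_injective h1
  obtain ⟨l', rfl⟩ := hl
  obtain ⟨i', rfl⟩ := hi
  rw [hLf, hRf] at h1'
  simp only [map_mul, map_pow, q₁_nx, q₁_nc] at h1'
  constructor
  · obtain ⟨ga, hga⟩ := exists_pow_eq_q₁_eval hp hϖ red₂ hfst hsnd hum hu a
    obtain ⟨gd, hgd⟩ := exists_pow_eq_q₁_eval hp hϖ red₂ hfst hsnd hum hu d
    obtain ⟨w', hw'⟩ := IsAlgClosed.exists_pow_nat_eq (residue B w) hp.pos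
    refine exists_eq_pow_of_mul_pow_eq hp (b := gd * PowerSeries.X ^ l')
      (e := ga * PowerSeries.C w' * PowerSeries.X ^ i') ?_ ?_
    · refine mul_ne_zero (fun h => hqd ?_) (pow_ne_zero _ PowerSeries.X_ne_zero)
      rw [← hgd, h, zero_pow hp.ne_zero]
    · rw [mul_pow, mul_pow, mul_pow, hga, hgd, ← map_pow, hw', ← pow_mul, ← pow_mul,
        mul_comm l', mul_comm i']
      linear_combination h1'
  · refine ⟨ba - bd, ?_, by rw [map_sub, hba0, hbd0]; ring⟩
    have hchar : (p : LaurentSeries (ResidueField B)) = 0 := by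
      rw [← map_natCast (HahnSeries.C : ResidueField B →+* LaurentSeries (ResidueField B)),
        CharP.cast_eq_zero, map_zero]
    have h2 := congrArg TrivSqZeroExt.snd hβ
    rw [hLf, hRf] at h2
    simp only [map_mul, map_pow, β_nx, β_nc, hw2, map_zero, TrivSqZeroExt.snd_mul,
      TrivSqZeroExt.snd_pow, TrivSqZeroExt.fst_mul, TrivSqZeroExt.fst_pow, TrivSqZeroExt.fst_add,
      TrivSqZeroExt.snd_add, TrivSqZeroExt.fst_inl, TrivSqZeroExt.snd_inl, TrivSqZeroExt.fst_inr,
      TrivSqZeroExt.snd_inr, β_fst, hba, hbd, nsmul_eq_mul, Nat.cast_mul, hchar, zero_mul,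
      smul_eq_mul, MulOpposite.smul_eq_mul_unop, MulOpposite.unop_op, mul_zero, add_zero,
      zero_add] at h2
    set X' : LaurentSeries (ResidueField B) := HahnSeries.single (1 : ℤ) 1
    have h1i : ι (q' (E d)) * X' ^ (p * l') * ι (q' V) =
        ι (q' (E a)) * HahnSeries.C (residue B w) * X' ^ (p * i') := by
      rw [← HahnSeries.ofPowerSeries_C, show X' = ι PowerSeries.X from
        HahnSeries.ofPowerSeries_X.symm, ← map_pow, ← map_pow, ← map_mul, ← map_mul, ← map_mul,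
        ← map_mul, h1']
    rw [map_sub]
    refine mul_left_cancel₀ (a := ι (q' (E d)) * X' ^ (p * l')) ?_ ?_
    · refine mul_ne_zero (fun h => hqd (HahnSeries.ofPowerSeries_injective (by rw [h, map_zero]))) ?_
      exact pow_ne_zero _ (HahnSeries.single_ne_zero one_ne_zero)
    · linear_combination h2 - ι ba * h1i

variable [UniqueFactorizationMonoid (Node ϖ)]
variable {u₂ : Node ϖ} (hum₂ : u₂ ∈ maximalIdeal (Node ϖ)) {c₂ : ResidueField B}

local notation "E₂" => evalSeries (nc ϖ) u₂ hum₂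

/-- **Orders at a node.** -/
theorem node_orders (hu : IsBranchCoord hϖ red₂ hfst hsnd p u c)
    (hu₂ : IsBranchCoord hϖ red₂ hfst hsnd p u₂ c₂) {f t b : Node ϖ}
    (hf : f = t * b ^ p) (hf0 : f ≠ 0) (ht : ∀ q, Prime q → q ∣ t → q ∣ nc ϖ ϖ)
    {i j : ℕ} (hi : p ∣ i) (hj : p ∣ j) {a d a₂ d₂ : B⟦X⟧}
    (ha : IsEpsFree red₂ a) (hd : IsEpsFree red₂ d) (ha₂ : IsEpsFree red₂ a₂)
    (hd₂ : IsEpsFree red₂ d₂) {na nd na₂ nd₂ : ℕ}
    {a' d' a₂' d₂' : PowerSeries (ResidueField B)}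
    (haF : PowerSeries.map (residue B) a = PowerSeries.X ^ na * a')
    (ha0 : PowerSeries.constantCoeff a' ≠ 0)
    (hdF : PowerSeries.map (residue B) d = PowerSeries.X ^ nd * d')
    (hd0 : PowerSeries.constantCoeff d' ≠ 0)
    (haF₂ : PowerSeries.map (residue B) a₂ = PowerSeries.X ^ na₂ * a₂')
    (ha0₂ : PowerSeries.constantCoeff a₂' ≠ 0)
    (hdF₂ : PowerSeries.map (residue B) d₂ = PowerSeries.X ^ nd₂ * d₂')
    (hd0₂ : PowerSeries.constantCoeff d₂' ≠ 0)
    {w w₂ : B} (hw : IsUnit w) (hw₂ : IsUnit w₂) (hw' : TrivSqZeroExt.snd (red₂ w) = 0)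
    (hw₂' : TrivSqZeroExt.snd (red₂ w₂) = 0)
    (h₁ : ny ϖ ^ (i + 2) ∣ E d * f - E a * nc ϖ (w * ϖ ^ i))
    (h₂ : ny ϖ ^ (j + 2) ∣ E₂ d₂ * swap ϖ f - E₂ a₂ * nc ϖ (w₂ * ϖ ^ j)) :
    c * ((na : ResidueField B) - nd) = c₂ * ((na₂ : ResidueField B) - nd₂) := by
  have := Fact.mk hp
  have hx := prime_nx hϖ
  have hy := prime_ny hϖ
  have ht0 : t ≠ 0 := fun h => hf0 (by rw [hf, h, zero_mul])
  have hb0 : b ≠ 0 := fun h => hf0 (by rw [hf, h, zero_pow hp.ne_zero, mul_zero])
  obtain ⟨U, l, m, htU⟩ := KummerLocal.exists_eq_unit_mul_pow_mul_pow (x := nx ϖ) (y := ny ϖ) t ht0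
    fun q hq hqt => by
      have := ht q hq hqt
      rw [← nx_mul_ny] at this
      rcases hq.dvd_or_dvd this with h | h
      · exact Or.inl (hq.associated_of_dvd hx h)
      · exact Or.inr (hq.associated_of_dvd hy h)
  obtain ⟨e₁, b₁, hxb, hb₁⟩ := WfDvdMonoid.max_power_factor hb0 hx.irreducible
  have hb₁0 : b₁ ≠ 0 := fun h => hb0 (by rw [hb₁, h, mul_zero])
  obtain ⟨e₂, b₂, hyb, hb₂⟩ := WfDvdMonoid.max_power_factor hb₁0 hy.irreducible
  have hxb₂ : ¬ nx ϖ ∣ b₂ := fun h => hxb (hb₂ ▸ h.mul_left _)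
  set V : Node ϖ := U * b₂ ^ p with hV
  have hyV : ¬ ny ϖ ∣ V := fun h => (hy.dvd_or_dvd h).elim
    (fun h => hy.not_isUnit (isUnit_of_dvd_unit h U.isUnit)) fun h => hyb (hy.dvd_of_dvd_pow h)
  have hxV : ¬ nx ϖ ∣ V := fun h => (hx.dvd_or_dvd h).elim
    (fun h => hx.not_isUnit (isUnit_of_dvd_unit h U.isUnit)) fun h => hxb₂ (hx.dvd_of_dvd_pow h)
  have hfV : f = nx ϖ ^ (l + e₁ * p) * ny ϖ ^ (m + e₂ * p) * V := by
    rw [hf, htU, hb₁, hb₂, hV]; ring
  have hsfV : swap ϖ f = nx ϖ ^ (m + e₂ * p) * ny ϖ ^ (l + e₁ * p) * swap ϖ V := by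
    rw [hfV]; simp only [map_mul, map_pow, swap_nx, swap_ny]; ring
  have hyV₂ : ¬ ny ϖ ∣ swap ϖ V := fun h => hxV (by
    have := map_dvd (swap ϖ) h
    rwa [swap_ny, swap_swap] at this)
  -- the exponents are multiples of `p`
  have hexp : ∀ (r : Node ϖ) (k₁ k₂ i : ℕ) (a d : B⟦X⟧) (u : Node ϖ) (hum : u ∈ maximalIdeal _)
      (V : Node ϖ) (w : B), ¬ ny ϖ ∣ V → r = nx ϖ ^ k₁ * ny ϖ ^ k₂ * V →
      q' (evalSeries (nc ϖ) u hum a) ≠ 0 → q' (evalSeries (nc ϖ) u hum d) ≠ 0 → IsUnit w →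
      ny ϖ ^ (i + 2) ∣ evalSeries (nc ϖ) u hum d * r -
        evalSeries (nc ϖ) u hum a * nc ϖ (w * ϖ ^ i) → k₂ = i := by
    intro r k₁ k₂ i a d u hum V w hV hr hqa hqd hw h
    have hk : ∀ r : Node ϖ, q' r = 0 ↔ ny ϖ ∣ r := fun r => by
      rw [← RingHom.mem_ker, ker_q₁ hϖ, Ideal.mem_span_singleton]
    set Lf := evalSeries (nc ϖ) u hum d * nx ϖ ^ k₁ * V with hLf
    set Rf := evalSeries (nc ϖ) u hum a * nc ϖ w * nx ϖ ^ i with hRf
    have hL : ¬ ny ϖ ∣ Lf := by
      rw [← hk, hLf, map_mul, map_mul, map_pow, q₁_nx]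
      exact mul_ne_zero (mul_ne_zero hqd (pow_ne_zero _ PowerSeries.X_ne_zero))
        (fun h => hV ((hk V).1 h))
    have hR : ¬ ny ϖ ∣ Rf := by
      rw [← hk, hRf, map_mul, map_mul, map_pow, q₁_nx, q₁_nc]
      exact mul_ne_zero (mul_ne_zero hqa (by simpa using (residue_ne_zero_iff_isUnit w).2 hw))
        (pow_ne_zero _ PowerSeries.X_ne_zero)
    have h' : ny ϖ ^ (i + 2) ∣ ny ϖ ^ k₂ * Lf - ny ϖ ^ i * Rf := by
      convert h using 1
      rw [hr, map_mul (nc ϖ), map_pow, ← nx_mul_ny, hLf, hRf, mul_pow]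
      ring
    rcases lt_trichotomy k₂ i with hlt | heq | hgt
    · refine absurd ?_ hL
      have h1 := dvd_add ((pow_dvd_pow _ (show k₂ + 1 ≤ i + 2 by omega)).trans h')
        ((pow_dvd_pow _ (show k₂ + 1 ≤ i by omega)).mul_right Rf)
      rw [sub_add_cancel, pow_succ] at h1
      exact (mul_dvd_mul_iff_left (pow_ne_zero k₂ hy.ne_zero)).1 h1
    · exact heq
    · refine absurd ?_ hR
      have h1 := dvd_sub ((pow_dvd_pow _ (show i + 1 ≤ k₂ by omega)).mul_right Lf)
        ((pow_dvd_pow _ (show i + 1 ≤ i + 2 by omega)).trans h')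
      rw [sub_sub_cancel, pow_succ] at h1
      exact (mul_dvd_mul_iff_left (pow_ne_zero i hy.ne_zero)).1 h1
  have hm : m + e₂ * p = i := hexp f _ _ i a d u hum V w hyV hfV
    (exists_log hp hϖ red₂ hfst hsnd hum hu ha haF ha0).1
    (exists_log hp hϖ red₂ hfst hsnd hum hu hd hdF hd0).1 hw h₁
  have hl : l + e₁ * p = j := hexp _ _ _ j a₂ d₂ u₂ hum₂ _ w₂ hyV₂ hsfV
    (exists_log hp hϖ red₂ hfst hsnd hum₂ hu₂ ha₂ haF₂ ha0₂).1
    (exists_log hp hϖ red₂ hfst hsnd hum₂ hu₂ hd₂ hdF₂ hd0₂).1 hw₂ h₂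
  obtain ⟨-, hV₁, bV, hbV, hbV0⟩ := branch_log hp hϖ red₂ hfst hsnd hum hu hfV hyV (hl ▸ hj) hi
    ha hd haF ha0 hdF hd0 hw hw' h₁
  obtain ⟨-, hV₂, bV₂, hbV₂, hbV₂0⟩ := branch_log hp hϖ red₂ hfst hsnd hum₂ hu₂ hsfV hyV₂
    (hm ▸ hi) hj ha₂ hd₂ haF₂ ha0₂ hdF₂ hd0₂ hw₂ hw₂' h₂
  -- pass from `V` to the unit `U`
  have hchar : (p : LaurentSeries (ResidueField B)) = 0 := by
    rw [← map_natCast (HahnSeries.C : ResidueField B →+* LaurentSeries (ResidueField B)),
      CharP.cast_eq_zero, map_zero]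
  have hU : ∀ (r z : Node ϖ) (bb : PowerSeries (ResidueField B)), ¬ ny ϖ ∣ z →
      (∃ g, q' (r * z ^ p) = g ^ p) →
      TrivSqZeroExt.snd (β' (r * z ^ p)) = ι (q' (r * z ^ p)) * ι bb →
      (∃ g, q' r = g ^ p) ∧ TrivSqZeroExt.snd (β' r) = ι (q' r) * ι bb := by
    intro r z bb hz hg hb
    have hz0 : q' z ≠ 0 := by
      rwa [Ne, ← RingHom.mem_ker, ker_q₁ hϖ, Ideal.mem_span_singleton]
    obtain ⟨g, hg⟩ := hg
    rw [map_mul, map_pow] at hg
    refine ⟨exists_eq_pow_of_mul_pow_eq hp hz0 hg, ?_⟩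
    simp only [map_mul, map_pow, TrivSqZeroExt.snd_mul, TrivSqZeroExt.snd_pow,
      TrivSqZeroExt.fst_pow, β_fst, nsmul_eq_mul, hchar, zero_mul, smul_eq_mul,
      MulOpposite.smul_eq_mul_unop, MulOpposite.unop_op, mul_zero, zero_add] at hb
    refine mul_right_cancel₀ (b := ι (q' z) ^ p) (pow_ne_zero _ fun h => hz0
      (HahnSeries.ofPowerSeries_injective (by rw [h, map_zero]))) ?_
    linear_combination hb
  have hVs : swap ϖ V = swap ϖ (U : Node ϖ) * swap ϖ b₂ ^ p := by rw [hV, map_mul, map_pow]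
  have hyb₂' : ¬ ny ϖ ∣ swap ϖ b₂ := fun h => hxb₂ (by
    have := map_dvd (swap ϖ) h
    rwa [swap_ny, swap_swap] at this)
  obtain ⟨hU₁, hUb⟩ := hU U b₂ bV hyb hV₁ hbV
  obtain ⟨hU₂, hUb₂⟩ := hU _ _ bV₂ hyb₂' (hVs ▸ hV₂) (hVs ▸ hbV₂)
  obtain ⟨g₁, hg₁⟩ := hU₁
  obtain ⟨g₂, hg₂⟩ := hU₂
  obtain ⟨B₁, B₂, hB, hB₁, hB₂⟩ := exists_common_constant red₂ hfst (mem_max_of_irreducible hϖ)
    hsnd hϖ hp U.isUnit hg₁ hg₂
  rw [β_fst] at hB₁ hB₂
  have hne : ∀ r : Node ϖ, IsUnit r → ι (q' r) ≠ 0 := fun r hr h =>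
    (hr.map (q')).ne_zero (HahnSeries.ofPowerSeries_injective (by rw [h, map_zero]))
  have e₁' : bV = B₁ := HahnSeries.ofPowerSeries_injective
    (mul_left_cancel₀ (hne _ U.isUnit) (hUb.symm.trans hB₁))
  have e₂' : bV₂ = B₂ := HahnSeries.ofPowerSeries_injective
    (mul_left_cancel₀ (hne _ (U.isUnit.map (swap ϖ))) (hUb₂.symm.trans hB₂))
  rw [← hbV0, ← hbV₂0, e₁', e₂', hB]

end Main

end Fermat.Agent.AtP
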