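import Fermat.Agent.AtP.NodeRoot

/-!
# The parametrisation of a node

Given a polynomial `H` over `B` and `x₀` fixed by `Frobenius²` modulo `ϖ`, the node ring contains
`T ≡ x₀`, `Y ≡ x₀ ^ p` with `T = μ x ^ p + Y ^ p` and `Y = T ^ p + H (T, Y) y ^ p`; these satisfy
`(T ^ p - Y) (T - Y ^ p) + p H (T, Y) = 0`.
-/

set_option autoImplicit false

noncomputable section

open IsLocalRing Polynomial
open scoped PowerSeries DualNumber

namespace Fermat.Agent.AtP

/-- Value of a polynomial in two variables. -/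
def eval₂₂ {B R : Type*} [CommRing B] [CommRing R] (φ : B →+* R) (s t : R) (H : B[X][X]) : R :=
  H.eval₂ (eval₂RingHom φ s) t

/-- Evaluation in two variables commutes with ring maps. -/
theorem map_eval₂₂ {B R R' : Type*} [CommRing B] [CommRing R] [CommRing R'] (g : R →+* R')
    (φ : B →+* R) (s t : R) (H : B[X][X]) :
    g (eval₂₂ φ s t H) = eval₂₂ (g.comp φ) (g s) (g t) H := by
  have h : g.comp (eval₂RingHom φ s) = eval₂RingHom (g.comp φ) (g s) :=
    Polynomial.ringHom_ext (by simp) (by simp)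
  rw [eval₂₂, hom_eval₂, h, eval₂₂]

theorem pow_sub_pow_mem {R : Type*} [CommRing R] {I : Ideal R} {p : ℕ} (hp : (p : R) ∈ I) {n : ℕ}
    {a b : R} (h : a - b ∈ I) (hn : a - b ∈ I ^ n) : a ^ p - b ^ p ∈ I ^ (n + 1) := by
  rw [← geom_sum₂_mul, pow_succ']
  refine Ideal.mul_mem_mul ?_ hn
  have hq : ∀ i ∈ Finset.range p, a ^ i * b ^ (p - 1 - i) - b ^ (p - 1) ∈ I := by
    intro i hi
    rw [Finset.mem_range] at hi
    have : a ^ i * b ^ (p - 1 - i) - b ^ (p - 1) = (a ^ i - b ^ i) * b ^ (p - 1 - i) := by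
      rw [sub_mul, ← pow_add b, show i + (p - 1 - i) = p - 1 by omega]
    rw [this]
    exact Ideal.mul_mem_right _ _ (Ideal.mem_of_dvd _ (sub_dvd_pow_sub_pow a b i) h)
  have hsum := Ideal.sum_mem I hq
  rw [Finset.sum_sub_distrib, Finset.sum_const, Finset.card_range, nsmul_eq_mul] at hsum
  simpa using add_mem hsum (Ideal.mul_mem_right (b ^ (p - 1)) _ hp)

variable {B : Type} [CommRing B] [IsDomain B] [IsDiscreteValuationRing B] {ϖ μ x₀ : B} {p : ℕ}
  {H : B[X][X]}

/-- The equations of a node parametrisation. -/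
structure IsNodeParam (ϖ μ x₀ : B) (p : ℕ) (H : B[X][X]) (T Y : Node ϖ) : Prop where
  sub₁ : ¬ IsUnit (T - nc ϖ x₀)
  sub₂ : ¬ IsUnit (Y - nc ϖ x₀ ^ p)
  eq₁ : T = nc ϖ μ * nx ϖ ^ p + Y ^ p
  eq₂ : Y = T ^ p + eval₂₂ (nc ϖ) T Y H * ny ϖ ^ p

variable (hp : p.Prime) (hϖ : Irreducible ϖ) (hpϖ : (p : B) = ϖ ^ p * μ)
  (hx₀ : residue B x₀ ^ p ^ 2 = residue B x₀)
include hp hϖ hpϖ

include hx₀ in
/-- The node parametrisation exists. -/
theorem exists_isNodeParam [IsAdicComplete (maximalIdeal B) B] (H : B[X][X]) :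
    ∃ T Y : Node ϖ, IsNodeParam ϖ μ x₀ p H T Y := by
  have := isLocalRing_node ϖ (mem_max_of_irreducible hϖ)
  have := isAdicComplete_node hϖ
  set I := maximalIdeal (Node ϖ) with hI
  have hIm : I = Ideal.span {nx ϖ, ny ϖ} := maximalIdeal_node hϖ
  have hxI : nx ϖ ∈ I := hIm ▸ Ideal.subset_span (by simp)
  have hyI : ny ϖ ∈ I := hIm ▸ Ideal.subset_span (by simp)
  have hncI : ∀ b ∈ maximalIdeal B, nc ϖ b ∈ I := by
    intro b hb
    rw [hϖ.maximalIdeal_eq, Ideal.mem_span_singleton] at hb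
    exact Ideal.mem_of_dvd _ (map_dvd (nc ϖ) hb) (by rw [← nx_mul_ny]; exact I.mul_mem_right _ hxI)
  have hpI : (p : Node ϖ) ∈ I := by
    rw [← map_natCast (nc ϖ)]
    refine hncI _ ?_
    rw [hpϖ]
    exact Ideal.mul_mem_right _ _
      (Ideal.pow_mem_of_mem _ (mem_max_of_irreducible hϖ) _ hp.pos)
  set x := nc ϖ x₀
  let τ : Node ϖ → Node ϖ := fun Z => nc ϖ μ * nx ϖ ^ p + (x ^ p + Z) ^ p
  let F : Node ϖ → Node ϖ := fun Z =>
    τ Z ^ p + eval₂₂ (nc ϖ) (τ Z) (x ^ p + Z) H * ny ϖ ^ p - x ^ p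
  have hτ : ∀ Z ∈ I, τ Z - x ∈ I := by
    intro Z hZ
    have h1 : (x ^ p + Z) ^ p - (x ^ p) ^ p ∈ I :=
      Ideal.mem_of_dvd _ (sub_dvd_pow_sub_pow _ _ p) (by simpa using hZ)
    have h2 : x ^ p ^ 2 - x ∈ I := by
      rw [← map_pow, ← map_sub]
      exact hncI _ (by rw [← residue_eq_zero_iff, map_sub, map_pow, hx₀, sub_self])
    rw [← pow_mul, ← pow_two p] at h1
    have h3 := add_mem (add_mem h1 h2)
      (I.mul_mem_left (nc ϖ μ) (Ideal.pow_mem_of_mem _ hxI p hp.pos))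
    convert h3 using 1
    simp only [τ]
    ring
  obtain ⟨Z, hZI, hZ⟩ := exists_fixedPoint_mem (I := I) F (by
      have h1 : τ 0 ^ p - x ^ p ∈ I :=
        Ideal.mem_of_dvd _ (sub_dvd_pow_sub_pow _ _ p) (hτ 0 (zero_mem I))
      have h2 := add_mem h1 (I.mul_mem_left (eval₂₂ (nc ϖ) (τ 0) (x ^ p + 0) H)
        (Ideal.pow_mem_of_mem _ hyI p hp.pos))
      convert h2 using 1
      simp only [F]
      ring) fun n a b ha hb hab => by
    have h0 : ∀ i, (x ^ p + a) - (x ^ p + b) ∈ I ^ i ↔ a - b ∈ I ^ i := fun i => by simp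
    have hT : τ a - τ b ∈ I ^ (n + 1) := by
      simpa [τ] using pow_sub_pow_mem hpI (a := x ^ p + a) (b := x ^ p + b)
        (by simpa using sub_mem ha hb) ((h0 n).2 hab)
    have hTp : τ a ^ p - τ b ^ p ∈ I ^ (n + 1) :=
      pow_sub_pow_mem hpI (by simpa using sub_mem (hτ a ha) (hτ b hb))
        (Ideal.pow_le_pow_right n.le_succ hT)
    have hH : eval₂₂ (nc ϖ) (τ a) (x ^ p + a) H - eval₂₂ (nc ϖ) (τ b) (x ^ p + b) H ∈ I ^ n := by
      rw [← Ideal.Quotient.eq, map_eval₂₂, map_eval₂₂,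
        Ideal.Quotient.eq.2 (Ideal.pow_le_pow_right n.le_succ hT),
        Ideal.Quotient.eq.2 ((h0 n).2 hab)]
    have hHy := Ideal.mul_mem_mul hH (Ideal.pow_mem_of_mem _ hyI p hp.pos)
    rw [← pow_succ] at hHy
    convert add_mem hTp hHy using 1
    simp only [F]
    ring
  refine ⟨τ Z, x ^ p + Z, (mem_maximalIdeal _).1 (hτ Z hZI), ?_, rfl, ?_⟩
  · rw [add_sub_cancel_left]; exact (mem_maximalIdeal _).1 hZI
  · linear_combination -hZ

namespace IsNodeParam

variable {T Y : Node ϖ} (hN : IsNodeParam ϖ μ x₀ p H T Y)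
include hN

omit hp hϖ [IsDomain B] [IsDiscreteValuationRing B] in
/-- The Kronecker equation. -/
theorem relation [IsLocalRing B] :
    (T ^ p - Y) * (T - Y ^ p) + (p : Node ϖ) * eval₂₂ (nc ϖ) T Y H = 0 := by
  have h : (p : Node ϖ) = (nx ϖ * ny ϖ) ^ p * nc ϖ μ := by
    rw [nx_mul_ny, ← map_natCast (nc ϖ), hpϖ, map_mul, map_pow]
  rw [h]
  have h1 := hN.eq₁
  have h2 := hN.eq₂
  linear_combination (T ^ p - Y) * h1 - (nc ϖ μ * nx ϖ ^ p) * h2

omit hN hp hpϖ in
theorem constantCoeff_q₁ (r : Node ϖ) (b : B) (h : ¬ IsUnit (r - nc ϖ b)) :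
    PowerSeries.constantCoeff (q₁ ϖ (mem_max_of_irreducible hϖ) r) = residue B b := by
  by_contra hne
  refine h (isUnit_of_constantCoeff_ne_zero ϖ (mem_max_of_irreducible hϖ) ?_)
  rwa [map_sub, map_sub, q₁_nc, PowerSeries.constantCoeff_C, sub_ne_zero]

include hx₀ in
/-- On the branch `y = 0` the coordinate has order `p`, leading coefficient the residue of `μ`. -/
theorem q₁_T : ∃ w : PowerSeries (ResidueField B),
    q₁ ϖ (mem_max_of_irreducible hϖ) T =
        PowerSeries.C (residue B x₀) + PowerSeries.X ^ p * w ∧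
      PowerSeries.constantCoeff w = residue B μ ∧
      q₁ ϖ (mem_max_of_irreducible hϖ) Y = (q₁ ϖ (mem_max_of_irreducible hϖ) T) ^ p := by
  have := charP_residue hp hϖ hpϖ
  have := Fact.mk hp
  have : CharP (PowerSeries (ResidueField B)) p :=
    charP_of_injective_ringHom (f := PowerSeries.C) PowerSeries.C_injective p
  have hp2 := hp.two_le
  have hc := constantCoeff_q₁ hϖ T x₀ hN.sub₁
  set q := q₁ ϖ (mem_max_of_irreducible hϖ)
  have e1 := congrArg q hN.eq₁
  have e2 := congrArg q hN.eq₂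
  simp only [q, map_add, map_mul, map_pow, q₁_nc, q₁_nx, q₁_ny, zero_pow hp.ne_zero, mul_zero,
    add_zero] at e1 e2
  rw [e2] at e1
  set u := q₁ ϖ (mem_max_of_irreducible hϖ) T - PowerSeries.C (residue B x₀) with hu
  have hq2 : ((q₁ ϖ (mem_max_of_irreducible hϖ) T) ^ p) ^ p =
      u ^ p ^ 2 + PowerSeries.C (residue B x₀) := by
    rw [← pow_mul, ← sq, show q₁ ϖ (mem_max_of_irreducible hϖ) T =
      u + PowerSeries.C (residue B x₀) by rw [hu]; ring, add_pow_char_pow, ← map_pow, hx₀]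
  rw [hq2] at e1
  have hu1 : PowerSeries.constantCoeff u = 0 := by
    rw [hu, map_sub, hc, PowerSeries.constantCoeff_C, sub_self]
  have hunit : IsUnit (1 - u ^ (p ^ 2 - 1)) := by
    rw [PowerSeries.isUnit_iff_constantCoeff, map_sub, map_pow, hu1,
      zero_pow (by have := Nat.pow_le_pow_left hp2 2; omega)]
    simp
  have hmul : u * (1 - u ^ (p ^ 2 - 1)) = PowerSeries.C (residue B μ) * PowerSeries.X ^ p := by
    have : u * u ^ (p ^ 2 - 1) = u ^ p ^ 2 := by
      rw [← pow_succ']; congr 1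
      have := Nat.pow_le_pow_left hp2 2; omega
    rw [hu] at this ⊢
    linear_combination e1 - this
  obtain ⟨i, hi⟩ := hunit.exists_right_inv
  refine ⟨PowerSeries.C (residue B μ) * i, ?_, ?_, e2⟩
  · linear_combination i * hmul - u * hi
  · have h := congrArg PowerSeries.constantCoeff hi
    rw [map_mul, map_sub, map_pow, hu1, zero_pow (by have := Nat.pow_le_pow_left hp2 2; omega),
      map_one, sub_zero, one_mul] at h
    simp [h]

include hx₀ in
/-- On the branch `x = 0` the transform has order `p`. -/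
theorem q₂_Y (hH : eval₂₂ (residue B) (residue B x₀) (residue B x₀ ^ p) H ≠ 0) :
    ∃ w : PowerSeries (ResidueField B),
    q₂ ϖ (mem_max_of_irreducible hϖ) Y =
        PowerSeries.C (residue B x₀ ^ p) + PowerSeries.X ^ p * w ∧
      PowerSeries.constantCoeff w ≠ 0 ∧
      q₂ ϖ (mem_max_of_irreducible hϖ) T = (q₂ ϖ (mem_max_of_irreducible hϖ) Y) ^ p := by
  have := charP_residue hp hϖ hpϖ
  have := Fact.mk hp
  have : CharP (PowerSeries (ResidueField B)) p :=
    charP_of_injective_ringHom (f := PowerSeries.C) PowerSeries.C_injective p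
  have hp2 := hp.two_le
  have hm := mem_max_of_irreducible hϖ
  set q := q₂ ϖ hm with hqdef
  have hqc : q.comp (nc ϖ) = (PowerSeries.C).comp (residue B) :=
    RingHom.ext fun b => by simp [q, q₂]
  have e1 := congrArg q hN.eq₁
  have e2 := congrArg q hN.eq₂
  have hnx : q (nx ϖ) = 0 := by simp [q, q₂]
  have hny : q (ny ϖ) = PowerSeries.X := by simp [q, q₂]
  simp only [map_add, map_mul, map_pow, map_eval₂₂, hqc, hnx, hny, zero_pow hp.ne_zero,
    mul_zero, zero_add] at e1 e2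
  set h := eval₂₂ ((PowerSeries.C).comp (residue B)) (q T) (q Y) H
  have hT : PowerSeries.constantCoeff (q T) = residue B x₀ := by
    rw [hqdef, constantCoeff_q₂, constantCoeff_q₁ hϖ T x₀ hN.sub₁]
  have hY : PowerSeries.constantCoeff (q Y) = residue B x₀ ^ p := by
    rw [hqdef, constantCoeff_q₂, constantCoeff_q₁ hϖ Y (x₀ ^ p) (by rw [map_pow]; exact hN.sub₂),
      map_pow]
  have hh : PowerSeries.constantCoeff h ≠ 0 := by
    rw [map_eval₂₂, hT, hY, ← RingHom.comp_assoc,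
      show PowerSeries.constantCoeff.comp PowerSeries.C = RingHom.id (ResidueField B) from
        RingHom.ext fun _ => PowerSeries.constantCoeff_C _, RingHom.id_comp]
    exact hH
  set u := q Y - PowerSeries.C (residue B x₀ ^ p) with hu
  have hu1 : PowerSeries.constantCoeff u = 0 := by
    rw [hu, map_sub, hY, PowerSeries.constantCoeff_C, sub_self]
  have hq2 : ((q Y) ^ p) ^ p = u ^ p ^ 2 + PowerSeries.C (residue B x₀ ^ p) := by
    rw [← pow_mul, ← sq, show q Y = u + PowerSeries.C (residue B x₀ ^ p) by rw [hu]; ring,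
      add_pow_char_pow, ← map_pow, ← pow_mul, mul_comm, pow_mul, hx₀]
  have hne : p ^ 2 - 1 ≠ 0 := by have := Nat.pow_le_pow_left hp2 2; omega
  have hmul : u * (1 - u ^ (p ^ 2 - 1)) = h * PowerSeries.X ^ p := by
    have : u * u ^ (p ^ 2 - 1) = u ^ p ^ 2 := by
      rw [← pow_succ']; congr 1; omega
    rw [e1, hq2] at e2
    rw [hu] at this ⊢
    linear_combination e2 - this
  have hunit : IsUnit (1 - u ^ (p ^ 2 - 1)) := by
    rw [PowerSeries.isUnit_iff_constantCoeff, map_sub, map_pow, hu1, zero_pow hne]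
    simp
  obtain ⟨i, hi⟩ := hunit.exists_right_inv
  refine ⟨h * i, ?_, ?_, e1⟩
  · linear_combination i * hmul - u * hi
  · have h' := congrArg PowerSeries.constantCoeff hi
    rw [map_mul, map_sub, map_pow, hu1, zero_pow hne, map_one, sub_zero, one_mul] at h'
    rw [map_mul, h', mul_one]
    exact hh

variable (red₂ : B →+* DualNumber (ResidueField B))
  (hfst : ∀ b, TrivSqZeroExt.fst (red₂ b) = residue B b)
  (hsnd : TrivSqZeroExt.snd (red₂ ϖ) = 1)

local notation "ι" => HahnSeries.ofPowerSeries ℤ (ResidueField B)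
local notation "β'" => β red₂ hfst (mem_max_of_irreducible hϖ) hsnd

/-- The `ε`-part of the coordinate on the branch `y = 0`. -/
theorem snd_β_T : TrivSqZeroExt.snd (β' T) =
    HahnSeries.C (TrivSqZeroExt.snd (red₂ μ)) * ι (PowerSeries.X ^ p) := by
  have := charP_residue hp hϖ hpϖ
  have hchar : (p : LaurentSeries (ResidueField B)) = 0 := by
    rw [← map_natCast (HahnSeries.C : ResidueField B →+* LaurentSeries (ResidueField B)),
      CharP.cast_eq_zero, map_zero]
  have h := congrArg (fun r => TrivSqZeroExt.snd (β' r)) hN.eq₁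
  simp only [map_add, map_mul, map_pow, β_nc, β_nx, TrivSqZeroExt.snd_add, TrivSqZeroExt.snd_mul,
    TrivSqZeroExt.snd_pow, TrivSqZeroExt.fst_add, TrivSqZeroExt.fst_inl, TrivSqZeroExt.fst_inr,
    TrivSqZeroExt.snd_inl, TrivSqZeroExt.snd_inr, nsmul_eq_mul, hchar, zero_mul,
    TrivSqZeroExt.fst_pow, smul_eq_mul, MulOpposite.smul_eq_mul_unop, MulOpposite.unop_op] at h
  rw [h, map_pow, HahnSeries.ofPowerSeries_X]
  ring

/-- On the branch `x = 0` neither coordinate has an `ε`-part, when the coefficients of `H` have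
none. -/
theorem snd_β_swap (hH2 : ∀ i j, TrivSqZeroExt.snd (red₂ ((H.coeff i).coeff j)) = 0) :
    TrivSqZeroExt.snd (β' (swap ϖ T)) = 0 ∧ TrivSqZeroExt.snd (β' (swap ϖ Y)) = 0 := by
  have := charP_residue hp hϖ hpϖ
  have hchar : (p : LaurentSeries (ResidueField B)) = 0 := by
    rw [← map_natCast (HahnSeries.C : ResidueField B →+* LaurentSeries (ResidueField B)),
      CharP.cast_eq_zero, map_zero]
  have hpow : ∀ z : DualNumber (LaurentSeries (ResidueField B)),
      TrivSqZeroExt.snd (z ^ p) = 0 := fun z => by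
    simp [TrivSqZeroExt.snd_pow, hchar]
  have e1 := congrArg (fun r => β' (swap ϖ r)) hN.eq₁
  have e2 := congrArg (fun r => β' (swap ϖ r)) hN.eq₂
  simp only [map_add, map_mul, map_pow, swap_nc, swap_nx, swap_ny, map_eval₂₂] at e1 e2
  set φ := (β').comp ((swap ϖ).comp (nc ϖ)) with hφ
  set a := β' (swap ϖ T)
  set b := β' (swap ϖ Y)
  have hny0 : (β' (ny ϖ)) ^ p = 0 := by
    rw [β_ny]
    refine TrivSqZeroExt.ext ?_ ?_
    · simp [TrivSqZeroExt.fst_pow, hp.ne_zero]
    · exact hpow _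
  rw [hny0, mul_zero, zero_add] at e1
  have ha : TrivSqZeroExt.snd a = 0 := by rw [e1]; exact hpow _
  refine ⟨ha, ?_⟩
  set y₁ := TrivSqZeroExt.snd b
  set b₀ : DualNumber (LaurentSeries (ResidueField B)) :=
    TrivSqZeroExt.inl (TrivSqZeroExt.fst b)
  set P := H.map (eval₂RingHom φ a) with hP
  have hb : b = b₀ + TrivSqZeroExt.inr y₁ := (TrivSqZeroExt.inl_fst_add_inr_snd_eq b).symm
  obtain ⟨K, hK⟩ := Polynomial.binomExpansion P b₀ (TrivSqZeroExt.inr y₁)
  rw [← hb, sq, TrivSqZeroExt.inr_mul_inr, mul_zero, add_zero] at hK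
  -- coefficients without `ε`-part
  set J : LaurentSeries (ResidueField B) →+* DualNumber (LaurentSeries (ResidueField B)) :=
    TrivSqZeroExt.inlHom _ _
  set ψ : B →+* LaurentSeries (ResidueField B) :=
    ((ι).comp PowerSeries.C).comp (residue B) with hψ
  have hφ0 : ∀ c, TrivSqZeroExt.snd (red₂ c) = 0 → φ c = J (ψ c) := fun c hc => by
    simp [φ, J, ψ, β_nc, hc, HahnSeries.ofPowerSeries_C]
  have ha' : a = J (ι (q₁ ϖ (mem_max_of_irreducible hϖ) (swap ϖ T))) := by
    refine TrivSqZeroExt.ext ?_ ?_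
    · simp [J, a, β_fst]
    · simp [J, ha]
  have hPJ : P = (H.map (eval₂RingHom ψ (ι (q₁ ϖ (mem_max_of_irreducible hϖ) (swap ϖ T))))).map J := by
    rw [hP, Polynomial.map_map]
    refine Polynomial.ext fun i => ?_
    rw [coeff_map, coeff_map, RingHom.comp_apply]
    simp only [coe_eval₂RingHom, eval₂_eq_sum_range, map_sum, map_mul, map_pow, ← ha']
    exact Finset.sum_congr rfl fun j _ => by rw [hφ0 _ (hH2 i j)]
  set P₀ := H.map (eval₂RingHom ψ (ι (q₁ ϖ (mem_max_of_irreducible hϖ) (swap ϖ T))))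
  have hev : ∀ Q : (LaurentSeries (ResidueField B))[X],
      (Q.map J).eval b₀ = J (Q.eval (TrivSqZeroExt.fst b)) := fun Q => by
    rw [show b₀ = J (TrivSqZeroExt.fst b) from rfl, eval_map_apply]
  have h2 := congrArg TrivSqZeroExt.snd e2
  rw [show eval₂₂ φ a b H = P.eval b by rw [hP, eval_map]; rfl, hK, hPJ, derivative_map, hev, hev]
    at h2
  simp only [β_nx, TrivSqZeroExt.snd_add, hpow, zero_add, TrivSqZeroExt.snd_mul,
    TrivSqZeroExt.fst_pow, TrivSqZeroExt.fst_add, TrivSqZeroExt.fst_mul, TrivSqZeroExt.fst_inl,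
    TrivSqZeroExt.fst_inr, TrivSqZeroExt.snd_inl, TrivSqZeroExt.snd_inr, J,
    TrivSqZeroExt.inlHom_apply, smul_eq_mul, MulOpposite.smul_eq_mul_unop, MulOpposite.unop_op,
    mul_zero, add_zero, zero_add] at h2
  -- `y₁ = D * y₁ * X ^ p`
  set ρ : PowerSeries (ResidueField B) := eval₂₂ ((PowerSeries.C).comp (residue B))
    (q₁ ϖ (mem_max_of_irreducible hϖ) (swap ϖ T))
    (q₁ ϖ (mem_max_of_irreducible hϖ) (swap ϖ Y)) (derivative H)
  have hD : P₀.derivative.eval (TrivSqZeroExt.fst b) = ι ρ := by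
    rw [show TrivSqZeroExt.fst b = ι (q₁ ϖ (mem_max_of_irreducible hϖ) (swap ϖ Y)) from β_fst ..]
    simp only [P₀, derivative_map, eval_map, ρ, map_eval₂₂]
    rfl
  have hne : (1 : LaurentSeries (ResidueField B)) - ι ρ * (HahnSeries.single (1 : ℤ) 1) ^ p ≠ 0 := by
    rw [← HahnSeries.ofPowerSeries_X, ← map_pow, ← map_mul, ← map_one ι, ← map_sub]
    refine fun h0 => ?_
    have h1 : (1 : PowerSeries (ResidueField B)) - ρ * PowerSeries.X ^ p = 0 :=
      HahnSeries.ofPowerSeries_injective (by rw [h0, map_zero])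
    simpa [hp.ne_zero] using congrArg PowerSeries.constantCoeff h1
  refine (mul_eq_zero.1 (?_ : (1 - ι ρ * (HahnSeries.single (1 : ℤ) 1) ^ p) * y₁ = 0)).resolve_left
    hne
  rw [← hD]
  linear_combination h2

end IsNodeParam

end Fermat.Agent.AtP
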