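import Fermat.Agent.AtP.AssemblyBase
import Fermat.Agent.AtP.NodeParam
import Fermat.Agent.AtP.NodeOrder
import Fermat.Agent.AtP.LambdaPReduction
import Fermat.Agent.AtP.AssemblyLevel

/-!
# The coordinates at a supersingular node

At `x̄ ∉ {0, 1}` with `ordPoly x̄ = 0` the node ring of `C.B` carries `λ ↦ T`, `λ(pτ) ↦ Y`; the
coordinate `T - x₀` has slope `snd μ / μ ≠ 0` on its branch, and `Y - x₀ ^ p` slope `0` on the other.
-/

set_option autoImplicit false

noncomputable section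

open Polynomial IsLocalRing
open scoped PowerSeries DualNumber

namespace Fermat.Agent.AtP

theorem eval₂₂_map {B B' R : Type*} [CommRing B] [CommRing B'] [CommRing R] (f : B →+* B')
    (φ : B' →+* R) (s t : R) (H : B[X][X]) :
    eval₂₂ φ s t (H.map (mapRingHom f)) = ev2 (φ.comp f) s t H := by
  rw [eval₂₂, eval₂_map, ev2, coe_eval₂RingHom]
  congr 1
  exact Polynomial.ringHom_ext (by simp) (by simp)

/-- On the branch `x = 0`: a solution of `t = y ^ p`, `y = t ^ p + H (t, y) X ^ p` is a `p`-th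
power, having zero derivative. -/
theorem exists_pow_eq_of_q₂ {B k : Type*} [CommRing B] [Field k] [IsAlgClosed k] {p : ℕ}
    [CharP k p] (hp : p.Prime) {φ : B →+* k} {H : B[X][X]} {t y z : k⟦X⟧} {x : k}
    (hz : y - PowerSeries.C x = z) (ht : t = y ^ p)
    (hy : y = t ^ p + eval₂₂ ((PowerSeries.C).comp φ) t y H * PowerSeries.X ^ p) :
    ∃ g, z = g ^ p := by
  set D := PowerSeries.derivative k
  have hchar : (p : k⟦X⟧) = 0 := by
    rw [← map_natCast (PowerSeries.C (R := k)), CharP.cast_eq_zero, map_zero]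
  have hpow : ∀ a : k⟦X⟧, D (a ^ p) = 0 := fun a => by
    rw [Derivation.leibniz_pow, nsmul_eq_mul, hchar, zero_mul]
  set ψ := eval₂RingHom ((PowerSeries.C).comp φ) t
  have hψ : ∀ c : B[X], D (ψ c) = 0 := fun c => by
    induction c using Polynomial.induction_on' with
    | add P Q hP hQ => rw [map_add, map_add, hP, hQ, add_zero]
    | monomial i b =>
      have hC : D (PowerSeries.C (φ b)) = 0 := PowerSeries.derivative_C
      have hti : D (t ^ i) = 0 := by rw [ht, ← pow_mul, mul_comm, pow_mul]; exact hpow _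
      simp only [ψ, coe_eval₂RingHom, eval₂_monomial, RingHom.comp_apply, Derivation.leibniz,
        hC, hti, smul_zero, add_zero]
  have hH : ∀ H : B[X][X], D (H.eval₂ ψ y) = (derivative H).eval₂ ψ y * D y := fun H => by
    clear hy
    induction H using Polynomial.induction_on' with
    | add P Q hP hQ => rw [eval₂_add, map_add, hP, hQ, derivative_add, eval₂_add, add_mul]
    | monomial i b =>
      rw [eval₂_monomial, derivative_monomial, eval₂_monomial, Derivation.leibniz, hψ b,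
        Derivation.leibniz_pow, map_mul, map_natCast]
      simp [mul_comm, mul_assoc, mul_left_comm]
  have hy' := congrArg D hy
  rw [map_add, hpow, zero_add, Derivation.leibniz, hpow, smul_zero, zero_add, smul_eq_mul,
    show eval₂₂ ((PowerSeries.C).comp φ) t y H = H.eval₂ ψ y from rfl, hH H] at hy'
  have hne : (1 : k⟦X⟧) - (derivative H).eval₂ ψ y * PowerSeries.X ^ p ≠ 0 := fun h0 => by
    simpa [hp.ne_zero] using congrArg PowerSeries.constantCoeff h0
  have hDy : D y = 0 := (mul_eq_zero.1 (show (1 - (derivative H).eval₂ ψ y * PowerSeries.X ^ p) * D y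
    = 0 by linear_combination hy')).resolve_left hne
  refine (exists_pow_eq_of_coeff_eq_zero hp (f := z) fun n hn => ?_).imp fun g h => h.symm
  rcases n with _ | n
  · exact absurd (dvd_zero p) hn
  have h1 := congrArg (PowerSeries.coeff n) (congrArg D hz)
  rw [map_sub, hDy, PowerSeries.derivative_C, sub_zero, map_zero, PowerSeries.coeff_derivative] at h1
  refine (mul_eq_zero.1 h1.symm).resolve_right fun h0 => hn ?_
  rwa [← Nat.cast_add_one, CharP.cast_eq_zero_iff k p] at h0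

namespace Coeff

variable {p : ℕ} [hp : Fact p.Prime] (C : Coeff p)

/-- The correction term of the modular polynomial over `B`. -/
def lamHB : C.B[X][X] := (lamH p).map (mapRingHom C.ofR2)

omit hp in
/-- Elements of `O` have no `ε`-part modulo `ϖ ^ 2`. -/
lemma snd_red₂_of_mem_O {c : C.B} (h : (c : ℂ) ∈ C.O) : TrivSqZeroExt.snd (C.red₂ c) = 0 :=
  (C.snd_eq_zero_iff c).2 ⟨c, h, 0, by simp⟩

lemma snd_red₂_lamHB (i j : ℕ) : TrivSqZeroExt.snd (C.red₂ ((C.lamHB.coeff i).coeff j)) = 0 := by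
  refine C.snd_red₂_of_mem_O ?_
  rw [lamHB, coeff_map, coe_mapRingHom, coeff_map]
  exact C.two_le ((((lamH p).coeff i).coeff j).2)

omit hp in
/-- A residue class has a representative in `O`. -/
lemma exists_mem_O_residue (x : ResidueField C.B) : ∃ x₀ : C.B, (x₀ : ℂ) ∈ C.O ∧ residue C.B x₀ = x := by
  obtain ⟨b, rfl⟩ := residue_surjective x
  obtain ⟨o, ho, hd⟩ := C.seriesHyp.residue b
  refine ⟨o, ho, Eq.symm ?_⟩
  rw [← sub_eq_zero, ← map_sub, residue_eq_zero_iff, C.irred.maximalIdeal_eq,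
    Ideal.mem_span_singleton]
  exact hd

/-- The data at a node. -/
structure NodeCoord (xbar : ResidueField C.B) (T Y : Node C.unif) (x₀ : C.B) : Prop where
  mem₀ : (x₀ : ℂ) ∈ C.O
  residue₀ : residue C.B x₀ = xbar
  sub₁ : T - nc C.unif x₀ ∈ nonunits (Node C.unif)
  sub₂ : Y - nc C.unif (x₀ ^ p) ∈ nonunits (Node C.unif)
  eq₁ : T = nc C.unif C.mu * nx C.unif ^ p + Y ^ p
  eq₂ : ny C.unif ∣ Y - T ^ p
  root : ev2 ((nc C.unif).comp C.ofR2) T Y (lamPoly p) = 0
  coord₁ : ∃ c : ResidueField C.B, c ≠ 0 ∧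
    IsBranchCoord C.irred C.red₂ C.fst_red₂ C.snd_unif p (T - nc C.unif x₀) c
  coord₂ : IsBranchCoord C.irred C.red₂ C.fst_red₂ C.snd_unif p
    (swap C.unif (Y - nc C.unif (x₀ ^ p))) 0

/-- **The coordinates at a node.** -/
theorem exists_nodeCoord (hp2 : p ≠ 2) {xbar : ResidueField C.B} (hx0 : xbar ≠ 0) (hx1 : xbar ≠ 1)
    (hx : (ordPoly p hp2).eval₂ (have := C.charP; ZMod.castHom dvd_rfl (ResidueField C.B)) xbar = 0) :
    ∃ T Y x₀, C.NodeCoord xbar T Y x₀ := by
  have := C.charP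
  obtain ⟨x₀, hx₀O, rfl⟩ := C.exists_mem_O_residue xbar
  obtain ⟨hx2, hH⟩ := lamPoly_node hp2 ((residue C.B).comp C.ofR2) hx0 hx1 hx
  have hH' : eval₂₂ (residue C.B) (residue C.B x₀) (residue C.B x₀ ^ p) C.lamHB ≠ 0 := by
    rwa [lamHB, eval₂₂_map]
  have hm := C.unif_mem
  obtain ⟨T, Y, hN⟩ := exists_isNodeParam (H := C.lamHB) hp.out C.irred C.p_eq hx2
  refine ⟨T, Y, x₀, hx₀O, rfl, hN.sub₁, by rw [map_pow]; exact hN.sub₂, hN.eq₁, ?_, ?_, ?_, ?_⟩
  · exact ⟨eval₂₂ (nc C.unif) T Y C.lamHB * ny C.unif ^ (p - 1), by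
      rw [mul_left_comm, ← pow_succ', Nat.sub_add_cancel hp.out.one_le]
      linear_combination hN.eq₂⟩
  · have h := hN.relation (hpϖ := C.p_eq)
    rw [lamHB, eval₂₂_map] at h
    rw [lamPoly_eq hp2, map_add, map_mul, map_mul, map_sub, map_sub, map_pow, map_pow]
    simp only [ev2, coe_eval₂RingHom, eval₂_C, eval₂_X, map_natCast]
    exact h
  · obtain ⟨w, hw, hw0, -⟩ := hN.q₁_T hp.out C.irred C.p_eq hx2
    have hmu : residue C.B C.mu ≠ 0 := (residue_ne_zero_iff_isUnit _).2 C.mu_isUnit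
    have hpth : ∃ g, q₁ C.unif hm (T - nc C.unif x₀) = g ^ p := by
      rw [map_sub, q₁_nc, hw, add_sub_cancel_left]
      have hT : q₁ C.unif hm T = q₁ C.unif hm (nc C.unif C.mu) * PowerSeries.X ^ p +
          (q₁ C.unif hm Y) ^ p := by
        conv_lhs => rw [hN.eq₁]
        rw [map_add, map_mul, map_pow, map_pow, q₁_nx]
      obtain ⟨m, hm'⟩ := IsAlgClosed.exists_pow_nat_eq (residue C.B C.mu) hp.out.pos
      obtain ⟨r, hr⟩ := IsAlgClosed.exists_pow_nat_eq (residue C.B x₀) hp.out.pos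
      have : CharP (PowerSeries (ResidueField C.B)) p :=
        charP_of_injective_ringHom (f := PowerSeries.C) PowerSeries.C_injective p
      refine ⟨PowerSeries.C m * PowerSeries.X + q₁ C.unif hm Y - PowerSeries.C r, ?_⟩
      rw [sub_pow_char, add_pow_char, mul_pow, ← map_pow PowerSeries.C m p, ← map_pow PowerSeries.C r p, hm', hr]
      rw [hw, q₁_nc] at hT
      linear_combination hT
    refine ⟨TrivSqZeroExt.snd (C.red₂ C.mu) / residue C.B C.mu, div_ne_zero C.snd_mu hmu, hpth, w,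
      PowerSeries.C (TrivSqZeroExt.snd (C.red₂ C.mu)), ?_, ?_, by rwa [hw0], ?_⟩
    · rw [map_sub, q₁_nc, hw, add_sub_cancel_left]
    · rw [map_sub, TrivSqZeroExt.snd_sub, hN.snd_β_T hp.out C.irred C.p_eq C.red₂ C.fst_red₂
        C.snd_unif, β_nc, C.snd_red₂_of_mem_O hx₀O, map_mul, HahnSeries.ofPowerSeries_C]
      simp [mul_comm]
    · rw [PowerSeries.constantCoeff_C, hw0, div_mul_cancel₀ _ hmu]
  · obtain ⟨w, hw, hw0, hT⟩ := hN.q₂_Y hp.out C.irred C.p_eq hx2 hH'
    have hs := hN.snd_β_swap hp.out C.irred C.p_eq C.red₂ C.fst_red₂ C.snd_unif C.snd_red₂_lamHB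
    have hq : q₁ C.unif hm (swap C.unif (Y - nc C.unif (x₀ ^ p))) = PowerSeries.X ^ p * w := by
      rw [map_sub, swap_nc, map_sub, q₁_nc, map_pow (residue C.B),
        show q₁ C.unif hm (swap C.unif Y) = q₂ C.unif hm Y from rfl, hw, add_sub_cancel_left]
    refine ⟨?_, w, 0, hq, ?_, hw0, by simp⟩
    · rw [hq]
      refine exists_pow_eq_of_q₂ hp.out (φ := residue C.B) (t := q₂ C.unif hm T) (y := q₂ C.unif hm Y) (H := C.lamHB)
        (by rw [hw, add_sub_cancel_left]) hT ?_
      conv_lhs => rw [hN.eq₂]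
      rw [map_add, map_mul, map_pow, map_pow, map_eval₂₂,
        show (q₂ C.unif hm).comp (nc C.unif) = (PowerSeries.C).comp (residue C.B) from
          RingHom.ext fun b => by simp [q₂]]
      simp [q₂]
    · rw [map_sub, swap_nc, map_sub, TrivSqZeroExt.snd_sub, hs.2, β_nc,
        C.snd_red₂_of_mem_O (by push_cast; exact pow_mem hx₀O p)]
      simp

end Coeff

end Fermat.Agent.AtP
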