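import Fermat.Agent.AtP.DescentMain

/-!
# Integrality over level `L`
-/

set_option autoImplicit false

noncomputable section

open UpperHalfPlane CongruenceSubgroup
open Polynomial hiding comp
open scoped MatrixGroups Manifold
open Fermat.Agent.KummerES
open ModularCurve (qExpand coeffMap)

namespace Fermat.Agent.AtP

variable {p : ℕ} [hp : Fact p.Prime] {L : ℕ} [NeZero L]

/-- The coefficients of the polynomial of the conjugates. -/
def charCoeff (F : ℍ → ℂ) (k : ℕ) : ℍ → ℂ := fun τ =>
  (∏ x : Option (ZMod p), (X - C (conjFun (L := L) F x τ))).coeff k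

theorem charCoeff_mem (hpL : ¬ p ∣ L) {B : Subring ℂ} {F : ℍ → ℂ}
    (hF : F ∈ weak (levelP p L) (p * L) B) (k : ℕ) :
    charCoeff (p := p) (L := L) F k ∈ weak (Gamma L) L B := by
  classical
  refine mem_weak_of_symmetric (ι := Unit) (B := B) hpL (Fs := fun _ => F) (fun _ => hF)
    (fun v => (∏ x, (X - C (v () x))).coeff k) (fun e v => ?_) fun R W hW => ?_
  · exact congrArg (fun P => Polynomial.coeff P k) (e.prod_comp fun x => X - C (v () x))
  · have h : ∀ (T : Finset (Option (ZMod p))) (j : ℕ),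
        (fun τ => (∏ y ∈ T, (X - C (W () y τ))).coeff j) ∈ R := by
      intro T
      induction T using Finset.induction_on with
      | empty =>
        intro j
        simp only [Finset.prod_empty, coeff_one]
        split_ifs
        · exact one_mem R
        · exact zero_mem R
      | insert a T ha ih =>
        intro j
        simp only [Finset.prod_insert ha, sub_mul, coeff_sub, coeff_C_mul]
        cases j with
        | zero =>
          simp only [mul_coeff_zero, coeff_X_zero, zero_mul, zero_sub]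
          exact neg_mem (mul_mem (hW () a) (ih 0))
        | succ j =>
          simp only [coeff_X_mul]
          exact sub_mem (ih j) (mul_mem (hW () a) (ih (j + 1)))
    exact h _ k


theorem descRep_some_smul (b : ZMod p) (τ : ℍ) :
    ∃ σ : ℍ, descRep p L (some b) • τ = swapMap p L σ ∧
      qL L σ = zetaC p ^ b.val * qL (L * p) τ ^ 1 := by
  refine ⟨(posGL (conjMat (none : Option (ZMod p))) (det_conjMat_pos none))⁻¹ •
    (ModularGroup.T ^ ((L : ℤ) * (b.val : ℤ)) • τ), ?_, ?_⟩
  · simp [descRep, swapMap, conjMap, mul_smul]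
  · set σ := (posGL (conjMat (none : Option (ZMod p))) (det_conjMat_pos none))⁻¹ •
      (ModularGroup.T ^ ((L : ℤ) * (b.val : ℤ)) • τ) with hσ
    have h1 : conjMap (none : Option (ZMod p)) σ = ModularGroup.T ^ ((L : ℤ) * (b.val : ℤ)) • τ := by
      simp [hσ, conjMap]
    have h2 := congrArg (fun z : ℍ => (z : ℂ)) h1
    simp only [coe_conjMap_none, modular_T_zpow_smul, coe_vadd] at h2
    have hp0 : (p : ℂ) ≠ 0 := by exact_mod_cast hp.out.ne_zero
    have hL0 : (L : ℂ) ≠ 0 := by exact_mod_cast NeZero.ne L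
    rw [pow_one, qL, qL, zetaC, Function.Periodic.qParam, Function.Periodic.qParam,
      ← Complex.exp_nat_mul, ← Complex.exp_add]
    congr 1
    push_cast at h2 ⊢
    field_simp
    linear_combination h2

/-- The expansion at `∞` of the coefficients, over the ring of the two expansions. -/
theorem charCoeff_mem_expSubring {B : Subring ℂ} {F : ℍ → ℂ} (hFB : F ∈ expSubring L B)
    (hWB : swapFun p L F ∈ expSubring L B) (k : ℕ) :
    charCoeff (p := p) (L := L) F k ∈ expSubring L B := by
  classical
  obtain ⟨sF, hsF, hsF'⟩ := hFB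
  obtain ⟨sW, hsW, hsW'⟩ := hWB
  let lift : ∀ s : LaurentSeries ℂ, s ∈ coeffSubring B → LaurentSeries B := fun s hs =>
    { coeff := fun i => ⟨s.coeff i, hs i⟩
      isPWO_support' := s.isPWO_support.mono fun i hi h0 => hi (Subtype.ext h0) }
  have hlift : ∀ s hs, coeffMap B.subtype (lift s hs) = s := fun s hs => by
    ext i
    rw [ModularCurve.coeffMap_coeff]
    rfl
  set Q := (X - C (lift sF hsF)) * normPoly p (lift sW hsW) with hQ
  refine ⟨coeffMap B.subtype (Q.coeff k), fun i => by
    rw [ModularCurve.coeffMap_coeff]; exact SetLike.coe_mem _, HasExp.of_qExpand p ?_⟩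
  have hmap : Q.map ((qExpand ℂ p).comp (coeffMap B.subtype)) =
      ∏ i : Option (ZMod p), (X - C (i.elim (qExpand ℂ p sF)
        fun c => twistU (zetaUnit p c) sW)) := by
    rw [hQ, Polynomial.map_mul, normPoly_map (isPrimitiveRoot_zetaC p), Fintype.prod_option,
      Polynomial.map_sub, Polynomial.map_X, Polynomial.map_C, RingHom.comp_apply, hlift, hlift]
    rfl
  have e : qExpand ℂ p (coeffMap B.subtype (Q.coeff k)) =
      (Q.map ((qExpand ℂ p).comp (coeffMap B.subtype))).coeff k := by
    rw [Polynomial.coeff_map, RingHom.comp_apply]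
  rw [e, hmap]
  refine hasExp_prod_coeff _ (fun x => conjFun (L := L) F x) _ (fun x _ => ?_) k
  cases x with
  | none => rw [conjFun_none, Option.elim_none]; exact hsF'.dilate p
  | some b =>
    choose σ hσ1 hσ2 using descRep_some_smul (p := p) (L := L) b
    have h := hsW'.subst σ (pow_ne_zero _ (zetaC_ne_zero p)) 1 hσ2
    rw [ModularCurve.qExpand_one_apply] at h
    convert h using 1
    · funext τ
      simp [conjFun, swapFun, hσ1]
    · ext i
      simp [zetaUnit, rootUnit]

/-- Functions of level `L` over a field which are integral at `∞` are integral, if the special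
fibre is irreducible. -/
theorem mem_weak_of_expansion_infty (H : LevelHyp 2 L (zetaRing L)) {K : Subfield ℂ}
    (hK : zetaRing L ≤ K.toSubring) {B : Subring ℂ} (hB : zetaRing L ≤ B) {π : ℂ} (hπ : π ∈ B)
    (hπ0 : π ≠ 0) (hbd : ∀ x ∈ K, ∃ N : ℕ, π ^ N * x ∈ B) (hBK : B ≤ K.toSubring)
    (hfib : ∀ f : LRing L B, kerAt B π 1 f → f ∈ Ideal.span {constL (L := L) π hπ}) {f : ℍ → ℂ}
    (hf : f ∈ weak (Gamma L) L ⊤) (hfB : f ∈ expSubring L B) : f ∈ weak (Gamma L) L B := by
  classical
  obtain ⟨n, a, e, he, hfe⟩ := exists_eq_sum H hf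
  obtain ⟨t, ht, ht'⟩ := hfB
  choose s hs hs' using fun i => show ∃ s ∈ coeffSubring (zetaRing L), HasExp L (e i) s by
    simpa using (he i).2.2 1
  have hsum : ∀ c : Fin n → ℂ, HasExp L (∑ i, c i • e i)
      (∑ i, HahnSeries.single 0 (c i) * s i) := fun c =>
    HasExp.finset_sum _ fun i _ => (HasExp.const (L := L) (c i)).mul (hs' i)
  obtain ⟨b, hb, hbt⟩ := exists_coeff_mem Finset.univ K (t := t) (fun i => hBK (ht i))
    (fun i _ m => hK (hs i m)) (ht'.series_eq (hfe ▸ hsum a))
  have hfb : f = ∑ i, b i • e i := ht'.fun_eq (hbt ▸ hsum b)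
  obtain ⟨N, hN⟩ := exists_pow_mul_mem Finset.univ hπ hbd (a := b) fun i _ => hb i
  have key : ∀ N : ℕ, (fun τ => π ^ N * f τ) ∈ weak (Gamma L) L B → f ∈ weak (Gamma L) L B := by
    intro N
    induction N with
    | zero => intro h; simpa using h
    | succ N ih =>
      intro h
      refine ih ?_
      have hker : kerAt B π 1 (⟨_, h⟩ : LRing L B) := by
        refine ⟨HahnSeries.single 0 (π ^ N) * t,
          mul_mem (single_mem_coeffSubring 0 (pow_mem hπ N)) ht, ?_⟩
        have hE : HasExp L (comp (fun τ => π ^ (N + 1) * f τ) 1)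
            (HahnSeries.single 0 (π ^ (N + 1)) * t) := by
          rw [KummerES.comp_one]; exact (HasExp.const _).mul ht'
        rw [expAt_apply, hE.expansion_eq, sub_zero, ← mul_assoc, HahnSeries.single_mul_single,
          zero_add, pow_one, ← pow_succ']
      obtain ⟨g, hg⟩ := Ideal.mem_span_singleton'.1 (hfib _ hker)
      have hgf : (fun τ => π ^ N * f τ) = g.1 := by
        funext τ
        have h1 := congrFun (congrArg Subtype.val hg) τ
        simp only [Subring.coe_mul, coe_constL, Pi.mul_apply] at h1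
        refine mul_left_cancel₀ hπ0 ?_
        rw [← mul_assoc, ← pow_succ', ← h1, mul_comm]
      rw [hgf]
      exact g.2
  refine key N ?_
  rw [show (fun τ => π ^ N * f τ) = ∑ i, (fun _ => π ^ N * b i) * e i from by
    funext τ
    simp [hfb, Finset.mul_sum, mul_assoc]]
  exact sum_mem fun i hi => mul_mem (const_mem_weak (hN i hi)) (weak_mono le_rfl hB (he i))

/-- **Integrality**: `F` is killed by a monic polynomial of degree `p + 1` over level `L`. -/
theorem exists_monic (H : LevelHyp 2 L (zetaRing L)) (hpL : ¬ p ∣ L)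
    {K : Subfield ℂ} (hK : zetaRing L ≤ K.toSubring) {B : Subring ℂ} (hB : zetaRing L ≤ B)
    {π : ℂ} (hπ : π ∈ B) (hπ0 : π ≠ 0) (hbd : ∀ x ∈ K, ∃ N : ℕ, π ^ N * x ∈ B)
    (hBK : B ≤ K.toSubring)
    (hfib : ∀ f : LRing L B, kerAt B π 1 f → f ∈ Ideal.span {constL (L := L) π hπ}) {F : ℍ → ℂ}
    (hF : F ∈ weak (levelP p L) (p * L) ⊤) (hFB : F ∈ expSubring L B)
    (hWB : swapFun p L F ∈ expSubring L B) :
    ∃ c : ℕ → ℍ → ℂ, (∀ k, c k ∈ weak (Gamma L) L B) ∧
      ∀ τ, F τ ^ (p + 1) + ∑ k ∈ Finset.range (p + 1), c k τ * F τ ^ k = 0 := by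
  classical
  refine ⟨charCoeff (p := p) (L := L) F, fun k => mem_weak_of_expansion_infty H hK hB hπ hπ0 hbd
    hBK hfib (charCoeff_mem hpL hF k) (charCoeff_mem_expSubring hFB hWB k), fun τ => ?_⟩
  set P := ∏ x : Option (ZMod p), (X - C (conjFun (L := L) F x τ))
  have hdeg : P.natDegree = p + 1 := by
    rw [natDegree_finsetProd_X_sub_C_eq_card, Finset.card_univ, Fintype.card_option, ZMod.card]
  have hmonic : P.Monic := monic_prod_X_sub_C _ _
  have h : P.eval (F τ) = 0 := by
    rw [eval_prod]
    exact Finset.prod_eq_zero (Finset.mem_univ (none : Option (ZMod p))) (by simp [conjFun_none])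
  rw [eval_eq_sum_range, hdeg, Finset.sum_range_succ, ← hdeg, hmonic.coeff_natDegree, one_mul,
    hdeg] at h
  rw [← h, add_comm]
  rfl

end Fermat.Agent.AtP
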