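import Fermat.Agent.AtP.DescentMain

/-!
# `Γ₀(pM)`-invariant functions in the parameter `exp (2πiτ)`
-/

set_option autoImplicit false

noncomputable section

open UpperHalfPlane CongruenceSubgroup
open scoped MatrixGroups Manifold
open Fermat.Agent.KummerES
open ModularCurve (qExpand)

namespace Fermat.Agent.AtP

variable {p : ℕ} [hp : Fact p.Prime] {L : ℕ} [NeZero L]

omit [NeZero L] in
/-- `Γ₀(p) ∩ Γ(L) ≤ Γ₀(pM)` for `M ∣ L`. -/
theorem levelP_le_Gamma0_mul (hpL : ¬ p ∣ L) {M : ℕ} (hM : M ∣ L) :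
    levelP p L ≤ Gamma0 (p * M) := fun γ hγ => by
  obtain ⟨h1, h2⟩ := mem_levelP.1 hγ
  have hpM : Nat.Coprime p M := hp.out.coprime_iff_not_dvd.2 fun h => hpL (h.trans hM)
  rw [Gamma0_mem, ZMod.intCast_zmod_eq_zero_iff_dvd]
  push_cast
  refine IsCoprime.mul_dvd (Int.isCoprime_iff_nat_coprime.2 (by simpa using hpM))
    ((ZMod.intCast_zmod_eq_zero_iff_dvd _ p).1 (Gamma0_mem.1 h1))
    (dvd_trans (Int.natCast_dvd_natCast.2 hM)
      ((ZMod.intCast_zmod_eq_zero_iff_dvd _ L).1 (Gamma_mem.1 h2).2.2.1))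

omit [NeZero L] in
/-- Functions invariant under `Γ₀(pM)` have level `Γ₀(p) ∩ Γ(L)`. -/
theorem mem_levelP_weak (hpL : ¬ p ∣ L) {M : ℕ} (hM : M ∣ L) {F : ℍ → ℂ}
    (hF : F ∈ weak (Gamma (p * L)) (p * L) ⊤) (hinv : ∀ γ ∈ Gamma0 (p * M), comp F γ = F) :
    F ∈ weak (levelP p L) (p * L) ⊤ :=
  ⟨hF.1, fun γ hγ => hinv γ (levelP_le_Gamma0_mul hpL hM hγ), hF.2.2⟩

/-- `T` lies in every `Γ₀(N)`. -/
theorem T_mem_Gamma0 (N : ℕ) : ModularGroup.T ∈ Gamma0 N := by
  rw [Gamma0_mem]; simp [ModularGroup.coe_T]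

/-- A `T`-invariant function in the parameter `exp (2πiτ)`. -/
theorem mem_expSubring_one {B : Subring ℂ} {G : ℍ → ℂ} (hG : G ∈ expSubring L B)
    (hT : comp G ModularGroup.T = G) : G ∈ expSubring 1 B := by
  obtain ⟨s, hs, hs'⟩ := hG
  rw [← one_mul L] at hs'
  exact exists_hasExp_of_comp_T_pow (L := 1) hs' hs (by rw [Nat.cast_one, zpow_one]; exact hT)

/-- An expansion in `q` is one in `exp (2πiτ/L)`. -/
theorem mem_expSubring_of_one {B : Subring ℂ} {G : ℍ → ℂ} (hG : G ∈ expSubring 1 B) :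
    G ∈ expSubring L B := by
  obtain ⟨s, hs, hs'⟩ := hG
  have h' := hs'.dilate L
  rw [one_mul] at h'
  exact ⟨_, qExpand_mem_coeffSubring L hs, h'⟩

/-- **Rationality and boundedness** for functions of level `Γ₀(pM)`, `M ∣ L`. -/
theorem rational_and_bounded (H : LevelHyp 2 L (zetaRing L)) (hp2 : p ≠ 2) (hpL : ¬ p ∣ L)
    {M : ℕ} (hM : M ∣ L) {b d : ℤ} (h : (p : ℤ) * d - (M : ℤ) * b = 1)
    {K : Subfield ℂ} (hK : zetaRing L ≤ K.toSubring) {B : Subring ℂ} (hB : zetaRing L ≤ B)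
    {π : ℂ} (hπ : π ∈ B) (hbd : ∀ x ∈ K, ∃ N : ℕ, π ^ N * x ∈ B) {F : ℍ → ℂ}
    (hF : F ∈ weak (Gamma (p * L)) (p * L) ⊤) (hinv : ∀ γ ∈ Gamma0 (p * M), comp F γ = F)
    (hFK : expansion 1 F ∈ coeffSubring K.toSubring) :
    HasExp 1 (fun τ => F (Newforms.alW p M b d h • τ))
        (expansion 1 fun τ => F (Newforms.alW p M b d h • τ)) ∧
      expansion 1 (fun τ => F (Newforms.alW p M b d h • τ)) ∈ coeffSubring K.toSubring ∧
      ∃ N : ℕ, HahnSeries.single 0 (π ^ N) * expansion 1 F ∈ coeffSubring B ∧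
        HahnSeries.single 0 (π ^ N) * expansion 1 (fun τ => F (Newforms.alW p M b d h • τ)) ∈
          coeffSubring B := by
  have hFP := mem_levelP_weak hpL hM hF hinv
  have hT : comp F ModularGroup.T = F := hinv _ (T_mem_Gamma0 _)
  have hF1 : F ∈ expSubring 1 (⊤ : Subring ℂ) :=
    mem_expSubring_one ⟨_, fun _ => Subring.mem_top _, hasExp_expansion_infty hFP⟩ hT
  have hFK1 : F ∈ expSubring 1 K.toSubring :=
    ⟨_, hFK, (expansion_mem_of_mem_expSubring hF1).2⟩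
  have hFK' := mem_expSubring_of_one (L := L) hFK1
  rw [swapFun_eq_alW hpL hM h hinv]
  have hW := swapFun_mem_expSubring H hp2 hpL hK hFP hFK'
  have hW1 := mem_expSubring_one hW (comp_swapFun_T hpL hM hinv)
  obtain ⟨N, hN⟩ := exists_bound H hp2 hpL hK hB hπ hbd hFP hFK'
  obtain ⟨N', hN'⟩ := exists_bound H hp2 hpL hK hB hπ hbd (swapFun_mem hp2 hpL hFP) hW
  have key : ∀ (G : ℍ → ℂ) (k e : ℕ), comp G ModularGroup.T = G → G ∈ expSubring 1 K.toSubring →
      (fun τ => π ^ k * G ((1 : SL(2, ℤ)) • τ)) ∈ expSubring L B →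
      HahnSeries.single 0 (π ^ (k + e)) * expansion 1 G ∈ coeffSubring B := by
    intro G k e hGT hG hk
    simp only [one_smul] at hk
    obtain ⟨s, hs, hs'⟩ := mem_expSubring_one hk (by
      funext τ
      exact congrArg (π ^ k * ·) (congrFun hGT τ))
    have hexp : HasExp 1 (fun τ => π ^ k * G τ) (HahnSeries.single 0 (π ^ k) * expansion 1 G) :=
      (HasExp.const _).mul (expansion_mem_of_mem_expSubring hG).2
    rw [hs'.series_eq hexp] at hs
    have e1 : HahnSeries.single (0 : ℤ) (π ^ (k + e)) =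
        HahnSeries.single 0 (π ^ e) * HahnSeries.single 0 (π ^ k) := by
      rw [HahnSeries.single_mul_single, zero_add, ← pow_add, add_comm e k]
    rw [e1, mul_assoc]
    exact mul_mem (single_mem_coeffSubring 0 (pow_mem hπ e)) hs
  refine ⟨(expansion_mem_of_mem_expSubring hW1).2, (expansion_mem_of_mem_expSubring hW1).1,
    N + N', key F N N' hT hFK1 (hN 1 (one_mem _)), ?_⟩
  rw [add_comm N N']
  exact key _ N' N (comp_swapFun_T hpL hM hinv) hW1 (hN' 1 (one_mem _))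

end Fermat.Agent.AtP
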