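import Fermat.Agent.AtP.Branch
import Mathlib.RingTheory.IntegralClosure.IntegrallyClosed
import Mathlib.RingTheory.Localization.FractionRing

/-!
# Extending a map from `A` to the elements algebraic and integral over it

`z` is a root of `V`, the polynomial of least degree. A map of `A` to a normal domain together
with a root of `V` extends uniquely to the integral elements of the field generated by `A` and `z`,
and congruences at the simple root pass to it.
-/

set_option autoImplicit false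

noncomputable section

namespace Fermat.Agent.AtP

open Polynomial

variable {A K : Type*} [CommRing A] [IsDomain A] [Field K] (φ : A →+* K) (z : K)

/-- The elements of the field generated by `A` and `z` which are integral over `A`. -/
def algElts : Subring K where
  carrier := {e | φ.IsIntegralElem e ∧ ∃ (P : A[X]) (D : A), D ≠ 0 ∧ φ D * e = P.eval₂ φ z}
  one_mem' := ⟨φ.isIntegralElem_one, 1, 1, one_ne_zero, by simp⟩
  zero_mem' := ⟨φ.isIntegralElem_zero, 0, 1, one_ne_zero, by simp⟩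
  add_mem' := by
    rintro a b ⟨ha, P, D, hD, hP⟩ ⟨hb, P', D', hD', hP'⟩
    refine ⟨RingHom.IsIntegralElem.add φ ha hb, C D' * P + C D * P', D * D', mul_ne_zero hD hD', ?_⟩
    simp only [eval₂_add, eval₂_mul, eval₂_C, map_mul]
    linear_combination φ D' * hP + φ D * hP'
  neg_mem' := by
    rintro a ⟨ha, P, D, hD, hP⟩
    exact ⟨RingHom.IsIntegralElem.neg φ ha, -P, D, hD, by rw [eval₂_neg, ← hP]; ring⟩
  mul_mem' := by
    rintro a b ⟨ha, P, D, hD, hP⟩ ⟨hb, P', D', hD', hP'⟩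
    refine ⟨RingHom.IsIntegralElem.mul φ ha hb, P * P', D * D', mul_ne_zero hD hD', ?_⟩
    rw [eval₂_mul, map_mul, ← hP, ← hP']
    ring

omit [IsDomain A] in
/-- A root of a monic polynomial is integral. -/
lemma isIntegralElem_of_root {V : A[X]} (hV : V.Monic) (hz : V.eval₂ φ z = 0) :
    φ.IsIntegralElem z := ⟨V, hV, hz⟩

/-- `A` maps into `algElts`. -/
lemma map_mem_algElts (a : A) : φ a ∈ algElts φ z :=
  ⟨⟨X - C a, monic_X_sub_C a, by simp⟩, C a, 1, one_ne_zero, by simp⟩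

/-- The generator lies in `algElts`. -/
lemma root_mem_algElts {V : A[X]} (hV : V.Monic) (hz : V.eval₂ φ z = 0) : z ∈ algElts φ z :=
  ⟨isIntegralElem_of_root φ z hV hz, X, 1, one_ne_zero, by simp⟩

variable {φ z} {R : Type*} [CommRing R] [IsDomain R] {V : A[X]} {Ψ : A →+* R} {y : R}
  (hmin : ∀ Q : A[X], Q.eval₂ φ z = 0 → V ∣ Q) (hy : V.eval₂ Ψ y = 0)
include hmin hy

omit [IsDomain A] [IsDomain R] in
lemma eval₂_eq_of_eval₂_eq {P P' : A[X]} (h : P.eval₂ φ z = P'.eval₂ φ z) :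
    P.eval₂ Ψ y = P'.eval₂ Ψ y := by
  obtain ⟨Q, hQ⟩ := hmin (P - P') (by rw [eval₂_sub, h, sub_self])
  have := congrArg (eval₂ Ψ y) hQ
  rwa [eval₂_sub, eval₂_mul, hy, zero_mul, sub_eq_zero] at this

/-- **Extension** to the integral elements. -/
theorem exists_ext [IsIntegrallyClosed R] (hinj : Function.Injective Ψ) :
    ∃ θ : algElts φ z →+* R, ∀ (e : algElts φ z) (P : A[X]) (D : A),
      φ D * (e : K) = P.eval₂ φ z → Ψ D * θ e = P.eval₂ Ψ y := by
  have h0 : ∀ {D : A}, D ≠ 0 → Ψ D ≠ 0 := fun hD h => hD (hinj (by rw [h, map_zero]))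
  have key : ∀ e : algElts φ z, ∃ r : R, ∀ (P : A[X]) (D : A),
      φ D * (e : K) = P.eval₂ φ z → Ψ D * r = P.eval₂ Ψ y := by
    rintro ⟨e, ⟨Q, hQm, hQ⟩, P₀, D₀, hD₀, hP₀⟩
    set j := algebraMap R (FractionRing R)
    have hj : j (Ψ D₀) ≠ 0 := fun h =>
      h0 hD₀ (IsFractionRing.injective R _ (by rw [h, map_zero]))
    set r' := j (P₀.eval₂ Ψ y) / j (Ψ D₀)
    have hrel : ∀ i : ℕ, φ D₀ ^ i * e ^ i = (P₀ ^ i).eval₂ φ z := fun i => by
      rw [← mul_pow, hP₀, eval₂_pow]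
    -- the homogenised equation of `e`
    set P₁ : A[X] := ∑ i ∈ Finset.range (Q.natDegree + 1),
      C (Q.coeff i * D₀ ^ (Q.natDegree - i)) * P₀ ^ i
    have hP₁ : P₁.eval₂ φ z = 0 := by
      have h1 : φ D₀ ^ Q.natDegree * Q.eval₂ φ e = 0 := by rw [hQ, mul_zero]
      rw [eval₂_eq_sum_range, Finset.mul_sum] at h1
      rw [← h1, eval₂_finsetSum]
      refine Finset.sum_congr rfl fun i hi => ?_
      rw [Finset.mem_range] at hi
      rw [eval₂_mul, eval₂_C, map_mul, map_pow, ← hrel, ← pow_sub_mul_pow (φ D₀)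
        (Nat.lt_succ_iff.1 hi)]
      ring
    have hP₁' : P₁.eval₂ Ψ y = 0 := by
      simpa using eval₂_eq_of_eval₂_eq hmin hy (P := P₁) (P' := 0) (by simpa using hP₁)
    have hroot : Q.eval₂ (j.comp Ψ) r' = 0 := by
      have h1 : j (Ψ D₀) ^ Q.natDegree * Q.eval₂ (j.comp Ψ) r' = j (P₁.eval₂ Ψ y) := by
        rw [eval₂_eq_sum_range, Finset.mul_sum, eval₂_finsetSum, map_sum]
        refine Finset.sum_congr rfl fun i hi => ?_
        rw [Finset.mem_range] at hi
        rw [eval₂_mul, eval₂_C, eval₂_pow, map_mul, map_pow, map_mul, map_pow,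
          ← pow_sub_mul_pow (j (Ψ D₀)) (Nat.lt_succ_iff.1 hi)]
        simp only [r', RingHom.comp_apply, map_mul, map_pow, div_pow]
        field_simp
      rw [hP₁', map_zero] at h1
      exact (mul_eq_zero.1 h1).resolve_left (pow_ne_zero _ hj)
    have hint : IsIntegral R r' := ⟨Q.map Ψ, hQm.map Ψ, by rw [eval₂_map]; exact hroot⟩
    obtain ⟨r, hr⟩ := IsIntegrallyClosed.isIntegral_iff.1 hint
    refine ⟨r, fun P D hPD => ?_⟩
    have h2 : (C D * P₀).eval₂ φ z = (C D₀ * P).eval₂ φ z := by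
      rw [eval₂_mul, eval₂_mul, eval₂_C, eval₂_C, ← hP₀, ← hPD]; ring
    have h3 := eval₂_eq_of_eval₂_eq hmin hy h2
    rw [eval₂_mul, eval₂_mul, eval₂_C, eval₂_C] at h3
    have h4 : Ψ D₀ * r = P₀.eval₂ Ψ y := IsFractionRing.injective R (FractionRing R) (by
      rw [map_mul, hr]; exact mul_div_cancel₀ _ hj)
    refine mul_left_cancel₀ (h0 hD₀) ?_
    rw [← h3, ← h4]; ring
  choose r hr using key
  have huniq : ∀ (e : algElts φ z) (s : R), (∃ (P : A[X]) (D : A), D ≠ 0 ∧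
      φ D * (e : K) = P.eval₂ φ z ∧ Ψ D * s = P.eval₂ Ψ y) → r e = s := by
    rintro e s ⟨P, D, hD, hP, hs⟩
    exact mul_left_cancel₀ (h0 hD) (by rw [hr e P D hP, hs])
  refine ⟨RingHom.mk' ⟨⟨r, ?_⟩, ?_⟩ ?_, hr⟩
  · exact huniq 1 1 ⟨1, 1, one_ne_zero, by simp, by simp⟩
  · rintro a b
    obtain ⟨⟨-, P, D, hD, hP⟩, ⟨-, P', D', hD', hP'⟩⟩ := a.2, b.2
    refine huniq _ _ ⟨P * P', D * D', mul_ne_zero hD hD', ?_, ?_⟩
    · rw [eval₂_mul, map_mul, ← hP, ← hP', Subring.coe_mul]; ring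
    · rw [eval₂_mul, map_mul, ← hr a P D hP, ← hr b P' D' hP']; ring
  · rintro a b
    obtain ⟨⟨-, P, D, hD, hP⟩, ⟨-, P', D', hD', hP'⟩⟩ := a.2, b.2
    refine huniq _ _ ⟨C D' * P + C D * P', D * D', mul_ne_zero hD hD', ?_, ?_⟩
    · rw [eval₂_add, eval₂_mul, eval₂_mul, eval₂_C, eval₂_C, map_mul, ← hP, ← hP', Subring.coe_add]
      ring
    · show Ψ (D * D') * (r a + r b) = _
      rw [eval₂_add, eval₂_mul, eval₂_mul, eval₂_C, eval₂_C, map_mul, ← hr a P D hP,
        ← hr b P' D' hP']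
      ring

end Fermat.Agent.AtP
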