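import Fermat.Agent.AtP.AssemblySetting
import Fermat.Agent.AtP.DescentIntegral
import Fermat.Agent.AtP.DescentLevelOne
import Fermat.Agent.AtP.Model

/-!
# The scaled expansions are algebraic and integral over level `2 M`

A function of level `Γ₀(p) ∩ Γ(2M)` with expansions over `B` on both sides has its expansion in
`algElts (expK) (λ (pτ))`; identities over level `2 M` are transported by `swapMap`.
-/

set_option autoImplicit false

noncomputable section

open UpperHalfPlane CongruenceSubgroup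
open Polynomial hiding comp
open scoped MatrixGroups Manifold
open Fermat.Agent.KummerES
open ModularCurve (qExpand coeffMap)

namespace Fermat.Agent.AtP

section Algebra

variable {A K : Type*} [CommRing A] [IsDomain A] [Field K] {φ : A →+* K} {z : K}

theorem eval₂_mem_algElts (hz : z ∈ algElts φ z) (Q : A[X]) : Q.eval₂ φ z ∈ algElts φ z := by
  induction Q using Polynomial.induction_on' with
  | add P Q hP hQ => rw [eval₂_add]; exact add_mem hP hQ
  | monomial n a =>
    rw [eval₂_monomial]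
    exact mul_mem (map_mem_algElts φ z a) (pow_mem hz n)

/-- A nonzero integral `Q(z)` divides a nonzero element of `A`. -/
theorem exists_eval₂_mul_eq {Q : A[X]} (hw : φ.IsIntegralElem (Q.eval₂ φ z))
    (hw0 : Q.eval₂ φ z ≠ 0) :
    ∃ (U : A[X]) (D₀ : A), D₀ ≠ 0 ∧ φ D₀ = Q.eval₂ φ z * U.eval₂ φ z := by
  obtain ⟨q, hq, hq0⟩ := hw
  obtain ⟨q', hq', hndvd⟩ := exists_eq_pow_rootMultiplicity_mul_and_not_dvd q hq.ne_zero 0
  rw [map_zero, sub_zero] at hq' hndvd
  rw [hq', eval₂_mul, eval₂_X_pow] at hq0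
  have h := (mul_eq_zero.1 hq0).resolve_left (pow_ne_zero _ hw0)
  refine ⟨-q'.divX.comp Q, q'.coeff 0, fun h0 => hndvd (X_dvd_iff.2 h0), ?_⟩
  rw [← X_mul_divX_add q', eval₂_add, eval₂_mul, eval₂_X, eval₂_C] at h
  rw [eval₂_neg, eval₂_comp]
  linear_combination h

/-- Quotients of polynomials in `z` which are integral lie in `algElts`. -/
theorem mem_algElts_of_mul {e : K} {P Q : A[X]} {a : A} (hz : z ∈ algElts φ z) (ha : a ≠ 0)
    (he : φ.IsIntegralElem e) (hQ : Q.eval₂ φ z ≠ 0)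
    (h : φ a * e * Q.eval₂ φ z = P.eval₂ φ z) : e ∈ algElts φ z := by
  obtain ⟨U, D₀, hD₀, hU⟩ := exists_eval₂_mul_eq (eval₂_mem_algElts hz Q).1 hQ
  refine ⟨he, P * U, a * D₀, mul_ne_zero ha hD₀, ?_⟩
  rw [map_mul, eval₂_mul, hU, ← h]
  ring

end Algebra

variable {p : ℕ} [hp : Fact p.Prime]

/-- Equal functions have equal expansions. -/
theorem series_eq_of_fun_eq {L : ℕ} [NeZero L] {f g : ℍ → ℂ} {s t : LaurentSeries ℂ}
    (h : HasExp L f s) (h' : HasExp L g t) (e : f = g) : s = t := h.series_eq (e ▸ h')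

/-- `Γ₀(N') ≤ Γ₀(N)` for `N ∣ N'`. -/
theorem Gamma0_mono {N N' : ℕ} (h : N ∣ N') : Gamma0 N' ≤ Gamma0 N := fun γ hγ => by
  rw [Gamma0_mem, ZMod.intCast_zmod_eq_zero_iff_dvd] at hγ ⊢
  exact (Int.natCast_dvd_natCast.2 h).trans hγ

/-- `swapMap` twice is an element of `Γ₀(p M)`, `M ∣ L`. -/
theorem swapFun_swapFun {L : ℕ} [NeZero L] (hpL : ¬ p ∣ L) {M : ℕ} (hM : M ∣ L) {F : ℍ → ℂ}
    (hinv : ∀ γ ∈ Gamma0 (p * M), comp F γ = F) : swapFun p L (swapFun p L F) = F := by
  obtain ⟨g, Z, hZ, hg, he⟩ := exists_conjMap_swapMap (p := p) (L := L) hpL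
  have hmem : swapSL p L * g ∈ Gamma0 (p * M) := by
    rw [Gamma0_mem, ZMod.intCast_zmod_eq_zero_iff_dvd]
    have e : ((swapSL p L * g : SL(2, ℤ)) : Matrix (Fin 2) (Fin 2) ℤ) 1 0 =
        (p : ℤ) * ((L : ℤ) * (descM p L * (1 + Z))) := by
      simp [Matrix.mul_apply, Fin.sum_univ_two, hg, coe_swapSL]
      linear_combination (L : ℤ) * descM p L * hZ
    rw [e]
    push_cast
    exact mul_dvd_mul_left _ ((Int.natCast_dvd_natCast.2 hM).mul_right _)
  funext τ
  show F (swapMap p L (swapMap p L τ)) = F τ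
  rw [swapMap, he, ← mul_smul, ← comp_apply F, hinv _ hmem]

namespace Coeff

attribute [local instance] isDomain_LRing

variable (C : Coeff p) {M : ℕ} [NeZero M]

omit hp in
/-- The field of coefficients is the fraction field of `B`. -/
theorem exists_pow_mul_mem_B : ∀ x ∈ C.field, ∃ N : ℕ, (C.unif : ℂ) ^ N * x ∈ C.B := by
  intro x hx
  obtain ⟨y, hy, z, hz, rfl⟩ := Subfield.mem_closure_iff.1 hx
  rw [Subring.closure_eq] at hy hz
  rcases eq_or_ne z 0 with rfl | hz0
  · exact ⟨0, by simp⟩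
  obtain ⟨n, u, hu⟩ := IsDiscreteValuationRing.eq_unit_mul_pow_irreducible
    (x := (⟨z, hz⟩ : C.B)) (fun h => hz0 (congrArg Subtype.val h)) C.irred
  refine ⟨n, ?_⟩
  have h1 : z = ((u : C.B) : ℂ) * (C.unif : ℂ) ^ n := by simpa using congrArg Subtype.val hu
  have h2 : ((u : C.B) : ℂ) * ((↑u⁻¹ : C.B) : ℂ) = 1 := by
    rw [← Subring.coe_mul, u.mul_inv, Subring.coe_one]
  have e : (C.unif : ℂ) ^ n * (y / z) = y * ((↑u⁻¹ : C.B) : ℂ) := by
    rw [mul_div_assoc', div_eq_iff hz0, h1]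
    linear_combination (-y * (C.unif : ℂ) ^ n) * h2
  rw [e]
  exact mul_mem hy (SetLike.coe_mem _)

omit hp in
/-- The coefficient ring lies in its field. -/
theorem B_le_field : C.B ≤ C.field.toSubring := fun _ hx => Subfield.subset_closure hx

omit hp in
/-- The uniformiser is a nonzero complex number. -/
theorem unif_ne_zero : (C.unif : ℂ) ≠ 0 := fun h => C.irred.ne_zero (Subtype.ext h)

/-- `1/2` lies in the coefficient ring. -/
theorem inv_two_mem_B (hp2 : p ≠ 2) (hpM : ¬ p ∣ M) : (2 : ℂ)⁻¹ ∈ C.B :=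
  ((C.zetaRing_le (not_dvd_two_mul hp2 hpM)).trans C.le)
    (inv_two_mem_zetaRing_exp (L := 2 * M) (Dvd.intro M rfl))

/-- The level `2 M` structure over `ℤ[ζ, 1/2M]`. -/
def baseLevelHyp (M : ℕ) [NeZero M] : LevelHyp 2 (2 * M) (zetaRing (2 * M)) where
  D := ratioData (2 * M)
  T := lamBase (2 * M) (Dvd.intro M rfl)
  le := le_rfl
  two_le := le_rfl
  dvd := Dvd.intro M rfl

variable (M) in
/-- The value of a function of level `2 M`. -/
def evA (τ : ℍ) : LRing (2 * M) C.B →+* ℂ :=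
  (Pi.evalRingHom (fun _ : ℍ => ℂ) τ).comp (weak (Gamma (2 * M)) (2 * M) C.B).subtype

omit hp in
/-- Polynomials over level `2 M` in a function with an expansion. -/
theorem hasExp_polyFun {Y : ℍ → ℂ} {y : LaurentSeries ℂ} (hY : HasExp (2 * M) Y y)
    (P : (LRing (2 * M) C.B)[X]) :
    HasExp (2 * M) (fun τ => P.eval₂ (C.evA M τ) (Y τ)) (P.eval₂ (C.expK M) y) := by
  induction P using Polynomial.induction_on' with
  | add P Q hP hQ => simp only [eval₂_add]; exact hP.add hQ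
  | monomial n a =>
    simp only [eval₂_monomial]
    have ha : HasExp (2 * M) a.1 (C.expK M a) := by
      rw [expK_apply]; simpa using hasExp_expansion a.2 1
    exact ha.mul (HasExp.pow hY n)

variable (hp2 : p ≠ 2) (hpM : ¬ p ∣ M)

/-- Polynomials over `ℤ[1/2]` in `λ`, as functions of level `2 M`. -/
def polyLam : R2[X] →+* LRing (2 * M) C.B :=
  eval₂RingHom
    (((Pi.constRingHom ℍ ℂ).comp iota2).codRestrict (weak (Gamma (2 * M)) (2 * M) C.B)
      fun a => const_mem_weak (B2_le (C.inv_two_mem_B hp2 hpM) a.2))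
    ⟨lam, weak_mono (Gamma_le_of_dvd (Dvd.intro M rfl)) le_rfl
      (weak_two_le (Dvd.intro M rfl) _ (lam_mem_weak (C.inv_two_mem_B hp2 hpM)))⟩

theorem evA_polyLam (τ : ℍ) :
    (C.evA M τ).comp (C.polyLam hp2 hpM) = eval₂RingHom iota2 (lam τ) := by
  refine Polynomial.ringHom_ext (fun a => ?_) ?_ <;> simp [evA, polyLam]

/-- The value at `τ` of a polynomial with coefficients in `ℤ[1/2][λ]`. -/
theorem eval₂_evA_polyLam (P : R2[X][X]) (τ : ℍ) (x : ℂ) :
    (P.map (C.polyLam hp2 hpM)).eval₂ (C.evA M τ) x =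
      (P.map (eval₂RingHom iota2 (lam τ))).eval x := by
  rw [eval₂_map, evA_polyLam, eval_map]

/-- `λ (pτ)` has an expansion in `exp (2πiτ/2M)`. -/
theorem hasExp_lamP (hp2 : p ≠ 2) : HasExp (2 * M) (lamP p) (expansion (2 * M) (lamP p)) :=
  hasExp_expansion_infty (lamP_mem hp2 (Dvd.intro M rfl))

include hp2 hpM in
/-- `λ (pτ)` in the extension. -/
theorem muExp_mem_algElts :
    expansion (2 * M) (lamP p) ∈ algElts (C.expK M) (expansion (2 * M) (lamP p)) := by
  refine root_mem_algElts _ _ (V := (lamPoly p).map (C.polyLam hp2 hpM))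
    ((lamPoly_monic hp2).map _) ?_
  refine series_eq_of_fun_eq (C.hasExp_polyFun (hasExp_lamP hp2) _) HasExp.zero ?_
  funext τ
  rw [C.eval₂_evA_polyLam hp2 hpM, lamPoly_roots hp2, eval_prod]
  exact Finset.prod_eq_zero (Finset.mem_univ (none : Option (ZMod p))) (by simp)

include hp2 hpM in
/-- Functions with expansions over `B` on both sides give elements of the extension. -/
theorem expansion_mem_algElts {F : ℍ → ℂ}
    (hF : F ∈ weak (levelP p (2 * M)) (p * (2 * M)) ⊤) (hFB : F ∈ expSubring (2 * M) C.B)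
    (hWB : swapFun p (2 * M) F ∈ expSubring (2 * M) C.B) :
    expansion (2 * M) F ∈ algElts (C.expK M) (expansion (2 * M) (lamP p)) := by
  classical
  have hpL := not_dvd_two_mul hp2 hpM
  have hB := (C.zetaRing_le hpL).trans C.le
  have hK := hB.trans C.B_le_field
  have hF' := hasExp_expansion_infty hF
  have hY := hasExp_lamP (M := M) (p := p) hp2
  have hint : (C.expK M).IsIntegralElem (expansion (2 * M) F) := by
    obtain ⟨c, hc, hid⟩ := exists_monic (baseLevelHyp M) hpL hK hB C.unif.2 C.unif_ne_zero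
      C.exists_pow_mul_mem_B C.B_le_field
      (((C.levelHyp hp2 hpM).specialFibre (C.coeffHyp hp2 hpM)).mem_span 1) hF hFB hWB
    refine ⟨X ^ (p + 1) + ∑ k ∈ Finset.range (p + 1), Polynomial.C (⟨c k, hc k⟩ : LRing (2 * M) C.B)
      * X ^ k, monic_X_pow_add ((degree_sum_le _ _).trans_lt ((Finset.sup_lt_iff
        (WithBot.bot_lt_coe (p + 1))).2 fun k hk => (degree_C_mul_X_pow_le k _).trans_lt
          (WithBot.coe_lt_coe.2 (Finset.mem_range.1 hk)))), ?_⟩
    refine series_eq_of_fun_eq (C.hasExp_polyFun hF' _) HasExp.zero ?_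
    funext τ
    simpa [eval₂_finsetSum, evA] using hid τ
  obtain ⟨n, b, e, hb, he, hid⟩ := exists_combination (baseLevelHyp M) hp2 hpL hK hF
    (expSubring_mono C.B_le_field hFB)
  obtain ⟨N, hN⟩ := exists_pow_mul_mem ((Finset.range (p + 1)).sigma fun j => Finset.univ) C.unif.2
    C.exists_pow_mul_mem_B (a := b) fun i _ => hb i
  let a : ℕ → LRing (2 * M) C.B := fun j => if hj : j ∈ Finset.range (p + 1) then
      ⟨∑ k, (fun _ => (C.unif : ℂ) ^ N * b ⟨j, k⟩) * e ⟨j, k⟩, sum_mem fun k _ => mul_mem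
        (const_mem_weak (hN ⟨j, k⟩ (Finset.mem_sigma.2 ⟨hj, Finset.mem_univ k⟩)))
        (weak_mono le_rfl hB (he ⟨j, k⟩))⟩
    else 0
  set Q := (derivative (lamPoly p)).map (C.polyLam hp2 hpM) with hQ
  have hD : (fun τ => Q.eval₂ (C.evA M τ) (lamP p τ)) = diffFun (p := p) (L := 2 * M) (lamP p) := by
    funext τ
    rw [hQ, C.eval₂_evA_polyLam hp2 hpM, diffFun_lamP_eval hp2 hpL (Dvd.intro M rfl)]
  refine mem_algElts_of_mul (a := C.piA M ^ N) (Q := Q)
    (P := ∑ j ∈ Finset.range (p + 1), Polynomial.C (a j) * X ^ j) (C.muExp_mem_algElts hp2 hpM)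
    (pow_ne_zero _ (C.prime_piA hp2 hpM).ne_zero) hint (fun h0 => ?_) ?_
  · refine diffFun_lamP_ne_zero (p := p) (L := 2 * M) hp2 hpL (Dvd.intro M rfl) ?_
    rw [← hD]
    have := C.hasExp_polyFun hY Q
    rw [h0] at this
    exact this.fun_eq HasExp.zero
  · have ha : HasExp (2 * M) (fun _ => (C.unif : ℂ) ^ N) (C.expK M (C.piA M ^ N)) := by
      rw [expK_apply]
      simpa [piA, Pi.pow_def] using hasExp_expansion (C.piA M ^ N).2 1
    refine series_eq_of_fun_eq ((ha.mul hF').mul (C.hasExp_polyFun hY Q)) (C.hasExp_polyFun hY _) ?_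
    funext τ
    simp only [Pi.mul_apply, congrFun hD τ]
    rw [mul_assoc, hid τ, eval₂_finsetSum, Finset.mul_sum]
    refine Finset.sum_congr rfl fun j hj => ?_
    rw [show a j = _ from dif_pos hj, eval₂_mul, eval₂_C, eval₂_X_pow]
    simp [evA, Finset.mul_sum, ← mul_assoc]

omit [NeZero M] in
/-- The expansion after `swapMap` of a function of level `2 M`. -/
theorem swapFun_apply_A (a : LRing (2 * M) C.B) (τ : ℍ) :
    swapFun p (2 * M) a.1 τ = a.1 (conjMap (none : Option (ZMod p)) τ) :=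
  congrFun (a.2.2.1 _ swapSL_mem_Gamma) _

theorem hasExp_swapFun_A (a : LRing (2 * M) C.B) :
    HasExp (2 * M) (swapFun p (2 * M) a.1) (qExpand ℂ p (C.expK M a)) := by
  rw [expK_apply, show swapFun p (2 * M) a.1 = a.1 ∘ conjMap (none : Option (ZMod p)) from
    funext (C.swapFun_apply_A a)]
  exact hasExp_comp_mulp (by simpa using hasExp_expansion a.2 1)

/-- After `swapMap` a function of level `2 M` expands in `q ^ p`. -/
theorem expansion_swapFun_A (a : LRing (2 * M) C.B) :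
    expansion (2 * M) (swapFun p (2 * M) a.1) = qExpand ℂ p (C.expK M a) :=
  (C.hasExp_swapFun_A a).expansion_eq

include hp2 hpM in
/-- Transforms of functions of level `2 M` are in the extension. -/
theorem qExpand_expK_mem_algElts (a : LRing (2 * M) C.B) :
    qExpand ℂ p (C.expK M a) ∈ algElts (C.expK M) (expansion (2 * M) (lamP p)) := by
  have hpL := not_dvd_two_mul hp2 hpM
  rw [← expansion_swapFun_A]
  refine C.expansion_mem_algElts hp2 hpM
    (swapFun_mem hp2 hpL (weak_mono le_rfl le_top (weak_Gamma_le_levelP _ a.2)))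
    ⟨_, qExpand_mem_coeffSubring p (by rw [expK_apply]; simpa using expansion_mem a.2 1),
      C.hasExp_swapFun_A a⟩ ?_
  obtain ⟨g, Z, -, -, he⟩ := exists_conjMap_swapMap (p := p) (L := 2 * M) hpL
  obtain ⟨s, hs, hs'⟩ := a.2.2.2 g
  refine ⟨s, hs, ?_⟩
  convert hs' using 1
  funext τ
  show swapFun p (2 * M) a.1 (swapMap p (2 * M) τ) = _
  rw [C.swapFun_apply_A, he, comp_apply]

include hp2 hpM in
/-- An identity over level `2 M` gives the identity after `swapMap`. -/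
theorem swap_eval₂_eq {F : ℍ → ℂ} (hF : F ∈ weak (levelP p (2 * M)) (p * (2 * M)) ⊤)
    {P : (LRing (2 * M) C.B)[X]} {D : LRing (2 * M) C.B}
    (h : C.expK M D * expansion (2 * M) F = P.eval₂ (C.expK M) (expansion (2 * M) (lamP p))) :
    qExpand ℂ p (C.expK M D) * expansion (2 * M) (swapFun p (2 * M) F) =
      P.eval₂ ((qExpand ℂ p).comp (C.expK M)) (expansion (2 * M) lam) := by
  have hpL := not_dvd_two_mul hp2 hpM
  have hD : HasExp (2 * M) D.1 (C.expK M D) := by
    rw [expK_apply]; simpa using hasExp_expansion D.2 1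
  have hfun : (D.1 * F) = fun τ => P.eval₂ (C.evA M τ) (lamP p τ) :=
    (hD.mul (hasExp_expansion_infty hF)).fun_eq
      (by rw [h]; exact C.hasExp_polyFun (hasExp_lamP hp2) P)
  have hlam : HasExp (2 * M) lam (expansion (2 * M) lam) :=
    (expansion_mem_of_mem_expSubring (mem_expSubring_of_two (Dvd.intro M rfl)
      (C.inv_two_mem_B hp2 hpM) exp2_l2)).2
  have hR : ∀ P : (LRing (2 * M) C.B)[X],
      HasExp (2 * M) (fun τ => P.eval₂ (C.evA M (swapMap p (2 * M) τ)) (lam τ))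
        (P.eval₂ ((qExpand ℂ p).comp (C.expK M)) (expansion (2 * M) lam)) := fun P => by
    induction P using Polynomial.induction_on' with
    | add P Q hP hQ => simp only [eval₂_add]; exact hP.add hQ
    | monomial n a =>
      simp only [eval₂_monomial]
      exact (C.hasExp_swapFun_A a).mul (HasExp.pow hlam n)
  refine series_eq_of_fun_eq ((C.hasExp_swapFun_A D).mul
    (hasExp_expansion_infty (swapFun_mem hp2 hpL hF))) (hR P) ?_
  funext τ
  have := congrFun hfun (swapMap p (2 * M) τ)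
  simpa [swapFun, lamP_swapMap hpL (Dvd.intro M rfl)] using this

end Coeff

namespace Setting

attribute [local instance] isDomain_LRing

variable {C : Coeff p} {M : ℕ} [NeZero M] (S : Setting C M) (hp2 : p ≠ 2) (hpM : ¬ p ∣ M)

/-- The `p`-th power of the Kummer root is invariant under `Γ₀(pM)`. -/
theorem pow_invariant : ∀ γ ∈ Gamma0 (p * M), comp (S.g ^ p) γ = S.g ^ p := fun γ hγ => by
  funext τ
  have h := congrFun (S.kummer.comp_eq ⟨γ, hγ⟩) τ
  rw [comp_apply] at h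
  rw [comp_apply, Pi.pow_apply, Pi.pow_apply, h, mul_pow, rootPow, ← pow_mul, mul_comm _ p, pow_mul,
    (isPrimitiveRoot_zetaC p).pow_eq_one, one_pow, one_mul]

include hp2 hpM

/-- The `p`-th power of the Kummer root has level `Γ₀(p) ∩ Γ(2M)`. -/
theorem pow_mem_levelP : S.g ^ p ∈ weak (levelP p (2 * M)) (p * (2 * M)) ⊤ :=
  mem_levelP_weak (Coeff.not_dvd_two_mul hp2 hpM) (Dvd.intro_left 2 rfl) S.kummer.pow_mem
    S.pow_invariant

/-- `f₁` has level `Γ₀(p) ∩ Γ(2M)`. -/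
theorem f₁_mem : S.f₁ ∈ weak (levelP p (2 * M)) (p * (2 * M)) ⊤ := by
  rw [S.f₁_eq]
  exact mul_mem (const_mem_weak (Subring.mem_top S.c₁)) (S.pow_mem_levelP hp2 hpM)

theorem wFun_eq_swapFun : wFun S.det (S.g ^ p) = swapFun p (2 * M) (S.g ^ p) := by
  rw [← swapFun_eq_alW (Coeff.not_dvd_two_mul hp2 hpM) dvd_rfl S.det fun γ hγ => S.pow_invariant γ
    (Gamma0_mono (mul_dvd_mul_left p (Dvd.intro_left 2 rfl)) hγ)]
  exact funext fun τ => wFun_apply _ _ τ

/-- `f₂` has level `Γ₀(p) ∩ Γ(2M)`. -/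
theorem f₂_mem : S.f₂ ∈ weak (levelP p (2 * M)) (p * (2 * M)) ⊤ := by
  rw [S.f₂_eq, S.wFun_eq_swapFun hp2 hpM]
  exact mul_mem (const_mem_weak (Subring.mem_top S.c₂))
    (swapFun_mem hp2 (Coeff.not_dvd_two_mul hp2 hpM) (S.pow_mem_levelP hp2 hpM))

/-- `swapMap` takes `f₁` to a multiple of `f₂`. -/
theorem swapFun_f₁ : swapFun p (2 * M) S.f₁ = fun τ => S.c₁ / S.c₂ * S.f₂ τ := by
  funext τ
  simp only [swapFun, S.f₁_eq, S.f₂_eq, S.wFun_eq_swapFun hp2 hpM, Pi.pow_apply]
  field_simp [S.c₂_ne]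

theorem swapFun_f₂ : swapFun p (2 * M) S.f₂ = fun τ => S.c₂ / S.c₁ * S.f₁ τ := by
  funext τ
  have h := congrFun (swapFun_swapFun (Coeff.not_dvd_two_mul hp2 hpM) (Dvd.intro_left 2 rfl)
    S.pow_invariant) τ
  simp only [swapFun] at h
  simp only [swapFun, S.f₁_eq, S.f₂_eq, S.wFun_eq_swapFun hp2 hpM, h]
  simp only [Pi.pow_apply]
  field_simp [S.c₁_ne]

omit hp2 hpM in
theorem comp_f₁_T : comp S.f₁ ModularGroup.T = S.f₁ := by
  funext τ
  simp only [comp_apply, S.f₁_eq]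
  exact congrArg (S.c₁ * ·) (congrFun (S.pow_invariant _ (T_mem_Gamma0 _)) τ)

theorem comp_f₂_T : comp S.f₂ ModularGroup.T = S.f₂ := by
  have h := comp_swapFun_T (Coeff.not_dvd_two_mul hp2 hpM) (Dvd.intro_left 2 rfl) S.pow_invariant
  funext τ
  simp only [comp_apply, S.f₂_eq, S.wFun_eq_swapFun hp2 hpM]
  exact congrArg (S.c₂ * ·) (congrFun h τ)

omit hp2 hpM in
theorem hasExp_of_expansion_one {F : ℍ → ℂ} {s : LaurentSeries C.B}
    (hF : F ∈ weak (levelP p (2 * M)) (p * (2 * M)) ⊤) (hT : comp F ModularGroup.T = F)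
    (h : expansion 1 F = coeffMap C.B.subtype s) :
    HasExp (2 * M) F (coeffMap C.B.subtype (qExpand C.B (2 * M) s)) := by
  have h1 : F ∈ expSubring 1 (⊤ : Subring ℂ) :=
    mem_expSubring_one ⟨_, fun _ => Subring.mem_top _, hasExp_expansion_infty hF⟩ hT
  have h2 := (expansion_mem_of_mem_expSubring h1).2.dilate (2 * M)
  rw [h, one_mul, ← ModularCurve.coeffMap_qExpand] at h2
  exact h2

/-- The expansion of `f₁` at level `2 M`. -/
theorem hasExp_f₁ : HasExp (2 * M) S.f₁ (coeffMap C.B.subtype (qExpand C.B (2 * M) S.s₁)) :=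
  hasExp_of_expansion_one (S.f₁_mem hp2 hpM) S.comp_f₁_T S.exp₁

/-- The expansion of `f₂` at level `2 M`. -/
theorem hasExp_f₂ : HasExp (2 * M) S.f₂ (coeffMap C.B.subtype (qExpand C.B (2 * M) S.s₂)) :=
  hasExp_of_expansion_one (S.f₂_mem hp2 hpM) (S.comp_f₂_T hp2 hpM) S.exp₂

omit hp2 hpM in
/-- A multiple of `p` which makes both transition constants integral. -/
theorem scale_mem {N : ℕ} (hN : p * (S.j₁ - S.j₂).natAbs ≤ N) :
    (C.unif : ℂ) ^ N * (S.c₁ / S.c₂) ∈ C.B ∧ (C.unif : ℂ) ^ N * (S.c₂ / S.c₁) ∈ C.B := by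
  have h : ∀ z : ℤ, 0 ≤ (N : ℤ) + z → (C.unif : ℂ) ^ N * (C.unif : ℂ) ^ z ∈ C.B := fun z hz => by
    rw [← zpow_natCast (C.unif : ℂ) N, ← zpow_add₀ C.unif_ne_zero, ← Int.toNat_of_nonneg hz,
      zpow_natCast]
    exact pow_mem C.unif.2 _
  have hN' : ((p : ℤ) * |S.j₁ - S.j₂|) ≤ N := by
    rw [← Int.natCast_natAbs]
    exact_mod_cast hN
  have h1 := le_abs_self (S.j₁ - S.j₂)
  have h2 := neg_abs_le (S.j₁ - S.j₂)
  have hp0 : (0 : ℤ) ≤ p := Int.natCast_nonneg p
  constructor <;>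
    · rw [S.c₁_eq, S.c₂_eq, ← zpow_sub₀ C.unif_ne_zero]
      exact h _ (by nlinarith [mul_le_mul_of_nonneg_left h1 hp0, mul_le_mul_of_nonneg_left h2 hp0])

omit hp hp2 hpM in
/-- Multiplication by a power of the uniformiser, read in complex series. -/
theorem coeffMap_C_pow_mul (N : ℕ) (s : LaurentSeries C.B) :
    coeffMap C.B.subtype (HahnSeries.C C.unif ^ N * s) =
      HahnSeries.single 0 ((C.unif : ℂ) ^ N) * coeffMap C.B.subtype s := by
  rw [map_mul, ← map_pow (HahnSeries.C (Γ := ℤ) (R := C.B))]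
  congr 1
  refine HahnSeries.ext (funext fun i => ?_)
  rcases eq_or_ne i 0 with rfl | hi <;> simp [*]

theorem scaled_mem_algElts {F G : ℍ → ℂ} {s t : LaurentSeries C.B} {c : ℂ} (N : ℕ)
    (hF : F ∈ weak (levelP p (2 * M)) (p * (2 * M)) ⊤)
    (hFs : HasExp (2 * M) F (coeffMap C.B.subtype s))
    (hW : swapFun p (2 * M) F = fun τ => c * G τ)
    (hGt : HasExp (2 * M) G (coeffMap C.B.subtype t)) (hc : (C.unif : ℂ) ^ N * c ∈ C.B) :
    coeffMap C.B.subtype (HahnSeries.C C.unif ^ N * s) ∈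
      algElts (C.expK M) (expansion (2 * M) (lamP p)) := by
  have hsub : ∀ u : LaurentSeries C.B, coeffMap C.B.subtype u ∈ coeffSubring C.B := fun u i => by
    rw [ModularCurve.coeffMap_coeff]; exact SetLike.coe_mem _
  have hexp : HasExp (2 * M) (fun τ => (C.unif : ℂ) ^ N * F τ)
      (coeffMap C.B.subtype (HahnSeries.C C.unif ^ N * s)) := by
    rw [coeffMap_C_pow_mul]
    exact (HasExp.const _).mul hFs
  rw [← hexp.expansion_eq]
  refine C.expansion_mem_algElts hp2 hpM (mul_mem (const_mem_weak (Subring.mem_top _)) hF)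
    ⟨_, hsub _, hexp⟩ ?_
  rw [show swapFun p (2 * M) (fun τ => (C.unif : ℂ) ^ N * F τ) =
      (fun _ => (C.unif : ℂ) ^ N * c) * G from funext fun τ => by
    have := congrFun hW τ
    simp only [swapFun] at this
    simp only [swapFun, this, Pi.mul_apply, mul_assoc]]
  exact mul_mem (const_mem_expSubring hc) ⟨_, hsub _, hGt⟩

/-- `ϖ ^ N t₁` is integral and algebraic over level `2 M`. -/
theorem mem_algElts₁ (N : ℕ) (hN : (C.unif : ℂ) ^ N * (S.c₁ / S.c₂) ∈ C.B) :
    coeffMap C.B.subtype (HahnSeries.C C.unif ^ N * qExpand C.B (2 * M) S.s₁) ∈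
      algElts (C.expK M) (expansion (2 * M) (lamP p)) :=
  scaled_mem_algElts hp2 hpM N (S.f₁_mem hp2 hpM) (S.hasExp_f₁ hp2 hpM) (S.swapFun_f₁ hp2 hpM)
    (S.hasExp_f₂ hp2 hpM) hN

/-- `ϖ ^ N t₂` is integral and algebraic over level `2 M`. -/
theorem mem_algElts₂ (N : ℕ) (hN : (C.unif : ℂ) ^ N * (S.c₂ / S.c₁) ∈ C.B) :
    coeffMap C.B.subtype (HahnSeries.C C.unif ^ N * qExpand C.B (2 * M) S.s₂) ∈
      algElts (C.expK M) (expansion (2 * M) (lamP p)) :=
  scaled_mem_algElts hp2 hpM N (S.f₂_mem hp2 hpM) (S.hasExp_f₂ hp2 hpM) (S.swapFun_f₂ hp2 hpM)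
    (S.hasExp_f₁ hp2 hpM) hN

end Setting

end Fermat.Agent.AtP
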