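import Fermat.Agent.AtP.Model

/-!
# Congruences of expansions pass to the branches of the extension

At a simple root modulo the prime `P` over `π`, a congruence `d e ≡ a (mod π ^ n)` of expansions
holds modulo `P ^ n` for the extended map.
-/

set_option autoImplicit false

noncomputable section

namespace Fermat.Agent.AtP

open Polynomial

variable {A R S K : Type*} [CommRing A] [IsDomain A] [CommRing R] [IsDomain R] [CommRing S]
  [IsDomain S] [Field K]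

/-- **Congruences pass to the branch.** -/
theorem pow_dvd_ext_sub {π y₀ : A} {V : A[X]} {φS : A →+* S} {j : S →+* K}
    (hj : Function.Injective j) {zS : S} {Ψ : A →+* R} {y P x : R}
    (hπS : φS π ≠ 0) (hsat : ∀ a, φS π ∣ φS a → π ∣ a) (hP : Prime P)
    (hPπ : Ψ π = P * x) (hx : ¬ P ∣ x) (hinj : ∀ a, P ∣ Ψ a → π ∣ a)
    (hdec : ∀ D : A, D ≠ 0 → ∃ (v : ℕ) (D₀ : A), D = π ^ v * D₀ ∧ ¬ π ∣ D₀)
    (hV0 : π ∣ V.eval y₀) (hV1 : ¬ π ∣ V.derivative.eval y₀) (hz : V.eval₂ φS zS = 0)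
    (hz0 : φS π ∣ zS - φS y₀) (hy : V.eval₂ Ψ y = 0) (hy0 : P ∣ y - Ψ y₀)
    (θ : algElts (j.comp φS) (j zS) →+* R)
    (hθ : ∀ (e : algElts (j.comp φS) (j zS)) (Q : A[X]) (D : A),
      (j.comp φS) D * (e : K) = Q.eval₂ (j.comp φS) (j zS) → Ψ D * θ e = Q.eval₂ Ψ y)
    (e : algElts (j.comp φS) (j zS)) {eS : S} (he : j eS = e) {a d : A} {n : ℕ}
    (hcong : φS π ^ n ∣ φS d * eS - φS a) : P ^ n ∣ Ψ d * θ e - Ψ a := by
  obtain ⟨-, Q, D, hD, hQ⟩ := e.2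
  obtain ⟨v, D₀, rfl, hD₀⟩ := hdec D hD
  set Q' : A[X] := C d * Q - C (a * (π ^ v * D₀)) with hQ'
  have hS : φS (π ^ v * D₀) * eS = Q.eval₂ φS zS := hj (by
    rw [map_mul, he, hom_eval₂]; exact hQ)
  have hev : Q'.eval₂ φS zS = φS π ^ v * (φS D₀ * (φS d * eS - φS a)) := by
    rw [hQ', eval₂_sub, eval₂_mul, eval₂_C, eval₂_C, ← hS]
    simp only [map_mul, map_pow]
    ring
  have h1 := pow_dvd_eval₂_of_pow_dvd hπS hsat hP (Dvd.intro x hPπ.symm) hinj hV0 hV1 hz hz0 hy hy0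
    (v + n) Q' (by rw [hev, pow_add]; exact mul_dvd_mul_left _ (hcong.mul_left _))
  have hR : Q'.eval₂ Ψ y = P ^ v * (x ^ v * Ψ D₀ * (Ψ d * θ e - Ψ a)) := by
    rw [hQ', eval₂_sub, eval₂_mul, eval₂_C, eval₂_C, ← hθ e Q _ hQ]
    simp only [map_mul, map_pow, hPπ, mul_pow]
    ring
  rw [hR, pow_add, mul_dvd_mul_iff_left (pow_ne_zero _ hP.ne_zero)] at h1
  refine hP.pow_dvd_of_dvd_mul_left n (fun h => ?_) h1
  rcases hP.dvd_or_dvd h with h2 | h2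
  · exact hx (hP.dvd_of_dvd_pow h2)
  · exact hD₀ (hinj _ h2)

end Fermat.Agent.AtP
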