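import Fermat.Agent.AtP.AssemblyEval
import Fermat.Agent.AtP.AssemblyFactor
import Fermat.Agent.AtP.AssemblyNodeCoord
import Fermat.Agent.AtP.DescentAlg
import Fermat.Agent.AtP.ModelBranch
import Fermat.Agent.AtP.LambdaPGalois
import Fermat.Agent.KummerES.GluingSeries
import Fermat.Agent.Carayol.Local.Series

/-!
# The branch of `λ (pτ)` at the cusps `δ ∞`, `δ ∈ Γ₀(p)`

The expansion of the function at such a cusp is congruent to the expansion of `a / d`.
-/

set_option autoImplicit false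

noncomputable section

open UpperHalfPlane CongruenceSubgroup
open Polynomial hiding comp
open scoped MatrixGroups
open Fermat.Agent.KummerES
open ModularCurve (qExpand coeffMap)
open IsLocalRing (residue ResidueField)

namespace Fermat.Agent.AtP

namespace Coeff

attribute [local instance] isDomain_LRing

variable {p : ℕ} [hp : Fact p.Prime] (C : Coeff p) {M : ℕ} [NeZero M] (hp2 : p ≠ 2) (hpM : ¬ p ∣ M)

omit hp in
/-- Divisibility by the uniformiser is vanishing of the reduced series. -/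
lemma C_unif_dvd_iff (s : LaurentSeries C.B) :
    HahnSeries.C C.unif ∣ s ↔ coeffMap (residue C.B) s = 0 :=
  C_dvd_iff_residue_eq_zero C.irred.maximalIdeal_eq C.irred.ne_zero s

include hp2 hpM in
/-- The uniformiser is prime in the Laurent series over the coefficients. -/
lemma prime_C_unif : Prime (HahnSeries.C C.unif : LaurentSeries C.B) :=
  (C.coeffHyp (M := M) hp2 hpM).prime_C

omit hp in
/-- The uniformiser expands to a constant at every cusp. -/
lemma expB_piA (δ : SL(2, ℤ)) : expB (2 * M) C.B δ (C.piA M) = HahnSeries.C C.unif :=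
  expB_constL _ _ _

include hp2 hpM in
/-- Saturation at every cusp. -/
lemma piA_dvd_of_expB {δ : SL(2, ℤ)} {a : LRing (2 * M) C.B}
    (h : HahnSeries.C C.unif ∣ expB (2 * M) C.B δ a) : C.piA M ∣ a :=
  Ideal.mem_span_singleton.1
    (((C.levelHyp hp2 hpM).specialFibre (C.coeffHyp hp2 hpM)).mem_span δ a
      ((kerAt_iff_dvd C.unif.2 δ a).2 h))

omit hp in
/-- Laurent series over the coefficients are integrally closed. -/
lemma isIntegrallyClosed_series : IsIntegrallyClosed (LaurentSeries C.B) :=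
  Carayol.Local.isIntegrallyClosed_laurentSeries C.B

/-! ## Polynomials in `λ` -/

/-- `λ` as a function of level `2 M`. -/
def lamL : LRing (2 * M) C.B := C.polyLam hp2 hpM X

/-- The modular polynomial of `λ (pτ)` over level `2 M`. -/
def lamV : (LRing (2 * M) C.B)[X] := (lamPoly p).map (C.polyLam hp2 hpM)

/-- The function underlying `lamL` is `λ`. -/
lemma coe_lamL : (C.lamL hp2 hpM : LRing (2 * M) C.B).1 = lam := by
  simp [lamL, polyLam]

/-- Evaluation of a polynomial in `λ` and `Y` as a function. -/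
lemma eval₂_funA_map (P : R2[X][X]) (Y : ℍ → ℂ) :
    (P.map (C.polyLam (M := M) hp2 hpM)).eval₂ (funA (2 * M) C.B) Y =
      fun τ => (P.map (eval₂RingHom iota2 (lam τ))).eval (Y τ) := by
  funext τ
  rw [← C.eval₂_evA_polyLam hp2 hpM P τ (Y τ)]
  exact hom_eval₂ _ (funA (2 * M) C.B) (Pi.evalRingHom (fun _ : ℍ => ℂ) τ) Y

/-- A ring map sends `polyLam R` to the value of `R` at the image of `λ`. -/
lemma polyLam_eq (R : R2[X]) {T : Type*} [CommRing T] (f : LRing (2 * M) C.B →+* T) :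
    f (C.polyLam hp2 hpM R) =
      R.eval₂ (f.comp ((C.polyLam hp2 hpM).comp Polynomial.C)) (f (C.lamL hp2 hpM)) := by
  rw [lamL]
  exact RingHom.congr_fun (Polynomial.ringHom_ext' (f := f.comp (C.polyLam hp2 hpM))
    (g := eval₂RingHom (f.comp ((C.polyLam hp2 hpM).comp Polynomial.C))
      (f (C.polyLam hp2 hpM X))) (by ext; simp) (by simp)) R

lemma residue_ofR2 (hp2 : p ≠ 2) [CharP (ResidueField C.B) p] (a : R2) :
    residue C.B (C.ofR2 a) = ZMod.castHom dvd_rfl (ResidueField C.B) (red2 hp2 a) :=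
  RingHom.congr_fun (R2_ringHom_ext ((residue C.B).comp C.ofR2)
    ((ZMod.castHom dvd_rfl (ResidueField C.B)).comp (red2 hp2))) a

omit [NeZero M] in
/-- The uniformiser divides `p` in the ring of level `2 M`. -/
lemma piA_dvd_natCast : C.piA M ∣ (p : LRing (2 * M) C.B) := by
  have h := congrArg (fun b : C.B => constL (L := 2 * M) (b : ℂ) b.2) C.p_eq
  refine ⟨C.piA M ^ (p - 1) * constL (L := 2 * M) (C.mu : ℂ) C.mu.2, ?_⟩
  rw [← mul_assoc, ← pow_succ', Nat.sub_add_cancel hp.out.one_le]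
  refine Subtype.ext (funext fun τ => ?_)
  have h' := congrFun (congrArg Subtype.val h) τ
  simpa [piA] using h'

lemma piA_dvd_polyLam {R : R2[X]} (h : R.map (red2 hp2) = 0) :
    C.piA M ∣ C.polyLam hp2 hpM R := by
  obtain ⟨R', rfl⟩ : Polynomial.C (p : R2) ∣ R := (C_dvd_iff_dvd_coeff _ _).2 fun i =>
    natCast_dvd_of_red2_eq_zero hp2 (by simpa using congrArg (fun Q => Q.coeff i) h)
  rw [map_mul, Polynomial.C_eq_natCast, map_natCast]
  exact C.piA_dvd_natCast.mul_right _

/-- The expansion of `λ` at a cusp. -/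
lemma expB_lamL {δ : SL(2, ℤ)} {σ : LaurentSeries R2} (hσ : Exp2 2 (comp lam δ) σ) :
    expB (2 * M) C.B δ (C.lamL hp2 hpM) = coeffMap C.ofR2 (qExpand R2 M σ) := by
  have h1 := hasExp_expB (C.lamL hp2 hpM : LRing (2 * M) C.B) δ
  rw [coe_lamL] at h1
  have h2 : HasExp (2 * M) (comp lam δ)
      (coeffMap C.B.subtype (coeffMap C.ofR2 (qExpand R2 M σ))) := by
    have := hσ.dilate M
    rw [← ModularCurve.coeffMap_qExpand] at this
    convert this using 1
    exact HahnSeries.ext (funext fun i => rfl)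
  exact C.coeffMap_subtype_injective' (h1.series_eq h2)

lemma expB_polyLam_C (δ : SL(2, ℤ)) :
    (expB (2 * M) C.B δ).comp ((C.polyLam hp2 hpM).comp Polynomial.C) =
      (HahnSeries.C).comp C.ofR2 := R2_ringHom_ext _ _

include hp2 hpM in
/-- Polynomials in `λ` nonzero modulo `p` are nonzero modulo `ϖ`. -/
lemma not_piA_dvd_polyLam {R : R2[X]} (h : R.map (red2 hp2) ≠ 0) :
    ¬ C.piA M ∣ C.polyLam hp2 hpM R := by
  have := C.charP
  intro hd
  have h1 := map_dvd (expB (2 * M) C.B 1) hd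
  rw [expB_piA, C_unif_dvd_iff, polyLam_eq, expB_polyLam_C,
    C.expB_lamL hp2 hpM (σ := l2) (by rw [comp_one]; exact exp2_l2)] at h1
  rw [hom_eval₂] at h1
  refine h ?_
  set cast := ZMod.castHom (dvd_refl p) (ResidueField C.B)
  set j : LaurentSeries (ZMod p) →+* LaurentSeries (ResidueField C.B) :=
    (qExpand (ResidueField C.B) M).comp (coeffMap cast) with hj
  have hjinj : Function.Injective j := by
    refine (ModularCurve.qExpand_injective M).comp fun a b hab => ?_
    exact HahnSeries.ext (funext fun i => cast.injective (congrArg (fun z => z.coeff i) hab :))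
  refine aeval_lamBar_injective hp2 (hjinj ?_)
  rw [map_zero, map_zero, ← h1, ← AlgHom.coe_toRingHom]
  refine RingHom.congr_fun (Polynomial.ringHom_ext' (R2_ringHom_ext _ _) ?_ :
    (j.comp ((aeval (lamBar p) : (ZMod p)[X] →ₐ[ZMod p] LaurentSeries (ZMod p)) :
      (ZMod p)[X] →+* LaurentSeries (ZMod p))).comp (mapRingHom (red2 hp2)) =
      eval₂RingHom ((coeffMap (residue C.B)).comp ((HahnSeries.C).comp C.ofR2))
        (coeffMap (residue C.B) (coeffMap C.ofR2 (qExpand R2 M l2)))) R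
  simp only [RingHom.comp_apply, coe_mapRingHom, map_X, coe_eval₂RingHom, eval₂_X, RingHom.coe_coe,
    aeval_X, hj, ← coeffMap_red2_l2 hp2]
  rw [← ModularCurve.coeffMap_qExpand, ← ModularCurve.coeffMap_qExpand]
  refine HahnSeries.ext (funext fun i => ?_)
  simp only [ModularCurve.coeffMap_coeff]
  exact (C.residue_ofR2 hp2 _).symm

/-- The modular polynomial over level `2 M` is monic. -/
lemma lamV_monic : (C.lamV (M := M) hp2 hpM).Monic := (lamPoly_monic hp2).map _

/-- `λ (pτ)` is a root of the modular polynomial. -/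
lemma lamV_fun : (C.lamV hp2 hpM).eval₂ (funA (2 * M) C.B) (lamP p) = 0 := by
  rw [lamV, eval₂_funA_map]
  funext τ
  simp only [lamPoly_roots hp2, eval_prod, Pi.zero_apply]
  exact Finset.prod_eq_zero (Finset.mem_univ (none : Option (ZMod p))) (by simp)

include hp2 hpM in
/-- The modular polynomial divides every polynomial vanishing at `λ (pτ)`. -/
lemma lamV_dvd {yI : LaurentSeries ℂ} (hy : HasExp (2 * M) (lamP p) yI)
    {Q : (LRing (2 * M) C.B)[X]} (hQ : Q.eval₂ (C.expK M) yI = 0) : C.lamV hp2 hpM ∣ Q := by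
  have hpL := not_dvd_two_mul hp2 hpM
  have hL2 : 2 ∣ 2 * M := Dvd.intro M rfl
  obtain ⟨e, -, h1, -⟩ := exists_conjFun_lamP (p := p) hp2 hpL hL2
  refine dvd_of_conjugates (m := p) (W := muFun p lam) (muFun_injective hp2) (fun i => ?_)
    (fun i => ⟨descRep p (2 * M) (e.symm i), descRep_mem _, by
      rw [show comp (lamP p) (descRep p (2 * M) (e.symm i)) = conjFun (L := 2 * M) (lamP p) (e.symm i)
        from rfl, h1, e.apply_symm_apply]⟩)
    (C.lamV_monic hp2 hpM) ?_ (C.lamV_fun hp2 hpM) (eval₂_funA_eq_zero hy hQ)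
  · rw [mul_comm]
    simpa [show comp lam (1 : SL(2, ℤ)) = lam from comp_one lam] using
      exists_hasExp_muFun (p := p) (L := 2 * M) hL2 1 i
  · rw [lamV, (lamPoly_monic hp2).natDegree_map, natDegree_lamPoly hp2, Fintype.card_option,
      ZMod.card]

lemma eval_map_polyLam (P : R2[X][X]) (R : R2[X]) :
    (P.map (C.polyLam (M := M) hp2 hpM)).eval (C.polyLam hp2 hpM R) = C.polyLam hp2 hpM (P.eval R) := by
  rw [eval_map, eval₂_at_apply]

lemma piA_dvd_lamV : C.piA M ∣ (C.lamV hp2 hpM).eval (C.lamL hp2 hpM ^ p) := by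
  rw [lamL, lamV, ← map_pow, eval_map_polyLam]
  refine C.piA_dvd_polyLam hp2 hpM ?_
  rw [lamPoly_eq hp2]
  simp

lemma not_piA_dvd_lamV_derivative :
    ¬ C.piA M ∣ (C.lamV hp2 hpM).derivative.eval (C.lamL hp2 hpM ^ p) := by
  rw [lamL, lamV, derivative_map, ← map_pow, eval_map_polyLam]
  refine C.not_piA_dvd_polyLam hp2 hpM ?_
  intro h0
  rw [lamPoly_eq hp2] at h0
  have hc := congrArg (fun q : (ZMod p)[X] => q.coeff 1) h0
  have hpp : (1 : ℕ) ≠ p * p := by nlinarith [hp.out.one_lt]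
  simp [derivative_pow, ← pow_mul, coeff_X_pow, hpp] at hc

/-- The expansion of `λ (pτ)` at a cusp over `∞`, congruent to that of `λ ^ p`. -/
theorem exists_lamP_series {δ : SL(2, ℤ)} (hδ : δ ∈ Gamma0 p) :
    ∃ y : LaurentSeries C.B, HasExp (2 * M) (comp (lamP p) δ) (coeffMap C.B.subtype y) ∧
      HahnSeries.C C.unif ∣ y - expB (2 * M) C.B δ (C.lamL hp2 hpM ^ p) := by
  have := C.charP
  obtain ⟨σ, hσ, -⟩ := exists_good δ
  refine ⟨coeffMap C.ofR2 (qExpand R2 M (qExpand R2 p σ)), ?_, ?_⟩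
  · rw [(comp_lamP_Gamma0 hp2 hδ).1]
    have h := (hasExp_comp_conjMap_none (p := p) hσ).dilate M
    rw [← ModularCurve.coeffMap_qExpand, ← ModularCurve.coeffMap_qExpand] at h
    convert h using 1
    · rfl
    · exact HahnSeries.ext (funext fun i => rfl)
  · rw [C_unif_dvd_iff, map_pow, C.expB_lamL hp2 hpM hσ, map_sub, map_pow]
    have hr : ∀ s : LaurentSeries R2, coeffMap (residue C.B) (coeffMap C.ofR2 s) =
        coeffMap (ZMod.castHom dvd_rfl (ResidueField C.B)) (coeffMap (red2 hp2) s) := fun s =>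
      HahnSeries.ext (funext fun i => by
        simp only [ModularCurve.coeffMap_coeff]; exact C.residue_ofR2 hp2 _)
    rw [hr, hr, ← map_pow, ← map_sub, ModularCurve.coeffMap_qExpand (red2 hp2), coeffMap_qExpand_red hp2,
      map_pow, ModularCurve.coeffMap_qExpand (red2 hp2), sub_self, map_zero]

include hp2 hpM in
/-- **The branch at `δ ∞`.** -/
theorem exists_branch_hom {δ : SL(2, ℤ)} (hδ : δ ∈ Gamma0 p) :
    ∃ θ : algElts (C.expK M) (expansion (2 * M) (lamP p)) →+* LaurentSeries C.B,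
      (∀ b, θ ⟨C.expK M b, map_mem_algElts _ _ b⟩ = expB (2 * M) C.B δ b) ∧
      (∀ (e : algElts (C.expK M) (expansion (2 * M) (lamP p))) (F : ℍ → ℂ) (sF : LaurentSeries ℂ),
        HasExp (2 * M) F e.1 → HasExp (2 * M) (comp F δ) sF →
          coeffMap C.B.subtype (θ e) = sF) ∧
      ∀ (e : algElts (C.expK M) (expansion (2 * M) (lamP p))) (eS : LaurentSeries C.B),
        coeffMap C.B.subtype eS = e.1 → ∀ (a d : LRing (2 * M) C.B) (n : ℕ),
          C.expA M (C.piA M) ^ n ∣ C.expA M d * eS - C.expA M a →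
            HahnSeries.C C.unif ^ n ∣
              expB (2 * M) C.B δ d * θ e - expB (2 * M) C.B δ a := by
  have hP := C.prime_C_unif (M := M) hp2 hpM
  have := C.isIntegrallyClosed_series
  obtain ⟨zS, hzS, hz0⟩ := C.exists_lamP_series (M := M) hp2 hpM (one_mem (Gamma0 p))
  rw [comp_one] at hzS
  obtain ⟨y, hy, hy0⟩ := C.exists_lamP_series (M := M) hp2 hpM hδ
  have hzero := eval₂_expB_eq_zero (δ := 1) (by rw [comp_one]; exact hzS) (C.lamV_fun hp2 hpM)
  have hyroot := eval₂_expB_eq_zero hy (C.lamV_fun hp2 hpM)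
  have hinj : ∀ b : LRing (2 * M) C.B, HahnSeries.C C.unif ∣ expB (2 * M) C.B δ b → C.piA M ∣ b :=
    fun b => C.piA_dvd_of_expB hp2 hpM
  have hΨinj : Function.Injective (expB (2 * M) C.B δ) := fun b b' h =>
    expAt_B_injective δ (by rw [RingHom.comp_apply, RingHom.comp_apply, h])
  rw [hzS.expansion_eq]
  obtain ⟨θ, hθ⟩ := exists_ext (φ := (coeffMap C.B.subtype).comp (C.expA M))
    (z := coeffMap C.B.subtype zS) (fun Q hQ => C.lamV_dvd hp2 hpM hzS hQ) hyroot hΨinj
  refine ⟨θ, fun b => ?_, fun e F sF hF hFδ => ?_, fun e eS he a d n hcong => ?_⟩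
  · have h := hθ ⟨_, map_mem_algElts _ _ b⟩ (Polynomial.C b) 1 (by rw [map_one, one_mul, eval₂_C])
    rw [map_one, one_mul, eval₂_C] at h
    exact h
  · obtain ⟨-, Q, D, hD, hQ⟩ := e.2
    exact coeffMap_eq_of_rel hD hzS hy hF hFδ hQ (hθ e Q D hQ)
  · exact pow_dvd_ext_sub C.coeffMap_subtype_injective' (C.expA_piA_ne_zero M)
      (fun b => C.piA_dvd_of_expA hp2 hpM) hP (x := 1) (by rw [mul_one, C.expB_piA])
      hP.not_dvd_one hinj (fun D => C.exists_eq_piA_pow_mul hp2 hpM) (C.piA_dvd_lamV hp2 hpM)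
      (C.not_piA_dvd_lamV_derivative hp2 hpM) hzero
      (by rw [show C.expA M (C.piA M) = HahnSeries.C C.unif from C.expB_piA 1]; exact hz0)
      hyroot hy0 θ hθ e he hcong

end Coeff

namespace Setting

attribute [local instance] isDomain_LRing

variable {p : ℕ} [hp : Fact p.Prime] {C : Coeff p} {M : ℕ} [NeZero M] (S : Setting C M)
  (hp2 : p ≠ 2) (hpM : ¬ p ∣ M) {a d : LRing (2 * M) C.B}

/-- A power of the uniformiser times `c₁ / c₂` lies in the coefficient ring. -/
lemma exists_scale : ∃ N : ℕ, (C.unif : ℂ) ^ N * (S.c₁ / S.c₂) ∈ C.B :=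
  ⟨_, (S.scale_mem le_rfl).1⟩

include hp2 hpM in
/-- **The series of `f₁` at a cusp over `∞`, congruent to `a / d`.** -/
theorem exists_series (hd : ¬ C.piA M ∣ d) (hrep : C.expA M (C.piA M) ∣
      C.expA M d * qExpand C.B (2 * M) S.s₁ - C.expA M a) {δ : SL(2, ℤ)}
    {θ : algElts (C.expK M) (expansion (2 * M) (lamP p)) →+* LaurentSeries C.B}
    (hθF : ∀ (e : algElts (C.expK M) (expansion (2 * M) (lamP p))) (F : ℍ → ℂ)
      (sF : LaurentSeries ℂ), HasExp (2 * M) F e.1 → HasExp (2 * M) (comp F δ) sF →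
        coeffMap C.B.subtype (θ e) = sF)
    (hθc : ∀ (e : algElts (C.expK M) (expansion (2 * M) (lamP p))) (eS : LaurentSeries C.B),
      coeffMap C.B.subtype eS = e.1 → ∀ (a d : LRing (2 * M) C.B) (n : ℕ),
        C.expA M (C.piA M) ^ n ∣ C.expA M d * eS - C.expA M a →
          HahnSeries.C C.unif ^ n ∣ expB (2 * M) C.B δ d * θ e - expB (2 * M) C.B δ a)
    (hδ : δ ∈ Gamma0 p) {N : ℕ} (e : algElts (C.expK M) (expansion (2 * M) (lamP p)))
    (he : (e : LaurentSeries ℂ) =
      coeffMap C.B.subtype (HahnSeries.C C.unif ^ N * qExpand C.B (2 * M) S.s₁)) :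
    ∃ x : LaurentSeries C.B, HasExp (2 * M) (comp S.f₁ δ) (coeffMap C.B.subtype x) ∧
      coeffMap (residue C.B) (expB (2 * M) C.B δ a) =
        coeffMap (residue C.B) (expB (2 * M) C.B δ d) * coeffMap (residue C.B) x ∧
      θ e = HahnSeries.C C.unif ^ N * x := by
  have hπ : C.expA M (C.piA M) = HahnSeries.C C.unif := C.expB_piA 1
  have h := hθc e _ he.symm (C.piA M ^ N * a) d (N + 1) (by
    rw [pow_succ, map_mul, map_pow, hπ, mul_left_comm, ← mul_sub, ← hπ]
    exact mul_dvd_mul_left _ hrep)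
  rw [map_mul, map_pow, C.expB_piA] at h
  obtain ⟨x, hx, hx2⟩ := exists_div_of_congr (C.prime_C_unif (M := M) hp2 hpM)
    (fun h' => hd (C.piA_dvd_of_expB hp2 hpM h')) h
  refine ⟨x, ?_, ?_, hx⟩
  · have hFδ := hasExp_expansion_Gamma0 (S.f₁_mem hp2 hpM) hδ
    have hG : HasExp (2 * M) (fun τ => (C.unif : ℂ) ^ N * S.f₁ τ) e.1 := by
      rw [he, coeffMap_C_pow_mul]
      exact (HasExp.const _).mul (S.hasExp_f₁ hp2 hpM)
    have hGδ : HasExp (2 * M) (comp (fun τ => (C.unif : ℂ) ^ N * S.f₁ τ) δ)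
        (HahnSeries.single 0 ((C.unif : ℂ) ^ N) * expansion (2 * M) (comp S.f₁ δ)) :=
      (HasExp.const _).mul hFδ
    have h := hθF e _ _ hG hGδ
    rw [hx, coeffMap_C_pow_mul] at h
    rw [mul_left_cancel₀ (HahnSeries.single_ne_zero (pow_ne_zero N C.unif_ne_zero)) h]
    exact hFδ
  · have h2 := (C.C_unif_dvd_iff _).1 hx2
    rw [map_sub, map_mul, sub_eq_zero] at h2
    exact h2.symm

end Setting

end Fermat.Agent.AtP
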