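import Fermat.Agent.AtP.AssemblyBase

/-!
# Every level `2 M` function is `a₀ + ϖ a₁ + ϖ² c` with unramified `a₀`, `a₁`
-/

set_option autoImplicit false

noncomputable section

open UpperHalfPlane CongruenceSubgroup
open scoped MatrixGroups
open Fermat.Agent.KummerES

namespace Fermat.Agent.AtP.Coeff

variable {p : ℕ} [hp : Fact p.Prime] (C : Coeff p) (M : ℕ) [NeZero M]

/-- The unramified functions inside the level `2 M` ring. -/
def inclO : LRing (2 * M) C.O →+* LRing (2 * M) C.B :=
  Subring.inclusion (weak_mono le_rfl C.le)

end Fermat.Agent.AtP.Coeff
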