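import Fermat.Agent.AtP.PointsBase
import Mathlib.RingTheory.PowerSeries.Order

/-!
# Regularity along the special fibre is detected by the discs

The reduction of a disc is injective on the special fibre, and `a ∈ d A + π ^ r A` as soon as this
holds in every disc.
-/

set_option autoImplicit false

noncomputable section

open Polynomial CongruenceSubgroup
open scoped MatrixGroups
open Fermat.Agent.KummerES
open IsLocalRing (residue ResidueField maximalIdeal)

namespace Fermat.Agent.AtP.Points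

variable {M L n : ℕ} [NeZero L] {B : Subring ℂ} {π : ℂ} (H : LevelHyp M L B) (hB : CoeffHyp B π n)
variable [IsLocalRing B] {s : LRing L B →+* ResidueField B} {ψ : LRing L B →+* PowerSeries B}

/-- `π` as a constant. -/
def piL : LRing L B := constL (L := L) π hB.mem

include hB in
lemma maximalIdeal_eq_span : maximalIdeal B = Ideal.span {(⟨π, hB.mem⟩ : B)} := by
  have := hB.dvr
  exact hB.irred.maximalIdeal_eq

lemma residue_pi : residue B (⟨π, hB.mem⟩ : B) = 0 := by
  rw [IsLocalRing.residue_eq_zero_iff, maximalIdeal_eq_span hB]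
  exact Ideal.mem_span_singleton_self _

omit [IsLocalRing B] in
/-- The constant `π` is `piL`. -/
lemma cstL_pi : cstL H ⟨π, hB.mem⟩ = piL (L := L) hB := rfl

/-- The kernel of the reduction of series is generated by `π`. -/
lemma redPS_eq_zero_iff (f : PowerSeries B) :
    redPS f = 0 ↔ PowerSeries.C (⟨π, hB.mem⟩ : B) ∣ f := by
  constructor
  · intro hf
    have hd : ∀ i, ∃ c, PowerSeries.coeff i f = ⟨π, hB.mem⟩ * c := fun i => by
      have h := congrArg (PowerSeries.coeff i) hf
      rw [redPS, PowerSeries.coeff_map, map_zero, IsLocalRing.residue_eq_zero_iff,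
        maximalIdeal_eq_span hB, Ideal.mem_span_singleton] at h
      exact h
    choose c hc using hd
    exact ⟨PowerSeries.mk c, PowerSeries.ext fun i => by rw [PowerSeries.coeff_C_mul, PowerSeries.coeff_mk, hc]⟩
  · rintro ⟨g, rfl⟩
    rw [map_mul, redPS, PowerSeries.map_C, residue_pi hB, map_zero, zero_mul]

include hB in
/-- `π` is prime in the power series. -/
lemma prime_C_pi : Prime (PowerSeries.C (⟨π, hB.mem⟩ : B)) := by
  refine ⟨fun h => hB.irred.ne_zero (PowerSeries.C_injective (h.trans (map_zero _).symm)),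
    fun hu => ?_, fun f g h => ?_⟩
  · have := (hu.map redPS).ne_zero
    exact this ((redPS_eq_zero_iff hB _).2 dvd_rfl)
  · rw [← redPS_eq_zero_iff hB, map_mul, mul_eq_zero] at h
    exact h.imp (redPS_eq_zero_iff hB f).1 (redPS_eq_zero_iff hB g).1

variable {H}

/-- A disc sends `π` into the kernel of the reduction. -/
lemma IsDisc.redPS_piL (hψ : IsDisc H s ψ) : redPS (ψ (piL hB)) = 0 := by
  rw [← cstL_pi H hB, hψ.const, redPS_eq_zero_iff hB]

lemma IsDisc.constantCoeff_redPS' (hψ : IsDisc H s ψ) (f : LRing L B) :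
    PowerSeries.constantCoeff (redPS (ψ f)) = s f := by
  rw [constantCoeff_redPS, hψ.point]

lemma IsDisc.redPS_evalT (hψ : IsDisc H s ψ) (P : B[X]) :
    redPS (ψ (inclLevel H.dvd (evalT H P))) =
      (P.map (residue B)).eval₂ PowerSeries.C (redPS (ψ (tL H))) := by
  refine RingHom.congr_fun (f := ((redPS.comp ψ).comp (inclLevel H.dvd)).comp (evalT H))
    (g := (eval₂RingHom PowerSeries.C (redPS (ψ (tL H)))).comp (mapRingHom (residue B)))
    (Polynomial.ringHom_ext (fun c => ?_) ?_) P
  · simp only [RingHom.comp_apply, evalT, coe_eval₂RingHom, eval₂_C, coe_mapRingHom, map_C]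
    rw [show inclLevel H.dvd (constM c) = cstL H c from rfl, hψ.const, redPS, PowerSeries.map_C]
  · simp [evalT, tL]

/-- A nonconstant series is transcendental over the constants. -/
lemma eval₂_C_ne_zero {k : Type*} [Field k] {z : PowerSeries k} (hz : PowerSeries.coeff 1 z ≠ 0)
    {P : k[X]} (hP : P ≠ 0) : P.eval₂ PowerSeries.C z ≠ 0 := by
  set x := PowerSeries.constantCoeff z
  obtain ⟨Q, hQ, hndvd⟩ := P.exists_eq_pow_rootMultiplicity_mul_and_not_dvd hP x
  rw [hQ, eval₂_mul, eval₂_pow]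
  refine mul_ne_zero (pow_ne_zero _ ?_) fun h => ?_
  · simp only [eval₂_sub, eval₂_X, eval₂_C, sub_ne_zero]
    exact fun h => hz (by rw [h, PowerSeries.coeff_C, if_neg one_ne_zero])
  · refine hndvd (dvd_iff_isRoot.2 ?_)
    have h1 := congrArg (PowerSeries.constantCoeff (R := k)) h
    rw [hom_eval₂, map_zero] at h1
    rw [IsRoot]
    convert h1 using 1
    rw [eval, show (PowerSeries.constantCoeff (R := k)).comp PowerSeries.C = RingHom.id k from
      RingHom.ext fun a => PowerSeries.constantCoeff_C a]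

/-- **The reduction of a disc is injective on the special fibre.** -/
theorem piL_dvd_of_redPS_eq_zero (hψ : IsDisc H s ψ) {f : LRing L B} (hf : redPS (ψ f) = 0) :
    piL (L := L) hB ∣ f := by
  classical
  have hπ : Prime (piL (L := L) hB) := (H.specialFibre hB).prime
  by_contra hnd
  let _ := Fintype.ofFinite (levelGroup L B M)
  have hfix : ∀ g : levelGroup L B M, g • piL (L := L) hB = piL (L := L) hB := fun g =>
    smul_inclLevel H.dvd g (constM ⟨π, hB.mem⟩)
  set N : LRing L B := ∏ g : levelGroup L B M, g • f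
  have hNinv : ∀ h : levelGroup L B M, h • N = N := fun h => by
    simp only [N, Finset.smul_prod', smul_smul]
    exact Fintype.prod_equiv (Equiv.mulLeft h) _ _ fun g => rfl
  have hNnd : ¬ piL (L := L) hB ∣ N := fun hd => by
    obtain ⟨g, -, c, hc⟩ := (Prime.dvd_finsetProd_iff hπ _).1 hd
    refine hnd ⟨g⁻¹ • c, ?_⟩
    have := congrArg (g⁻¹ • ·) hc
    simpa [smul_smul, smul_mul', hfix] using this
  set r : MRing M L B := ⟨N.1, mem_level_of_fixed N hNinv⟩
  have hr : inclLevel H.dvd r = N := Subtype.ext rfl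
  obtain ⟨P, w, hPw⟩ := exists_mul_unit_eq H r
  have hP : P.map (residue B) ≠ 0 := fun h0 => by
    have : Polynomial.C (⟨π, hB.mem⟩ : B) ∣ P := by
      refine Polynomial.C_dvd_iff_dvd_coeff _ _ |>.2 fun i => ?_
      have := congrArg (fun q : (ResidueField B)[X] => q.coeff i) h0
      simp only [Polynomial.coeff_map, Polynomial.coeff_zero] at this
      rw [IsLocalRing.residue_eq_zero_iff, maximalIdeal_eq_span hB, Ideal.mem_span_singleton] at this
      exact this
    refine hNnd ?_
    rw [← hr, hPw, map_mul]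
    refine Dvd.dvd.mul_right ?_ _
    have h1 := map_dvd ((inclLevel H.dvd).comp (evalT H)) this
    rwa [RingHom.comp_apply, RingHom.comp_apply, evalT, coe_eval₂RingHom, eval₂_C] at h1
  have h1 : redPS (ψ N) = 0 := by
    have hd : f ∣ N := ⟨∏ g ∈ Finset.univ.erase (1 : levelGroup L B M), g • f,
      (Finset.mul_prod_erase Finset.univ (fun g : levelGroup L B M => g • f)
        (Finset.mem_univ 1)).symm.trans (by rw [one_smul])⟩
    obtain ⟨c, hc⟩ := hd
    rw [hc, map_mul, map_mul, hf, zero_mul]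
  have h2 := hψ.redPS_evalT P
  rw [← hr, hPw, map_mul, map_mul, map_mul, mul_eq_zero, h2] at h1
  rcases h1 with h1 | h1
  · exact eval₂_C_ne_zero (by rw [redPS, PowerSeries.coeff_map]; exact hψ.param) hP h1
  · exact (((w.isUnit.map _).map ψ).map redPS).ne_zero h1

/-! ## The maximal ideal of a point -/

/-- A nonzero series is a power of the variable times a unit. -/
lemma exists_X_pow_mul {k : Type*} [Field k] {f : PowerSeries k} (hf : f ≠ 0) :
    ∃ (e : ℕ) (w : PowerSeries k), f = PowerSeries.X ^ e * w ∧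
      PowerSeries.constantCoeff w ≠ 0 := by
  classical
  have hex : ∃ i, PowerSeries.coeff i f ≠ 0 := by
    by_contra h
    push Not at h
    exact hf (PowerSeries.ext fun i => by rw [h, map_zero])
  obtain ⟨m, hm, hmin⟩ : ∃ m, PowerSeries.coeff m f ≠ 0 ∧ ∀ i < m, PowerSeries.coeff i f = 0 :=
    ⟨Nat.find hex, Nat.find_spec hex, fun i hi => not_not.1 (Nat.find_min hex hi)⟩
  obtain ⟨w, rfl⟩ : PowerSeries.X ^ m ∣ f := PowerSeries.X_pow_dvd_iff.2 hmin
  refine ⟨m, w, rfl, ?_⟩
  rwa [PowerSeries.coeff_X_pow_mul', if_pos le_rfl, Nat.sub_self,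
    PowerSeries.coeff_zero_eq_constantCoeff_apply] at hm

variable (H) in
/-- `t - x₀` for a lift `x₀` of the value of `t` at `s`. -/
def locParam (x₀ : B) : LRing L B := tL H - cstL H x₀

include hB in
/-- At a point, `π` and `t - x₀` generate the maximal ideal after inverting one element. -/
theorem exists_local_generators (hs : IsPoint H s) {x₀ : B} (hx₀ : residue B x₀ = s (tL H)) :
    ∃ e : LRing L B, s e = 1 ∧ ∀ a, s a = 0 →
      e * a ∈ Ideal.span {piL (L := L) hB, locParam H x₀} := by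
  obtain ⟨ι, _, ⟨D⟩⟩ := exists_sepData H
  choose y hy using fun i => IsLocalRing.residue_surjective (s (D.y i))
  set J := Ideal.span {piL (L := L) hB, locParam H x₀}
  let τ : ResidueField B →+* LRing L B ⧸ J :=
    Ideal.Quotient.lift _ ((Ideal.Quotient.mk J).comp (cstL H)) fun c hc => by
      rw [maximalIdeal_eq_span hB, Ideal.mem_span_singleton] at hc
      obtain ⟨c, rfl⟩ := hc
      rw [map_mul, RingHom.comp_apply, cstL_pi H hB,
        Ideal.Quotient.eq_zero_iff_mem.2 (Ideal.subset_span (by simp)), zero_mul]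
  have hτ : ∀ c, τ (residue B c) = Ideal.Quotient.mk J (cstL H c) := fun c => rfl
  have hcomp : (Ideal.Quotient.mk J).comp (inclLevel H.dvd) = (τ.comp s).comp (inclLevel H.dvd) := by
    refine ringHom_ext_M H (fun c => ?_) ?_
    · show Ideal.Quotient.mk J (cstL H c) = τ (s (cstL H c))
      rw [hs, hτ]
    · show Ideal.Quotient.mk J (tL H) = τ (s (tL H))
      rw [← hx₀, hτ, Ideal.Quotient.eq]
      exact Ideal.subset_span (by simp [locParam])
  refine ⟨∑ i, D.x i * cstL H (y i), ?_, fun a ha => ?_⟩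
  · rw [← map_one s, ← D.self, map_sum, map_sum]
    exact Finset.sum_congr rfl fun i _ => by rw [map_mul, map_mul, hs, hy]
  · have h := D.swap (fun u v => Ideal.Quotient.mk J u * τ (s v))
      (fun u u' v => by simp only [map_add, add_mul])
      (fun u v v' => by simp only [map_add, mul_add])
      (fun r u v => by
        simp only [map_mul]
        rw [show Ideal.Quotient.mk J (inclLevel H.dvd r) = τ (s (inclLevel H.dvd r)) from
          RingHom.congr_fun hcomp r]
        ring) a
    beta_reduce at h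
    rw [← Ideal.Quotient.eq_zero_iff_mem, mul_comm, Finset.mul_sum, map_sum]
    calc ∑ i, Ideal.Quotient.mk J (a * (D.x i * cstL H (y i)))
        = ∑ i, Ideal.Quotient.mk J (a * D.x i) * τ (s (D.y i)) := by
          refine Finset.sum_congr rfl fun i _ => ?_
          rw [← mul_assoc, map_mul, ← hτ, hy]
      _ = 0 := by
          rw [h]
          refine Finset.sum_eq_zero fun i _ => ?_
          rw [map_mul, map_mul, ha, map_zero, zero_mul, mul_zero]

/-- Near a point every function is a unit times a power of the parameter modulo `π`. -/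
theorem exists_eq_param_pow (hψ : IsDisc H s ψ) {x₀ : B} (hx₀ : residue B x₀ = s (tL H)) :
    ∀ (e : ℕ) (f : LRing L B) (w : PowerSeries (ResidueField B)),
      redPS (ψ f) = PowerSeries.X ^ e * w → PowerSeries.constantCoeff w ≠ 0 →
      ∃ s₁ u : LRing L B, s s₁ ≠ 0 ∧ s u ≠ 0 ∧
        piL (L := L) hB ∣ s₁ * f - u * locParam H x₀ ^ e := by
  obtain ⟨E, hE1, hE⟩ := exists_local_generators hB hψ.isPoint hx₀
  obtain ⟨v, hv⟩ : PowerSeries.X ∣ redPS (ψ (locParam H x₀)) := by
    rw [PowerSeries.X_dvd_iff, hψ.constantCoeff_redPS', locParam, map_sub, hψ.isPoint, hx₀, sub_self]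
  have hv0 : PowerSeries.constantCoeff v ≠ 0 := by
    have h := congrArg (PowerSeries.coeff 1) hv
    rw [PowerSeries.coeff_succ_X_mul, PowerSeries.coeff_zero_eq_constantCoeff_apply, redPS,
      PowerSeries.coeff_map, locParam, map_sub, hψ.const, map_sub, map_sub, PowerSeries.coeff_C,
      if_neg one_ne_zero, map_zero, sub_zero] at h
    exact h ▸ hψ.param
  intro e
  induction e with
  | zero =>
    intro f w hw hw0
    refine ⟨1, f, by simp, ?_, by simp⟩
    rw [← hψ.constantCoeff_redPS', hw]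
    simpa using hw0
  | succ e ih =>
    intro f w hw hw0
    have hf : s f = 0 := by
      rw [← hψ.constantCoeff_redPS', hw, pow_succ']
      simp
    obtain ⟨α, β, hαβ⟩ := Ideal.mem_span_pair.1 (hE f hf)
    have h := congrArg (fun x => redPS (ψ x)) hαβ
    simp only [map_add, map_mul, hψ.redPS_piL hB, mul_zero, zero_add, hw, hv] at h
    obtain ⟨vi, hvi⟩ := (PowerSeries.isUnit_iff_constantCoeff.2 (isUnit_iff_ne_zero.2 hv0)).exists_right_inv
    have hβ : redPS (ψ β) = PowerSeries.X ^ e * (redPS (ψ E) * w * vi) := by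
      refine mul_left_cancel₀ (PowerSeries.X_ne_zero (R := ResidueField B)) ?_
      calc PowerSeries.X * redPS (ψ β) = (redPS (ψ β) * (PowerSeries.X * v)) * vi := by
            linear_combination (-(PowerSeries.X * redPS (ψ β))) * hvi
        _ = (redPS (ψ E) * (PowerSeries.X ^ (e + 1) * w)) * vi := by rw [h]
        _ = _ := by ring
    obtain ⟨s₁, u, hs₁, hu, hd⟩ := ih β _ hβ (by
      rw [map_mul, map_mul, hψ.constantCoeff_redPS', hE1, one_mul]
      refine mul_ne_zero hw0 fun h0 => ?_
      have := congrArg (PowerSeries.constantCoeff (R := ResidueField B)) hvi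
      rw [map_mul, h0, mul_zero, map_one] at this
      exact zero_ne_one this)
    refine ⟨s₁ * E, u, by rw [map_mul, hE1, mul_one]; exact hs₁, hu, ?_⟩
    obtain ⟨c, hc⟩ := hd
    exact ⟨s₁ * α + c * locParam H x₀, by linear_combination (-s₁) * hαβ + locParam H x₀ * hc⟩

variable (H) in
/-- **Regularity, first order.** -/
theorem exists_dvd_sub_one [IsAlgClosed (ResidueField B)] {a d : LRing L B}
    (hd : ¬ piL (L := L) hB ∣ d)
    (h : ∀ s : LRing L B →+* ResidueField B, IsPoint H s → ∃ ψ, IsDisc H s ψ ∧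
      ∃ v, redPS (ψ a) = redPS (ψ d) * v) :
    ∃ c : LRing L B, piL (L := L) hB ∣ a - c * d := by
  classical
  let J : Ideal (LRing L B) :=
    { carrier := {x | x * a ∈ Ideal.span {piL (L := L) hB, d}}
      zero_mem' := by simp
      add_mem' := fun {x y} hx hy => by
        simp only [Set.mem_ofPred_eq, add_mul] at hx hy ⊢
        exact add_mem hx hy
      smul_mem' := fun c x hx => by
        simp only [Set.mem_ofPred_eq, smul_eq_mul, mul_assoc] at hx ⊢
        exact Ideal.mul_mem_left _ c hx }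
  have hJ : ∀ x, x ∈ J ↔ x * a ∈ Ideal.span {piL (L := L) hB, d} := fun x => Iff.rfl
  suffices htop : J = ⊤ by
    have := (hJ 1).1 (htop ▸ Submodule.mem_top)
    rw [one_mul, Ideal.mem_span_pair] at this
    obtain ⟨α, c, hc⟩ := this
    exact ⟨c, α, by linear_combination -hc⟩
  by_contra htop
  obtain ⟨m, hm, hJm⟩ := Ideal.exists_le_maximal J htop
  obtain ⟨s, hs, hker⟩ := exists_point_of_isMaximal H m fun c hc => hJm <| (hJ _).2 <| by
    rw [maximalIdeal_eq_span hB, Ideal.mem_span_singleton] at hc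
    obtain ⟨c, rfl⟩ := hc
    rw [map_mul, cstL_pi H hB]
    exact Ideal.mul_mem_right _ _ (Ideal.mul_mem_right _ _ (Ideal.subset_span (by simp)))
  obtain ⟨ψ, hψ, v, hv⟩ := h s hs
  obtain ⟨x₀, hx₀⟩ := IsLocalRing.residue_surjective (s (tL H))
  have hd0 : redPS (ψ d) ≠ 0 := fun h0 => hd (piL_dvd_of_redPS_eq_zero hB hψ h0)
  obtain ⟨e, w, hw, hw0⟩ := exists_X_pow_mul hd0
  obtain ⟨s₁, u₁, hs₁, hu₁, c₁, hc₁⟩ := exists_eq_param_pow hB hψ hx₀ e d w hw hw0
  by_cases ha : redPS (ψ a) = 0
  · obtain ⟨c, hc⟩ := piL_dvd_of_redPS_eq_zero hB hψ ha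
    refine htop ((Ideal.eq_top_iff_one _).2 ((hJ 1).2 ?_))
    rw [one_mul, hc]
    exact Ideal.mul_mem_right _ _ (Ideal.subset_span (by simp))
  have hv0 : v ≠ 0 := fun h0 => ha (by rw [hv, h0, mul_zero])
  obtain ⟨f, v', hv', hv'0⟩ := exists_X_pow_mul hv0
  obtain ⟨s₂, u₂, hs₂, hu₂, c₂, hc₂⟩ := exists_eq_param_pow hB hψ hx₀ (e + f) a (w * v')
    (by rw [hv, hw, hv']; ring) (by rw [map_mul]; exact mul_ne_zero hw0 hv'0)
  have hmem : u₁ * s₂ ∈ J := (hJ _).2 (Ideal.mem_span_pair.2
    ⟨u₁ * c₂ - u₂ * locParam H x₀ ^ f * c₁, u₂ * locParam H x₀ ^ f * s₁, by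
      linear_combination (u₂ * locParam H x₀ ^ f) * hc₁ - u₁ * hc₂⟩)
  have := hJm hmem
  rw [← hker, RingHom.mem_ker, map_mul, mul_eq_zero] at this
  exact this.elim hu₁ hs₂

variable (H) in
/-- **Regularity modulo `π ^ r`.** -/
theorem exists_dvd_sub [IsAlgClosed (ResidueField B)] {d : LRing L B}
    (hd : ¬ piL (L := L) hB ∣ d) :
    ∀ (r : ℕ) (a : LRing L B),
    (∀ s : LRing L B →+* ResidueField B, IsPoint H s → ∃ ψ, IsDisc H s ψ ∧
      ∃ v, PowerSeries.C (⟨π, hB.mem⟩ : B) ^ r ∣ ψ a - ψ d * v) →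
    ∃ c : LRing L B, piL (L := L) hB ^ r ∣ a - c * d := by
  intro r
  induction r with
  | zero => exact fun a _ => ⟨0, by simp⟩
  | succ r ih =>
    intro a h
    obtain ⟨c, a', ha'⟩ := ih a fun s hs => by
      obtain ⟨ψ, hψ, v, hv⟩ := h s hs
      exact ⟨ψ, hψ, v, (pow_dvd_pow _ r.le_succ).trans hv⟩
    obtain ⟨c', c'', hc'⟩ := exists_dvd_sub_one H hB hd (a := a') fun s hs => by
      obtain ⟨ψ, hψ, v, hv⟩ := h s hs
      refine ⟨ψ, hψ, ?_⟩
      have hp : ψ (piL hB) = PowerSeries.C (⟨π, hB.mem⟩ : B) := by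
        rw [← cstL_pi H hB, hψ.const]
      have hnd : ¬ PowerSeries.C (⟨π, hB.mem⟩ : B) ∣ ψ d := fun hdd =>
        hd (piL_dvd_of_redPS_eq_zero hB hψ ((redPS_eq_zero_iff hB _).2 hdd))
      have hψa := congrArg ψ ha'
      rw [map_sub, map_mul, map_mul, map_pow, hp] at hψa
      have h1 : PowerSeries.C (⟨π, hB.mem⟩ : B) ^ r ∣ ψ d * (v - ψ c) := by
        obtain ⟨q, hq⟩ := (pow_dvd_pow _ r.le_succ).trans hv
        exact ⟨ψ a' - q, by linear_combination hψa - hq⟩
      obtain ⟨w, hw⟩ := (prime_C_pi hB).pow_dvd_of_dvd_mul_left r hnd h1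
      obtain ⟨q, hq⟩ := hv
      refine ⟨redPS w, ?_⟩
      rw [← map_mul, ← sub_eq_zero, ← map_sub, redPS_eq_zero_iff hB]
      refine ⟨q, mul_left_cancel₀ (pow_ne_zero r (prime_C_pi hB).ne_zero) ?_⟩
      linear_combination hq + ψ d * hw - hψa
    exact ⟨c + piL hB ^ r * c', c'', by linear_combination ha' + piL hB ^ r * hc'⟩

/-! ## Standard discs -/

section Standard

variable [IsNoetherianRing B] [IsAdicComplete (maximalIdeal B) B]

variable (H) in
/-- The disc with `t ↦ x₀ + T`. -/
theorem exists_disc (hs : IsPoint H s) {x₀ : B} (hx₀ : residue B x₀ = s (tL H)) :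
    ∃ ψ, IsDisc H s ψ ∧ ψ (tL H) = PowerSeries.C x₀ + PowerSeries.X := by
  obtain ⟨ψ, h1, h2, h3⟩ := exists_lift H s hs (PowerSeries.C x₀ + PowerSeries.X) (by simp [hx₀])
  exact ⟨ψ, ⟨h1, h3, by simp [h2, PowerSeries.coeff_X]⟩, h2⟩

variable (H) in
/-- The disc with `1/t ↦ x₀ + T`. -/
theorem exists_disc_inv (hs : IsPoint H s) {x₀ : B} (hx₀ : residue B x₀ * s (tL H) = 1) :
    ∃ ψ, IsDisc H s ψ ∧ ψ (tL H) * (PowerSeries.C x₀ + PowerSeries.X) = 1 := by
  have hu : IsUnit (PowerSeries.C x₀ + PowerSeries.X) := by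
    rw [PowerSeries.isUnit_iff_constantCoeff]
    simpa [IsLocalRing.residue_ne_zero_iff_isUnit] using left_ne_zero_of_mul_eq_one hx₀
  obtain ⟨z, hz⟩ := hu.exists_left_inv
  have hz0 := congrArg (fun f => residue B (PowerSeries.constantCoeff f)) hz
  simp at hz0
  have hzs : residue B (PowerSeries.constantCoeff z) = s (tL H) := by
    linear_combination (s (tL H)) * hz0 - residue B (PowerSeries.constantCoeff z) * hx₀
  obtain ⟨ψ, h1, h2, h3⟩ := exists_lift H s hs z hzs
  refine ⟨ψ, ⟨h1, h3, fun hc => ?_⟩, by rw [h2, hz]⟩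
  rw [h2] at hc
  have hc1 := congrArg (fun f => residue B (PowerSeries.coeff 1 f)) hz
  simp [PowerSeries.coeff_one_mul, PowerSeries.coeff_one] at hc1
  rw [hc, zero_mul, zero_add] at hc1
  rw [hc1, zero_mul] at hz0
  exact zero_ne_one hz0

end Standard

end Fermat.Agent.AtP.Points
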