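import Fermat.Agent.AtP.AssemblyNodeCoord
import Fermat.Agent.AtP.PointsRegular
import Fermat.Agent.AtP.AssemblyUnram

/-!
# Discs composed with branch coordinates

`E ∘ ψ` for a disc `ψ` and a coordinate `u` of a branch is injective modulo `ϖ`; functions with
coefficients in `O` have no `ε`-part in a disc with rational parameter.
-/

set_option autoImplicit false

noncomputable section

open CongruenceSubgroup IsLocalRing
open scoped PowerSeries DualNumber MatrixGroups
open Fermat.Agent.KummerES

namespace Fermat.Agent.AtP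

namespace Coeff

variable {p : ℕ} [hp : Fact p.Prime] (C : Coeff p) {M : ℕ} [NeZero M]

instance instIsLocalRingNode : IsLocalRing (Node C.unif) := isLocalRing_node _ C.unif_mem

instance instIsAdicCompleteNode :
    IsAdicComplete (maximalIdeal (Node C.unif)) (Node C.unif) := isAdicComplete_node C.irred

instance instIsDomainNode : IsDomain (Node C.unif) := isDomain_node C.irred

instance instUFDNode : UniqueFactorizationMonoid (Node C.unif) :=
  uniqueFactorizationMonoid_node C.irred

section Branch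

variable {u : Node C.unif} (hum : u ∈ maximalIdeal (Node C.unif)) {c : ResidueField C.B}
  (hu : IsBranchCoord C.irred C.red₂ C.fst_red₂ C.snd_unif p u c)
include hu

omit hp in
/-- A series nonzero modulo `ϖ` is nonzero on the branch. -/
theorem q₁_evalSeries_ne_zero {F : C.B⟦X⟧} (hF : PowerSeries.map (residue C.B) F ≠ 0) :
    q₁ C.unif C.unif_mem (evalSeries (nc C.unif) u hum F) ≠ 0 := by
  obtain ⟨w, v, hw, -, hw0, -⟩ := hu.order
  obtain ⟨e, F₁, hF₁, hF₁0⟩ := Points.exists_X_pow_mul hF
  obtain ⟨G, rfl⟩ := map_residue_surjective (B := C.B) F₁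
  have hX : PowerSeries.map (residue C.B) (PowerSeries.X ^ e) = PowerSeries.X ^ e := by
    rw [map_pow, PowerSeries.map_X]
  obtain ⟨R, hR⟩ : ∃ R, F = PowerSeries.X ^ e * G + PowerSeries.C C.unif * R := by
    have h : ∀ n, ∃ r, PowerSeries.coeff n (F - PowerSeries.X ^ e * G) = C.unif * r := fun n => by
      have h0 := congrArg (PowerSeries.coeff n) hF₁
      rw [← hX, ← map_mul, PowerSeries.coeff_map, PowerSeries.coeff_map, ← sub_eq_zero,
        ← map_sub, residue_eq_zero_iff, C.irred.maximalIdeal_eq, Ideal.mem_span_singleton,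
        ← map_sub] at h0
      exact h0
    choose r hr using h
    refine ⟨PowerSeries.mk r, PowerSeries.ext fun n => ?_⟩
    rw [map_add, PowerSeries.coeff_C_mul, PowerSeries.coeff_mk, ← hr, map_sub, add_sub_cancel]
  have hunit : IsUnit (evalSeries (nc C.unif) u hum G) := by
    refine IsUnit.map _ (PowerSeries.isUnit_iff_constantCoeff.2 ?_)
    rw [← residue_ne_zero_iff_isUnit]
    rwa [← PowerSeries.coeff_zero_eq_constantCoeff_apply, ← PowerSeries.coeff_map,
      PowerSeries.coeff_zero_eq_constantCoeff_apply]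
  rw [hR, map_add, map_mul, map_mul, map_pow, evalSeries_X, evalSeries_C, map_add, map_mul, map_mul,
    map_pow, q₁_nc, (residue_eq_zero_iff C.unif).2 C.unif_mem, map_zero, zero_mul, add_zero]
  refine mul_ne_zero (pow_ne_zero _ ?_) ((hunit.map _).ne_zero)
  rw [hw]
  exact mul_ne_zero (pow_ne_zero _ PowerSeries.X_ne_zero) fun h => hw0 (by rw [h, map_zero])

variable (hp2 : p ≠ 2) (hpM : ¬ p ∣ M)
  {s : LRing (2 * M) C.B →+* ResidueField C.B} {ψ : LRing (2 * M) C.B →+* C.B⟦X⟧}
  (hψ : Points.IsDisc (C.levelHyp hp2 hpM) s ψ)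
include hψ

/-- A function vanishing on the branch vanishes modulo `ϖ`. -/
theorem piA_dvd_of_ny_dvd {a : LRing (2 * M) C.B}
    (h : ny C.unif ∣ evalSeries (nc C.unif) u hum (ψ a)) : C.piA M ∣ a := by
  by_contra hnd
  have h1 : PowerSeries.map (residue C.B) (ψ a) ≠ 0 := fun h0 =>
    hnd (Points.piL_dvd_of_redPS_eq_zero (C.coeffHyp hp2 hpM) hψ h0)
  refine C.q₁_evalSeries_ne_zero hum hu h1 ?_
  rw [← RingHom.mem_ker, ker_q₁ C.irred, Ideal.mem_span_singleton]
  exact h

omit hu in
/-- A disc composed with a coordinate sends the uniformiser to `y x`. -/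
theorem evalSeries_disc_piA : evalSeries (nc C.unif) u hum (ψ (C.piA M)) = ny C.unif * nx C.unif := by
  rw [show C.piA M = Points.cstL (C.levelHyp hp2 hpM) C.unif from rfl, hψ.const, evalSeries_C,
    ← nx_mul_ny, mul_comm]

/-- The composite is injective. -/
theorem evalSeries_disc_injective :
    Function.Injective ((evalSeries (nc C.unif) u hum).comp ψ) := by
  rw [injective_iff_map_eq_zero]
  intro a ha
  by_contra h0
  obtain ⟨v, D₀, rfl, hD₀⟩ := C.exists_eq_piA_pow_mul hp2 hpM h0
  rw [RingHom.comp_apply, map_mul, map_mul, map_pow, map_pow, C.evalSeries_disc_piA hum hp2 hpM hψ,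
    mul_eq_zero] at ha
  rcases ha with ha | ha
  · exact pow_ne_zero v (mul_ne_zero (ny_ne_zero C.irred) (nx_ne_zero C.irred)) ha
  · exact hD₀ (C.piA_dvd_of_ny_dvd hum hu hp2 hpM hψ (ha ▸ dvd_zero _))

end Branch

/-- The level structure over `O`. -/
def levelHypO (hp2 : p ≠ 2) (hpM : ¬ p ∣ M) : LevelHyp 2 (2 * M) C.O where
  D := ratioData (2 * M)
  T := lamBase (2 * M) (Dvd.intro M rfl)
  le := C.zetaRing_le (not_dvd_two_mul hp2 hpM)
  two_le := le_rfl
  dvd := Dvd.intro M rfl

/-- Functions over `O` have no `ε`-part in a disc whose coordinate has none. -/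
theorem isEpsFree_disc_inclO (hp2 : p ≠ 2) (hpM : ¬ p ∣ M)
    {s : LRing (2 * M) C.B →+* ResidueField C.B} {ψ : LRing (2 * M) C.B →+* C.B⟦X⟧}
    (hψ : Points.IsDisc (C.levelHyp hp2 hpM) s ψ)
    (ht : IsEpsFree C.red₂ (ψ (Points.tL (C.levelHyp hp2 hpM)))) (a : LRing (2 * M) C.O) :
    IsEpsFree C.red₂ (ψ (C.inclO M a)) := by
  set red : C.B⟦X⟧ →+* (DualNumber (ResidueField C.B))⟦X⟧ := PowerSeries.map C.red₂
  set f : LRing (2 * M) C.O →+* (DualNumber (ResidueField C.B))⟦X⟧ := red.comp (ψ.comp (C.inclO M))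
  set f' : LRing (2 * M) C.O →+* (DualNumber (ResidueField C.B))⟦X⟧ :=
    (PowerSeries.map ((TrivSqZeroExt.inlHom (ResidueField C.B) (ResidueField C.B)).comp
      (residue C.B))).comp (ψ.comp (C.inclO M))
  have hfree : ∀ F : C.B⟦X⟧, IsEpsFree C.red₂ F → red F = PowerSeries.map
      ((TrivSqZeroExt.inlHom (ResidueField C.B) (ResidueField C.B)).comp (residue C.B)) F :=
    fun F hF => PowerSeries.ext fun n => by
      rw [PowerSeries.coeff_map, PowerSeries.coeff_map]
      exact TrivSqZeroExt.ext (by simp [C.fst_red₂]) (by simp [hF n])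
  have hff : f = f' := by
    refine Points.ringHom_ext_of_nilpotent (C.levelHypO hp2 hpM) (fun c => ?_) ?_ fun a => ?_
    · refine hfree _ fun n => ?_
      rw [RingHom.comp_apply, show C.inclO M (Points.cstL (C.levelHypO hp2 hpM) c) =
        Points.cstL (C.levelHyp hp2 hpM) ⟨c.1, C.le c.2⟩ from rfl, hψ.const, PowerSeries.coeff_C]
      split
      · exact C.snd_red₂_of_mem_O c.2
      · rw [map_zero, TrivSqZeroExt.snd_zero]
    · exact hfree _ ht
    · set F := f a - f' a with hFdef
      have hfst : ∀ n, TrivSqZeroExt.fst (PowerSeries.coeff n F) = 0 := fun n => by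
        simp [hFdef, f, f', red, C.fst_red₂]
      refine ⟨2, PowerSeries.ext fun n => ?_⟩
      rw [sq, PowerSeries.coeff_mul, map_zero]
      exact Finset.sum_eq_zero fun x _ => TrivSqZeroExt.ext (by simp [hfst]) (by simp [hfst])
  intro n
  have := congrArg (fun F => TrivSqZeroExt.snd (PowerSeries.coeff n F)) (RingHom.congr_fun hff a)
  simpa [f, f', red] using this

end Coeff

end Fermat.Agent.AtP
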