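import Fermat.Agent.AtP.Certificate
import Fermat.Agent.KummerES.HeckeWeak

/-!
# The certificate for `Γ₀(p) ∩ Γ(L)`
-/

set_option autoImplicit false

noncomputable section

open UpperHalfPlane CongruenceSubgroup
open scoped MatrixGroups Manifold

namespace Fermat.Agent.AtP

open Fermat.Agent.KummerES
open ModularCurve (qExpand)

/-- `Γ₀(p) ∩ Γ(L)` is stable under the twists at level `p L`. -/
theorem isDiagStable_gamma0_inf (p L : ℕ) : IsDiagStable (Gamma0 p ⊓ Gamma L) (p * L) := by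
  have hL : L ∣ p * L := dvd_mul_left L p
  have hp : p ∣ p * L := dvd_mul_right p L
  refine ⟨fun γ hγ => ⟨(isDiagStable_gamma0 p).1 (gamma_le_of_dvd hp hγ), gamma_le_of_dvd hL hγ⟩,
    fun c hc γ γ' h hγ => ⟨(isDiagStable_gamma0 p).2 c (hc.coprime_dvd_right hp) γ γ'
      (h.mono hp) hγ.1, ?_⟩⟩
  have h' := h.mono hL
  have h1 := redMat_eq_one_iff.mp hγ.2
  rw [TwistRel, h1, mul_one] at h'
  have hcu : IsUnit (c : ZMod L) := (ZMod.unitOfCoprime c (hc.coprime_dvd_right hL)).isUnit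
  have hDc : IsUnit (diagMat L c) := by
    rw [Matrix.isUnit_iff_isUnit_det, diagMat, Matrix.det_fin_two_of]
    simpa using hcu
  exact redMat_eq_one_iff.mpr (hDc.mul_right_cancel (h'.trans (one_mul _).symm))

/-- Rationality can be read in the parameter of width `L`. -/
theorem isRat_iff_width {p L : ℕ} [NeZero p] [NeZero L] (K₀ : Subfield ℂ) {f : ℍ → ℂ}
    (hf : f ∈ weak (Gamma0 p ⊓ Gamma L) (p * L) ⊤) :
    IsRat (p * L) K₀ f ↔ IsRat L K₀ f := by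
  have hT : comp f (ModularGroup.T ^ (L : ℤ)) = f := by
    refine hf.2.1 _ (Subgroup.mem_inf.mpr ⟨?_, ModularGroup_T_pow_mem_Gamma (L : ℤ) (L : ℤ) dvd_rfl⟩)
    rw [Gamma0_mem, ModularGroup.coe_T_zpow]
    simp
  obtain ⟨s, hs, hs'⟩ := hf.2.2 1
  rw [comp_one, mul_comm] at hs'
  obtain ⟨t, -, ht⟩ := exists_hasExp_of_comp_T_pow hs' hs hT
  have e : expansion (p * L) f = qExpand ℂ p (expansion L f) := by
    rw [ht.expansion_eq, mul_comm]
    exact (ht.dilate p).expansion_eq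
  constructor
  · intro h i
    have := h (p * i)
    rwa [e, ModularCurve.qExpand_coeff_mul] at this
  · intro h i
    rw [e]
    by_cases hi : (p : ℤ) ∣ i
    · obtain ⟨j, rfl⟩ := hi
      rw [ModularCurve.qExpand_coeff_mul]
      exact h j
    · rw [ModularCurve.qExpand_coeff_of_not_dvd p _ hi]
      exact Subfield.zero_mem _

/-- **The horizontal certificate at level `Γ₀(p) ∩ Γ(L)`.** -/
theorem exists_certificate_level {p L : ℕ} [NeZero p] [NeZero L] (h2 : 2 ∣ L) (K₀ : Subfield ℂ)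
    {n : ℕ} (hn : n ≠ 0) {g : ℍ → ℂ} (hg : MDiff g) (hg0 : g ≠ 0)
    (hf : g ^ n ∈ weak (Gamma0 p ⊓ Gamma L) (p * L) ⊤) (hfr : IsRat L K₀ (g ^ n)) :
    ∃ (m : ℕ) (a d c : Fin m → ℍ → ℂ),
      (∀ j, a j ∈ weak (Gamma0 p ⊓ Gamma L) (p * L) ⊤ ∧ IsRat L K₀ (a j)) ∧
      (∀ j, d j ∈ weak (Gamma0 p ⊓ Gamma L) (p * L) ⊤ ∧ IsRat L K₀ (d j)) ∧
      (∀ j, c j ∈ weak (Gamma0 p ⊓ Gamma L) (p * L) ⊤ ∧ IsRat L K₀ (c j)) ∧
      (∀ j, a j ^ n = d j * g ^ n) ∧ ∑ j, c j * d j = 1 := by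
  have : NeZero (p * L) := ⟨mul_ne_zero (NeZero.ne p) (NeZero.ne L)⟩
  obtain ⟨m, a, d, c, ha, hd, hc, hae, hsum⟩ :=
    exists_certificate (L := p * L) (h2.mul_left p) (isDiagStable_gamma0_inf p L)
      (le_trans inf_le_right (gamma_le_of_dvd h2)) K₀ hn hg hg0 hf
      ((isRat_iff_width K₀ hf).mpr hfr)
  exact ⟨m, a, d, c, fun j => ⟨(ha j).1, (isRat_iff_width K₀ (ha j).1).mp (ha j).2⟩,
    fun j => ⟨(hd j).1, (isRat_iff_width K₀ (hd j).1).mp (hd j).2⟩,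
    fun j => ⟨(hc j).1, (isRat_iff_width K₀ (hc j).1).mp (hc j).2⟩, hae, hsum⟩

end Fermat.Agent.AtP
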