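import Mathlib.LinearAlgebra.Basis.VectorSpace
import Mathlib.Algebra.Algebra.Subalgebra.Lattice
import Fermat.Agent.AtP.DescentLevel
import Fermat.Agent.KummerES.LevelMain

/-!
# The ring of level `L` over a subring of coefficients

It is spanned by the functions with coefficients in `ℤ[ζ_L, 1/L]`; so linear relations with series
over a subfield can be solved over that subfield.
-/

set_option autoImplicit false

noncomputable section

open UpperHalfPlane CongruenceSubgroup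
open scoped MatrixGroups Manifold
open Fermat.Agent.KummerES

namespace Fermat.Agent.AtP

variable {L : ℕ} [NeZero L]

/-- `H` with all complex constants allowed. -/
def hypTop {M : ℕ} (H : LevelHyp M L (zetaRing L)) : LevelHyp M L ⊤ :=
  ⟨H.D, H.T, le_top, H.two_le, H.dvd⟩

/-- A function of level `L` is a combination of functions over `ℤ[ζ_L, 1/L]`. -/
theorem weak_top_subset_span {M : ℕ} (H : LevelHyp M L (zetaRing L)) {f : ℍ → ℂ}
    (hf : f ∈ weak (Gamma L) L ⊤) :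
    f ∈ Submodule.span ℂ (weak (Gamma L) L (zetaRing L) : Set (ℍ → ℂ)) := by
  have hadj : Submodule.span ℂ (weak (Gamma L) L (zetaRing L) : Set (ℍ → ℂ)) =
      Subalgebra.toSubmodule (Algebra.adjoin ℂ (weak (Gamma L) L (zetaRing L) : Set (ℍ → ℂ))) := by
    rw [Algebra.adjoin_eq_span]
    congr 1
    exact (congrArg (fun S : Submonoid (ℍ → ℂ) => (S : Set (ℍ → ℂ)))
      (Submonoid.closure_eq (weak (Gamma L) L (zetaRing L)).toSubmonoid)).symm
  rw [hadj, Subalgebra.mem_toSubmodule]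
  rw [← (hypTop H).genRing_eq] at hf
  induction hf using Subring.closure_induction with
  | mem g hg =>
    have hle := weak_mono (L := L) (Gamma_le_of_dvd H.dvd) (le_refl (zetaRing L))
    rcases hg with ⟨c, -, rfl⟩ | ⟨v, w, a, b, hvw, hab, rfl⟩ | rfl | ⟨c, -, hg, -⟩
    · exact Subalgebra.algebraMap_mem _ c
    · exact Algebra.subset_adjoin (H.D.mem_weak hvw hab)
    · exact Algebra.subset_adjoin (hle H.T.t_mem)
    · exact Algebra.subset_adjoin (hle hg)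
  | zero => exact zero_mem _
  | one => exact one_mem _
  | add _ _ _ _ h1 h2 => exact add_mem h1 h2
  | neg _ _ h => exact neg_mem h
  | mul _ _ _ _ h1 h2 => exact mul_mem h1 h2

/-- Finitely many functions of level `L` written with a common family over `ℤ[ζ_L, 1/L]`. -/
theorem exists_eq_sum {M : ℕ} (H : LevelHyp M L (zetaRing L)) {f : ℍ → ℂ}
    (hf : f ∈ weak (Gamma L) L ⊤) :
    ∃ (n : ℕ) (a : Fin n → ℂ) (e : Fin n → ℍ → ℂ),
      (∀ k, e k ∈ weak (Gamma L) L (zetaRing L)) ∧ f = ∑ k, a k • e k := by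
  obtain ⟨n, a, e, h⟩ := Submodule.mem_span_set'.1 (weak_top_subset_span H hf)
  exact ⟨n, a, fun k => (e k).1, fun k => (e k).2, h.symm⟩

/-- A linear projection of `ℂ` onto a subfield. -/
theorem exists_projection (K : Subfield ℂ) :
    ∃ φ : ℂ →+ ℂ, (∀ x, φ x ∈ K) ∧ (∀ x ∈ K, φ x = x) ∧ ∀ x y, x ∈ K → φ (x * y) = x * φ y := by
  obtain ⟨g, hg⟩ := LinearMap.exists_leftInverse_of_injective (Algebra.linearMap K ℂ)
    (LinearMap.ker_eq_bot.2 (RingHom.injective (algebraMap K ℂ)))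
  refine ⟨(K.subtype.toAddMonoidHom).comp g.toAddMonoidHom, fun x => (g x).2, fun x hx => ?_,
    fun x y hx => ?_⟩
  · have := LinearMap.congr_fun hg ⟨x, hx⟩
    exact congrArg Subtype.val this
  · have := congrArg Subtype.val (g.map_smul (⟨x, hx⟩ : K) y)
    exact this

/-- A relation between series with coefficients in `K` holds with coefficients in `K`. -/
theorem exists_coeff_mem {ι : Type*} (T : Finset ι) (K : Subfield ℂ) {t : LaurentSeries ℂ}
    {s : ι → LaurentSeries ℂ} {a : ι → ℂ} (ht : t ∈ coeffSubring K.toSubring)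
    (hs : ∀ i ∈ T, s i ∈ coeffSubring K.toSubring)
    (h : t = ∑ i ∈ T, HahnSeries.single 0 (a i) * s i) :
    ∃ b : ι → ℂ, (∀ i, b i ∈ K) ∧ t = ∑ i ∈ T, HahnSeries.single 0 (b i) * s i := by
  obtain ⟨φ, hφ, hφ1, hφ2⟩ := exists_projection K
  refine ⟨fun i => φ (a i), fun i => hφ _, ?_⟩
  ext n
  have hn := congrArg (fun u : LaurentSeries ℂ => φ (u.coeff n)) h
  simp only [HahnSeries.coeff_sum, HahnSeries.coeff_single_zero_mul, map_sum] at hn ⊢
  rw [← hφ1 _ (ht n), hn]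
  refine Finset.sum_congr rfl fun i hi => ?_
  rw [mul_comm, hφ2 _ _ (hs i hi n), mul_comm]

/-- `K`-combinations can be cleared of denominators. -/
theorem exists_pow_mul_mem {ι : Type*} (T : Finset ι) {K : Subfield ℂ} {B : Subring ℂ} {π : ℂ}
    (hπ : π ∈ B) (hbd : ∀ x ∈ K, ∃ N : ℕ, π ^ N * x ∈ B) {a : ι → ℂ} (ha : ∀ i ∈ T, a i ∈ K) :
    ∃ N : ℕ, ∀ i ∈ T, π ^ N * a i ∈ B := by
  classical
  induction T using Finset.induction_on with
  | empty => exact ⟨0, by simp⟩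
  | insert i T hi ih =>
    obtain ⟨N, hN⟩ := ih fun j hj => ha j (Finset.mem_insert_of_mem hj)
    obtain ⟨N', hN'⟩ := hbd _ (ha i (Finset.mem_insert_self i T))
    refine ⟨N' + N, fun j hj => ?_⟩
    rcases Finset.mem_insert.1 hj with rfl | hj
    · rw [pow_add, mul_comm (π ^ N'), mul_assoc]; exact mul_mem (pow_mem hπ N) hN'
    · rw [pow_add, mul_assoc]; exact mul_mem (pow_mem hπ N') (hN j hj)

/-- Coefficients `O + π O + π² B`. -/
theorem exists_decomp_sq {M : ℕ} (H : LevelHyp M L (zetaRing L)) {O B : Subring ℂ} {π : ℂ}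
    (hO : zetaRing L ≤ O) (hOB : O ≤ B) (hπ : π ∈ B)
    (hgen : ∀ b ∈ B, ∃ o₀ ∈ O, ∃ o₁ ∈ O, ∃ b₂ ∈ B, b = o₀ + π * o₁ + π ^ 2 * b₂) {a : ℍ → ℂ}
    (ha : a ∈ weak (Gamma L) L B) :
    ∃ a₀ ∈ weak (Gamma L) L O, ∃ a₁ ∈ weak (Gamma L) L O, ∃ a₂ ∈ weak (Gamma L) L B,
      ∀ τ, a τ = a₀ τ + π * a₁ τ + π ^ 2 * a₂ τ := by
  let HB : LevelHyp M L B := ⟨H.D, H.T, hO.trans hOB, H.two_le, H.dvd⟩
  have hOB' : weak (Gamma L) L O ≤ weak (Gamma L) L B := weak_mono le_rfl hOB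
  have hπ' : (fun _ : ℍ => π) ∈ weak (Gamma L) L B := const_mem_weak hπ
  have hbase : ∀ g ∈ weak (Gamma L) L (zetaRing L), ∃ a₀ ∈ weak (Gamma L) L O,
      ∃ a₁ ∈ weak (Gamma L) L O, ∃ a₂ ∈ weak (Gamma L) L B,
      ∀ τ, g τ = a₀ τ + π * a₁ τ + π ^ 2 * a₂ τ := fun g hg =>
    ⟨g, weak_mono le_rfl hO hg, 0, zero_mem _, 0, zero_mem _, fun τ => by simp⟩
  have hle := weak_mono (L := L) (Gamma_le_of_dvd H.dvd) (le_refl (zetaRing L))
  rw [← HB.genRing_eq] at ha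
  induction ha using Subring.closure_induction with
  | mem g hg =>
    rcases hg with ⟨c, hc, rfl⟩ | ⟨v, w, a, b, hvw, hab, rfl⟩ | rfl | ⟨c, -, hg, -⟩
    · obtain ⟨o₀, h₀, o₁, h₁, b₂, h₂, rfl⟩ := hgen c hc
      exact ⟨_, const_mem_weak h₀, _, const_mem_weak h₁, _, const_mem_weak h₂, fun τ => rfl⟩
    · exact hbase _ (H.D.mem_weak hvw hab)
    · exact hbase _ (hle H.T.t_mem)
    · exact hbase _ (hle hg)
  | zero => exact hbase 0 (zero_mem _)
  | one => exact hbase 1 (one_mem _)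
  | add f g _ _ hf hg =>
    obtain ⟨a₀, ha₀, a₁, ha₁, a₂, ha₂, hfe⟩ := hf
    obtain ⟨b₀, hb₀, b₁, hb₁, b₂, hb₂, hge⟩ := hg
    exact ⟨_, add_mem ha₀ hb₀, _, add_mem ha₁ hb₁, _, add_mem ha₂ hb₂, fun τ => by
      simp only [Pi.add_apply, hfe τ, hge τ]; ring⟩
  | neg f _ hf =>
    obtain ⟨a₀, ha₀, a₁, ha₁, a₂, ha₂, hfe⟩ := hf
    exact ⟨_, neg_mem ha₀, _, neg_mem ha₁, _, neg_mem ha₂, fun τ => by
      simp only [Pi.neg_apply, hfe τ]; ring⟩
  | mul f g _ _ hf hg =>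
    obtain ⟨a₀, ha₀, a₁, ha₁, a₂, ha₂, hfe⟩ := hf
    obtain ⟨b₀, hb₀, b₁, hb₁, b₂, hb₂, hge⟩ := hg
    refine ⟨a₀ * b₀, mul_mem ha₀ hb₀, a₀ * b₁ + a₁ * b₀, add_mem (mul_mem ha₀ hb₁) (mul_mem ha₁ hb₀),
      a₀ * b₂ + a₂ * b₀ + a₁ * b₁ + (fun _ => π) * (a₁ * b₂ + a₂ * b₁) +
        (fun _ => π) ^ 2 * (a₂ * b₂), ?_, fun τ => ?_⟩
    · exact add_mem (add_mem (add_mem (add_mem (mul_mem (hOB' ha₀) hb₂) (mul_mem ha₂ (hOB' hb₀)))
        (mul_mem (hOB' ha₁) (hOB' hb₁))) (mul_mem hπ' (add_mem (mul_mem (hOB' ha₁) hb₂)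
          (mul_mem ha₂ (hOB' hb₁))))) (mul_mem (pow_mem hπ' 2) (mul_mem ha₂ hb₂))
    · simp only [Pi.mul_apply, Pi.add_apply, Pi.pow_apply, hfe τ, hge τ]; ring

end Fermat.Agent.AtP
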