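import Fermat.Agent.AtP.Model
import Mathlib.Algebra.Polynomial.Taylor

/-!
# Elements of the extension are fractions modulo every power of `π`

If `z` is congruent modulo `π` to a value `y₀` at which `V` has a simple root modulo `π`, then
modulo every `π ^ n` the series `z`, hence every element of `algElts`, is a fraction of elements
of `A` with denominator prime to `π`.
-/

set_option autoImplicit false

noncomputable section

namespace Fermat.Agent.AtP

open Polynomial

variable {A S : Type*} [CommRing A] [IsDomain A] [CommRing S] [IsDomain S] (φ : A →+* S) (π : A)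

/-- `x` is a fraction modulo `π ^ n`. -/
def IsFrac (n : ℕ) (x : S) : Prop := ∃ a d : A, ¬ π ∣ d ∧ φ π ^ n ∣ φ d * x - φ a

variable {φ π} (hπ : Prime π)
include hπ

omit [IsDomain A] [IsDomain S] in
/-- Fractions modulo `π ^ n` are closed under sums. -/
lemma IsFrac.add {n : ℕ} {x y : S} (hx : IsFrac φ π n x) (hy : IsFrac φ π n y) :
    IsFrac φ π n (x + y) := by
  obtain ⟨a, d, hd, h⟩ := hx
  obtain ⟨a', d', hd', h'⟩ := hy
  refine ⟨a * d' + a' * d, d * d', hπ.not_dvd_mul hd hd', ?_⟩
  have := dvd_add (h.mul_left (φ d')) (h'.mul_left (φ d))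
  convert this using 1
  simp only [map_add, map_mul]
  ring

omit [IsDomain A] [IsDomain S] in
/-- Fractions modulo `π ^ n` are closed under products. -/
lemma IsFrac.mul {n : ℕ} {x y : S} (hx : IsFrac φ π n x) (hy : IsFrac φ π n y) :
    IsFrac φ π n (x * y) := by
  obtain ⟨a, d, hd, h⟩ := hx
  obtain ⟨a', d', hd', h'⟩ := hy
  refine ⟨a * a', d * d', hπ.not_dvd_mul hd hd', ?_⟩
  have := dvd_add (h.mul_left (φ d' * y)) (h'.mul_left (φ a))
  convert this using 1
  simp only [map_mul]
  ring

omit [IsDomain A] [IsDomain S] in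
/-- Elements of `A` are fractions. -/
lemma IsFrac.map (n : ℕ) (a : A) : IsFrac φ π n (φ a) :=
  ⟨a, 1, hπ.not_dvd_one, by simp⟩

omit hπ [IsDomain A] in
/-- Saturation for powers. -/
lemma pow_dvd_of_map_dvd (hsat : ∀ a, φ π ∣ φ a → π ∣ a) (hπS : φ π ≠ 0) :
    ∀ (n : ℕ) (a : A), φ π ^ n ∣ φ a → π ^ n ∣ a := by
  intro n
  induction n with
  | zero => intro a _; simp
  | succ n ih =>
    intro a h
    obtain ⟨b, rfl⟩ := hsat a ((dvd_pow_self _ n.succ_ne_zero).trans h)
    rw [map_mul, pow_succ', mul_dvd_mul_iff_left hπS] at h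
    rw [pow_succ']
    exact mul_dvd_mul_left _ (ih b h)

omit [IsDomain A] [IsDomain S] in
/-- Polynomial values at fractions are fractions. -/
lemma IsFrac.eval₂ {n : ℕ} {x : S} (hx : IsFrac φ π n x) (P : A[X]) :
    IsFrac φ π n (P.eval₂ φ x) := by
  induction P using Polynomial.induction_on' with
  | add P Q hP hQ => rw [eval₂_add]; exact hP.add hπ hQ
  | monomial k c =>
    rw [eval₂_monomial]
    refine (IsFrac.map hπ n c).mul hπ ?_
    induction k with
    | zero => rw [pow_zero, ← map_one φ]; exact IsFrac.map hπ n 1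
    | succ k ih => rw [pow_succ]; exact ih.mul hπ hx

omit [IsDomain A] in
/-- The root is a fraction modulo every power of `π`. -/
theorem isFrac_root (hsat : ∀ a, φ π ∣ φ a → π ∣ a) (hπS : φ π ≠ 0) {V : A[X]} {y₀ : A} {z : S}
    (hV1 : ¬ π ∣ V.derivative.eval y₀) (hz : V.eval₂ φ z = 0) (hz0 : φ π ∣ z - φ y₀) (n : ℕ) :
    IsFrac φ π n z := by
  suffices H : ∀ n, ∃ a d : A, ¬ π ∣ d ∧ φ π ^ n ∣ φ d * z - φ a ∧ π ∣ a - d * y₀ by
    obtain ⟨a, d, hd, h, -⟩ := H n
    exact ⟨a, d, hd, h⟩
  intro n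
  induction n with
  | zero => exact ⟨y₀, 1, hπ.not_dvd_one, by simp, by simp⟩
  | succ n ih =>
    rcases Nat.eq_zero_or_pos n with rfl | hn
    · exact ⟨y₀, 1, hπ.not_dvd_one, by simpa using hz0, by simp⟩
    obtain ⟨a, d, hd, ⟨w, hw⟩, had⟩ := ih
    set m := V.natDegree
    -- the homogenised values of `V` and of its derivative
    set W : A[X] := ∑ i ∈ Finset.range (m + 1), C (V.coeff i * d ^ (m - i)) * X ^ i with hWdef
    have hW : ∀ (ψ : A →+* S) (x : S),
        W.eval₂ ψ (ψ d * x) = ψ d ^ m * V.eval₂ ψ x := fun ψ x => by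
      rw [hWdef, eval₂_finsetSum, eval₂_eq_sum_range, Finset.mul_sum]
      refine Finset.sum_congr rfl fun i hi => ?_
      rw [Finset.mem_range] at hi
      rw [eval₂_mul, eval₂_pow, eval₂_C, eval₂_X, mul_pow, map_mul, map_pow,
        ← pow_sub_mul_pow (ψ d) (show i ≤ m by omega)]
      ring
    obtain ⟨K, hK⟩ := Polynomial.binomExpansion (W.map φ) (φ a) (φ π ^ n * w)
    rw [show φ a + φ π ^ n * w = φ d * z by rw [← hw]; ring, eval_map, hW φ z, hz, mul_zero,
      derivative_map, eval_map, eval_map, eval₂_at_apply, eval₂_at_apply] at hK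
    set v := W.eval a with hv
    set v' := W.derivative.eval a with hv'
    have hv'0 : ¬ π ∣ v' := by
      intro h0
      have hc : v' - W.derivative.eval (d * y₀) ∈ Ideal.span {π} :=
        Ideal.mem_span_singleton.2 (had.trans (sub_dvd_eval_sub _ _ _))
      rw [Ideal.mem_span_singleton] at hc
      have h1 := dvd_sub h0 hc
      rw [sub_sub_cancel] at h1
      -- derivative of the homogenisation
      have key : W.derivative.eval (d * y₀) * d = d ^ m * V.derivative.eval y₀ := by
        have h2 : W.comp (C d * X) = C (d ^ m) * V := by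
          conv_rhs => rw [V.as_sum_range_C_mul_X_pow, Finset.mul_sum]
          rw [hWdef, sum_comp]
          refine Finset.sum_congr rfl fun i hi => ?_
          rw [Finset.mem_range] at hi
          rw [mul_comp, pow_comp, C_comp, X_comp, mul_pow, map_mul, ← map_pow C d i,
            ← mul_assoc, ← mul_assoc, mul_assoc (C (V.coeff i)), ← map_mul C (d ^ (m - i)),
            pow_sub_mul_pow d (show i ≤ m by omega)]
          ring
        have h3 := congrArg (fun q : A[X] => q.derivative.eval y₀) h2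
        simp only [derivative_comp, derivative_mul, derivative_C, derivative_X, zero_mul, zero_add,
          mul_one, eval_mul, eval_C, eval_comp, eval_X] at h3
        linear_combination h3
      rcases hπ.dvd_or_dvd (key ▸ h1.mul_right d : π ∣ d ^ m * V.derivative.eval y₀) with h2 | h2
      · exact hd (hπ.dvd_of_dvd_pow h2)
      · exact hV1 h2
    obtain ⟨v₁, hv₁⟩ : π ^ n ∣ v := pow_dvd_of_map_dvd hsat hπS n v
      ⟨-(φ v' * w + K * φ π ^ n * w ^ 2), by linear_combination -hK⟩
    refine ⟨a * v' - π ^ n * v₁, d * v', hπ.not_dvd_mul hd hv'0, ?_, ?_⟩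
    · rw [hv₁, map_mul, map_pow] at hK
      refine ⟨-(K * φ π ^ (n - 1) * w ^ 2), ?_⟩
      have e1 : φ π ^ n * φ π ^ n = φ π ^ (n + 1) * φ π ^ (n - 1) := by
        rw [← pow_add, ← pow_add]; congr 1; omega
      simp only [map_mul, map_sub, map_pow]
      linear_combination φ v' * hw - hK - (K * w ^ 2) * e1
    · have : π ∣ π ^ n * v₁ := (dvd_pow_self π (by omega)).mul_right _
      convert dvd_sub (had.mul_left v') this using 1
      ring

omit [IsDomain A] in
/-- Every element of `algElts` is a fraction modulo every power of `π`. -/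
theorem isFrac_of_algebraic (hsat : ∀ a, φ π ∣ φ a → π ∣ a) (hπS : φ π ≠ 0)
    {V : A[X]} {y₀ : A} {z : S} (hV1 : ¬ π ∣ V.derivative.eval y₀) (hz : V.eval₂ φ z = 0)
    (hz0 : φ π ∣ z - φ y₀) {D₀ : A} (hD₀ : ¬ π ∣ D₀) {v : ℕ} {Q : A[X]} {e : S}
    (he : φ (π ^ v * D₀) * e = Q.eval₂ φ z) (n : ℕ) : IsFrac φ π n e := by
  obtain ⟨a, d, hd, w, hw⟩ := (isFrac_root hπ hsat hπS hV1 hz hz0 (v + n)).eval₂ hπ Q
  rw [← he, map_mul, map_pow, pow_add] at hw
  obtain ⟨a', rfl⟩ : π ^ v ∣ a := by
    exact pow_dvd_of_map_dvd hsat hπS v a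
      ⟨φ d * φ D₀ * e - φ π ^ n * w, by linear_combination -hw⟩
  refine ⟨a', d * D₀, hπ.not_dvd_mul hd hD₀, w, mul_left_cancel₀ (pow_ne_zero v hπS) ?_⟩
  rw [map_mul φ (π ^ v), map_pow] at hw
  rw [map_mul]
  linear_combination hw

end Fermat.Agent.AtP
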