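import Fermat.Agent.AtP.DescentAlg
import Fermat.Agent.AtP.DescentSpan
import Fermat.Agent.AtP.CertificateLevel
import Fermat.Agent.AtP.ModelApprox
import Fermat.Agent.AtP.AssemblyNodeMaps

/-!
# The certificate in the extension, and representatives over `O`

`ϖ ^ N t₁` carries a certificate for being a `p`-th power up to units inside
`algElts (expK) (λ (pτ))` (`exists_certificate_algElts`), and modulo `ϖ²` the scaled series are
quotients of two functions of level `2 M` with coefficients in `O` (`exists_rep₁`, `exists_rep₂`).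
-/

set_option autoImplicit false

noncomputable section

open UpperHalfPlane CongruenceSubgroup
open scoped MatrixGroups Manifold
open Fermat.Agent.KummerES
open ModularCurve (qExpand coeffMap)

namespace Fermat.Agent.AtP

variable {p : ℕ} [hp : Fact p.Prime]

namespace Coeff

attribute [local instance] isDomain_LRing

variable (C : Coeff p) {M : ℕ} [NeZero M]

omit hp in
theorem expK_piA_pow (N : ℕ) :
    C.expK M (C.piA M ^ N) = HahnSeries.single 0 ((C.unif : ℂ) ^ N) := by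
  rw [map_pow, expK, RingHom.comp_apply, expA_piA, ← map_pow, ← map_pow, ← HahnSeries.C_apply]
  refine HahnSeries.ext (funext fun i => ?_)
  rcases eq_or_ne i 0 with rfl | hi <;> simp [*]

variable (hp2 : p ≠ 2) (hpM : ¬ p ∣ M)
include hp2 hpM

/-- Functions rational over the field are, scaled by a high power of `ϖ`, in the extension. -/
theorem exists_scaled_mem_algElts {F : ℍ → ℂ}
    (hF : F ∈ weak (levelP p (2 * M)) (p * (2 * M)) ⊤) (hFK : IsRat (2 * M) C.field F) :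
    ∃ N₀ : ℕ, ∀ N, N₀ ≤ N → HahnSeries.single 0 ((C.unif : ℂ) ^ N) * expansion (2 * M) F ∈
      algElts (C.expK M) (expansion (2 * M) (lamP p)) := by
  have hpL := not_dvd_two_mul hp2 hpM
  have hB := (C.zetaRing_le hpL).trans C.le
  have hK := hB.trans C.B_le_field
  have hFK' : F ∈ expSubring (2 * M) C.field.toSubring :=
    ⟨_, fun i => hFK i, hasExp_expansion_infty hF⟩
  obtain ⟨N₁, hN₁⟩ := exists_bound (baseLevelHyp M) hp2 hpL hK hB C.unif.2 C.exists_pow_mul_mem_B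
    hF hFK'
  obtain ⟨N₂, hN₂⟩ := exists_bound (baseLevelHyp M) hp2 hpL hK hB C.unif.2 C.exists_pow_mul_mem_B
    (swapFun_mem hp2 hpL hF) (swapFun_mem_expSubring (baseLevelHyp M) hp2 hpL hK hF hFK')
  refine ⟨max N₁ N₂, fun N hN => ?_⟩
  have key : ∀ (G : ℍ → ℂ) (k : ℕ), k ≤ N →
      (fun τ => (C.unif : ℂ) ^ k * G ((1 : SL(2, ℤ)) • τ)) ∈ expSubring (2 * M) C.B →
      (fun τ => (C.unif : ℂ) ^ N * G τ) ∈ expSubring (2 * M) C.B := by
    intro G k hk hG
    have e : (fun τ => (C.unif : ℂ) ^ N * G τ) =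
        (fun _ => (C.unif : ℂ) ^ (N - k)) *
          fun τ => (C.unif : ℂ) ^ k * G ((1 : SL(2, ℤ)) • τ) := by
      funext τ
      rw [Pi.mul_apply, one_smul, ← mul_assoc, ← pow_add, Nat.sub_add_cancel hk]
    rw [e]
    exact mul_mem (const_mem_expSubring (pow_mem C.unif.2 _)) hG
  have hexp : HasExp (2 * M) (fun τ => (C.unif : ℂ) ^ N * F τ)
      (HahnSeries.single 0 ((C.unif : ℂ) ^ N) * expansion (2 * M) F) :=
    (HasExp.const _).mul (hasExp_expansion_infty hF)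
  rw [← hexp.expansion_eq]
  refine C.expansion_mem_algElts hp2 hpM (mul_mem (const_mem_weak (Subring.mem_top _)) hF)
    (key F N₁ (le_of_max_le_left hN) (hN₁ 1 (one_mem _))) ?_
  exact key (swapFun p (2 * M) F) N₂ (le_of_max_le_right hN) (hN₂ 1 (one_mem _))

theorem exists_scaled_mem_algElts_family {m : ℕ} {F : Fin m → ℍ → ℂ}
    (hF : ∀ j, F j ∈ weak (levelP p (2 * M)) (p * (2 * M)) ⊤)
    (hFK : ∀ j, IsRat (2 * M) C.field (F j)) :
    ∃ N₀ : ℕ, ∀ j N, N₀ ≤ N → HahnSeries.single 0 ((C.unif : ℂ) ^ N) * expansion (2 * M) (F j) ∈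
      algElts (C.expK M) (expansion (2 * M) (lamP p)) := by
  choose N hN using fun j => C.exists_scaled_mem_algElts hp2 hpM (hF j) (hFK j)
  exact ⟨Finset.univ.sup N, fun j n hn =>
    hN j n ((Finset.le_sup (f := N) (Finset.mem_univ j)).trans hn)⟩

end Coeff

namespace Setting

attribute [local instance] isDomain_LRing

variable {C : Coeff p} {M : ℕ} [NeZero M] (S : Setting C M) (hp2 : p ≠ 2) (hpM : ¬ p ∣ M)
include hp2 hpM

theorem isRat_pow : IsRat (2 * M) C.field (S.g ^ p) := by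
  have hF := S.pow_mem_levelP hp2 hpM
  have h1 : S.g ^ p ∈ expSubring 1 (⊤ : Subring ℂ) :=
    mem_expSubring_one ⟨_, fun _ => Subring.mem_top _, hasExp_expansion_infty hF⟩
      (S.pow_invariant _ (T_mem_Gamma0 _))
  have h2 : S.g ^ p ∈ expSubring (2 * M) C.field.toSubring :=
    mem_expSubring_of_one ⟨_, S.rational, (expansion_mem_of_mem_expSubring h1).2⟩
  exact (expansion_mem_of_mem_expSubring h2).1

/-- The certificate for the scaled series, inside the extension. -/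
theorem exists_certificate_algElts :
    ∃ N m N₀ : ℕ, p * (S.j₁ - S.j₂).natAbs ≤ N ∧ p ∣ N ∧
      ∃ (e : algElts (C.expK M) (expansion (2 * M) (lamP p)))
        (A D Cc : Fin m → algElts (C.expK M) (expansion (2 * M) (lamP p))),
        (e : LaurentSeries ℂ) =
          coeffMap C.B.subtype (HahnSeries.C C.unif ^ N * qExpand C.B (2 * M) S.s₁) ∧
        (∀ j, A j ^ p = D j * e) ∧
        ∑ j, Cc j * D j = ⟨C.expK M (C.piA M ^ N₀), map_mem_algElts _ _ _⟩ := by
  have hpL := Coeff.not_dvd_two_mul hp2 hpM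
  have hf := S.pow_mem_levelP hp2 hpM
  obtain ⟨m, a, d, c, ha, hd, hc, hae, hsum⟩ := exists_certificate_level (p := p) (L := 2 * M)
    (dvd_mul_right 2 M) C.field hp.out.ne_zero S.kummer.holo S.kummer.ne_zero hf
    (S.isRat_pow hp2 hpM)
  obtain ⟨Na, hNa⟩ := C.exists_scaled_mem_algElts_family hp2 hpM (fun j => (ha j).1)
    fun j => (ha j).2
  obtain ⟨Nd, hNd⟩ := C.exists_scaled_mem_algElts_family hp2 hpM (fun j => (hd j).1)
    fun j => (hd j).2
  obtain ⟨Nc, hNc⟩ := C.exists_scaled_mem_algElts_family hp2 hpM (fun j => (hc j).1)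
    fun j => (hc j).2
  -- exponents
  set n := (S.j₁ - S.j₂).natAbs with hn
  set u := Na + Nd + ((n : ℤ) + S.j₁).natAbs with hu
  set w := ((u : ℤ) + n + S.j₁).toNat with hw_def
  have hw : (w : ℤ) = u + n + S.j₁ ∧ Na ≤ w ∧ Nd ≤ p * u := by
    have h1 : Nd ≤ p * u := le_trans (by omega : Nd ≤ u) (Nat.le_mul_of_pos_left u hp.out.pos)
    omega
  have hT1 : coeffMap C.B.subtype (qExpand C.B (2 * M) S.s₁) =
      HahnSeries.single 0 ((C.unif : ℂ) ^ ((p : ℤ) * S.j₁)) * expansion (2 * M) (S.g ^ p) := by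
    rw [← S.c₁_eq]
    refine series_eq_of_fun_eq (S.hasExp_f₁ hp2 hpM)
      ((HasExp.const _).mul (hasExp_expansion_infty hf)) ?_
    rw [S.f₁_eq]
    rfl
  refine ⟨p * n, m, p * u + Nc, le_rfl, dvd_mul_right p n,
    ⟨_, S.mem_algElts₁ hp2 hpM _ (S.scale_mem le_rfl).1⟩,
    fun j => ⟨_, hNa j w hw.2.1⟩, fun j => ⟨_, hNd j (p * u) hw.2.2⟩,
    fun j => ⟨_, hNc j Nc le_rfl⟩, rfl, fun j => Subtype.ext ?_, Subtype.ext ?_⟩
  · have hfun : HasExp (2 * M) (fun τ => (a j ^ p) τ) (expansion (2 * M) (a j) ^ p) :=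
      HasExp.pow (hasExp_expansion_infty (ha j).1) p
    have hid : expansion (2 * M) (a j) ^ p =
        expansion (2 * M) (d j) * expansion (2 * M) (S.g ^ p) :=
      series_eq_of_fun_eq hfun
        ((hasExp_expansion_infty (hd j).1).mul (hasExp_expansion_infty hf)) (hae j)
    show (HahnSeries.single 0 ((C.unif : ℂ) ^ w) * expansion (2 * M) (a j)) ^ p =
      HahnSeries.single 0 ((C.unif : ℂ) ^ (p * u)) * expansion (2 * M) (d j) *
        coeffMap C.B.subtype (HahnSeries.C C.unif ^ (p * n) * qExpand C.B (2 * M) S.s₁)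
    rw [Setting.coeffMap_C_pow_mul, hT1, mul_pow, hid]
    have hs : HahnSeries.single (0 : ℤ) ((C.unif : ℂ) ^ w) ^ p =
        HahnSeries.single 0 ((C.unif : ℂ) ^ (p * u)) * (HahnSeries.single 0 ((C.unif : ℂ) ^ (p * n)) *
          HahnSeries.single 0 ((C.unif : ℂ) ^ ((p : ℤ) * S.j₁))) := by
      rw [← HahnSeries.C_apply, ← map_pow, HahnSeries.C_apply, HahnSeries.single_mul_single,
        HahnSeries.single_mul_single, add_zero, add_zero, ← zpow_natCast, ← zpow_natCast,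
        ← zpow_natCast (C.unif : ℂ) (p * u), ← zpow_natCast (C.unif : ℂ) (p * n), ← zpow_mul,
        ← zpow_add₀ C.unif_ne_zero, ← zpow_add₀ C.unif_ne_zero]
      congr 2
      rw [hw.1]
      push_cast
      ring
    rw [hs]
    ring
  · rw [AddSubmonoidClass.coe_finsetSum]
    have hsum' : ∑ j, expansion (2 * M) (c j) * expansion (2 * M) (d j) = 1 := by
      refine series_eq_of_fun_eq (HasExp.finset_sum Finset.univ fun j _ =>
        (hasExp_expansion_infty (hc j).1).mul (hasExp_expansion_infty (hd j).1)) HasExp.one hsum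
    show ∑ j, HahnSeries.single 0 ((C.unif : ℂ) ^ Nc) * expansion (2 * M) (c j) *
      (HahnSeries.single 0 ((C.unif : ℂ) ^ (p * u)) * expansion (2 * M) (d j)) =
        C.expK M (C.piA M ^ (p * u + Nc))
    rw [C.expK_piA_pow]
    rw [show (∑ j, HahnSeries.single 0 ((C.unif : ℂ) ^ Nc) * expansion (2 * M) (c j) *
        (HahnSeries.single 0 ((C.unif : ℂ) ^ (p * u)) * expansion (2 * M) (d j))) =
      HahnSeries.single 0 ((C.unif : ℂ) ^ (p * u)) * HahnSeries.single 0 ((C.unif : ℂ) ^ Nc) *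
        ∑ j, expansion (2 * M) (c j) * expansion (2 * M) (d j) by
      rw [Finset.mul_sum]; exact Finset.sum_congr rfl fun j _ => by ring,
      hsum', mul_one, HahnSeries.single_mul_single, add_zero, ← pow_add]

end Setting

namespace Coeff

attribute [local instance] isDomain_LRing

variable (C : Coeff p) {M : ℕ} [NeZero M]

omit hp in
theorem mem_sqSubring_of_snd {x : C.B} (h : TrivSqZeroExt.snd (C.red₂ x) = 0) :
    x ∈ sqSubring C.unif (C.O.comap C.B.subtype) := by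
  obtain ⟨o, ho, c, rfl⟩ := (C.snd_eq_zero_iff x).1 h
  exact mem_sqSubring.2 ⟨o, ho, c, by ring⟩

omit hp in
/-- A series of `O + ϖ² B` divisible by `ϖ` is divisible by `ϖ ²`. -/
theorem sq_dvd_of_mem_sqSeries {s : LaurentSeries C.B}
    (hs : s ∈ sqSeries C.unif (C.O.comap C.B.subtype)) (hd : ∀ i, C.unif ∣ s.coeff i) :
    HahnSeries.C C.unif ^ 2 ∣ s := by
  have h2 : ∀ i, C.unif ^ 2 ∣ s.coeff i := fun i => by
    obtain ⟨o, ho, hdo⟩ := mem_sqSubring.1 (mem_sqSeries.1 hs i)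
    have h1 : C.unif ∣ o := by
      have := dvd_sub (hd i) ((dvd_pow_self C.unif two_ne_zero).trans hdo)
      rwa [sub_sub_cancel] at this
    have := dvd_add hdo (C.seriesHyp.inter o ho h1)
    rwa [sub_add_cancel] at this
  obtain ⟨t, ht⟩ := exists_eq_smul_of_coeff s h2
  exact ⟨t, by rw [← map_pow, HahnSeries.C_apply]; exact ht⟩

omit hp in
theorem expA_inclO_mem (a : LRing (2 * M) C.O) :
    C.expA M (C.inclO M a) ∈ sqSeries C.unif (C.O.comap C.B.subtype) := by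
  refine mem_sqSeries.2 fun i => mem_sqSubring.2 ⟨_, ?_, by rw [sub_self]; exact dvd_zero _⟩
  rw [Subring.mem_comap, ← ModularCurve.coeffMap_coeff]
  have h : coeffMap C.B.subtype (C.expA M (C.inclO M a)) = expansion (2 * M) a.1 :=
    C.expK_apply M (C.inclO M a)
  rw [h]
  simpa using expansion_mem a.2 1 i

variable (hp2 : p ≠ 2) (hpM : ¬ p ∣ M)
include hp2 hpM

/-- A function over `B` is one over `O` modulo `ϖ`. -/
theorem exists_inclO_add (a : LRing (2 * M) C.B) :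
    ∃ (a₀ : LRing (2 * M) C.O) (r : LRing (2 * M) C.B), a = C.inclO M a₀ + C.piA M * r := by
  have hgen : ∀ b ∈ C.B, ∃ o₀ ∈ C.O, ∃ o₁ ∈ C.O, ∃ b₂ ∈ C.B,
      b = o₀ + (C.unif : ℂ) * o₁ + (C.unif : ℂ) ^ 2 * b₂ := by
    intro b hb
    obtain ⟨o, ho, c, hc⟩ := C.seriesHyp.residue ⟨b, hb⟩
    obtain ⟨o', ho', c', hc'⟩ := C.seriesHyp.residue c
    refine ⟨_, ho, _, ho', c', c'.2, ?_⟩
    have h1 := congrArg C.B.subtype hc
    have h2 := congrArg C.B.subtype hc'
    simp only [map_sub, map_mul, Subring.subtype_apply] at h1 h2 ⊢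
    linear_combination h1 + (C.unif : ℂ) * h2
  obtain ⟨a₀, h₀, a₁, h₁, a₂, h₂, he⟩ := exists_decomp_sq (baseLevelHyp M)
    (C.zetaRing_le (not_dvd_two_mul hp2 hpM)) C.le C.unif.2 hgen a.2
  refine ⟨⟨a₀, h₀⟩, C.inclO M ⟨a₁, h₁⟩ + C.piA M * ⟨a₂, h₂⟩, Subtype.ext (funext fun τ => ?_)⟩
  have := he τ
  show a.1 τ = a₀ τ + (C.unif : ℂ) * (a₁ τ + (C.unif : ℂ) * a₂ τ)
  rw [this]
  ring

/-- A function not divisible by `ϖ` has a primitive expansion. -/
theorem isPrim_expA {a : LRing (2 * M) C.B} (ha : ¬ C.piA M ∣ a) : IsPrim C.unif (C.expA M a) := by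
  by_contra hc
  simp only [IsPrim, not_exists, not_not] at hc
  obtain ⟨t, ht⟩ := exists_eq_smul_of_coeff (C.expA M a) hc
  exact ha (C.piA_dvd_of_expA hp2 hpM ⟨t, by rw [expA_piA, HahnSeries.C_apply]; exact ht⟩)

/-- A primitive series in `O + ϖ² B` which, scaled, lies in the extension is modulo `ϖ²`
a quotient of two functions over `O`. -/
theorem exists_rep_of_mem {V : Polynomial (LRing (2 * M) C.B)} {y₀ : LRing (2 * M) C.B}
    {z : LaurentSeries C.B} (hzμ : coeffMap C.B.subtype z = expansion (2 * M) (lamP p))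
    (hV1 : ¬ C.piA M ∣ V.derivative.eval y₀) (hz : V.eval₂ (C.expA M) z = 0)
    (hz0 : C.expA M (C.piA M) ∣ z - C.expA M y₀) {t : LaurentSeries C.B}
    (ht : t ∈ sqSeries C.unif (C.O.comap C.B.subtype)) (ht' : IsPrim C.unif t) {N : ℕ}
    (hmem : coeffMap C.B.subtype (HahnSeries.C C.unif ^ N * t) ∈
      algElts (C.expK M) (expansion (2 * M) (lamP p))) :
    ∃ a₀ d₀ : LRing (2 * M) C.O, ¬ C.piA M ∣ C.inclO M a₀ ∧ ¬ C.piA M ∣ C.inclO M d₀ ∧
      C.expA M (C.piA M) ^ 2 ∣ C.expA M (C.inclO M d₀) * t - C.expA M (C.inclO M a₀) := by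
  have hπ := C.prime_piA (M := M) hp2 hpM
  have hsat : ∀ a : LRing (2 * M) C.B, C.expA M (C.piA M) ∣ C.expA M a → C.piA M ∣ a :=
    fun a => C.piA_dvd_of_expA hp2 hpM
  obtain ⟨-, P, D, hD, hP⟩ := hmem
  obtain ⟨v, D₀, rfl, hD₀⟩ := C.exists_eq_piA_pow_mul hp2 hpM hD
  have he : C.expA M (C.piA M ^ v * D₀) * (HahnSeries.C C.unif ^ N * t) =
      P.eval₂ (C.expA M) z := by
    refine coeffMap_subtype_injective' C ?_
    rw [map_mul, ← RingHom.comp_apply, ← expK, hP, Polynomial.hom_eval₂, ← expK, hzμ]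
  obtain ⟨a, d, hd, hdvd⟩ := isFrac_of_algebraic hπ hsat (C.expA_piA_ne_zero M) hV1 hz hz0 hD₀ he
    (N + 1)
  -- divide by `ϖ ^ N`
  obtain ⟨a', rfl⟩ : C.piA M ^ N ∣ a := by
    refine pow_dvd_of_map_dvd hsat (C.expA_piA_ne_zero M) N a ?_
    have h1 : C.expA M (C.piA M) ^ N ∣ C.expA M d * (HahnSeries.C C.unif ^ N * t) :=
      dvd_mul_of_dvd_right (by rw [C.expA_piA]; exact dvd_mul_right _ _) _
    have := dvd_sub h1 ((pow_dvd_pow _ N.le_succ).trans hdvd)
    rwa [sub_sub_cancel] at this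
  obtain ⟨a₀, r, rfl⟩ := C.exists_inclO_add hp2 hpM a'
  obtain ⟨d₀, r', rfl⟩ := C.exists_inclO_add hp2 hpM d
  set Δ := C.expA M (C.inclO M d₀) * t - C.expA M (C.inclO M a₀) with hΔ
  have h1 : HahnSeries.C C.unif ∣ Δ := by
    obtain ⟨w, hw⟩ := hdvd
    simp only [map_add, map_mul, map_pow, C.expA_piA, pow_succ] at hw
    refine ⟨w - C.expA M r' * t + C.expA M r, mul_left_cancel₀ (pow_ne_zero N ?_) (?_ :
      HahnSeries.C C.unif ^ N * Δ = _)⟩
    · rw [← C.expA_piA (M := M)]; exact C.expA_piA_ne_zero M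
    · rw [hΔ]; linear_combination hw
  have hd₀ : ¬ C.piA M ∣ C.inclO M d₀ := fun h => hd (dvd_add h (dvd_mul_right _ _))
  refine ⟨a₀, d₀, fun ha => ?_, hd₀, ?_⟩
  · have h2 : HahnSeries.C C.unif ∣ C.expA M (C.inclO M d₀) * t := by
      have h3 : HahnSeries.C C.unif ∣ C.expA M (C.inclO M a₀) := by
        rw [← C.expA_piA (M := M)]; exact map_dvd _ ha
      have := dvd_add h1 h3
      rwa [hΔ, sub_add_cancel] at this
    obtain ⟨i, hi⟩ := C.seriesHyp.toContentHyp.isPrim_mul (C.isPrim_expA hp2 hpM hd₀) ht'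
    obtain ⟨w, hw⟩ := h2
    rw [hw, HahnSeries.C_apply, HahnSeries.coeff_single_mul, sub_zero] at hi
    exact hi (dvd_mul_right _ _)
  · rw [C.expA_piA]
    refine C.sq_dvd_of_mem_sqSeries (sub_mem (mul_mem (C.expA_inclO_mem d₀) ht) (C.expA_inclO_mem a₀))
      fun i => ?_
    obtain ⟨w, hw⟩ := h1
    rw [← hΔ, hw, HahnSeries.C_apply, HahnSeries.coeff_single_mul, sub_zero]
    exact dvd_mul_right _ _

end Coeff

namespace Setting

attribute [local instance] isDomain_LRing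

variable {C : Coeff p} {M : ℕ} [NeZero M] (S : Setting C M) (hp2 : p ≠ 2) (hpM : ¬ p ∣ M)

omit hp in
theorem qExpand_mem_sqSeries {s : LaurentSeries C.B}
    (hs : ∀ i, TrivSqZeroExt.snd (C.red₂ (s.coeff i)) = 0) :
    qExpand C.B (2 * M) s ∈ sqSeries C.unif (C.O.comap C.B.subtype) := by
  refine mem_sqSeries.2 fun i => ?_
  by_cases hi : ((2 * M : ℕ) : ℤ) ∣ i
  · obtain ⟨j, rfl⟩ := hi
    rw [ModularCurve.qExpand_coeff_mul]
    exact C.mem_sqSubring_of_snd (hs j)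
  · rw [ModularCurve.qExpand_coeff_of_not_dvd _ _ hi]
    exact zero_mem _

omit hp in
theorem isPrim_qExpand {s : LaurentSeries C.B} (hs : IsPrim C.unif s) :
    IsPrim C.unif (qExpand C.B (2 * M) s) := by
  obtain ⟨i, hi⟩ := hs
  exact ⟨((2 * M : ℕ) : ℤ) * i, by rwa [ModularCurve.qExpand_coeff_mul]⟩

include hp2 hpM

/-- Representatives over `O` of `t₁`. -/
theorem exists_rep₁ {V : Polynomial (LRing (2 * M) C.B)} {y₀ : LRing (2 * M) C.B}
    {z : LaurentSeries C.B} (hzμ : coeffMap C.B.subtype z = expansion (2 * M) (lamP p))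
    (hV1 : ¬ C.piA M ∣ V.derivative.eval y₀) (hz : V.eval₂ (C.expA M) z = 0)
    (hz0 : C.expA M (C.piA M) ∣ z - C.expA M y₀) :
    ∃ a₀ d₀ : LRing (2 * M) C.O, ¬ C.piA M ∣ C.inclO M a₀ ∧ ¬ C.piA M ∣ C.inclO M d₀ ∧
      C.expA M (C.piA M) ^ 2 ∣ C.expA M (C.inclO M d₀) * qExpand C.B (2 * M) S.s₁ -
        C.expA M (C.inclO M a₀) :=
  C.exists_rep_of_mem hp2 hpM hzμ hV1 hz hz0 (qExpand_mem_sqSeries S.sq₁) (isPrim_qExpand S.prim₁)
    (S.mem_algElts₁ hp2 hpM _ (S.scale_mem le_rfl).1)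

/-- Representatives over `O` of `t₂`. -/
theorem exists_rep₂ {V : Polynomial (LRing (2 * M) C.B)} {y₀ : LRing (2 * M) C.B}
    {z : LaurentSeries C.B} (hzμ : coeffMap C.B.subtype z = expansion (2 * M) (lamP p))
    (hV1 : ¬ C.piA M ∣ V.derivative.eval y₀) (hz : V.eval₂ (C.expA M) z = 0)
    (hz0 : C.expA M (C.piA M) ∣ z - C.expA M y₀) :
    ∃ a₀ d₀ : LRing (2 * M) C.O, ¬ C.piA M ∣ C.inclO M a₀ ∧ ¬ C.piA M ∣ C.inclO M d₀ ∧
      C.expA M (C.piA M) ^ 2 ∣ C.expA M (C.inclO M d₀) * qExpand C.B (2 * M) S.s₂ -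
        C.expA M (C.inclO M a₀) :=
  C.exists_rep_of_mem hp2 hpM hzμ hV1 hz hz0 (qExpand_mem_sqSeries S.sq₂) (isPrim_qExpand S.prim₂)
    (S.mem_algElts₂ hp2 hpM _ (S.scale_mem le_rfl).2)

end Setting

end Fermat.Agent.AtP
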