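import Fermat.Agent.Conn.TwoGenerated
import Fermat.Agent.Patching.PowerSeriesTopology
import Fermat.Prelude.Thm_IsLocalRing_isAdicComplete_of_module_finite
import Mathlib.RingTheory.PowerSeries.Ideal
import Mathlib.RingTheory.AdjoinRoot
import Mathlib.RingTheory.AdicCompletion.Topology
import Mathlib.RingTheory.DiscreteValuationRing.Basic
import Mathlib.RingTheory.MvPowerSeries.Rename
import Mathlib.Algebra.Polynomial.SpecificDegree
import Mathlib.Tactic

/-!
# The node ring `B⟦S⟧[Z] / (Z ^ 2 - S Z + ϖ)`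

For a complete discrete valuation ring `B` with uniformiser `ϖ` this is `B⟦x, y⟧ / (x y - ϖ)`
(`x = Z`, `y = S - Z`): a complete factorial local domain with maximal ideal `(x, y)`.
-/

set_option autoImplicit false

noncomputable section

open IsLocalRing Polynomial
open scoped PowerSeries

namespace Fermat.Agent.AtP

variable {B : Type} [CommRing B]

/-- Power series in one variable over a complete local ring form a complete ring. -/
theorem isAdicComplete_powerSeries [IsLocalRing B] [IsNoetherianRing B]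
    [IsAdicComplete (maximalIdeal B) B] :
    IsAdicComplete (maximalIdeal (PowerSeries B)) (PowerSeries B) := by
  let e : MvPowerSeries (Fin 1) B ≃+* PowerSeries B :=
    (MvPowerSeries.renameEquiv (R := B) finOneEquiv).toRingEquiv
  have h : maximalIdeal (PowerSeries B) = (maximalIdeal (MvPowerSeries (Fin 1) B)).map e :=
    (map_ringEquiv_maximalIdeal e).symm
  rw [h, IsAdicComplete.congr_ringEquiv]
  infer_instance

/-- The polynomial `Z ^ 2 - S Z + ϖ`. -/
def nodePoly (ϖ : B) : (B⟦X⟧)[X] :=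
  X ^ 2 - Polynomial.C PowerSeries.X * X + Polynomial.C (PowerSeries.C ϖ)

theorem monic_nodePoly [Nontrivial B] (ϖ : B) : (nodePoly ϖ).Monic := by
  rw [nodePoly, sub_add]
  refine monic_X_pow_sub ?_
  refine (degree_sub_le _ _).trans_lt (max_lt ?_ ?_)
  · exact (degree_C_mul_X_le _).trans_lt (by norm_num)
  · exact degree_C_le.trans_lt (by norm_num)

theorem natDegree_nodePoly [Nontrivial B] (ϖ : B) : (nodePoly ϖ).natDegree = 2 := by
  rw [nodePoly]
  compute_degree!

/-- The node ring. -/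
abbrev Node (ϖ : B) : Type := AdjoinRoot (nodePoly ϖ)

variable (ϖ : B)

/-- The first coordinate. -/
def nx : Node ϖ := AdjoinRoot.root _

/-- The second coordinate. -/
def ny : Node ϖ := AdjoinRoot.of _ PowerSeries.X - nx ϖ

/-- The constants. -/
def nc : B →+* Node ϖ := (AdjoinRoot.of _).comp PowerSeries.C

/-- `x y = ϖ`. -/
theorem nx_mul_ny : nx ϖ * ny ϖ = nc ϖ ϖ := by
  have h : AdjoinRoot.mk (nodePoly ϖ)
      (X ^ 2 - Polynomial.C PowerSeries.X * X + Polynomial.C (PowerSeries.C ϖ)) = 0 :=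
    AdjoinRoot.mk_self (f := nodePoly ϖ)
  simp only [map_add, map_sub, map_mul, map_pow, AdjoinRoot.mk_X, AdjoinRoot.mk_C] at h
  rw [ny, nx, nc, RingHom.comp_apply]
  linear_combination -h

theorem nx_add_ny : nx ϖ + ny ϖ = AdjoinRoot.of _ PowerSeries.X := by rw [ny]; ring

/-- Every element is `a + b x` with series in the sum of the coordinates. -/
theorem exists_eq_of_add_mul_nx [Nontrivial B] (r : Node ϖ) :
    ∃ a b : B⟦X⟧, r = AdjoinRoot.of _ a + AdjoinRoot.of _ b * nx ϖ := by
  have hg := monic_nodePoly ϖ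
  set P := AdjoinRoot.modByMonicHom hg r with hP
  have hdeg : P.natDegree ≤ 1 := by
    obtain ⟨f, rfl⟩ := AdjoinRoot.mk_surjective r
    rw [hP, AdjoinRoot.modByMonicHom_mk]
    have := natDegree_modByMonic_lt f hg (fun h => by
      have := natDegree_nodePoly ϖ
      rw [h, natDegree_one] at this
      omega)
    rw [natDegree_nodePoly] at this
    omega
  refine ⟨P.coeff 0, P.coeff 1, ?_⟩
  conv_lhs => rw [← AdjoinRoot.mk_leftInverse hg r]
  rw [← hP, eq_X_add_C_of_natDegree_le_one hdeg, map_add, map_mul, AdjoinRoot.mk_C, AdjoinRoot.mk_C,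
    AdjoinRoot.mk_X, nx, add_comm]
  simp

/-- The involution exchanging the coordinates. -/
def swap : Node ϖ →+* Node ϖ :=
  AdjoinRoot.lift (AdjoinRoot.of _) (ny ϖ) (by
    show eval₂ (AdjoinRoot.of (nodePoly ϖ)) (ny ϖ)
      (X ^ 2 - Polynomial.C PowerSeries.X * X + Polynomial.C (PowerSeries.C ϖ)) = 0
    simp only [eval₂_add, eval₂_sub, eval₂_pow, eval₂_X, eval₂_mul, eval₂_C]
    have h := nx_mul_ny ϖ
    rw [nc, RingHom.comp_apply] at h
    rw [← nx_add_ny ϖ, ← h]
    ring)

@[simp] theorem swap_of (a : B⟦X⟧) : swap ϖ (AdjoinRoot.of _ a) = AdjoinRoot.of _ a := by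
  simp [swap]

/-- The involution fixes constants. -/
@[simp] theorem swap_nc (b : B) : swap ϖ (nc ϖ b) = nc ϖ b := swap_of ϖ _

/-- The involution sends `x` to `y`. -/
@[simp] theorem swap_nx : swap ϖ (nx ϖ) = ny ϖ := by simp [swap, nx]

/-- The involution sends `y` to `x`. -/
@[simp] theorem swap_ny : swap ϖ (ny ϖ) = nx ϖ := by
  rw [ny, map_sub, swap_of, swap_nx, ny]; ring

/-- The involution has order two. -/
theorem swap_swap [Nontrivial B] (r : Node ϖ) : swap ϖ (swap ϖ r) = r := by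
  obtain ⟨a, b, rfl⟩ := exists_eq_of_add_mul_nx ϖ r
  simp

section DVR

variable [IsLocalRing B] (hϖm : ϖ ∈ maximalIdeal B)

/-- Restriction to the branch `y = 0`, modulo `ϖ`. -/
def q₁ : Node ϖ →+* PowerSeries (ResidueField B) :=
  AdjoinRoot.lift (PowerSeries.map (residue B)) PowerSeries.X (by
    simp [nodePoly, (residue_eq_zero_iff ϖ).2 hϖm, sq])

/-- Restriction to the branch `x = 0`, modulo `ϖ`. -/
def q₂ : Node ϖ →+* PowerSeries (ResidueField B) := (q₁ ϖ hϖm).comp (swap ϖ)

@[simp] theorem q₁_of (a : B⟦X⟧) :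
    q₁ ϖ hϖm (AdjoinRoot.of _ a) = PowerSeries.map (residue B) a := by simp [q₁]

/-- The branch `y = 0` on constants. -/
@[simp] theorem q₁_nc (b : B) : q₁ ϖ hϖm (nc ϖ b) = PowerSeries.C (residue B b) := by
  rw [nc, RingHom.comp_apply, q₁_of, PowerSeries.map_C]

/-- The branch `y = 0` sends `x` to `X`. -/
@[simp] theorem q₁_nx : q₁ ϖ hϖm (nx ϖ) = PowerSeries.X := by simp [q₁, nx]

/-- The branch `y = 0` kills `y`. -/
@[simp] theorem q₁_ny : q₁ ϖ hϖm (ny ϖ) = 0 := by
  rw [ny, map_sub, q₁_of, q₁_nx, PowerSeries.map_X, sub_self]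

/-- Reduction of power series is surjective. -/
theorem map_residue_surjective : Function.Surjective (PowerSeries.map (residue B)) := fun f =>
  ⟨PowerSeries.mk fun n => (residue_surjective (PowerSeries.coeff n f)).choose, by
    ext n
    simp [(residue_surjective (PowerSeries.coeff n f)).choose_spec]⟩

/-- The restriction to `y = 0` is surjective. -/
theorem q₁_surjective : Function.Surjective (q₁ ϖ hϖm) := fun f => by
  obtain ⟨a, rfl⟩ := map_residue_surjective f
  exact ⟨AdjoinRoot.of _ a, q₁_of ϖ hϖm a⟩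

/-- The restriction to `x = 0` is surjective. -/
theorem q₂_surjective : Function.Surjective (q₂ ϖ hϖm) := fun f => by
  obtain ⟨r, rfl⟩ := q₁_surjective ϖ hϖm f
  exact ⟨swap ϖ r, by rw [q₂, RingHom.comp_apply, swap_swap]⟩

/-- Both branches take the same value at the node. -/
theorem constantCoeff_q₂ (r : Node ϖ) :
    PowerSeries.constantCoeff (q₂ ϖ hϖm r) = PowerSeries.constantCoeff (q₁ ϖ hϖm r) := by
  obtain ⟨a, b, rfl⟩ := exists_eq_of_add_mul_nx ϖ r
  simp [q₂]

/-- An element not vanishing at the node is a unit. -/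
theorem isUnit_of_constantCoeff_ne_zero {r : Node ϖ}
    (h : PowerSeries.constantCoeff (q₁ ϖ hϖm r) ≠ 0) : IsUnit r := by
  obtain ⟨a, b, rfl⟩ := exists_eq_of_add_mul_nx ϖ r
  have hN : (AdjoinRoot.of (nodePoly ϖ) a + AdjoinRoot.of _ b * nx ϖ) *
      (AdjoinRoot.of _ a + AdjoinRoot.of _ b * ny ϖ) =
      AdjoinRoot.of _ (a ^ 2 + a * b * PowerSeries.X + b ^ 2 * PowerSeries.C ϖ) := by
    have h := nx_mul_ny ϖ
    rw [nc, RingHom.comp_apply] at h
    simp only [map_add, map_mul, map_pow, ← nx_add_ny, ← h]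
    ring
  refine isUnit_of_mul_isUnit_left (hN ▸ IsUnit.map _ ?_)
  rw [PowerSeries.isUnit_iff_constantCoeff, ← residue_ne_zero_iff_isUnit]
  have hcm : ∀ f : B⟦X⟧, PowerSeries.constantCoeff (PowerSeries.map (residue B) f) =
      residue B (PowerSeries.constantCoeff f) := fun f => by
    simp only [← PowerSeries.coeff_zero_eq_constantCoeff_apply, PowerSeries.coeff_map]
  simp only [map_add, map_mul, q₁_of, q₁_nx, hcm, PowerSeries.constantCoeff_X, mul_zero,
    add_zero] at h
  simpa [(residue_eq_zero_iff ϖ).2 hϖm] using h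

include hϖm in
/-- The node ring is local. -/
theorem isLocalRing_node : IsLocalRing (Node ϖ) := by
  have : Nontrivial (Node ϖ) := (q₁ ϖ hϖm).domain_nontrivial
  refine IsLocalRing.of_nonunits_add fun a b ha hb => ?_
  have h : ∀ r : Node ϖ, r ∈ nonunits _ → PowerSeries.constantCoeff (q₁ ϖ hϖm r) = 0 :=
    fun r hr => not_not.mp fun h => hr (isUnit_of_constantCoeff_ne_zero ϖ hϖm h)
  intro hu
  have := (hu.map (q₁ ϖ hϖm)).map PowerSeries.constantCoeff
  rw [map_add, map_add, h a ha, h b hb, add_zero] at this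
  exact not_isUnit_zero this

end DVR

section Facts

variable [IsDomain B] [IsDiscreteValuationRing B] {ϖ : B}

/-- An irreducible element lies in the maximal ideal. -/
theorem mem_max_of_irreducible (hϖ : Irreducible ϖ) : ϖ ∈ maximalIdeal B :=
  (mem_maximalIdeal ϖ).2 hϖ.not_isUnit

/-- A series reducing to zero is divisible by `ϖ`. -/
theorem dvd_of_map_residue_eq_zero (hϖ : Irreducible ϖ) {a : B⟦X⟧}
    (h : PowerSeries.map (residue B) a = 0) : PowerSeries.C ϖ ∣ a := by
  have hc : ∀ n, ∃ c, PowerSeries.coeff n a = ϖ * c := fun n => by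
    have h' := congrArg (PowerSeries.coeff n) h
    rw [PowerSeries.coeff_map, map_zero, residue_eq_zero_iff, hϖ.maximalIdeal_eq,
      Ideal.mem_span_singleton] at h'
    exact h'
  choose c hc using hc
  exact ⟨PowerSeries.mk c, by ext n; simp [hc]⟩

/-- The branch `y = 0` is cut out by `y`. -/
theorem ker_q₁ (hϖ : Irreducible ϖ) :
    RingHom.ker (q₁ ϖ (mem_max_of_irreducible hϖ)) = Ideal.span {ny ϖ} := by
  refine le_antisymm (fun r hr => ?_) (Ideal.span_le.2 (by simp))
  obtain ⟨a, b, rfl⟩ := exists_eq_of_add_mul_nx ϖ r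
  rw [RingHom.mem_ker] at hr
  have hc : PowerSeries.map (residue B) (a + b * PowerSeries.X) = 0 := by simpa using hr
  obtain ⟨c, hc⟩ := dvd_of_map_residue_eq_zero hϖ hc
  refine Ideal.mem_span_singleton.2 ⟨nx ϖ * AdjoinRoot.of _ c - AdjoinRoot.of _ b, ?_⟩
  have h := congrArg (AdjoinRoot.of (nodePoly ϖ)) hc
  have h2 := nx_mul_ny ϖ
  rw [nc, RingHom.comp_apply] at h2
  simp only [map_add, map_mul, ← nx_add_ny, ← h2] at h
  linear_combination h

/-- The branch `x = 0` is cut out by `x`. -/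
theorem ker_q₂ (hϖ : Irreducible ϖ) :
    RingHom.ker (q₂ ϖ (mem_max_of_irreducible hϖ)) = Ideal.span {nx ϖ} := by
  refine le_antisymm (fun r hr => ?_) (Ideal.span_le.2 (by simp [q₂]))
  have h : swap ϖ r ∈ RingHom.ker (q₁ ϖ (mem_max_of_irreducible hϖ)) := by simpa [q₂] using hr
  rw [ker_q₁ hϖ, Ideal.mem_span_singleton] at h
  have := map_dvd (swap ϖ) h
  rw [swap_swap, swap_ny] at this
  exact Ideal.mem_span_singleton.2 this

variable (hϖ : Irreducible ϖ)
include hϖ

/-- The node ring is a domain. -/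
theorem isDomain_node : IsDomain (Node ϖ) := by
  refine AdjoinRoot.isDomain_of_prime (Irreducible.prime ?_)
  rw [(monic_nodePoly ϖ).irreducible_iff_roots_eq_zero_of_degree_le_three
    (natDegree_nodePoly ϖ).ge (by rw [natDegree_nodePoly]; norm_num),
    Multiset.eq_zero_iff_forall_notMem]
  intro r hr
  rw [mem_roots (monic_nodePoly ϖ).ne_zero, IsRoot.def, nodePoly] at hr
  simp only [eval_add, eval_sub, eval_pow, eval_X, eval_mul, eval_C] at hr
  have h0 := congrArg PowerSeries.constantCoeff hr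
  simp only [map_add, map_sub, map_pow, map_mul, PowerSeries.constantCoeff_X,
    PowerSeries.constantCoeff_C, zero_mul, sub_zero, map_zero] at h0
  set c := PowerSeries.constantCoeff r
  have hc : ϖ = c * (-c) := by linear_combination h0
  rcases hϖ.isUnit_or_isUnit hc with hu | hu
  · exact hϖ.not_isUnit (hc ▸ hu.mul hu.neg)
  · exact hϖ.not_isUnit (hc ▸ (neg_neg c ▸ hu.neg).mul hu)

omit [IsDiscreteValuationRing B] hϖ in
/-- The node ring is finite over the series in the sum of the coordinates. -/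
theorem finite_node : Module.Finite (B⟦X⟧) (Node ϖ) :=
  Module.Finite.of_basis (AdjoinRoot.powerBasis' (monic_nodePoly ϖ)).basis

omit hϖ in
theorem isNoetherianRing_node : IsNoetherianRing (Node ϖ) := by
  have := finite_node (ϖ := ϖ)
  exact IsNoetherianRing.of_finite (B⟦X⟧) _

/-- The maximal ideal of the node ring is `(x, y)`. -/
theorem maximalIdeal_node [IsLocalRing (Node ϖ)] :
    maximalIdeal (Node ϖ) = Ideal.span {nx ϖ, ny ϖ} := by
  refine le_antisymm (fun r hr => ?_) ?_
  · have h0 : PowerSeries.constantCoeff (q₁ ϖ (mem_max_of_irreducible hϖ) r) = 0 :=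
      not_not.mp fun h => (mem_maximalIdeal r).1 hr (isUnit_of_constantCoeff_ne_zero ϖ _ h)
    obtain ⟨g, hg⟩ := PowerSeries.X_dvd_iff.2 h0
    obtain ⟨g', rfl⟩ := q₁_surjective ϖ (mem_max_of_irreducible hϖ) g
    have hk : r - nx ϖ * g' ∈ RingHom.ker (q₁ ϖ (mem_max_of_irreducible hϖ)) := by
      simp [hg]
    rw [ker_q₁ hϖ, Ideal.mem_span_singleton'] at hk
    obtain ⟨d, hd⟩ := hk
    exact Ideal.mem_span_pair.2 ⟨g', d, by linear_combination hd⟩
  · rw [Ideal.span_le, Set.insert_subset_iff, Set.singleton_subset_iff]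
    constructor <;> refine (mem_maximalIdeal _).2 fun hu => ?_ <;>
      have := (hu.map (q₁ ϖ (mem_max_of_irreducible hϖ))).map PowerSeries.constantCoeff <;>
      simp at this

/-- The node ring is complete. -/
theorem isAdicComplete_node [IsAdicComplete (maximalIdeal B) B] [IsLocalRing (Node ϖ)] :
    IsAdicComplete (maximalIdeal (Node ϖ)) (Node ϖ) := by
  have := isAdicComplete_powerSeries (B := B)
  have := finite_node (ϖ := ϖ)
  have : IsLocalHom (algebraMap (B⟦X⟧) (Node ϖ)) := ⟨fun a ha => by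
    rw [AdjoinRoot.algebraMap_eq] at ha
    have h := (ha.map (q₁ ϖ (mem_max_of_irreducible hϖ))).map PowerSeries.constantCoeff
    rw [q₁_of, ← PowerSeries.coeff_zero_eq_constantCoeff_apply, PowerSeries.coeff_map,
      PowerSeries.coeff_zero_eq_constantCoeff_apply] at h
    exact PowerSeries.isUnit_iff_constantCoeff.2
      ((isUnit_map_iff (residue B) _).1 h)⟩
  exact IsLocalRing.isAdicComplete_of_module_finite (𝒪 := B⟦X⟧)

/-- `x` is nonzero. -/
theorem nx_ne_zero : nx ϖ ≠ 0 := fun h => by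
  simpa [h] using (q₁_nx ϖ (mem_max_of_irreducible hϖ)).symm

/-- `y` is nonzero. -/
theorem ny_ne_zero : ny ϖ ≠ 0 := fun h => nx_ne_zero hϖ (by rw [← swap_ny, h, map_zero])

/-- `x` is prime. -/
theorem prime_nx : Prime (nx ϖ) := by
  rw [← Ideal.span_singleton_prime (nx_ne_zero hϖ), ← ker_q₂ hϖ]
  exact RingHom.ker_isPrime _

/-- `y` is prime. -/
theorem prime_ny : Prime (ny ϖ) := by
  rw [← Ideal.span_singleton_prime (ny_ne_zero hϖ), ← ker_q₁ hϖ]
  exact RingHom.ker_isPrime _

/-- `y` does not divide `x`. -/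
theorem not_ny_dvd_nx : ¬ ny ϖ ∣ nx ϖ := fun h => by
  simpa using map_dvd (q₁ ϖ (mem_max_of_irreducible hϖ)) h

/-- `x` does not divide `y`. -/
theorem not_nx_dvd_ny : ¬ nx ϖ ∣ ny ϖ := fun h => not_ny_dvd_nx hϖ (by simpa using map_dvd (swap ϖ) h)

/-- The node ring is factorial. -/
theorem uniqueFactorizationMonoid_node [IsLocalRing (Node ϖ)] [IsDomain (Node ϖ)] :
    UniqueFactorizationMonoid (Node ϖ) := by
  have := isNoetherianRing_node (ϖ := ϖ)
  refine Conn.uniqueFactorizationMonoid_of_two_generated (maximalIdeal_node hϖ)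
    ⟨Ideal.span {nx ϖ}, (Ideal.span_singleton_prime (nx_ne_zero hϖ)).2 (prime_nx hϖ),
      fun h => nx_ne_zero hϖ (Ideal.span_singleton_eq_bot.1 h), fun h => not_nx_dvd_ny hϖ ?_⟩
  rw [← Ideal.mem_span_singleton, h, maximalIdeal_node hϖ]
  exact Ideal.subset_span (by simp)

/-- `(x) ∩ (y) = (ϖ)`. -/
theorem nc_dvd_of_nx_dvd_of_ny_dvd {r : Node ϖ} (h1 : nx ϖ ∣ r) (h2 : ny ϖ ∣ r) : nc ϖ ϖ ∣ r := by
  obtain ⟨t, rfl⟩ := h1
  rcases (prime_ny hϖ).dvd_or_dvd h2 with h | h
  · exact absurd h (not_ny_dvd_nx hϖ)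
  · rw [← nx_mul_ny]; exact mul_dvd_mul_left _ h

end Facts

end Fermat.Agent.AtP
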