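import Mathlib.RingTheory.AdicCompletion.Basic
import Mathlib.RingTheory.Jacobson.Ideal
import Mathlib.LinearAlgebra.SModEq.Basic
import Mathlib.Tactic.LinearCombination
import Mathlib.Tactic.Ring

/-!
# Lifting homomorphisms out of an algebra with separability coordinates

If `A` has trace coordinates over `R` (as a Galois extension has), a homomorphism `A →+* S ⧸ I`
extending `R →+* S` lifts uniquely to `A →+* S` when `S` is `I`-adically complete.
-/

set_option autoImplicit false

noncomputable section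

open Ideal

namespace Fermat.Agent.AtP

/-- Trace coordinates of `A` over `R`. -/
structure SepData {R A : Type*} [CommRing R] [CommRing A] (φ : R →+* A) (ι : Type*) [Fintype ι] where
  x : ι → A
  y : ι → A
  tr : A →+ R
  tr_mul : ∀ r a, tr (φ r * a) = r * tr a
  eq_x : ∀ a, ∑ i, x i * φ (tr (y i * a)) = a
  eq_y : ∀ a, ∑ i, y i * φ (tr (x i * a)) = a
  self : ∑ i, x i * y i = 1

namespace SepData

variable {R A : Type*} [CommRing R] [CommRing A] {φ : R →+* A} {ι : Type*} [Fintype ι]
  (D : SepData φ ι)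

/-- A balanced biadditive form takes the same value on `(a xᵢ, yᵢ)` and on `(xᵢ, a yᵢ)`. -/
theorem swap {N : Type*} [AddCommGroup N] (β : A → A → N)
    (h₁ : ∀ u u' v, β (u + u') v = β u v + β u' v) (h₂ : ∀ u v v', β u (v + v') = β u v + β u v')
    (hb : ∀ r u v, β (φ r * u) v = β u (φ r * v)) (a : A) :
    ∑ i, β (a * D.x i) (D.y i) = ∑ i, β (D.x i) (a * D.y i) := by
  classical
  have s₁ : ∀ (f : ι → A) v, β (∑ j, f j) v = ∑ j, β (f j) v := fun f v =>
    map_sum (AddMonoidHom.mk' (fun u => β u v) fun u u' => h₁ u u' v) f _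
  have s₂ : ∀ (f : ι → A) u, β u (∑ j, f j) = ∑ j, β u (f j) := fun f u =>
    map_sum (AddMonoidHom.mk' (fun v => β u v) fun v v' => h₂ u v v') f _
  calc ∑ i, β (a * D.x i) (D.y i)
      = ∑ i, β (∑ j, φ (D.tr (D.y j * (a * D.x i))) * D.x j) (D.y i) := by
        refine Finset.sum_congr rfl fun i _ => ?_
        conv_lhs => rw [← D.eq_x (a * D.x i)]
        simp_rw [mul_comm (D.x _) (φ _)]
    _ = ∑ j, ∑ i, β (D.x j) (φ (D.tr (D.y j * (a * D.x i))) * D.y i) := by
        simp_rw [s₁, hb]
        exact Finset.sum_comm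
    _ = ∑ j, β (D.x j) (a * D.y j) := by
        refine Finset.sum_congr rfl fun j _ => ?_
        rw [← s₂]
        congr 1
        conv_rhs => rw [← D.eq_y (a * D.y j)]
        refine Finset.sum_congr rfl fun i _ => ?_
        rw [mul_comm (D.y i), show D.y j * (a * D.x i) = D.x i * (a * D.y j) by ring]

include D in
/-- Two homomorphisms agreeing on `R` and congruent modulo an ideal in the Jacobson radical are
equal. -/
theorem ext_of_congr {S : Type*} [CommRing S] {f f' : A →+* S} (hR : f.comp φ = f'.comp φ)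
    {I : Ideal S} (hI : I ≤ Ideal.jacobson ⊥) (hc : ∀ a, f a - f' a ∈ I) : f = f' := by
  have hR' : ∀ r, f (φ r) = f' (φ r) := fun r => RingHom.congr_fun hR r
  refine RingHom.ext fun a => sub_eq_zero.1 ?_
  have h := D.swap (fun u v => (f u - f' u) * f v)
    (fun u u' v => by simp only [map_add]; ring) (fun u v v' => by simp only [map_add]; ring)
    (fun r u v => by simp only [map_mul, hR']; ring) a
  have hu : IsUnit (∑ i, f' (D.x i) * f (D.y i)) := by
    have hmem : (∑ i, f' (D.x i) * f (D.y i)) - 1 ∈ I := by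
      rw [← map_one f', ← D.self, map_sum, ← Finset.sum_sub_distrib]
      refine sum_mem fun i _ => ?_
      rw [map_mul, ← mul_sub]
      exact Ideal.mul_mem_left _ _ (hc _)
    have := Ideal.mem_jacobson_bot.1 (hI hmem) 1
    rwa [mul_one, sub_add_cancel] at this
  refine (hu.mul_left_eq_zero).1 ?_
  rw [Finset.mul_sum]
  have e : ∑ i, (f a - f' a) * (f' (D.x i) * f (D.y i)) =
      ∑ i, ((f (a * D.x i) - f' (a * D.x i)) * f (D.y i) -
        (f (D.x i) - f' (D.x i)) * f (a * D.y i)) := by
    refine Finset.sum_congr rfl fun i _ => ?_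
    simp only [map_mul]
    ring
  rw [e, Finset.sum_sub_distrib, h, sub_self]

section Lift

variable {S : Type*} [CommRing S] (g : R →+* S) (I : Ideal S) (s : A →+* S ⧸ I)

/-- The `g`-linear map with prescribed values at the `xᵢ`. -/
def lin (u : ι → S) : A →+ S where
  toFun a := ∑ i, u i * g (D.tr (D.y i * a))
  map_zero' := by simp
  map_add' a b := by simp [mul_add, map_add, Finset.sum_add_distrib]

theorem lin_apply (u : ι → S) (a : A) : D.lin g u a = ∑ i, u i * g (D.tr (D.y i * a)) := rfl

theorem lin_mul (u : ι → S) (r : R) (a : A) : D.lin g u (φ r * a) = g r * D.lin g u a := by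
  rw [lin_apply, lin_apply, Finset.mul_sum]
  refine Finset.sum_congr rfl fun i _ => ?_
  rw [mul_left_comm (D.y i), D.tr_mul, map_mul]
  ring

theorem lin_of_linear (F : A →+ S) (hF : ∀ r a, F (φ r * a) = g r * F a) :
    D.lin g (fun i => F (D.x i)) = F := by
  ext a
  conv_rhs => rw [← D.eq_x a, map_sum]
  rw [lin_apply]
  refine Finset.sum_congr rfl fun i _ => ?_
  rw [mul_comm (D.x i), hF, mul_comm]

/-- The invariant of the successive approximation. -/
structure Approx (m : ℕ) (u : ι → S) : Prop where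
  mul : ∀ a b, D.lin g u (a * b) - D.lin g u a * D.lin g u b ∈ I ^ m
  one : D.lin g u 1 - 1 ∈ I ^ m
  red : ∀ a, Ideal.Quotient.mk I (D.lin g u a) = s a
  fix : ∀ i, D.lin g u (D.x i) = u i

variable {g I s}

include D in
theorem exists_approx_one (h : s.comp φ = (Ideal.Quotient.mk I).comp g) :
    ∃ u, D.Approx g I s 1 u := by
  choose u₀ hu₀ using fun i => Ideal.Quotient.mk_surjective (s (D.x i))
  have hred : ∀ a, Ideal.Quotient.mk I (D.lin g u₀ a) = s a := fun a => by
    conv_rhs => rw [← D.eq_x a, map_sum]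
    rw [lin_apply, map_sum]
    refine Finset.sum_congr rfl fun i _ => ?_
    rw [map_mul (Ideal.Quotient.mk I), map_mul s, hu₀, ← RingHom.comp_apply, ← h]
    rfl
  refine ⟨fun i => D.lin g u₀ (D.x i), ?_⟩
  have e := D.lin_of_linear g (D.lin g u₀) (D.lin_mul g u₀)
  refine ⟨fun a b => ?_, ?_, fun a => by rw [e, hred], fun i => by rw [e]⟩
  · rw [e, pow_one, ← Ideal.Quotient.eq, map_mul (Ideal.Quotient.mk I), hred, hred, hred, map_mul]
  · rw [e, pow_one, ← Ideal.Quotient.eq, hred, map_one, map_one]

include D in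
theorem exists_approx_succ {m : ℕ} (hm : 1 ≤ m) {u : ι → S} (hu : D.Approx g I s m u) :
    ∃ u', D.Approx g I s (m + 1) u' ∧ ∀ i, u' i - u i ∈ I ^ m := by
  set F := D.lin g u with hFdef
  have hFl := D.lin_mul g u
  rw [← hFdef] at hFl
  let c : A → A → S := fun a b => F (a * b) - F a * F b
  have hc : ∀ a b, c a b ∈ I ^ m := hu.mul
  let h : A →+ S :=
    { toFun := fun a => ∑ i, c a (D.x i) * F (D.y i)
      map_zero' := by simp [c]
      map_add' := fun a b => by
        rw [← Finset.sum_add_distrib]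
        refine Finset.sum_congr rfl fun i _ => ?_
        simp only [c, add_mul, map_add]
        ring }
  have hh : ∀ a, h a ∈ I ^ m := fun a => sum_mem fun i _ => Ideal.mul_mem_right _ _ (hc _ _)
  have hhl : ∀ r a, h (φ r * a) = g r * h a := fun r a => by
    show ∑ i, c (φ r * a) (D.x i) * F (D.y i) = g r * ∑ i, c a (D.x i) * F (D.y i)
    rw [Finset.mul_sum]
    refine Finset.sum_congr rfl fun i _ => ?_
    simp only [c, mul_assoc, hFl]
    ring
  have e := D.lin_of_linear g (F + h) fun r a => by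
    simp only [AddMonoidHom.add_apply, hFl, hhl]; ring
  have key : ∀ a b, c a b - (F a * h b + F b * h a - h (a * b)) ∈ I ^ (m + m) := by
    intro a b
    have hsw := D.swap (fun u v => c a u * F v)
      (fun u u' v => by simp only [c, mul_add, map_add]; ring)
      (fun u v v' => by simp only [map_add]; ring)
      (fun r u v => by
        simp only [c, hFl, show a * (φ r * u) = φ r * (a * u) by ring]
        ring) b
    beta_reduce at hsw
    have hx : ∀ i, F a * c b (D.x i) - c (a * b) (D.x i) + c a (b * D.x i) - c a b * F (D.x i) = 0 :=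
      fun i => by simp only [c, mul_assoc]; ring
    have h0 : F a * h b - h (a * b) + ∑ i, c a (D.x i) * F (b * D.y i) -
        c a b * ∑ i, F (D.x i) * F (D.y i) = 0 := by
      rw [← hsw]
      show F a * ∑ i, c b (D.x i) * F (D.y i) - ∑ i, c (a * b) (D.x i) * F (D.y i) + _ - _ = 0
      simp only [Finset.mul_sum, ← Finset.sum_sub_distrib, ← Finset.sum_add_distrib]
      refine Finset.sum_eq_zero fun i _ => ?_
      linear_combination (F (D.y i)) * hx i
    have h1 : ∑ i, c a (D.x i) * F (b * D.y i) - F b * h a ∈ I ^ (m + m) := by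
      show _ - F b * ∑ i, c a (D.x i) * F (D.y i) ∈ _
      rw [Finset.mul_sum, ← Finset.sum_sub_distrib, pow_add]
      refine sum_mem fun i _ => ?_
      rw [show c a (D.x i) * F (b * D.y i) - F b * (c a (D.x i) * F (D.y i)) =
        c a (D.x i) * (F (b * D.y i) - F b * F (D.y i)) by ring]
      exact Ideal.mul_mem_mul (hc _ _) (hu.mul _ _)
    have h2 : (∑ i, F (D.x i) * F (D.y i)) - 1 ∈ I ^ m := by
      have : (∑ i, F (D.x i) * F (D.y i)) - F 1 ∈ I ^ m := by
        rw [← D.self, map_sum, ← Finset.sum_sub_distrib]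
        exact sum_mem fun i _ => by rw [← neg_sub]; exact neg_mem (hc _ _)
      have := add_mem this hu.one
      rwa [sub_add_sub_cancel] at this
    have h3 : c a b * ((∑ i, F (D.x i) * F (D.y i)) - 1) ∈ I ^ (m + m) := by
      rw [pow_add]; exact Ideal.mul_mem_mul (hc a b) h2
    have := sub_mem h1 h3
    rw [show c a b - (F a * h b + F b * h a - h (a * b)) =
      ∑ i, c a (D.x i) * F (b * D.y i) - F b * h a -
        c a b * ((∑ i, F (D.x i) * F (D.y i)) - 1) by linear_combination -h0]
    exact this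
  have hle : I ^ (m + m) ≤ I ^ (m + 1) := Ideal.pow_le_pow_right (by omega)
  have hI : I ^ m ≤ I := Ideal.pow_le_self (by omega)
  have hred : ∀ a, Ideal.Quotient.mk I ((F + h) a) = s a := fun a => by
    rw [AddMonoidHom.add_apply, map_add, Ideal.Quotient.eq_zero_iff_mem.2 (hI (hh a)), add_zero,
      hu.red]
  have hmul : ∀ a b, (F + h) (a * b) - (F + h) a * (F + h) b ∈ I ^ (m + 1) := fun a b => by
    refine hle ?_
    rw [show (F + h) (a * b) - (F + h) a * (F + h) b =
      (c a b - (F a * h b + F b * h a - h (a * b))) - h a * h b by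
        simp only [AddMonoidHom.add_apply, c]; ring]
    exact sub_mem (key a b) (by rw [pow_add]; exact Ideal.mul_mem_mul (hh a) (hh b))
  refine ⟨fun i => (F + h) (D.x i), ⟨fun a b => by rw [e]; exact hmul a b, ?_,
    fun a => by rw [e, hred], fun i => by rw [e]⟩, fun i => ?_⟩
  · rw [e]
    -- `(F + h) 1` is idempotent modulo `I ^ (m + 1)` and congruent to `1`
    set w := (F + h) 1
    have h1 : w - 1 ∈ I ^ m := by
      rw [show w - 1 = (F 1 - 1) + h 1 by simp only [w, AddMonoidHom.add_apply]; ring]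
      exact add_mem hu.one (hh 1)
    have h2 : w - w * w ∈ I ^ (m + 1) := by
      have := hmul 1 1
      rw [mul_one] at this
      exact this
    have h3 : (w - 1) * (w - 1) ∈ I ^ (m + 1) := hle (by rw [pow_add]; exact Ideal.mul_mem_mul h1 h1)
    have := sub_mem (neg_mem h2) h3
    rwa [show -(w - w * w) - (w - 1) * (w - 1) = w - 1 by ring] at this
  · rw [show (F + h) (D.x i) - u i = h (D.x i) by
      rw [AddMonoidHom.add_apply, hu.fix, add_sub_cancel_left]]
    exact hh _

include D in
/-- **Existence of the lift.** -/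
theorem exists_lift [IsAdicComplete I S] (g : R →+* S) (s : A →+* S ⧸ I)
    (h : s.comp φ = (Ideal.Quotient.mk I).comp g) :
    ∃ ψ : A →+* S, ψ.comp φ = g ∧ (Ideal.Quotient.mk I).comp ψ = s := by
  obtain ⟨u₀, hu₀⟩ := D.exists_approx_one h
  choose next hnext hdiff using fun (n : ℕ) (u : {u : ι → S // D.Approx g I s (n + 1) u}) =>
    D.exists_approx_succ (Nat.le_add_left 1 n) u.2
  let U : (n : ℕ) → {u : ι → S // D.Approx g I s (n + 1) u} := fun n =>
    Nat.rec ⟨u₀, hu₀⟩ (fun n u => ⟨next n u, hnext n u⟩) n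
  have hstep : ∀ n i, (U (n + 1)).1 i - (U n).1 i ∈ I ^ (n + 1) := fun n i => hdiff n (U n) i
  have hcauchy : ∀ m n, m ≤ n → ∀ i, (U n).1 i - (U m).1 i ∈ I ^ (m + 1) := by
    intro m n hmn
    induction n, hmn using Nat.le_induction with
    | base => simp
    | succ n hmn ih =>
      intro i
      have := add_mem (Ideal.pow_le_pow_right (by omega : m + 1 ≤ n + 1) (hstep n i)) (ih i)
      rwa [sub_add_sub_cancel] at this
  have hsmod : ∀ (k : ℕ) (x y : S), x ≡ y [SMOD (I ^ k • ⊤ : Submodule S S)] ↔ x - y ∈ I ^ k := by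
    intro k x y
    rw [SModEq.sub_mem, smul_eq_mul, Ideal.mul_top]
  choose v hv using fun i => IsPrecomplete.prec (I := I) (M := S) inferInstance
    (f := fun n => (U n).1 i) fun {m n} hmn => (hsmod _ _ _).2 (by
      rw [← neg_sub]
      exact neg_mem (Ideal.pow_le_pow_right (Nat.le_succ m) (hcauchy m n hmn i)))
  have hlim : ∀ (n : ℕ) a, D.lin g v a - D.lin g (U n).1 a ∈ I ^ n := fun n a => by
    rw [lin_apply, lin_apply, ← Finset.sum_sub_distrib]
    refine sum_mem fun i _ => ?_
    rw [← sub_mul, ← neg_sub]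
    exact Ideal.mul_mem_right _ _ (neg_mem ((hsmod _ _ _).1 (hv i n)))
  have hzero : ∀ x : S, (∀ n, x ∈ I ^ n) → x = 0 := fun x hx =>
    IsHausdorff.haus (I := I) inferInstance x fun n => (hsmod _ _ _).2 (by simpa using hx n)
  have hmul : ∀ a b, D.lin g v (a * b) = D.lin g v a * D.lin g v b := fun a b =>
    sub_eq_zero.1 (hzero _ fun n => by
      have h1 := Ideal.pow_le_pow_right (Nat.le_succ n) ((U n).2.mul a b)
      have := add_mem (add_mem (hlim n (a * b)) h1) (neg_mem (add_mem
        (Ideal.mul_mem_left _ (D.lin g v a) (hlim n b))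
        (Ideal.mul_mem_right (D.lin g (U n).1 b) _ (hlim n a))))
      convert this using 1
      ring)
  have hone : D.lin g v 1 = 1 := sub_eq_zero.1 (hzero _ fun n => by
    have := add_mem (hlim n 1) (Ideal.pow_le_pow_right (Nat.le_succ n) (U n).2.one)
    rwa [sub_add_sub_cancel] at this)
  let ψ : A →+* S := RingHom.mk' ⟨⟨D.lin g v, hone⟩, hmul⟩ (D.lin g v).map_add
  have hψ : ∀ a, ψ a = D.lin g v a := fun a => rfl
  refine ⟨ψ, RingHom.ext fun r => ?_, RingHom.ext fun a => ?_⟩
  · rw [RingHom.comp_apply, hψ, ← mul_one (φ r), lin_mul, hone, mul_one]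
  · have := Ideal.Quotient.eq.2 (pow_one I ▸ hlim 1 a)
    rw [RingHom.comp_apply, hψ, this, (U 1).2.red]

end Lift

end SepData

end Fermat.Agent.AtP
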