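import Fermat.Agent.KummerES.SpecialFibreMain
import Fermat.Agent.AtP.SepLift
import Fermat.Agent.AtP.NodeRing
import Mathlib.RingTheory.LocalRing.ResidueField.Basic
import Mathlib.RingTheory.PowerSeries.Inverse
import Mathlib.RingTheory.Jacobson.Ring

/-!
# Points of the special fibre and their discs

A point is a homomorphism `s : LRing L B →+* k` extending the residue map. For every `z ∈ B⟦T⟧` above
the value of the coordinate it has exactly one lift `ψ` to `B⟦T⟧` with `t ↦ z`.
-/

set_option autoImplicit false

noncomputable section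

open Polynomial CongruenceSubgroup
open scoped MatrixGroups
open Fermat.Agent.KummerES
open IsLocalRing (residue ResidueField maximalIdeal)

namespace Fermat.Agent.AtP.Points

variable {M L : ℕ} [NeZero L] {B : Subring ℂ} (H : LevelHyp M L B)

/-- The constants of the level `L` ring. -/
def cstL : B →+* LRing L B := (inclLevel H.dvd).comp constM

/-- The coordinate in the level `L` ring. -/
def tL : LRing L B := inclLevel H.dvd (tM H)

/-- `cstL` gives the constant functions. -/
lemma cstL_apply (c : B) : cstL H c = constL (L := L) c.1 c.2 := rfl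

/-- Separability coordinates of the level `L` ring over level `M`. -/
theorem exists_sepData :
    ∃ (ι : Type) (_ : Fintype ι), Nonempty (SepData (inclLevel (L := L) (B := B) H.dvd) ι) := by
  classical
  obtain ⟨ι, hι, C, -⟩ := H.exists_coords
  let _ := Fintype.ofFinite (levelGroup L B M)
  let C' : GaloisCoords H.G ι (LRing L B) :=
    { x := C.y
      y := C.x
      self := by simp_rw [mul_comm (C.y _)]; exact C.self
      orth := fun g hg => by
        have h := congrArg (fun a => g • a) (C.orth g⁻¹ (inv_ne_one.2 hg))
        simp only [Finset.smul_sum, smul_mul', smul_smul, mul_inv_cancel, one_smul, smul_zero] at h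
        rw [← h]
        exact Finset.sum_congr rfl fun i _ => mul_comm _ _ }
  let tr : LRing L B →+ MRing M L B :=
    { toFun := fun a => ⟨(LevelHyp.trace (M := M) a).1, LevelHyp.trace_mem a⟩
      map_zero' := Subtype.ext (by simp [LevelHyp.trace])
      map_add' := fun a b => Subtype.ext (by
        simp only [LevelHyp.trace, smul_add, Finset.sum_add_distrib]; rfl) }
  have htr : ∀ a, inclLevel H.dvd (tr a) = ∑ g : levelGroup L B M, g • a := fun a => Subtype.ext rfl
  refine ⟨ι, hι, ⟨⟨C.x, C.y, tr, fun r a => ?_, fun a => ?_, fun a => ?_, C.self⟩⟩⟩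
  · have h : inclLevel H.dvd (tr (inclLevel H.dvd r * a)) = inclLevel H.dvd (r * tr a) := by
      rw [map_mul (inclLevel H.dvd) r (tr a), htr, htr, Finset.mul_sum]
      exact Finset.sum_congr rfl fun g _ => by rw [smul_mul', smul_inclLevel]
    exact Subtype.ext (congrArg (fun b : LRing L B => b.1) h :)
  · simp only [htr]; exact (C.eq_sum a).symm
  · simp only [htr]; exact (C'.eq_sum a).symm

/-- Homomorphisms out of level `M` agreeing on constants and the coordinate are equal. -/
theorem ringHom_ext_M {S : Type*} [CommRing S] {f f' : MRing M L B →+* S}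
    (hc : ∀ c, f (constM c) = f' (constM c)) (ht : f (tM H) = f' (tM H)) : f = f' := by
  have hP : ∀ P, f (evalT H P) = f' (evalT H P) := fun P => RingHom.congr_fun
    (Polynomial.ringHom_ext (f := f.comp (evalT H)) (g := f'.comp (evalT H))
      (fun c => by simpa [evalT] using hc c) (by simpa [evalT] using ht)) P
  refine RingHom.ext fun a => ?_
  obtain ⟨P, w, rfl⟩ := exists_mul_unit_eq H a
  obtain ⟨Q, m, hQ⟩ := exists_evalT H (w : MRing M L B)
  have hw : f (w : MRing M L B) = f' w := by
    have hb : IsUnit (f (evalT H (badPoly H) ^ m)) :=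
      ((isUnit_evalT_badPoly H).pow m).map f
    refine hb.mul_left_inj.1 ?_
    rw [← map_mul, hQ, hP, ← hQ, map_mul, map_pow f, map_pow f', hP]
  rw [map_mul, map_mul, hP, hw]

/-- Homomorphisms out of level `L` agreeing on constants and the coordinate, congruent modulo an
ideal in the Jacobson radical, are equal. -/
theorem ringHom_ext_of_congr {S : Type*} [CommRing S] {f f' : LRing L B →+* S}
    (hc : ∀ c, f (cstL H c) = f' (cstL H c)) (ht : f (tL H) = f' (tL H)) {I : Ideal S}
    (hI : I ≤ Ideal.jacobson ⊥) (h : ∀ a, f a - f' a ∈ I) : f = f' := by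
  obtain ⟨ι, _, ⟨D⟩⟩ := exists_sepData H
  exact D.ext_of_congr (ringHom_ext_M H hc ht) hI h

/-- A homomorphism to dual numbers (or any square-zero thickening) is determined by its reduction
and the images of the constants and of the coordinate. -/
theorem ringHom_ext_of_nilpotent {S : Type*} [CommRing S] {f f' : LRing L B →+* S}
    (hc : ∀ c, f (cstL H c) = f' (cstL H c)) (ht : f (tL H) = f' (tL H))
    (h : ∀ a, IsNilpotent (f a - f' a)) : f = f' :=
  ringHom_ext_of_congr H hc ht (I := nilradical S)
    (by rw [nilradical]; exact Ideal.radical_le_jacobson)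
    fun a => mem_nilradical.2 (h a)

/-- Polynomials in the coordinate are nonzero. -/
theorem evalT_injective : Function.Injective (evalT H) := by
  rw [injective_iff_map_eq_zero]
  intro P hP
  refine Polynomial.map_injective B.subtype Subtype.val_injective ?_
  rw [Polynomial.map_zero]
  refine Polynomial.eq_zero_of_infinite_isRoot _ ?_
  refine (H.T.bad.finite_toSet.infinite_compl).mono fun c hc => ?_
  obtain ⟨τ, rfl⟩ := H.T.surj c hc
  show IsRoot _ _
  rw [IsRoot, eval_map, ← evalT_apply, hP]
  rfl

/-- Extend a map of polynomials in the coordinate to level `M`. -/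
theorem exists_hom_M {S : Type*} [CommRing S] (c : B →+* S) (z : S)
    (hu : IsUnit ((badPoly H).eval₂ c z)) :
    ∃ g : MRing M L B →+* S, (∀ b, g (constM b) = c b) ∧ g (tM H) = z := by
  let Φ : Localization.Away (badPoly H) →+* MRing M L B :=
    IsLocalization.Away.lift (badPoly H) (g := evalT H) (isUnit_evalT_badPoly H)
  have hinj : Function.Injective Φ := by
    simp only [Φ, IsLocalization.Away.lift]
    rw [IsLocalization.lift_injective_iff]
    intro x y
    have hloc : Function.Injective (algebraMap B[X] (Localization.Away (badPoly H))) :=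
      IsLocalization.injective _ (M := Submonoid.powers (badPoly H))
        (powers_le_nonZeroDivisors_of_noZeroDivisors (badPoly_monic H).ne_zero)
    exact ⟨fun h => congrArg _ (hloc h), fun h => congrArg _ (evalT_injective H h)⟩
  have hsurj : Function.Surjective Φ := fun a => by
    obtain ⟨P, m, hP⟩ := exists_evalT H a
    refine ⟨algebraMap _ _ P * (IsLocalization.Away.invSelf (badPoly H)) ^ m, ?_⟩
    have h1 : Φ (algebraMap _ _ P) = evalT H P := IsLocalization.Away.lift_eq _ _ _
    have h2 : evalT H (badPoly H) * Φ (IsLocalization.Away.invSelf (badPoly H)) = 1 := by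
      rw [← IsLocalization.Away.lift_eq (S := Localization.Away (badPoly H)) (badPoly H)
        (isUnit_evalT_badPoly H) (badPoly H), ← map_mul, IsLocalization.Away.mul_invSelf, map_one]
    rw [map_mul, map_pow, h1, ← hP, mul_assoc, ← mul_pow, h2, one_pow, mul_one]
  let e := RingEquiv.ofBijective Φ ⟨hinj, hsurj⟩
  let g₀ : Localization.Away (badPoly H) →+* S :=
    IsLocalization.Away.lift (badPoly H) (g := eval₂RingHom c z) hu
  have hg : ∀ P, g₀ (e.symm (evalT H P)) = P.eval₂ c z := fun P => by
    rw [show evalT H P = e (algebraMap _ _ P) from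
        (IsLocalization.Away.lift_eq (badPoly H) (isUnit_evalT_badPoly H) P).symm,
      e.symm_apply_apply]
    exact IsLocalization.Away.lift_eq _ _ _
  refine ⟨g₀.comp e.symm.toRingHom, fun b => ?_, ?_⟩
  · have := hg (Polynomial.C b)
    rw [eval₂_C, evalT, coe_eval₂RingHom, eval₂_C] at this
    exact this
  · have := hg Polynomial.X
    rw [eval₂_X, evalT, coe_eval₂RingHom, eval₂_X] at this
    exact this

section Disc

variable [IsLocalRing B]

/-- A point of the special fibre. -/
def IsPoint (s : LRing L B →+* ResidueField B) : Prop := ∀ c, s (cstL H c) = residue B c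

/-- The map `B⟦T⟧ → k⟦T⟧`. -/
def redPS : PowerSeries B →+* PowerSeries (ResidueField B) := PowerSeries.map (residue B)

/-- Reduction commutes with the constant coefficient. -/
lemma constantCoeff_redPS (f : PowerSeries B) :
    PowerSeries.constantCoeff (redPS f) = residue B (PowerSeries.constantCoeff f) := by
  rw [redPS, ← PowerSeries.coeff_zero_eq_constantCoeff_apply, PowerSeries.coeff_map,
    PowerSeries.coeff_zero_eq_constantCoeff_apply]

/-- `ψ` is a disc at the point `s`, with `t` a parameter. -/
structure IsDisc (s : LRing L B →+* ResidueField B) (ψ : LRing L B →+* PowerSeries B) : Prop where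
  const : ∀ c, ψ (cstL H c) = PowerSeries.C c
  point : ∀ a, residue B (PowerSeries.constantCoeff (ψ a)) = s a
  param : residue B (PowerSeries.coeff 1 (ψ (tL H))) ≠ 0

/-- A homomorphism with a disc is a point. -/
lemma IsDisc.isPoint {s : LRing L B →+* ResidueField B} {ψ : LRing L B →+* PowerSeries B}
    (h : IsDisc H s ψ) : IsPoint H s := fun c => by
  rw [← h.point, h.const, PowerSeries.constantCoeff_C]

/-- **Every point lifts**, with any prescribed image of the coordinate. -/
theorem exists_lift [IsNoetherianRing B] [IsAdicComplete (maximalIdeal B) B]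
    (s : LRing L B →+* ResidueField B) (hs : IsPoint H s) (z : PowerSeries B)
    (hz : residue B (PowerSeries.constantCoeff z) = s (tL H)) :
    ∃ ψ : LRing L B →+* PowerSeries B, (∀ c, ψ (cstL H c) = PowerSeries.C c) ∧ ψ (tL H) = z ∧
      ∀ a, residue B (PowerSeries.constantCoeff (ψ a)) = s a := by
  obtain ⟨ι, _, ⟨D⟩⟩ := exists_sepData H
  let ρ : PowerSeries B →+* ResidueField B := (residue B).comp PowerSeries.constantCoeff
  have hρsurj : Function.Surjective ρ := fun x => by
    obtain ⟨b, rfl⟩ := IsLocalRing.residue_surjective x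
    exact ⟨PowerSeries.C b, by simp [ρ]⟩
  have hρ : RingHom.ker ρ = maximalIdeal (PowerSeries B) := by
    have : (RingHom.ker ρ).IsMaximal := RingHom.ker_isMaximal_of_surjective ρ hρsurj
    exact IsLocalRing.eq_maximalIdeal this
  let e := RingHom.quotientKerEquivOfSurjective hρsurj
  have hu : IsUnit ((badPoly H).eval₂ PowerSeries.C z) := by
    rw [PowerSeries.isUnit_iff_constantCoeff, ← IsLocalRing.residue_ne_zero_iff_isUnit,
      ← RingHom.comp_apply, hom_eval₂]
    have h1 : IsUnit (s (inclLevel H.dvd (evalT H (badPoly H)))) :=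
      ((isUnit_evalT_badPoly H).map _).map s
    rw [show s (inclLevel H.dvd (evalT H (badPoly H))) =
        (badPoly H).eval₂ ((s.comp (inclLevel H.dvd)).comp constM) (s (tL H)) by
      rw [evalT, coe_eval₂RingHom, ← RingHom.comp_apply, hom_eval₂]; rfl] at h1
    convert h1.ne_zero using 3
    · refine RingHom.ext fun c => ?_
      simpa [cstL] using (hs c).symm
    · exact hz
  obtain ⟨g, hg, hgt⟩ := exists_hom_M H PowerSeries.C z hu
  have hcompat : (e.symm.toRingHom.comp s).comp (inclLevel H.dvd) =
      (Ideal.Quotient.mk (RingHom.ker ρ)).comp g := by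
    refine ringHom_ext_M H (fun c => ?_) ?_
    · apply e.injective
      show e (e.symm (s (cstL H c))) = e (Ideal.Quotient.mk _ (g (constM c)))
      rw [e.apply_symm_apply, hg, hs]
      simp [e, ρ]
    · apply e.injective
      show e (e.symm (s (tL H))) = e (Ideal.Quotient.mk _ (g (tM H)))
      rw [e.apply_symm_apply, hgt, ← hz]
      simp [e, ρ]
  have : IsAdicComplete (RingHom.ker ρ) (PowerSeries B) := hρ ▸ isAdicComplete_powerSeries
  obtain ⟨ψ, h1, h2⟩ := D.exists_lift g (e.symm.toRingHom.comp s) hcompat
  refine ⟨ψ, fun c => (RingHom.congr_fun h1 (constM c)).trans (hg c),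
    (RingHom.congr_fun h1 (tM H)).trans hgt, fun a => ?_⟩
  have h3 := congrArg e (RingHom.congr_fun h2 a)
  simpa [e, ρ] using h3

/-- Every maximal ideal above the maximal ideal of `B` is the kernel of a point. -/
theorem exists_point_of_isMaximal [IsAlgClosed (ResidueField B)] (m : Ideal (LRing L B))
    [m.IsMaximal] (hm : ∀ c ∈ maximalIdeal B, cstL H c ∈ m) :
    ∃ s : LRing L B →+* ResidueField B, IsPoint H s ∧ RingHom.ker s = m := by
  classical
  let _ := Ideal.Quotient.field m
  let i : ResidueField B →+* LRing L B ⧸ m :=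
    Ideal.Quotient.lift _ ((Ideal.Quotient.mk m).comp (cstL H))
      fun c hc => Ideal.Quotient.eq_zero_iff_mem.2 (hm c hc)
  let _ : Algebra (ResidueField B) (LRing L B ⧸ m) := i.toAlgebra
  obtain ⟨ι, _, ⟨D⟩⟩ := exists_sepData H
  let q := Ideal.Quotient.mk m
  let T : Set (LRing L B ⧸ m) :=
    {q (tL H), q (inclLevel H.dvd ↑((isUnit_evalT_badPoly H).unit⁻¹))} ∪ Set.range fun j => q (D.x j)
  have hev : ∀ P : B[X], q (inclLevel H.dvd (evalT H P)) ∈ Algebra.adjoin (ResidueField B) T := fun P => by
    induction P using Polynomial.induction_on' with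
    | add P Q hP hQ => simp only [map_add]; exact add_mem hP hQ
    | monomial k c =>
      rw [evalT, coe_eval₂RingHom, eval₂_monomial, map_mul, map_pow, map_mul, map_pow]
      refine mul_mem ?_ (pow_mem ?_ k)
      swap
      · exact Algebra.subset_adjoin (Or.inl (Or.inl rfl))
      exact (show i (residue B c) = q (inclLevel H.dvd (constM c)) from Ideal.Quotient.lift_mk _ _ _) ▸
        Subalgebra.algebraMap_mem _ (residue B c)
  have htop : Algebra.adjoin (ResidueField B) T = ⊤ := by
    refine eq_top_iff.2 fun z _ => ?_
    obtain ⟨a, rfl⟩ := Ideal.Quotient.mk_surjective z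
    rw [← D.eq_x a, map_sum]
    refine sum_mem fun j _ => ?_
    rw [map_mul]
    refine mul_mem (Algebra.subset_adjoin (Or.inr ⟨j, rfl⟩)) ?_
    obtain ⟨P, n, hP⟩ := exists_evalT H (D.tr (D.y j * a))
    have hr : D.tr (D.y j * a) = evalT H P * ↑((isUnit_evalT_badPoly H).unit⁻¹) ^ n := by
      rw [← hP, mul_assoc, ← mul_pow, IsUnit.mul_val_inv, one_pow, mul_one]
    rw [hr, map_mul, map_mul, map_pow, map_pow]
    refine mul_mem (hev P) (pow_mem ?_ n)
    exact Algebra.subset_adjoin (Or.inl (Or.inr rfl))
  have : Algebra.FiniteType (ResidueField B) (LRing L B ⧸ m) :=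
    ⟨Subalgebra.fg_def.2 ⟨T, ((Set.finite_singleton _).insert _).union (Set.finite_range _), htop⟩⟩
  have : Module.Finite (ResidueField B) (LRing L B ⧸ m) := finite_of_finite_type_of_isJacobsonRing _ _
  have hb := IsAlgClosed.algebraMap_bijective_of_isIntegral (k := ResidueField B) (K := LRing L B ⧸ m)
  let e := RingEquiv.ofBijective _ hb
  refine ⟨e.symm.toRingHom.comp q, fun c => ?_, ?_⟩
  · apply e.injective
    show e (e.symm (q (cstL H c))) = i (residue B c)
    rw [e.apply_symm_apply]
    exact (show i (residue B c) = q (cstL H c) from rfl).symm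
  · have he : RingHom.ker e.symm.toRingHom = ⊥ :=
      (RingHom.injective_iff_ker_eq_bot _).1 e.symm.injective
    rw [← RingHom.comap_ker, he, ← RingHom.ker_eq_comap_bot]
    exact Ideal.mk_ker (I := m)

end Disc

end Fermat.Agent.AtP.Points
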