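import Fermat.Agent.AtP.AssemblyBase
import Fermat.Agent.AtP.PointsBase

/-!
# The reduction of the function is, on every disc and at every cusp, a unit times a `p`-th power

`f̄ = ā / d̄` for two functions `a, d` of level `2 M`.
-/

set_option autoImplicit false

noncomputable section

open CongruenceSubgroup
open scoped MatrixGroups
open Fermat.Agent.KummerES
open ModularCurve (coeffMap)
open IsLocalRing (residue ResidueField)

namespace Fermat.Agent.AtP

namespace Coeff

variable {p : ℕ} [hp : Fact p.Prime] (C : Coeff p) {M : ℕ} [NeZero M] (hp2 : p ≠ 2) (hpM : ¬ p ∣ M)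

/-- `ā / d̄` is a unit times a `p`-th power in the disc of every point. -/
def DiscPow (a d : LRing (2 * M) C.B) : Prop :=
  ∀ s : LRing (2 * M) C.B →+* ResidueField C.B, Points.IsPoint (C.levelHyp hp2 hpM) s →
    ∃ ψ, Points.IsDisc (C.levelHyp hp2 hpM) s ψ ∧
      ∃ U G E : PowerSeries (ResidueField C.B), IsUnit U ∧ G ≠ 0 ∧ E ≠ 0 ∧
        Points.redPS (ψ a) * E ^ p = Points.redPS (ψ d) * U * G ^ p

/-- `ā / d̄` is a unit times a `p`-th power at every cusp. -/
def CuspPow (a d : LRing (2 * M) C.B) : Prop :=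
  ∀ δ : SL(2, ℤ), ∃ (U : PowerSeries (ResidueField C.B)) (G E : LaurentSeries (ResidueField C.B)),
    IsUnit U ∧ G ≠ 0 ∧ E ≠ 0 ∧
      coeffMap (residue C.B) (expB (2 * M) C.B δ a) * E ^ p =
        coeffMap (residue C.B) (expB (2 * M) C.B δ d) *
          HahnSeries.ofPowerSeries ℤ (ResidueField C.B) U * G ^ p

/-- `ā / d̄` is invariant under `Γ₀(M)`. -/
def RedInvariant (M : ℕ) [NeZero M] (a d : LRing (2 * M) C.B) : Prop :=
  ∀ γ ∈ Gamma0 M, ∀ δ : SL(2, ℤ),
    coeffMap (residue C.B) (expB (2 * M) C.B (γ * δ) a * expB (2 * M) C.B δ d) =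
      coeffMap (residue C.B) (expB (2 * M) C.B δ a * expB (2 * M) C.B (γ * δ) d)

end Coeff

end Fermat.Agent.AtP
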