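import Fermat.Agent.AtP.AssemblyBranch
import Fermat.Agent.AtP.AssemblyDefs
import Fermat.Agent.AtP.AssemblyCertificate
import Fermat.Agent.KummerES.RootExpansion
import Fermat.Agent.KummerES.RootMultiplier

/-!
# The cusps: the reduction of the function is a unit times a `p`-th power, and `Γ₀(M)`-invariant

Every class modulo `Γ(2M)` is represented in `Γ₀(p)`, where the branch gives the congruence; the
certificate and the periodicity of `g ∘ δ` give the orders.
-/

set_option autoImplicit false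

noncomputable section

open UpperHalfPlane CongruenceSubgroup
open scoped MatrixGroups
open Fermat.Agent.KummerES
open Fermat.Agent.Eisenstein (act act_mul act_one act_none_eq_none_iff)
open ModularCurve (qExpand coeffMap)
open IsLocalRing (residue ResidueField)

namespace Fermat.Agent.AtP

lemma order_coeffMap_of_injective {R S : Type*} [CommRing R] [CommRing S] {f : R →+* S}
    (hf : Function.Injective f) {s : LaurentSeries R} (hs : s ≠ 0) :
    (coeffMap f s).order = s.order := by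
  have hc : ∀ i, (coeffMap f s).coeff i = 0 ↔ s.coeff i = 0 := fun i => by
    rw [ModularCurve.coeffMap_coeff, map_eq_zero_iff f hf]
  have hs' : coeffMap f s ≠ 0 := fun h => hs (HahnSeries.ext (funext fun i => by
    simpa using (hc i).1 (by rw [h]; simp)))
  refine le_antisymm (HahnSeries.order_le_of_coeff_ne_zero fun h0 => ?_)
    (HahnSeries.order_le_of_coeff_ne_zero fun h0 => ?_)
  · exact HahnSeries.coeff_order_eq_zero.not.2 hs ((hc _).1 h0)
  · exact HahnSeries.coeff_order_eq_zero.not.2 hs' ((hc _).2 h0)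

/-- A Laurent series whose order is divisible by `p`, with a certificate, reduces to a unit times a
`p`-th power. -/
theorem exists_red_unit_mul_pow {B : Type*} [CommRing B] [IsDomain B] [IsPrincipalIdealRing B]
    [IsLocalRing B] {π : B} (hπ : Irreducible π)
    (hmax : IsLocalRing.maximalIdeal B = Ideal.span {π}) {p : ℕ} (hp : p ≠ 0) {x : LaurentSeries B}
    (hx : coeffMap (residue B) x ≠ 0) {l : ℤ} (hord : x.order = p * l) {m N N₀ : ℕ}
    {Cc D A : Fin m → LaurentSeries B}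
    (he : ∀ j, A j ^ p = D j * (HahnSeries.C π ^ N * x))
    (hsum : ∑ j, Cc j * D j = HahnSeries.C π ^ N₀) :
    ∃ (U : PowerSeries (ResidueField B)) (G : LaurentSeries (ResidueField B)), IsUnit U ∧ G ≠ 0 ∧
      coeffMap (residue B) x = HahnSeries.ofPowerSeries ℤ (ResidueField B) U * G ^ p := by
  classical
  let ι := HahnSeries.ofPowerSeries ℤ B
  let sg : ℤ → LaurentSeries B := fun i => HahnSeries.single i 1
  have sg_add : ∀ a b, sg (a + b) = sg a * sg b := fun a b => by
    simp [sg, HahnSeries.single_mul_single]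
  have sg_nat : ∀ n : ℕ, sg n = ι (PowerSeries.X ^ n) := fun n => by
    simp [sg, ι, HahnSeries.ofPowerSeries_X_pow]
  have hxs : x = sg x.order * ι x.powerSeriesPart :=
    (LaurentSeries.single_order_mul_powerSeriesPart x).symm
  set x' := x.powerSeriesPart
  have hx0 : x ≠ 0 := fun h => hx (by rw [h, map_zero])
  have hx'0 : PowerSeries.constantCoeff x' ≠ 0 := by
    rw [← PowerSeries.coeff_zero_eq_constantCoeff_apply, LaurentSeries.powerSeriesPart_coeff]
    simpa [HahnSeries.coeff_order_eq_zero] using hx0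
  have hsh : ∀ s : LaurentSeries B, ∃ n : ℕ, ∀ k ≥ n, ∃ t, s = sg (-(k : ℤ)) * ι t := fun s => by
    refine ⟨(-s.order).toNat, fun k hk =>
      ⟨PowerSeries.X ^ (s.order + k).toNat * s.powerSeriesPart, ?_⟩⟩
    have : 0 ≤ s.order + k := by omega
    rw [map_mul, ← sg_nat, ← mul_assoc, ← sg_add, Int.toNat_of_nonneg this]
    conv_lhs => rw [← LaurentSeries.single_order_mul_powerSeriesPart s]
    congr 1
    show sg s.order = _
    congr 1
    ring
  choose nC hC using fun j => hsh (Cc j)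
  choose nD hD using fun j => hsh (D j)
  choose nA hA using fun j => hsh (A j)
  set k := Finset.univ.sup fun j => max (nC j) (max (nD j) (nA j))
  have hk : ∀ j, nC j ≤ k ∧ nD j ≤ k ∧ nA j ≤ k := fun j => by
    have := Finset.le_sup (f := fun j => max (nC j) (max (nD j) (nA j))) (Finset.mem_univ j)
    simp only [max_le_iff] at this
    exact this
  choose C' hC' using fun j => hC j k (hk j).1
  choose D' hD' using fun j => hD j k (hk j).2.1
  choose A' hA' using fun j => hA j k (hk j).2.2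
  set e : ℤ := (p : ℤ) * l - k + p * k
  have hinj : Function.Injective ι := HahnSeries.ofPowerSeries_injective
  have hπι : ∀ i : ℕ, HahnSeries.C π ^ i = ι (PowerSeries.C π ^ i) := fun i => by
    simp [ι, HahnSeries.ofPowerSeries_C]
  have hprime : Prime (PowerSeries.C π : PowerSeries B) := by
    have : (Ideal.span {π}).IsPrime := (Ideal.span_singleton_prime hπ.ne_zero).2 hπ.prime
    rw [← Ideal.span_singleton_prime ((map_ne_zero_iff _ PowerSeries.C_injective).2 hπ.ne_zero)]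
    have e1 : Ideal.span {(PowerSeries.C π : PowerSeries B)} =
        RingHom.ker (PowerSeries.map (Ideal.Quotient.mk (Ideal.span {π}))) := by
      ext f
      rw [Ideal.mem_span_singleton, RingHom.mem_ker]
      constructor
      · rintro ⟨g, rfl⟩
        rw [map_mul, PowerSeries.map_C, Ideal.Quotient.eq_zero_iff_mem.2
          (Ideal.mem_span_singleton_self π), map_zero, zero_mul]
      · intro hf
        have hd : ∀ i, π ∣ PowerSeries.coeff i f := fun i => by
          have := congrArg (PowerSeries.coeff i) hf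
          rwa [PowerSeries.coeff_map, map_zero, Ideal.Quotient.eq_zero_iff_mem,
            Ideal.mem_span_singleton] at this
        choose c hc using hd
        exact ⟨PowerSeries.mk c, PowerSeries.ext fun i => by
          rw [PowerSeries.coeff_C_mul, PowerSeries.coeff_mk, hc i]⟩
    rw [e1]
    exact RingHom.ker_isPrime _
  have hredC : PowerSeries.map (residue B) (PowerSeries.C π) = 0 := by
    rw [PowerSeries.map_C, (IsLocalRing.residue_eq_zero_iff π).2
      (hmax ▸ Ideal.mem_span_singleton_self π), map_zero]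
  have hxred : coeffMap (residue B) x = HahnSeries.single x.order 1 *
      HahnSeries.ofPowerSeries ℤ (ResidueField B) (PowerSeries.map (residue B) x') := by
    conv_lhs => rw [hxs]
    rw [map_mul]
    congr 1
    · simp [sg, ModularCurve.coeffMap_single]
    · refine HahnSeries.ext (funext fun i => ?_)
      rw [ModularCurve.coeffMap_coeff]
      rcases lt_or_ge i 0 with hi | hi
      · have hneg : ∀ {R : Type _} [CommRing R] (t : PowerSeries R),
            (HahnSeries.ofPowerSeries ℤ R t).coeff i = 0 := fun t => by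
          rw [HahnSeries.ofPowerSeries_apply]
          refine HahnSeries.embDomain_of_notMem_range ?_
          rintro ⟨n, rfl⟩
          simp at hi
          omega
        rw [hneg, hneg, map_zero]
      · lift i to ℕ using hi
        simp [ι]
  have hxπ : ¬ PowerSeries.C π ∣ x' := fun ⟨g, hg⟩ => hx (by
    rw [hxred, hg, map_mul, hredC, zero_mul, map_zero, mul_zero])
  have hPX : ∀ P, Prime P → P ∣ x' → ∀ n : ℕ, ¬ P ∣ (PowerSeries.X ^ n : PowerSeries B) :=
    fun P hP hPx n hd => hx'0 (PowerSeries.X_dvd_iff.1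
      (((hP.associated_of_dvd PowerSeries.X_prime (hP.dvd_of_dvd_pow hd)).symm.dvd).trans hPx))
  have hsplit : ∀ P, Prime P → ¬ P ∣ PowerSeries.C π → P ∣ x' → ∀ i n : ℕ,
      ¬ P ∣ PowerSeries.C π ^ i * PowerSeries.X ^ n := fun P hP hPπ hPx i n hd =>
    (hP.dvd_or_dvd hd).elim (fun h => hPπ (hP.dvd_of_dvd_pow h)) (hPX P hP hPx n)
  have he' : ∀ j, PowerSeries.C π ^ N * PowerSeries.X ^ e.toNat * D' j * x' =
      PowerSeries.X ^ (-e).toNat * A' j ^ p := fun j => hinj (by
    have h := he j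
    rw [hA' j, hD' j, hxs, hord, hπι, mul_pow] at h
    rw [map_mul, map_mul, map_mul, map_mul, ← sg_nat, ← sg_nat, map_pow ι (A' j)]
    have hpow : sg (-(k : ℤ)) ^ p = sg (-((p : ℤ) * k)) := by
      simp [sg, HahnSeries.single_pow]
    have h0 : sg ((p : ℤ) * k + (-e).toNat) * sg (-((p : ℤ) * k)) = sg ((-e).toNat : ℤ) := by
      rw [← sg_add]; congr 1; ring
    have h1 : sg ((p : ℤ) * k + (-e).toNat) * sg (-(k : ℤ)) * sg ((p : ℤ) * l) =
        sg (e.toNat : ℤ) := by
      rw [← sg_add, ← sg_add]; congr 1; simp only [e]; omega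
    rw [hpow] at h
    rw [← h0, mul_assoc (sg _) (sg (-((p : ℤ) * k))), h, ← h1]
    ring)
  have hsum' : ∑ j, C' j * D' j = PowerSeries.C π ^ N₀ * PowerSeries.X ^ (2 * k) := hinj (by
    have hk2 : sg (-(k : ℤ)) * sg (-(k : ℤ)) * sg ((2 * k : ℕ) : ℤ) = 1 := by
      rw [← sg_add, ← sg_add]
      have : -(k : ℤ) + -(k : ℤ) + ((2 * k : ℕ) : ℤ) = ((0 : ℕ) : ℤ) := by push_cast; ring
      rw [this, sg_nat, pow_zero, map_one]
    rw [map_sum, map_mul, ← hπι, ← sg_nat, ← hsum, Finset.sum_mul]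
    refine Finset.sum_congr rfl fun j _ => ?_
    rw [hC' j, hD' j, map_mul]
    linear_combination (-(ι (C' j) * ι (D' j))) * hk2)
  obtain ⟨u, G, hu, hxe⟩ := exists_eq_unit_mul_pow hprime hp hxπ
    (Cc := C') (D := D') (A := A') (α := PowerSeries.C π ^ N * PowerSeries.X ^ e.toNat)
    (β := PowerSeries.X ^ (-e).toNat)
    (γ := PowerSeries.C π ^ N₀ * PowerSeries.X ^ (2 * k))
    (fun P hP hPπ hPx => hsplit P hP hPπ hPx _ _) (fun P hP _ hPx => hPX P hP hPx _)
    (fun P hP hPπ hPx => hsplit P hP hPπ hPx _ _) he' hsum'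
  refine ⟨PowerSeries.map (residue B) u,
    HahnSeries.single l 1 * HahnSeries.ofPowerSeries ℤ _ (PowerSeries.map (residue B) G),
    hu.map _, ?_, ?_⟩
  · intro h0
    refine hx ?_
    rw [hxred, hxe, map_mul, map_pow, map_mul, map_pow]
    rcases mul_eq_zero.1 h0 with h | h
    · exact absurd h (HahnSeries.single_ne_zero one_ne_zero)
    · rw [h, zero_pow hp, mul_zero, mul_zero]
  · rw [hxred, hxe, map_mul, map_pow, map_mul, map_pow, mul_pow, HahnSeries.single_pow, one_pow,
      hord, nsmul_eq_mul]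
    ring

namespace Setting

attribute [local instance] isDomain_LRing

variable {p : ℕ} [hp : Fact p.Prime] {C : Coeff p} {M : ℕ} [NeZero M] (S : Setting C M)
  (hp2 : p ≠ 2) (hpM : ¬ p ∣ M) {a d : LRing (2 * M) C.B}

omit [NeZero M] in
include hp2 hpM in
/-- Every class modulo `Γ(2 M)` meets `Γ₀(p)`. -/
theorem exists_mem_Gamma0_congr (δ : SL(2, ℤ)) :
    ∃ r ∈ Gamma (2 * M), r * δ ∈ Gamma0 p := by
  obtain ⟨x, hx⟩ := (bijective_act_descRep (p := p) (L := 2 * M)
    (Coeff.not_dvd_two_mul hp2 hpM)).2 (act none δ)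
  refine ⟨δ * (descRep p (2 * M) x)⁻¹ * δ⁻¹,
    (Gamma_normal _).conj_mem _ (inv_mem (descRep_mem x)) δ, ?_⟩
  rw [inv_mul_cancel_right, ← act_none_eq_none_iff (p := p), act_mul, ← hx, ← act_mul,
    mul_inv_cancel, act_one]

omit hp in
lemma expB_mul_of_mem {r : SL(2, ℤ)} (hr : r ∈ Gamma (2 * M)) (δ : SL(2, ℤ))
    (b : LRing (2 * M) C.B) : expB (2 * M) C.B (r * δ) b = expB (2 * M) C.B δ b := by
  refine C.coeffMap_subtype_injective' ((hasExp_expB b (r * δ)).series_eq ?_)
  rw [← comp_comp, b.2.2.1 r hr]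
  exact hasExp_expB b δ

include hp2 in
/-- The order of `f₁ ∘ δ` is divisible by `p`. -/
theorem order_f₁ (hpM : ¬ p ∣ M) {δ : SL(2, ℤ)} (hδ : δ ∈ Gamma0 p) {s : LaurentSeries ℂ}
    (hs : HasExp (2 * M) (comp S.f₁ δ) s) (hs0 : s ≠ 0) : ∃ l : ℤ, s.order = p * l := by
  set γ := δ * ModularGroup.T ^ ((2 * M : ℕ) : ℤ) * δ⁻¹
  have hγ2 : γ ∈ Gamma (2 * M) := T_zpow_conj_mem_Gamma _ δ
  have hγp : γ ∈ Gamma0 p := mul_mem (mul_mem hδ (zpow_mem (T_mem_Gamma0 _) _)) (inv_mem hδ)
  have hγ : γ ∈ Gamma0 (p * M) := by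
    rw [Gamma0_mem, ZMod.intCast_zmod_eq_zero_iff_dvd] at *
    have hM : (M : ℤ) ∣ (γ : Matrix (Fin 2) (Fin 2) ℤ) 1 0 := by
      have := (Gamma_mem.1 hγ2).2.2.1
      rw [ZMod.intCast_zmod_eq_zero_iff_dvd] at this
      exact (Int.natCast_dvd_natCast.2 (Dvd.intro_left 2 rfl)).trans this
    push_cast
    exact (Int.isCoprime_iff_gcd_eq_one.2 (by
      simpa [Int.gcd_natCast_natCast] using (hp.out.coprime_iff_not_dvd.2 hpM))).mul_dvd hγp hM
  have hχ : S.χ (Additive.ofMul ⟨γ, hγ⟩) = 0 :=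
    ModularCurve.Period.mem_parabolicHoms_iff.1 S.parabolic ⟨γ, hγ⟩ (by
      show (γ : Matrix (Fin 2) (Fin 2) ℤ).trace ^ 2 = 4
      rw [trace_conj_T_zpow δ ((2 * M : ℕ) : ℤ)]
      norm_num)
  have hper : comp (comp S.g δ) (ModularGroup.T ^ ((2 * M : ℕ) : ℤ)) = comp S.g δ := by
    have h := S.kummer.comp_eq ⟨γ, hγ⟩
    rw [hχ] at h
    rw [comp_comp, show δ * ModularGroup.T ^ ((2 * M : ℕ) : ℤ) = γ * δ by simp [γ], ← comp_comp]
    congr 1
    rw [h]
    funext τ
    simp [rootPow]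
  obtain ⟨T, hT⟩ := exists_hasExp_of_periodic_pow hp.out.ne_zero
    (mdiff_comp S.kummer.holo δ) hper
    (hasExp_expansion_Gamma0 (S.pow_mem_levelP hp2 hpM) hδ :
      HasExp (2 * M) (comp S.g δ ^ p) _)
  have h2 : HasExp (2 * M) (comp S.f₁ δ) (HahnSeries.single 0 S.c₁ * T ^ p) := by
    rw [S.f₁_eq]
    exact (HasExp.const S.c₁).mul (hT.pow p)
  rw [hs.series_eq h2] at hs0 ⊢
  refine ⟨T.order, ?_⟩
  have hT0 : T ^ p ≠ 0 := right_ne_zero_of_mul hs0
  rw [HahnSeries.order_mul (left_ne_zero_of_mul hs0) hT0, HahnSeries.order_single S.c₁_ne, zero_add,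
    HahnSeries.order_pow, nsmul_eq_mul]

include hp2 hpM in
/-- **Invariance under `Γ₀(M)`.** -/
theorem redInvariant (hd : ¬ C.piA M ∣ d) (hrep : C.expA M (C.piA M) ∣
      C.expA M d * qExpand C.B (2 * M) S.s₁ - C.expA M a) : C.RedInvariant M a d := by
  intro γ hγ δ
  obtain ⟨r, hr, hr'⟩ := exists_mem_Gamma0_congr (M := M) hp2 hpM γ
  obtain ⟨r₂, hr₂, hr₂'⟩ := exists_mem_Gamma0_congr (M := M) hp2 hpM δ
  have hmem : r * γ * (r₂ * δ) ∈ Gamma0 p := mul_mem hr' hr₂'
  have hcls : ∀ b : LRing (2 * M) C.B,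
      expB (2 * M) C.B (r * γ * (r₂ * δ)) b = expB (2 * M) C.B (γ * δ) b := fun b => by
    rw [show r * γ * (r₂ * δ) = r * (γ * r₂ * γ⁻¹) * (γ * δ) by group,
      expB_mul_of_mem (mul_mem hr ((Gamma_normal _).conj_mem _ hr₂ γ))]
  have hγ' : r * γ ∈ Gamma0 (p * M) := by
    have h1 : r * γ ∈ Gamma0 M := mul_mem (Gamma0_mem.2 (Gamma_mem.1 (Gamma_le_of_dvd (Dvd.intro_left 2 rfl) hr)).2.2.1) hγ
    rw [Gamma0_mem, ZMod.intCast_zmod_eq_zero_iff_dvd] at *
    push_cast
    exact (Int.isCoprime_iff_gcd_eq_one.2 (by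
      simpa [Int.gcd_natCast_natCast] using (hp.out.coprime_iff_not_dvd.2 hpM))).mul_dvd hr' h1
  have hinv : comp S.f₁ (r * γ * (r₂ * δ)) = comp S.f₁ (r₂ * δ) := by
    rw [← comp_comp]
    congr 1
    funext τ
    simp only [comp_apply, S.f₁_eq]
    exact congrArg (S.c₁ * ·) (congrFun (S.pow_invariant _ hγ') τ)
  obtain ⟨N, hN⟩ := S.exists_scale
  obtain ⟨θ, hθA, hθF, hθc⟩ := C.exists_branch_hom (M := M) hp2 hpM hr₂'
  obtain ⟨θ', hθA', hθF', hθc'⟩ := C.exists_branch_hom (M := M) hp2 hpM hmem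
  obtain ⟨x, hx1, hx2, -⟩ := S.exists_series hp2 hpM hd hrep hθF hθc hr₂'
    ⟨_, S.mem_algElts₁ hp2 hpM N hN⟩ rfl
  obtain ⟨x', hx1', hx2', -⟩ := S.exists_series hp2 hpM hd hrep hθF' hθc' hmem
    ⟨_, S.mem_algElts₁ hp2 hpM N hN⟩ rfl
  rw [hinv] at hx1'
  obtain rfl : x = x' := C.coeffMap_subtype_injective' (hx1.series_eq hx1')
  rw [hcls, hcls] at hx2'
  rw [expB_mul_of_mem hr₂, expB_mul_of_mem hr₂] at hx2
  rw [map_mul, map_mul, hx2', hx2]
  ring

include hp2 hpM in
/-- **Orders at the cusps.** -/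
theorem cuspPow (ha : ¬ C.piA M ∣ a) (hd : ¬ C.piA M ∣ d) (hrep : C.expA M (C.piA M) ∣
      C.expA M d * qExpand C.B (2 * M) S.s₁ - C.expA M a) :
    C.CuspPow a d := by
  intro δ₀
  obtain ⟨r, hr, hr'⟩ := exists_mem_Gamma0_congr (M := M) hp2 hpM δ₀
  obtain ⟨N, m, N₀, -, -, e, A, D, Cc, he, hrel, hsum⟩ := S.exists_certificate_algElts hp2 hpM
  obtain ⟨θ, hθA, hθF, hθc⟩ := C.exists_branch_hom (M := M) hp2 hpM hr'
  obtain ⟨x, hx1, hx2, hx3⟩ := S.exists_series hp2 hpM hd hrep hθF hθc hr' e he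
  have hne : coeffMap (residue C.B) x ≠ 0 := fun h0 => by
    rw [h0, mul_zero, ← C.C_unif_dvd_iff] at hx2
    exact ha (C.piA_dvd_of_expB hp2 hpM hx2)
  have hx0 : x ≠ 0 := fun h => hne (by rw [h, map_zero])
  obtain ⟨l, hl⟩ := S.order_f₁ hp2 hpM hr' hx1
    (fun h => hx0 (C.coeffMap_subtype_injective' (h.trans (map_zero _).symm)))
  rw [order_coeffMap_of_injective (show Function.Injective C.B.subtype from Subtype.val_injective)
    hx0] at hl
  obtain ⟨U, G, hU, hG, hxe⟩ := exists_red_unit_mul_pow C.irred C.irred.maximalIdeal_eq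
    hp.out.ne_zero hne hl (A := fun j => θ (A j)) (D := fun j => θ (D j)) (Cc := fun j => θ (Cc j))
    (N := N) (N₀ := N₀)
    (fun j => by rw [← map_pow, hrel, map_mul, hx3])
    (by simp only [← map_mul]; rw [← map_sum, hsum, hθA, map_pow, C.expB_piA])
  refine ⟨U, G, 1, hU, hG, one_ne_zero, ?_⟩
  rw [← expB_mul_of_mem hr δ₀ a, ← expB_mul_of_mem hr δ₀ d, one_pow, mul_one, hx2, hxe]
  ring

end Setting

end Fermat.Agent.AtP
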