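import Fermat.Agent.AtP.DiffLiftForm
import Fermat.Agent.CuspIntStr.Main
import Fermat.Agent.HeckeEigen.Lift
import Fermat.Agent.LevelLowering.Upgrade
import Mathlib.Algebra.CharP.Basic

/-!
# Eigen differentials modulo `p` give congruent eigenforms

A cusp form with coefficients in `O` whose reduction is a nonzero eigenform of `T_ℓ` for almost all
`ℓ` gives a character of the Hecke algebra to `𝔽_p`, hence, by Deligne–Serre, an eigenform
congruent to it.  Combined with the lifting of differentials this turns an invariant differential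
modulo `p`, regular at the cusps and eigen for almost all `T_ℓ`, into `CofiniteResModular`.
-/

set_option autoImplicit false

noncomputable section

open UpperHalfPlane CongruenceSubgroup ModularFormClass
open scoped MatrixGroups

namespace Fermat.Agent.AtP.DiffLift

open Fermat.Agent.KummerES
open Fermat.Agent.LevelLowering (CofiniteResModular)
open ModularCurve (coeffMap)

section ModP

variable {M p : ℕ} [NeZero M] {O : Subring ℂ} {k : Type*} [Field k] (red : O →+* k) (π : O)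

/-- `t` preserves integrality and multiplies the reduction `c` of `F` by the integer `m`. -/
def EigenModP (c : ℕ → O) (F : CuspForm (Gamma0 M) 2)
    (t : Module.End ℂ (CuspForm (Gamma0 M) 2)) (m : ℤ) : Prop :=
  (∀ G : CuspForm (Gamma0 M) 2, (∀ n, qCoeff G n ∈ O) → ∀ n, qCoeff (t G) n ∈ O) ∧
    ∀ n (h : qCoeff (t F) n ∈ O), red ⟨_, h⟩ = (m : k) * red (c n)

variable {red π} {c : ℕ → O} {F : CuspForm (Gamma0 M) 2} (hc : ∀ n, qCoeff F n = c n)

include hc

omit [NeZero M] in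
lemma eigenModP_intCast (r : ℤ) :
    EigenModP red c F (r : Module.End ℂ (CuspForm (Gamma0 M) 2)) r := by
  have e : ∀ (G : CuspForm (Gamma0 M) 2) n,
      qCoeff ((r : Module.End ℂ (CuspForm (Gamma0 M) 2)) G) n = r * qCoeff G n := fun G n => by
    rw [Module.End.intCast_apply, HeckeEigen.qCoeff_zsmul]
  refine ⟨fun G hG n => by rw [e]; exact mul_mem (intCast_mem O r) (hG n), fun n h => ?_⟩
  rw [show (⟨_, h⟩ : O) = (r : O) * c n from Subtype.ext ((e F n).trans (by rw [hc]; simp)),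
    map_mul, map_intCast]

omit [NeZero M] in
/-- Eigenvalues modulo `p` add under sums of operators. -/
lemma EigenModP.add {t s : Module.End ℂ (CuspForm (Gamma0 M) 2)} {a b : ℤ}
    (ht : EigenModP red c F t a) (hs : EigenModP red c F s b) :
    EigenModP red c F (t + s) (a + b) := by
  have e : ∀ (G : CuspForm (Gamma0 M) 2) n,
      qCoeff ((t + s) G) n = qCoeff (t G) n + qCoeff (s G) n := fun G n => by
    rw [LinearMap.add_apply, HeckeEigen.qCoeff_add]
  refine ⟨fun G hG n => by rw [e]; exact add_mem (ht.1 G hG n) (hs.1 G hG n), fun n h => ?_⟩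
  have hF : ∀ n, qCoeff F n ∈ O := fun n => hc n ▸ (c n).2
  rw [show (⟨_, h⟩ : O) = ⟨_, ht.1 F hF n⟩ + ⟨_, hs.1 F hF n⟩ from Subtype.ext (e F n), map_add,
    ht.2, hs.2, Int.cast_add, add_mul]

omit [NeZero M] in
/-- Eigenvalues modulo `p` multiply under products of operators. -/
lemma EigenModP.mul (hker : ∀ r, red r = 0 ↔ π ∣ r) (hπ0 : π ≠ 0)
    {t s : Module.End ℂ (CuspForm (Gamma0 M) 2)} {a b : ℤ}
    (ht : EigenModP red c F t a) (hs : EigenModP red c F s b) :
    EigenModP red c F (t * s) (a * b) := by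
  refine ⟨fun G hG n => ht.1 _ (hs.1 G hG) n, fun n h => ?_⟩
  have hF : ∀ n, qCoeff F n ∈ O := fun n => hc n ▸ (c n).2
  have hπ : (π : ℂ) ≠ 0 := fun h0 => hπ0 (Subtype.ext h0)
  set G : CuspForm (Gamma0 M) 2 := (π : ℂ)⁻¹ • (s F - (b : ℂ) • F) with hG
  have hGmem : ∀ n, qCoeff G n ∈ O := fun n => by
    have h0 : red (⟨_, hs.1 F hF n⟩ - (b : O) * c n) = 0 := by
      rw [map_sub, hs.2, map_mul, map_intCast, sub_self]
    obtain ⟨q, hq⟩ := (hker _).mp h0
    have hq' : qCoeff (s F) n - (b : ℂ) * c n = (π : ℂ) * q := by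
      simpa using congrArg Subtype.val hq
    rw [hG, HeckeEigen.qCoeff_smul, HeckeEigen.qCoeff_sub, HeckeEigen.qCoeff_smul, hc, hq',
      ← mul_assoc, inv_mul_cancel₀ hπ, one_mul]
    exact q.2
  have hsF : s F = (b : ℂ) • F + (π : ℂ) • G := by
    rw [hG, smul_smul, mul_inv_cancel₀ hπ, one_smul, add_sub_cancel]
  have e : (⟨_, h⟩ : O) = (b : O) * ⟨_, ht.1 F hF n⟩ + π * ⟨_, ht.1 G hGmem n⟩ := Subtype.ext (by
    show qCoeff (t (s F)) n = _
    rw [hsF, map_add, map_smul, map_smul, HeckeEigen.qCoeff_add, HeckeEigen.qCoeff_smul,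
      HeckeEigen.qCoeff_smul]
    simp)
  rw [e, map_add, map_mul, map_intCast, ht.2, map_mul, (hker π).mpr dvd_rfl, zero_mul, add_zero]
  push_cast
  ring

omit [NeZero M] in
lemma eigenModP_heckeT {ℓ : ℕ} (hℓ : ℓ.Prime) (hℓN : ¬ ℓ ∣ M) {a : ℤ}
    (heig : ∀ n : ℕ, red (c (ℓ * n)) + (if ℓ ∣ n then (ℓ : k) * red (c (n / ℓ)) else 0) =
      (a : k) * red (c n)) :
    EigenModP red c F (CuspForm.heckeTLin 2 hℓ hℓN) a := by
  have e : ∀ (G : CuspForm (Gamma0 M) 2) (n : ℕ),
      qCoeff (CuspForm.heckeTLin 2 hℓ hℓN G) n =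
        qCoeff G (n * ℓ) + if ℓ ∣ n then (ℓ : ℂ) * qCoeff G (n / ℓ) else 0 := fun G n => by
    rw [HeckeEigen.qCoeff_heckeTLin, show (2 : ℤ) - 1 = 1 by norm_num, zpow_one]
  refine ⟨fun G hG n => ?_, fun n h => ?_⟩
  · rw [e]
    refine add_mem (hG _) ?_
    split_ifs
    · exact mul_mem (natCast_mem O ℓ) (hG _)
    · exact zero_mem O
  · rw [← heig n,
      show (⟨_, h⟩ : O) = c (ℓ * n) + (if ℓ ∣ n then (ℓ : O) * c (n / ℓ) else 0) from
        Subtype.ext ((e F n).trans (by rw [hc, mul_comm n ℓ]; split_ifs <;> simp [hc])),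
      map_add, apply_ite red, map_mul, map_natCast, map_zero]

/-- **Deligne–Serre for a form which is an eigenform modulo `p`.** -/
theorem cofiniteResModular_of_formModP [CharP k p] (hp : p.Prime) (hπ0 : π ≠ 0)
    (hker : ∀ r, red r = 0 ↔ π ∣ r) (hne : ∃ n, red (c n) ≠ 0) (W : WeierstrassCurve ℤ)
    (S : Finset ℕ)
    (heig : ∀ ℓ, ℓ.Prime → ℓ ∉ S → ∀ n : ℕ,
      red (c (ℓ * n)) + (if ℓ ∣ n then (ℓ : k) * red (c (n / ℓ)) else 0) =
        (W.apOfModel ℓ : k) * red (c n)) :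
    CofiniteResModular W p M := by
  classical
  have := Fact.mk hp
  set S' : Set ℕ := {q | q ∈ S ∨ q ∣ M}
  have hgen : ∀ t ∈ CuspForm.heckeAlgebra M 2 S', ∃ m : ℤ, EigenModP red c F t m := by
    intro t ht
    induction ht using Algebra.adjoin_induction with
    | mem x hx =>
      rcases hx with ⟨ℓ, hℓ, hℓN, hℓS, rfl⟩ | ⟨q, hqN, -, hqS, rfl⟩
      · exact ⟨W.apOfModel ℓ,
          eigenModP_heckeT hc hℓ hℓN (heig ℓ hℓ (fun hS => hℓS (Or.inl hS)))⟩
      · exact absurd (Or.inr hqN) hqS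
    | algebraMap r => exact ⟨r, by rw [eq_intCast]; exact eigenModP_intCast hc r⟩
    | add x y _ _ hx hy =>
      obtain ⟨a, ha⟩ := hx; obtain ⟨b, hb⟩ := hy
      exact ⟨a + b, ha.add hc hb⟩
    | mul x y _ _ hx hy =>
      obtain ⟨a, ha⟩ := hx; obtain ⟨b, hb⟩ := hy
      exact ⟨a * b, ha.mul hc hker hπ0 hb⟩
  choose m hm using hgen
  have huniq : ∀ t (a : ℤ), EigenModP red c F t a → ∀ ht, (m t ht : ZMod p) = (a : ZMod p) := by
    intro t a ha ht
    obtain ⟨n, hn⟩ := hne
    have hF : ∀ n, qCoeff F n ∈ O := fun n => hc n ▸ (c n).2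
    have h1 := ((hm t ht).2 n ((hm t ht).1 F hF n)).symm.trans (ha.2 n _)
    have h2 := mul_right_cancel₀ hn h1
    apply (ZMod.castHom (dvd_refl p) k).injective
    simpa using h2
  let ψ : CuspForm.heckeAlgebra M 2 S' →+* ZMod p :=
    { toFun := fun t => (m t t.2 : ZMod p)
      map_one' := by
        rw [huniq _ 1 ?_, Int.cast_one]
        simpa using eigenModP_intCast (red := red) hc 1
      map_mul' := fun x y => by
        rw [← Int.cast_mul]
        exact huniq _ _ ((hm x x.2).mul hc hker hπ0 (hm y y.2)) _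
      map_zero' := by
        rw [huniq _ 0 ?_, Int.cast_zero]
        simpa using eigenModP_intCast (red := red) hc 0
      map_add' := fun x y => by
        rw [← Int.cast_add]
        exact huniq _ _ ((hm x x.2).add hc (hm y y.2)) _ }
  obtain ⟨f, hf, Q, hQ, hint, hT, -⟩ :=
    HeckeEigen.exists_eigenform_congruent (CuspIntStr.hasIntegralStructure M 2) ψ
      (ZMod.ringHom_surjective ψ)
  refine ⟨f, Q, hf, hQ, by simpa using hint p (by simp), S ∪ M.primeFactors, fun ℓ hℓ hℓS => ?_⟩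
  simp only [Finset.mem_union, Nat.mem_primeFactors, not_or, not_and] at hℓS
  have hℓM : ¬ ℓ ∣ M := fun h => hℓS.2 hℓ h (NeZero.ne M)
  have hℓ' : ℓ ∉ S' := fun h => h.elim hℓS.1 hℓM
  refine hT ℓ hℓ hℓM hℓ' (W.apOfModel ℓ) ?_
  exact huniq _ _ (eigenModP_heckeT hc hℓ hℓM (heig ℓ hℓ hℓS.1)) _

end ModP

variable {L M p : ℕ} [NeZero L] [NeZero M] {O : Subring ℂ} {k : Type*} [Field k]

/-- The expansion at `∞` of an invariant differential only has degrees divisible by `L`. -/
lemma coeffMap_diffExp_of_not_dvd (C : Chart 2 L) (red : O →+* k) (hO : zetaRing L ≤ O)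
    (a : LRing L O)
    (hinv : ∀ δ, coeffMap red (diffExp C hO (ModularGroup.T * δ) a) =
      coeffMap red (diffExp C hO δ a))
    {i : ℤ} (hi : ¬ (L : ℤ) ∣ i) : red ((diffExp C hO 1 a).coeff i) = 0 := by
  have e : diffExp C hO (ModularGroup.T * 1) a =
      ModularFunctionField.twist (zetaUnit hO) (diffExp C hO 1 a) := by
    rw [mul_one, show ModularGroup.T = 1 * ModularGroup.T ^ (1 : ℤ) by simp, diffExp, diffExp,
      expB_mul_T_zpow hO, expB_mul_T_zpow hO, ModularFunctionField.theta_twist, ← map_mul, zpow_one]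
  have h1 := hinv 1
  rw [e] at h1
  have h2 := congrArg (fun s : LaurentSeries k => s.coeff i) h1
  simp only [ModularCurve.coeffMap_coeff, ModularFunctionField.twist_coeff, map_mul] at h2
  by_contra hne
  have h3 : red ((zetaUnit hO ^ i : Oˣ) : O) = 1 :=
    mul_right_cancel₀ hne (by rw [one_mul]; exact h2)
  have hp := isPrimitiveRoot_red hO red
  have hu : (Units.map (red : O →* k) (zetaUnit hO)) ^ i = 1 := Units.ext (by
    rw [← map_zpow]; exact h3)
  have hp' : IsPrimitiveRoot (Units.map (red : O →* k) (zetaUnit hO)) L :=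
    IsPrimitiveRoot.coe_units_iff.mp hp
  exact hi ((hp'.zpow_eq_one_iff_dvd i).mp hu)

/-- A cusp form with the reduced expansion of an eigen differential gives a congruent eigenform. -/
theorem cofiniteResModular_of_liftedForm [CharP k p] (hp : p.Prime) (C : Chart 2 L) (red : O →+* k)
    (π : O) (hO : zetaRing L ≤ O) (hπ0 : π ≠ 0) (hker : ∀ r, red r = 0 ↔ π ∣ r) (a : LRing L O)
    {F : CuspForm (Gamma0 M) 2} {c : ℕ → O} (hc : ∀ n, qCoeff F n = c n)
    (hc' : ∀ n, red (c n) = red ((diffExp C hO 1 a).coeff ((L : ℤ) * n)))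
    (ha : ∀ i : ℤ, i ≤ 0 → red ((diffExp C hO 1 a).coeff i) = 0)
    (hinv : ∀ δ, coeffMap red (diffExp C hO (ModularGroup.T * δ) a) =
      coeffMap red (diffExp C hO δ a))
    (hne : coeffMap red (diffExp C hO 1 a) ≠ 0)
    (W : WeierstrassCurve ℤ) (S : Finset ℕ)
    (heig : ∀ ℓ, ℓ.Prime → ℓ ∉ S → ∀ n : ℕ,
      red ((diffExp C hO 1 a).coeff ((L : ℤ) * (ℓ * n : ℕ))) +
        (if ℓ ∣ n then (ℓ : k) * red ((diffExp C hO 1 a).coeff ((L : ℤ) * (n / ℓ : ℕ))) else 0) =
        (W.apOfModel ℓ : k) * red ((diffExp C hO 1 a).coeff ((L : ℤ) * n))) :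
    CofiniteResModular W p M := by
  refine cofiniteResModular_of_formModP hc hp hπ0 hker ?_ W S fun ℓ hℓ hℓS n => ?_
  · obtain ⟨i, hi⟩ : ∃ i, red ((diffExp C hO 1 a).coeff i) ≠ 0 := by
      by_contra h
      push Not at h
      exact hne (HahnSeries.ext (funext fun i => by simpa using h i))
    obtain ⟨j, rfl⟩ : (L : ℤ) ∣ i := by
      by_contra h
      exact hi (coeffMap_diffExp_of_not_dvd C red hO a hinv h)
    have hj : 0 ≤ j := by
      by_contra h
      exact hi (ha _ (mul_nonpos_of_nonneg_of_nonpos (by positivity) (not_le.mp h).le))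
    lift j to ℕ using hj
    exact ⟨j, by rw [hc']; exact hi⟩
  · simp only [hc']
    exact heig ℓ hℓ hℓS n

/-- **Eigen differentials modulo `p` give congruent eigenforms.** -/
theorem cofiniteResModular_of_differential [IsAlgClosed k] [CharP k p] (hp : p.Prime)
    (C : Chart 2 L) (red : O →+* k) (π : O) (H : LevelHyp 2 L O) {n₀ : ℕ}
    (hB : CoeffHyp O π.1 n₀) (hsurj : Function.Surjective red)
    (hker : ∀ r, red r = 0 ↔ π ∣ r) (hML : M ∣ L) (hidx : 2 ∣ M ∨ IsUnit (6 : O)) (a : LRing L O)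
    (ha : ∀ (δ : SL(2, ℤ)) (i : ℤ), i ≤ 0 → red ((diffExp C H.le δ a).coeff i) = 0)
    (hinv : ∀ γ ∈ Gamma0 M, ∀ δ,
      coeffMap red (diffExp C H.le (γ * δ) a) = coeffMap red (diffExp C H.le δ a))
    (hne : coeffMap red (diffExp C H.le 1 a) ≠ 0)
    (W : WeierstrassCurve ℤ) (S : Finset ℕ)
    (heig : ∀ ℓ, ℓ.Prime → ℓ ∉ S → ∀ n : ℕ,
      red ((diffExp C H.le 1 a).coeff ((L : ℤ) * (ℓ * n : ℕ))) +
        (if ℓ ∣ n then (ℓ : k) * red ((diffExp C H.le 1 a).coeff ((L : ℤ) * (n / ℓ : ℕ))) else 0) =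
        (W.apOfModel ℓ : k) * red ((diffExp C H.le 1 a).coeff ((L : ℤ) * n))) :
    CofiniteResModular W p M := by
  obtain ⟨F, c, hc, hc'⟩ :=
    exists_cuspForm_lift_of_coeffHyp C red π H hB hsurj hker hML hidx a ha hinv
  exact cofiniteResModular_of_liftedForm hp C red π H.le hB.irred.ne_zero hker a hc hc' (ha 1)
    (hinv _ (by simp [Gamma0_mem, ModularGroup.coe_T])) hne W S heig

end Fermat.Agent.AtP.DiffLift
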