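import Fermat.Agent.AtP.PointsRegular
import Mathlib.Algebra.DualNumber

/-!
# The derivation `d/dt` on the special fibre

Every function has a derivative with respect to the coordinate modulo `π`, computed by every
homomorphism into a ring with a derivation killing the constants: the two lifts to dual numbers
agree, because the covering is etale over the coordinate line.
-/

set_option autoImplicit false

noncomputable section

open scoped MatrixGroups
open Fermat.Agent.KummerES

namespace Fermat.Agent.AtP.Points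

section Dual

variable {Q R : Type*} [CommRing Q] [CommRing R]

/-- `x ↦ (e x₀, e x₁ * d)` on dual numbers. -/
def dualScale (e : Q →+* R) (d : R) : DualNumber Q →+* DualNumber R where
  toFun x := TrivSqZeroExt.inl (e x.fst) + TrivSqZeroExt.inr (e x.snd * d)
  map_one' := by ext <;> simp
  map_mul' x y := by
    ext <;> simp
    ring
  map_zero' := by ext <;> simp
  map_add' x y := by ext <;> simp [add_mul]

lemma fst_dualScale (e : Q →+* R) (d : R) (x : DualNumber Q) :
    (dualScale e d x).fst = e x.fst := by simp [dualScale]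

lemma snd_dualScale (e : Q →+* R) (d : R) (x : DualNumber Q) :
    (dualScale e d x).snd = e x.snd * d := by simp [dualScale]

/-- `x ↦ (x, δ x)` for a derivation `δ`. -/
def dualDeriv (δ : R →+ R) (hδ : ∀ x y, δ (x * y) = δ x * y + x * δ y) : R →+* DualNumber R where
  toFun x := TrivSqZeroExt.inl x + TrivSqZeroExt.inr (δ x)
  map_one' := by
    have h := hδ 1 1
    rw [mul_one, one_mul, mul_one] at h
    ext <;> simp [left_eq_add.mp h]
  map_mul' x y := by
    ext <;> simp [hδ]
    ring
  map_zero' := by ext <;> simp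
  map_add' x y := by ext <;> simp

lemma fst_dualDeriv (δ : R →+ R) (hδ : ∀ x y, δ (x * y) = δ x * y + x * δ y) (x : R) :
    (dualDeriv δ hδ x).fst = x := by simp [dualDeriv]

lemma snd_dualDeriv (δ : R →+ R) (hδ : ∀ x y, δ (x * y) = δ x * y + x * δ y) (x : R) :
    (dualDeriv δ hδ x).snd = δ x := by simp [dualDeriv]

lemma isNilpotent_of_fst {x : DualNumber R} (h : x.fst = 0) : IsNilpotent x :=
  ⟨2, by rw [pow_two]; ext <;> simp [h]⟩

/-- The dual numbers are complete for the ideal `(ε)`. -/
lemma isAdicComplete_ker_fst :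
    IsAdicComplete (RingHom.ker (TrivSqZeroExt.fstHom R R R).toRingHom) (DualNumber R) := by
  set I := RingHom.ker (TrivSqZeroExt.fstHom R R R).toRingHom
  have hI : ∀ x ∈ I ^ 2, x = 0 := fun x hx => by
    rw [pow_two] at hx
    refine Submodule.mul_induction_on hx (fun a ha b hb => ?_) fun a b ha hb => by
      rw [ha, hb, add_zero]
    have ha' : a.fst = 0 := ha
    have hb' : b.fst = 0 := hb
    ext <;> simp [ha', hb']
  have hmod : ∀ (m : ℕ) (x y : DualNumber R),
      x ≡ y [SMOD (I ^ m • ⊤ : Submodule (DualNumber R) (DualNumber R))] ↔ x - y ∈ I ^ m := by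
    intro m x y
    rw [SModEq.sub_mem, smul_eq_mul, Ideal.mul_top]
  refine @IsAdicComplete.mk _ _ _ _ _ _ ⟨fun x hx => hI x (by simpa using (hmod 2 x 0).1 (hx 2))⟩
    ⟨fun f hf => ⟨f 2, fun m => ?_⟩⟩
  rw [hmod]
  rcases le_total m 2 with hm | hm
  · exact (hmod m _ _).1 (hf hm)
  · have := hI _ ((hmod 2 _ _).1 (hf hm))
    rw [sub_eq_zero] at this
    rw [← this, sub_self]
    exact zero_mem _

end Dual

variable {M L n : ℕ} [NeZero L] {B : Subring ℂ} {π : ℂ} (H : LevelHyp M L B) (hB : CoeffHyp B π n)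

include H in
/-- The lift to dual numbers with `t ↦ t + ε`. -/
theorem exists_dual_lift {Q : Type} [CommRing Q] (q : LRing L B →+* Q) :
    ∃ ψ : LRing L B →+* DualNumber Q, (∀ a, (ψ a).fst = q a) ∧
      (∀ c, (ψ (cstL H c)).snd = 0) ∧ (ψ (tL H)).snd = 1 := by
  obtain ⟨ι, _, ⟨D⟩⟩ := exists_sepData H
  let c : B →+* DualNumber Q := (TrivSqZeroExt.inlHom Q Q).comp (q.comp (cstL H))
  let z : DualNumber Q := TrivSqZeroExt.inl (q (tL H)) + TrivSqZeroExt.inr 1
  have hu : IsUnit ((badPoly H).eval₂ c z) := by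
    rw [TrivSqZeroExt.isUnit_iff_isUnit_fst]
    have h : ((badPoly H).eval₂ c z).fst = q (inclLevel H.dvd (evalT H (badPoly H))) := by
      show (TrivSqZeroExt.fstHom Q Q Q).toRingHom _ = _
      rw [Polynomial.hom_eval₂, evalT, Polynomial.coe_eval₂RingHom, ← RingHom.comp_apply,
        Polynomial.hom_eval₂]
      congr 1
      simp [z, tL]
    rw [h]
    exact ((isUnit_evalT_badPoly H).map _).map q
  obtain ⟨g, hg, hgt⟩ := exists_hom_M H c z hu
  let I : Ideal (DualNumber Q) := RingHom.ker (TrivSqZeroExt.fstHom Q Q Q).toRingHom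
  have : IsAdicComplete I (DualNumber Q) := isAdicComplete_ker_fst (R := Q)
  let s : LRing L B →+* DualNumber Q ⧸ I :=
    (Ideal.Quotient.mk I).comp ((TrivSqZeroExt.inlHom Q Q).comp q)
  have hcompat : s.comp (inclLevel H.dvd) = (Ideal.Quotient.mk I).comp g := by
    refine ringHom_ext_M (S := DualNumber Q ⧸ I) H (fun b => ?_) ?_
    · show Ideal.Quotient.mk I _ = Ideal.Quotient.mk I _
      rw [hg]
      rfl
    · show Ideal.Quotient.mk I _ = Ideal.Quotient.mk I _
      rw [hgt, Ideal.Quotient.eq]
      show TrivSqZeroExt.fst _ = 0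
      simp [z, tL]
  obtain ⟨ψ, hψ, hψs⟩ := D.exists_lift g s hcompat
  refine ⟨ψ, fun a => ?_, fun b => ?_, ?_⟩
  · have h := RingHom.congr_fun hψs a
    simp only [s, RingHom.comp_apply, Ideal.Quotient.eq] at h
    have h' : (ψ a - TrivSqZeroExt.inlHom Q Q (q a)).fst = 0 := h
    simpa [sub_eq_zero] using h'
  · rw [show ψ (cstL H b) = c b from (RingHom.congr_fun hψ (constM b)).trans (hg b)]
    simp [c]
  · rw [show ψ (tL H) = z from (RingHom.congr_fun hψ (tM H)).trans hgt]
    simp [z]

include H in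
/-- The derivative, for any quotient of the functions. -/
theorem exists_deriv_of_surjective {Q : Type} [CommRing Q] {q : LRing L B →+* Q}
    (hq : Function.Surjective q) (f : LRing L B) :
    ∃ f' : LRing L B, ∀ (R : Type) [CommRing R] (ē : Q →+* R) (δ : R →+ R),
      (∀ x y, δ (x * y) = δ x * y + x * δ y) → (∀ c, δ (ē (q (cstL H c))) = 0) →
      δ (ē (q f)) = ē (q f') * δ (ē (q (tL H))) := by
  obtain ⟨ψ, hfst, hcst, ht⟩ := exists_dual_lift H q
  obtain ⟨f', hf'⟩ := hq (ψ f).snd
  refine ⟨f', fun R _ ē δ hδ hc => ?_⟩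
  have key : (dualDeriv δ hδ).comp (ē.comp q) = (dualScale ē (δ (ē (q (tL H))))).comp ψ := by
    refine ringHom_ext_of_nilpotent H (fun b => ?_) ?_ fun a => isNilpotent_of_fst ?_
    · ext
      · simp [fst_dualDeriv, fst_dualScale, hfst]
      · simp [snd_dualDeriv, snd_dualScale, hc, hcst]
    · ext
      · simp [fst_dualDeriv, fst_dualScale, hfst]
      · simp [snd_dualDeriv, snd_dualScale, ht]
    · simp [fst_dualDeriv, fst_dualScale, hfst]
  have h := congrArg TrivSqZeroExt.snd (RingHom.congr_fun key f)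
  rw [RingHom.comp_apply, RingHom.comp_apply, RingHom.comp_apply, snd_dualDeriv, snd_dualScale,
    ← hf'] at h
  exact h

include H hB in
/-- **The derivative with respect to the coordinate modulo `π`.** -/
theorem exists_deriv (f : LRing L B) :
    ∃ f' : LRing L B, ∀ (R : Type) [CommRing R] (e : LRing L B →+* R) (δ : R →+ R),
      (∀ x y, δ (x * y) = δ x * y + x * δ y) → e (piL (L := L) hB) = 0 →
      (∀ c, δ (e (cstL H c)) = 0) → δ (e f) = e f' * δ (e (tL H)) := by
  obtain ⟨f', hf'⟩ := exists_deriv_of_surjective H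
    (Ideal.Quotient.mk_surjective (I := Ideal.span {piL (L := L) hB})) f
  refine ⟨f', fun R _ e δ hδ hπ hc => ?_⟩
  exact hf' R (Ideal.Quotient.lift _ e fun a ha => by
    obtain ⟨u, rfl⟩ := Ideal.mem_span_singleton.1 ha
    rw [map_mul, hπ, zero_mul]) δ hδ hc

end Fermat.Agent.AtP.Points
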