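import Mathlib.Analysis.Complex.LocallyUniformLimit
import Fermat.Prelude.Def_ModularCurve_LaurentCoeff
import Fermat.Agent.AtP.LambdaTheta

/-!
# Termwise differentiation, and `θλ = λ (1 - λ) θ₃⁴`

`thetaOp` is `s d/ds` on Laurent series; `dSlash L f` is the corresponding analytic operator.
-/

set_option autoImplicit false

noncomputable section

open UpperHalfPlane Filter Topology Complex ModularGroup
open scoped Real MatrixGroups Manifold ModularForm
open Fermat.Agent.KummerES

namespace Fermat.Agent.AtP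

section Formal

variable (A : Type*) [CommRing A]

/-- `s d/ds` on Laurent series, as an additive map. -/
def thetaOp : LaurentSeries A →+ LaurentSeries A where
  toFun s :=
    { coeff := fun i => (i : A) * s.coeff i
      isPWO_support' := s.isPWO_support.mono fun i hi h0 => hi (by simp [h0]) }
  map_zero' := by ext i; simp
  map_add' s t := by ext i; simp [mul_add]

/-- The Leibniz rule for `θ`. -/
theorem thetaOp_mul (a b : LaurentSeries A) :
    thetaOp A (a * b) = a * thetaOp A b + b * thetaOp A a := by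
  have ha : ∀ c : LaurentSeries A, (thetaOp A c).support ⊆ c.support := fun c i hi h0 =>
    hi (by simp [thetaOp, h0])
  ext n
  rw [HahnSeries.coeff_add, HahnSeries.coeff_mul_right' b.isPWO_support (ha b), mul_comm b,
    HahnSeries.coeff_mul_left' a.isPWO_support (ha a)]
  show (n : A) * (a * b).coeff n = _
  rw [HahnSeries.coeff_mul, Finset.mul_sum, ← Finset.sum_add_distrib]
  refine Finset.sum_congr rfl fun q hq => ?_
  show _ = a.coeff q.1 * ((q.2 : A) * b.coeff q.2) + (q.1 : A) * a.coeff q.1 * b.coeff q.2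
  rw [← (Finset.mem_antidiagonal.mp hq).2.2]
  push_cast
  ring


variable {A}

/-- The coefficients of `θ s`. -/
@[simp] theorem thetaOp_coeff (s : LaurentSeries A) (i : ℤ) :
    (thetaOp A s).coeff i = (i : A) * s.coeff i := rfl

/-- `θ` commutes with maps of coefficients. -/
theorem coeffMap_thetaOp {B : Type*} [CommRing B] (f : A →+* B) (s : LaurentSeries A) :
    ModularCurve.coeffMap f (thetaOp A s) = thetaOp B (ModularCurve.coeffMap f s) := by
  ext i; simp

/-- `θ` of a series in `q ^ N`. -/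
theorem thetaOp_qExpand (N : ℕ) [NeZero N] (s : LaurentSeries A) :
    thetaOp A (ModularCurve.qExpand A N s) =
      (N : LaurentSeries A) * ModularCurve.qExpand A N (thetaOp A s) := by
  ext i
  rw [thetaOp_coeff, show (N : LaurentSeries A) = HahnSeries.C (N : A) from
    (map_natCast HahnSeries.C N).symm, HahnSeries.C_mul_eq_smul, HahnSeries.coeff_smul, smul_eq_mul]
  by_cases hi : (N : ℤ) ∣ i
  · obtain ⟨k, rfl⟩ := hi
    rw [ModularCurve.qExpand_coeff_mul, ModularCurve.qExpand_coeff_mul, thetaOp_coeff]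
    push_cast
    ring
  · rw [ModularCurve.qExpand_coeff_of_not_dvd _ _ hi, ModularCurve.qExpand_coeff_of_not_dvd _ _ hi,
      mul_zero, mul_zero]

theorem thetaOp_eq_X_mul_derivative (s : PowerSeries A) :
    thetaOp A (HahnSeries.ofPowerSeries ℤ A s) =
      HahnSeries.ofPowerSeries ℤ A (PowerSeries.X * PowerSeries.derivative A s) := by
  ext i
  rw [thetaOp_coeff]
  rcases lt_or_ge i 0 with hi | hi
  · have h : ∀ t : PowerSeries A, (HahnSeries.ofPowerSeries ℤ A t).coeff i = 0 := fun t => by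
      rw [HahnSeries.ofPowerSeries_apply]
      refine HahnSeries.embDomain_of_notMem_range ?_
      rintro ⟨n, rfl⟩
      simp at hi
      omega
    rw [h, h, mul_zero]
  · lift i to ℕ using hi
    rw [HahnSeries.ofPowerSeries_apply_coeff, HahnSeries.ofPowerSeries_apply_coeff]
    cases i with
    | zero => simp
    | succ n => rw [PowerSeries.coeff_succ_X_mul, PowerSeries.coeff_derivative]; push_cast; ring

end Formal

/-- `(L / 2πi) d/dτ`. -/
def dSlash (L : ℕ) (f : ℍ → ℂ) : ℍ → ℂ :=
  fun τ => (L : ℂ) / (2 * π * Complex.I) * deriv (f ∘ ofComplex) τ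

/-- Termwise differentiation of an expansion. -/
theorem HasExp.dSlash {L : ℕ} [NeZero L] {f : ℍ → ℂ} {s : LaurentSeries ℂ} (h : HasExp L f s) :
    HasExp L (AtP.dSlash L f) (thetaOp ℂ s) := fun τ => by
  have hL : (0 : ℝ) < L := by exact_mod_cast Nat.pos_of_ne_zero (NeZero.ne L)
  set U : Set ℂ := {w | τ.im / 2 < w.im ∧ w.im < 2 * τ.im}
  have hU : IsOpen U :=
    (isOpen_lt continuous_const Complex.continuous_im).inter (isOpen_lt Complex.continuous_im continuous_const)
  have hτU : (τ : ℂ) ∈ U := by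
    have := τ.im_pos
    constructor <;> simp only [UpperHalfPlane.coe_im] <;> linarith
  let τ₁ : ℍ := ⟨(τ.im / 2 : ℝ) * Complex.I, by simpa using τ.im_pos⟩
  let τ₂ : ℍ := ⟨(2 * τ.im : ℝ) * Complex.I, by simpa using τ.im_pos⟩
  let F : ℤ → ℂ → ℂ := fun i w => s.coeff i * Function.Periodic.qParam L w ^ i
  set c : ℂ := 2 * π * Complex.I / L
  have hq : ∀ w : ℂ, Function.Periodic.qParam L w = cexp (c * w) := fun w => by
    rw [Function.Periodic.qParam]
    congr 1
    simp only [c]
    push_cast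
    ring
  have hFexp : ∀ (i : ℤ) (w : ℂ), F i w = s.coeff i * cexp (i * c * w) := fun i w => by
    simp only [F, hq, ← Complex.exp_int_mul]
    ring_nf
  have hd : ∀ (i : ℤ) (w : ℂ), HasDerivAt (F i) (i * c * F i w) w := fun i w => by
    have h1 := (((hasDerivAt_id w).const_mul ((i : ℂ) * c)).cexp).const_mul (s.coeff i)
    simp only [id_eq, mul_one] at h1
    refine (h1.congr_of_eventuallyEq (Eventually.of_forall fun z => hFexp i z)).congr_deriv ?_
    rw [hFexp]
    ring
  have hbound : ∀ (i : ℤ) (w : ℂ), w ∈ U → ‖F i w‖ ≤ ‖F i τ₁‖ + ‖F i τ₂‖ := fun i w hw => by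
    have hn : ∀ z : ℂ, ‖F i z‖ = ‖s.coeff i‖ * Real.exp (-(i * (2 * π / L) * z.im)) := fun z => by
      rw [hFexp, norm_mul, Complex.norm_exp]
      congr 2
      simp [c, Complex.div_re, Complex.div_im, Complex.mul_re, Complex.mul_im, Complex.normSq]
      left; left
      field_simp
    rw [hn, hn, hn]
    have e1 : (τ₁ : ℂ).im = τ.im / 2 := by simp [τ₁]
    have e2 : (τ₂ : ℂ).im = 2 * τ.im := by simp [τ₂]
    rw [e1, e2]
    rcases le_or_gt 0 i with hi | hi
    · refine le_add_of_le_of_nonneg ?_ (by positivity)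
      gcongr
      exact hw.1.le
    · refine le_add_of_nonneg_of_le (by positivity) ?_
      refine mul_le_mul_of_nonneg_left (Real.exp_le_exp.2 (neg_le_neg ?_)) (norm_nonneg _)
      refine mul_le_mul_of_nonpos_left hw.2.le (mul_nonpos_of_nonpos_of_nonneg ?_ (by positivity))
      exact_mod_cast hi.le
  have H := hasSum_deriv_of_summable_norm ((h.summable_norm τ₁).add (h.summable_norm τ₂))
    (fun i => fun w _ => (hd i w).differentiableAt.differentiableWithinAt) hU hbound hτU
  have hfun : (f ∘ ofComplex) =ᶠ[𝓝 (τ : ℂ)] fun w => ∑' i, F i w :=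
    Filter.eventuallyEq_of_mem (isOpen_upperHalfPlaneSet.mem_nhds τ.im_pos) fun w hw => by
      simp only [Function.comp_apply, ofComplex_apply_of_im_pos hw, h.eq_tsum]
      rfl
  rw [AtP.dSlash, hfun.deriv_eq]
  refine (H.mul_left ((L : ℂ) / (2 * π * Complex.I))).congr_fun fun i => ?_
  rw [(hd i (τ : ℂ)).deriv, thetaOp_coeff]
  simp only [F, c, qL]
  field_simp [Real.pi_ne_zero, Complex.I_ne_zero, NeZero.ne L]

/-- `(1/πi) dλ/dτ`. -/
def dlam : ℍ → ℂ := dSlash 2 lam

lemma differentiableAt_lam (τ : ℍ) : DifferentiableAt ℂ (lam ∘ ofComplex) τ :=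
  (UpperHalfPlane.mdifferentiable_iff.1 mdiff_lam).differentiableAt
    (isOpen_upperHalfPlaneSet.mem_nhds τ.im_pos)

lemma mdiff_dlam : MDiff dlam := by
  have h : DifferentiableOn ℂ (deriv (lam ∘ ofComplex)) upperHalfPlaneSet :=
    (UpperHalfPlane.mdifferentiable_iff.1 mdiff_lam).deriv isOpen_upperHalfPlaneSet
  rw [UpperHalfPlane.mdifferentiable_iff]
  refine (h.const_mul ((2 : ℕ) / (2 * π * Complex.I) : ℂ)).congr fun z hz => ?_
  simp [dlam, dSlash, ofComplex_apply_of_im_pos hz]

lemma dlam_T (τ : ℍ) : dlam (T • τ) = -dlam τ / (lam τ - 1) ^ 2 := by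
  have hd := (differentiableAt_lam τ).hasDerivAt
  have hd' := (differentiableAt_lam (T • τ)).hasDerivAt
  rw [coe_T_smul] at hd'
  have h1 : HasDerivAt (fun w : ℂ => (lam ∘ ofComplex) (w + 1))
      (deriv (lam ∘ ofComplex) (τ + 1)) τ := hd'.comp_add_const _ _
  have hsub : (lam ∘ ofComplex) (τ : ℂ) - 1 ≠ 0 := by
    rw [Function.comp_apply, ofComplex_apply]
    exact sub_ne_zero.2 (lam_ne_one τ)
  have h2 := hd.div (hd.sub_const 1) hsub
  have heq : (fun w : ℂ => (lam ∘ ofComplex) (w + 1)) =ᶠ[𝓝 (τ : ℂ)]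
      fun w => (lam ∘ ofComplex) w / ((lam ∘ ofComplex) w - 1) :=
    Filter.eventuallyEq_of_mem (isOpen_upperHalfPlaneSet.mem_nhds τ.im_pos) fun w hw => by
      simp only [Function.comp_apply, ofComplex_apply_of_im_pos hw,
        ofComplex_apply_of_im_pos (show 0 < (w + 1).im by simpa using hw)]
      rw [← lam_T]
      congr 1
      apply UpperHalfPlane.ext
      rw [coe_T_smul]
  have := h1.unique (h2.congr_of_eventuallyEq heq)
  rw [dlam, dSlash, dSlash, coe_T_smul, this]
  simp only [Function.comp_apply, ofComplex_apply]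
  ring

lemma dlam_S (τ : ℍ) : dlam (S • τ) = -(τ : ℂ) ^ 2 * dlam τ := by
  have hτ : (τ : ℂ) ≠ 0 := ne_zero τ
  have hd := (differentiableAt_lam τ).hasDerivAt
  have hd' := (differentiableAt_lam (S • τ)).hasDerivAt
  rw [coe_S_smul] at hd'
  have hinv : HasDerivAt (fun w : ℂ => -1 / w) (1 / (τ : ℂ) ^ 2) τ := by
    have := (hasDerivAt_inv hτ).const_mul (-1 : ℂ)
    simpa [div_eq_mul_inv, neg_mul] using this
  have h1 := hd'.comp (τ : ℂ) hinv
  have h2 := hd.const_sub 1
  have heq : ((lam ∘ ofComplex) ∘ fun w : ℂ => -1 / w) =ᶠ[𝓝 (τ : ℂ)]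
      fun w => 1 - (lam ∘ ofComplex) w :=
    Filter.eventuallyEq_of_mem (isOpen_upperHalfPlaneSet.mem_nhds τ.im_pos) fun w hw => by
      have e : ofComplex (-1 / w) = S • (⟨w, hw⟩ : ℍ) := by
        rw [show -1 / w = ((S • (⟨w, hw⟩ : ℍ) : ℍ) : ℂ) from (coe_S_smul ⟨w, hw⟩).symm]
        exact ofComplex_apply _
      simp only [Function.comp_apply, e, ofComplex_apply_of_im_pos hw, lam_S]
  have := h1.unique (h2.congr_of_eventuallyEq heq)
  rw [dlam, dSlash, dSlash, coe_S_smul]
  field_simp at this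
  rw [neg_div, this]
  ring

/-- The series of `λ (1 - λ) θ₃⁴`. -/
def dlamPS : PowerSeries ℤ := lamPS * (1 - lamPS) * thFPS

/-- `(1/πi) dλ/dτ = λ (1 - λ) θ₃⁴`. -/
theorem dlam_eq : dlam = lam * (1 - lam) * thF := by
  set W : ℍ → ℂ := fun τ => dlam τ / (lam τ * (1 - lam τ) * thF τ) - 1
  have hne : ∀ τ, lam τ * (1 - lam τ) * thF τ ≠ 0 := fun τ =>
    mul_ne_zero (mul_ne_zero (lam_ne_zero τ) (sub_ne_zero.2 (lam_ne_one τ).symm)) (thF_ne_zero τ)
  have hS : W ∣[(0 : ℤ)] S = W := by
    funext τ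
    have h1 := lam_ne_zero τ
    have h2 : 1 - lam τ ≠ 0 := sub_ne_zero.2 (lam_ne_one τ).symm
    rw [slash_S_apply]
    simp only [W, dlam_S, lam_S, thF_S, neg_zero, zpow_zero, mul_one, sub_sub_cancel]
    field_simp [ne_zero τ, thF_ne_zero τ]
  have hT : W ∣[(0 : ℤ)] T = W := by
    funext τ
    have h1 := lam_ne_zero τ
    have h2 : 1 - lam τ ≠ 0 := sub_ne_zero.2 (lam_ne_one τ).symm
    have h3 : lam τ - 1 ≠ 0 := sub_ne_zero.2 (lam_ne_one τ)
    have hG : thG τ = (1 - lam τ) * thF τ := by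
      rw [one_sub_lam, div_mul_cancel₀ _ (thF_ne_zero τ)]
    have e : 1 - lam τ / (lam τ - 1) = -1 / (lam τ - 1) := by field_simp; ring
    rw [slash_T_apply]
    simp only [W, dlam_T, lam_T, thF_T, hG, e]
    field_simp [thF_ne_zero τ]
  have hm : MDiff W := by
    rw [UpperHalfPlane.mdifferentiable_iff]
    refine ((UpperHalfPlane.mdifferentiable_iff.1 mdiff_dlam).div
      (UpperHalfPlane.mdifferentiable_iff.1
        ((mdiff_lam.mul (mdifferentiable_const.sub mdiff_lam)).mul mdiff_thF))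
      fun z _ => hne _).sub_const 1
  have h0 : IsZeroAtImInfty W := by
    have hr : ∀ (g : ℍ → ℂ) (u : PowerSeries ℤ), HasExp 2 g (ofPS u) →
        PowerSeries.coeff 0 u = 0 → PowerSeries.coeff 1 u = 16 →
        Tendsto (fun τ => g τ * (qL 2 τ) ^ (-1 : ℤ)) atImInfty (𝓝 16) := by
      intro g u hg h0 h1
      have h := (hg.mul (HasExp.single (L := 2) (-1) 1)).tendsto_atImInfty (fun i hi => ?_)
      · rw [HahnSeries.coeff_mul_single, sub_neg_eq_add, zero_add, mul_one,
          show (1 : ℤ) = ((1 : ℕ) : ℤ) from rfl, ofPS_coeff_natCast, h1] at h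
        simpa [Pi.mul_def] using h
      · rw [HahnSeries.coeff_mul_single, mul_one, sub_neg_eq_add]
        rcases lt_or_ge (i + 1) 0 with h | h
        · exact ofPS_coeff_neg _ h
        · rw [show i + 1 = ((0 : ℕ) : ℤ) by push_cast; omega, ofPS_coeff_natCast, h0,
            Int.cast_zero]
    have hd : HasExp 2 dlam (ofPS (PowerSeries.X * PowerSeries.derivative ℤ lamPS)) := by
      have := HasExp.dSlash hasExp_lam
      simp only [ofPS, RingHom.comp_apply, thetaOp_eq_X_mul_derivative] at this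
      change HasExp 2 (AtP.dSlash 2 lam) _
      convert this using 1
      rw [show (ofPS (PowerSeries.X * PowerSeries.derivative ℤ lamPS)) =
        HahnSeries.ofPowerSeries ℤ ℂ (PowerSeries.map (Int.castRingHom ℂ)
          (PowerSeries.X * PowerSeries.derivative ℤ lamPS)) from rfl]
      congr 1
      refine PowerSeries.ext fun n => ?_
      cases n with
      | zero => simp
      | succ n =>
        simp [PowerSeries.coeff_succ_X_mul, PowerSeries.coeff_derivative]
    have hden : HasExp 2 (lam * (1 - lam) * thF) (ofPS dlamPS) := by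
      rw [dlamPS, map_mul, map_mul, map_sub, map_one]
      exact (hasExp_lam.mul (HasExp.one.sub hasExp_lam)).mul hasExp_thF
    have l0 : PowerSeries.coeff 0 dlamPS = 0 := by
      simp [dlamPS, constantCoeff_lamPS]
    have l1 : PowerSeries.coeff 1 dlamPS = 16 := by
      rw [dlamPS, PowerSeries.coeff_one_mul, PowerSeries.coeff_one_mul]
      simp [constantCoeff_lamPS, coeff_one_lamPS, thFPS, constantCoeff_th3PS]
    have d0 : PowerSeries.coeff 0 (PowerSeries.X * PowerSeries.derivative ℤ lamPS) = 0 := by simp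
    have d1 : PowerSeries.coeff 1 (PowerSeries.X * PowerSeries.derivative ℤ lamPS) = 16 := by
      rw [PowerSeries.coeff_succ_X_mul, PowerSeries.coeff_derivative, coeff_one_lamPS]; simp
    have := ((hr _ _ hd d0 d1).div (hr _ _ hden l0 l1) (by norm_num)).sub
      (tendsto_const_nhds (x := (1 : ℂ)))
    rw [div_self (by norm_num), sub_self] at this
    refine this.congr' (Eventually.of_forall fun τ => ?_)
    simp only [W, Pi.div_apply, Pi.mul_apply, Pi.sub_apply, Pi.one_apply]
    rw [mul_div_mul_right _ _ (zpow_ne_zero (-1 : ℤ) (qL_ne_zero 2 τ))]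
  have hz : cuspFormOfST W 0 hm hS hT h0 = 0 :=
    rank_zero_iff_forall_zero.mp (CuspForm.rank_eq_zero_of_weight_lt_twelve (by norm_num)) _
  funext τ
  have h := DFunLike.congr_fun hz τ
  change dlam τ / (lam τ * (1 - lam τ) * thF τ) - 1 = 0 at h
  rw [sub_eq_zero, div_eq_one_iff_eq (hne τ)] at h
  simpa using h

lemma dlam_ne_zero (τ : ℍ) : dlam τ ≠ 0 := by
  rw [dlam_eq]
  exact mul_ne_zero (mul_ne_zero (lam_ne_zero τ) (sub_ne_zero.2 (lam_ne_one τ).symm))
    (thF_ne_zero τ)

/-- The derivative of `λ` vanishes nowhere. -/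
lemma deriv_lam_ne_zero (τ : ℍ) : deriv (lam ∘ ofComplex) τ ≠ 0 :=
  fun h => dlam_ne_zero τ (by simp [dlam, dSlash, h])

/-- The same identity between formal series. -/
theorem thetaOp_lamPS : thetaOp ℂ (ofPS lamPS) = ofPS dlamPS := by
  refine (HasExp.dSlash hasExp_lam).series_eq ?_
  change HasExp 2 dlam (ofPS dlamPS)
  rw [dlam_eq, dlamPS, map_mul, map_mul, map_sub, map_one]
  exact (hasExp_lam.mul (HasExp.one.sub hasExp_lam)).mul hasExp_thF

end Fermat.Agent.AtP
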