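import Fermat.Agent.AtP.SeriesAlgebra
import Fermat.Agent.AtP.LambdaDeriv

/-!
# The logarithmic derivative of a Kummer series is a Hecke eigenseries

If `T̄ s̄ ^ m` is a `p`-th power, `T̄` the Hecke product of `s̄` at a prime `ℓ ≠ p`, and
`a + m = 0`, then `ω = θ s̄ / s̄` satisfies `ω (ℓ n) + ℓ ω (n / ℓ) = a ω n`.
-/

set_option autoImplicit false

noncomputable section

namespace Fermat.Agent.AtP

open ModularCurve (qExpand coeffMap)
open KummerES (twist)
open HahnSeries (single)

/-- `θ = q d/dq`. -/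
abbrev thetaQ {R : Type*} [CommRing R] (s : LaurentSeries R) : LaurentSeries R := thetaOp R s

/-- The coefficients of `θ s`. -/
lemma thetaQ_coeff {R : Type*} [CommRing R] (s : LaurentSeries R) (i : ℤ) :
    (thetaQ s).coeff i = (i : R) * s.coeff i := rfl

/-- The Leibniz rule for `θ`. -/
lemma thetaQ_mul {R : Type*} [CommRing R] (s t : LaurentSeries R) :
    thetaQ (s * t) = thetaQ s * t + s * thetaQ t := by
  rw [thetaQ, thetaOp_mul]; ring

/-- `θ` commutes with maps of coefficients. -/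
lemma coeffMap_thetaQ {R S : Type*} [CommRing R] [CommRing S] (f : R →+* S)
    (s : LaurentSeries R) : coeffMap f (thetaQ s) = thetaQ (coeffMap f s) := by
  ext i; simp

variable {k : Type*} [Field k]

/-- The logarithmic derivative. -/
def serLogDeriv (s : LaurentSeries k) : LaurentSeries k := thetaQ s * s⁻¹

/-- The logarithmic derivative is additive on products. -/
lemma serLogDeriv_mul {s t : LaurentSeries k} (hs : s ≠ 0) (ht : t ≠ 0) :
    serLogDeriv (s * t) = serLogDeriv s + serLogDeriv t := by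
  simp only [serLogDeriv, thetaQ_mul, mul_inv]
  field_simp

@[simp] lemma serLogDeriv_one : serLogDeriv (1 : LaurentSeries k) = 0 := by
  have h := thetaQ_mul (1 : LaurentSeries k) 1
  rw [mul_one, one_mul, mul_one] at h
  rw [serLogDeriv, show thetaQ (1 : LaurentSeries k) = 0 from left_eq_add.mp h, zero_mul]

/-- The logarithmic derivative of a power. -/
lemma serLogDeriv_pow {s : LaurentSeries k} (hs : s ≠ 0) :
    ∀ n : ℕ, serLogDeriv (s ^ n) = (n : LaurentSeries k) * serLogDeriv s
  | 0 => by simp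
  | n + 1 => by
    rw [pow_succ, serLogDeriv_mul (pow_ne_zero _ hs) hs, serLogDeriv_pow hs n]
    push_cast
    ring

lemma serLogDeriv_prod {ι : Type*} (T : Finset ι) {f : ι → LaurentSeries k} (hf : ∀ i ∈ T, f i ≠ 0) :
    serLogDeriv (∏ i ∈ T, f i) = ∑ i ∈ T, serLogDeriv (f i) := by
  classical
  induction T using Finset.induction_on with
  | empty => simp
  | insert a T ha ih =>
    rw [Finset.prod_insert ha, Finset.sum_insert ha,
      serLogDeriv_mul (hf a (Finset.mem_insert_self a T))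
        (Finset.prod_ne_zero_iff.mpr fun i hi => hf i (Finset.mem_insert_of_mem hi)),
      ih fun i hi => hf i (Finset.mem_insert_of_mem hi)]

lemma serLogDeriv_twist (z : k) (hz : z ≠ 0) (s : LaurentSeries k) :
    serLogDeriv (twist z hz s) = twist z hz (serLogDeriv s) := by
  rw [serLogDeriv, serLogDeriv, map_mul, map_inv₀]
  congr 1
  ext i
  simp [mul_left_comm]

/-- The logarithmic derivative of a series in `q ^ e`. -/
lemma serLogDeriv_qExpand (e : ℕ) [NeZero e] (s : LaurentSeries k) :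
    serLogDeriv (qExpand k e s) = (e : LaurentSeries k) * qExpand k e (serLogDeriv s) := by
  rw [serLogDeriv, serLogDeriv, map_mul, map_inv₀, ← mul_assoc]
  congr 1
  ext i
  rw [thetaQ_coeff, ← map_natCast (HahnSeries.C : k →+* LaurentSeries k), HahnSeries.C_apply,
    HahnSeries.coeff_single_mul, sub_zero]
  by_cases hi : (e : ℤ) ∣ i
  · obtain ⟨m, rfl⟩ := hi
    rw [ModularCurve.qExpand_coeff_mul, ModularCurve.qExpand_coeff_mul, thetaQ_coeff]
    push_cast
    ring
  · rw [ModularCurve.qExpand_coeff_of_not_dvd _ _ hi, ModularCurve.qExpand_coeff_of_not_dvd _ _ hi,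
      mul_zero, mul_zero]

/-- The eigen-relation of the logarithmic derivative. -/
theorem serLogDeriv_hecke {p ℓ : ℕ} [CharP k p] [hℓ : Fact ℓ.Prime] (hℓp : (ℓ : k) ≠ 0) {z : k}
    (hz : IsPrimitiveRoot z ℓ) {s T H : LaurentSeries k} (hs : s ≠ 0) (hH : H ≠ 0)
    (hT : qExpand k ℓ T = (∏ j : Fin ℓ, twist (z ^ (j : ℕ))
      (pow_ne_zero _ (hz.ne_zero hℓ.out.ne_zero)) s) * qExpand k (ℓ * ℓ) s)
    {m : ℕ} {a : k} (ha : a + m = 0) (he : T * s ^ m = H ^ p) (n : ℤ) :
    (serLogDeriv s).coeff (ℓ * n) +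
      (ℓ : k) * (if (ℓ : ℤ) ∣ n then (serLogDeriv s).coeff (n / ℓ) else 0)
      = a * (serLogDeriv s).coeff n := by
  have hl0 := hℓ.out.ne_zero
  have hprod : (∏ j : Fin ℓ, twist (z ^ (j : ℕ))
      (pow_ne_zero _ (hz.ne_zero hl0)) s) ≠ 0 :=
    Finset.prod_ne_zero_iff.mpr fun j _ => (map_ne_zero _).mpr hs
  have hT0 : T ≠ 0 := fun h0 => by
    rw [h0, map_zero] at hT
    exact mul_ne_zero hprod ((map_ne_zero _).mpr hs) hT.symm
  have hp0 : ((p : ℕ) : LaurentSeries k) = 0 := by
    rw [← map_natCast (HahnSeries.C : k →+* LaurentSeries k), CharP.cast_eq_zero, map_zero]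
  have h1 := congrArg serLogDeriv he
  rw [serLogDeriv_mul hT0 (pow_ne_zero _ hs), serLogDeriv_pow hs, serLogDeriv_pow hH, hp0, zero_mul] at h1
  have hTn : (serLogDeriv T).coeff n = a * (serLogDeriv s).coeff n := by
    have h2 := congrArg (fun t : LaurentSeries k => t.coeff n) h1
    simp only [← map_natCast (HahnSeries.C : k →+* LaurentSeries k), HahnSeries.C_apply,
      HahnSeries.coeff_add, HahnSeries.coeff_single_mul, sub_zero, 
      HahnSeries.coeff_zero] at h2
    linear_combination h2 - (serLogDeriv s).coeff n * ha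
  have h3 := congrArg (fun t : LaurentSeries k => (serLogDeriv t).coeff ((ℓ : ℤ) * n)) hT
  rw [serLogDeriv_mul hprod ((map_ne_zero _).mpr hs), serLogDeriv_prod _ fun j _ => (map_ne_zero _).mpr hs,
    serLogDeriv_qExpand, serLogDeriv_qExpand] at h3
  simp only [serLogDeriv_twist, ← map_natCast (HahnSeries.C : k →+* LaurentSeries k),
    HahnSeries.C_apply, HahnSeries.coeff_add, HahnSeries.coeff_sum, HahnSeries.coeff_single_mul,
    sub_zero, KummerES.twist_coeff, ModularCurve.qExpand_coeff_mul] at h3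
  have htw : ∀ j : Fin ℓ, (z ^ (j : ℕ)) ^ ((ℓ : ℤ) * n) = 1 := fun j => by
    rw [zpow_mul, zpow_natCast, ← pow_mul, mul_comm (j : ℕ), pow_mul, hz.pow_eq_one, one_pow,
      one_zpow]
  simp only [htw, one_mul, Finset.sum_const, Finset.card_univ, Fintype.card_fin,
    nsmul_eq_mul] at h3
  have h4 : (qExpand k (ℓ * ℓ) (serLogDeriv s)).coeff ((ℓ : ℤ) * n)
      = if (ℓ : ℤ) ∣ n then (serLogDeriv s).coeff (n / ℓ) else 0 := by
    split_ifs with hd
    · obtain ⟨m', rfl⟩ := hd
      rw [Int.mul_ediv_cancel_left _ (by exact_mod_cast hl0),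
        show (ℓ : ℤ) * (ℓ * m') = ((ℓ * ℓ : ℕ) : ℤ) * m' by push_cast; ring,
        ModularCurve.qExpand_coeff_mul]
    · refine ModularCurve.qExpand_coeff_of_not_dvd _ _ fun hd' => hd ?_
      push_cast at hd'
      exact (mul_dvd_mul_iff_left (by exact_mod_cast hl0)).mp hd'
  rw [h4, hTn] at h3
  refine mul_left_cancel₀ hℓp ?_
  push_cast at h3 ⊢
  linear_combination -h3

end Fermat.Agent.AtP
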