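import Fermat.Agent.AtP.AssemblyDefs
import Fermat.Agent.AtP.PointsDeriv
import Fermat.Agent.AtP.SeriesTheta
import Fermat.Agent.AtP.DiffLiftEigen

/-!
# The logarithmic derivative of the function gives a congruent eigenform

`f̄ = ā / d̄` is a unit times a `p`-th power in every disc and at every cusp, so `df̄ / f̄` is a
differential without poles, invariant under `Γ₀(M)`, whose expansion at `∞` is an eigenseries.
-/

set_option autoImplicit false

noncomputable section

open CongruenceSubgroup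
open scoped MatrixGroups
open Fermat.Agent.KummerES
open ModularCurve (coeffMap qExpand)
open IsLocalRing (residue ResidueField)
open Fermat.Agent.LevelLowering (CofiniteResModular)

namespace Fermat.Agent.AtP

/-! ## Field lemmas -/

section Aux

variable {k : Type*} [Field k]

/-- A derivation kills `p`-th powers in characteristic `p`. -/
lemma deriv_pow_char {R : Type*} [CommRing R] (p : ℕ) [CharP R p] (δ : R →+ R)
    (hδ : ∀ x y, δ (x * y) = δ x * y + x * δ y) (x : R) : δ (x ^ p) = 0 := by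
  have h : ∀ m : ℕ, δ (x ^ (m + 1)) = ((m + 1 : ℕ) : R) * x ^ m * δ x := fun m => by
    induction m with
    | zero => simp
    | succ m ih =>
      rw [pow_succ, hδ, ih]
      push_cast
      ring
  cases p with
  | zero =>
    have := hδ 1 1
    simp at this
    rw [pow_zero, this]
  | succ m => rw [h, CharP.cast_eq_zero, zero_mul, zero_mul]

/-- `d/dt` of `ā/d̄` over `ā/d̄` is regular where `ā/d̄` is a unit times a `p`-th power. -/
lemma num_eq_mul {R : Type*} [CommRing R] [IsDomain R] (p : ℕ) [CharP R p] (δ : R →+ R)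
    (hδ : ∀ x y, δ (x * y) = δ x * y + x * δ y) {x y U G E N t' ti Ui : R} (hE : E ≠ 0)
    (h : x * E ^ p = y * U * G ^ p) (hN : δ x * y - x * δ y = N * t') (ht : t' * ti = 1)
    (hU : U * Ui = 1) : N = x * y * (δ U * Ui * ti) := by
  have h' := congrArg δ h
  rw [hδ, hδ, hδ, deriv_pow_char p δ hδ, deriv_pow_char p δ hδ, mul_zero, mul_zero, add_zero,
    add_zero] at h'
  refine mul_left_cancel₀ (pow_ne_zero p hE) ?_
  linear_combination (-(N * E ^ p)) * ht - (ti * E ^ p) * hN + (y * ti) * h' - (δ y * ti) * h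
    - (y * δ U * Ui * ti) * h - (y ^ 2 * δ U * G ^ p * ti) * hU

lemma theta_eq_thetaQ {R : Type*} [CommRing R] (s : LaurentSeries R) :
    ModularFunctionField.theta s = thetaQ s := by
  ext i; simp

lemma thetaOp_leibniz {R : Type*} [CommRing R] (x y : LaurentSeries R) :
    thetaOp R (x * y) = thetaOp R x * y + x * thetaOp R y := thetaQ_mul x y

/-- The logarithmic derivative of an invertible power series has no terms of degree `≤ 0`. -/
lemma serLogDeriv_ofPowerSeries {U : PowerSeries k} (hU : IsUnit U) {i : ℤ} (hi : i ≤ 0) :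
    (serLogDeriv (HahnSeries.ofPowerSeries ℤ k U)).coeff i = 0 := by
  obtain ⟨V, hV⟩ := hU.exists_right_inv
  set θU : PowerSeries k := PowerSeries.mk fun n => (n : k) * PowerSeries.coeff n U
  have hθ : thetaQ (HahnSeries.ofPowerSeries ℤ k U) = HahnSeries.ofPowerSeries ℤ k θU := by
    ext j
    rw [thetaQ_coeff]
    rcases lt_or_ge j 0 with hj | hj
    · rw [HahnSeries.ofPowerSeries_apply, HahnSeries.ofPowerSeries_apply,
        HahnSeries.embDomain_of_notMem_range, HahnSeries.embDomain_of_notMem_range, mul_zero] <;>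
      · rintro ⟨n, hn⟩
        simp at hn
        omega
    · lift j to ℕ using hj
      simp [θU, HahnSeries.ofPowerSeries_apply_coeff]
  have hinv : (HahnSeries.ofPowerSeries ℤ k U)⁻¹ = HahnSeries.ofPowerSeries ℤ k V :=
    inv_eq_of_mul_eq_one_right (by rw [← map_mul, hV, map_one])
  rw [serLogDeriv, hθ, hinv, ← map_mul]
  rcases hi.lt_or_eq with hj | rfl
  · rw [HahnSeries.ofPowerSeries_apply, HahnSeries.embDomain_of_notMem_range]
    rintro ⟨n, hn⟩
    simp at hn
    omega
  · rw [show (0 : ℤ) = ((0 : ℕ) : ℤ) from rfl, HahnSeries.ofPowerSeries_apply_coeff,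
      PowerSeries.coeff_zero_eq_constantCoeff_apply, map_mul]
    simp [θU]

end Aux

namespace Coeff

variable {p : ℕ} [hp : Fact p.Prime] (C : Coeff p) {M : ℕ} [NeZero M]

/-- The reduced expansion at the cusp `δ ∞`. -/
def expR (δ : SL(2, ℤ)) : LRing (2 * M) C.B →+* LaurentSeries (ResidueField C.B) :=
  (coeffMap (residue C.B)).comp (expB (2 * M) C.B δ)

omit hp in
/-- The uniformiser reduces to zero. -/
lemma residue_unif : residue C.B C.unif = 0 :=
  (IsLocalRing.residue_eq_zero_iff _).2 C.unif_mem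

omit hp in
/-- The kernel of the reduction is generated by the uniformiser. -/
lemma residue_eq_zero_iff_dvd (r : C.B) : residue C.B r = 0 ↔ C.unif ∣ r := by
  rw [IsLocalRing.residue_eq_zero_iff, C.irred.maximalIdeal_eq, Ideal.mem_span_singleton]

omit hp in
lemma expR_piA (δ : SL(2, ℤ)) : C.expR δ (C.piA M) = 0 := by
  rw [expR, RingHom.comp_apply, piA, expB_constL, HahnSeries.C_apply, ModularCurve.coeffMap_single]
  exact (congrArg _ C.residue_unif).trans (HahnSeries.single_eq_zero)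

lemma expR_ne_zero (hp2 : p ≠ 2) (hpM : ¬ p ∣ M) {a : LRing (2 * M) C.B} (ha : ¬ C.piA M ∣ a)
    (δ : SL(2, ℤ)) : C.expR δ a ≠ 0 := fun h =>
  ha (Ideal.mem_span_singleton.1
    (((C.levelHyp hp2 hpM).specialFibre (C.coeffHyp hp2 hpM)).mem_span δ a
      ((kerAt_iff_dvd C.unif.2 δ a).2
        (DiffLift.C_dvd_of_coeffMap_eq_zero (residue C.B) C.unif C.residue_eq_zero_iff_dvd h))))

/-- The chart with coordinate `1 / λ`. -/
abbrev lamChartA : Chart 2 (2 * M) := lamChart (2 * M) (Dvd.intro M rfl)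

lemma tL_levelHyp (hp2 : p ≠ 2) (hpM : ¬ p ∣ M) :
    Points.tL (C.levelHyp (M := M) hp2 hpM) =
      DiffLift.chartTL (lamChartA (M := M)) (C.levelHyp hp2 hpM).le := Subtype.ext rfl

/-- The reduced expansion of a differential `c θ t` at a cusp. -/
lemma coeffMap_diffExp (hp2 : p ≠ 2) (hpM : ¬ p ∣ M) (δ : SL(2, ℤ)) (c : LRing (2 * M) C.B) :
    coeffMap (residue C.B) (DiffLift.diffExp lamChartA (C.levelHyp hp2 hpM).le δ c) =
      C.expR δ c * thetaQ (C.expR δ (Points.tL (C.levelHyp hp2 hpM))) := by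
  rw [DiffLift.diffExp, ← C.tL_levelHyp hp2 hpM, map_mul, theta_eq_thetaQ, coeffMap_thetaQ]
  rfl

omit [NeZero M] in
lemma natCast_two_mul_ne_zero (hp2 : p ≠ 2) (hpM : ¬ p ∣ M) :
    ((2 * M : ℕ) : ResidueField C.B) ≠ 0 := fun h =>
  haveI := C.charP
  not_dvd_two_mul hp2 hpM ((CharP.cast_eq_zero_iff (ResidueField C.B) p _).1 h)

/-- **`df̄ / f̄` is `c̄ dt`.** -/
theorem exists_logDiff (hp2 : p ≠ 2) (hpM : ¬ p ∣ M) {a d : LRing (2 * M) C.B}
    (ha : ¬ C.piA M ∣ a) (hd₀ : ¬ C.piA M ∣ d) (hd : C.DiscPow hp2 hpM a d) :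
    ∃ c : LRing (2 * M) C.B, ∀ δ : SL(2, ℤ),
      coeffMap (residue C.B) (DiffLift.diffExp lamChartA (C.levelHyp hp2 hpM).le δ c) =
        serLogDeriv (coeffMap (residue C.B) (expB (2 * M) C.B δ a)) -
          serLogDeriv (coeffMap (residue C.B) (expB (2 * M) C.B δ d)) := by
  have := C.charP
  set H := C.levelHyp (M := M) hp2 hpM with hH
  have hB := C.coeffHyp (M := M) hp2 hpM
  obtain ⟨a', ha'⟩ := Points.exists_deriv H hB a
  obtain ⟨d', hd'⟩ := Points.exists_deriv H hB d
  have hN : ∀ (R : Type) [CommRing R] (e : LRing (2 * M) C.B →+* R) (δ : R →+ R),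
      (∀ x y, δ (x * y) = δ x * y + x * δ y) → e (C.piA M) = 0 →
      (∀ c, δ (e (Points.cstL H c)) = 0) →
      δ (e a) * e d - e a * δ (e d) = e (a' * d - a * d') * δ (e (Points.tL H)) := by
    intro R _ e δ hδ hπ hc
    rw [ha' R e δ hδ hπ hc, hd' R e δ hδ hπ hc, map_sub, map_mul, map_mul]
    ring
  have had : ¬ Points.piL (L := 2 * M) hB ∣ a * d := fun h =>
    ((C.prime_piA hp2 hpM).dvd_mul.1 h).elim ha hd₀
  obtain ⟨c, hc⟩ := Points.exists_dvd_sub_one H hB (a := a' * d - a * d') had fun s hs => by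
    obtain ⟨ψ, hψ, U, G, E, hU, hG, hE, he⟩ := hd s hs
    refine ⟨ψ, hψ, ?_⟩
    have : CharP (PowerSeries (ResidueField C.B)) p :=
      charP_of_injective_ringHom PowerSeries.C_injective p
    let δ : PowerSeries (ResidueField C.B) →+ PowerSeries (ResidueField C.B) :=
      (PowerSeries.derivative (ResidueField C.B)).toLinearMap.toAddMonoidHom
    have hδ : ∀ x y, δ (x * y) = δ x * y + x * δ y := fun x y => by
      show PowerSeries.derivative _ (x * y) = _
      rw [Derivation.leibniz]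
      simp [δ]
      ring
    have hcst : ∀ b, δ (Points.redPS (ψ (Points.cstL H b))) = 0 := fun b => by
      rw [hψ.const, Points.redPS, PowerSeries.map_C]
      exact PowerSeries.derivative_C
    have hN' := hN _ (Points.redPS.comp ψ) δ hδ (hψ.redPS_piL hB) hcst
    have ht : IsUnit (δ (Points.redPS (ψ (Points.tL H)))) := by
      rw [PowerSeries.isUnit_iff_constantCoeff, ← PowerSeries.coeff_zero_eq_constantCoeff_apply]
      refine isUnit_iff_ne_zero.2 ?_
      show PowerSeries.coeff 0 (PowerSeries.derivative _ _) ≠ 0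
      rw [PowerSeries.coeff_derivative, Points.redPS, PowerSeries.coeff_map]
      simpa using hψ.param
    obtain ⟨ti, hti⟩ := ht.exists_right_inv
    obtain ⟨Ui, hUi⟩ := hU.exists_right_inv
    refine ⟨δ U * Ui * ti, ?_⟩
    have := num_eq_mul p δ hδ hE he hN' hti hUi
    rw [map_mul, map_mul]
    exact this
  obtain ⟨u, hu⟩ := hc
  refine ⟨c, fun g => ?_⟩
  set e := C.expR (M := M) g with he'
  show _ = serLogDeriv (e a) - serLogDeriv (e d)
  have hd0 : e d ≠ 0 := C.expR_ne_zero hp2 hpM hd₀ g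
  have ha0 : e a ≠ 0 := C.expR_ne_zero hp2 hpM ha g
  have hcst : ∀ b, thetaOp (ResidueField C.B) (e (Points.cstL H b)) = 0 := fun b => by
    rw [Points.cstL_apply]
    rw [he', expR, RingHom.comp_apply, expB_constL, HahnSeries.C_apply, ModularCurve.coeffMap_single]
    ext i
    rcases eq_or_ne i 0 with rfl | hi <;> simp [*]
  have hN' := hN _ e (thetaOp _) thetaOp_leibniz (C.expR_piA g) hcst
  have he : e (a' * d - a * d') = e c * (e a * e d) := by
    have h := congrArg e hu
    rw [map_sub, map_mul e c, map_mul e a d, map_mul] at h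
    rw [show e (Points.piL (L := 2 * M) hB) = 0 from C.expR_piA g, zero_mul, sub_eq_zero] at h
    exact h
  rw [C.coeffMap_diffExp hp2 hpM, serLogDeriv, serLogDeriv]
  rw [he] at hN'
  field_simp
  linear_combination -hN'

/-- The differential `df̄ / f̄`: regular at the cusps, invariant under `Γ₀(M)`, nonzero and eigen. -/
theorem exists_eigenDifferential (hp2 : p ≠ 2) (hpM : ¬ p ∣ M) {a d : LRing (2 * M) C.B}
    (ha : ¬ C.piA M ∣ a) (hd₀ : ¬ C.piA M ∣ d) (hd : C.DiscPow hp2 hpM a d) (hc : C.CuspPow a d)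
    (hinv : C.RedInvariant M a d) (sbar : LaurentSeries (ResidueField C.B))
    (hs : coeffMap (residue C.B) (C.expA M a) =
      coeffMap (residue C.B) (C.expA M d) * qExpand (ResidueField C.B) (2 * M) sbar)
    (hw : serLogDeriv sbar ≠ 0) (W : WeierstrassCurve ℤ) (S : Finset ℕ)
    (heig : ∀ ℓ : ℕ, ℓ.Prime → ℓ ∉ S → ∀ n : ℤ,
      (serLogDeriv sbar).coeff (ℓ * n) + (ℓ : ResidueField C.B) *
          (if (ℓ : ℤ) ∣ n then (serLogDeriv sbar).coeff (n / ℓ) else 0) =
        (W.apOfModel ℓ : ResidueField C.B) * (serLogDeriv sbar).coeff n) :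
    ∃ c : LRing (2 * M) C.B,
      (∀ (δ : SL(2, ℤ)) (i : ℤ), i ≤ 0 → residue C.B
        ((DiffLift.diffExp lamChartA (C.levelHyp hp2 hpM).le δ c).coeff i) = 0) ∧
      (∀ γ ∈ Gamma0 M, ∀ δ,
        coeffMap (residue C.B) (DiffLift.diffExp lamChartA (C.levelHyp hp2 hpM).le (γ * δ) c) =
          coeffMap (residue C.B) (DiffLift.diffExp lamChartA (C.levelHyp hp2 hpM).le δ c)) ∧
      coeffMap (residue C.B) (DiffLift.diffExp lamChartA (C.levelHyp hp2 hpM).le 1 c) ≠ 0 ∧
      ∀ ℓ, ℓ.Prime → ℓ ∉ S → ∀ n : ℕ,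
        residue C.B ((DiffLift.diffExp lamChartA (C.levelHyp hp2 hpM).le 1 c).coeff
            (((2 * M : ℕ) : ℤ) * (ℓ * n : ℕ))) +
          (if ℓ ∣ n then (ℓ : ResidueField C.B) *
            residue C.B ((DiffLift.diffExp lamChartA (C.levelHyp hp2 hpM).le 1 c).coeff
              (((2 * M : ℕ) : ℤ) * (n / ℓ : ℕ))) else 0) =
          (W.apOfModel ℓ : ResidueField C.B) *
            residue C.B ((DiffLift.diffExp lamChartA (C.levelHyp hp2 hpM).le 1 c).coeff
              (((2 * M : ℕ) : ℤ) * n)) := by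
  classical
  have := C.charP
  obtain ⟨c, hcδ⟩ := C.exists_logDiff hp2 hpM ha hd₀ hd
  set H := C.levelHyp (M := M) hp2 hpM
  have hne : ∀ {x : LRing (2 * M) C.B}, ¬ C.piA M ∣ x → ∀ δ : SL(2, ℤ),
      coeffMap (residue C.B) (expB (2 * M) C.B δ x) ≠ 0 :=
    fun hx δ => C.expR_ne_zero hp2 hpM hx δ
  -- no poles at the cusps
  have hcusp : ∀ (δ : SL(2, ℤ)) (i : ℤ), i ≤ 0 →
      residue C.B ((DiffLift.diffExp lamChartA H.le δ c).coeff i) = 0 := fun δ i hi => by
    obtain ⟨U, G, E, hU, hG, hE, he⟩ := hc δ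
    have hU0 : HahnSeries.ofPowerSeries ℤ (ResidueField C.B) U ≠ 0 :=
      (hU.map (HahnSeries.ofPowerSeries ℤ (ResidueField C.B))).ne_zero
    have hp0 : ((p : ℕ) : LaurentSeries (ResidueField C.B)) = 0 := by
      rw [← map_natCast (HahnSeries.C (Γ := ℤ) (R := ResidueField C.B)), CharP.cast_eq_zero,
        map_zero]
    have h := congrArg serLogDeriv he
    rw [serLogDeriv_mul (hne ha δ) (pow_ne_zero _ hE),
      serLogDeriv_mul (mul_ne_zero (hne hd₀ δ) hU0) (pow_ne_zero _ hG),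
      serLogDeriv_mul (hne hd₀ δ) hU0, serLogDeriv_pow hE, serLogDeriv_pow hG, hp0, zero_mul,
      zero_mul, add_zero, add_zero, ← sub_eq_iff_eq_add'] at h
    rw [← ModularCurve.coeffMap_coeff (residue C.B), hcδ]
    exact (congrArg (fun z : LaurentSeries _ => z.coeff i) h).trans
      (serLogDeriv_ofPowerSeries hU hi)
  -- invariance
  have hinv' : ∀ γ ∈ Gamma0 M, ∀ δ,
      coeffMap (residue C.B) (DiffLift.diffExp lamChartA H.le (γ * δ) c) =
        coeffMap (residue C.B) (DiffLift.diffExp lamChartA H.le δ c) := fun γ hγ δ => by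
    have h := congrArg serLogDeriv (hinv γ hγ δ)
    rw [map_mul, map_mul] at h
    rw [serLogDeriv_mul (hne ha (γ * δ)) (hne hd₀ δ),
      serLogDeriv_mul (hne ha δ) (hne hd₀ (γ * δ))] at h
    rw [hcδ, hcδ, sub_eq_sub_iff_add_eq_add]
    exact h
  -- the expansion at infinity
  set w := serLogDeriv sbar with hw'
  have hs0 : qExpand (ResidueField C.B) (2 * M) sbar ≠ 0 := fun h0 =>
    hne ha 1 (hs.trans (by rw [h0, mul_zero]))
  have hone : coeffMap (residue C.B) (DiffLift.diffExp lamChartA H.le 1 c) =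
      HahnSeries.C ((2 * M : ℕ) : ResidueField C.B) * qExpand (ResidueField C.B) (2 * M) w := by
    rw [hcδ, show coeffMap (residue C.B) (expB (2 * M) C.B 1 a) = coeffMap (residue C.B) (expB (2 * M) C.B 1 d) * qExpand (ResidueField C.B) (2 * M) sbar from hs,
      serLogDeriv_mul (hne hd₀ 1) hs0, add_sub_cancel_left, serLogDeriv_qExpand, map_natCast]
  have hL0 : ((2 * M : ℕ) : ResidueField C.B) ≠ 0 := C.natCast_two_mul_ne_zero hp2 hpM
  have hcoef : ∀ n : ℕ, residue C.B ((DiffLift.diffExp lamChartA H.le 1 c).coeff (((2 * M : ℕ) : ℤ) * n)) =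
      ((2 * M : ℕ) : ResidueField C.B) * w.coeff n := fun n => by
    rw [← ModularCurve.coeffMap_coeff (residue C.B), hone, HahnSeries.C_apply,
      HahnSeries.coeff_single_mul, sub_zero, ModularCurve.qExpand_coeff_mul]
  have hne1 : coeffMap (residue C.B) (DiffLift.diffExp lamChartA H.le 1 c) ≠ 0 := by
    rw [hone]
    exact mul_ne_zero ((map_ne_zero_iff _ HahnSeries.C_injective).2 hL0) ((map_ne_zero _).2 hw)
  have heig' : ∀ ℓ, ℓ.Prime → ℓ ∉ S → ∀ n : ℕ,
      residue C.B ((DiffLift.diffExp lamChartA H.le 1 c).coeff (((2 * M : ℕ) : ℤ) * (ℓ * n : ℕ))) +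
        (if ℓ ∣ n then (ℓ : ResidueField C.B) *
          residue C.B ((DiffLift.diffExp lamChartA H.le 1 c).coeff (((2 * M : ℕ) : ℤ) * (n / ℓ : ℕ)))
          else 0) =
        (W.apOfModel ℓ : ResidueField C.B) *
          residue C.B ((DiffLift.diffExp lamChartA H.le 1 c).coeff (((2 * M : ℕ) : ℤ) * n)) := fun ℓ hℓ hℓS n => by
    have h := heig ℓ hℓ hℓS (n : ℤ)
    rw [hcoef, hcoef, hcoef]
    simp only [Int.natCast_dvd_natCast, ← Int.natCast_ediv, ← Nat.cast_mul] at h
    split_ifs at h ⊢ <;> linear_combination ((2 * M : ℕ) : ResidueField C.B) * h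
  exact ⟨c, hcusp, hinv', hne1, heig'⟩

/-- **The congruent eigenform from the differential.** -/
theorem cofiniteResModular_of_discPow (hp2 : p ≠ 2) (hpM : ¬ p ∣ M) {a d : LRing (2 * M) C.B}
    (ha : ¬ C.piA M ∣ a) (hd₀ : ¬ C.piA M ∣ d) (hd : C.DiscPow hp2 hpM a d) (hc : C.CuspPow a d)
    (hinv : C.RedInvariant M a d) (sbar : LaurentSeries (ResidueField C.B))
    (hs : coeffMap (residue C.B) (C.expA M a) =
      coeffMap (residue C.B) (C.expA M d) * qExpand (ResidueField C.B) (2 * M) sbar)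
    (hw : serLogDeriv sbar ≠ 0) (W : WeierstrassCurve ℤ) (S : Finset ℕ)
    (heig : ∀ ℓ : ℕ, ℓ.Prime → ℓ ∉ S → ∀ n : ℤ,
      (serLogDeriv sbar).coeff (ℓ * n) + (ℓ : ResidueField C.B) *
          (if (ℓ : ℤ) ∣ n then (serLogDeriv sbar).coeff (n / ℓ) else 0) =
        (W.apOfModel ℓ : ResidueField C.B) * (serLogDeriv sbar).coeff n) :
    (p = 3 ∧ Odd M → CofiniteResModular W p (2 * M)) ∧
      (¬ (p = 3 ∧ Odd M) → CofiniteResModular W p M) := by
  classical
  have := C.charP
  obtain ⟨c, hcusp, hinv', hne1, heig'⟩ :=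
    C.exists_eigenDifferential hp2 hpM ha hd₀ hd hc hinv sbar hs hw W S heig
  set H := C.levelHyp (M := M) hp2 hpM
  have hB := C.coeffHyp (M := M) hp2 hpM
  have main : ∀ M' : ℕ, NeZero M' → Gamma0 M' ≤ Gamma0 M → M' ∣ 2 * M →
      (2 ∣ M' ∨ IsUnit (6 : C.B)) → CofiniteResModular W p M' := fun M' _ hle hdvd hidx =>
    DiffLift.cofiniteResModular_of_differential hp.out lamChartA (residue C.B) C.unif H hB
      IsLocalRing.residue_surjective C.residue_eq_zero_iff_dvd hdvd hidx c hcusp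
      (fun γ hγ δ => hinv' γ (hle hγ) δ) hne1 W S heig'
  refine ⟨fun _ => main (2 * M) inferInstance (fun γ hγ => ?_) dvd_rfl (Or.inl (dvd_mul_right 2 M)),
    fun h3 => main M inferInstance le_rfl (dvd_mul_left M 2) ?_⟩
  · rw [Gamma0_mem, ZMod.intCast_zmod_eq_zero_iff_dvd] at hγ ⊢
    exact (Int.natCast_dvd_natCast.2 (dvd_mul_left M 2)).trans hγ
  · rcases eq_or_ne p 3 with h | h
    · exact Or.inl (even_iff_two_dvd.1 (Nat.not_odd_iff_even.1 fun hM => h3 ⟨h, hM⟩))
    · refine Or.inr (IsLocalRing.residue_ne_zero_iff_isUnit _ |>.1 ?_)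
      rw [map_ofNat]
      intro h6
      have h6' : p ∣ 2 * 3 := (CharP.cast_eq_zero_iff (ResidueField C.B) p 6).1 (by exact_mod_cast h6)
      exact ((hp.out.dvd_mul).1 h6').elim
        (fun h2 => hp2 ((Nat.prime_dvd_prime_iff_eq hp.out Nat.prime_two).1 h2))
        (fun h3' => h ((Nat.prime_dvd_prime_iff_eq hp.out Nat.prime_three).1 h3'))

end Coeff

end Fermat.Agent.AtP
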