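import Fermat.Agent.AtP.AssemblyVPoly
import Fermat.Agent.AtP.AssemblyDefs
import Fermat.Agent.AtP.AssemblyCertificate
import Mathlib.RingTheory.Henselian

/-!
# The discs off the supersingular points

There `λ'(τ)/λ'(pτ)` has a root in `B⟦T⟧` simple modulo `ϖ`, the congruence passes to the disc, and
the certificate makes the reduction a unit times a `p`-th power.
-/

set_option autoImplicit false

noncomputable section

open UpperHalfPlane CongruenceSubgroup
open Polynomial hiding comp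
open scoped MatrixGroups
open Fermat.Agent.KummerES
open ModularCurve (qExpand coeffMap)
open IsLocalRing (residue ResidueField maximalIdeal)

namespace Fermat.Agent.AtP

namespace Coeff

attribute [local instance] isDomain_LRing

variable {p : ℕ} [hp : Fact p.Prime] (C : Coeff p) {M : ℕ} [NeZero M] (hp2 : p ≠ 2) (hpM : ¬ p ∣ M)

omit hp in
/-- Power series over the coefficients are integrally closed. -/
lemma isIntegrallyClosed_powerSeries : IsIntegrallyClosed (PowerSeries C.B) := by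
  classical
  let := UniqueFactorizationMonoid.strongNormalizationMonoid (α := PowerSeries C.B)
  let := UniqueFactorizationMonoid.toNormalizedGCDMonoid (PowerSeries C.B)
  infer_instance

variable {C hp2 hpM}

lemma residue_constantCoeff_polyLam {s : LRing (2 * M) C.B →+* ResidueField C.B}
    [CharP (ResidueField C.B) p] (R : R2[X]) :
    s (C.polyLam hp2 hpM R) = (R.map (red2 hp2)).eval₂
      (ZMod.castHom dvd_rfl (ResidueField C.B)) (s (C.lamL hp2 hpM)) := by
  rw [C.polyLam_eq, eval₂_map]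
  congr 1
  exact R2_ringHom_ext _ _

lemma point_piA {s : LRing (2 * M) C.B →+* ResidueField C.B}
    (hs : Points.IsPoint (C.levelHyp hp2 hpM) s) : s (C.piA M) = 0 := by
  rw [show C.piA M = Points.cstL (C.levelHyp hp2 hpM) C.unif from rfl, hs,
    IsLocalRing.residue_eq_zero_iff]
  exact C.unif_mem

/-- The value of `λ` at a point is the inverse of that of the coordinate. -/
theorem point_lamL_mul_tL (s : LRing (2 * M) C.B →+* ResidueField C.B) :
    s (C.lamL hp2 hpM) * s (Points.tL (C.levelHyp hp2 hpM)) = 1 := by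
  have h : C.lamL hp2 hpM * Points.tL (C.levelHyp hp2 hpM) = 1 := Subtype.ext (funext fun τ => by
    show (C.lamL hp2 hpM : LRing (2 * M) C.B).1 τ * (lam τ)⁻¹ = 1
    rw [C.coe_lamL, mul_inv_cancel₀ (lam_ne_zero τ)])
  rw [← map_mul, h, map_one]

/-- Off the supersingular points the simple root is a unit. -/
theorem point_vY_ne_zero {s : LRing (2 * M) C.B →+* ResidueField C.B}
    [CharP (ResidueField C.B) p]
    (hord : (ordPoly p hp2).eval₂ (ZMod.castHom dvd_rfl (ResidueField C.B))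
      (s (C.lamL hp2 hpM)) ≠ 0) :
    s (C.vY hp2 hpM) ≠ 0 := by
  have hu : IsUnit (s (C.invFactor hp2 hpM)) := (Units.isUnit _).map s
  rw [vY, map_neg, map_mul, residue_constantCoeff_polyLam, neg_ne_zero]
  refine mul_ne_zero hu.ne_zero fun h => hord ?_
  rw [ordPoly, eval₂_neg, neg_eq_zero, Polynomial.coeff_map]
  exact h

/-- A disc is injective, also modulo the uniformiser. -/
theorem disc_injective {s : LRing (2 * M) C.B →+* ResidueField C.B}
    {ψ : LRing (2 * M) C.B →+* PowerSeries C.B}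
    (hψ : Points.IsDisc (C.levelHyp hp2 hpM) s ψ) :
    (∀ b, PowerSeries.C C.unif ∣ ψ b → C.piA M ∣ b) ∧ Function.Injective ψ := by
  have hinj : ∀ b, PowerSeries.C C.unif ∣ ψ b → C.piA M ∣ b := fun b hb =>
    Points.piL_dvd_of_redPS_eq_zero (C.coeffHyp hp2 hpM) hψ
      ((Points.redPS_eq_zero_iff (C.coeffHyp (M := M) hp2 hpM) _).2 hb)
  refine ⟨hinj, (injective_iff_map_eq_zero ψ).2 fun b hb => by_contra fun hb0 => ?_⟩
  obtain ⟨v, b₀, rfl, hb₀⟩ := C.exists_eq_piA_pow_mul hp2 hpM hb0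
  rw [map_mul, map_pow, show C.piA M = Points.cstL (C.levelHyp hp2 hpM) C.unif from rfl, hψ.const,
    mul_eq_zero, pow_eq_zero_iff'] at hb
  rcases hb with ⟨h, -⟩ | h
  · exact C.irred.ne_zero (PowerSeries.C_injective (by rw [h, map_zero]))
  · exact hb₀ (hinj b₀ (h ▸ dvd_zero _))

/-- The root of the polynomial of `λ'(τ)/λ'(pτ)` in a disc. -/
theorem exists_disc_root {s : LRing (2 * M) C.B →+* ResidueField C.B}
    {ψ : LRing (2 * M) C.B →+* PowerSeries C.B}
    (hψ : Points.IsDisc (C.levelHyp hp2 hpM) s ψ) (hy0 : s (C.vY hp2 hpM) ≠ 0) :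
    ∃ y : PowerSeries C.B, (C.vV hp2 hpM).eval₂ ψ y = 0 ∧
      PowerSeries.C C.unif ∣ y - ψ (C.vY hp2 hpM) := by
  have hcomp := isAdicComplete_powerSeries (B := C.B)
  have hsπ := point_piA hψ.isPoint
  have hπψ : ψ (C.piA M) = PowerSeries.C C.unif := hψ.const C.unif
  have hmax : ∀ f : PowerSeries C.B,
      f ∈ maximalIdeal (PowerSeries C.B) ↔ residue C.B (PowerSeries.constantCoeff f) = 0 := fun f => by
    rw [IsLocalRing.mem_maximalIdeal, mem_nonunits_iff, PowerSeries.isUnit_iff_constantCoeff,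
      ← mem_nonunits_iff, ← IsLocalRing.mem_maximalIdeal, ← IsLocalRing.residue_eq_zero_iff]
  have hunit : ∀ f : PowerSeries C.B, residue C.B (PowerSeries.constantCoeff f) ≠ 0 → IsUnit f :=
    fun f hf => by_contra fun h => hf ((hmax f).1 ((IsLocalRing.mem_maximalIdeal f).2 h))
  obtain ⟨q, hq⟩ := C.piA_dvd_vV (M := M) hp2 hpM
  obtain ⟨q', hq'⟩ := C.piA_dvd_vV_derivative_sub (M := M) hp2 hpM
  have h1 : ((C.vV hp2 hpM).map ψ).eval (ψ (C.vY hp2 hpM)) ∈ maximalIdeal (PowerSeries C.B) := by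
    rw [hmax, eval_map, eval₂_at_apply, hψ.point, hq, map_mul, hsπ, zero_mul]
  have h2 : IsUnit (((C.vV hp2 hpM).map ψ).derivative.eval (ψ (C.vY hp2 hpM))) := by
    refine hunit _ ?_
    rw [derivative_map, eval_map, eval₂_at_apply, hψ.point,
      show (C.vV hp2 hpM).derivative.eval (C.vY hp2 hpM) = C.piA M * q' + C.vY hp2 hpM ^ p from
        eq_add_of_sub_eq hq', map_add, map_mul, hsπ, zero_mul, zero_add, map_pow]
    exact pow_ne_zero _ hy0
  obtain ⟨y, hy, hy1⟩ := HenselianRing.is_henselian ((C.vV hp2 hpM).map ψ)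
    ((C.vV_monic hp2 hpM).map ψ) (ψ (C.vY hp2 hpM)) h1 (h2.map _)
  rw [IsRoot, eval_map] at hy
  refine ⟨y, hy, ?_⟩
  have hyu : IsUnit y := hunit y (by
    rw [← sub_add_cancel y (ψ (C.vY hp2 hpM)), map_add, map_add, (hmax _).1 hy1, zero_add, hψ.point]
    exact hy0)
  obtain ⟨H, hH⟩ := C.exists_vV_eq (M := M) hp2 hpM
  rw [hH, eval₂_add, eval₂_mul, eval₂_mul, eval₂_sub, eval₂_X, eval₂_C, eval₂_C, eval₂_X_pow,
    hπψ] at hy
  exact (hyu.pow p).dvd_mul_right.1 ⟨-(H.eval₂ ψ y), by linear_combination hy⟩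

/-- The map of the extension to a disc off the supersingular points. -/
theorem exists_disc_hom {s : LRing (2 * M) C.B →+* ResidueField C.B}
    {ψ : LRing (2 * M) C.B →+* PowerSeries C.B}
    (hψ : Points.IsDisc (C.levelHyp hp2 hpM) s ψ) (hy0 : s (C.vY hp2 hpM) ≠ 0) :
    ∃ θ : algElts (C.expK M) (expansion (2 * M) (lamP p)) →+* PowerSeries C.B,
      (∀ b, θ ⟨C.expK M b, map_mem_algElts _ _ b⟩ = ψ b) ∧
      ∀ (e : algElts (C.expK M) (expansion (2 * M) (lamP p))) (eS : LaurentSeries C.B),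
        coeffMap C.B.subtype eS = e.1 → ∀ (a d : LRing (2 * M) C.B) (n : ℕ),
          C.expA M (C.piA M) ^ n ∣ C.expA M d * eS - C.expA M a →
            PowerSeries.C C.unif ^ n ∣ ψ d * θ e - ψ a := by
  have := C.isIntegrallyClosed_powerSeries
  obtain ⟨hinj, hψinj⟩ := disc_injective hψ
  obtain ⟨y, hy, hy1⟩ := exists_disc_root hψ hy0
  have hv := C.hasExp_vS (M := M)
  have hπ : C.expA M (C.piA M) = HahnSeries.C C.unif := C.expB_piA 1
  have hP : Prime (PowerSeries.C C.unif : PowerSeries C.B) :=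
    Points.prime_C_pi (C.coeffHyp (M := M) hp2 hpM)
  have hzero : (C.vV hp2 hpM).eval₂ (C.expA M) (C.vS M) = 0 :=
    eval₂_expB_eq_zero (by rw [KummerES.comp_one]; exact hv) (C.vV_fun hp2 hpM)
  have hV1 : ¬ C.piA M ∣ (C.vV hp2 hpM).derivative.eval (C.vY hp2 hpM) := fun h => by
    have h' := dvd_sub h (C.piA_dvd_vV_derivative_sub (M := M) hp2 hpM)
    rw [sub_sub_cancel] at h'
    obtain ⟨c, hc⟩ := (C.prime_piA hp2 hpM).dvd_of_dvd_pow h'
    exact hy0 (by rw [hc, map_mul, point_piA hψ.isPoint, zero_mul])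
  obtain ⟨θ, hθ⟩ := exists_ext (φ := (coeffMap C.B.subtype).comp (C.expA M))
    (z := coeffMap C.B.subtype (C.vS M)) (fun Q hQ => C.vV_dvd hp2 hpM hv hQ) hy hψinj
  refine ⟨θ.comp (Subring.inclusion (C.algElts_le_vS hp2 hpM)), fun b => ?_,
    fun e eS he a d n hcong => ?_⟩
  · have h := hθ ⟨_, map_mem_algElts _ _ b⟩ (Polynomial.C b) 1
      (by rw [map_one, one_mul, eval₂_C])
    rw [map_one, one_mul, eval₂_C] at h
    exact h
  · exact pow_dvd_ext_sub C.coeffMap_subtype_injective' (C.expA_piA_ne_zero M)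
      (fun b => C.piA_dvd_of_expA hp2 hpM) hP (x := 1)
      (by rw [mul_one]; exact hψ.const C.unif) hP.not_dvd_one hinj
      (fun D => C.exists_eq_piA_pow_mul hp2 hpM) (C.piA_dvd_vV hp2 hpM) hV1 hzero
      (by rw [hπ]; exact C.vS_congr hp2 hpM) hy hy1 θ hθ _ he hcong

end Coeff

namespace Setting

attribute [local instance] isDomain_LRing

variable {p : ℕ} [hp : Fact p.Prime] {C : Coeff p} {M : ℕ} [NeZero M] (S : Setting C M)
  (hp2 : p ≠ 2) (hpM : ¬ p ∣ M) {a d : LRing (2 * M) C.B}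

include hp2 hpM in
/-- **Orders in the discs off the supersingular points.** -/
theorem discPow_of_ordinary (ha : ¬ C.piA M ∣ a) (hd : ¬ C.piA M ∣ d)
    (hrep : C.expA M (C.piA M) ∣ C.expA M d * qExpand C.B (2 * M) S.s₁ - C.expA M a)
    (s : LRing (2 * M) C.B →+* ResidueField C.B) (hs : Points.IsPoint (C.levelHyp hp2 hpM) s)
    (hord : (ordPoly p hp2).eval₂ (have := C.charP; ZMod.castHom dvd_rfl (ResidueField C.B))
      (s (C.lamL hp2 hpM)) ≠ 0) :
    ∃ ψ, Points.IsDisc (C.levelHyp hp2 hpM) s ψ ∧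
      ∃ U G E : PowerSeries (ResidueField C.B), IsUnit U ∧ G ≠ 0 ∧ E ≠ 0 ∧
        Points.redPS (ψ a) * E ^ p = Points.redPS (ψ d) * U * G ^ p := by
  have := C.charP
  obtain ⟨x₀, hx₀⟩ := IsLocalRing.residue_surjective (s (Points.tL (C.levelHyp hp2 hpM)))
  obtain ⟨ψ, hψ, -⟩ := Points.exists_disc (C.levelHyp hp2 hpM) hs hx₀
  obtain ⟨hinj, -⟩ := Coeff.disc_injective hψ
  obtain ⟨θ, hθA, hθc⟩ := Coeff.exists_disc_hom hψ (Coeff.point_vY_ne_zero hord)
  obtain ⟨N, m, N₀, -, -, e, A, D, Cc, he, hrel, hsum⟩ := S.exists_certificate_algElts hp2 hpM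
  have hB := C.coeffHyp (M := M) hp2 hpM
  have hP : Prime (PowerSeries.C C.unif : PowerSeries C.B) := Points.prime_C_pi hB
  have hπ : C.expA M (C.piA M) = HahnSeries.C C.unif := C.expB_piA 1
  have h := hθc e _ he.symm (C.piA M ^ N * a) d (N + 1) (by
    rw [pow_succ, map_mul, map_pow, hπ, mul_left_comm, ← mul_sub, ← hπ]
    exact mul_dvd_mul_left _ hrep)
  rw [map_mul, map_pow, show ψ (C.piA M) = PowerSeries.C C.unif from hψ.const C.unif] at h
  obtain ⟨x, hx, hx2⟩ := exists_div_of_congr hP (fun h' => hd (hinj d h')) h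
  have hne : ¬ PowerSeries.C C.unif ∣ x := fun hxd => ha (hinj a (by
    have := dvd_sub (hxd.mul_left (ψ d)) hx2
    rwa [sub_sub_cancel] at this))
  obtain ⟨u, G, hu, hxe⟩ := exists_eq_unit_mul_pow hP hp.out.ne_zero hne
    (A := fun j => θ (A j)) (D := fun j => θ (D j)) (Cc := fun j => θ (Cc j))
    (α := PowerSeries.C C.unif ^ N) (β := 1) (γ := PowerSeries.C C.unif ^ N₀)
    (fun P hP' hPπ _ h' => hPπ (hP'.dvd_of_dvd_pow h')) (fun P hP' _ _ h' => hP'.not_dvd_one h')
    (fun P hP' hPπ _ h' => hPπ (hP'.dvd_of_dvd_pow h'))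
    (fun j => by rw [one_mul, ← map_pow θ, hrel, map_mul, hx]; ring)
    (by simp only [← map_mul]; rw [← map_sum, hsum, hθA, map_pow]; exact congrArg (· ^ N₀) (hψ.const C.unif))
  refine ⟨ψ, hψ, Points.redPS u, Points.redPS G, 1, hu.map _, ?_, one_ne_zero, ?_⟩
  · intro h0
    refine hne ((Points.redPS_eq_zero_iff hB x).1 ?_)
    rw [hxe, map_mul, map_pow, h0, zero_pow hp.out.ne_zero, mul_zero]
  · have h3 := (Points.redPS_eq_zero_iff hB _).2 hx2
    rw [map_sub, map_mul, hxe, map_mul, map_pow, sub_eq_zero] at h3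
    rw [one_pow, mul_one, ← h3, mul_assoc]

end Setting

end Fermat.Agent.AtP
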