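import Fermat.Agent.KummerES.ReductionSeries
import Mathlib.Algebra.Polynomial.Roots

/-!
# Polynomials over level `L` evaluated at a function

An identity between such values can be read in the expansions at any cusp; the conjugates of the
function under `Γ(L)` give the minimal polynomial.
-/

set_option autoImplicit false

noncomputable section

open UpperHalfPlane CongruenceSubgroup
open Polynomial hiding comp
open scoped MatrixGroups
open Fermat.Agent.KummerES
open ModularCurve (qExpand coeffMap)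

namespace Fermat.Agent.AtP

variable {L : ℕ} [NeZero L] {B : Subring ℂ}

variable (L B) in
/-- The functions of level `L`. -/
def funA : LRing L B →+* (ℍ → ℂ) := (weak (Gamma L) L B).subtype

/-- Composition with `γ`. -/
def compHom (γ : SL(2, ℤ)) : (ℍ → ℂ) →+* (ℍ → ℂ) :=
  RingHom.pi fun τ => Pi.evalRingHom (fun _ : ℍ => ℂ) (γ • τ)

/-- `compHom γ` is composition with `γ`. -/
lemma compHom_apply (γ : SL(2, ℤ)) (f : ℍ → ℂ) : compHom γ f = comp f γ := rfl

/-- The analytic expansion of a function at `δ ∞` is `expB`. -/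
lemma hasExp_expB (a : LRing L B) (δ : SL(2, ℤ)) :
    HasExp L (comp a.1 δ) (coeffMap B.subtype (expB L B δ a)) := by
  rw [coeffMap_expB, expAt_apply]
  exact hasExp_expansion a.2 δ

/-- The expansion at every cusp is injective. -/
lemma expAt_B_injective (δ : SL(2, ℤ)) :
    Function.Injective ((coeffMap B.subtype).comp (expB L B δ)) := fun a b h => by
  rw [RingHom.comp_apply, RingHom.comp_apply, coeffMap_expB, coeffMap_expB] at h
  exact expAt_injective δ h

omit [NeZero L] in
/-- The expansion of a value, in any width in which the coefficients have expansions. -/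
lemma hasExp_eval₂ {N : ℕ} {δ : SL(2, ℤ)} (ψ : LRing L B →+* LaurentSeries ℂ)
    (hψ : ∀ a, HasExp N (comp a.1 δ) (ψ a)) {Y : ℍ → ℂ} {s : LaurentSeries ℂ}
    (hY : HasExp N (comp Y δ) s) (Q : (LRing L B)[X]) :
    HasExp N (comp (Q.eval₂ (funA L B) Y) δ) (Q.eval₂ ψ s) := by
  induction Q using Polynomial.induction_on' with
  | add P Q hP hQ =>
    rw [eval₂_add, eval₂_add, ← compHom_apply, map_add]
    exact hP.add hQ
  | monomial n a =>
    rw [eval₂_monomial, eval₂_monomial, ← compHom_apply, map_mul, map_pow]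
    exact (hψ a).mul (hY.pow n)

lemma hasExp_eval₂_expB {δ : SL(2, ℤ)} {Y : ℍ → ℂ} {s : LaurentSeries B}
    (hY : HasExp L (comp Y δ) (coeffMap B.subtype s)) (Q : (LRing L B)[X]) :
    HasExp L (comp (Q.eval₂ (funA L B) Y) δ) (coeffMap B.subtype (Q.eval₂ (expB L B δ) s)) := by
  rw [hom_eval₂]
  exact hasExp_eval₂ ((coeffMap B.subtype).comp (expB L B δ)) (fun a => hasExp_expB a δ) hY Q

/-- A vanishing identity of functions holds in the expansions at every cusp. -/
lemma eval₂_expB_eq_zero {δ : SL(2, ℤ)} {Y : ℍ → ℂ} {s : LaurentSeries B}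
    (hY : HasExp L (comp Y δ) (coeffMap B.subtype s)) {Q : (LRing L B)[X]}
    (hQ : Q.eval₂ (funA L B) Y = 0) : Q.eval₂ (expB L B δ) s = 0 := by
  have h := hasExp_eval₂_expB hY Q
  rw [hQ] at h
  have h0 : coeffMap B.subtype (Q.eval₂ (expB L B δ) s) = 0 := h.eq_zero_of_fun_zero
  exact HahnSeries.ext (funext fun i => Subtype.ext (congrArg (fun z => z.coeff i) h0 :))

/-- A vanishing identity of expansions at `∞` holds for the functions. -/
lemma eval₂_funA_eq_zero {Y : ℍ → ℂ} {s : LaurentSeries ℂ} (hY : HasExp L Y s)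
    {Q : (LRing L B)[X]}
    (hQ : Q.eval₂ ((coeffMap B.subtype).comp (expB L B 1)) s = 0) :
    Q.eval₂ (funA L B) Y = 0 := by
  have h := hasExp_eval₂ ((coeffMap B.subtype).comp (expB L B 1)) (fun a => hasExp_expB a 1) (Y := Y) (by rwa [comp_one]) Q
  rw [hQ, comp_one] at h
  exact h.fun_eq HasExp.zero

/-- A relation `D e = Q (Y)` at `∞` gives the expansion of the function at the other cusps. -/
theorem coeffMap_eq_of_rel {δ : SL(2, ℤ)} {D : LRing L B} (hD : D ≠ 0) {Q : (LRing L B)[X]}
    {Y F : ℍ → ℂ} {yI e sF : LaurentSeries ℂ} (hY : HasExp L Y yI) {y : LaurentSeries B}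
    (hYδ : HasExp L (comp Y δ) (coeffMap B.subtype y)) (hF : HasExp L F e)
    (hFδ : HasExp L (comp F δ) sF)
    (hrel : (coeffMap B.subtype).comp (expB L B 1) D * e =
      Q.eval₂ ((coeffMap B.subtype).comp (expB L B 1)) yI)
    {r : LaurentSeries B} (hr : expB L B δ D * r = Q.eval₂ (expB L B δ) y) :
    coeffMap B.subtype r = sF := by
  have h1 : HasExp L (comp D.1 1 * F) ((coeffMap B.subtype).comp (expB L B 1) D * e) :=
    (hasExp_expB D 1).mul hF
  have h2 := hasExp_eval₂ ((coeffMap B.subtype).comp (expB L B 1)) (fun a => hasExp_expB a 1) (Y := Y) (by rwa [comp_one]) Q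
  rw [← hrel, comp_one] at h2
  rw [comp_one] at h1
  have hfun : D.1 * F = Q.eval₂ (funA L B) Y := h1.fun_eq h2
  have h3 := hasExp_eval₂_expB hYδ Q
  rw [← hr, map_mul, ← hfun, ← compHom_apply, map_mul] at h3
  refine mul_left_cancel₀ (fun h0 => hD (expAt_B_injective δ (by rw [map_zero]; exact h0))) ?_
  exact h3.series_eq ((hasExp_expB D δ).mul hFδ)

/-- A function with `Fintype.card ι` distinct conjugates has no equation of smaller degree. -/
theorem eq_zero_of_conjugates {ι : Type*} [Fintype ι] {m : ℕ} [NeZero m] {Y : ℍ → ℂ}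
    {W : ι → ℍ → ℂ} (hinj : Function.Injective W) (hW : ∀ i, ∃ s, HasExp (L * m) (W i) s)
    (hconj : ∀ i, ∃ γ ∈ Gamma L, comp Y γ = W i) {Q : (LRing L B)[X]}
    (hdeg : Q.natDegree < Fintype.card ι) (h0 : Q.eval₂ (funA L B) Y = 0) : Q = 0 := by
  classical
  choose w hw using hW
  set ψ : LRing L B →+* LaurentSeries ℂ :=
    (qExpand ℂ m).comp ((coeffMap B.subtype).comp (expB L B 1)) with hψ
  have hψ' : ∀ a, HasExp (L * m) (comp a.1 1) (ψ a) := fun a => (hasExp_expB a 1).dilate m
  have hinjψ : Function.Injective ψ :=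
    (ModularCurve.qExpand_injective m).comp (expAt_B_injective 1)
  have hroot : ∀ i, (Q.map ψ).eval (w i) = 0 := fun i => by
    obtain ⟨γ, hγ, hYγ⟩ := hconj i
    have hQi : Q.eval₂ (funA L B) (W i) = 0 := by
      have := congrArg (compHom γ) h0
      rw [map_zero, hom_eval₂, compHom_apply, hYγ] at this
      rw [← this]
      congr 1
      exact RingHom.ext fun a => (a.2.2.1 γ hγ).symm
    have h := hasExp_eval₂ ψ hψ' (Y := W i) (by rw [comp_one]; exact hw i) Q
    rw [hQi, comp_one] at h
    rw [eval_map]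
    exact h.eq_zero_of_fun_zero
  have hwinj : Function.Injective w := fun i j hij => hinj ((hij ▸ hw i).fun_eq (hw j))
  refine Polynomial.map_injective ψ hinjψ ?_
  rw [Polynomial.map_zero]
  exact eq_zero_of_natDegree_lt_card_of_eval_eq_zero _ hwinj hroot
    (lt_of_le_of_lt natDegree_map_le hdeg)

/-- The minimal polynomial of a function with distinct conjugates. -/
theorem dvd_of_conjugates {ι : Type*} [Fintype ι] {m : ℕ} [NeZero m] {Y : ℍ → ℂ}
    {W : ι → ℍ → ℂ} (hinj : Function.Injective W) (hW : ∀ i, ∃ s, HasExp (L * m) (W i) s)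
    (hconj : ∀ i, ∃ γ ∈ Gamma L, comp Y γ = W i) {V : (LRing L B)[X]} (hV : V.Monic)
    (hdeg : V.natDegree = Fintype.card ι) (hVY : V.eval₂ (funA L B) Y = 0) {Q : (LRing L B)[X]}
    (hQ : Q.eval₂ (funA L B) Y = 0) : V ∣ Q := by
  rw [← modByMonic_eq_zero_iff_dvd hV]
  refine eq_zero_of_conjugates hinj hW hconj ?_ ?_
  · rcases eq_or_ne V 1 with rfl | h1
    · rw [natDegree_one] at hdeg
      exfalso
      rw [eval₂_one] at hVY
      exact one_ne_zero (congrFun hVY UpperHalfPlane.I)
    · exact hdeg ▸ natDegree_modByMonic_lt _ hV h1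
  · have h := congrArg (eval₂ (funA L B) Y) (modByMonic_add_div Q (q := V))
    rwa [eval₂_add, eval₂_mul, hVY, zero_mul, add_zero, hQ] at h

end Fermat.Agent.AtP
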