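import Fermat.Agent.AtP.Ctx
import Fermat.Prelude.Thm_IsLocalRing_isAdicComplete_of_module_finite
import Mathlib.RingTheory.Henselian
import Mathlib.RingTheory.RootsOfUnity.AlgebraicallyClosed
import Mathlib.RingTheory.DiscreteValuationRing.TFAE
import Mathlib.RingTheory.IntegralClosure.IntegrallyClosed

/-!
# The coefficient rings exist

For `O ⊂ ℂ` a complete discrete valuation ring with uniformiser `p` and algebraically closed
residue field and `η ^ p = 1 + p c₀` with `c₀` a unit, `B = O[η]` satisfies `Coeff`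
(`exists_coeff`).  The proof goes through `ϖ = η - 1`: `ϖ ^ p` is `p` times a unit, so `B` is a
complete discrete valuation ring with uniformiser `ϖ` and the residue field of `O`; every element is
`o + ϖ c`, which defines the reduction modulo `ϖ ²`; and `B` has no `p`-th root of unity but `1`.
-/

set_option autoImplicit false

noncomputable section

open IsLocalRing Polynomial

namespace Fermat.Agent.AtP

/-! ## Unramified coefficients -/

section base

variable {p : ℕ} [hp : Fact p.Prime] {O : Subring ℂ} [IsDiscreteValuationRing O]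

lemma natCast_isUnit_of_irreducible (hO : Irreducible (p : O)) {m : ℕ} (hm : ¬ p ∣ m) :
    IsUnit (m : O) := by
  have hco : IsCoprime (p : ℤ) (m : ℤ) :=
    Nat.isCoprime_iff_coprime.mpr (hp.out.coprime_iff_not_dvd.mpr hm)
  have h := hco.map (Int.castRingHom O)
  rw [map_natCast, map_natCast] at h
  obtain ⟨a, b, hab⟩ := h
  rcases IsLocalRing.isUnit_or_isUnit_of_add_one hab with h1 | h1
  · exact absurd (isUnit_of_mul_isUnit_right h1) hO.not_isUnit
  · exact isUnit_of_mul_isUnit_right h1

lemma inv_natCast_mem_of_irreducible (hO : Irreducible (p : O)) {m : ℕ} (hm : ¬ p ∣ m) :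
    (m : ℂ)⁻¹ ∈ O := by
  obtain ⟨u, hu⟩ := natCast_isUnit_of_irreducible hO hm
  have h1 : ((u : O) : ℂ) * ((u⁻¹ : Oˣ) : O) = 1 := by
    rw [← Subring.coe_mul, u.mul_inv, Subring.coe_one]
  rw [hu, Subring.coe_natCast] at h1
  rw [← eq_inv_of_mul_eq_one_right h1]
  exact SetLike.coe_mem _

omit hp in
/-- The residue field of `O` has characteristic `p`. -/
lemma charP_residueField (hp' : p.Prime) (hO : Irreducible (p : O)) :
    CharP (ResidueField O) p := by
  refine (CharP.charP_iff_prime_eq_zero hp').mpr ?_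
  rw [← map_natCast (residue O), residue_eq_zero_iff]
  exact (mem_maximalIdeal _).mpr hO.not_isUnit

lemma B2_le_of_irreducible (hO : Irreducible (p : O)) (hp2 : p ≠ 2) : B2 ≤ O := by
  rintro _ ⟨a, rfl⟩
  have hu : IsUnit ((2 : ℤ) : O) := by
    simpa using natCast_isUnit_of_irreducible hO (m := 2)
      fun hd => hp2 ((Nat.prime_dvd_prime_iff_eq hp.out Nat.prime_two).mp hd)
  have key : awayToC = O.subtype.comp
      (IsLocalization.Away.lift (2 : ℤ) (g := Int.castRingHom O) hu) :=
    IsLocalization.ringHom_ext (Submonoid.powers (2 : ℤ)) (RingHom.ext_int _ _)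
  rw [key]
  exact SetLike.coe_mem _

variable [IsAdicComplete (maximalIdeal O) O] [IsAlgClosed (ResidueField O)]

lemma zetaC_mem_of_irreducible (hO : Irreducible (p : O)) {m : ℕ} (hm : ¬ p ∣ m) :
    KummerES.zetaC m ∈ O := by
  have : CharP (ResidueField O) p := charP_residueField hp.out hO
  have hm0 : m ≠ 0 := by rintro rfl; exact hm (dvd_zero p)
  have hmk : ((m : ℕ) : ResidueField O) ≠ 0 := fun h => hm ((CharP.cast_eq_zero_iff _ p m).mp h)
  have : NeZero m := ⟨hm0⟩
  have : NeZero (m : ResidueField O) := ⟨hmk⟩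
  obtain ⟨zbar, hzbar⟩ := HasEnoughRootsOfUnity.exists_primitiveRoot (ResidueField O) m
  obtain ⟨z0, rfl⟩ := residue_surjective zbar
  set f : O[X] := X ^ m - 1 with hf
  have h1 : f.eval z0 ∈ maximalIdeal O := by
    rw [← residue_eq_zero_iff, hf, eval_sub, eval_pow, eval_X, eval_one, map_sub, map_pow, map_one,
      hzbar.pow_eq_one, sub_self]
  have h2 : IsUnit (Ideal.Quotient.mk (maximalIdeal O) (f.derivative.eval z0)) := by
    refine IsUnit.mk0 (G₀ := ResidueField O) (residue O (f.derivative.eval z0)) ?_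
    rw [hf, derivative_sub, derivative_one, sub_zero, derivative_X_pow, eval_mul, eval_C,
      eval_pow, eval_X, map_mul, map_pow, map_natCast]
    exact mul_ne_zero hmk (pow_ne_zero _ (hzbar.ne_zero hm0))
  obtain ⟨z, hz, hzz⟩ := HenselianRing.is_henselian f (monic_X_pow_sub_C 1 hm0) z0 h1 h2
  have hzm : z ^ m = 1 := by
    rwa [IsRoot, hf, eval_sub, eval_pow, eval_X, eval_one, sub_eq_zero] at hz
  have hres : residue O z = residue O z0 := by
    rwa [← sub_eq_zero, ← map_sub, residue_eq_zero_iff]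
  have hprim : IsPrimitiveRoot (z : ℂ) m := by
    refine ⟨by rw [← Subring.coe_pow, hzm, Subring.coe_one], fun l hl => ?_⟩
    refine hzbar.dvd_of_pow_eq_one l ?_
    rw [← hres, ← map_pow]
    rw [← Subring.coe_pow, ← Subring.coe_one, Subtype.coe_inj] at hl
    rw [hl, map_one]
  obtain ⟨i, -, hi⟩ := hprim.eq_pow_of_pow_eq_one
    (KummerES.isPrimitiveRoot_zetaC m).pow_eq_one
  rw [← hi]
  exact pow_mem z.2 i

end base

/-! ## The ramified extension -/

section ext

variable {p : ℕ} [hp : Fact p.Prime] {O B : Subring ℂ}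

omit hp in
lemma exists_coeff_decomp (hle : O ≤ B) {η : ℂ} (hB : B = Subring.closure ((O : Set ℂ) ∪ {η}))
    {w : B} (hw : (w : ℂ) = η - 1) (b : B) :
    ∃ (o : O) (c : B), b = Subring.inclusion hle o + w * c := by
  suffices ∀ x ∈ Subring.closure ((O : Set ℂ) ∪ {η}), ∃ (o : O) (c : B),
      x = (o : ℂ) + (w : ℂ) * c by
    obtain ⟨o, c, h⟩ := this b (hB ▸ b.2)
    exact ⟨o, c, Subtype.ext (by simpa using h)⟩
  intro x hx
  induction hx using Subring.closure_induction with
  | mem x hx =>
    rcases hx with hx | hx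
    · exact ⟨⟨x, hx⟩, 0, by simp⟩
    · obtain rfl : x = η := hx
      exact ⟨1, 1, by simp [hw]⟩
  | zero => exact ⟨0, 0, by simp⟩
  | one => exact ⟨1, 0, by simp⟩
  | add x y _ _ hx hy =>
    obtain ⟨o, c, rfl⟩ := hx
    obtain ⟨o', c', rfl⟩ := hy
    exact ⟨o + o', c + c', by push_cast; ring⟩
  | neg x _ hx =>
    obtain ⟨o, c, rfl⟩ := hx
    exact ⟨-o, -c, by push_cast; ring⟩
  | mul x y _ _ hx hy =>
    obtain ⟨o, c, rfl⟩ := hx
    obtain ⟨o', c', rfl⟩ := hy
    exact ⟨o * o', Subring.inclusion hle o * c' + Subring.inclusion hle o' * c + w * c * c',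
      by simp only [Subring.coe_mul, Subring.coe_add, Subring.coe_inclusion]; ring⟩

/-- The sum in `(1 + x) ^ p = 1 + x ^ p + p x S(x)`. -/
def choosePart (p : ℕ) {R : Type*} [CommRing R] (x : R) : R :=
  ∑ i ∈ Finset.Ico 1 p, ((p.choose i / p : ℕ) : R) * x ^ (i - 1)

/-- `(1 + x) ^ p = 1 + x ^ p + p x S(x)`. -/
lemma one_add_pow_prime {R : Type*} [CommRing R] (x : R) :
    (1 + x) ^ p = 1 + x ^ p + p * (x * choosePart p x) := by
  rw [add_comm (1 : R) x, add_pow, Finset.sum_range_succ, Nat.choose_self,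
    Finset.range_eq_Ico, Finset.sum_eq_sum_Ico_succ_bot hp.out.pos, choosePart, Finset.mul_sum,
    Finset.mul_sum]
  simp only [one_pow, mul_one, pow_zero, Nat.choose_zero_right, Nat.cast_one, zero_add]
  rw [show ∀ a b c : R, a + b + c = a + c + b from fun a b c => by ring]
  congr 1
  refine Finset.sum_congr rfl fun i hi => ?_
  obtain ⟨hi1, hi2⟩ := Finset.mem_Ico.mp hi
  have hd : p ∣ p.choose i := hp.out.dvd_choose_self (by omega) hi2
  calc x ^ i * (p.choose i : R) = x ^ i * ((p * (p.choose i / p) : ℕ) : R) := by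
        rw [Nat.mul_div_cancel' hd]
    _ = (p : R) * (x * (((p.choose i / p : ℕ) : R) * x ^ (i - 1))) := by
        obtain ⟨j, rfl⟩ := Nat.exists_eq_add_of_le hi1
        rw [Nat.cast_mul, Nat.add_sub_cancel_left, pow_add, pow_one]
        ring

lemma dvd_choosePart_sub_one {R : Type*} [CommRing R] (x : R) : x ∣ choosePart p x - 1 := by
  rw [choosePart, Finset.sum_eq_sum_Ico_succ_bot hp.out.one_lt, Nat.choose_one_right,
    Nat.div_self hp.out.pos, Nat.sub_self, pow_zero, Nat.cast_one, one_mul, add_sub_cancel_left]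
  exact Finset.dvd_sum fun i hi =>
    dvd_mul_of_dvd_right (dvd_pow_self x (by have := (Finset.mem_Ico.mp hi).1; omega)) _

end ext

/-! ## Structure of a ramified extension -/

section ramified

variable {p : ℕ} [hp : Fact p.Prime] {O B : Type*} [CommRing O] [IsDomain O]
  [IsDiscreteValuationRing O] [CommRing B] (hO : Irreducible (p : O)) {ι : O →+* B}
  (hfin : ι.Finite)
include hO hfin

omit hp in
/-- Every maximal ideal of a finite extension with `w ^ p = p u` contains `w` and lies over the
maximal ideal of `O`. -/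
lemma mem_and_comap_eq_of_isMaximal {w u : B} (hwu : w ^ p = (p : B) * u) (M : Ideal B)
    [hM : M.IsMaximal] : w ∈ M ∧ M.comap ι = maximalIdeal O := by
  let : Algebra O B := ι.toAlgebra
  have : Module.Finite O B := hfin
  have : Algebra.IsIntegral O B := Algebra.IsIntegral.of_finite O B
  have hcm : M.comap (algebraMap O B) = maximalIdeal O := IsLocalRing.eq_maximalIdeal
    (Ideal.isMaximal_comap_of_isIntegral_of_isMaximal (R := O) M)
  refine ⟨hM.isPrime.mem_of_pow_mem p (hwu ▸ M.mul_mem_right _ ?_), hcm⟩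
  have h : (p : O) ∈ M.comap (algebraMap O B) := by
    rw [hcm]
    exact (mem_maximalIdeal _).mpr hO.not_isUnit
  simpa using h

omit hp in
/-- If `w ^ p = p (c - w r)` with `c` a unit of `O`, then `c - w r` is a unit. -/
lemma isUnit_sub_mul_of_pow_eq {w r : B} (c : Oˣ) (hwu : w ^ p = (p : B) * (ι c - w * r)) :
    IsUnit (ι c - w * r) := by
  by_contra hu
  obtain ⟨M, hM, hMu⟩ := exists_max_ideal_of_mem_nonunits (mem_nonunits_iff.mpr hu)
  have h1 : ι c ∈ M := by
    have h := M.add_mem hMu (M.mul_mem_right r (mem_and_comap_eq_of_isMaximal hO hfin hwu M).1)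
    rwa [sub_add_cancel] at h
  exact hM.ne_top (M.eq_top_of_isUnit_mem h1 (c.isUnit.map ι))

/-- If `w ^ p` is `p` times a unit and every element is `o + w c`, the finite extension is a
complete discrete valuation ring with uniformiser `w`. -/
lemma exists_isDiscreteValuationRing [IsAdicComplete (maximalIdeal O) O] [IsDomain B]
    (hι : Function.Injective ι) {w : B} (u : Bˣ) (hwu : w ^ p = (p : B) * u)
    (hp0 : (p : B) ≠ 0) (hdec : ∀ b : B, ∃ (o : O) (c : B), b = ι o + w * c) :
    ∃ _ : IsDiscreteValuationRing B,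
      maximalIdeal B = Ideal.span {w} ∧ IsAdicComplete (maximalIdeal B) B := by
  let : Algebra O B := ι.toAlgebra
  have : Module.Finite O B := hfin
  have : IsLocalHom (algebraMap O B) :=
    RingHom.IsIntegral.isLocalHom
      (algebraMap_isIntegral_iff.mpr (Algebra.IsIntegral.of_finite O B)) hι
  have hwp : w ∣ (p : B) := by
    rw [← u.dvd_mul_right, ← hwu]
    exact dvd_pow_self w hp.out.ne_zero
  have hmax : ∀ M : Ideal B, M.IsMaximal → M = Ideal.span {w} := by
    intro M hM
    obtain ⟨hw1, hcm⟩ := mem_and_comap_eq_of_isMaximal hO hfin hwu M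
    refine le_antisymm (fun b hb => ?_) ((Ideal.span_singleton_le_iff_mem _).mpr hw1)
    obtain ⟨o, c, rfl⟩ := hdec b
    have ho : o ∈ M.comap ι := by
      simpa using M.sub_mem hb (M.mul_mem_right c hw1)
    rw [hcm, hO.maximalIdeal_eq, Ideal.mem_span_singleton] at ho
    obtain ⟨t, rfl⟩ := ho
    rw [Ideal.mem_span_singleton, map_mul, map_natCast]
    exact dvd_add (dvd_mul_of_dvd_left hwp _) (dvd_mul_right _ _)
  have : IsLocalRing B := by
    obtain ⟨M, hM⟩ := Ideal.exists_maximal B
    exact IsLocalRing.of_unique_max_ideal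
      ⟨M, hM, fun M' hM' => (hmax M' hM').trans (hmax M hM).symm⟩
  have hmaxB : maximalIdeal B = Ideal.span {w} := hmax _ inferInstance
  have hw0 : w ≠ 0 := fun h => by
    rw [h, zero_pow hp.out.ne_zero, eq_comm, mul_eq_zero] at hwu
    exact hwu.elim hp0 u.ne_zero
  have : IsNoetherianRing B := IsNoetherianRing.of_finite O B
  have hwnu : ¬ IsUnit w := fun h =>
    (maximalIdeal.isMaximal B).ne_top (hmaxB.trans (Ideal.span_singleton_eq_top.mpr h))
  have hnf : ¬ IsField B := fun h => hwnu (by
    obtain ⟨v, hv⟩ := h.mul_inv_cancel hw0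
    exact IsUnit.of_mul_eq_one v hv)
  exact ⟨((IsDiscreteValuationRing.TFAE B hnf).out 0 4 (a := IsDiscreteValuationRing B)
    (b := (maximalIdeal B).IsPrincipal) rfl rfl).mpr ⟨⟨w, hmaxB⟩⟩, hmaxB,
    IsLocalRing.isAdicComplete_of_module_finite (𝒪 := O)⟩

end ramified

section reduction

universe uR

variable {O B : Type uR} [CommRing O] [CommRing B] [IsLocalRing B] {ι : O →+* B} {w : B}
  (hdec : ∀ b : B, ∃ (o : O) (c : B), b = ι o + w * c) (hmax : maximalIdeal B = Ideal.span {w})
include hdec hmax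

omit hdec in
/-- The residue of an element vanishes exactly on the multiples of the uniformiser. -/
lemma residue_eq_zero_iff_dvd_unif (b : B) : residue B b = 0 ↔ w ∣ b := by
  rw [residue_eq_zero_iff, hmax, Ideal.mem_span_singleton]

/-- If every element is `o + w c`, the residue field is that of `O`. -/
lemma isAlgClosed_residueField_of_decomp [IsLocalRing O] [IsLocalHom ι]
    [IsAlgClosed (ResidueField O)] : IsAlgClosed (ResidueField B) := by
  have heb : Function.Bijective (ResidueField.map ι) := by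
    refine ⟨(ResidueField.map ι).injective, fun y => ?_⟩
    obtain ⟨b, rfl⟩ := residue_surjective y
    obtain ⟨o, c, rfl⟩ := hdec b
    exact ⟨residue O o, by
      rw [map_add, (residue_eq_zero_iff_dvd_unif hmax _).mpr (dvd_mul_right w c), add_zero]; rfl⟩
  exact IsAlgClosed.of_ringEquiv _ _ (RingEquiv.ofBijective _ heb)

/-- **Reduction modulo `w ^ 2`.** If every element is `o + w c` and `w ∣ o` forces `w ^ 2 ∣ o`,
then `o + w c ↦ o̅ + c̅ ε` is a ring homomorphism. -/
lemma exists_dualNumber_reduction [IsDomain B] (hw0 : w ≠ 0)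
    (hsq : ∀ o : O, w ∣ ι o → w ^ 2 ∣ ι o) :
    ∃ red : B →+* DualNumber (ResidueField B),
      (∀ b, TrivSqZeroExt.fst (red b) = residue B b) ∧
        ∀ (o : O) (c : B), TrivSqZeroExt.snd (red (ι o + w * c)) = residue B c := by
  have hres := residue_eq_zero_iff_dvd_unif hmax
  choose dO dC hdd using hdec
  have key : ∀ (b : B) (o : O) (c : B), b = ι o + w * c →
      residue B (ι (dO b)) = residue B b ∧ residue B (dC b) = residue B c := by
    intro b o c h
    refine ⟨?_, ?_⟩
    · conv_rhs => rw [hdd b, map_add, (hres _).mpr (dvd_mul_right w _), add_zero]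
    · have h1 : ι (dO b - o) = w * (c - dC b) := by
        rw [map_sub]
        linear_combination h - hdd b
      have h2 : w ^ 2 ∣ w * (c - dC b) := h1 ▸ hsq _ ⟨_, h1⟩
      rw [sq, mul_dvd_mul_iff_left hw0, ← hres, map_sub, sub_eq_zero] at h2
      exact h2.symm
  refine ⟨{ toFun := fun b => (residue B b, residue B (dC b))
            map_one' := Prod.ext (map_one _) ?_
            map_zero' := Prod.ext (map_zero _) ?_
            map_add' := fun a b => Prod.ext (map_add _ _ _) ?_
            map_mul' := fun a b => Prod.ext (map_mul _ _ _) ?_ },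
    fun _ => rfl, fun o c => (key _ o c rfl).2⟩
  · show residue B (dC 1) = 0
    rw [(key 1 1 0 (by simp)).2, map_zero]
  · show residue B (dC (a * b)) =
      residue B a • residue B (dC b) + MulOpposite.op (residue B b) • residue B (dC a)
    rw [(key (a * b) (dO a * dO b) (ι (dO a) * dC b + ι (dO b) * dC a + w * (dC a * dC b)) (by
      rw [map_mul]
      nth_rw 1 [hdd a, hdd b]
      ring)).2]
    simp only [map_add, map_mul, (key a _ _ (hdd a)).1, (key b _ _ (hdd b)).1,
      (hres w).mpr dvd_rfl, zero_mul, add_zero, smul_eq_mul, MulOpposite.smul_eq_mul_unop,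
      MulOpposite.unop_op]
    ring
  · show residue B (dC 0) = 0
    rw [(key 0 0 0 (by simp)).2, map_zero]
  · show residue B (dC (a + b)) = residue B (dC a) + residue B (dC b)
    rw [(key (a + b) (dO a + dO b) (dC a + dC b)
      (by rw [map_add]; linear_combination hdd a + hdd b)).2, map_add]

end reduction

/-! ## Roots of unity of order `p` -/

section roots

variable {p : ℕ} [hp : Fact p.Prime]

/-- If `w` is prime and `w ^ p = p u` with `w ∤ u`, `p ≥ 3`, then `1` is the only `p`-th root of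
unity: a root `1 + w t` would give `t ^ (p - 1) u + w S = 0` with `S ≡ 1` modulo `w`. -/
lemma eq_one_of_pow_eq_one_of_prime {R : Type*} [CommRing R] [IsDomain R] (hp3 : 3 ≤ p)
    (hp0 : (p : R) ≠ 0) {w u x : R} (hw : Prime w) (hwu : w ^ p = (p : R) * u) (hu : ¬ w ∣ u)
    (hx : x ^ p = 1) : x = 1 := by
  have hwp : w ∣ (p : R) :=
    (hw.dvd_or_dvd (hwu ▸ dvd_pow_self w hp.out.ne_zero)).resolve_right hu
  obtain ⟨t, ht⟩ : w ∣ x - 1 := by
    refine hw.dvd_of_dvd_pow (n := p) ?_
    have h := one_add_pow_prime (p := p) (x - 1)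
    rw [add_sub_cancel, hx] at h
    obtain ⟨d, hd⟩ := hwp
    exact ⟨-(d * ((x - 1) * choosePart p (x - 1))), by rw [hd] at h; linear_combination -h⟩
  rw [sub_eq_iff_eq_add'] at ht
  by_contra hne
  have ht0 : t ≠ 0 := fun h => hne (by rw [ht, h, mul_zero, add_zero])
  rw [ht, one_add_pow_prime, mul_pow, hwu] at hx
  set S := choosePart p (w * t) with hS
  have hS1 : w ∣ S - 1 := (dvd_mul_right w t).trans (dvd_choosePart_sub_one _)
  have h2 : (p : R) * (t * (u * t ^ (p - 1) + w * S)) = 0 := by
    have : t ^ p = t * t ^ (p - 1) := by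
      rw [← pow_succ', Nat.sub_add_cancel hp.out.one_le]
    rw [this] at hx
    linear_combination hx
  have h3 := (mul_eq_zero.mp ((mul_eq_zero.mp h2).resolve_left hp0)).resolve_left ht0
  obtain ⟨t', rfl⟩ : w ∣ t := hw.dvd_of_dvd_pow (n := p - 1)
    ((hw.dvd_or_dvd ⟨-S, by linear_combination h3⟩).resolve_left hu)
  obtain ⟨q, hq⟩ : ∃ q, p - 1 = q + 2 := ⟨p - 3, by omega⟩
  rw [hq] at h3
  have h4 : w * (w * (w ^ q * u * t' ^ (q + 2)) + S) = 0 := by linear_combination h3
  have h5 := (mul_eq_zero.mp h4).resolve_left hw.ne_zero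
  refine hw.not_dvd_one ((dvd_sub_right ?_).mp hS1)
  exact ⟨-(w ^ q * u * t' ^ (q + 2)), by linear_combination h5⟩

/-- A valuation ring inside `ℂ` contains the roots of unity of its fraction field. -/
lemma mem_of_mem_closure_of_pow_eq_one {B : Subring ℂ} [ValuationRing B] {x : ℂ}
    (hx : x ∈ Subfield.closure (B : Set ℂ)) {n : ℕ} (hn : 1 ≤ n) (hx1 : x ^ n = 1) : x ∈ B := by
  obtain ⟨y, hy, z, hz, hyz⟩ := Subfield.mem_closure_iff.mp hx
  rw [Subring.closure_eq] at hy hz
  by_cases hz0 : z = 0
  · rw [← hyz, hz0, div_zero]; exact zero_mem _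
  obtain ⟨c, hc⟩ := ValuationRing.cond (⟨y, hy⟩ : B) ⟨z, hz⟩
  rcases hc with hc | hc
  · -- `x⁻¹ ∈ B`
    have hc' : y * (c : ℂ) = z := congrArg Subtype.val hc
    have hy0 : y ≠ 0 := fun h => hz0 (by rw [← hc', h, zero_mul])
    have hcx : x⁻¹ = (c : ℂ) := by
      rw [← hyz, inv_div, ← hc', mul_div_cancel_left₀ _ hy0]
    have : x = (c : ℂ) ^ (n - 1) := by
      rw [← hcx, inv_pow]
      refine eq_inv_of_mul_eq_one_right ?_
      rw [← pow_succ, Nat.sub_add_cancel hn, hx1]
    rw [this]
    exact pow_mem c.2 _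
  · have hc' : z * (c : ℂ) = y := congrArg Subtype.val hc
    rw [← hyz, ← hc', mul_div_cancel_left₀ _ hz0]
    exact c.2

end roots

/-! ## The extension `O[η]` -/

section closure

variable {p : ℕ} [hp : Fact p.Prime] {O B : Subring ℂ} (hle : O ≤ B) {η : ℂ}
  (hB : B = Subring.closure ((O : Set ℂ) ∪ {η})) {c₀ : O}
  (heta : η ^ p = 1 + p * (c₀ : ℂ))
include heta

include hB in
/-- `O[η]` is finite over `O`. -/
lemma inclusion_finite : (Subring.inclusion hle).Finite := by
  let : Algebra O B := (Subring.inclusion hle).toAlgebra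
  have hint : IsIntegral O η := ⟨X ^ p - C (1 + (p : O) * c₀),
    monic_X_pow_sub_C _ hp.out.ne_zero, by
      rw [eval₂_sub, eval₂_X_pow, eval₂_C, heta, map_add, map_one, map_mul, map_natCast]
      exact sub_self _⟩
  have hA : (Algebra.adjoin O {η}).toSubring = B := by
    rw [Algebra.adjoin_eq_ring_closure, hB]
    congr 2
    exact Subtype.range_coe
  have : Module.Finite O (Algebra.adjoin O {η}) :=
    Module.Finite.iff_fg.mpr hint.fg_adjoin_singleton
  let e : Algebra.adjoin O {η} →ₐ[O] B :=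
    { toFun := fun a => ⟨a.1, hA ▸ a.2⟩
      map_one' := rfl, map_mul' := fun _ _ => rfl
      map_zero' := rfl, map_add' := fun _ _ => rfl
      commutes' := fun _ => rfl }
  exact Module.Finite.of_surjective e.toLinearMap
    fun b => ⟨⟨b.1, (SetLike.ext_iff.mp hA b.1).mpr b.2⟩, rfl⟩

/-- `(η - 1) ^ p = p (c₀ - (η - 1) S)`. -/
lemma sub_one_pow_eq {w : B} (hw : (w : ℂ) = η - 1) :
    w ^ p = (p : B) * (Subring.inclusion hle c₀ - w * choosePart p w) := by
  have h1 : (1 + w) ^ p = 1 + (p : B) * Subring.inclusion hle c₀ := by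
    refine Subtype.ext ?_
    rw [Subring.coe_pow, Subring.coe_add, Subring.coe_one, hw, add_sub_cancel, heta,
      Subring.coe_add, Subring.coe_one, Subring.coe_mul, Subring.coe_natCast]
    rfl
  rw [one_add_pow_prime] at h1
  linear_combination h1

end closure

/-- **The coefficient rings exist.** -/
theorem exists_coeff {p : ℕ} [hp : Fact p.Prime] (hp2 : p ≠ 2) (O : Subring ℂ)
    [IsDiscreteValuationRing O] [IsAdicComplete (maximalIdeal O) O]
    [IsAlgClosed (ResidueField O)] (hO : Irreducible (p : O)) (η : ℂ) (c₀ : Oˣ)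
    (heta : η ^ p = 1 + p * ((c₀ : O) : ℂ)) :
    ∃ Cf : Coeff p, Cf.O = O ∧ Cf.B = Subring.closure ((O : Set ℂ) ∪ {η}) := by
  set B : Subring ℂ := Subring.closure ((O : Set ℂ) ∪ {η}) with hB
  have hle : O ≤ B := fun x hx => Subring.subset_closure (Or.inl hx)
  set ι : O →+* B := Subring.inclusion hle
  have hιinj : Function.Injective ι := Subring.inclusion_injective hle
  obtain ⟨w, hw⟩ : ∃ w : B, (w : ℂ) = η - 1 :=
    ⟨⟨η, Subring.subset_closure (Or.inr rfl)⟩ - 1, rfl⟩
  have hp3 : 3 ≤ p := by have := hp.out.two_le; omega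
  have hp0 : (p : B) ≠ 0 := fun h => hp.out.ne_zero (Nat.cast_eq_zero.mp
    (congrArg (Subtype.val : B → ℂ) h))
  have hdec : ∀ b : B, ∃ (o : O) (c : B), b = ι o + w * c := exists_coeff_decomp hle hB hw
  have hfin : ι.Finite := inclusion_finite hle hB heta
  have : IsLocalHom ι := RingHom.IsIntegral.isLocalHom hfin.to_isIntegral hιinj
  -- `ϖ ^ p = p u` with `u` a unit
  have hwu : w ^ p = (p : B) * (ι c₀ - w * choosePart p w) := sub_one_pow_eq hle heta hw
  obtain ⟨uu, huu⟩ := isUnit_sub_mul_of_pow_eq hO hfin c₀ hwu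
  rw [← huu] at hwu
  obtain ⟨hdvr, hmax, hcompl⟩ :=
    exists_isDiscreteValuationRing hO hfin hιinj uu hwu hp0 hdec
  have hres := residue_eq_zero_iff_dvd_unif hmax
  have hirr : Irreducible w := (IsDiscreteValuationRing.irreducible_iff_uniformizer w).mpr hmax
  have hpeq : (p : B) = w ^ p * ((uu⁻¹ : Bˣ) : B) := (Units.eq_mul_inv_iff_mul_eq uu).mpr hwu.symm
  have hwp : w ^ 2 ∣ (p : B) := (pow_dvd_pow w (by omega : 2 ≤ p)).trans ⟨_, hpeq⟩
  have hpo : ∀ o : O, w ∣ ι o → (p : O) ∣ o := fun o ho => by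
    rw [← Ideal.mem_span_singleton, ← hO.maximalIdeal_eq, mem_maximalIdeal, mem_nonunits_iff]
    exact fun hu => hirr.not_isUnit (isUnit_of_dvd_unit ho (hu.map ι))
  have hsq : ∀ o : O, w ∣ ι o → w ^ 2 ∣ ι o := fun o ho => by
    obtain ⟨t, rfl⟩ := hpo o ho
    rw [map_mul, map_natCast]
    exact dvd_mul_of_dvd_left hwp _
  have : IsAlgClosed (ResidueField B) := isAlgClosed_residueField_of_decomp hdec hmax
  have : CharP (ResidueField B) p := by
    refine (CharP.charP_iff_prime_eq_zero hp.out).mpr ?_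
    rw [← map_natCast (residue B), hres]
    exact (dvd_pow_self w two_ne_zero).trans hwp
  obtain ⟨red, hfst, hsnd⟩ := exists_dualNumber_reduction hdec hmax hirr.ne_zero hsq
  refine ⟨{
    O := O
    B := B
    le := hle
    dvrO := inferInstance
    completeO := inferInstance
    irredO := hO
    dvr := hdvr
    complete := hcompl
    algClosed := inferInstance
    charP := inferInstance
    unif := w
    irred := hirr
    mu := ((uu⁻¹ : Bˣ) : B)
    mu_isUnit := Units.isUnit _
    p_eq := hpeq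
    red₂ := red
    fst_red₂ := hfst
    snd_unif := by simpa using hsnd 0 1
    snd_mu := ?snd_mu
    snd_eq_zero_iff := ?iff
    seriesHyp := ?ser
    noRoot := ?noRoot
    zeta_mem := fun m hm => ⟨zetaC_mem_of_irreducible hO hm, inv_natCast_mem_of_irreducible hO hm⟩
    two_le := B2_le_of_irreducible hO hp2 }, rfl, rfl⟩
  case snd_mu =>
    intro h0
    have h1 : TrivSqZeroExt.snd (red uu) = -1 := by
      rw [show (uu : B) = ι c₀ + w * -choosePart p w by rw [huu]; ring, hsnd, map_neg, neg_inj,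
        ← map_one (residue B), ← sub_eq_zero, ← map_sub, hres]
      exact dvd_choosePart_sub_one w
    have h2 := congrArg TrivSqZeroExt.snd (congrArg red uu.mul_inv)
    rw [map_mul, map_one, TrivSqZeroExt.snd_mul, TrivSqZeroExt.snd_one, h0, h1, hfst] at h2
    simp only [smul_zero, zero_add, MulOpposite.smul_eq_mul_unop, MulOpposite.unop_op,
      neg_mul, one_mul, neg_eq_zero, hfst] at h2
    exact ((uu⁻¹).isUnit.map (residue B)).ne_zero h2
  case iff =>
    intro b
    constructor
    · intro h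
      obtain ⟨o, c, rfl⟩ := hdec b
      rw [hsnd, hres] at h
      obtain ⟨t, rfl⟩ := h
      exact ⟨ι o, o.2, t, by ring⟩
    · rintro ⟨o, ho, c, rfl⟩
      rw [show o + w ^ 2 * c = ι ⟨o, ho⟩ + w * (w * c) by rw [sq, mul_assoc]; rfl, hsnd, hres]
      exact dvd_mul_right _ _
  case ser =>
    refine { prime := hirr.prime, isMaximal := hmax ▸ inferInstance, separated := ?_,
             sq_dvd := hwp, residue := ?_, inter := ?_ }
    · intro b hb
      refine IsHausdorff.haus' (I := maximalIdeal B) b fun n => ?_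
      rw [SModEq.zero, smul_eq_mul, Ideal.mul_top, hmax, Ideal.span_singleton_pow,
        Ideal.mem_span_singleton]
      exact hb n
    · intro b
      obtain ⟨o, c, rfl⟩ := hdec b
      exact ⟨ι o, o.2, c, by ring⟩
    · intro o ho hd
      exact hsq ⟨(o : ℂ), ho⟩ hd
  case noRoot =>
    intro x hx hx1
    have hxB := mem_of_mem_closure_of_pow_eq_one hx hp.out.one_le hx1
    exact congrArg Subtype.val (eq_one_of_pow_eq_one_of_prime hp3 hp0 hirr.prime hwu
      (fun h => hirr.not_isUnit (isUnit_of_dvd_unit h uu.isUnit)) (x := (⟨x, hxB⟩ : B))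
      (Subtype.ext hx1))

end Fermat.Agent.AtP
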