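import Fermat.Agent.AtP.DescentLevelOne
import Fermat.Agent.AtP.SeriesRoots

/-!
# Rationality and bounded denominators for the Atkin–Lehner transform

`ratHyp` proves `RatHyp`, used for the expansions of a Kummer root, at level `p L`.
-/

set_option autoImplicit false

noncomputable section

open UpperHalfPlane CongruenceSubgroup
open scoped MatrixGroups Manifold
open Fermat.Agent.KummerES

namespace Fermat.Agent.AtP

variable {p : ℕ} [hp : Fact p.Prime] {L : ℕ} [NeZero L]

/-- `RatHyp` at level `p L`, for `M ∣ L`. -/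
theorem ratHyp (H : LevelHyp 2 L (zetaRing L)) (hp2 : p ≠ 2) (hpL : ¬ p ∣ L) {M : ℕ} (hM : M ∣ L)
    {b d : ℤ} (h : (p : ℤ) * d - (M : ℤ) * b = 1) {K : Subfield ℂ}
    (hK : zetaRing L ≤ K.toSubring) {B : Subring ℂ} (hB : zetaRing L ≤ B) {π : ℂ} (hπ : π ∈ B)
    (hbd : ∀ x ∈ K, ∃ N : ℕ, π ^ N * x ∈ B) : RatHyp h (p * L) K π B := by
  intro G hG hinv hGK
  have e : wFun h G = fun τ => G (Newforms.alW p M b d h • τ) := funext fun τ => wFun_apply h G τ
  rw [e]
  exact (rational_and_bounded H hp2 hpL hM h hK hB hπ hbd hG hinv hGK).2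

end Fermat.Agent.AtP
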