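import Fermat.Agent.AtP.AssemblyBase
import Fermat.Agent.AtP.SeriesRoots
import Fermat.Agent.AtP.SeriesScale
import Fermat.Prelude.Def_ModularCurve_PeriodHomPair

/-!
# The function attached to a class

A `Setting` records a parabolic character `χ` of level `p M`, a Kummer root `g` of it and the two
scaled functions: `f₁` is `f = g ^ p` scaled to a primitive expansion at `∞`, and `f₂` is `f ∘ W`
scaled likewise.  `exists_setting` in `AssemblyInput.lean` constructs it from the class.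
-/

set_option autoImplicit false

noncomputable section

open UpperHalfPlane CongruenceSubgroup
open scoped MatrixGroups
open ModularCurve (coeffMap)

namespace Fermat.Agent.AtP

/-- The function, both scaled expansions and their properties. -/
structure Setting {p : ℕ} [Fact p.Prime] (C : Coeff p) (M : ℕ) [NeZero M] where
  b : ℤ
  d : ℤ
  det : (p : ℤ) * d - ((2 * M : ℕ) : ℤ) * b = 1
  b_even : Even b
  χ : Additive (Gamma0 (p * M)) →+ ZMod p
  parabolic : χ ∈ ModularCurve.Period.parabolicHoms ℤ (Gamma0 (p * M)) (ZMod p)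
  g : ℍ → ℂ
  kummer : KummerES.IsKummer (p * (2 * M)) p χ g
  rational : KummerES.expansion 1 (g ^ p) ∈ KummerES.coeffSubring C.field.toSubring
  c₁ : ℂ
  c₂ : ℂ
  c₁_ne : c₁ ≠ 0
  c₂_ne : c₂ ≠ 0
  c₁_mem : c₁ ∈ C.field
  c₂_mem : c₂ ∈ C.field
  j₁ : ℤ
  j₂ : ℤ
  c₁_eq : c₁ = (C.unif : ℂ) ^ ((p : ℤ) * j₁)
  c₂_eq : c₂ = (C.unif : ℂ) ^ ((p : ℤ) * j₂)
  /-- The scaled function. -/
  f₁ : ℍ → ℂ
  /-- Its scaled transform. -/
  f₂ : ℍ → ℂ
  f₁_eq : f₁ = fun τ => c₁ * g τ ^ p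
  f₂_eq : f₂ = fun τ => c₂ * wFun det (g ^ p) τ
  s₁ : LaurentSeries C.B
  s₂ : LaurentSeries C.B
  exp₁ : KummerES.expansion 1 f₁ = coeffMap C.B.subtype s₁
  exp₂ : KummerES.expansion 1 f₂ = coeffMap C.B.subtype s₂
  prim₁ : IsPrim C.unif s₁
  prim₂ : IsPrim C.unif s₂
  sq₁ : ∀ i, TrivSqZeroExt.snd (C.red₂ (s₁.coeff i)) = 0
  sq₂ : ∀ i, TrivSqZeroExt.snd (C.red₂ (s₂.coeff i)) = 0
  roots : (∃ w, coeffMap (IsLocalRing.residue C.B) s₁ = w ^ p) → ∀ R : ℕ,
    ∃ h₁ h₂ : LaurentSeries C.B, redSer C.unif R (h₁ ^ p) = redSer C.unif R s₁ ∧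
      redSer C.unif R (h₂ ^ p) = redSer C.unif R s₂

end Fermat.Agent.AtP
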