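import Fermat.Agent.HeckeLattice.Transfer
import Fermat.Prelude.Def_ModularCurve_PeriodMap

/-!
# Characters of `Γ₀(p M)` trivial on `Γ₀(p) ∩ Γ(2M)`

A parabolic character of odd prime exponent which vanishes on `Γ₀(p) ∩ Γ(2M)` only depends on the
lower right entry modulo `M`; `T_ℓ` multiplies such a character by `ℓ + 1`.
-/

set_option autoImplicit false

noncomputable section

open CongruenceSubgroup Matrix.SpecialLinearGroup ModularCurve.Period
open Fermat.Agent.HeckeLattice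
open scoped MatrixGroups

namespace Fermat.Agent.AtP

variable {p M : ℕ}

/-- The matrix `(a, b; c, d)` in `SL(2, ℤ)`. -/
def intSL (a b c d : ℤ) (h : a * d - b * c = 1) : SL(2, ℤ) :=
  ⟨!![a, b; c, d], by rwa [Matrix.det_fin_two_of]⟩

@[simp] lemma coe_intSL (a b c d : ℤ) (h : a * d - b * c = 1) :
    (intSL a b c d h : Matrix (Fin 2) (Fin 2) ℤ) = !![a, b; c, d] := rfl

/-- The element `(1, n; 0, 1)` of `Γ₀(N)`. -/
def upperUnip (N : ℕ) (n : ℤ) : Gamma0 N :=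
  ⟨intSL 1 n 0 1 (by ring), Gamma0_mem.mpr (by simp)⟩

/-- The element `(1, 0; N, 1)` of `Γ₀(N)`. -/
def lowerUnip (N : ℕ) : Gamma0 N :=
  ⟨intSL 1 0 (N : ℤ) 1 (by ring), Gamma0_mem.mpr (by simp)⟩

lemma apply_upperUnip_mul {N : ℕ} {A : Type*} [AddCommGroup A] {χ : Additive (Gamma0 N) →+ A}
    (hχ : IsParabolicHom (Gamma0 N) χ) (n : ℤ) (γ : Gamma0 N) :
    χ (Additive.ofMul (upperUnip N n * γ)) = χ (Additive.ofMul γ) := by
  rw [ofMul_mul, map_add, hχ (upperUnip N n) (by simp [upperUnip, Matrix.trace_fin_two]), zero_add]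

lemma apply_lowerUnip_mul {N : ℕ} {A : Type*} [AddCommGroup A] {χ : Additive (Gamma0 N) →+ A}
    (hχ : IsParabolicHom (Gamma0 N) χ) (γ : Gamma0 N) :
    χ (Additive.ofMul (lowerUnip N * γ)) = χ (Additive.ofMul γ) := by
  rw [ofMul_mul, map_add, hχ (lowerUnip N) (by simp [lowerUnip, Matrix.trace_fin_two]), zero_add]

lemma upperUnip_mul_entries {N : ℕ} (n : ℤ) (γ : Gamma0 N) :
    (upperUnip N n * γ : Gamma0 N).1 0 0 = γ.1 0 0 + n * γ.1 1 0 ∧
    (upperUnip N n * γ : Gamma0 N).1 0 1 = γ.1 0 1 + n * γ.1 1 1 ∧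
    (upperUnip N n * γ : Gamma0 N).1 1 0 = γ.1 1 0 ∧
    (upperUnip N n * γ : Gamma0 N).1 1 1 = γ.1 1 1 := by
  simp [upperUnip, Matrix.mul_apply, Fin.sum_univ_two]

lemma lowerUnip_mul_entries {N : ℕ} (γ : Gamma0 N) :
    (lowerUnip N * γ : Gamma0 N).1 0 0 = γ.1 0 0 ∧
    (lowerUnip N * γ : Gamma0 N).1 0 1 = γ.1 0 1 ∧
    (lowerUnip N * γ : Gamma0 N).1 1 0 = γ.1 1 0 + N * γ.1 0 0 ∧
    (lowerUnip N * γ : Gamma0 N).1 1 1 = γ.1 1 1 + N * γ.1 0 1 := by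
  simp [lowerUnip, Matrix.mul_apply, Fin.sum_univ_two, add_comm]

lemma dvd_entry_of_mem {N : ℕ} (γ : Gamma0 N) : (N : ℤ) ∣ γ.1 1 0 :=
  (ZMod.intCast_zmod_eq_zero_iff_dvd _ _).mp (Gamma0_mem.mp γ.2)

/-- The determinant relation of the entries. -/
lemma det_entries (γ : SL(2, ℤ)) : γ 0 0 * γ 1 1 - γ 0 1 * γ 1 0 = 1 := by
  have := γ.det_coe
  rwa [Matrix.det_fin_two] at this

lemma mem_Gamma_iff_dvd {L : ℕ} {γ : SL(2, ℤ)} :
    γ ∈ Gamma L ↔ (L : ℤ) ∣ γ 0 0 - 1 ∧ (L : ℤ) ∣ γ 0 1 ∧ (L : ℤ) ∣ γ 1 0 ∧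
      (L : ℤ) ∣ γ 1 1 - 1 := by
  simp only [Gamma_mem, ← ZMod.intCast_zmod_eq_zero_iff_dvd, Int.cast_sub, Int.cast_one,
    sub_eq_zero]

lemma dvd_two_mul_of_odd {K x : ℤ} (hK : Odd K) (h : K ∣ x) (h2 : (2 : ℤ) ∣ x) : 2 * K ∣ x := by
  obtain ⟨r, rfl⟩ := h
  have hc := (Int.even_mul.mp (even_iff_two_dvd.mpr h2)).resolve_left (Int.not_even_iff_odd.mpr hK)
  rw [mul_comm 2 K]
  exact mul_dvd_mul_left K (even_iff_two_dvd.mp hc)

section vanish

variable [hp : Fact p.Prime] {χ : Additive (Gamma0 (p * M)) →+ ZMod p}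

/-- `χ` vanishes on `Γ₀(p M) ∩ Γ(M)`. -/
lemma apply_eq_zero_of_mem_Gamma (hp2 : p ≠ 2) (hχ : IsParabolicHom (Gamma0 (p * M)) χ)
    (hv : ∀ γ : Gamma0 (p * M), (γ : SL(2, ℤ)) ∈ Gamma0 p ⊓ Gamma (2 * M) →
      χ (Additive.ofMul γ) = 0)
    (γ : Gamma0 (p * M)) (hγ : (γ : SL(2, ℤ)) ∈ Gamma M) : χ (Additive.ofMul γ) = 0 := by
  have hpar : ∀ δ : Gamma0 (p * M), (δ : SL(2, ℤ)) ∈ Gamma (2 * M) →
      χ (Additive.ofMul δ) = 0 := fun δ hδ => hv δ (Subgroup.mem_inf.mpr ⟨by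
    have := dvd_entry_of_mem δ
    rw [Gamma0_mem, ZMod.intCast_zmod_eq_zero_iff_dvd]
    exact (Int.natCast_dvd_natCast.mpr (dvd_mul_right p M)).trans this, hδ⟩)
  have hpodd : Odd (p : ℤ) := by exact_mod_cast hp.out.odd_of_ne_two hp2
  obtain ⟨h00, h01, h10, h11⟩ := mem_Gamma_iff_dvd.mp hγ
  rcases Int.even_or_odd (M : ℤ) with hM | hM
  · -- `M` even: `γ ^ 2 ∈ Γ(2M)`
    have h2 : χ (Additive.ofMul (γ * γ)) = 0 := by
      refine hpar _ (mem_Gamma_iff_dvd.mpr ?_)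
      obtain ⟨x, hx⟩ := h00
      obtain ⟨y, hy⟩ := h01
      obtain ⟨z, hz⟩ := h10
      obtain ⟨w, hw⟩ := h11
      obtain ⟨r, hr⟩ := hM
      rw [sub_eq_iff_eq_add] at hx hw
      push_cast
      simp only [Matrix.SpecialLinearGroup.coe_mul, Matrix.mul_apply,
        Fin.sum_univ_two, hx, hy, hz, hw]
      exact ⟨⟨x + r * (x * x + y * z), by rw [hr]; ring⟩, ⟨y + r * y * (x + w), by rw [hr]; ring⟩,
        ⟨z + r * z * (x + w), by rw [hr]; ring⟩, ⟨w + r * (w * w + y * z), by rw [hr]; ring⟩⟩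
    rw [ofMul_mul, map_add, ← two_mul] at h2
    refine (mul_eq_zero.mp h2).resolve_left fun hd => hp2 ?_
    exact (Nat.prime_dvd_prime_iff_eq hp.out Nat.prime_two).mp
      ((ZMod.natCast_eq_zero_iff 2 p).mp (by exact_mod_cast hd))
  · -- `M` odd: reduce modulo `2` by the two unipotents
    have hN : Odd ((p * M : ℕ) : ℤ) := by push_cast; exact hpodd.mul hM
    have hMN : (M : ℤ) ∣ ((p * M : ℕ) : ℤ) := by push_cast; exact dvd_mul_left _ _
    -- make the upper left entry odd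
    obtain ⟨γ₁, hγ₁, hχ₁, ha₁⟩ : ∃ γ₁ : Gamma0 (p * M), (γ₁ : SL(2, ℤ)) ∈ Gamma M ∧
        χ (Additive.ofMul γ₁) = χ (Additive.ofMul γ) ∧ Odd (γ₁.1 0 0) := by
      rcases Int.even_or_odd (γ.1 0 0) with ha | ha
      · obtain ⟨e00, e01, e10, e11⟩ := upperUnip_mul_entries (M : ℤ) γ
        have hc : Odd (γ.1 1 0) := by
          by_contra hc
          have : Even (γ.1 0 0 * γ.1 1 1 - γ.1 0 1 * γ.1 1 0) :=
            (ha.mul_right _).sub ((Int.not_odd_iff_even.mp hc).mul_left _)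
          rw [det_entries] at this
          exact absurd this (by decide)
        refine ⟨_, mem_Gamma_iff_dvd.mpr ?_, apply_upperUnip_mul hχ (M : ℤ) γ, ?_⟩
        · rw [e00, e01, e10, e11]
          exact ⟨by rw [add_sub_right_comm]; exact dvd_add h00 (dvd_mul_right _ _),
            dvd_add h01 (dvd_mul_right _ _), h10, h11⟩
        · rw [e00]; exact ha.add_odd (hM.mul hc)
      · exact ⟨γ, hγ, rfl, ha⟩
    rw [← hχ₁]
    obtain ⟨h00', h01', h10', h11'⟩ := mem_Gamma_iff_dvd.mp hγ₁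
    -- make the lower left entry even
    obtain ⟨γ₂, hγ₂, hχ₂, ha₂, hc₂⟩ : ∃ γ₂ : Gamma0 (p * M), (γ₂ : SL(2, ℤ)) ∈ Gamma M ∧
        χ (Additive.ofMul γ₂) = χ (Additive.ofMul γ₁) ∧ Odd (γ₂.1 0 0) ∧ Even (γ₂.1 1 0) := by
      rcases Int.even_or_odd (γ₁.1 1 0) with hc | hc
      · exact ⟨γ₁, hγ₁, rfl, ha₁, hc⟩
      · obtain ⟨e00, e01, e10, e11⟩ := lowerUnip_mul_entries γ₁
        refine ⟨_, mem_Gamma_iff_dvd.mpr ?_, apply_lowerUnip_mul hχ γ₁, ?_, ?_⟩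
        · rw [e00, e01, e10, e11]
          exact ⟨h00', h01', dvd_add h10' (hMN.mul_right _),
            by rw [add_sub_right_comm]; exact dvd_add h11' (hMN.mul_right _)⟩
        · rw [e00]; exact ha₁
        · rw [e10]; exact hc.add_odd (hN.mul ha₁)
    rw [← hχ₂]
    obtain ⟨k00, k01, k10, k11⟩ := mem_Gamma_iff_dvd.mp hγ₂
    have hd₂ : Odd (γ₂.1 1 1) := by
      by_contra hd
      have : Even (γ₂.1 0 0 * γ₂.1 1 1 - γ₂.1 0 1 * γ₂.1 1 0) :=
        ((Int.not_odd_iff_even.mp hd).mul_left _).sub (hc₂.mul_left _)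
      rw [det_entries] at this
      exact absurd this (by decide)
    -- make the upper right entry even
    obtain ⟨n, hn, hb⟩ : ∃ n : ℤ, (M : ℤ) ∣ n ∧ Even (γ₂.1 0 1 + n * γ₂.1 1 1) := by
      rcases Int.even_or_odd (γ₂.1 0 1) with hb | hb
      · exact ⟨0, dvd_zero _, by rwa [zero_mul, add_zero]⟩
      · exact ⟨M, dvd_rfl, hb.add_odd (hM.mul hd₂)⟩
    rw [← apply_upperUnip_mul hχ n γ₂]
    refine hpar _ (mem_Gamma_iff_dvd.mpr ?_)
    obtain ⟨e00, e01, e10, e11⟩ := upperUnip_mul_entries n γ₂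
    rw [e00, e01, e10, e11]
    push_cast
    exact ⟨dvd_two_mul_of_odd hM (by rw [add_sub_right_comm]; exact dvd_add k00 (hn.mul_right _))
        (even_iff_two_dvd.mp ((ha₂.add_even (hc₂.mul_left _)).sub_odd odd_one)),
      dvd_two_mul_of_odd hM (dvd_add k01 (hn.mul_right _)) (even_iff_two_dvd.mp hb),
      dvd_two_mul_of_odd hM k10 (even_iff_two_dvd.mp hc₂),
      dvd_two_mul_of_odd hM k11 (even_iff_two_dvd.mp (hd₂.sub_odd odd_one))⟩

/-- `χ` only depends on the lower right entry modulo `M`. -/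
lemma apply_eq_of_lowerRight (hp2 : p ≠ 2) (hχ : IsParabolicHom (Gamma0 (p * M)) χ)
    (hv : ∀ γ : Gamma0 (p * M), (γ : SL(2, ℤ)) ∈ Gamma0 p ⊓ Gamma (2 * M) →
      χ (Additive.ofMul γ) = 0)
    {γ δ : Gamma0 (p * M)} (h : ((γ.1 1 1 : ℤ) : ZMod M) = (δ.1 1 1 : ℤ)) :
    χ (Additive.ofMul γ) = χ (Additive.ofMul δ) := by
  have key : ∀ α : Gamma0 (p * M), ((α.1 1 1 : ℤ) : ZMod M) = 1 →
      χ (Additive.ofMul α) = 0 := by
    intro α hα
    rw [← apply_upperUnip_mul hχ (-α.1 0 1) α]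
    refine apply_eq_zero_of_mem_Gamma hp2 hχ hv _ (Gamma_mem.mpr ?_)
    obtain ⟨e00, e01, e10, e11⟩ := upperUnip_mul_entries (-α.1 0 1) α
    have hc : ((α.1 1 0 : ℤ) : ZMod M) = 0 := (ZMod.intCast_zmod_eq_zero_iff_dvd _ _).mpr
      ((Int.natCast_dvd_natCast.mpr (dvd_mul_left M p)).trans (dvd_entry_of_mem α))
    have hdet := congrArg (Int.cast : ℤ → ZMod M) (det_entries α.1)
    push_cast at hdet
    rw [hc, hα, mul_zero, sub_zero, mul_one] at hdet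
    rw [e00, e01, e10, e11]
    push_cast
    rw [hc, hα, hdet]
    simp
  have h1 := key (γ * δ⁻¹) (by
    have hc : ∀ α : Gamma0 (p * M), ((α.1 1 0 : ℤ) : ZMod M) = 0 := fun α =>
      (ZMod.intCast_zmod_eq_zero_iff_dvd _ _).mpr
        ((Int.natCast_dvd_natCast.mpr (dvd_mul_left M p)).trans (dvd_entry_of_mem α))
    have hdet := congrArg (Int.cast : ℤ → ZMod M) (det_entries δ.1)
    push_cast at hdet
    rw [hc δ, mul_zero, sub_zero] at hdet
    have he : ((γ * δ⁻¹ : Gamma0 (p * M)).1 1 1 : ℤ)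
        = γ.1 1 0 * (-δ.1 0 1) + γ.1 1 1 * δ.1 0 0 := by
      simp [Matrix.mul_apply, Fin.sum_univ_two, Matrix.SpecialLinearGroup.coe_inv,
        Matrix.adjugate_fin_two]
    rw [he]
    push_cast
    rw [hc γ, zero_mul, zero_add, h, mul_comm, hdet])
  rw [ofMul_mul, map_add, ofMul_inv, map_neg, add_neg_eq_zero] at h1
  exact h1

/-- The lower right entry of the representatives. -/
def repLower (ℓ : ℕ) (x : Idx ℓ) : ℤ := x.elim 1 fun _ => (ℓ : ℤ)

omit hp in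
lemma cocycle_lowerRight {N ℓ : ℕ} [hℓ : Fact ℓ.Prime] (hℓN : ¬ ℓ ∣ N) (γ : Gamma0 N)
    (x : Idx ℓ) {K : ℕ} (hK : K ∣ N) :
    ((repLower ℓ ((gamma0System N ℓ hℓN).next γ x) : ℤ) : ZMod K) *
        (((gamma0System N ℓ hℓN).cocycle γ x).1 1 1 : ℤ) =
      (repLower ℓ x : ℤ) * (γ.1 1 1 : ℤ) := by
  have hℓ0 : ℓ ≠ 0 := hℓ.out.ne_zero
  set g := (gamma0System N ℓ hℓN).cocycle γ x
  set y := (gamma0System N ℓ hℓN).next γ x
  have h : rep ℓ x * HeckeLattice.toGL γ = HeckeLattice.toGL g * rep ℓ y := (gamma0System N ℓ hℓN).rep_mul γ x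
  have h11 : ((rep ℓ x * HeckeLattice.toGL γ : GL (Fin 2) ℝ) : Matrix (Fin 2) (Fin 2) ℝ) 1 1 =
      ((HeckeLattice.toGL g * rep ℓ y : GL (Fin 2) ℝ) : Matrix (Fin 2) (Fin 2) ℝ) 1 1 := by rw [h]
  have hg0 : ((g.1 1 0 : ℤ) : ZMod K) = 0 := (ZMod.intCast_zmod_eq_zero_iff_dvd _ _).mpr
    ((Int.natCast_dvd_natCast.mpr hK).trans (dvd_entry_of_mem g))
  obtain ⟨j, hj⟩ : ∃ j : ℤ,
      repLower ℓ x * γ.1 1 1 = g.1 1 0 * j + g.1 1 1 * repLower ℓ y := by
    cases x using OnePoint.rec with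
    | infty =>
      cases hy : y using OnePoint.rec with
      | infty =>
        simp [hy, rep, repLower, hℓ0, HeckeLattice.toGL, Matrix.mul_apply, Fin.sum_univ_two] at h11 ⊢
        exact ⟨0, by simpa using h11⟩
      | coe j =>
        simp [hy, rep, repLower, hℓ0, HeckeLattice.toGL, Matrix.mul_apply, Fin.sum_univ_two] at h11 ⊢
        rw [← ZMod.natCast_val] at h11
        exact ⟨j.val, by exact_mod_cast h11⟩
    | coe i =>
      cases hy : y using OnePoint.rec with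
      | infty =>
        simp [hy, rep, repLower, hℓ0, HeckeLattice.toGL, Matrix.mul_apply, Fin.sum_univ_two] at h11 ⊢
        exact ⟨0, by rw [mul_zero, zero_add]; exact_mod_cast h11⟩
      | coe j =>
        simp [hy, rep, repLower, hℓ0, HeckeLattice.toGL, Matrix.mul_apply, Fin.sum_univ_two] at h11 ⊢
        rw [← ZMod.natCast_val] at h11
        exact ⟨j.val, by exact_mod_cast h11⟩
  have h2 := congrArg (Int.cast : ℤ → ZMod K) hj
  push_cast at h2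
  rw [hg0, zero_mul, zero_add] at h2
  rw [h2, mul_comm]

/-- **A non-Eisenstein parabolic character trivial on `Γ₀(p) ∩ Γ(2M)` is zero.** -/
theorem eq_zero_of_vanish_congr (hp2 : p ≠ 2)
    (hχ : χ ∈ parabolicHoms (ZMod p) (Gamma0 (p * M)) (ZMod p))
    (hv : ∀ γ : Gamma0 (p * M), (γ : SL(2, ℤ)) ∈ Gamma0 p ⊓ Gamma (2 * M) →
      χ (Additive.ofMul γ) = 0)
    {ℓ : ℕ} [hℓ : Fact ℓ.Prime] (hℓN : ¬ ℓ ∣ p * M) {a : ℤ}
    (hT : HeckeLattice.transfer hℓN χ = a • χ) (hne : ((ℓ : ZMod p) + 1 - a) ≠ 0) : χ = 0 := by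
  rw [mem_parabolicHoms_iff] at hχ
  have hex : ∀ x : Idx ℓ, ∃ δ : Gamma0 (p * M), δ.1 1 1 = repLower ℓ x := by
    intro x
    have hco : IsCoprime (repLower ℓ x) ((p * M : ℕ) : ℤ) := by
      cases x using OnePoint.rec with
      | infty => exact isCoprime_one_left
      | coe i => exact Nat.isCoprime_iff_coprime.mpr (hℓ.out.coprime_iff_not_dvd.mpr hℓN)
    obtain ⟨u, v, huv⟩ := hco
    exact ⟨⟨intSL u (-v) ((p * M : ℕ) : ℤ) (repLower ℓ x) (by linear_combination huv),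
      Gamma0_mem.mpr ((ZMod.intCast_zmod_eq_zero_iff_dvd _ _).mpr (by simp))⟩, by simp⟩
  choose δ hδ using hex
  refine AddMonoidHom.ext fun γ' => ?_
  obtain ⟨γ, rfl⟩ := Additive.ofMul.surjective γ'
  set D := gamma0System (p * M) ℓ hℓN
  have hkey : ∀ x, χ (Additive.ofMul (D.cocycle γ x)) + χ (Additive.ofMul (δ (D.next γ x))) =
      χ (Additive.ofMul γ) + χ (Additive.ofMul (δ x)) := by
    intro x
    rw [← map_add, ← ofMul_mul, ← map_add, ← ofMul_mul]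
    refine apply_eq_of_lowerRight hp2 hχ hv ?_
    have hc : ∀ α : Gamma0 (p * M), ((α.1 1 0 : ℤ) : ZMod M) = 0 := fun α =>
      (ZMod.intCast_zmod_eq_zero_iff_dvd _ _).mpr
        ((Int.natCast_dvd_natCast.mpr (dvd_mul_left M p)).trans (dvd_entry_of_mem α))
    simp only [Subgroup.coe_mul, Matrix.SpecialLinearGroup.coe_mul, Matrix.mul_apply,
      Fin.sum_univ_two]
    push_cast
    rw [hc, hc, zero_mul, zero_add, zero_mul, zero_add, hδ, hδ, mul_comm,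
      cocycle_lowerRight hℓN γ x (dvd_mul_left M p), mul_comm]
  have hsum : ∑ x, χ (Additive.ofMul (D.cocycle γ x)) =
      ∑ _x : Idx ℓ, χ (Additive.ofMul γ) := by
    have := Finset.sum_congr (s₁ := (Finset.univ : Finset (Idx ℓ))) rfl fun x _ => hkey x
    rw [Finset.sum_add_distrib, Finset.sum_add_distrib,
      show ∑ x, χ (Additive.ofMul (δ (D.next γ x))) = ∑ x, χ (Additive.ofMul (δ x)) from
        Equiv.sum_comp (D.nextPerm γ) (fun y => χ (Additive.ofMul (δ y)))] at this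
    exact add_right_cancel this
  have h1 := DFunLike.congr_fun hT (Additive.ofMul γ)
  rw [HeckeLattice.transfer, CosetSystem.transfer_apply, hsum, Finset.sum_const, Finset.card_univ,
    AddMonoidHom.smul_apply,
    show Fintype.card (Idx ℓ) = ℓ + 1 from (Fintype.card_option (α := ZMod ℓ)).trans (by rw [ZMod.card]),
    nsmul_eq_mul, zsmul_eq_mul] at h1
  push_cast at h1
  have h2 : ((ℓ : ZMod p) + 1 - a) * χ (Additive.ofMul γ) = 0 := by
    linear_combination h1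
  exact (mul_eq_zero.mp h2).resolve_left hne

end vanish

end Fermat.Agent.AtP
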