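import Fermat.Agent.AtP.SeriesRoots
import Fermat.Agent.AtP.SeriesScale
import Fermat.Agent.AtP.SeriesTheta

/-!
# The expansions of a Kummer root in Mazur's principle at `p`

For a Kummer root `g` of a class with `W χ = -α χ`, `U χ = α χ` and `T_ℓ χ = a_ℓ χ`, with rational
expansion of leading coefficient `1`, the expansions `s` at `∞` and `s_W` after `W` of `f = g ^ p`
are, up to `p`-th powers of `π`, series over `O + π² B`; the logarithmic derivative of the
reduction is an eigenseries; and if the reduction is a `p`-th power, both have roots modulo every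
power of `π`.
-/

set_option autoImplicit false

noncomputable section

open UpperHalfPlane CongruenceSubgroup
open scoped MatrixGroups Manifold

namespace Fermat.Agent.AtP

open KummerES (comp IsKummer expansion coeffSubring zetaC)
open ModularCurve (qExpand coeffMap)

section residue

variable {p : ℕ} {B : Subring ℂ} {π : B} {k : Type*} [Field k] {red : B →+* k}

/-- `ζ_ℓ` reduces to a primitive root of unity when `ℓ` is invertible. -/
lemma isPrimitiveRoot_red {ℓ : ℕ} [hℓ : Fact ℓ.Prime] (hlk : (ℓ : k) ≠ 0) (hζ : zetaC ℓ ∈ B) :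
    IsPrimitiveRoot (red ⟨zetaC ℓ, hζ⟩) ℓ := by
  have hpow : (⟨zetaC ℓ, hζ⟩ : B) ^ ℓ = 1 :=
    Subtype.ext (KummerES.isPrimitiveRoot_zetaC ℓ).pow_eq_one
  have hne : red ⟨zetaC ℓ, hζ⟩ ≠ 1 := fun h1 => by
    have hsum : (∑ i ∈ Finset.range ℓ, (⟨zetaC ℓ, hζ⟩ : B) ^ i) = 0 := by
      refine Subtype.ext ?_
      push_cast
      exact (KummerES.isPrimitiveRoot_zetaC ℓ).geom_sum_eq_zero hℓ.out.one_lt
    have := congrArg red hsum
    simp only [map_sum, map_pow, h1, one_pow, Finset.sum_const, Finset.card_range, nsmul_eq_mul,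
      mul_one, map_zero] at this
    exact hlk this
  have hord := orderOf_eq_prime (by rw [← map_pow, hpow, map_one]) hne
  conv => arg 2; rw [← hord]
  exact IsPrimitiveRoot.orderOf _

/-- A series is primitive iff its reduction is nonzero. -/
lemma coeffMap_red_cst (hker : ∀ b, red b = 0 ↔ π ∣ b) {s : LaurentSeries B} :
    IsPrim π s ↔ coeffMap red s ≠ 0 := isPrim_iff_coeffMap red hker

lemma qExpand_heckeSer {ℓ : ℕ} [NeZero ℓ] {z : k} (hz : IsPrimitiveRoot z ℓ)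
    (s : LaurentSeries k) :
    qExpand k ℓ (heckeSer ℓ s) = (∏ j : Fin ℓ, KummerES.twist (z ^ (j : ℕ))
      (pow_ne_zero _ (hz.ne_zero (NeZero.ne ℓ))) s) * qExpand k (ℓ * ℓ) s := by
  rw [map_mul, qExpand_uNorm ℓ hz, ModularCurve.qExpand_qExpand]

lemma coeffMap_heckeSer {R S : Type*} [CommRing R] [CommRing S] (f : R →+* S) {ℓ : ℕ} [NeZero ℓ]
    (s : LaurentSeries R) : coeffMap f (heckeSer ℓ s) = heckeSer ℓ (coeffMap f s) := by
  rw [map_mul, coeffMap_uNorm, ModularCurve.coeffMap_qExpand]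

lemma isPrim_uNorm_of_ne (hker : ∀ b, red b = 0 ↔ π ∣ b) {ℓ : ℕ} [hℓ : Fact ℓ.Prime]
    (hlk : (ℓ : k) ≠ 0) (hζ : zetaC ℓ ∈ B) {X : LaurentSeries B} (hX : IsPrim π X) :
    IsPrim π (uNorm ℓ X) := by
  rw [coeffMap_red_cst hker] at hX ⊢
  rw [coeffMap_uNorm]
  intro h0
  have := qExpand_uNorm ℓ (isPrimitiveRoot_red (red := red) hlk hζ) (coeffMap red X)
  rw [h0, map_zero] at this
  exact Finset.prod_ne_zero_iff.mpr (fun j _ => (map_ne_zero _).mpr hX) this.symm

end residue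

variable {p M : ℕ} [hp : Fact p.Prime] {b d : ℤ} (h : (p : ℤ) * d - (M : ℤ) * b = 1)
variable {L : ℕ} [NeZero L]

/-- A transfer acting by `a` with `p ∣ a + m` is killed after adding `m • χ`. -/
lemma transfer_add_nsmul_eq_zero {χ : Additive (Gamma0 (p * M)) →+ ZMod p} {P : Type} [Fintype P]
    (C : Reps (Gamma0 (p * M)) (Gamma0 (p * M)) P) {a : ℤ} {m : ℕ} (hC : C.transfer χ = a • χ)
    (hdvd : (p : ℤ) ∣ a + m) : C.transfer χ + m • χ = 0 := by
  rw [hC, ← natCast_zsmul χ m, ← add_zsmul]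
  refine AddMonoidHom.ext fun γ => ?_
  rw [AddMonoidHom.smul_apply, zsmul_eq_mul, (ZMod.intCast_zmod_eq_zero_iff_dvd _ p).mpr hdvd,
    zero_mul, AddMonoidHom.zero_apply]

/-- `p ∣ a + m` for the representative `m` of `-a`. -/
lemma dvd_add_val_neg (a : ℤ) : (p : ℤ) ∣ a + ((-a : ZMod p).val : ℕ) :=
  (ZMod.intCast_zmod_eq_zero_iff_dvd _ p).mp (by simp)

/-- Multipliers `1` or `p - 1` for a sign. -/
lemma exists_multipliers {α : ℤ} (hα : α = 1 ∨ α = -1) : ∃ mU mW : ℕ,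
    (mU = 1 ∨ mU + 1 = p) ∧ (p : ℤ) ∣ α + mU ∧ (p : ℤ) ∣ -α + mW := by
  obtain ⟨q, hq⟩ : ∃ q, p = q + 1 := ⟨p - 1, (Nat.succ_pred hp.out.ne_zero).symm⟩
  rcases hα with rfl | rfl
  · exact ⟨q, 1, Or.inr hq.symm, ⟨1, by rw [hq]; push_cast; ring⟩, by simp⟩
  · exact ⟨1, q, Or.inl rfl, by simp, ⟨1, by rw [hq]; push_cast; ring⟩⟩

section content

variable {O B : Subring ℂ} {π : B} (hH : SeriesHyp p π (O.comap B.subtype)) {F : Subfield ℂ}
  (hrat : RatHyp h L F (π : ℂ) B) (hL : Gamma L ≤ Gamma0 (p * M))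
  {χ : Additive (Gamma0 (p * M)) →+ ZMod p} {g : ℍ → ℂ} (hg : IsKummer L p χ g)
  (hs : expansion 1 (g ^ p) ∈ coeffSubring F.toSubring)
  (hlead : (expansion 1 (g ^ p)).leadingCoeff = 1) {e : ℤ} {S : LaurentSeries B}
  (hS : HasContent π (expansion 1 (g ^ p)) e S)
include hH hrat hL hg hs hlead hS

/-- A root of a rational product with trivial multiplier, with its content. -/
lemma exists_root_content {P : Type} [Fintype P] (C : Reps (Gamma0 (p * M)) (Gamma0 (p * M)) P)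
    {ℓ : ℕ} [Fact ℓ.Prime] (hC : C.IsStd ℓ) {m : ℕ} (hrel : C.transfer χ + m • χ = 0)
    {E : LaurentSeries ℂ} (hE : KummerES.HasExp 1 (C.prodFun (g ^ p)) E)
    (hEF : E ∈ coeffSubring F.toSubring) {c : ℂ} (hc : c ∈ F) (hElead : E.leadingCoeff = c ^ p)
    {eE : ℤ} {EB : LaurentSeries B} (hEB : HasContent π E eE EB) :
    ∃ (i : ℤ) (H : LaurentSeries B), eE + e * m = i * p ∧ EB * S ^ m = H ^ p := by
  obtain ⟨G, hG, hGF, hGn, -⟩ := exists_root_infty hL hg F C hC hrel hE hEF hs hc (by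
    rw [HahnSeries.leadingCoeff_mul, hElead, leadingCoeff_pow', hlead, one_pow, mul_one])
  obtain ⟨-, N', hN', -⟩ := hrat G (KummerES.weak_mono hL le_rfl hG) hG.2.1 hGF
  have hlhs := HasContent.mul hH.toContentHyp hEB (HasContent.pow hH.toContentHyp hS m)
  rw [← hGn] at hlhs
  have hG0 : expansion 1 G ≠ 0 := fun h0 => by
    rw [h0, zero_pow hp.out.ne_zero] at hlhs
    obtain ⟨i, hi⟩ := hlhs.1
    refine hi ?_
    rcases mul_eq_zero.mp hlhs.2.symm with h4 | h4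
    · exact absurd h4
        (HahnSeries.single_ne_zero (zpow_ne_zero _ (HasContent.pi_ne_zero hH.toContentHyp)))
    · rw [coeffMap_subtype_injective (h4.trans (map_zero _).symm)]
      simp
  obtain ⟨i, H, hHc⟩ := HasContent.exists_content hH.toContentHyp hG0 hN'
  obtain ⟨h1, h2⟩ := HasContent.unique hH.toContentHyp hlhs (HasContent.pow hH.toContentHyp hHc p)
  exact ⟨i, H, h1, h2⟩

variable (hp2 : Odd p) (hsX : KummerES.HasExp 1 (g ^ p) (expansion 1 (g ^ p)))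
include hp2 hsX

/-- The root of the `U_p`-product. -/
lemma exists_uNorm_root {α : ℤ} (hU : (uReps p M).transfer χ = α • χ) {m : ℕ}
    (hm : (p : ℤ) ∣ α + m) : ∃ H : LaurentSeries B, uNorm p S * S ^ m = H ^ p := by
  obtain ⟨ε, hε, hεl⟩ :=
    exists_leadingCoeff_uNorm p (KummerES.isPrimitiveRoot_zetaC p) (expansion 1 (g ^ p))
  rw [hlead, one_pow, mul_one] at hεl
  obtain ⟨i, H, -, hHe⟩ := exists_root_content h hH hrat hL hg hs hlead hS (uReps p M) isStd_uReps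
    (transfer_add_nsmul_eq_zero _ hU hm) (hasExp_uProd hsX) (coeff_uNorm_mem hs) (c := ε)
    (by rcases hε with rfl | rfl; exacts [one_mem _, neg_mem (one_mem _)])
    (by rcases hε with rfl | rfl
        · rw [hεl, one_pow]
        · rw [hεl, hp2.neg_one_pow])
    (HasContent.uNorm hS (hH.isPrim_uNorm hS.1))
  exact ⟨H, hHe⟩

variable {k : Type*} [Field k] [CharP k p] {red : B →+* k} (hker : ∀ b, red b = 0 ↔ π ∣ b)
  (hζ : ∀ ℓ : ℕ, ℓ.Prime → ℓ ≠ p → zetaC ℓ ∈ B) {ℓ : ℕ} [hlp : Fact ℓ.Prime] (hℓ : ¬ ℓ ∣ p * M)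
  {a : ℤ} (ha : HeckeLattice.transfer hℓ χ = a • χ)
include hker hζ ha

/-- The root of the Hecke product at `ℓ`. -/
lemma exists_heckeSer_root : ∃ (i : ℤ) (H : LaurentSeries B),
    e * (ℓ + 1) + e * ((-a : ZMod p).val : ℕ) = i * p ∧
      heckeSer ℓ S * S ^ (-a : ZMod p).val = H ^ p := by
  have hlp' : ℓ ≠ p := by rintro rfl; exact hℓ (dvd_mul_right _ M)
  have hlk : (ℓ : k) ≠ 0 := by
    rw [Ne, CharP.cast_eq_zero_iff k p, Nat.prime_dvd_prime_iff_eq hp.out hlp.out]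
    exact hlp'.symm
  obtain ⟨ε, hε, hεl⟩ := exists_leadingCoeff_heckeSer ℓ (expansion 1 (g ^ p))
  rw [hlead, one_pow, mul_one] at hεl
  have hcont : HasContent π (heckeSer ℓ (expansion 1 (g ^ p))) (e * (ℓ + 1)) (heckeSer ℓ S) := by
    have := HasContent.mul hH.toContentHyp (HasContent.uNorm hS
      (isPrim_uNorm_of_ne hker hlk (hζ ℓ hlp.out hlp') hS.1)) (HasContent.qExpand hS (r := ℓ))
    rwa [show e * (ℓ : ℤ) + e = e * (ℓ + 1) by ring] at this
  refine exists_root_content h hH hrat hL hg hs hlead hS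
    (Reps.ofCosetSystem (HeckeLattice.gamma0System (p * M) ℓ hℓ)) (isStd_gamma0 hℓ)
    (transfer_add_nsmul_eq_zero _ ha (dvd_add_val_neg a)) (hasExp_heckeProd hℓ hsX)
    (coeff_heckeSer_mem hs) (c := ε) ?_ ?_ hcont
  · rcases hε with rfl | rfl
    · exact one_mem _
    · exact neg_mem (one_mem _)
  · rcases hε with rfl | rfl
    · rw [hεl, one_pow]
    · rw [hεl, hp2.neg_one_pow]

/-- The logarithmic derivative of the reduction is eigen at `ℓ`. -/
lemma serLogDeriv_eigen (n : ℤ) :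
    (serLogDeriv (coeffMap red S)).coeff (ℓ * n) + (ℓ : k) *
        (if (ℓ : ℤ) ∣ n then (serLogDeriv (coeffMap red S)).coeff (n / ℓ) else 0)
      = (a : k) * (serLogDeriv (coeffMap red S)).coeff n := by
  have hlp' : ℓ ≠ p := by rintro rfl; exact hℓ (dvd_mul_right _ M)
  have hlk : (ℓ : k) ≠ 0 := by
    rw [Ne, CharP.cast_eq_zero_iff k p, Nat.prime_dvd_prime_iff_eq hp.out hlp.out]
    exact hlp'.symm
  obtain ⟨-, H, -, hHe⟩ := exists_heckeSer_root h hH hrat hL hg hs hlead hS hp2 hsX hker hζ hℓ ha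
  have hz := isPrimitiveRoot_red (red := red) hlk (hζ ℓ hlp.out hlp')
  have h1 := congrArg (coeffMap red) hHe
  rw [map_mul, map_pow, map_pow, coeffMap_heckeSer] at h1
  have hS0 : coeffMap red S ≠ 0 := (coeffMap_red_cst hker).1 hS.1
  have hH0 : coeffMap red H ≠ 0 := by
    intro h0
    rw [h0, zero_pow hp.out.ne_zero, mul_eq_zero] at h1
    refine h1.elim (fun h2 => ?_) (pow_ne_zero _ hS0)
    have h3 := qExpand_heckeSer hz (coeffMap red S)
    rw [h2, map_zero] at h3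
    exact mul_ne_zero (Finset.prod_ne_zero_iff.mpr fun j _ => (map_ne_zero _).mpr hS0)
      ((map_ne_zero _).mpr hS0) h3.symm
  refine serLogDeriv_hecke hlk hz hS0 hH0 (qExpand_heckeSer hz _) (a := (a : k)) ?_ h1 n
  have h5 := (CharP.intCast_eq_zero_iff k p _).2 (dvd_add_val_neg (p := p) a)
  push_cast at h5
  exact h5

end content

/-- A series in `O + π² B`, coefficient by coefficient. -/
lemma exists_add_sq_of_mem_sqSeries {O B : Subring ℂ} {π : B} {T : LaurentSeries B}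
    (hT : T ∈ sqSeries π (O.comap B.subtype)) (i : ℤ) :
    ∃ o ∈ O, ∃ c ∈ B, ((T.coeff i : B) : ℂ) = o + (π : ℂ) ^ 2 * c := by
  obtain ⟨o, ho, c, hc⟩ := mem_sqSubring.1 (mem_sqSeries.1 hT i)
  refine ⟨o, ho, c, c.2, ?_⟩
  have := congrArg B.subtype hc
  simp only [map_sub, map_mul, map_pow, Subring.subtype_apply] at this
  linear_combination this

/-- If the reduction is a `p`-th power, the two series have roots modulo every power of `π`. -/
lemma exists_roots_of_red_eq_pow {O B : Subring ℂ} {π : B}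
    (hH : SeriesHyp p π (O.comap B.subtype)) {k : Type*} [Field k] {red : B →+* k}
    (hker : ∀ b, red b = 0 ↔ π ∣ b) (hsurj : Function.Surjective red)
    {S SW HU HW : LaurentSeries B} (hS : IsPrim π S) {mU mW : ℕ} (hmU : mU = 1 ∨ mU + 1 = p)
    (hHU : uNorm p S * S ^ mU = HU ^ p) (hHW : SW * S ^ mW = HW ^ p) {w : LaurentSeries k}
    (hw : coeffMap red S = w ^ p) (R : ℕ) :
    ∃ h₁ h₂ : LaurentSeries B,
      redSer π R (h₁ ^ p) = redSer π R S ∧ redSer π R (h₂ ^ p) = redSer π R SW := by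
  have hwit : ∃ w', redSer π 1 S = w' ^ p := by
    obtain ⟨W, -, hW⟩ := exists_coeff_lift (P := fun _ => True) (f := red) trivial
      (fun y => (hsurj y).imp fun _ hx => ⟨trivial, hx⟩) w
    refine ⟨redSer π 1 W, sub_eq_zero.1 ?_⟩
    rw [← map_pow, ← map_sub, redSer_eq_zero_iff]
    intro i
    rw [pow_one, ← hker, ← ModularCurve.coeffMap_coeff, map_sub, map_pow, hW, hw, sub_self,
      HahnSeries.coeff_zero]
  obtain ⟨g₁, hg₁⟩ := hH.exists_root_of_norm_eq hS hmU hHU hwit R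
  obtain ⟨u, hu⟩ := hH.isUnit_redSer (R := R) hS
  have hg₁u : IsUnit (redSer π R g₁) :=
    (isUnit_pow_iff hp.out.ne_zero).1 (by rw [← map_pow, hg₁, ← hu]; exact u.isUnit)
  obtain ⟨v, hv⟩ := hg₁u.exists_right_inv
  obtain ⟨g₂, -, hg₂⟩ := exists_coeff_lift (P := fun _ => True)
    (f := Ideal.Quotient.mk (Ideal.span {π ^ R})) trivial
    (fun y => (Ideal.Quotient.mk_surjective y).imp fun _ hx => ⟨trivial, hx⟩)
    (redSer π R HW * v ^ mW)
  refine ⟨g₁, g₂, hg₁, ?_⟩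
  have h2 := congrArg (redSer π R) hHW
  rw [map_mul, map_pow, map_pow, ← hg₁] at h2
  rw [map_pow, show redSer π R g₂ = redSer π R HW * v ^ mW from hg₂, mul_pow, ← h2, map_pow]
  calc redSer π R SW * (redSer π R g₁ ^ p) ^ mW * (v ^ mW) ^ p
      = redSer π R SW * ((redSer π R g₁ * v) ^ (p * mW)) := by ring
    _ = _ := by rw [hv, one_pow, mul_one]

/-- The scaled expansions of `g ^ p` and of its Atkin–Lehner transform lie in `O + π² B`, the
logarithmic derivative of the reduction is a Hecke eigenseries, and a reduction which is a `p`-th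
power gives roots modulo every power of `π`. -/
theorem series_side (hL : Gamma L ≤ Gamma0 (p * M)) (hp2 : Odd p)
    {χ : Additive (Gamma0 (p * M)) →+ ZMod p} {g : ℍ → ℂ} (hg : IsKummer L p χ g)
    {α : ℤ} (hα : α = 1 ∨ α = -1)
    (hW : (alReps h).transfer χ = (-α) • χ) (hU : (uReps p M).transfer χ = α • χ)
    {ℓ₀ : ℕ} [Fact ℓ₀.Prime] (hℓ₀ : ¬ ℓ₀ ∣ p * M) {a₀ : ℤ}
    (hT₀ : HeckeLattice.transfer hℓ₀ χ = a₀ • χ) (hne : ((ℓ₀ : ZMod p) + 1 - a₀) ≠ 0)
    {O B : Subring ℂ} {π : B} (hH : SeriesHyp p π (O.comap B.subtype))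
    (hζ : ∀ ℓ : ℕ, ℓ.Prime → ℓ ≠ p → zetaC ℓ ∈ B)
    {F : Subfield ℂ} (hrat : RatHyp h L F (π : ℂ) B)
    {k : Type*} [Field k] [CharP k p] (red : B →+* k) (hker : ∀ b, red b = 0 ↔ π ∣ b)
    (hsurj : Function.Surjective red)
    (hs : expansion 1 (g ^ p) ∈ coeffSubring F.toSubring)
    (hlead : (expansion 1 (g ^ p)).leadingCoeff = 1) :
    ∃ (j jW : ℤ) (s₁ s₂ : LaurentSeries B),
      HasContent π (expansion 1 (g ^ p)) (p * j) s₁ ∧
      HasContent π (expansion 1 (wFun h (g ^ p))) (p * jW) s₂ ∧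
      (∀ i, ∃ o ∈ O, ∃ c ∈ B, ((s₁.coeff i : B) : ℂ) = o + (π : ℂ) ^ 2 * c) ∧
      (∀ i, ∃ o ∈ O, ∃ c ∈ B, ((s₂.coeff i : B) : ℂ) = o + (π : ℂ) ^ 2 * c) ∧
      (∀ (ℓ : ℕ) [Fact ℓ.Prime] (hℓ : ¬ ℓ ∣ p * M) (a : ℤ),
        HeckeLattice.transfer hℓ χ = a • χ → ∀ n : ℤ,
          (serLogDeriv (coeffMap red s₁)).coeff (ℓ * n) + (ℓ : k) *
              (if (ℓ : ℤ) ∣ n then (serLogDeriv (coeffMap red s₁)).coeff (n / ℓ) else 0)
            = (a : k) * (serLogDeriv (coeffMap red s₁)).coeff n) ∧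
      ((∃ w, coeffMap red s₁ = w ^ p) → ∀ R : ℕ, ∃ h₁ h₂ : LaurentSeries B,
        redSer π R (h₁ ^ p) = redSer π R s₁ ∧ redSer π R (h₂ ^ p) = redSer π R s₂) := by
  have hf := pow_mem_Gamma0 hg
  obtain ⟨hsX, -⟩ := exists_exp_one hf (T_mem_Gamma0_series _)
  set s := expansion 1 (g ^ p)
  set sW := expansion 1 (wFun h (g ^ p))
  obtain ⟨hsWX, -⟩ := exists_exp_one (wFun_mem h hL hg.pow_mem hf.2.1) (T_mem_Gamma0_series _)
  obtain ⟨hsWF, N, hN, hNW⟩ := hrat _ hg.pow_mem hf.2.1 hs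
  have hs0 : s ≠ 0 := fun h0 => by
    rw [h0, HahnSeries.leadingCoeff_zero] at hlead
    exact zero_ne_one hlead
  obtain ⟨e, S, hS⟩ := HasContent.exists_content hH.toContentHyp hs0 hN
  have hsW0 : sW ≠ 0 := fun h0 => hg.ne_zero (funext fun τ => by
    have h1 := hsWX ((Newforms.alW p M b d h)⁻¹ • τ)
    rw [show expansion 1 (wFun h (g ^ p)) = (0 : LaurentSeries ℂ) from h0] at h1
    have h2 : wFun h (g ^ p) ((Newforms.alW p M b d h)⁻¹ • τ) = 0 := h1.unique (by simp)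
    rw [wFun_apply, smul_inv_smul] at h2
    simpa [hp.out.ne_zero] using h2)
  obtain ⟨eW, SW, hSW⟩ := HasContent.exists_content hH.toContentHyp hsW0 hNW
  -- the order at infinity is divisible by `p`
  obtain ⟨j, rfl⟩ : (p : ℤ) ∣ e := by
    obtain ⟨i, -, hi, -⟩ :=
      exists_heckeSer_root h hH hrat hL hg hs hlead hS hp2 hsX hker hζ hℓ₀ hT₀
    have h1 : ((e : ℤ) : ZMod p) * ((ℓ₀ : ZMod p) + 1 - a₀) = 0 := by
      have := congrArg (Int.cast : ℤ → ZMod p) hi
      push_cast at this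
      rw [ZMod.natCast_zmod_val] at this
      simp at this
      linear_combination this
    exact (ZMod.intCast_zmod_eq_zero_iff_dvd e p).mp ((mul_eq_zero.mp h1).resolve_right hne)
  obtain ⟨mU, mW, hmU, hdU, hdW⟩ := exists_multipliers (p := p) hα
  obtain ⟨HU, hHU⟩ := exists_uNorm_root h hH hrat hL hg hs hlead hS hp2 hsX hU hdU
  -- `W`
  obtain ⟨c, hcF, hc⟩ := exists_leadingCoeff_w h hL hg F hp2 hℓ₀ (m := (-a₀ : ZMod p).val)
    (transfer_add_nsmul_eq_zero
      (Reps.ofCosetSystem (HeckeLattice.gamma0System (p * M) ℓ₀ hℓ₀)) hT₀ (dvd_add_val_neg a₀))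
    (by
      refine (Nat.Coprime.symm ((Nat.Prime.coprime_iff_not_dvd hp.out).mpr ?_))
      rw [← CharP.cast_eq_zero_iff (ZMod p) p]
      push_cast
      rw [ZMod.natCast_zmod_val, ← sub_eq_add_neg]
      exact hne)
    hrat hs hlead
  obtain ⟨i, HW, hiW, hHW⟩ := exists_root_content h hH hrat hL hg hs hlead hS (alReps h)
    (isStd_alReps h) (transfer_add_nsmul_eq_zero _ hW hdW) hsWX hsWF hcF hc hSW
  obtain ⟨jW, rfl⟩ : (p : ℤ) ∣ eW := ⟨i - j * mW, by linear_combination hiW⟩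
  have hsq : S ∈ sqSeries π (O.comap B.subtype) := hH.mem_of_norm_eq hS.1 hmU hHU
  have hsqW : SW ∈ sqSeries π (O.comap B.subtype) := hH.mem_of_mul_pow_eq hsq hS.1 hHW
  exact ⟨j, jW, S, SW, hS, hSW, exists_add_sq_of_mem_sqSeries hsq,
    exists_add_sq_of_mem_sqSeries hsqW,
    fun ℓ _ hℓ a ha n => serLogDeriv_eigen h hH hrat hL hg hs hlead hS hp2 hsX hker hζ hℓ ha n,
    fun ⟨w, hw⟩ R => exists_roots_of_red_eq_pow hH hker hsurj hS.1 hmU hHU hHW hw R⟩

/-- The expansion at level `L` is the dilated expansion in `q`. -/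
theorem expansion_eq_qExpand_one {Γ : Subgroup SL(2, ℤ)} {f : ℍ → ℂ}
    (hf : f ∈ KummerES.weak Γ L ⊤) (hT : ModularGroup.T ∈ Γ) :
    expansion L f = qExpand ℂ L (expansion 1 f) := by
  have h1 := (exists_exp_one hf hT).1.dilate L
  rw [one_mul] at h1
  exact h1.expansion_eq

/-- Rationality and leading coefficient transfer from level `L` to `q`. -/
theorem expansion_one_rat {Γ : Subgroup SL(2, ℤ)} {f : ℍ → ℂ} (hf : f ∈ KummerES.weak Γ L ⊤)
    (hT : ModularGroup.T ∈ Γ) {R : Subring ℂ} (hR : expansion L f ∈ coeffSubring R) :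
    expansion 1 f ∈ coeffSubring R ∧
      (expansion 1 f).leadingCoeff = (expansion L f).leadingCoeff := by
  have h1 := expansion_eq_qExpand_one hf hT
  refine ⟨fun i => ?_, ?_⟩
  · rw [← ModularCurve.qExpand_coeff_mul L, ← h1]
    exact hR _
  · rw [h1, leadingCoeff_qExpand]

end Fermat.Agent.AtP
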