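import Fermat.Agent.AtP.AssemblyDifferential
import Fermat.Agent.AtP.AssemblyLevel
import Fermat.Agent.AtP.AssemblySetting
import Fermat.Agent.AtP.LevelChar
import Fermat.Agent.AtP.NodeOrder
import Fermat.Agent.AtP.Series

/-!
# The conclusion of Mazur's principle at `p` from the function attached to the class

Either the reduction of `f₁` at `∞` is a `p`-th power, and then the root glues to a function of
level `Γ₀(p) ∩ Γ(2 M)`, so that the class would vanish; or its logarithmic derivative is a nonzero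
differential, which lifts to a congruent eigenform of level prime to `p`.
-/

set_option autoImplicit false

noncomputable section

open UpperHalfPlane CongruenceSubgroup
open scoped MatrixGroups
open Fermat.Agent.KummerES
open ModularCurve (coeffMap qExpand)
open IsLocalRing (residue ResidueField)
open Fermat.Agent.LevelLowering (CofiniteResModular)

namespace Fermat.Agent.AtP

/-- A Laurent series with vanishing derivative is a `p`-th power. -/
theorem exists_pow_eq_of_thetaQ {k : Type*} [Field k] [IsAlgClosed k] {p : ℕ} (hp : p.Prime)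
    [CharP k p] {s : LaurentSeries k} (h : thetaQ s = 0) : ∃ w, s = w ^ p := by
  have hp' : ((p : ℕ) : ℤ) ≠ 0 := by exact_mod_cast hp.ne_zero
  obtain ⟨N, hN⟩ : ∃ N : ℕ, ∀ i < -((p : ℤ) * N), s.coeff i = 0 := by
    refine ⟨(-s.order).toNat, fun i hi => HahnSeries.coeff_eq_zero_of_lt_order ?_⟩
    have h1 : (1 : ℤ) ≤ p := by exact_mod_cast hp.one_le
    have h2 := Int.self_le_toNat (-s.order)
    have h3 : ((-s.order).toNat : ℤ) ≤ (p : ℤ) * (-s.order).toNat :=
      le_mul_of_one_le_left (Int.natCast_nonneg _) h1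
    omega
  set f : PowerSeries k := PowerSeries.mk fun n => s.coeff ((n : ℤ) - (p : ℤ) * N)
  obtain ⟨g, hg⟩ := exists_pow_eq_of_coeff_eq_zero (k := k) hp (f := f) fun n hn => by
    have h1 := congrArg (fun t : LaurentSeries k => t.coeff ((n : ℤ) - (p : ℤ) * N)) h
    simp only [thetaQ_coeff, HahnSeries.coeff_zero, mul_eq_zero] at h1
    rw [PowerSeries.coeff_mk]
    refine h1.resolve_left fun h2 => hn ?_
    rw [CharP.intCast_eq_zero_iff k p] at h2
    exact Int.natCast_dvd_natCast.1 (by simpa using h2.add (dvd_mul_right (p : ℤ) N))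
  refine ⟨HahnSeries.single (-(N : ℤ)) 1 * HahnSeries.ofPowerSeries ℤ k g, ?_⟩
  rw [mul_pow, HahnSeries.single_pow, one_pow, ← map_pow (HahnSeries.ofPowerSeries ℤ k), hg]
  refine HahnSeries.ext (funext fun i => ?_)
  rw [HahnSeries.coeff_single_mul, one_mul, nsmul_eq_mul]
  by_cases hi : i < -((p : ℤ) * N)
  · rw [hN i hi, HahnSeries.ofPowerSeries_apply, HahnSeries.embDomain_of_notMem_range]
    rintro ⟨n, hn⟩
    simp at hn
    linarith [Int.natCast_nonneg n]
  · obtain ⟨n, hn⟩ : ∃ n : ℕ, (n : ℤ) = i - (p : ℤ) * -(N : ℤ) :=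
      ⟨_, Int.toNat_of_nonneg (by linarith)⟩
    rw [← hn, HahnSeries.ofPowerSeries_apply_coeff, PowerSeries.coeff_mk]
    congr 1
    linarith

namespace Setting

variable {p : ℕ} [hp : Fact p.Prime] {C : Coeff p} {M : ℕ} [NeZero M] (S : Setting C M)

/-- The reduction of the primitive expansion. -/
def sbar : LaurentSeries (ResidueField C.B) := coeffMap (residue C.B) S.s₁

lemma sbar_ne_zero : S.sbar ≠ 0 :=
  (coeffMap_red_cst C.residue_eq_zero_iff_dvd).1 S.prim₁

/-- A root of level `Γ₀(p) ∩ Γ(2 M)` has trivial class. -/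
theorem chi_eq_zero (hp2 : p ≠ 2) (hg : S.g ∈ weak (levelP p (2 * M)) (p * (2 * M)) ⊤)
    {ℓ : ℕ} [Fact ℓ.Prime] (hℓ : ¬ ℓ ∣ p * M) {a : ℤ}
    (hT : HeckeLattice.transfer hℓ S.χ = a • S.χ) (hne : ((ℓ : ZMod p) + 1 - a) ≠ 0) : S.χ = 0 := by
  refine eq_zero_of_vanish_congr hp2 ?_ (fun γ hγ => ?_) hℓ hT hne
  · have := S.parabolic
    rw [ModularCurve.Period.mem_parabolicHoms_iff] at this ⊢
    exact this
  · have h : comp S.g γ = S.g := hg.2.1 _ hγ
    rw [S.kummer.comp_eq γ] at h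
    obtain ⟨τ, hτ⟩ := Function.ne_iff.1 S.kummer.ne_zero
    exact (rootPow_eq_one_iff _).1
      (mul_right_cancel₀ hτ ((congrFun h τ).trans (one_mul (S.g τ)).symm))

/-- The reduced function, with nonzero logarithmic derivative when the class does not vanish. -/
theorem sbar_spec (hp2 : p ≠ 2) (hχ : S.χ ≠ 0)
    {ℓ₀ : ℕ} [Fact ℓ₀.Prime] (hℓ₀ : ¬ ℓ₀ ∣ p * M) {a₀ : ℤ}
    (hT₀ : HeckeLattice.transfer hℓ₀ S.χ = a₀ • S.χ) (hne₀ : ((ℓ₀ : ZMod p) + 1 - a₀) ≠ 0)
    (hglue : (∃ w, S.sbar = w ^ p) → S.g ∈ weak (levelP p (2 * M)) (p * (2 * M)) ⊤)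
    {a d : LRing (2 * M) C.B}
    (hrep : C.expA M (C.piA M) ∣ C.expA M d * qExpand C.B (2 * M) S.s₁ - C.expA M a) :
    coeffMap (residue C.B) (C.expA M a) =
        coeffMap (residue C.B) (C.expA M d) * qExpand (ResidueField C.B) (2 * M) S.sbar ∧
      serLogDeriv S.sbar ≠ 0 := by
  have := C.charP
  refine ⟨?_, fun h0 => ?_⟩
  · obtain ⟨u, hu⟩ := hrep
    have h := congrArg (coeffMap (residue C.B)) hu
    rw [map_mul _ (C.expA M (C.piA M)), C.expA_piA, HahnSeries.C_apply,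
      ModularCurve.coeffMap_single, C.residue_unif, HahnSeries.single_eq_zero, zero_mul,
      map_sub, map_mul, sub_eq_zero] at h
    rw [Setting.sbar, ← h, ModularCurve.coeffMap_qExpand]
  · refine hχ (S.chi_eq_zero hp2 (hglue ?_) hℓ₀ hT₀ hne₀)
    refine exists_pow_eq_of_thetaQ (k := ResidueField C.B) hp.out ?_
    exact (mul_eq_zero.1 h0).resolve_right (inv_ne_zero S.sbar_ne_zero)

/-- **Mazur's principle at `p` on the function.** -/
theorem conclusion (hp2 : p ≠ 2) (hpM : ¬ p ∣ M) (hχ : S.χ ≠ 0)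
    {ℓ₀ : ℕ} [Fact ℓ₀.Prime] (hℓ₀ : ¬ ℓ₀ ∣ p * M) {a₀ : ℤ}
    (hT₀ : HeckeLattice.transfer hℓ₀ S.χ = a₀ • S.χ) (hne₀ : ((ℓ₀ : ZMod p) + 1 - a₀) ≠ 0)
    (hglue : (∃ w, S.sbar = w ^ p) → S.g ∈ weak (levelP p (2 * M)) (p * (2 * M)) ⊤)
    {a d : LRing (2 * M) C.B} (ha : ¬ C.piA M ∣ a) (hd₀ : ¬ C.piA M ∣ d)
    (hrep : C.expA M (C.piA M) ∣ C.expA M d * qExpand C.B (2 * M) S.s₁ - C.expA M a)
    (hd : C.DiscPow hp2 hpM a d) (hc : C.CuspPow a d) (hinv : C.RedInvariant M a d)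
    (W : WeierstrassCurve ℤ) (T : Finset ℕ)
    (heig : ∀ ℓ : ℕ, ℓ.Prime → ℓ ∉ T → ∀ n : ℤ,
      (serLogDeriv S.sbar).coeff (ℓ * n) + (ℓ : ResidueField C.B) *
          (if (ℓ : ℤ) ∣ n then (serLogDeriv S.sbar).coeff (n / ℓ) else 0) =
        (W.apOfModel ℓ : ResidueField C.B) * (serLogDeriv S.sbar).coeff n) :
    (p = 3 ∧ Odd M → CofiniteResModular W p (2 * M)) ∧
      (¬ (p = 3 ∧ Odd M) → CofiniteResModular W p M) := by
  have := C.charP
  obtain ⟨hs, hw⟩ := S.sbar_spec hp2 hχ hℓ₀ hT₀ hne₀ hglue hrep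
  exact C.cofiniteResModular_of_discPow hp2 hpM ha hd₀ hd hc hinv S.sbar hs hw W T heig

end Setting

end Fermat.Agent.AtP
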