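import Fermat.Agent.AtP.ClassMain
import Fermat.Agent.AtP.CtxExists
import Fermat.Agent.AtP.DescentAlg
import Fermat.Agent.AtP.DescentRat
import Fermat.Agent.AtP.MainConclusion
import Fermat.Agent.AtP.Series

/-!
# Constructing a `Setting` from the class

`exists_setting` gives the coefficient ring `B = O[η]`, the scaled functions `f₁`, `f₂` with their
primitive expansions, and the eigen relation of the logarithmic derivative of the reduction.
-/

set_option autoImplicit false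

noncomputable section

open UpperHalfPlane CongruenceSubgroup
open scoped MatrixGroups
open IsLocalRing (maximalIdeal ResidueField residue)
open Fermat.Agent.KummerES (IsKummer HasExp expansion coeffSubring zetaC leadCoeff LevelHyp zetaRing
  weak comp)
open ModularCurve (qExpand coeffMap)

namespace Fermat.Agent.AtP

variable {p : ℕ} [hp : Fact p.Prime] {M : ℕ} [NeZero M]

omit [NeZero M] hp in
theorem Gamma_le_Gamma0_mul : Gamma (p * (2 * M)) ≤ Gamma0 (p * M) := fun γ hγ => by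
  rw [Gamma0_mem, ZMod.intCast_zmod_eq_zero_iff_dvd]
  exact (Int.natCast_dvd_natCast.2 (mul_dvd_mul_left p (dvd_mul_left M 2))).trans
    ((ZMod.intCast_zmod_eq_zero_iff_dvd _ _).1 (Gamma_mem.1 hγ).2.2.1)

/-- Scaling by the content gives the primitive series. -/
theorem expansion_scaled {B : Subring ℂ} {π : B} (hπ : (π : ℂ) ≠ 0) {F : ℍ → ℂ} {e : ℤ}
    {T : LaurentSeries B} (hF : HasExp 1 F (expansion 1 F)) (h : HasContent π (expansion 1 F) e T) :
    expansion 1 (fun τ => (π : ℂ) ^ (-e) * F τ) = coeffMap B.subtype T := by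
  refine (HasExp.expansion_eq ((HasExp.const _).mul hF)).trans ?_
  rw [h.2, ← mul_assoc, cst, HahnSeries.single_mul_single, zero_add,
    ← zpow_add₀ hπ, neg_add_cancel, zpow_zero]
  exact one_mul _

/-- **A `Setting` for the class, with the eigen relation of the reduction.** -/
theorem exists_setting {W : WeierstrassCurve ℤ} (hp2 : p ≠ 2) (hpM : ¬ p ∣ M) {b d : ℤ}
    {h : (p : ℤ) * d - (M : ℤ) * b = 1} {O : Subring ℂ} [IsDiscreteValuationRing O]
    [IsAdicComplete (maximalIdeal O) O] [IsAlgClosed (ResidueField O)] (hO : Irreducible (p : O))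
    (hcls : HasClass W p h hpM O) :
    ∃ (C : Coeff p) (S : Setting C M), C.O = O ∧ S.χ ≠ 0 ∧
      (∃ (ℓ₀ : ℕ) (_ : Fact ℓ₀.Prime) (hℓ₀ : ¬ ℓ₀ ∣ p * M) (a₀ : ℤ),
        HeckeLattice.transfer hℓ₀ S.χ = a₀ • S.χ ∧ ((ℓ₀ : ZMod p) + 1 - a₀) ≠ 0) ∧
      ∃ T : Finset ℕ, ∀ ℓ : ℕ, ℓ.Prime → ℓ ∉ T → ∀ n : ℤ,
        (serLogDeriv S.sbar).coeff (ℓ * n) + (ℓ : ResidueField C.B) *
            (if (ℓ : ℤ) ∣ n then (serLogDeriv S.sbar).coeff (n / ℓ) else 0) =
          (W.apOfModel ℓ : ResidueField C.B) * (serLogDeriv S.sbar).coeff n := by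
  classical
  obtain ⟨η, c₀, χ, α, S₀, g, hη, hχ, hα, hg, hrat, hlead, hW, hU, -, hT, ℓ₀, hℓ₀p, hℓ₀S, hℓ₀N,
    hne⟩ := hcls
  obtain ⟨C, hCO, hCB⟩ := exists_coeff hp2 O hO η c₀ hη
  have := C.charP
  have : NeZero (p * M) := ⟨mul_ne_zero hp.out.ne_zero (NeZero.ne M)⟩
  have : Fact ℓ₀.Prime := ⟨hℓ₀p⟩
  have hle : Gamma (p * (2 * M)) ≤ Gamma0 (p * M) := Gamma_le_Gamma0_mul
  have hpL := Coeff.not_dvd_two_mul hp2 hpM
  have hzB : zetaRing (2 * M) ≤ C.B := (C.zetaRing_le hpL).trans C.le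
  -- the coefficients at infinity
  have hf := pow_mem_Gamma0 hg
  have hfield : Subfield.closure ((O : Set ℂ) ∪ {η}) ≤ C.field :=
    Subfield.closure_le.2 fun x hx => Subfield.subset_closure (by
      rw [SetLike.mem_coe, hCB]; exact Subring.subset_closure hx)
  obtain ⟨hs, hlead'⟩ := expansion_one_rat hf (T_mem_Gamma0_series _)
    (R := C.field.toSubring) fun i => hfield (hrat i)
  have hlead1 : (expansion 1 (g ^ p)).leadingCoeff = 1 := by
    rw [hlead', ← hlead, leadCoeff, HahnSeries.leadingCoeff_eq]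
  have hne' : ((ℓ₀ : ZMod p) + 1 - (W.apOfModel ℓ₀ : ℤ)) ≠ 0 := fun h0 => hne (sub_eq_zero.1 h0).symm
  obtain ⟨j, jW, s₁, s₂, hc₁, hc₂, hsq₁, hsq₂, heig, hroots⟩ :=
    series_side (h := h) hle (hp.out.odd_of_ne_two hp2) hg hα hW hU hℓ₀N
      (hT ℓ₀ hℓ₀N hℓ₀S) hne' C.seriesHyp
      (fun ℓ hℓ hℓp => C.le (C.zeta_mem ℓ fun hd =>
        hℓp ((Nat.prime_dvd_prime_iff_eq hp.out hℓ).1 hd).symm).1)
      (F := C.field)
      (ratHyp (L := 2 * M) (Coeff.baseLevelHyp M) hp2 hpL (Dvd.intro_left 2 rfl) h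
        (hzB.trans C.B_le_field) hzB C.unif.2 C.exists_pow_mul_mem_B)
      (residue C.B) C.residue_eq_zero_iff_dvd IsLocalRing.residue_surjective hs hlead1
  obtain ⟨b', d', h2, hb'⟩ := exists_alData (p := p) (M := M) hp2 hpM
  have hinv : ∀ γ ∈ Gamma0 (p * M), comp (g ^ p) γ = g ^ p := hf.2.1
  have hu := C.unif_ne_zero
  have hexp₁ : HasExp 1 (g ^ p) (expansion 1 (g ^ p)) := (exists_exp_one hf (T_mem_Gamma0_series _)).1
  have hexp₂ : HasExp 1 (wFun h (g ^ p)) (expansion 1 (wFun h (g ^ p))) :=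
    (exists_exp_one (wFun_mem h hle hg.pow_mem hinv) (T_mem_Gamma0_series _)).1
  have hsnd : ∀ x : C.B, (∃ o ∈ C.O, ∃ c ∈ C.B, (x : ℂ) = o + (C.unif : ℂ) ^ 2 * c) →
      TrivSqZeroExt.snd (C.red₂ x) = 0 := fun x ⟨o, ho, c, hc, e⟩ =>
    (C.snd_eq_zero_iff x).2 ⟨⟨o, C.le ho⟩, ho, ⟨c, hc⟩, Subtype.ext (by simpa using e)⟩
  have hmem : ∀ z : ℤ, (C.unif : ℂ) ^ z ∈ C.field := fun z =>
    zpow_mem (show (C.unif : ℂ) ∈ C.field from C.B_le_field C.unif.2) z
  let S : Setting C M :=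
    { b := b'
      d := d'
      det := h2
      b_even := hb'
      χ := χ.1
      parabolic := χ.2
      g := g
      kummer := hg
      rational := hs
      c₁ := (C.unif : ℂ) ^ ((p : ℤ) * -j)
      c₂ := (C.unif : ℂ) ^ ((p : ℤ) * -jW)
      c₁_ne := zpow_ne_zero _ hu
      c₂_ne := zpow_ne_zero _ hu
      c₁_mem := hmem _
      c₂_mem := hmem _
      j₁ := -j
      j₂ := -jW
      c₁_eq := rfl
      c₂_eq := rfl
      f₁ := fun τ => (C.unif : ℂ) ^ ((p : ℤ) * -j) * g τ ^ p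
      f₂ := fun τ => (C.unif : ℂ) ^ ((p : ℤ) * -jW) * wFun h2 (g ^ p) τ
      f₁_eq := rfl
      f₂_eq := rfl
      s₁ := s₁
      s₂ := s₂
      exp₁ := by
        rw [mul_neg]
        exact expansion_scaled hu hexp₁ hc₁
      exp₂ := by
        rw [mul_neg, ← wFun_eq_wFun (h := h) (h2 := h2) hinv]
        exact expansion_scaled hu hexp₂ hc₂
      prim₁ := hc₁.1
      prim₂ := hc₂.1
      sq₁ := fun i => hsnd _ (hsq₁ i)
      sq₂ := fun i => hsnd _ (hsq₂ i)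
      roots := hroots }
  refine ⟨C, S, hCO, fun h0 => hχ (Subtype.ext h0),
    ⟨ℓ₀, inferInstance, hℓ₀N, W.apOfModel ℓ₀, hT ℓ₀ hℓ₀N hℓ₀S, hne'⟩,
    S₀ ∪ (p * M).primeFactors, fun ℓ hℓ hℓT n => ?_⟩
  have : Fact ℓ.Prime := ⟨hℓ⟩
  have hℓN : ¬ ℓ ∣ p * M := fun hd => hℓT (Finset.mem_union_right _
    (Nat.mem_primeFactors.2 ⟨hℓ, hd, NeZero.ne _⟩))
  exact heig ℓ hℓN _ (hT ℓ hℓN fun hS => hℓT (Finset.mem_union_left _ hS)) n

end Fermat.Agent.AtP
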