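import Fermat.Agent.AtP.AssemblyNodeBranch
import Fermat.Agent.AtP.DescentAlg

/-!
# The two branches of the extension at a supersingular node

At a point with `λ = x̄`, `ordPoly x̄ = 0`, the integral elements of the field generated over level
`2 M` by `λ(pτ)` map to the node ring with `λ ↦ T`, `λ(pτ) ↦ Y`; composed with `swapMap` this gives
the map of the other branch, and congruences of expansions pass to both.
-/

set_option autoImplicit false

noncomputable section

open UpperHalfPlane CongruenceSubgroup IsLocalRing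
open Polynomial hiding comp
open scoped PowerSeries DualNumber MatrixGroups
open Fermat.Agent.KummerES
open ModularCurve (coeffMap qExpand)

namespace Fermat.Agent.AtP

attribute [local instance] isDomain_LRing

namespace Coeff

variable {p : ℕ} [hp : Fact p.Prime] (C : Coeff p) {M : ℕ} [NeZero M]

omit hp in
theorem isEpsFree_of_mul_eq_one {F G : C.B⟦X⟧} (h : F * G = 1) (hG : IsEpsFree C.red₂ G) :
    IsEpsFree C.red₂ F := by
  set i : C.B →+* DualNumber (ResidueField C.B) :=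
    (TrivSqZeroExt.inlHom (ResidueField C.B) (ResidueField C.B)).comp (residue C.B)
  have hG' : PowerSeries.map C.red₂ G = PowerSeries.map i G := PowerSeries.ext fun n => by
    rw [PowerSeries.coeff_map, PowerSeries.coeff_map]
    exact TrivSqZeroExt.ext (by simp [i, C.fst_red₂]) (by simp [i, hG n])
  have h1 : PowerSeries.map C.red₂ F * PowerSeries.map C.red₂ G = 1 := by rw [← map_mul, h, map_one]
  have h2 : PowerSeries.map C.red₂ G * PowerSeries.map i F = 1 := by
    rw [hG', mul_comm, ← map_mul, h, map_one]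
  intro n
  rw [← PowerSeries.coeff_map, left_inv_eq_right_inv h1 h2, PowerSeries.coeff_map]
  simp [i]

omit hp in
theorem isEpsFree_C_add_X {x₀ : C.B} (h : (x₀ : ℂ) ∈ C.O) :
    IsEpsFree C.red₂ (PowerSeries.C x₀ + PowerSeries.X) := fun n => by
  rw [map_add, PowerSeries.coeff_C, PowerSeries.coeff_X]
  split_ifs <;> simp [C.snd_red₂_of_mem_O h]

theorem tL_mul_lamA (hp2 : p ≠ 2) (hpM : ¬ p ∣ M) :
    Points.tL (C.levelHyp hp2 hpM) * lamA C M = 1 :=
  Subtype.ext (funext fun τ => inv_mul_cancel₀ (lam_ne_zero τ))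

omit hp in
/-- `λ` takes no value `1` at a point of the special fibre. -/
theorem point_lamA_ne_one {s : LRing (2 * M) C.B →+* ResidueField C.B} : s (lamA C M) ≠ 1 := by
  intro h
  set w : LRing (2 * M) C.B := ⟨fun τ => (1 - lam τ)⁻¹,
    weak_Gamma_le_mul 2 M C.B (one_sub_lam_inv_mem_weak C.inv_two_mem)⟩
  have hw : (1 - lamA C M) * w = 1 := Subtype.ext (funext fun τ =>
    mul_inv_cancel₀ (sub_ne_zero.2 (lam_ne_one τ).symm))
  have := congrArg s hw
  rw [map_mul, map_sub, map_one, h, sub_self, zero_mul] at this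
  exact zero_ne_one this

/-- `muSer` is the expansion of `λ (pτ)`. -/
theorem coeffMap_muSer : coeffMap C.B.subtype (muSer C M) = expansion (2 * M) (lamP p) := by
  rw [muSer, coeffMap_serLift, ← qExpand_coeffMap]
  exact ((hasExp_comp_conjMap_none exp2_l2).dilate M).expansion_eq.symm

/-- Maps of the extension to the node ring at the point `s`. -/
structure IsNodeMaps (hp2 : p ≠ 2) (hpM : ¬ p ∣ M) (s : LRing (2 * M) C.B →+* ResidueField C.B)
    (xbar : ResidueField C.B) (T Y : Node C.unif) (x₀ : C.B)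
    (hum : T - nc C.unif x₀ ∈ maximalIdeal (Node C.unif))
    (hum₂ : swap C.unif (Y - nc C.unif (x₀ ^ p)) ∈ maximalIdeal (Node C.unif))
    (s' : LRing (2 * M) C.B →+* ResidueField C.B) (ψ ψ' : LRing (2 * M) C.B →+* C.B⟦X⟧)
    (θ θ₂ : algElts (C.expK M) (expansion (2 * M) (lamP p)) →+* Node C.unif) : Prop where
  coord : C.NodeCoord xbar T Y x₀
  disc : Points.IsDisc (C.levelHyp hp2 hpM) s ψ
  disc' : Points.IsDisc (C.levelHyp hp2 hpM) s' ψ'
  epsFree : IsEpsFree C.red₂ (ψ (Points.tL (C.levelHyp hp2 hpM)))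
  epsFree' : IsEpsFree C.red₂ (ψ' (Points.tL (C.levelHyp hp2 hpM)))
  θ_A : ∀ a, θ ⟨C.expK M a, map_mem_algElts _ _ a⟩ = evalSeries (nc C.unif) _ hum (ψ a)
  θ_root : ∀ h, θ ⟨expansion (2 * M) (lamP p), h⟩ = Y
  θ₂_swap : ∀ (F : ℍ → ℂ), F ∈ weak (levelP p (2 * M)) (p * (2 * M)) ⊤ → ∀ h h',
    θ₂ ⟨expansion (2 * M) F, h⟩ = swap C.unif (θ ⟨expansion (2 * M) (swapFun p (2 * M) F), h'⟩)
  congr₁ : ∀ (e : algElts (C.expK M) (expansion (2 * M) (lamP p))) (eS : LaurentSeries C.B),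
    coeffMap C.B.subtype eS = e → ∀ (a d : LRing (2 * M) C.B) (n : ℕ),
      C.expA M (C.piA M) ^ n ∣ C.expA M d * eS - C.expA M a →
      ny C.unif ^ n ∣
        evalSeries (nc C.unif) _ hum (ψ d) * θ e - evalSeries (nc C.unif) _ hum (ψ a)
  congr₂ : ∀ (e : algElts (C.expK M) (expansion (2 * M) (lamP p))) (eS : LaurentSeries C.B),
    coeffMap C.B.subtype eS = e → ∀ (a d : LRing (2 * M) C.B) (n : ℕ),
      C.expA M (C.piA M) ^ n ∣ C.expA M d * eS - C.expA M a →
      ny C.unif ^ n ∣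
        evalSeries (nc C.unif) _ hum₂ (ψ' d) * θ₂ e - evalSeries (nc C.unif) _ hum₂ (ψ' a)

/-- The transform of a function of level `2 M` as an element of the extension. -/
def qExpandAlg (hp2 : p ≠ 2) (hpM : ¬ p ∣ M) :
    LRing (2 * M) C.B →+* algElts (C.expK M) (expansion (2 * M) (lamP p)) :=
  ((qExpand ℂ p).comp (C.expK M)).codRestrict _ (C.qExpand_expK_mem_algElts hp2 hpM)

/-- The transform fixes the constants. -/
theorem qExpandAlg_cstL (hp2 : p ≠ 2) (hpM : ¬ p ∣ M) (c : C.B) :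
    C.qExpandAlg hp2 hpM (Points.cstL (C.levelHyp hp2 hpM) c) =
      ⟨C.expK M (Points.cstL (C.levelHyp hp2 hpM) c), map_mem_algElts _ _ _⟩ :=
  Subtype.ext (by
    show qExpand ℂ p (C.expK M _) = C.expK M _
    rw [expK_apply, show (Points.cstL (C.levelHyp hp2 hpM) c).1 = fun _ => (c : ℂ) from rfl,
      (HasExp.const (c : ℂ)).expansion_eq, ModularCurve.qExpand_single, mul_zero])

/-- The transform of `λ` is `λ (pτ)`. -/
theorem qExpandAlg_lamA (hp2 : p ≠ 2) (hpM : ¬ p ∣ M)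
    (h : expansion (2 * M) (lamP p) ∈ algElts (C.expK M) (expansion (2 * M) (lamP p))) :
    C.qExpandAlg hp2 hpM (lamA C M) = ⟨expansion (2 * M) (lamP p), h⟩ :=
  Subtype.ext (by
    show qExpand ℂ p (C.expK M (lamA C M)) = expansion (2 * M) (lamP p)
    rw [← C.expansion_swapFun_A]
    congr 1
    funext τ
    exact lam_swapMap (Dvd.intro M rfl) τ)

/-- An identity between transforms is carried to the node ring by a map of the extension. -/
theorem eval₂_qExpandAlg {R : Type*} [CommRing R] (hp2 : p ≠ 2) (hpM : ¬ p ∣ M)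
    (θ : algElts (C.expK M) (expansion (2 * M) (lamP p)) →+* R)
    {Q : (LRing (2 * M) C.B)[X]} {e : algElts (C.expK M) (expansion (2 * M) (lamP p))}
    {D : LRing (2 * M) C.B}
    (h : qExpand ℂ p (C.expK M D) * (e : LaurentSeries ℂ) =
      Q.eval₂ ((qExpand ℂ p).comp (C.expK M)) (expansion (2 * M) lam)) :
    θ (C.qExpandAlg hp2 hpM D) * θ e = Q.eval₂ (θ.comp (C.qExpandAlg hp2 hpM))
      (θ ⟨C.expK M (lamA C M), map_mem_algElts _ _ _⟩) := by
  rw [← map_mul, ← hom_eval₂]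
  refine congrArg θ (Subtype.ext ?_)
  rw [← Subring.subtype_apply, ← Subring.subtype_apply (Q.eval₂ _ _), hom_eval₂, map_mul,
    Subring.subtype_apply, Subring.subtype_apply, Subring.subtype_apply]
  show qExpand ℂ p (C.expK M D) * (e : LaurentSeries ℂ) =
    Q.eval₂ ((qExpand ℂ p).comp (C.expK M)) (C.expK M (lamA C M))
  rw [show C.expK M (lamA C M) = expansion (2 * M) lam from C.expK_apply M _]
  exact h

/-- A map of level `2 M` to the node ring with the constants and `λ ↦ T` makes `Y` a root of the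
modular polynomial. -/
theorem eval₂_lamPolyA_node (hp2 : p ≠ 2) (hpM : ¬ p ∣ M) {xbar : ResidueField C.B}
    {T Y : Node C.unif} {x₀ : C.B} (hN : C.NodeCoord xbar T Y x₀)
    {Ψ : LRing (2 * M) C.B →+* Node C.unif} (hl : Ψ (lamA C M) = T)
    (hc : ∀ c, Ψ (Points.cstL (C.levelHyp hp2 hpM) c) = nc C.unif c) :
    (lamPolyA C M).eval₂ Ψ Y = 0 := by
  rw [lamPolyA, eval₂_map, ← hN.root, ev2, coe_eval₂RingHom]
  congr 1
  refine Polynomial.ringHom_ext (fun r => ?_) (by simp [hl])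
  simp only [RingHom.comp_apply, coe_eval₂RingHom, eval₂_C]
  rw [show constR2 C M r = Points.cstL (C.levelHyp hp2 hpM) (C.ofR2 r) from rfl, hc]

/-- A map of level `2 M` to the node ring with `λ ↦ Y` becomes, after exchanging the branches, the
disc of its point composed with the coordinate `Y - x₀ ^ p`. -/
theorem exists_disc_swap (hp2 : p ≠ 2) (hpM : ¬ p ∣ M) {xbar : ResidueField C.B}
    {T Y : Node C.unif} {x₀ : C.B} (hN : C.NodeCoord xbar T Y x₀)
    (hum₂ : swap C.unif (Y - nc C.unif (x₀ ^ p)) ∈ maximalIdeal (Node C.unif))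
    {Φ : LRing (2 * M) C.B →+* Node C.unif} (hl : Φ (lamA C M) = Y)
    (hc : ∀ c, Φ (Points.cstL (C.levelHyp hp2 hpM) c) = nc C.unif c) :
    ∃ (s' : LRing (2 * M) C.B →+* ResidueField C.B) (ψ' : LRing (2 * M) C.B →+* C.B⟦X⟧),
      Points.IsDisc (C.levelHyp hp2 hpM) s' ψ' ∧
      ψ' (Points.tL (C.levelHyp hp2 hpM)) *
        (PowerSeries.C (x₀ ^ p) + PowerSeries.X) = 1 ∧
      (swap C.unif).comp Φ = (evalSeries (nc C.unif) _ hum₂).comp ψ' := by
  have htl := C.tL_mul_lamA (M := M) hp2 hpM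
  have hY : C.resNode Y = residue C.B (x₀ ^ p) := by
    have h1 := C.mem_maximalIdeal_iff_resNode.1 (show Y - nc C.unif (x₀ ^ p) ∈ _ from hN.sub₂)
    rwa [map_sub, resNode_nc, sub_eq_zero] at h1
  have hs' : Points.IsPoint (C.levelHyp hp2 hpM) (C.resNode.comp Φ) := fun c => by
    show C.resNode (Φ _) = _
    rw [hc, resNode_nc]
  obtain ⟨ψ', hψ', hψ't⟩ := Points.exists_disc_inv (C.levelHyp hp2 hpM) hs' (x₀ := x₀ ^ p) (by
    show residue C.B (x₀ ^ p) * C.resNode (Φ (Points.tL (C.levelHyp hp2 hpM))) = 1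
    rw [mul_comm, ← hY, ← hl, ← map_mul, ← map_mul, htl, map_one, map_one])
  refine ⟨_, ψ', hψ', hψ't, C.eq_evalSeries_disc hum₂ hp2 hpM hψ' (fun c => ?_) ?_ fun a => ?_⟩
  · show swap C.unif (Φ _) = _
    rw [hc, swap_nc]
  · refine left_inv_eq_right_inv (a := swap C.unif Y)
      (show (swap C.unif).comp Φ (Points.tL (C.levelHyp hp2 hpM)) * swap C.unif Y = 1 by
        show swap C.unif (Φ _) * swap C.unif Y = 1
        rw [← hl, ← map_mul, ← map_mul, htl, map_one, map_one]) ?_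
    have h1 := congrArg (evalSeries (nc C.unif) _ hum₂) hψ't
    rw [map_mul, map_add, evalSeries_C, evalSeries_X, map_one,
      show nc C.unif (x₀ ^ p) + swap C.unif (Y - nc C.unif (x₀ ^ p)) = swap C.unif Y by
        rw [map_sub, swap_nc, add_sub_cancel]] at h1
    rw [mul_comm]; exact h1
  · show C.resNode (swap C.unif (Φ a)) = C.resNode (Φ a)
    exact constantCoeff_q₂ C.unif C.unif_mem _

/-- **The maps exist at every supersingular point.** -/
theorem exists_nodeMaps (hp2 : p ≠ 2) (hpM : ¬ p ∣ M)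
    {s : LRing (2 * M) C.B →+* ResidueField C.B} (hs : Points.IsPoint (C.levelHyp hp2 hpM) s)
    {xbar : ResidueField C.B} (hx : xbar * s (Points.tL (C.levelHyp hp2 hpM)) = 1)
    (hord : (ordPoly p hp2).eval₂
      (have := C.charP; ZMod.castHom dvd_rfl (ResidueField C.B)) xbar = 0) :
    ∃ T Y x₀ hum hum₂ s' ψ ψ' θ θ₂,
      C.IsNodeMaps hp2 hpM s xbar T Y x₀ hum hum₂ s' ψ ψ' θ θ₂ := by
  set H := C.levelHyp hp2 hpM
  set φ := C.expK M with hφ
  set z := expansion (2 * M) (lamP p)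
  have htl : Points.tL H * lamA C M = 1 := C.tL_mul_lamA hp2 hpM
  have hxs : s (lamA C M) = xbar := by
    have h1 : s (Points.tL H) * s (lamA C M) = 1 := by rw [← map_mul, htl, map_one]
    exact (left_inv_eq_right_inv hx h1).symm
  obtain ⟨T, Y, x₀, hN⟩ := C.exists_nodeCoord hp2 (left_ne_zero_of_mul_eq_one hx)
    (hxs ▸ C.point_lamA_ne_one) hord
  have hum : T - nc C.unif x₀ ∈ maximalIdeal (Node C.unif) := hN.sub₁
  have hum₂ : swap C.unif (Y - nc C.unif (x₀ ^ p)) ∈ maximalIdeal (Node C.unif) :=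
    C.swap_mem_maximalIdeal hN.sub₂
  obtain ⟨c, -, hu⟩ := hN.coord₁
  obtain ⟨ψ, hψ, hψt⟩ := Points.exists_disc_inv H hs (x₀ := x₀) (by rw [hN.residue₀]; exact hx)
  have hψl : ψ (lamA C M) = PowerSeries.C x₀ + PowerSeries.X :=
    left_inv_eq_right_inv (a := ψ (Points.tL H))
      (by rw [mul_comm, ← map_mul, htl, map_one]) hψt
  set Ψ := (evalSeries (nc C.unif) _ hum).comp ψ with hΨ
  have hΨl : Ψ (lamA C M) = T := by
    rw [hΨ, RingHom.comp_apply, hψl, map_add, evalSeries_C, evalSeries_X, add_sub_cancel]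
  have hΨc : ∀ c, Ψ (Points.cstL H c) = nc C.unif c := fun c => by
    rw [hΨ, RingHom.comp_apply, hψ.const, evalSeries_C]
  have hzS : coeffMap C.B.subtype (muSer C M) = z := C.coeffMap_muSer
  have hroot : (lamPolyA C M).eval₂ (C.expA M) (muSer C M) = 0 := eval₂_lamPolyA_muSer C M hp2
  have hzroot : (lamPolyA C M).eval₂ φ z = 0 := by
    rw [← hzS, hφ, expK, ← hom_eval₂, hroot, map_zero]
  have hmin : ∀ Q : (LRing (2 * M) C.B)[X], Q.eval₂ φ z = 0 → lamPolyA C M ∣ Q := fun Q hQ => by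
    refine lamPolyA_dvd C M hp2 hpM Q (C.coeffMap_subtype_injective' ?_)
    rw [hom_eval₂, map_zero, hzS]
    exact hQ
  have hy : (lamPolyA C M).eval₂ Ψ Y = 0 := C.eval₂_lamPolyA_node hp2 hpM hN hΨl hΨc
  obtain ⟨θ, hθ⟩ := exists_ext hmin hy (C.evalSeries_disc_injective hum hu hp2 hpM hψ)
  have hθA : ∀ a, θ ⟨φ a, map_mem_algElts _ _ a⟩ = Ψ a := fun a => by
    simpa using hθ ⟨φ a, map_mem_algElts _ _ a⟩ (Polynomial.C a) 1 (by simp)
  have hθz : ∀ h, θ ⟨z, h⟩ = Y := fun h => by simpa using hθ ⟨z, h⟩ X 1 (by simp)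
  -- the other branch
  set Φ := θ.comp (C.qExpandAlg hp2 hpM) with hΦ
  have hΦl : Φ (lamA C M) = Y := by
    rw [hΦ, RingHom.comp_apply, C.qExpandAlg_lamA hp2 hpM (C.muExp_mem_algElts hp2 hpM), hθz]
  obtain ⟨s', ψ', hψ', hψ't, hΦ'⟩ := C.exists_disc_swap hp2 hpM hN hum₂ hΦl fun c => by
    rw [hΦ, RingHom.comp_apply, C.qExpandAlg_cstL, hθA, hΨc]
  set Ψ₂ := (evalSeries (nc C.unif) _ hum₂).comp ψ'
  have htrans : ∀ (Q : (LRing (2 * M) C.B)[X]) (e : algElts φ z) (D : LRing (2 * M) C.B),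
      qExpand ℂ p (φ D) * (e : LaurentSeries ℂ) =
        Q.eval₂ ((qExpand ℂ p).comp φ) (expansion (2 * M) lam) →
      Ψ₂ D * swap C.unif (θ e) = Q.eval₂ Ψ₂ (swap C.unif T) := fun Q e D h => by
    have h2 := congrArg (swap C.unif) (C.eval₂_qExpandAlg hp2 hpM θ h)
    rw [map_mul, hom_eval₂, hθA, hΨl, ← RingHom.comp_assoc] at h2
    rw [← hΦ', RingHom.comp_apply]
    exact h2
  have hy₂ : (lamPolyA C M).eval₂ Ψ₂ (swap C.unif T) = 0 := by
    have h0 : expansion (2 * M) (0 : ℍ → ℂ) = 0 := HasExp.zero.expansion_eq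
    have h1 := C.swap_eval₂_eq hp2 hpM (F := 0) (zero_mem _) (D := 1) (P := lamPolyA C M)
      (by rw [h0, mul_zero, hzroot])
    rw [show swapFun p (2 * M) (0 : ℍ → ℂ) = 0 from rfl, h0, mul_zero] at h1
    rw [← htrans (lamPolyA C M) 0 1 (by simpa using h1), map_zero, map_zero, mul_zero]
  have hu₂ := hN.coord₂
  have hinj₂ : Function.Injective Ψ₂ := C.evalSeries_disc_injective hum₂ hu₂ hp2 hpM hψ'
  obtain ⟨θ₂, hθ₂⟩ := exists_ext hmin hy₂ hinj₂
  have hV0 : C.piA M ∣ (lamPolyA C M).eval (lamA C M ^ p) :=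
    Ideal.mem_span_singleton.1 (eval_lamPolyA_pow C M hp2)
  have hz0 : C.expA M (C.piA M) ∣ muSer C M - C.expA M (lamA C M ^ p) := by
    rw [C.expA_piA]; exact unif_dvd_muSer_sub C M hp2
  have hy0 : ny C.unif ∣ Y - Ψ (lamA C M ^ p) := by
    rw [map_pow, hΨl]; exact hN.eq₂
  have hy0₂ : ny C.unif ∣ swap C.unif T - Ψ₂ (lamA C M ^ p) := by
    rw [← hΦ', map_pow, RingHom.comp_apply, hΦl]
    have h1 := congrArg (swap C.unif) hN.eq₁
    rw [map_add, map_mul, map_pow, map_pow, swap_nc, swap_nx] at h1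
    exact ⟨nc C.unif C.mu * ny C.unif ^ (p - 1), by
      rw [mul_left_comm, ← pow_succ', Nat.sub_add_cancel hp.out.one_le]
      linear_combination h1⟩
  refine ⟨T, Y, x₀, hum, hum₂, s', ψ, ψ', θ, θ₂, {
    coord := hN, disc := hψ, disc' := hψ'
    epsFree := C.isEpsFree_of_mul_eq_one hψt (C.isEpsFree_C_add_X hN.mem₀)
    epsFree' := C.isEpsFree_of_mul_eq_one hψ't (C.isEpsFree_C_add_X (by
      push_cast; exact pow_mem hN.mem₀ p))
    θ_A := hθA, θ_root := hθz
    θ₂_swap := ?_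
    congr₁ := fun e eS he a d n hcong => C.branch_congr hum hp2 hpM hψ hu hroot hz0 hV0
      (not_piA_dvd_derivative C M hp2) hzS hy hy0 θ hθ e he hcong
    congr₂ := fun e eS he a d n hcong => C.branch_congr hum₂ hp2 hpM hψ' hu₂ hroot hz0 hV0
      (not_piA_dvd_derivative C M hp2) hzS hy₂ hy0₂ θ₂ hθ₂ e he hcong }⟩
  intro F hF h h'
  obtain ⟨-, P, D, hD, hP⟩ := id h
  have h1 := hθ₂ ⟨expansion (2 * M) F, h⟩ P D hP
  have h2 := htrans P ⟨_, h'⟩ D (C.swap_eval₂_eq hp2 hpM hF hP)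
  exact mul_left_cancel₀ (fun h0 => hD (hinj₂ (h0.trans (map_zero Ψ₂).symm))) (h1.trans h2.symm)

end Coeff

end Fermat.Agent.AtP
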