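import Fermat.Agent.AtP.AssemblyNodeMaps
import Fermat.Agent.AtP.AssemblyDefs
import Fermat.Agent.AtP.ModelBranch

/-!
# Congruences on a branch of a node, and orders congruent modulo `p`

`E ∘ ψ` at a branch coordinate carries congruences of expansions to congruences modulo powers of
`y`; a homomorphism to the node ring is such a composite.
-/

set_option autoImplicit false

noncomputable section

open CongruenceSubgroup IsLocalRing
open Polynomial hiding comp
open scoped PowerSeries DualNumber MatrixGroups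
open Fermat.Agent.KummerES
open ModularCurve (coeffMap)

namespace Fermat.Agent.AtP

attribute [local instance] isDomain_LRing

namespace Coeff

variable {p : ℕ} [hp : Fact p.Prime] (C : Coeff p) {M : ℕ} [NeZero M]

/-- The value at the node. -/
def resNode : Node C.unif →+* ResidueField C.B :=
  PowerSeries.constantCoeff.comp (q₁ C.unif C.unif_mem)

omit hp in
/-- The value at the node of a constant is its residue. -/
theorem resNode_nc (b : C.B) : C.resNode (nc C.unif b) = residue C.B b := by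
  simp [resNode]

omit hp in
/-- The maximal ideal of the node ring is the kernel of the value map. -/
theorem mem_maximalIdeal_iff_resNode {r : Node C.unif} :
    r ∈ maximalIdeal (Node C.unif) ↔ C.resNode r = 0 := by
  rw [mem_maximalIdeal, mem_nonunits_iff]
  refine ⟨fun h => by_contra fun h0 => h (isUnit_of_constantCoeff_ne_zero C.unif C.unif_mem h0),
    fun h hu => (hu.map C.resNode).ne_zero h⟩

omit hp in
/-- The involution preserves the maximal ideal of the node ring. -/
theorem swap_mem_maximalIdeal {r : Node C.unif} (h : r ∈ nonunits (Node C.unif)) :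
    swap C.unif r ∈ maximalIdeal (Node C.unif) :=
  fun hu => h (swap_swap C.unif r ▸ hu.map (swap C.unif))

section Branch

variable {u : Node C.unif} (hum : u ∈ maximalIdeal (Node C.unif)) (hp2 : p ≠ 2) (hpM : ¬ p ∣ M)
  {s : LRing (2 * M) C.B →+* ResidueField C.B} {ψ : LRing (2 * M) C.B →+* C.B⟦X⟧}
  (hψ : Points.IsDisc (C.levelHyp hp2 hpM) s ψ)
include hψ

/-- A homomorphism with the constants, the coordinate and the values of `E ∘ ψ` is `E ∘ ψ`. -/
theorem eq_evalSeries_disc {Φ : LRing (2 * M) C.B →+* Node C.unif}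
    (hc : ∀ c, Φ (Points.cstL (C.levelHyp hp2 hpM) c) = nc C.unif c)
    (ht : Φ (Points.tL (C.levelHyp hp2 hpM)) =
      evalSeries (nc C.unif) u hum (ψ (Points.tL (C.levelHyp hp2 hpM))))
    (hs : ∀ a, C.resNode (Φ a) = s a) : Φ = (evalSeries (nc C.unif) u hum).comp ψ := by
  refine Points.ringHom_ext_of_congr (C.levelHyp hp2 hpM) (fun c => ?_) (by rw [ht]; rfl)
    (maximalIdeal_le_jacobson ⊥) fun a => C.mem_maximalIdeal_iff_resNode.2 ?_
  · rw [hc, RingHom.comp_apply, hψ.const, evalSeries_C]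
  · rw [map_sub, hs, RingHom.comp_apply, sub_eq_zero]
    obtain ⟨q, hq⟩ : PowerSeries.X ∣ ψ a - PowerSeries.C (PowerSeries.constantCoeff (ψ a)) := by
      rw [PowerSeries.X_dvd_iff]; simp
    rw [sub_eq_iff_eq_add] at hq
    conv_rhs => rw [hq, map_add, map_mul, evalSeries_X, evalSeries_C, map_add, map_mul,
      C.mem_maximalIdeal_iff_resNode.1 hum, zero_mul, zero_add, resNode_nc, hψ.point]

variable {c : ResidueField C.B}
  (hu : IsBranchCoord C.irred C.red₂ C.fst_red₂ C.snd_unif p u c)
  {lamA : LRing (2 * M) C.B} {V : (LRing (2 * M) C.B)[X]} {zS : LaurentSeries C.B}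
  (hroot : V.eval₂ (C.expA M) zS = 0) (hz0 : C.expA M (C.piA M) ∣ zS - C.expA M (lamA ^ p))
  (hV0 : C.piA M ∣ V.eval (lamA ^ p)) (hV1 : ¬ C.piA M ∣ V.derivative.eval (lamA ^ p))
include hu hroot hz0 hV0 hV1

/-- **Congruences of expansions on the branch.** -/
theorem branch_congr {z : LaurentSeries ℂ} (hz : coeffMap C.B.subtype zS = z) {y : Node C.unif}
    (hy : V.eval₂ ((evalSeries (nc C.unif) u hum).comp ψ) y = 0)
    (hy0 : ny C.unif ∣ y - evalSeries (nc C.unif) u hum (ψ (lamA ^ p)))
    (θ : algElts (C.expK M) z →+* Node C.unif)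
    (hθ : ∀ (e : algElts (C.expK M) z) (Q : (LRing (2 * M) C.B)[X])
      (D : LRing (2 * M) C.B), C.expK M D * (e : LaurentSeries ℂ) =
        Q.eval₂ (C.expK M) z →
      evalSeries (nc C.unif) u hum (ψ D) * θ e =
        Q.eval₂ ((evalSeries (nc C.unif) u hum).comp ψ) y)
    (e : algElts (C.expK M) z) {eS : LaurentSeries C.B}
    (he : coeffMap C.B.subtype eS = e) {a d : LRing (2 * M) C.B} {n : ℕ}
    (hcong : C.expA M (C.piA M) ^ n ∣ C.expA M d * eS - C.expA M a) :
    ny C.unif ^ n ∣
      evalSeries (nc C.unif) u hum (ψ d) * θ e - evalSeries (nc C.unif) u hum (ψ a) := by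
  subst hz
  exact pow_dvd_ext_sub C.coeffMap_subtype_injective' (C.expA_piA_ne_zero M)
    (fun _ => C.piA_dvd_of_expA hp2 hpM) (prime_ny C.irred)
    (C.evalSeries_disc_piA hum hp2 hpM hψ) (not_ny_dvd_nx C.irred)
    (fun _ => C.piA_dvd_of_ny_dvd hum hu hp2 hpM hψ)
    (fun _ => C.exists_eq_piA_pow_mul hp2 hpM) hV0 hV1 hroot hz0 hy hy0 θ hθ e he hcong

end Branch

omit hp in
/-- Orders congruent modulo `p` give a unit times a `p`-th power. -/
theorem exists_unit_mul_pow_of_orders {k : Type*} [Field k] [CharP k p] {A D a' d' : k⟦X⟧}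
    {na nd : ℕ} (hA : A = PowerSeries.X ^ na * a') (ha : PowerSeries.constantCoeff a' ≠ 0)
    (hD : D = PowerSeries.X ^ nd * d') (hd : PowerSeries.constantCoeff d' ≠ 0)
    (h : (na : k) - nd = 0) :
    ∃ U G E : k⟦X⟧, IsUnit U ∧ G ≠ 0 ∧ E ≠ 0 ∧ A * E ^ p = D * U * G ^ p := by
  obtain ⟨di, hdi⟩ := (PowerSeries.isUnit_iff_constantCoeff.2 hd.isUnit).exists_right_inv
  have hU : IsUnit (a' * di) := (PowerSeries.isUnit_iff_constantCoeff.2 ha.isUnit).mul
    (IsUnit.of_mul_eq_one d' (by rw [mul_comm]; exact hdi))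
  rw [sub_eq_zero, CharP.natCast_eq_natCast k p] at h
  rcases le_total nd na with hle | hle
  · obtain ⟨m, hm⟩ := (Nat.modEq_iff_dvd' hle).1 h.symm
    refine ⟨a' * di, PowerSeries.X ^ m, 1, hU, pow_ne_zero _ PowerSeries.X_ne_zero, one_ne_zero, ?_⟩
    rw [hA, hD, show na = nd + p * m by omega]
    linear_combination (-(a' * PowerSeries.X ^ (nd + p * m))) * hdi
  · obtain ⟨m, hm⟩ := (Nat.modEq_iff_dvd' hle).1 h
    refine ⟨a' * di, 1, PowerSeries.X ^ m, hU, one_ne_zero, pow_ne_zero _ PowerSeries.X_ne_zero, ?_⟩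
    rw [hA, hD, show nd = na + p * m by omega]
    linear_combination (-(a' * PowerSeries.X ^ (na + p * m))) * hdi

end Coeff

end Fermat.Agent.AtP
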