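import Fermat.Agent.AtP.AssemblyNode
import Fermat.Agent.AtP.AssemblyCertificate
import Fermat.Agent.AtP.AssemblyDiscs
import Fermat.Agent.KummerLocal.UFDRoot

/-!
# Orders at the supersingular points

The certificate makes the function `t b ^ p` in the node ring with `t` supported over `ϖ`; with the
congruences on both branches this forces orders divisible by `p` in the disc of the point.
-/

set_option autoImplicit false

noncomputable section

open UpperHalfPlane CongruenceSubgroup IsLocalRing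
open Polynomial hiding comp
open scoped PowerSeries DualNumber MatrixGroups
open Fermat.Agent.KummerES
open ModularCurve (coeffMap qExpand)

namespace Fermat.Agent.AtP

attribute [local instance] isDomain_LRing

namespace Coeff

variable {p : ℕ} [hp : Fact p.Prime] (C : Coeff p) {M : ℕ} [NeZero M]

omit hp in
variable {C} in
/-- A product with a power of `ϖ` in front. -/
theorem pow_dvd_scaled {a d : LRing (2 * M) C.B} {t : LaurentSeries C.B} {k : ℕ} (N : ℕ)
    (h : C.expA M (C.piA M) ^ k ∣ C.expA M d * t - C.expA M a) :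
    C.expA M (C.piA M) ^ (N + k) ∣
      C.expA M d * (HahnSeries.C C.unif ^ N * t) - C.expA M (a * C.piA M ^ N) := by
  rw [map_mul, map_pow, C.expA_piA, pow_add]
  rw [C.expA_piA] at h
  obtain ⟨w, hw⟩ := h
  exact ⟨w, by linear_combination (HahnSeries.C C.unif ^ N) * hw⟩

variable {u : Node C.unif} (hum : u ∈ maximalIdeal (Node C.unif)) (hp2 : p ≠ 2) (hpM : ¬ p ∣ M)
  {s : LRing (2 * M) C.B →+* ResidueField C.B} {ψ : LRing (2 * M) C.B →+* C.B⟦X⟧}
  (hψ : Points.IsDisc (C.levelHyp hp2 hpM) s ψ)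
include hψ

theorem evalSeries_disc_mul_piA_pow (a : LRing (2 * M) C.B) (N : ℕ) :
    evalSeries (nc C.unif) u hum (ψ (a * C.piA M ^ N)) =
      evalSeries (nc C.unif) u hum (ψ a) * nc C.unif (1 * C.unif ^ N) := by
  rw [map_mul, map_mul, map_pow, map_pow, C.evalSeries_disc_piA hum hp2 hpM hψ, one_mul, map_pow,
    ← nx_mul_ny, mul_comm (nx C.unif)]

end Coeff

namespace Setting

variable {p : ℕ} [hp : Fact p.Prime] {C : Coeff p} {M : ℕ} [NeZero M] (S : Setting C M)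
  (hp2 : p ≠ 2) (hpM : ¬ p ∣ M)

/-- The function in the node ring is a `p`-th power up to factors over `ϖ`. -/
theorem exists_node_factor {T : Node C.unif} {x₀ : C.B}
    (hum : T - nc C.unif x₀ ∈ maximalIdeal (Node C.unif))
    {s : LRing (2 * M) C.B →+* ResidueField C.B} {ψ : LRing (2 * M) C.B →+* C.B⟦X⟧}
    (hψ : Points.IsDisc (C.levelHyp hp2 hpM) s ψ)
    (θ : algElts (C.expK M) (expansion (2 * M) (lamP p)) →+* Node C.unif)
    (hθA : ∀ a, θ ⟨C.expK M a, map_mem_algElts _ _ a⟩ = evalSeries (nc C.unif) _ hum (ψ a))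
    {e : algElts (C.expK M) (expansion (2 * M) (lamP p))} (he : θ e ≠ 0) {m N₀ : ℕ}
    {A D Cc : Fin m → algElts (C.expK M) (expansion (2 * M) (lamP p))}
    (hA : ∀ j, A j ^ p = D j * e)
    (hsum : ∑ j, Cc j * D j = ⟨C.expK M (C.piA M ^ N₀), map_mem_algElts _ _ _⟩) :
    ∃ t b : Node C.unif, θ e = t * b ^ p ∧ ∀ q, Prime q → q ∣ t → q ∣ nc C.unif C.unif := by
  obtain ⟨t, b, h, -, ht⟩ := KummerLocal.exists_eq_mul_pow_of_certificate (n := p) hp.out.ne_zero
    (s := (ny C.unif * nx C.unif) ^ N₀) (f := θ e) (a := fun j => θ (A j)) (d := fun j => θ (D j))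
    (c := fun j => θ (Cc j)) (by
      have h := congrArg θ hsum
      rw [map_sum] at h
      simp only [map_mul] at h
      rw [h, hθA, map_pow, map_pow, C.evalSeries_disc_piA hum hp2 hpM hψ])
    he (fun j => by rw [← map_pow, hA, map_mul])
  refine ⟨t, b, h, fun q hq hqt => ?_⟩
  rw [← nx_mul_ny, mul_comm]
  exact hq.dvd_of_dvd_pow (ht q hq hqt)

/-- **Orders at a supersingular point.** -/
theorem discPow_of_supersingular {a d : LRing (2 * M) C.B}
    (hrep : C.expA M (C.piA M) ∣ C.expA M d * qExpand C.B (2 * M) S.s₁ - C.expA M a)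
    (s : LRing (2 * M) C.B →+* ResidueField C.B) (hs : Points.IsPoint (C.levelHyp hp2 hpM) s)
    (hord : (ordPoly p hp2).eval₂ (have := C.charP; ZMod.castHom dvd_rfl (ResidueField C.B))
      (s (C.lamL hp2 hpM)) = 0) :
    ∃ ψ, Points.IsDisc (C.levelHyp hp2 hpM) s ψ ∧
      ∃ U G E : PowerSeries (ResidueField C.B), IsUnit U ∧ G ≠ 0 ∧ E ≠ 0 ∧
        Points.redPS (ψ a) * E ^ p = Points.redPS (ψ d) * U * G ^ p := by
  have := C.charP
  obtain ⟨T, Y, x₀, hum, hum₂, s', ψ, ψ', θ, θ₂, hN⟩ :=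
    C.exists_nodeMaps hp2 hpM hs (Coeff.point_lamL_mul_tL (hp2 := hp2) (hpM := hpM) s) hord
  have hz0 : C.expA M (C.piA M) ∣ muSer C M - C.expA M (lamA C M ^ p) := by
    rw [C.expA_piA]; exact unif_dvd_muSer_sub C M hp2
  obtain ⟨a₁, d₁, ha₁, hd₁, hr₁⟩ := S.exists_rep₁ hp2 hpM C.coeffMap_muSer
    (not_piA_dvd_derivative C M hp2) (eval₂_lamPolyA_muSer C M hp2) hz0
  obtain ⟨a₂, d₂, ha₂, hd₂, hr₂⟩ := S.exists_rep₂ hp2 hpM C.coeffMap_muSer
    (not_piA_dvd_derivative C M hp2) (eval₂_lamPolyA_muSer C M hp2) hz0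
  obtain ⟨N, m, N₀, hN', hpN, e₁, A, D, Cc, he₁, hA, hsum⟩ := S.exists_certificate_algElts hp2 hpM
  obtain ⟨c, hc, hu⟩ := hN.coord.coord₁
  have hu₂ := hN.coord.coord₂
  -- the scaling on the other side
  obtain ⟨i₂, hi₂⟩ : ∃ i₂ : ℕ, (i₂ : ℤ) = N + p * (S.j₁ - S.j₂) := by
    refine ⟨((N : ℤ) + p * (S.j₁ - S.j₂)).toNat, Int.toNat_of_nonneg ?_⟩
    have h1 : ((p : ℤ) * (S.j₁ - S.j₂).natAbs) ≤ N := by exact_mod_cast hN'
    have h2 : -((S.j₁ - S.j₂).natAbs : ℤ) ≤ S.j₁ - S.j₂ := by omega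
    have h3 := mul_le_mul_of_nonneg_left h2 (Int.natCast_nonneg p)
    linarith
  have hpi₂ : p ∣ i₂ := by
    rw [← Int.natCast_dvd_natCast, hi₂]
    exact dvd_add (Int.natCast_dvd_natCast.2 hpN) (dvd_mul_right _ _)
  have hz₁ : (C.unif : ℂ) ^ i₂ = (C.unif : ℂ) ^ N * (S.c₁ / S.c₂) := by
    rw [← zpow_natCast, hi₂, zpow_add₀ C.unif_ne_zero, zpow_natCast, mul_sub,
      zpow_sub₀ C.unif_ne_zero, S.c₁_eq, S.c₂_eq]
  set e₂ : algElts (C.expK M) (expansion (2 * M) (lamP p)) :=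
    ⟨_, S.mem_algElts₂ hp2 hpM i₂ (by
      rw [hz₁, mul_assoc, div_mul_div_comm, mul_comm S.c₁, div_self
        (mul_ne_zero S.c₂_ne S.c₁_ne), mul_one]
      exact pow_mem C.unif.2 N)⟩ with he₂
  -- the two branches give the same element
  set F : ℍ → ℂ := fun τ => (C.unif : ℂ) ^ N * S.f₁ τ with hF
  set W : ℍ → ℂ := fun τ => (C.unif : ℂ) ^ i₂ * S.f₂ τ with hW
  have hpL := Coeff.not_dvd_two_mul hp2 hpM
  have hWF : swapFun p (2 * M) F = W := by
    funext τ
    have h := congrFun (S.swapFun_f₁ hp2 hpM) τ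
    simp only [swapFun] at h
    simp only [swapFun, hF, hW, h, hz₁, mul_assoc]
  have hFW : swapFun p (2 * M) W = F := by
    rw [← hWF]
    refine swapFun_swapFun hpL (Dvd.intro_left 2 rfl) fun γ hγ => ?_
    funext τ
    have h := congrFun (S.pow_invariant γ hγ) τ
    simp only [comp_apply, Pi.pow_apply] at h
    simp only [comp_apply, hF, S.f₁_eq, h]
  have hFe : expansion (2 * M) F = e₁ := by
    rw [he₁, Setting.coeffMap_C_pow_mul]
    exact ((HasExp.const _).mul (S.hasExp_f₁ hp2 hpM)).expansion_eq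
  have hWe : expansion (2 * M) W = (e₂ : LaurentSeries ℂ) := by
    show _ = coeffMap C.B.subtype _
    rw [Setting.coeffMap_C_pow_mul]
    exact ((HasExp.const _).mul (S.hasExp_f₂ hp2 hpM)).expansion_eq
  have hmW : expansion (2 * M) W ∈ algElts (C.expK M) (expansion (2 * M) (lamP p)) := by
    rw [hWe]; exact e₂.2
  have hmF : expansion (2 * M) (swapFun p (2 * M) W) ∈
      algElts (C.expK M) (expansion (2 * M) (lamP p)) := by rw [hFW, hFe]; exact e₁.2
  have heW : (⟨expansion (2 * M) W, hmW⟩ : algElts (C.expK M) (expansion (2 * M) (lamP p))) = e₂ :=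
    Subtype.ext hWe
  have heF : (⟨expansion (2 * M) (swapFun p (2 * M) W), hmF⟩ :
      algElts (C.expK M) (expansion (2 * M) (lamP p))) = e₁ :=
    Subtype.ext ((congrArg (expansion (2 * M)) hFW).trans hFe)
  have hsw : θ₂ e₂ = swap C.unif (θ e₁) := by
    rw [← heW, ← heF]
    exact hN.θ₂_swap W (mul_mem (const_mem_weak (Subring.mem_top _)) (S.f₂_mem hp2 hpM)) hmW hmF
  -- congruences
  have h₁ := hN.congr₁ e₁ _ he₁.symm _ _ _ (Coeff.pow_dvd_scaled N hr₁)
  rw [C.evalSeries_disc_mul_piA_pow hum hp2 hpM hN.disc] at h₁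
  have h₂ := hN.congr₂ e₂ _ rfl _ _ _ (Coeff.pow_dvd_scaled i₂ hr₂)
  rw [C.evalSeries_disc_mul_piA_pow hum₂ hp2 hpM hN.disc', hsw] at h₂
  have hf0 : θ e₁ ≠ 0 := by
    intro h0
    rw [h0, mul_zero, zero_sub, dvd_neg, map_mul, map_pow, map_one, one_mul, ← nx_mul_ny,
      mul_pow, ← mul_assoc, pow_add, mul_comm _ (ny C.unif ^ N),
      mul_dvd_mul_iff_left (pow_ne_zero _ (ny_ne_zero C.irred))] at h₁
    rcases (prime_ny C.irred).dvd_or_dvd ((dvd_pow_self _ two_ne_zero).trans h₁) with h | h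
    · exact ha₁ (C.piA_dvd_of_ny_dvd hum hu hp2 hpM hN.disc h)
    · exact not_ny_dvd_nx C.irred ((prime_ny C.irred).dvd_of_dvd_pow h)
  obtain ⟨t, b, hf, ht⟩ := exists_node_factor hp2 hpM hum hN.disc θ hN.θ_A hf0 hA hsum
  have hne : ∀ {ψ : LRing (2 * M) C.B →+* C.B⟦X⟧} {s}, Points.IsDisc (C.levelHyp hp2 hpM) s ψ →
      ∀ {x : LRing (2 * M) C.B}, ¬ C.piA M ∣ x → Points.redPS (ψ x) ≠ 0 := fun hψ _ hx h0 =>
    hx (Points.piL_dvd_of_redPS_eq_zero (C.coeffHyp hp2 hpM) hψ h0)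
  obtain ⟨na, a', hna, ha'⟩ := Points.exists_X_pow_mul (hne hN.disc ha₁)
  obtain ⟨nd, d', hnd, hd'⟩ := Points.exists_X_pow_mul (hne hN.disc hd₁)
  obtain ⟨na₂, a₂', hna₂, ha₂'⟩ := Points.exists_X_pow_mul (hne hN.disc' ha₂)
  obtain ⟨nd₂, d₂', hnd₂, hd₂'⟩ := Points.exists_X_pow_mul (hne hN.disc' hd₂)
  have key := node_orders hp.out C.irred C.red₂ C.fst_red₂ C.snd_unif hum hum₂ hu hu₂ hf hf0 ht
    hpN hpi₂ (C.isEpsFree_disc_inclO hp2 hpM hN.disc hN.epsFree a₁)
    (C.isEpsFree_disc_inclO hp2 hpM hN.disc hN.epsFree d₁)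
    (C.isEpsFree_disc_inclO hp2 hpM hN.disc' hN.epsFree' a₂)
    (C.isEpsFree_disc_inclO hp2 hpM hN.disc' hN.epsFree' d₂)
    hna ha' hnd hd' hna₂ ha₂' hnd₂ hd₂' isUnit_one isUnit_one (by simp) (by simp) h₁ h₂
  rw [zero_mul, mul_eq_zero] at key
  obtain ⟨U, G, E, hU, hG, hE, hUGE⟩ :=
    Coeff.exists_unit_mul_pow_of_orders hna ha' hnd hd' (key.resolve_left hc)
  refine ⟨ψ, hN.disc, U, G, E, hU, hG, hE, ?_⟩
  -- every representative gives the same reduction
  have hcross : C.piA M ∣ a * C.inclO M d₁ - C.inclO M a₁ * d := by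
    refine C.piA_dvd_of_expA hp2 hpM ?_
    rw [map_sub, map_mul, map_mul]
    have := dvd_sub (((dvd_pow_self _ two_ne_zero).trans hr₁).mul_left (C.expA M d))
      (hrep.mul_left (C.expA M (C.inclO M d₁)))
    convert this using 1
    ring
  obtain ⟨w, hw⟩ := hcross
  have hw' := congrArg (fun x => Points.redPS (ψ x)) hw
  have hpi : Points.redPS (ψ (C.piA M)) = 0 := by
    rw [show C.piA M = Points.cstL (C.levelHyp hp2 hpM) C.unif from rfl, hN.disc.const,
      Points.redPS, PowerSeries.map_C, (residue_eq_zero_iff C.unif).2 C.unif_mem, map_zero]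
  simp only [map_sub, map_mul, hpi, zero_mul] at hw'
  refine mul_left_cancel₀ (hne hN.disc hd₁) ?_
  linear_combination (E ^ p) * hw' + Points.redPS (ψ d) * hUGE

end Setting

end Fermat.Agent.AtP
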