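import Fermat.Agent.AtP.AssemblyBranch
import Fermat.Agent.AtP.PointsRegular

/-!
# `λ'(τ) / λ'(pτ)` as a generator over level `2 M`

Its monic polynomial is `(Y - y₀) Y ^ p` modulo `ϖ`, so it has a simple root wherever `y₀` is a
unit; and it generates the same integral elements as `λ (pτ)`.
-/

set_option autoImplicit false

noncomputable section

open UpperHalfPlane CongruenceSubgroup
open Polynomial hiding comp
open scoped MatrixGroups
open Fermat.Agent.KummerES
open ModularCurve (qExpand coeffMap)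
open IsLocalRing (residue ResidueField)

namespace Fermat.Agent.AtP

lemma hasExp_vFun_none {p : ℕ} [hp : Fact p.Prime] :
    Exp2 2 (vFun p lam none) (vInf p l2) := by
  have hD : HasExp 2 (dSlash 2 lam) (coeffMap iota2 (thetaOp R2 l2)) := by
    rw [coeffMap_thetaOp]; exact HasExp.dSlash exp2_l2
  have hD0 : ∀ τ, dSlash 2 lam τ ≠ 0 := fun τ => (dSlash_ne_zero_iff τ).2 (deriv_lam_ne_zero τ)
  have hq : qExpand ℂ p (coeffMap iota2 (thetaOp R2 l2)) ≠ 0 :=
    (map_ne_zero_iff _ (ModularCurve.qExpand_injective p)).2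
      (isUnit_thetaOp_l2.map (coeffMap iota2)).ne_zero
  unfold Exp2
  rw [show vFun p lam none = fun τ => dSlash 2 lam τ *
      ((dSlash 2 lam ∘ conjMap (none : Option (ZMod p))) τ)⁻¹ from
    funext fun τ => (vFun_none mdiff_lam τ).trans (div_eq_mul_inv _ _),
    vInf, map_mul (coeffMap iota2), map_ringInverse _ (isUnit_thetaOp_l2.map (qExpand R2 p)),
    ← qExpand_coeffMap]
  exact hD.mul ((hasExp_comp_conjMap_none hD).inv (fun τ => hD0 _) hq)

namespace Coeff

attribute [local instance] isDomain_LRing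

variable {p : ℕ} [hp : Fact p.Prime] (C : Coeff p) {M : ℕ} [NeZero M] (hp2 : p ≠ 2) (hpM : ¬ p ∣ M)

include hp2 hpM in
lemma inv_mem_B : (2 : ℂ)⁻¹ ∈ C.B := C.inv_two_mem_B hp2 hpM

lemma isUnit_lamFactor :
    IsUnit (C.polyLam (M := M) hp2 hpM ((X * (1 - X)) ^ ordExp p)) := by
  have h2 : (2 : ℂ)⁻¹ ∈ C.B := C.inv_mem_B (M := M) hp2 hpM
  have hle : weak (Gamma 2) 2 C.B ≤ weak (Gamma (2 * M)) (2 * M) C.B := fun f hf =>
    weak_mono (Gamma_le_of_dvd (Dvd.intro M rfl)) le_rfl (weak_two_le (Dvd.intro M rfl) _ hf)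
  rw [map_pow, map_mul]
  refine IsUnit.pow _ (IsUnit.mul ?_ ?_)
  · refine IsUnit.of_mul_eq_one (⟨_, hle (lam_inv_mem_weak h2)⟩ : LRing (2 * M) C.B)
      (Subtype.ext (funext fun τ => ?_))
    simp [polyLam, lam_ne_zero]
  · refine IsUnit.of_mul_eq_one (⟨_, hle (one_sub_lam_inv_mem_weak h2)⟩ : LRing (2 * M) C.B)
      (Subtype.ext (funext fun τ => ?_))
    simp [polyLam, sub_ne_zero.2 (lam_ne_one τ).symm]

/-- The inverse of the leading coefficient. -/
def invFactor : LRing (2 * M) C.B := ↑(C.isUnit_lamFactor (M := M) hp2 hpM).unit⁻¹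

lemma invFactor_mul :
    C.invFactor hp2 hpM * C.polyLam (M := M) hp2 hpM ((X * (1 - X)) ^ ordExp p) = 1 := by
  rw [invFactor, IsUnit.val_inv_mul]

/-- The monic polynomial of `λ'(τ)/λ'(pτ)` over level `2 M`. -/
def vV : (LRing (2 * M) C.B)[X] :=
  Polynomial.C (C.invFactor hp2 hpM) * (vPoly p).map (C.polyLam hp2 hpM)

/-- Its simple root modulo `ϖ`. -/
def vY : LRing (2 * M) C.B :=
  -(C.invFactor hp2 hpM * C.polyLam hp2 hpM ((vPoly p).coeff p))

lemma natDegree_vV_le : (C.vV (M := M) hp2 hpM).natDegree ≤ p + 1 :=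
  natDegree_C_mul_le _ _ |>.trans (natDegree_map_le.trans (isVPoly_vPoly hp2).1)

lemma coeff_vV_top : (C.vV (M := M) hp2 hpM).coeff (p + 1) = 1 := by
  rw [vV, coeff_C_mul, Polynomial.coeff_map, (isVPoly_vPoly hp2).2.1, invFactor_mul]

/-- The polynomial `vV` is monic. -/
lemma vV_monic : (C.vV (M := M) hp2 hpM).Monic :=
  monic_of_natDegree_le_of_coeff_eq_one (p + 1) (C.natDegree_vV_le hp2 hpM) (C.coeff_vV_top hp2 hpM)

lemma natDegree_vV : (C.vV (M := M) hp2 hpM).natDegree = p + 1 :=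
  natDegree_eq_of_le_of_coeff_ne_zero (C.natDegree_vV_le hp2 hpM)
    (by rw [coeff_vV_top]; exact one_ne_zero)

/-- `λ'(τ)/λ'(pτ)` is a root of `vV`. -/
lemma vV_fun : (C.vV hp2 hpM).eval₂ (funA (2 * M) C.B) (vFun p lam none) = 0 := by
  rw [vV, eval₂_mul, eval₂_funA_map]
  funext τ
  have h := ev2_vPoly_vFun hp2 none τ
  rw [ev2_eq_eval] at h
  simp [Pi.mul_apply, h]

include hp2 hpM in
/-- `vV` divides every polynomial vanishing at `λ'(τ)/λ'(pτ)`. -/
lemma vV_dvd {yI : LaurentSeries ℂ} (hy : HasExp (2 * M) (vFun p lam none) yI)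
    {Q : (LRing (2 * M) C.B)[X]} (hQ : Q.eval₂ (C.expK M) yI = 0) : C.vV hp2 hpM ∣ Q := by
  have hpL := not_dvd_two_mul hp2 hpM
  have hL2 : 2 ∣ 2 * M := Dvd.intro M rfl
  obtain ⟨e, -, -, h1⟩ := exists_conjFun_lamP (p := p) hp2 hpL hL2
  refine dvd_of_conjugates (m := p) (W := vFun p lam) (vFun_injective hp2) (fun i => ?_)
    (fun i => ⟨descRep p (2 * M) (e.symm i), descRep_mem _, by
      rw [show comp (vFun p lam none) (descRep p (2 * M) (e.symm i)) =
        conjFun (L := 2 * M) (vFun p lam none) (e.symm i) from rfl, h1, e.apply_symm_apply]⟩)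
    (C.vV_monic hp2 hpM) ?_ (C.vV_fun hp2 hpM) (eval₂_funA_eq_zero hy hQ)
  · rw [mul_comm]
    simpa [show comp lam (1 : SL(2, ℤ)) = lam from KummerES.comp_one lam] using
      exists_hasExp_vFun (p := p) (L := 2 * M) hL2 1 i
  · rw [natDegree_vV, Fintype.card_option, ZMod.card]

include hp2 hpM in
/-- Modulo `ϖ` the polynomial is `(Y - y₀) Y ^ p`. -/
lemma exists_vV_eq : ∃ H : (LRing (2 * M) C.B)[X],
    C.vV hp2 hpM = (X - Polynomial.C (C.vY hp2 hpM)) * X ^ p + Polynomial.C (C.piA M) * H := by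
  obtain ⟨R, hR⟩ : Polynomial.C (Polynomial.C (p : R2)) ∣ vPoly p -
      (Polynomial.C ((X * (1 - X)) ^ ordExp p) * X ^ (p + 1) +
        Polynomial.C ((vPoly p).coeff p) * X ^ p) := by
    refine C_C_dvd_of_map_eq_zero hp2 ?_
    have h : (mapRingHom (red2 hp2)) ((vPoly p).coeff p) = -ordPoly p hp2 := by
      rw [ordPoly, neg_neg, Polynomial.coeff_map]
    rw [Polynomial.map_sub, Polynomial.map_add, Polynomial.map_mul, Polynomial.map_mul,
      Polynomial.map_pow, Polynomial.map_pow, Polynomial.map_X, Polynomial.map_C, Polynomial.map_C,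
      h, vPoly_map_red hp2]
    simp
    ring
  obtain ⟨c, hc⟩ := C.piA_dvd_natCast (M := M)
  refine ⟨Polynomial.C (c * C.invFactor hp2 hpM) * R.map (C.polyLam hp2 hpM), ?_⟩
  replace hR : vPoly p = Polynomial.C ((X * (1 - X)) ^ ordExp p) * X ^ (p + 1) +
      Polynomial.C ((vPoly p).coeff p) * X ^ p + Polynomial.C (Polynomial.C (p : R2)) * R := by
    let : AddCommGroup R2[X][X] := (inferInstance : CommRing R2[X][X]).toAddCommGroup
    rw [← hR]
    exact (add_sub_cancel _ _).symm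
  have h1 := congrArg Polynomial.C (C.invFactor_mul (M := M) hp2 hpM)
  have h2 := congrArg Polynomial.C hc
  have hv : C.vV hp2 hpM = Polynomial.C (C.invFactor hp2 hpM) *
      (Polynomial.C ((X * (1 - X)) ^ ordExp p) * X ^ (p + 1) +
        Polynomial.C ((vPoly p).coeff p) * X ^ p +
          Polynomial.C (Polynomial.C (p : R2)) * R).map (C.polyLam hp2 hpM) := by rw [vV, ← hR]
  simp only [Polynomial.map_add, Polynomial.map_mul, Polynomial.map_pow, Polynomial.map_X,
    Polynomial.map_C, map_natCast, Polynomial.map_natCast] at hv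
  simp only [map_mul, map_one, map_neg, map_natCast, vY] at h1 h2 ⊢
  linear_combination hv + X ^ (p + 1) * h1 +
    (Polynomial.C (C.invFactor hp2 hpM) * R.map (C.polyLam hp2 hpM)) * h2

include hp2 hpM in
/-- `vY` is a root of `vV` modulo the uniformiser. -/
lemma piA_dvd_vV : C.piA M ∣ (C.vV hp2 hpM).eval (C.vY hp2 hpM) := by
  obtain ⟨H, hH⟩ := C.exists_vV_eq (M := M) hp2 hpM
  rw [hH]
  simp

include hp2 hpM in
/-- The derivative of `vV` at `vY` is congruent to `vY ^ p`. -/
lemma piA_dvd_vV_derivative_sub :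
    C.piA M ∣ (C.vV hp2 hpM).derivative.eval (C.vY hp2 hpM) - C.vY hp2 hpM ^ p := by
  obtain ⟨H, hH⟩ := C.exists_vV_eq (M := M) hp2 hpM
  rw [hH]
  simp [derivative_mul]

/-- The series of `λ'(τ)/λ'(pτ)`. -/
def vS (M : ℕ) [NeZero M] : LaurentSeries C.B := coeffMap C.ofR2 (qExpand R2 M (vInf p l2))

include C in
/-- `vS` is the expansion of `λ'(τ)/λ'(pτ)`. -/
lemma hasExp_vS : HasExp (2 * M) (vFun p lam none) (coeffMap C.B.subtype (C.vS M)) := by
  have h := (hasExp_vFun_none (p := p)).dilate M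
  rw [← ModularCurve.coeffMap_qExpand] at h
  convert h using 1
  exact HahnSeries.ext (funext fun i => rfl)

lemma isUnit_vS : IsUnit (C.vS M) :=
  ((isUnit_thetaOp_l2.mul (isUnit_thetaOp_l2.map (qExpand R2 p)).ringInverse).map _).map _

include hp2 hpM in
/-- `vS` is congruent to `vY` modulo the uniformiser. -/
lemma vS_congr : HahnSeries.C C.unif ∣ C.vS M - C.expA M (C.vY hp2 hpM) := by
  obtain ⟨H, hH⟩ := C.exists_vV_eq (M := M) hp2 hpM
  have h := eval₂_expB_eq_zero (δ := 1) (s := C.vS M) (by rw [KummerES.comp_one]; exact C.hasExp_vS)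
    (C.vV_fun hp2 hpM)
  rw [hH, eval₂_add, eval₂_mul, eval₂_mul, eval₂_sub, eval₂_X, eval₂_C, eval₂_C, eval₂_X_pow,
    C.expB_piA] at h
  have hP := C.prime_C_unif (M := M) hp2 hpM
  refine (hP.dvd_or_dvd (b := C.vS M ^ p) ⟨-(H.eval₂ (C.expA M) (C.vS M)), ?_⟩).resolve_right
    fun hd => hP.not_isUnit (isUnit_of_dvd_unit hd ((C.isUnit_vS).pow p))
  simp only [expA]
  linear_combination h

include hp2 hpM in
/-- **Change of generator.** -/
theorem algElts_le_vS :
    algElts (C.expK M) (expansion (2 * M) (lamP p)) ≤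
      algElts (C.expK M) (coeffMap C.B.subtype (C.vS M)) := by
  have hY := hasExp_lamP (M := M) (p := p) hp2
  have hv := C.hasExp_vS (M := M)
  set W : (LRing (2 * M) C.B)[X] := (dX (lamPoly p)).map (C.polyLam hp2 hpM)
  set U : (LRing (2 * M) C.B)[X] :=
    -(Polynomial.C (p : LRing (2 * M) C.B) * (derivative (lamPoly p)).map (C.polyLam hp2 hpM))
  have hUW : W.eval₂ (C.expK M) (expansion (2 * M) (lamP p)) * coeffMap C.B.subtype (C.vS M) =
      U.eval₂ (C.expK M) (expansion (2 * M) (lamP p)) := by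
    refine series_eq_of_fun_eq ((C.hasExp_polyFun hY W).mul hv) (C.hasExp_polyFun hY U) ?_
    funext τ
    have h := vFun_relation hp2 none τ
    rw [ev2_eq_eval, ev2_eq_eval] at h
    simp only [Pi.mul_apply, W, U, eval₂_neg, eval₂_mul, C.eval₂_evA_polyLam hp2 hpM,
      eval₂_natCast, map_natCast]
    linear_combination h
  have hne : W.eval₂ (C.expK M) (expansion (2 * M) (lamP p)) ≠ 0 := by
    intro h0
    rw [h0, zero_mul] at hUW
    have hch : (p : LaurentSeries ℂ) ≠ 0 := by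
      rw [← map_natCast (HahnSeries.C (Γ := ℤ) (R := ℂ))]
      exact (map_ne_zero_iff _ HahnSeries.C_injective).2 (Nat.cast_ne_zero.2 hp.out.ne_zero)
    have hd : (derivative (C.lamV hp2 hpM)).eval₂ (C.expK M) (expansion (2 * M) (lamP p)) = 0 := by
      have := hUW.symm
      simp only [U, eval₂_neg, neg_eq_zero, eval₂_mul, map_natCast, eval₂_natCast, mul_eq_zero] at this
      rw [lamV, derivative_map]
      exact this.resolve_left hch
    have hdvd := C.lamV_dvd hp2 hpM hY hd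
    have h1 := eq_zero_of_dvd_of_natDegree_lt hdvd (natDegree_derivative_lt (by
      rw [lamV, (lamPoly_monic hp2).natDegree_map, natDegree_lamPoly hp2]; omega))
    have h2 := congrArg (fun Q : (LRing (2 * M) C.B)[X] => (Q.coeff p).1 UpperHalfPlane.I) h1
    simp only [coeff_derivative, coeff_zero] at h2
    have hc : (C.lamV (M := M) hp2 hpM).coeff (p + 1) = 1 := by
      have := (C.lamV_monic (M := M) hp2 hpM).coeff_natDegree
      rwa [show (C.lamV (M := M) hp2 hpM).natDegree = p + 1 by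
        rw [lamV, (lamPoly_monic hp2).natDegree_map, natDegree_lamPoly hp2]] at this
    rw [hc] at h2
    simp at h2
    exact absurd h2 (by exact_mod_cast Nat.succ_ne_zero p)
  refine algElts_le_algElts (mem_algElts_of_mul_eq (C.lamV_monic hp2 hpM) ?_ hne hUW fun Q hQ h0 =>
    eq_zero_of_dvd_of_natDegree_lt (C.vV_dvd hp2 hpM hv h0) ?_)
  · have hψ : ∀ a : LRing (2 * M) C.B, HasExp (2 * M) (comp a.1 1) (C.expK M a) := fun a => by
      rw [C.expK_apply, KummerES.comp_one]; simpa using hasExp_expansion a.2 1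
    have h := hasExp_eval₂ (C.expK M) (δ := 1) hψ (Y := lamP p)
      (by rw [KummerES.comp_one]; exact hY) (C.lamV hp2 hpM)
    rw [C.lamV_fun, KummerES.comp_one] at h
    exact h.eq_zero_of_fun_zero
  · rw [natDegree_vV]
    rwa [lamV, (lamPoly_monic hp2).natDegree_map, natDegree_lamPoly hp2] at hQ

end Coeff

end Fermat.Agent.AtP
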