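import Mathlib.Algebra.Polynomial.Taylor
import Mathlib.RingTheory.Prime
import Mathlib.Tactic

/-!
# Congruences at a simple root pass to every branch

`V` has the approximate simple root `y₀` modulo `π`. If `φ : A → S` (an expansion, `π`-saturated)
has a root `z` of `V` congruent to `y₀`, and `Ψ : A → R` a root `y` congruent to `y₀` modulo the
prime `P` over `π`, then a polynomial in the root divisible by `π ^ n` on `S` is divisible by
`P ^ n` in `R`.
-/

set_option autoImplicit false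

namespace Fermat.Agent.AtP

open Polynomial

variable {A R S : Type*} [CommRing A] [CommRing R] [IsDomain R] [CommRing S] [IsDomain S]

/-- Divisibility by `π ^ n` at a simple root passes to every branch. -/
theorem pow_dvd_eval₂_of_pow_dvd {π y₀ : A} {V : A[X]} {φ : A →+* S} {Ψ : A →+* R} {z : S}
    {y P : R} (hπS : φ π ≠ 0) (hsat : ∀ a, φ π ∣ φ a → π ∣ a) (hP : Prime P) (hPπ : P ∣ Ψ π)
    (hinj : ∀ a, P ∣ Ψ a → π ∣ a) (hV0 : π ∣ V.eval y₀) (hV1 : ¬ π ∣ V.derivative.eval y₀)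
    (hz : V.eval₂ φ z = 0) (hz0 : φ π ∣ z - φ y₀) (hy : V.eval₂ Ψ y = 0) (hy0 : P ∣ y - Ψ y₀) :
    ∀ (n : ℕ) (Q : A[X]), φ π ^ n ∣ Q.eval₂ φ z → P ^ n ∣ Q.eval₂ Ψ y := by
  obtain ⟨c, hc⟩ := hV0
  obtain ⟨S₁, hS₁⟩ : ∃ S₁, V - C (V.eval y₀) = (X - C y₀) * S₁ :=
    dvd_iff_isRoot.2 (by simp)
  have hw : S₁.eval y₀ = V.derivative.eval y₀ := by
    have := congrArg (fun q : A[X] => q.derivative.eval y₀) hS₁
    simpa [derivative_mul] using this.symm
  intro n
  induction n with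
  | zero => intro Q _; simp
  | succ n ih =>
    intro Q hQ
    obtain ⟨Q₁, hQ₁⟩ : ∃ Q₁, Q - C (Q.eval y₀) = (X - C y₀) * Q₁ := dvd_iff_isRoot.2 (by simp)
    obtain ⟨d, hd⟩ : π ∣ Q.eval y₀ := by
      refine hsat _ ?_
      have h1 : φ π ∣ Q.eval₂ φ z := (dvd_pow_self _ n.succ_ne_zero).trans hQ
      have h2 := congrArg (eval₂ φ z) hQ₁
      simp only [eval₂_sub, eval₂_C, eval₂_mul, eval₂_X] at h2
      rw [show φ (Q.eval y₀) = Q.eval₂ φ z - (z - φ y₀) * Q₁.eval₂ φ z by linear_combination -h2]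
      exact dvd_sub h1 (hz0.mul_right _)
    -- `Q * S₁ = π * Q₂ + V * Q₁`
    set Q₂ := C d * S₁ - C c * Q₁ with hQ₂
    have key : Q * S₁ = C π * Q₂ + V * Q₁ := by
      have e1 := congrArg C hd
      have e2 := congrArg C hc
      rw [map_mul] at e1 e2
      rw [hQ₂]
      linear_combination S₁ * hQ₁ - Q₁ * hS₁ + S₁ * e1 - Q₁ * e2
    have hzS := congrArg (eval₂ φ z) key
    have hyS := congrArg (eval₂ Ψ y) key
    simp only [eval₂_mul, eval₂_add, eval₂_C, hz, hy, zero_mul, add_zero] at hzS hyS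
    have h3 : φ π ^ n ∣ Q₂.eval₂ φ z := by
      refine (mul_dvd_mul_iff_left hπS).1 ?_
      rw [← pow_succ', ← hzS]
      exact hQ.mul_right _
    have h4 : P ^ (n + 1) ∣ Q.eval₂ Ψ y * S₁.eval₂ Ψ y := by
      rw [hyS, pow_succ']
      exact mul_dvd_mul hPπ (ih Q₂ h3)
    refine hP.pow_dvd_of_dvd_mul_right (n + 1) (fun h => hV1 ?_) h4
    refine hw ▸ hinj _ ?_
    have h5 : P ∣ S₁.eval₂ Ψ y - Ψ (S₁.eval y₀) := by
      rw [← eval₂_hom]
      simp only [← eval_map]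
      exact hy0.trans (sub_dvd_eval_sub _ _ _)
    have := dvd_sub h h5
    rwa [sub_sub_cancel] at this

end Fermat.Agent.AtP
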