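import Fermat.Agent.KummerES.ConjugateBase
import Fermat.Agent.KummerES.ConjugateOrder

/-!
# Orders of zeros in the rings of weakly holomorphic functions

Division of holomorphic functions by orders, division by powers of `t - c`, coset translates,
and pole bounds at the cusps.
-/

set_option autoImplicit false

noncomputable section

open UpperHalfPlane CongruenceSubgroup Filter Topology
open scoped MatrixGroups Manifold

namespace Fermat.Agent.AtP

open Fermat.Agent.KummerES

/-- Division by orders. -/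
theorem exists_mdiff_mul_of_ord_le {u w : ℍ → ℂ} (hu : MDiff u) (hw : MDiff w) (hw0 : w ≠ 0)
    (hord : ∀ τ, ordAt w τ ≤ ordAt u τ) : ∃ b : ℍ → ℂ, MDiff b ∧ w * b = u := by
  classical
  have hloc : ∀ τ : ℍ, ∃ q : ℂ → ℂ, AnalyticAt ℂ q (τ : ℂ) ∧
      ∀ᶠ z in 𝓝 (τ : ℂ), (u ∘ ofComplex) z = (w ∘ ofComplex) z * q z := by
    intro τ
    obtain ⟨m, hm⟩ := ENat.ne_top_iff_exists.mp (ordAt_ne_top hw hw0 τ)
    obtain ⟨gw, hgw, hgw0, hweq⟩ :=
      (analyticAt_comp_ofComplex hw τ).analyticOrderAt_eq_natCast.mp hm.symm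
    obtain ⟨gu, hgu, hueq⟩ :=
      (natCast_le_analyticOrderAt (analyticAt_comp_ofComplex hu τ)).mp (hm ▸ hord τ)
    refine ⟨fun z => gu z / gw z, hgu.div hgw hgw0, ?_⟩
    filter_upwards [hweq, hueq, hgw.continuousAt.eventually_ne hgw0] with z h1 h2 h3
    rw [h1, h2, smul_eq_mul, smul_eq_mul, mul_assoc, mul_div_cancel₀ _ h3]
  choose q hq hqe using hloc
  refine ⟨fun τ => q τ τ, fun τ => ?_, funext fun τ => ?_⟩
  swap
  · have := (hqe τ).self_of_nhds
    simpa [ofComplex_apply] using this.symm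
  rw [UpperHalfPlane.mdifferentiableAt_iff]
  refine (hq τ).differentiableAt.congr_of_eventuallyEq ?_
  have hU : ∀ᶠ z in 𝓝 (τ : ℂ), 0 < z.im := isOpen_upperHalfPlaneSet.mem_nhds τ.im_pos
  -- near `τ`, either `w ≠ 0` or we are at `τ`
  have hne : ∀ᶠ z in 𝓝[≠] (τ : ℂ), (w ∘ ofComplex) z ≠ 0 := by
    rcases (analyticAt_comp_ofComplex hw τ).eventually_eq_zero_or_eventually_ne_zero with h | h
    · exact absurd (analyticOrderAt_eq_top.mpr h) (ordAt_ne_top hw hw0 τ)
    · exact h
  rw [eventually_nhdsWithin_iff] at hne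
  filter_upwards [hqe τ, hU, hne] with z h1 hz h2
  rcases eq_or_ne z (τ : ℂ) with rfl | hzτ
  · simp [ofComplex_apply]
  · have h3 := (hqe ⟨z, hz⟩).self_of_nhds
    have h4 := h2 hzτ
    simp only [Function.comp_apply, ofComplex_apply_of_im_pos hz] at h1 h3 h4 ⊢
    exact mul_left_cancel₀ h4 (h3.symm.trans h1)

/-- The order of a sum is at least the smaller of the orders. -/
lemma le_ordAt_add {u v : ℍ → ℂ} (τ : ℍ) : min (ordAt u τ) (ordAt v τ) ≤ ordAt (u + v) τ :=
  le_analyticOrderAt_add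

/-- The order of the zero function is `⊤`. -/
lemma ordAt_zero (τ : ℍ) : ordAt 0 τ = ⊤ :=
  analyticOrderAt_eq_top.mpr (Eventually.of_forall fun _ => rfl)

/-- Scalar multiples have at least the same order. -/
lemma le_ordAt_smul {u : ℍ → ℂ} (hu : MDiff u) (a : ℂ) (τ : ℍ) :
    ordAt u τ ≤ ordAt (a • u) τ := by
  rw [show a • u = (fun _ => a) * u from rfl, ordAt_mul mdifferentiable_const hu]
  exact le_add_self

section Level

variable {L : ℕ} [NeZero L]

local notation "𝔸" => weak (Gamma L) L ⊤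

omit [NeZero L] in
/-- Quotients of invariant functions are invariant. -/
theorem comp_eq_of_mul {u w b : ℍ → ℂ} (hw : MDiff w) (hw0 : w ≠ 0) (hb : MDiff b)
    (he : w * b = u) (γ : SL(2, ℤ)) (h1 : comp w γ = w) (h2 : comp u γ = u) : comp b γ = b := by
  have h3 : w * (comp b γ - b) = 0 := by
    rw [mul_sub, sub_eq_zero, he]
    funext z
    have h4 := congrFun h2 z
    have h5 := congrFun h1 z
    rw [← he] at h4
    simp only [comp_apply, Pi.mul_apply] at h4 h5 ⊢
    rw [h5] at h4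
    rw [h4]
    exact congrFun he z
  exact sub_eq_zero.mp (((UpperHalfPlane.mul_eq_zero_iff hw
    ((mdiff_comp hb γ).sub hb)).mp h3).resolve_left hw0)

/-- A holomorphic quotient of elements of level `L` has level `L`. -/
theorem mem_weak_of_mul {u w b : ℍ → ℂ} (hu : u ∈ 𝔸) (hw : w ∈ 𝔸) (hw0 : w ≠ 0) (hb : MDiff b)
    (he : w * b = u) : b ∈ 𝔸 := by
  have hinv : ∀ γ ∈ Gamma L, comp b γ = b := fun γ hγ =>
    comp_eq_of_mul hw.1 hw0 hb he γ (hw.2.1 γ hγ) (hu.2.1 γ hγ)
  refine ⟨hb, hinv, fun δ => ?_⟩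
  have hper : comp (comp b δ) (ModularGroup.T ^ (L : ℤ)) = comp b δ := by
    have hmem : δ * ModularGroup.T ^ (L : ℤ) * δ⁻¹ ∈ Gamma L :=
      (Gamma_normal L).conj_mem _ (by
        rw [Gamma_mem']
        ext i j
        rw [SL_reduction_mod_hom_val, ModularGroup.coe_T_zpow]
        fin_cases i <;> fin_cases j <;> simp) δ
    rw [comp_comp, show δ * ModularGroup.T ^ (L : ℤ) =
      δ * ModularGroup.T ^ (L : ℤ) * δ⁻¹ * δ by group, ← comp_comp, hinv _ hmem]
  have hr : expansion L (comp w δ) ≠ 0 := by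
    intro h0
    have h1 := hasExp_expansion hw δ
    rw [h0] at h1
    refine hw0 (funext fun z => ?_)
    have := congrFun (h1.fun_eq HasExp.zero) (δ⁻¹ • z)
    simpa using this
  have hs : HasExp L (comp w δ * comp b δ) (expansion L (comp u δ)) := by
    have h := hasExp_expansion hu δ
    rwa [show comp w δ * comp b δ = comp u δ by rw [← he]; rfl]
  obtain ⟨R, hR⟩ := exists_hasExp_of_mul (mdiff_comp hb δ) hper (hasExp_expansion hw δ) hr hs
  exact ⟨R, fun i => trivial, hR⟩

variable {M : ℕ}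

/-- `t - c` is weakly holomorphic of level `L`. -/
lemma t_sub_mem (B : BaseData M L) (hML : M ∣ L) (c : ℂ) : (B.t - fun _ => c) ∈ 𝔸 :=
  sub_mem (t_mem_levelL B hML) (const_mem_weak trivial)

/-- `t - t τ` has a simple zero at `τ`. -/
lemma ordAt_t_sub (B : BaseData M L) (τ : ℍ) : ordAt (B.t - fun _ => B.t τ) τ = 1 :=
  ordAt_sub_const_eq_one B.t_mem.1 (B.deriv_ne τ)

/-- A function vanishing to order `k` at `τ` is, up to a factor nonzero at `τ`, divisible by
`(t - t τ) ^ k`. -/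
theorem exists_param_pow (B : BaseData M L) (hML : M ∣ L) (τ : ℍ) :
    ∀ (k : ℕ) (a : ℍ → ℂ), a ∈ 𝔸 → (k : ℕ∞) ≤ ordAt a τ →
      ∃ s b : ℍ → ℂ, s ∈ 𝔸 ∧ b ∈ 𝔸 ∧ s τ ≠ 0 ∧ s * a = (B.t - fun _ => B.t τ) ^ k * b := by
  intro k
  induction k with
  | zero =>
    intro a ha _
    exact ⟨1, a, one_mem _, ha, one_ne_zero, by rw [pow_zero]⟩
  | succ k IH =>
    intro a ha hk
    obtain ⟨s, b, hs, hb, hs0, he⟩ := IH a ha (le_trans (by exact_mod_cast k.le_succ) hk)
    have hwd : MDiff (B.t - fun _ : ℍ => B.t τ : ℍ → ℂ) := (t_sub_mem B hML _).1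
    have hwk : MDiff ((B.t - fun _ : ℍ => B.t τ) ^ k : ℍ → ℂ) := (pow_mem (t_sub_mem B hML _) k).1
    have hbτ : b τ = 0 := by
      by_contra hb0
      have h := congrArg (fun F => ordAt F τ) he
      simp only [ordAt_mul hs.1 ha.1, ordAt_mul hwk hb.1, ordAt_pow hwd, ordAt_t_sub,
        (ordAt_eq_zero_iff hs.1 τ).mpr hs0, (ordAt_eq_zero_iff hb.1 τ).mpr hb0, zero_add,
        add_zero, nsmul_one] at h
      rw [h] at hk
      exact absurd (Nat.cast_le.mp hk) (by omega)
    obtain ⟨s', b', hs', hb', hs'0, he'⟩ := exists_param B hML hb hbτ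
    refine ⟨s' * s, b', mul_mem hs' hs, hb', mul_ne_zero hs'0 hs0, ?_⟩
    rw [mul_assoc, he, mul_left_comm, he', pow_succ]
    ring

omit [NeZero L] in
/-- Linear combinations avoid finitely many proper hyperplanes. -/
theorem exists_forall_ne_zero {ι α : Type*} [Fintype ι] (S : Submodule ℂ (α → ℂ)) (x : ι → α)
    (h : ∀ i, ∃ v ∈ S, v (x i) ≠ 0) : ∃ v ∈ S, ∀ i, v (x i) ≠ 0 := by
  classical
  suffices ∀ J : Finset ι, ∃ v ∈ S, ∀ i ∈ J, v (x i) ≠ 0 by
    obtain ⟨v, hv, hv'⟩ := this Finset.univ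
    exact ⟨v, hv, fun i => hv' i (Finset.mem_univ i)⟩
  intro J
  induction J using Finset.induction_on with
  | empty => exact ⟨0, S.zero_mem, fun i hi => absurd hi (Finset.notMem_empty i)⟩
  | @insert a J _ IH =>
    obtain ⟨v, hv, hvJ⟩ := IH
    obtain ⟨w, hw, hwa⟩ := h a
    obtain ⟨l, hl⟩ := Infinite.exists_notMem_finset
      ((insert a J).image fun i => -(v (x i)) / w (x i))
    refine ⟨v + l • w, S.add_mem hv (S.smul_mem _ hw), fun i hi h0 => ?_⟩
    by_cases hwi : w (x i) = 0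
    · rcases Finset.mem_insert.mp hi with rfl | hi'
      · exact hwa hwi
      · exact hvJ i hi' (by simpa [hwi] using h0)
    · refine hl (Finset.mem_image.mpr ⟨i, hi, ?_⟩)
      simp only [Pi.add_apply, Pi.smul_apply, smul_eq_mul] at h0
      rw [div_eq_iff hwi]
      linear_combination -h0

/-- Coset representatives: their translates are permuted. -/
theorem exists_reps (G : Subgroup SL(2, ℤ)) :
    ∃ (ι : Type) (_ : Fintype ι) (p : ι → SL(2, ℤ)),
      (∀ i, p i ∈ G) ∧ (∃ i, p i ∈ Gamma L) ∧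
      ∀ γ ∈ G, ∃ e : ι ≃ ι, ∀ f ∈ 𝔸, ∀ i, comp (comp f (p i)) γ = comp f (p (e i)) := by
  classical
  let H : Subgroup G := (Gamma L).subgroupOf G
  have : (Gamma L).Normal := Gamma_normal L
  have : H.Normal := Subgroup.normal_subgroupOf
  have : (Gamma L).FiniteIndex := by infer_instance
  have : Finite (G ⧸ H) := inferInstance
  let : Fintype (G ⧸ H) := Fintype.ofFinite _
  refine ⟨G ⧸ H, inferInstance, fun q => (q.out : G), fun q => (q.out : G).2,
    ⟨((1 : G) : G ⧸ H), ?_⟩, fun γ hγ => ⟨Equiv.mulRight ((⟨γ, hγ⟩ : G) : G ⧸ H),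
      fun f hf q => ?_⟩⟩
  · have h : (((1 : G) : G ⧸ H).out : G ⧸ H) = ((1 : G) : G ⧸ H) := Quotient.out_eq' _
    exact Subgroup.mem_subgroupOf.mp ((QuotientGroup.eq_one_iff _).mp h)
  · have hrep : ∀ g g' : G, (g : G ⧸ H) = g' → comp f (g : SL(2, ℤ)) = comp f g' := by
      intro g g' h
      have h1 : g' * g⁻¹ ∈ H := by
        rw [← QuotientGroup.eq_one_iff, QuotientGroup.mk_mul, QuotientGroup.mk_inv, h,
          mul_inv_cancel]
      rw [Subgroup.mem_subgroupOf] at h1
      calc comp f (g : SL(2, ℤ)) = comp (comp f ((g' * g⁻¹ : G) : SL(2, ℤ))) g := by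
            rw [hf.2.1 _ h1]
        _ = comp f g' := by simp [comp_comp]
    rw [comp_comp]
    set g : G := ⟨γ, hγ⟩ with hg
    have h1 := hrep (q.out * g) ((q * (g : G ⧸ H)).out)
      (by rw [QuotientGroup.out_eq', QuotientGroup.mk_mul, QuotientGroup.out_eq'])
    exact h1

omit [NeZero L] in
/-- Products of translates are invariant. -/
theorem prod_mem_weak {G : Subgroup SL(2, ℤ)} {ι : Type} [Fintype ι] {p : ι → SL(2, ℤ)}
    (hp : ∀ γ ∈ G, ∃ e : ι ≃ ι, ∀ f ∈ 𝔸, ∀ i, comp (comp f (p i)) γ = comp f (p (e i)))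
    {f : ℍ → ℂ} (hf : f ∈ 𝔸) : (∏ i, comp f (p i)) ∈ weak G L ⊤ := by
  have hP : (∏ i, comp f (p i)) ∈ 𝔸 := Subring.prod_mem _ fun i _ => comp_mem_levelL hf _
  refine ⟨hP.1, fun γ hγ => ?_, hP.2.2⟩
  obtain ⟨e, he⟩ := hp γ hγ
  funext z
  simp only [comp_apply, Finset.prod_apply]
  exact Fintype.prod_equiv e _ _ fun i => congrFun (he f hf i) z

omit [NeZero L] in
/-- Sums of translates are invariant. -/
theorem sum_mem_weak {G : Subgroup SL(2, ℤ)} {ι : Type} [Fintype ι] {p : ι → SL(2, ℤ)}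
    (hp : ∀ γ ∈ G, ∃ e : ι ≃ ι, ∀ f ∈ 𝔸, ∀ i, comp (comp f (p i)) γ = comp f (p (e i)))
    {f : ℍ → ℂ} (hf : f ∈ 𝔸) : (∑ i, comp f (p i)) ∈ weak G L ⊤ := by
  have hP : (∑ i, comp f (p i)) ∈ 𝔸 := Subring.sum_mem _ fun i _ => comp_mem_levelL hf _
  refine ⟨hP.1, fun γ hγ => ?_, hP.2.2⟩
  obtain ⟨e, he⟩ := hp γ hγ
  funext z
  simp only [comp_apply, Finset.sum_apply]
  exact Fintype.sum_equiv e _ _ fun i => congrFun (he f hf i) z

/-- Coefficients vanish below a bound. -/
def Below (N : ℤ) (s : LaurentSeries ℂ) : Prop := ∀ i < N, s.coeff i = 0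

omit [NeZero L] in
lemma below_mul {N N' : ℤ} {s t : LaurentSeries ℂ} (hs : Below N s) (ht : Below N' t) :
    Below (N + N') (s * t) := by
  intro i hi
  rw [HahnSeries.coeff_mul]
  refine Finset.sum_eq_zero fun x hx => ?_
  obtain ⟨-, -, he⟩ := Finset.mem_antidiagonal.mp hx
  by_cases h : x.1 < N
  · rw [hs _ h, zero_mul]
  · rw [ht _ (by omega), mul_zero]

omit [NeZero L] in
/-- Every Laurent series has a lower bound on its degrees. -/
lemma exists_below (s : LaurentSeries ℂ) : ∃ N : ℕ, Below (-(N : ℤ)) s :=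
  ⟨(-s.order).toNat, fun i hi => HahnSeries.coeff_eq_zero_of_lt_order (by omega)⟩

/-- The functions of level `L` with poles of order at most `N` at every cusp. -/
def bounded (L : ℕ) [NeZero L] (N : ℕ) : Submodule ℂ (ℍ → ℂ) where
  carrier := {F | F ∈ weak (Gamma L) L ⊤ ∧ ∀ δ : SL(2, ℤ), Below (-(N : ℤ)) (expansion L (comp F δ))}
  zero_mem' := ⟨zero_mem _, fun δ i _ => by
    rw [show comp (0 : ℍ → ℂ) δ = 0 from rfl, HasExp.expansion_eq HasExp.zero, HahnSeries.coeff_zero]⟩
  add_mem' := by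
    rintro F F' ⟨hF, hF'⟩ ⟨hG, hG'⟩
    refine ⟨add_mem hF hG, fun δ i hi => ?_⟩
    rw [show comp (F + F') δ = comp F δ + comp F' δ from rfl,
      HasExp.expansion_eq ((hasExp_expansion hF δ).add (hasExp_expansion hG δ)),
      HahnSeries.coeff_add, hF' δ i hi, hG' δ i hi, add_zero]
  smul_mem' := by
    rintro a F ⟨hF, hF'⟩
    have e : ∀ δ, comp (a • F) δ = (fun _ => a) * comp F δ := fun δ => rfl
    refine ⟨mul_mem (const_mem_weak trivial) hF, fun δ i hi => ?_⟩
    rw [e, HasExp.expansion_eq ((HasExp.const a).mul (hasExp_expansion hF δ)),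
      HahnSeries.coeff_single_mul, sub_zero, hF' δ i hi, mul_zero]

/-- A function with bounded poles is determined by finitely many coefficients. -/
theorem exists_window (N : ℕ) : ∃ K : ℕ, ∀ F ∈ bounded L N,
    (∀ i : Fin K, (expansion L F).coeff (-(N : ℤ) + i.1) = 0) → F = 0 := by
  classical
  obtain ⟨ι, _, p, -, ⟨i₀, hi₀⟩, hperm⟩ := exists_reps (L := L) (⊤ : Subgroup SL(2, ℤ))
  refine ⟨N + Fintype.card ι * N + 1, fun F ⟨hF, hbd⟩ h => ?_⟩
  set n := Fintype.card ι
  have h₀ : Below (n * N + 1 : ℤ) (expansion L (comp F (p i₀))) := by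
    intro j hj
    rw [hF.2.1 _ hi₀]
    by_cases hjN : j < -(N : ℤ)
    · have := hbd 1 j hjN
      rwa [comp_one] at this
    · have := h ⟨(j + N).toNat, by
        have h1 : (((j + N).toNat : ℕ) : ℤ) = j + N := Int.toNat_of_nonneg (by omega)
        have h2 : ((N + n * N + 1 : ℕ) : ℤ) = (N : ℤ) + n * N + 1 := by push_cast; ring
        omega⟩
      rwa [show -(N : ℤ) + ((j + N).toNat : ℕ) = j by
        rw [Int.toNat_of_nonneg (by omega)]; ring] at this
  set P := ∏ i, comp F (p i) with hP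
  obtain ⟨hPd, hPinv, -⟩ := prod_mem_weak hperm hF
  have hexp : ∀ J : Finset ι, HasExp L (∏ i ∈ J, comp F (p i))
      (∏ i ∈ J, expansion L (comp F (p i))) := by
    intro J
    induction J using Finset.induction_on with
    | empty => simpa using HasExp.one
    | @insert a J ha IH =>
      rw [Finset.prod_insert ha, Finset.prod_insert ha]
      exact (hasExp_expansion hF _).mul IH
  have hlow : ∀ J : Finset ι, i₀ ∉ J →
      Below (-((J.card * N : ℕ) : ℤ)) (∏ i ∈ J, expansion L (comp F (p i))) := by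
    intro J
    induction J using Finset.induction_on with
    | empty =>
      intro _ i hi
      simp only [Finset.card_empty, zero_mul, Nat.cast_zero, neg_zero] at hi
      rw [Finset.prod_empty, HahnSeries.coeff_one, if_neg hi.ne]
    | @insert a J ha IH =>
      intro hJ i hi
      rw [Finset.prod_insert ha]
      refine below_mul (hbd _) (IH fun hm => hJ (Finset.mem_insert_of_mem hm)) i ?_
      rw [Finset.card_insert_of_notMem ha] at hi
      push_cast at hi ⊢
      linarith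
  have hall : ∀ i < 1, (∏ i, expansion L (comp F (p i))).coeff i = 0 := by
    intro i hi
    rw [← Finset.mul_prod_erase _ _ (Finset.mem_univ i₀)]
    refine below_mul h₀ (hlow _ (Finset.notMem_erase _ _)) i ?_
    rw [Finset.card_erase_of_mem (Finset.mem_univ i₀), Finset.card_univ]
    have h3 : (((n - 1) * N : ℕ) : ℤ) ≤ ((n * N : ℕ) : ℤ) :=
      Int.ofNat_le.mpr (Nat.mul_le_mul_right N (Nat.sub_le n 1))
    rw [Nat.cast_mul, Nat.cast_mul] at h3
    rw [Nat.cast_mul]
    simp only [n] at h3 ⊢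
    linarith
  have hconst := eq_const_of_invariant hPd (fun γ => hPinv γ (Subgroup.mem_top γ))
    (hexp Finset.univ) fun i hi => hall i (by omega)
  rw [hall 0 (by omega)] at hconst
  by_contra hne
  have hnz : ∀ J : Finset ι, (∏ i ∈ J, comp F (p i)) ≠ 0 := by
    intro J
    induction J using Finset.induction_on with
    | empty => exact one_ne_zero
    | @insert a J ha IH =>
      rw [Finset.prod_insert ha]
      intro h0
      rcases (UpperHalfPlane.mul_eq_zero_iff (mdiff_comp hF.1 _)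
        (Subring.prod_mem _ fun i _ => comp_mem_levelL hF (p i) : _ ∈ 𝔸).1).mp h0 with h1 | h1
      · refine hne (funext fun z => ?_)
        have := congrFun h1 ((p a)⁻¹ • z)
        simpa using this
      · exact IH h1
  exact hnz Finset.univ hconst

end Level

end Fermat.Agent.AtP
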