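import Fermat.Agent.AtP.CertificateAlgebra
import Fermat.Agent.AtP.CertificateOrder

/-!
# The horizontal certificate

If `f = g ^ n` is weakly holomorphic for a group `G` between `Γ(L)` and `Γ(2)` and has expansion
coefficients in a subfield `K₀`, then there are such functions `a i`, `d i`, `c i` with
`a i ^ n = d i * f` and `∑ c i * d i = 1`, all with coefficients in `K₀`.
-/

set_option autoImplicit false

noncomputable section

open UpperHalfPlane CongruenceSubgroup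
open scoped MatrixGroups Manifold

namespace Fermat.Agent.AtP

open Fermat.Agent.KummerES
open ModularCurve (coeffMap)

variable {L : ℕ} [NeZero L]

local notation "𝔸" => weak (Gamma L) L ⊤

/-- The coefficients of the expansion at infinity lie in `K₀`. -/
def IsRat (L : ℕ) (K₀ : Subfield ℂ) (f : ℍ → ℂ) : Prop := ∀ i, (expansion L f).coeff i ∈ K₀

/-- The rational functions `F` for `G` with `ord h ≤ n • ord F`. -/
def ratSet (G : Subgroup SL(2, ℤ)) (L : ℕ) (K₀ : Subfield ℂ) (h : ℍ → ℂ) (n : ℕ) : Set (ℍ → ℂ) :=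
  {F | F ∈ weak G L ⊤ ∧ IsRat L K₀ F ∧ ∀ τ, ordAt h τ ≤ n • ordAt F τ}

lemma exists_uniform_below {F : ℍ → ℂ} (hF : F ∈ 𝔸) :
    ∃ N : ℕ, ∀ δ : SL(2, ℤ), Below (-(N : ℤ)) (expansion L (comp F δ)) := by
  obtain ⟨ι, _, p, -, ⟨i₀, hi₀⟩, hperm⟩ := exists_reps (L := L) (⊤ : Subgroup SL(2, ℤ))
  choose N hN using fun i => exists_below (expansion L (comp F (p i)))
  refine ⟨Finset.univ.sup N, fun δ j hj => ?_⟩
  obtain ⟨e, he⟩ := hperm δ (Subgroup.mem_top δ)
  have h1 := he F hF i₀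
  rw [hF.2.1 _ hi₀] at h1
  rw [h1]
  refine hN _ j (lt_of_lt_of_le hj ?_)
  have : N (e i₀) ≤ Finset.univ.sup N := Finset.le_sup (Finset.mem_univ _)
  omega

section Rational

variable (h2 : 2 ∣ L) {G : Subgroup SL(2, ℤ)} (hG : IsDiagStable G L) (K₀ : Subfield ℂ)

include h2

/-- Automorphisms fixing `K₀` fix the conjugates of rational functions. -/
lemma isConj_of_isRat {σ : ℂ ≃+* ℂ} (hσ : ∀ x ∈ K₀, σ x = x) {c : ℕ}
    (hc : (σ : ℂ →+* ℂ) (zetaC L) = zetaC L ^ c) {f : ℍ → ℂ} (hf : f ∈ 𝔸)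
    (hfr : IsRat L K₀ f) : IsConj L c (σ : ℂ →+* ℂ) f f := by
  obtain ⟨f', hf'⟩ := hasConj_of_two_dvd h2 _ c hc f hf
  refine hf'.of_fixed (HahnSeries.ext (funext fun i => ?_))
  rw [ModularCurve.coeffMap_coeff]
  exact hσ _ (hfr i)

omit h2 in
/-- A function equal to all its conjugates over `K₀` is rational. -/
lemma isRat_of_forall {f : ℍ → ℂ}
    (hf : ∀ σ : ℂ ≃+* ℂ, (∀ x ∈ K₀, σ x = x) → ∀ c : ℕ, (σ : ℂ →+* ℂ) (zetaC L) = zetaC L ^ c →
      IsConj L c (σ : ℂ →+* ℂ) f f) : IsRat L K₀ f := by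
  intro i
  refine mem_of_forall_aut_fix K₀ fun σ hσ => ?_
  obtain ⟨c, -, hc⟩ := exists_pow_zetaC L (σ : ℂ →+* ℂ)
  have h := congrArg (fun s => HahnSeries.coeff s i) (hf σ hσ c hc).expansion_eq
  simp only [ModularCurve.coeffMap_coeff] at h
  exact h.symm

include hG

/-- **Descent**: the rational functions span. -/
theorem mem_span_ratSet {h : ℍ → ℂ} (hh : h ∈ weak G L ⊤) (hhr : IsRat L K₀ h) {n : ℕ}
    {F : ℍ → ℂ} (hF : F ∈ weak G L ⊤) (hord : ∀ τ, ordAt h τ ≤ n • ordAt F τ) :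
    F ∈ Submodule.span ℂ (ratSet G L K₀ h n) := by
  classical
  have hle : weak G L ⊤ ≤ 𝔸 := weak_mono hG.1 le_rfl
  obtain ⟨N, hN⟩ := exists_uniform_below (hle hF)
  obtain ⟨K, hK⟩ := exists_window (L := L) N
  let S : Submodule ℂ (ℍ → ℂ) :=
    { carrier := {u | u ∈ bounded L N ∧ u ∈ weak G L ⊤ ∧ ∀ τ, ordAt h τ ≤ n • ordAt u τ}
      zero_mem' := ⟨zero_mem _, zero_mem _, fun τ => by
        rcases Nat.eq_zero_or_pos n with rfl | hn
        · have := hord τ; rwa [zero_smul] at this ⊢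
        · rw [ordAt_zero, nsmul_eq_mul, ENat.mul_top (by exact_mod_cast hn.ne')]
          exact le_top⟩
      add_mem' := fun {u v} hu hv => ⟨add_mem hu.1 hv.1, add_mem hu.2.1 hv.2.1, fun τ => by
        refine le_trans ?_ (nsmul_le_nsmul_right (le_ordAt_add τ) n)
        rcases le_total (ordAt u τ) (ordAt v τ) with hle | hle
        · rw [min_eq_left hle]; exact hu.2.2 τ
        · rw [min_eq_right hle]; exact hv.2.2 τ⟩
      smul_mem' := fun a u hu => ⟨Submodule.smul_mem _ a hu.1,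
        mul_mem (const_mem_weak trivial) hu.2.1, fun τ =>
          (hu.2.2 τ).trans (nsmul_le_nsmul_right (le_ordAt_smul hu.2.1.1 a τ) n)⟩ }
  have hexp : ∀ {u v : ℍ → ℂ}, u ∈ 𝔸 → v ∈ 𝔸 →
      expansion L (u + v) = expansion L u + expansion L v := fun {u v} hu hv => by
    have h1 := (hasExp_expansion hu 1).add (hasExp_expansion hv 1)
    simp only [comp_one] at h1
    exact h1.expansion_eq
  let ev : S →ₗ[ℂ] Fin K → ℂ :=
    { toFun := fun u i => (expansion L (u : ℍ → ℂ)).coeff (-(N : ℤ) + i.1)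
      map_add' := fun u v => funext fun i => by
        simp only [Submodule.coe_add, hexp (hle u.2.2.1) (hle v.2.2.1), HahnSeries.coeff_add,
          Pi.add_apply]
      map_smul' := fun a u => funext fun i => by
        have h1 := (HasExp.const (L := L) a).mul (hasExp_expansion (hle u.2.2.1) 1)
        simp only [comp_one] at h1
        have h2 : expansion L ((a • u : S) : ℍ → ℂ) = _ := h1.expansion_eq
        simp only [h2, HahnSeries.coeff_single_mul, sub_zero, RingHom.id_apply, Pi.smul_apply,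
          smul_eq_mul] }
  have hinj : Function.Injective ev := by
    rw [injective_iff_map_eq_zero]
    intro u hu
    exact Subtype.ext (hK _ u.2.1 fun i => congrFun hu i)
  have hconj : ∀ σ : ℂ ≃+* ℂ, (∀ x ∈ K₀, σ x = x) → ∀ c : ℕ,
      (σ : ℂ →+* ℂ) (zetaC L) = zetaC L ^ c → ∀ u : S,
      ∃ u' : S, IsConj L c (σ : ℂ →+* ℂ) u u' := by
    intro σ hσ c hc u
    obtain ⟨u', hu'⟩ := hasConj_of_two_dvd h2 _ c hc _ (hle u.2.2.1)
    have hcc : c.Coprime L := coprime_of_conj hc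
    refine ⟨⟨u', ⟨hu'.2.1, fun δ i hi => ?_⟩, ⟨hu'.2.1.1, fun γ hγ =>
      hG.comp_eq dvd_rfl hcc hu' u.2.2.1.2.1 hγ, hu'.2.1.2.2⟩, fun τ' => ?_⟩, hu'⟩
    · obtain ⟨δ', hδ'⟩ := exists_twistRel_of_coprime hcc δ
      rw [hu'.2.2 δ δ' hδ', ModularCurve.coeffMap_coeff, u.2.1.2 δ' i hi, map_zero]
    · obtain ⟨τ, hτ⟩ := exists_ordAt_conj (baseData 2 L (.inl rfl) h2) h2
        (hasConj_of_two_dvd h2) σ hc (isConj_baseTwo_t h2 hc).expansion_eq.symm τ'
      rw [hτ _ _ hu', hτ _ _ (isConj_of_isRat h2 K₀ hσ hc (hle hh) hhr)]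
      exact u.2.2.2 τ
  have hW : ∀ σ : ℂ ≃+* ℂ, (∀ x ∈ K₀, σ x = x) → ∀ w ∈ LinearMap.range ev,
      (fun i => σ (w i)) ∈ LinearMap.range ev := by
    rintro σ hσ _ ⟨u, rfl⟩
    obtain ⟨c, -, hc⟩ := exists_pow_zetaC L (σ : ℂ →+* ℂ)
    obtain ⟨u', hu'⟩ := hconj σ hσ c hc u
    refine ⟨u', funext fun i => ?_⟩
    show (expansion L (u' : ℍ → ℂ)).coeff _ = σ _
    rw [hu'.expansion_eq, ModularCurve.coeffMap_coeff]
    rfl
  set u₀ : S := ⟨F, ⟨hle hF, hN⟩, hF, hord⟩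
  have hmem := mem_span_rational_coords K₀ (LinearMap.range ev) hW ⟨u₀, rfl⟩
  have hsub : {w : Fin K → ℂ | w ∈ LinearMap.range ev ∧ ∀ i, w i ∈ K₀} ⊆
      ev '' {u : S | (u : ℍ → ℂ) ∈ ratSet G L K₀ h n} := by
    rintro _ ⟨⟨u, rfl⟩, hu⟩
    refine ⟨u, ⟨u.2.2.1, isRat_of_forall K₀ fun σ hσ c hc => ?_, u.2.2.2⟩, rfl⟩
    obtain ⟨u', hu'⟩ := hconj σ hσ c hc u
    have he : u' = u := hinj (funext fun i => by
      show (expansion L (u' : ℍ → ℂ)).coeff _ = _
      rw [hu'.expansion_eq, ModularCurve.coeffMap_coeff]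
      exact hσ _ (hu i))
    rwa [he] at hu'
  obtain ⟨u, hu, hue⟩ : ev u₀ ∈
      (Submodule.span ℂ {u : S | (u : ℍ → ℂ) ∈ ratSet G L K₀ h n}).map ev := by
    rw [Submodule.map_span]
    exact Submodule.span_mono hsub hmem
  have hres : (u₀ : ℍ → ℂ) ∈
      (Submodule.span ℂ {u : S | (u : ℍ → ℂ) ∈ ratSet G L K₀ h n}).map S.subtype :=
    ⟨u, hu, congrArg Subtype.val (hinj hue)⟩
  rw [Submodule.map_span] at hres
  refine Submodule.span_mono ?_ hres
  rintro _ ⟨v, hv, rfl⟩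
  exact hv

end Rational

section Complex

variable {G : Subgroup SL(2, ℤ)} (hG2 : G ≤ Gamma 2) (hGL : Gamma L ≤ G)

include hG2 hGL

/-- At every point some function with orders at least those of `f ^ (1/n)` has exactly that
order. -/
theorem exists_ord_eq (B : BaseData 2 L) (h2 : 2 ∣ L) {n : ℕ} (hn : n ≠ 0) {f : ℍ → ℂ}
    (hf : f ∈ weak G L ⊤) (τ : ℍ) {e : ℕ} (he : ordAt f τ = ((n * e : ℕ) : ℕ∞)) :
    ∃ a ∈ weak G L ⊤, (∀ z, ordAt f z ≤ n • ordAt a z) ∧ ordAt a τ = (e : ℕ∞) := by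
  classical
  have hle : weak G L ⊤ ≤ 𝔸 := weak_mono hGL le_rfl
  obtain ⟨ι, _, p, hpG, ⟨i₀, hi₀⟩, hperm⟩ := exists_reps (L := L) G
  set w : ℍ → ℂ := B.t - fun _ => B.t τ with hw
  have hwA : w ∈ 𝔸 := t_sub_mem B h2 _
  have hwG : ∀ γ ∈ G, comp w γ = w := fun γ hγ =>
    funext fun z => congrArg (· - B.t τ) (congrFun (B.t_mem.2.1 γ (hG2 hγ)) z)
  let S : Submodule ℂ (ℍ → ℂ) :=
    { carrier := {b | b ∈ 𝔸 ∧ ∃ s ∈ 𝔸, s * f = w ^ (n * e) * b}
      zero_mem' := ⟨zero_mem _, 0, zero_mem _, by rw [zero_mul, mul_zero]⟩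
      add_mem' := by
        rintro b b' ⟨hb, s, hs, hsb⟩ ⟨hb', s', hs', hsb'⟩
        exact ⟨add_mem hb hb', s + s', add_mem hs hs', by rw [add_mul, mul_add, hsb, hsb']⟩
      smul_mem' := by
        rintro a b ⟨hb, s, hs, hsb⟩
        exact ⟨mul_mem (const_mem_weak trivial) hb, a • s, mul_mem (const_mem_weak trivial) hs,
          by rw [smul_mul_assoc, hsb, mul_smul_comm]⟩ }
  obtain ⟨s, b, hs, hb, hs0, hsb⟩ := exists_param_pow B h2 τ (n * e) f (hle hf) he.ge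
  rw [← hw] at hsb
  have hw1 : ordAt w τ = 1 := ordAt_t_sub B τ
  have hbτ : b τ ≠ 0 := by
    intro hb0
    have h := congrArg (fun F => ordAt F τ) hsb
    simp only [ordAt_mul hs.1 (hle hf).1, ordAt_mul (pow_mem hwA (n * e)).1 hb.1,
      ordAt_pow hwA.1, (ordAt_eq_zero_iff hs.1 τ).mpr hs0, zero_add, hw1, nsmul_one,
      he] at h
    have hb1 : ordAt b τ ≠ 0 := fun h0 => (ordAt_eq_zero_iff hb.1 τ).mp h0 hb0
    cases hbv : ordAt b τ with
    | top =>
      rw [hbv, add_top] at h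
      exact ENat.natCast_ne_top _ h
    | coe m =>
      rw [hbv] at h hb1
      have h' : n * e = n * e + m := by exact_mod_cast h
      exact hb1 (by exact_mod_cast (show m = 0 by omega))
  obtain ⟨v, hvS, hv⟩ := exists_forall_ne_zero S (fun i => p i • τ) fun i => by
    refine ⟨comp b (p i)⁻¹, ⟨comp_mem_levelL hb _, comp s (p i)⁻¹, comp_mem_levelL hs _, ?_⟩,
      by simpa using hbτ⟩
    funext z
    have h1 := congrFun hsb ((p i)⁻¹ • z)
    simp only [Pi.mul_apply, Pi.pow_apply] at h1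
    have h3 := congrFun (hwG _ (inv_mem (hpG i))) z
    simp only [comp_apply] at h3
    simp only [h3, show f ((p i)⁻¹ • z) = f z from congrFun (hf.2.1 _ (inv_mem (hpG i))) z] at h1
    simpa [comp_apply] using h1
  obtain ⟨hvA, s', hs', hsv⟩ := hvS
  set P := ∏ i, comp v (p i) with hP
  have hPG : P ∈ weak G L ⊤ := prod_mem_weak hperm hvA
  have hweG : w ^ e ∈ weak G L ⊤ := ⟨(pow_mem hwA e).1, fun γ hγ => funext fun z => by
    show w (γ • z) ^ e = w z ^ e
    rw [show w (γ • z) = w z from congrFun (hwG γ hγ) z], (pow_mem hwA e).2.2⟩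
  refine ⟨w ^ e * P, mul_mem hweG hPG, fun z => ?_, ?_⟩
  · have h := congrArg (fun F => ordAt F z) hsv
    simp only [ordAt_mul hs'.1 (hle hf).1, ordAt_mul (pow_mem hwA (n * e)).1 hvA.1,
      ordAt_pow hwA.1] at h
    have hPle : ordAt v z ≤ ordAt P z := by
      have hP' : P = v * ∏ i ∈ Finset.univ.erase i₀, comp v (p i) := by
        rw [hP, ← Finset.mul_prod_erase _ _ (Finset.mem_univ i₀), hvA.2.1 _ hi₀]
      rw [hP', ordAt_mul hvA.1
        (Subring.prod_mem _ fun i _ => comp_mem_levelL hvA (p i) : _ ∈ 𝔸).1]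
      exact le_self_add
    calc ordAt f z ≤ ordAt s' z + ordAt f z := le_add_self
      _ = (n * e) • ordAt w z + ordAt v z := h
      _ ≤ n • (e • ordAt w z) + n • ordAt P z := by
          rw [mul_nsmul']
          refine add_le_add le_rfl (hPle.trans ?_)
          conv_lhs => rw [← one_nsmul (ordAt P z)]
          exact nsmul_le_nsmul_left zero_le (Nat.one_le_iff_ne_zero.mpr hn)
      _ = n • ordAt (w ^ e * P) z := by
          rw [ordAt_mul (pow_mem hwA e).1 hPG.1, ordAt_pow hwA.1, nsmul_add]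
  · have hPτ : P τ ≠ 0 := by
      rw [hP, Finset.prod_apply]
      exact Finset.prod_ne_zero_iff.mpr fun i _ => hv i
    rw [ordAt_mul (pow_mem hwA e).1 hPG.1, ordAt_pow hwA.1, hw1,
      (ordAt_eq_zero_iff hPG.1 τ).mpr hPτ, add_zero, nsmul_one]

omit hG2 hGL in
/-- An ideal of level `L` functions without common zero, containing a nonzero function, is
everything. -/
theorem ideal_eq_top (B : BaseData 2 L) (h2 : 2 ∣ L) (I : Ideal 𝔸) {d₀ : 𝔸} (hd₀ : d₀ ∈ I)
    (hd₀0 : d₀ ≠ 0) (hI : ∀ z : ℍ, ∃ d ∈ I, (d : ℍ → ℂ) z ≠ 0) : I = ⊤ := by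
  classical
  by_contra htop
  have : Nontrivial (𝔸 ⧸ I) := Ideal.Quotient.nontrivial_iff.mpr htop
  obtain ⟨ι, _, p, hp2, ⟨i₀, hi₀⟩, hp⟩ := exists_norm (M := 2) (L := L)
  set T : 𝔸 := ⟨B.t, t_mem_levelL B h2⟩ with hT
  let C : ℂ →+* 𝔸 ⧸ I := (Ideal.Quotient.mk I).comp constHom
  set τbar := Ideal.Quotient.mk I T
  -- the norm of an element of the ideal gives a polynomial killing `t` modulo the ideal
  have hnorm : ∀ d : 𝔸, d ∈ I → ∃ (k : ℕ) (Q : Polynomial ℂ), Q.eval₂ C τbar = 0 ∧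
      ∀ z, (∏ i, (d : ℍ → ℂ) (p i • z)) * (∏ b ∈ B.bad, (B.t z - b)) ^ k = Q.eval (B.t z) := by
    intro d hd
    obtain ⟨k, Q, hQ⟩ := B.generated ⊤ le_top _ (hp d.1 d.2)
    refine ⟨k, Q.map (Subring.subtype ⊤), ?_, fun z => ?_⟩
    · have hN : (∏ i, (⟨comp d.1 (p i), comp_mem_levelL d.2 _⟩ : 𝔸)) ∈ I := by
        rw [← Finset.mul_prod_erase _ _ (Finset.mem_univ i₀)]
        refine I.mul_mem_right _ ?_
        rwa [show (⟨comp d.1 (p i₀), comp_mem_levelL d.2 _⟩ : 𝔸) = d from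
          Subtype.ext (d.2.2.1 _ hi₀)]
      have he : (∏ i, (⟨comp d.1 (p i), comp_mem_levelL d.2 _⟩ : 𝔸)) *
          (∏ b ∈ B.bad, (T - constHom b)) ^ k =
          Q.eval₂ (constHom.comp (Subring.subtype ⊤)) T := by
        refine Subtype.ext (funext fun z => ?_)
        have h1 := hQ z
        rw [← evalHom_apply (L := L) z, map_mul, map_pow, map_prod, map_prod]
        rw [← evalHom_apply (L := L) z, Polynomial.hom_eval₂]
        simpa [T, Finset.prod_apply, evalHom_apply, RingHom.comp_assoc] using! h1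
      have h3 := congrArg (Ideal.Quotient.mk I) he
      rw [map_mul, Ideal.Quotient.eq_zero_iff_mem.mpr hN, zero_mul, Polynomial.hom_eval₂] at h3
      rw [Polynomial.eval₂_map]
      exact h3.symm
    · rw [Polynomial.eval_map]
      have := hQ z
      rwa [Finset.prod_apply] at this
  have hbadne : ∀ z, ∀ b ∈ B.bad, B.t z - b ≠ 0 := by
    intro z b hb h0
    obtain ⟨u, -, hu⟩ := B.inv_mem b hb
    have := congrFun hu z
    simp [h0] at this
  -- `t - c` is a unit modulo the ideal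
  have hunit : ∀ c : ℂ, IsUnit (τbar - C c) := by
    intro c
    by_cases hc : c ∈ B.bad
    · obtain ⟨u, hu, hu1⟩ := B.inv_mem c hc
      exact IsUnit.of_mul_eq_one (Ideal.Quotient.mk I ⟨u, weak_mono (gamma_le_of_dvd h2) le_top hu⟩)
        (by rw [RingHom.comp_apply, ← map_sub, ← map_mul,
          show (T - constHom c) * ⟨u, weak_mono (gamma_le_of_dvd h2) le_top hu⟩ = 1 from
            Subtype.ext hu1, map_one])
    obtain ⟨z, hz⟩ := B.surj c hc
    let S : Submodule ℂ (ℍ → ℂ) :=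
      { carrier := {u | ∃ hu : u ∈ 𝔸, (⟨u, hu⟩ : 𝔸) ∈ I}
        zero_mem' := ⟨zero_mem _, I.zero_mem⟩
        add_mem' := fun ⟨hu, hu'⟩ ⟨hv, hv'⟩ => ⟨add_mem hu hv, I.add_mem hu' hv'⟩
        smul_mem' := fun a u ⟨hu, hu'⟩ => ⟨mul_mem (const_mem_weak trivial) hu,
          I.mul_mem_left (constHom a) hu'⟩ }
    obtain ⟨v, ⟨hvA, hvI⟩, hv⟩ := exists_forall_ne_zero S (fun i => p i • z) fun i => by
      obtain ⟨d, hd, hd0⟩ := hI (p i • z)
      exact ⟨d.1, ⟨d.2, hd⟩, hd0⟩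
    obtain ⟨k, Q, hQ0, hQ⟩ := hnorm ⟨v, hvA⟩ hvI
    have hQc : Q.eval c ≠ 0 := by
      rw [← hz, ← hQ z]
      exact mul_ne_zero (Finset.prod_ne_zero_iff.mpr fun i _ => hv i)
        (pow_ne_zero k (Finset.prod_ne_zero_iff.mpr fun b hb => hbadne z b hb))
    obtain ⟨R, hR⟩ := Polynomial.X_sub_C_dvd_sub_C_eval (a := c) (p := Q)
    have h1 := congrArg (fun r => Polynomial.eval₂ C τbar r) hR
    simp only [Polynomial.eval₂_sub, Polynomial.eval₂_mul, Polynomial.eval₂_X,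
      Polynomial.eval₂_C, hQ0, zero_sub] at h1
    have h2' : IsUnit ((τbar - C c) * R.eval₂ C τbar) := by
      rw [← h1]
      exact ((isUnit_iff_ne_zero.mpr hQc).map C).neg
    exact isUnit_of_mul_isUnit_left h2'
  obtain ⟨k, P, hP0, hP⟩ := hnorm d₀ hd₀
  have hPne : P ≠ 0 := by
    intro h0
    have hNz : (∏ i, comp d₀.1 (p i)) = 0 := funext fun z => by
      have h1 := hP z
      rw [h0, Polynomial.eval_zero, mul_eq_zero] at h1
      rw [Finset.prod_apply]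
      exact h1.resolve_right (pow_ne_zero k (Finset.prod_ne_zero_iff.mpr fun b hb => hbadne z b hb))
    have hnz : ∀ J : Finset ι, (∏ i ∈ J, comp d₀.1 (p i)) ≠ 0 := by
      intro J
      induction J using Finset.induction_on with
      | empty => exact one_ne_zero
      | @insert a J ha IH =>
        rw [Finset.prod_insert ha]
        intro h1
        rcases (UpperHalfPlane.mul_eq_zero_iff (mdiff_comp d₀.2.1 _)
          (Subring.prod_mem _ fun i _ => comp_mem_levelL d₀.2 (p i) : _ ∈ 𝔸).1).mp h1 with h | h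
        · refine hd₀0 (Subtype.ext (funext fun z => ?_))
          have := congrFun h ((p a)⁻¹ • z)
          simpa using this
        · exact IH h
    exact hnz Finset.univ hNz
  rw [(IsAlgClosed.splits P).eq_prod_roots, Polynomial.eval₂_mul, Polynomial.eval₂_C,
    Polynomial.eval₂_multiset_prod, Multiset.map_map] at hP0
  have hu : IsUnit (C P.leadingCoeff *
      (Multiset.map ((fun q => Polynomial.eval₂ C τbar q) ∘ fun a => Polynomial.X - Polynomial.C a)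
        P.roots).prod) := by
    refine IsUnit.mul ((isUnit_iff_ne_zero.mpr (Polynomial.leadingCoeff_ne_zero.mpr hPne)).map C) ?_
    refine Multiset.prod_induction IsUnit _ (fun a b => IsUnit.mul) isUnit_one fun r hr => ?_
    obtain ⟨a, -, rfl⟩ := Multiset.mem_map.mp hr
    simp only [Function.comp_apply, Polynomial.eval₂_sub, Polynomial.eval₂_X, Polynomial.eval₂_C]
    exact hunit a
  rw [hP0] at hu
  exact not_isUnit_zero hu

end Complex

/-! ## The certificate -/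

section Certificate

variable {G : Subgroup SL(2, ℤ)} (K₀ : Subfield ℂ)

/-- For `a` in `ratSet G L K₀ f n` the quotient `a ^ n / f` is a rational function of level `G`. -/
lemma exists_rat_quotient (h2 : 2 ∣ L) (hG : IsDiagStable G L) {f : ℍ → ℂ} (hf : f ∈ weak G L ⊤)
    (hf0 : f ≠ 0) (hfr : IsRat L K₀ f) {n : ℕ} {a : ℍ → ℂ} (ha : a ∈ ratSet G L K₀ f n) :
    ∃ d ∈ weak G L ⊤, IsRat L K₀ d ∧ a ^ n = d * f := by
  obtain ⟨ha, har, hao⟩ := ha
  have hle : weak G L ⊤ ≤ 𝔸 := weak_mono hG.1 le_rfl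
  obtain ⟨d, hd, hde⟩ := exists_mdiff_mul_of_ord_le (pow_mem ha n).1 hf.1 hf0
    fun z => by rw [ordAt_pow ha.1]; exact hao z
  have hdA := mem_weak_of_mul (pow_mem (hle ha) n) (hle hf) hf0 hd hde
  have hdG : d ∈ weak G L ⊤ := ⟨hd, fun γ hγ =>
    comp_eq_of_mul hf.1 hf0 hd hde γ (hf.2.1 γ hγ) ((pow_mem ha n).2.1 γ hγ), hdA.2.2⟩
  refine ⟨d, hdG, isRat_of_forall K₀ fun σ hσ c hc => ?_, by rw [mul_comm, hde]⟩
  obtain ⟨d', hd'⟩ := hasConj_of_two_dvd h2 _ c hc d hdA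
  have h1 := (isConj_of_isRat h2 K₀ hσ hc (hle hf) hfr).mul hd'
  rw [hde] at h1
  have h3 : f * d' = f * d :=
    (h1.unique ((isConj_of_isRat h2 K₀ hσ hc (hle ha) har).pow n)).trans hde.symm
  have h4 : d' = d := by
    have h5 : f * (d' - d) = 0 := by rw [mul_sub, h3, sub_self]
    exact sub_eq_zero.mp (((UpperHalfPlane.mul_eq_zero_iff hf.1
      (hd'.2.1.1.sub hd)).mp h5).resolve_left hf0)
  rwa [h4] at hd'

/-- At every point some rational `a` has the order `e` of `f ^ (1/n)` at most. -/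
lemma exists_ratSet_ordAt_le (h2 : 2 ∣ L) (hG : IsDiagStable G L) (hG2 : G ≤ Gamma 2) {n : ℕ}
    (hn : n ≠ 0) {f : ℍ → ℂ} (hf : f ∈ weak G L ⊤) (hfr : IsRat L K₀ f) (z : ℍ) {e : ℕ}
    (hfz : ordAt f z = ((n * e : ℕ) : ℕ∞)) :
    ∃ r ∈ ratSet G L K₀ f n, ordAt r z ≤ (e : ℕ∞) := by
  obtain ⟨a, ha, hao, haz⟩ := exists_ord_eq hG2 hG.1 (baseData 2 L (.inl rfl) h2) h2 hn hf z hfz
  have hspan := mem_span_ratSet h2 hG K₀ hf hfr ha hao
  by_contra hcon
  push Not at hcon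
  have key : ∀ u ∈ Submodule.span ℂ (ratSet G L K₀ f n),
      MDiff u ∧ ((e + 1 : ℕ) : ℕ∞) ≤ ordAt u z := by
    intro u hu
    induction hu using Submodule.span_induction with
    | mem u hu => exact ⟨hu.1.1, by exact_mod_cast Order.add_one_le_of_lt (hcon u hu)⟩
    | zero => exact ⟨mdifferentiable_const, by rw [ordAt_zero]; exact le_top⟩
    | add u v _ _ hu hv => exact ⟨hu.1.add hv.1, (le_min hu.2 hv.2).trans (le_ordAt_add z)⟩
    | smul c u _ hu =>
      exact ⟨mdifferentiable_const.mul hu.1, hu.2.trans (le_ordAt_smul hu.1 c z)⟩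
  have := (key a hspan).2
  rw [haz] at this
  exact absurd (Nat.cast_le.mp this) (by omega)

/-- At every point some rational `d` with `d g ^ n` the `n`-th power of a rational function does
not vanish. -/
lemma exists_quotient_apply_ne_zero (h2 : 2 ∣ L) (hG : IsDiagStable G L) (hG2 : G ≤ Gamma 2)
    {n : ℕ} (hn : n ≠ 0) {g : ℍ → ℂ} (hg : MDiff g) (hg0 : g ≠ 0) (hf : g ^ n ∈ weak G L ⊤)
    (hfr : IsRat L K₀ (g ^ n)) (z : ℍ) :
    ∃ a d : ℍ → ℂ, (a ∈ weak G L ⊤ ∧ IsRat L K₀ a) ∧ (d ∈ weak G L ⊤ ∧ IsRat L K₀ d) ∧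
      a ^ n = d * g ^ n ∧ d z ≠ 0 := by
  have hf0 : g ^ n ≠ 0 := fun h0 => hg0 (funext fun z => pow_eq_zero_iff hn |>.mp (congrFun h0 z))
  obtain ⟨e, he⟩ := ENat.ne_top_iff_exists.mp (ordAt_ne_top hg hg0 z)
  have hfz : ordAt (g ^ n) z = ((n * e : ℕ) : ℕ∞) := by
    rw [ordAt_pow hg, ← he, nsmul_eq_mul, Nat.cast_mul]
  obtain ⟨r, hr, hrz⟩ := exists_ratSet_ordAt_le K₀ h2 hG hG2 hn hf hfr z hfz
  obtain ⟨d, hd, hdr, hde⟩ := exists_rat_quotient K₀ h2 hG hf hf0 hfr hr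
  refine ⟨r, d, ⟨hr.1, hr.2.1⟩, ⟨hd, hdr⟩, hde, ?_⟩
  have h := congrArg (fun F => ordAt F z) hde
  simp only [ordAt_pow hr.1.1, ordAt_mul hd.1 hf.1, hfz] at h
  rw [← ordAt_eq_zero_iff hd.1 z]
  have hup : ordAt d z + ((n * e : ℕ) : ℕ∞) ≤ ((n * e : ℕ) : ℕ∞) := by
    rw [← h]
    refine (nsmul_le_nsmul_right hrz n).trans (le_of_eq ?_)
    rw [nsmul_eq_mul, Nat.cast_mul]
  cases hdv : ordAt d z with
  | top =>
    rw [hdv, top_add] at hup
    exact (ENat.natCast_ne_top _ (top_le_iff.mp hup)).elim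
  | coe m =>
    rw [hdv] at hup
    have h' : m + n * e ≤ n * e := by exact_mod_cast hup
    exact_mod_cast (show m = 0 by omega)

/-- Averaging over the cosets of level `L`: coefficients of an identity `∑ c d = 1` with `d` of
level `G` may be taken of level `G`. -/
lemma exists_averaged_coeffs {m : ℕ} (d : Fin m → ℍ → ℂ) (hd : ∀ j, d j ∈ weak G L ⊤)
    (c : Fin m → ℍ → ℂ) (hc : ∀ j, c j ∈ 𝔸) (hsum : ∀ z, ∑ j, c j z * d j z = 1) :
    ∃ c' : Fin m → ℍ → ℂ, (∀ j, c' j ∈ weak G L ⊤) ∧ ∀ z, ∑ j, c' j z * d j z = 1 := by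
  obtain ⟨ι, _, p, hpG, ⟨i₀, -⟩, hperm⟩ := exists_reps (L := L) G
  have hι : (Fintype.card ι : ℂ) ≠ 0 := Nat.cast_ne_zero.mpr
    (haveI : Nonempty ι := ⟨i₀⟩; Fintype.card_ne_zero)
  refine ⟨fun j => (fun _ => (Fintype.card ι : ℂ)⁻¹) * ∑ i, comp (c j) (p i),
    fun j => mul_mem (const_mem_weak trivial) (sum_mem_weak hperm (hc j)), fun z => ?_⟩
  have h3 : ∀ j i, d j (p i • z) = d j z := fun j i =>
    congrFun ((hd j).2.1 _ (hpG i)) z
  simp only [Pi.mul_apply, Finset.sum_apply, comp_apply, mul_assoc, Finset.sum_mul]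
  rw [← Finset.mul_sum, Finset.sum_comm]
  have h4 : ∀ i, ∑ j, c j (p i • z) * d j z = 1 := fun i => by
    rw [← hsum (p i • z)]
    simp only [h3]
  simp only [h4, Finset.sum_const, Finset.card_univ, nsmul_eq_mul, mul_one]
  exact inv_mul_cancel₀ hι

/-- The expansion of a linear combination. -/
lemma expansion_sum_smul {ι : Type*} (J : Finset ι) (μ : ι → ℂ) {R : ι → ℍ → ℂ}
    (hR : ∀ l, R l ∈ 𝔸) : HasExp L (∑ l ∈ J, μ l • R l)
      (∑ l ∈ J, HahnSeries.single 0 (μ l) * expansion L (R l)) := by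
  classical
  induction J using Finset.induction_on with
  | empty => simpa using HasExp.zero
  | @insert l J hl IH =>
    rw [Finset.sum_insert hl, Finset.sum_insert hl]
    refine HasExp.add ?_ IH
    have := (HasExp.const (L := L) (μ l)).mul (hasExp_expansion (hR l) 1)
    simp only [comp_one] at this
    exact this

/-- Coefficients of an identity `∑ c d = 1` with rational `d` may be taken rational: apply a
`K₀`-linear retraction `ℂ → K₀` to the coordinates of `c`. -/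
lemma exists_rational_coeffs (h2 : 2 ∣ L) (hG : IsDiagStable G L) {m : ℕ} (d : Fin m → ℍ → ℂ)
    (hd : ∀ j, d j ∈ weak G L ⊤) (hdr : ∀ j, IsRat L K₀ (d j)) (c : Fin m → ℍ → ℂ)
    (hc : ∀ j, c j ∈ weak G L ⊤) (hsum : ∀ z, ∑ j, c j z * d j z = 1) :
    ∃ c₀ : Fin m → ℍ → ℂ, (∀ j, c₀ j ∈ weak G L ⊤ ∧ IsRat L K₀ (c₀ j)) ∧
      ∑ j, c₀ j * d j = 1 := by
  have hle : weak G L ⊤ ≤ 𝔸 := weak_mono hG.1 le_rfl
  have h1r : IsRat L K₀ 1 := isRat_of_forall K₀ fun σ _ c _ => IsConj.one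
  have hspan : ∀ j, c j ∈ Submodule.span ℂ (ratSet G L K₀ 1 1) := fun j =>
    mem_span_ratSet h2 hG K₀ (one_mem _) h1r (hc j) fun z => by
      rw [(ordAt_eq_zero_iff (one_mem (weak G L ⊤)).1 z).mpr one_ne_zero]
      exact zero_le
  choose q lam r hr using fun j => Submodule.mem_span_set'.mp (hspan j)
  obtain ⟨φ, hφ⟩ := exists_retraction K₀
  have hR : ∀ j l, (r j l).1 ∈ 𝔸 := fun j l => hle (r j l).2.1
  have hexp : ∀ μ : (j : Fin m) → Fin (q j) → ℂ, HasExp L (∑ j, (∑ l, μ j l • (r j l).1) * d j)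
      (∑ j, (∑ l, HahnSeries.single 0 (μ j l) * expansion L (r j l).1) * expansion L (d j)) :=
    fun μ => HasExp.finset_sum Finset.univ fun j _ =>
      (expansion_sum_smul Finset.univ (μ j) (hR j)).mul
        (by simpa only [comp_one] using hasExp_expansion (hle (hd j)) 1)
  let c₀ : Fin m → ℍ → ℂ := fun j => ∑ l, ((φ (lam j l) : K₀) : ℂ) • (r j l).1
  have hc₀ : ∀ j, c₀ j ∈ weak G L ⊤ := fun j =>
    Subring.sum_mem _ fun l _ => mul_mem (const_mem_weak trivial) (r j l).2.1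
  refine ⟨c₀, fun j => ⟨hc₀ j, fun i => ?_⟩, ?_⟩
  · rw [(expansion_sum_smul Finset.univ _ (hR j)).expansion_eq, HahnSeries.coeff_sum]
    refine Subfield.sum_mem _ fun l _ => ?_
    rw [HahnSeries.coeff_single_mul, sub_zero]
    exact Subfield.mul_mem _ (φ _).2 ((r j l).2.2.1 i)
  · have hone : expansion L (∑ j, (∑ l, lam j l • (r j l).1) * d j) = 1 := by
      have : (∑ j, (∑ l, lam j l • (r j l).1) * d j) = 1 := by
        funext z
        simp only [hr, Finset.sum_apply, Pi.mul_apply, hsum z, Pi.one_apply]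
      rw [this]
      exact HasExp.one.expansion_eq
    rw [(hexp lam).expansion_eq] at hone
    have hone' : expansion L (∑ j, c₀ j * d j) = 1 := by
      rw [(hexp _).expansion_eq]
      ext i
      have h := congrArg (fun s => HahnSeries.coeff s i) hone
      simp only [Finset.sum_mul, mul_assoc, HahnSeries.coeff_sum, HahnSeries.coeff_single_mul,
        sub_zero] at h ⊢
      have hK : ∀ j l, (expansion L (r j l).1 * expansion L (d j)).coeff i ∈ K₀ := by
        intro j l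
        rw [HahnSeries.coeff_mul]
        exact Subfield.sum_mem _ fun x _ =>
          Subfield.mul_mem _ ((r j l).2.2.1 _) (hdr j _)
      have h1 : (1 : LaurentSeries ℂ).coeff i ∈ K₀ := by
        rcases eq_or_ne i 0 with rfl | hi <;>
          simp [HahnSeries.coeff_one, *]
      have hmul : ∀ (x : ℂ) (k : K₀), φ (x * k) = φ x * k := fun x k => by
        rw [mul_comm x, ← smul_eq_mul (k : ℂ) x, ← Subfield.smul_def, map_smul, smul_eq_mul,
          mul_comm]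
      have h5 := congrArg φ h
      rw [show (1 : LaurentSeries ℂ).coeff i =
        (⟨_, h1⟩ : K₀) • (1 : ℂ) by rw [Subfield.smul_def, smul_eq_mul, mul_one], map_smul, hφ,
        smul_eq_mul, mul_one] at h5
      simp only [map_sum] at h5
      have h6 := congrArg Subtype.val h5
      simp only [AddSubmonoidClass.coe_finsetSum] at h6
      refine Eq.trans ?_ h6
      refine Finset.sum_congr rfl fun j _ => Finset.sum_congr rfl fun l _ => ?_
      rw [show (expansion L (r j l).1 * expansion L (d j)).coeff i =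
        ((⟨_, hK j l⟩ : K₀) : ℂ) from rfl, hmul]
      rfl
    have hmem : (∑ j, c₀ j * d j) ∈ 𝔸 :=
      Subring.sum_mem _ fun j _ => mul_mem (hle (hc₀ j)) (hle (hd j))
    exact eq_of_expansion_eq hmem (one_mem _) (hone'.trans HasExp.one.expansion_eq.symm)

end Certificate

/-- **The horizontal certificate.** -/
theorem exists_certificate (h2 : 2 ∣ L) {G : Subgroup SL(2, ℤ)} (hG : IsDiagStable G L)
    (hG2 : G ≤ Gamma 2) (K₀ : Subfield ℂ) {n : ℕ} (hn : n ≠ 0) {g : ℍ → ℂ} (hg : MDiff g)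
    (hg0 : g ≠ 0) (hf : g ^ n ∈ weak G L ⊤) (hfr : IsRat L K₀ (g ^ n)) :
    ∃ (m : ℕ) (a d c : Fin m → ℍ → ℂ),
      (∀ j, a j ∈ weak G L ⊤ ∧ IsRat L K₀ (a j)) ∧ (∀ j, d j ∈ weak G L ⊤ ∧ IsRat L K₀ (d j)) ∧
      (∀ j, c j ∈ weak G L ⊤ ∧ IsRat L K₀ (c j)) ∧
      (∀ j, a j ^ n = d j * g ^ n) ∧ ∑ j, c j * d j = 1 := by
  have hle : weak G L ⊤ ≤ 𝔸 := weak_mono hG.1 le_rfl
  let D : Set 𝔸 := {d | (d : ℍ → ℂ) ∈ weak G L ⊤ ∧ IsRat L K₀ (d : ℍ → ℂ) ∧
    ∃ a, a ∈ weak G L ⊤ ∧ IsRat L K₀ a ∧ a ^ n = (d : ℍ → ℂ) * g ^ n}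
  have hne : ∀ z : ℍ, ∃ d ∈ D, (d : ℍ → ℂ) z ≠ 0 := fun z => by
    obtain ⟨a, d, ha, hd, hde, hdz⟩ :=
      exists_quotient_apply_ne_zero K₀ h2 hG hG2 hn hg hg0 hf hfr z
    exact ⟨⟨d, hle hd.1⟩, ⟨hd.1, hd.2, a, ha.1, ha.2, hde⟩, hdz⟩
  obtain ⟨d₀, hd₀, hd₀z⟩ := hne UpperHalfPlane.I
  have htop := ideal_eq_top (baseData 2 L (.inl rfl) h2) h2 (Ideal.span D)
    (Ideal.subset_span hd₀) (fun h0 => hd₀z (by rw [h0]; rfl)) fun z => by
      obtain ⟨d, hd, hdz⟩ := hne z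
      exact ⟨d, Ideal.subset_span hd, hdz⟩
  obtain ⟨m, c₁, d, hsum⟩ := Submodule.mem_span_set'.mp
    ((Ideal.eq_top_iff_one _).mp htop : (1 : 𝔸) ∈ Ideal.span D)
  obtain ⟨c₂, hc₂, hsum₂⟩ := exists_averaged_coeffs (fun j => (d j).1.1) (fun j => (d j).2.1)
    (fun j => (c₁ j).1) (fun j => (c₁ j).2) fun z => by
      simpa using congrFun (congrArg Subtype.val hsum) z
  obtain ⟨c₀, hc₀, hone⟩ := exists_rational_coeffs K₀ h2 hG (fun j => (d j).1.1)
    (fun j => (d j).2.1) (fun j => (d j).2.2.1) c₂ hc₂ hsum₂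
  choose a ha har hae using fun j => (d j).2.2.2
  exact ⟨m, a, fun j => (d j).1.1, c₀, fun j => ⟨ha j, har j⟩,
    fun j => ⟨(d j).2.1, (d j).2.2.1⟩, hc₀, hae, hone⟩

end Fermat.Agent.AtP
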