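import Fermat.Agent.KummerES.ConjugateAut
import Mathlib.FieldTheory.Galois.Infinite
import Mathlib.FieldTheory.IntermediateField.Adjoin.Algebra
import Mathlib.LinearAlgebra.Dual.Lemmas
import Mathlib.RingTheory.LaurentSeries

/-!
# Descent of finite coordinates to a subfield of `ℂ`

The complex numbers fixed by all automorphisms over a subfield `K₀` lie in `K₀`, and a space of
finite families of complex numbers stable under these automorphisms is spanned by `K₀`-rational
families.
-/

set_option autoImplicit false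

noncomputable section

namespace Fermat.Agent.AtP

open MvPolynomial Fermat.Agent.KummerES

/-- `ℂ` over a subfield has no more fixed points than the subfield. -/
theorem mem_of_forall_aut_fix (K₀ : Subfield ℂ) {z : ℂ}
    (h : ∀ σ : ℂ ≃+* ℂ, (∀ x ∈ K₀, σ x = x) → σ z = z) : z ∈ K₀ := by
  by_cases hz : IsAlgebraic K₀ z
  · let A := algebraicClosure K₀ ℂ
    have : IsAlgClosure K₀ A := algebraicClosure.isAlgClosure K₀ ℂ
    have : IsAlgClosed A := IsAlgClosure.isAlgClosed K₀
    have : Normal K₀ A := IsAlgClosure.normal K₀ A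
    have : Algebra.IsSeparable K₀ A := inferInstance
    have : IsGalois K₀ A := ⟨⟩
    let x : A := ⟨z, mem_algebraicClosure_iff.mpr hz.isIntegral.isAlgebraic⟩
    have hx : x ∈ Set.range (algebraMap K₀ A) := by
      refine (InfiniteGalois.mem_range_algebraMap_iff_fixed (k := K₀) x).mpr fun σ => ?_
      obtain ⟨s, hs⟩ := exists_isTranscendenceBasis A ℂ
      obtain ⟨σ', hσ'⟩ := exists_aut_extend hs (MvPolynomial.mapEquiv s σ.toRingEquiv)
      have key : ∀ a : A, σ' (a : ℂ) = (σ a : ℂ) := fun a => by
        have h1 := hσ' (C a)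
        simp only [aeval_C, MvPolynomial.mapEquiv_apply, map_C] at h1
        exact h1
      refine Subtype.ext ?_
      rw [← key x]
      refine h σ' fun y hy => ?_
      have h2 := key (algebraMap K₀ A ⟨y, hy⟩)
      rw [σ.commutes] at h2
      exact h2
    obtain ⟨y, hy⟩ := hx
    have : (y : ℂ) = z := congrArg Subtype.val hy
    exact this ▸ y.2
  · exfalso
    obtain ⟨s, hzs, hs⟩ := exists_isTranscendenceBasis_superset (R := K₀) (s := ({z} : Set ℂ))
      ((algebraicIndependent_singleton_iff (⟨z, rfl⟩ : ({z} : Set ℂ))).mpr hz)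
    classical
    let i₀ : s := ⟨z, hzs rfl⟩
    let u : s → MvPolynomial s K₀ := fun i => X i + if i = i₀ then 1 else 0
    let w : s → MvPolynomial s K₀ := fun i => X i - if i = i₀ then 1 else 0
    have h1 : (aeval u).comp (aeval w) = AlgHom.id K₀ (MvPolynomial s K₀) :=
      MvPolynomial.algHom_ext fun i => by
        by_cases hi : i = i₀ <;> simp [u, w, hi]
    have h2 : (aeval w).comp (aeval u) = AlgHom.id K₀ (MvPolynomial s K₀) :=
      MvPolynomial.algHom_ext fun i => by
        by_cases hi : i = i₀ <;> simp [u, w, hi]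
    let φ : MvPolynomial s K₀ ≃ₐ[K₀] MvPolynomial s K₀ := AlgEquiv.ofAlgHom (aeval u) (aeval w) h1 h2
    obtain ⟨σ, hσ⟩ := exists_aut_extend hs φ.toRingEquiv
    have hfix : ∀ x ∈ K₀, σ x = x := fun x hx => by
      have := hσ (C ⟨x, hx⟩)
      simp only [AlgEquiv.coe_ringEquiv, φ, AlgEquiv.ofAlgHom_apply,
        aeval_C, MvPolynomial.algebraMap_eq, aeval_C] at this
      exact this
    have := hσ (X i₀)
    simp only [AlgEquiv.coe_ringEquiv, φ, AlgEquiv.ofAlgHom_apply,
      aeval_X, u, if_pos, map_add, map_one] at this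
    have hz1 : σ z = z + 1 := this
    rw [h σ hfix] at hz1
    exact one_ne_zero (add_left_cancel (hz1.symm.trans (add_zero z).symm))

/-- A space of finite families stable under the automorphisms over `K₀` is spanned by its rational
members. -/
theorem mem_span_rational_coords {ι : Type*} [Fintype ι] (K₀ : Subfield ℂ)
    (W : Submodule ℂ (ι → ℂ))
    (hW : ∀ σ : ℂ ≃+* ℂ, (∀ x ∈ K₀, σ x = x) → ∀ w ∈ W, (fun i => σ (w i)) ∈ W)
    {v : ι → ℂ} (hv : v ∈ W) :
    v ∈ Submodule.span ℂ {w : ι → ℂ | w ∈ W ∧ ∀ i, w i ∈ K₀} := by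
  classical
  suffices ∀ (n : ℕ) (v : ι → ℂ), v ∈ W → (Finset.univ.filter fun i => v i ≠ 0).card = n →
      v ∈ Submodule.span ℂ {w : ι → ℂ | w ∈ W ∧ ∀ i, w i ∈ K₀} from this _ v hv rfl
  intro n
  induction n using Nat.strong_induction_on with
  | _ n IH =>
    intro v hv hn
    by_cases h0 : v = 0
    · subst h0; exact zero_mem _
    obtain ⟨i, hi⟩ : ∃ i, v i ≠ 0 := by
      by_contra hc
      push Not at hc
      exact h0 (funext hc)
    set S := Submodule.span ℂ {w : ι → ℂ | w ∈ W ∧ ∀ i, w i ∈ K₀}
    -- normalise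
    have hlt : ∀ u : ι → ℂ, (∀ j, v j = 0 → u j = 0) → u i = 0 →
        (Finset.univ.filter fun j => u j ≠ 0).card < n := by
      intro u hu hui
      rw [← hn]
      refine Finset.card_lt_card (Finset.ssubset_iff_subset_ne.mpr ⟨?_, ?_⟩)
      · intro j hj
        simp only [Finset.mem_filter, Finset.mem_univ, true_and] at hj ⊢
        exact fun hc => hj (hu j hc)
      · intro he
        have : i ∈ Finset.univ.filter fun j => u j ≠ 0 := by simp [he, hi]
        simp [hui] at this
    set w := (v i)⁻¹ • v with hw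
    have hwW : w ∈ W := W.smul_mem _ hv
    have hwi : w i = 1 := by simp [hw, hi]
    -- either the normalised vector is rational or it differs from a conjugate on a smaller support
    by_cases hrat : ∀ j, w j ∈ K₀
    · have : v = v i • w := by simp [hw, smul_smul, mul_inv_cancel₀ hi]
      rw [this]
      exact S.smul_mem _ (Submodule.subset_span ⟨hwW, hrat⟩)
    push Not at hrat
    obtain ⟨j, hj⟩ := hrat
    obtain ⟨σ, hσ, hσj⟩ : ∃ σ : ℂ ≃+* ℂ, (∀ x ∈ K₀, σ x = x) ∧ σ (w j) ≠ w j := by
      by_contra hc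
      push Not at hc
      exact hj (mem_of_forall_aut_fix K₀ hc)
    set d := (fun k => σ (w k)) - w with hd
    have hdW : d ∈ W := W.sub_mem (hW σ hσ w hwW) hwW
    have hdsupp : ∀ k, v k = 0 → d k = 0 := fun k hk => by simp [hd, hw, hk]
    have hdi : d i = 0 := by simp [hd, hwi]
    have hdS : d ∈ S := IH _ (hlt d hdsupp hdi) d hdW rfl
    -- remove the coordinate `j` from `v` with a multiple of `d`
    have hdj : d j ≠ 0 := sub_ne_zero.mpr hσj
    set r := v - (v j / d j) • d with hr
    have hrS : r ∈ S := by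
      refine IH _ ?_ r (W.sub_mem hv (W.smul_mem _ hdW)) rfl
      rw [← hn]
      refine Finset.card_lt_card (Finset.ssubset_iff_subset_ne.mpr ⟨?_, ?_⟩)
      · intro k hk
        simp only [Finset.mem_filter, Finset.mem_univ, true_and] at hk ⊢
        exact fun hc => hk (by simp [hr, hc, hdsupp k hc])
      · intro he
        have hjv : j ∈ Finset.univ.filter fun k => v k ≠ 0 := by
          simp only [Finset.mem_filter, Finset.mem_univ, true_and]
          exact fun hc => hdj (hdsupp j hc)
        rw [← he] at hjv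
        simp [hr, hdj] at hjv
    have : v = r + (v j / d j) • d := by simp [hr]
    rw [this]
    exact S.add_mem hrS (S.smul_mem _ hdS)

/-- A `K₀`-linear retraction of `K₀ → ℂ`. -/
theorem exists_retraction (K₀ : Subfield ℂ) : ∃ φ : ℂ →ₗ[K₀] K₀, φ 1 = 1 := by
  obtain ⟨φ, hφ⟩ := LinearMap.exists_leftInverse_of_injective
    (Algebra.linearMap K₀ ℂ) (LinearMap.ker_eq_bot.mpr (FaithfulSMul.algebraMap_injective K₀ ℂ))
  exact ⟨φ, by simpa using LinearMap.congr_fun hφ 1⟩

end Fermat.Agent.AtP
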