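import Fermat.Agent.KummerES.ConjugateAut
import Mathlib.RingTheory.WittVector.DiscreteValuationRing
import Mathlib.RingTheory.WittVector.Complete
import Mathlib.FieldTheory.IsAlgClosed.Classification
import Mathlib.RingTheory.Algebraic.Cardinality
import Mathlib.FieldTheory.Galois.Infinite
import Mathlib.RingTheory.AdicCompletion.Basic

/-!
# Coefficient rings inside `ℂ`, and fixed fields of `Aut ℂ`
-/

set_option autoImplicit false

noncomputable section

open Cardinal
open IsLocalRing (maximalIdeal ResidueField)

namespace Fermat.Agent.AtP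

open MvPolynomial in
/-- A complex number fixed by every automorphism fixing a subfield lies in it. -/
theorem mem_of_forall_fixed (F : Subfield ℂ) (z : ℂ)
    (h : ∀ σ : ℂ ≃+* ℂ, (∀ x ∈ F, σ x = x) → σ z = z) : z ∈ F := by
  by_cases hz : IsAlgebraic F z
  · let Ω := algebraicClosure F ℂ
    have : IsGalois F Ω := {}
    have hzΩ : z ∈ Ω := mem_algebraicClosure_iff.mpr hz
    have hmem : (⟨z, hzΩ⟩ : Ω) ∈ (⊥ : IntermediateField F Ω) := by
      refine (InfiniteGalois.mem_bot_iff_fixed _).mpr fun τ => ?_
      obtain ⟨s, hs⟩ := exists_isTranscendenceBasis Ω ℂ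
      obtain ⟨σ, hσ⟩ := KummerES.exists_aut_extend hs (mapEquiv s τ.toRingEquiv)
      have hσ' : ∀ w : Ω, σ w = (τ w : ℂ) := fun w => by
        simpa using hσ (C w)
      have hfix := h σ fun x hx => by
        have h1 := hσ' (algebraMap F Ω ⟨x, hx⟩)
        rw [AlgEquiv.commutes] at h1
        exact h1
      exact Subtype.ext ((hσ' ⟨z, hzΩ⟩).symm.trans hfix)
    obtain ⟨w, hw⟩ := IntermediateField.mem_bot.mp hmem
    have hwz : (w : ℂ) = z := congrArg (fun t : Ω => (t : ℂ)) hw
    exact hwz ▸ w.2
  · exfalso
    obtain ⟨s, hzs, hs⟩ := exists_isTranscendenceBasis_superset (R := F) (s := ({z} : Set ℂ))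
      ((algebraicIndependent_singleton_iff (⟨z, rfl⟩ : ({z} : Set ℂ))).mpr hz)
    classical
    let i₀ : s := ⟨z, hzs rfl⟩
    let t : s → F := Pi.single i₀ 1
    let φ : MvPolynomial s F ≃ₐ[F] MvPolynomial s F :=
      AlgEquiv.ofAlgHom (aeval fun i => X i + C (t i)) (aeval fun i => X i - C (t i))
        (by ext i; simp) (by ext i; simp)
    obtain ⟨σ, hσ⟩ := KummerES.exists_aut_extend hs φ.toRingEquiv
    have h1 := h σ fun x hx => by
      have h3 := hσ (C ⟨x, hx⟩)
      simp [φ] at h3
      exact h3
    have h2 := hσ (X i₀)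
    simp [φ, t, i₀] at h2
    rw [h1] at h2
    exact one_ne_zero (left_eq_add.mp h2)

section Transfer

variable {A B : Type*} [CommRing A] [IsLocalRing A] [CommRing B] [IsLocalRing B]

/-- Ring isomorphisms respect the powers of the maximal ideals. -/
lemma mem_maximalIdeal_pow_iff (e : A ≃+* B) (n : ℕ) (x : A) :
    e x ∈ maximalIdeal B ^ n ↔ x ∈ maximalIdeal A ^ n := by
  have hmax : (maximalIdeal A).map e = maximalIdeal B := by
    have := Ideal.map_isMaximal_of_equiv e (p := maximalIdeal A)
    exact IsLocalRing.eq_maximalIdeal inferInstance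
  rw [← hmax, ← Ideal.map_pow]
  exact ⟨fun h => by
    obtain ⟨y, hy, hxy⟩ := (Ideal.mem_map_iff_of_surjective e e.surjective).mp h
    rwa [← e.injective hxy], Ideal.mem_map_of_mem e⟩

/-- Completeness of local rings passes along isomorphisms. -/
theorem isAdicComplete_of_ringEquiv (e : A ≃+* B) [IsAdicComplete (maximalIdeal A) A] :
    IsAdicComplete (maximalIdeal B) B := by
  have hmem : ∀ (n : ℕ) (x y : B), x ≡ y [SMOD (maximalIdeal B ^ n • ⊤ : Submodule B B)] ↔
      e.symm x ≡ e.symm y [SMOD (maximalIdeal A ^ n • ⊤ : Submodule A A)] := fun n x y => by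
    rw [SModEq.sub_mem, SModEq.sub_mem, smul_eq_mul, smul_eq_mul, Ideal.mul_top, Ideal.mul_top,
      ← map_sub, ← mem_maximalIdeal_pow_iff e, RingEquiv.apply_symm_apply]
  refine { toIsHausdorff := ?_, toIsPrecomplete := ?_ }
  · refine isHausdorff_iff.mpr fun x hx => e.symm.injective ?_
    rw [map_zero]
    refine IsHausdorff.haus (inferInstance : IsHausdorff (maximalIdeal A) A) _ fun n => ?_
    have h := (hmem n x 0).mp (hx n)
    rwa [map_zero] at h
  · refine isPrecomplete_iff.mpr fun f hf => ?_
    obtain ⟨l, hl⟩ := IsPrecomplete.prec (inferInstance : IsPrecomplete (maximalIdeal A) A)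
      (f := e.symm ∘ f) fun {m n} hmn => (hmem m _ _).mp (hf hmn)
    exact ⟨e l, fun n => (hmem n _ _).mpr (by simpa using hl n)⟩

end Transfer

/-- **A complete unramified coefficient ring inside `ℂ`.** -/
theorem exists_coeffRing (p : ℕ) [hp : Fact p.Prime] :
    ∃ (O : Subring ℂ) (_ : IsDiscreteValuationRing O) (_ : IsAdicComplete (maximalIdeal O) O)
      (_ : IsAlgClosed (ResidueField O)), Irreducible (p : O) := by
  let k := AlgebraicClosure (ZMod p)
  let R := WittVector p k
  have : CharZero R := by
    obtain ⟨q, hq⟩ := CharP.exists R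
    rcases CharP.char_is_prime_or_zero R q with hprime | rfl
    · exfalso
      have h0 : (q : k) = 0 := by
        rw [← map_natCast (WittVector.constantCoeff (p := p) (R := k)), CharP.cast_eq_zero R q,
          map_zero]
      have hpq : p = q :=
        (Nat.prime_dvd_prime_iff_eq hp.out hprime).mp ((CharP.cast_eq_zero_iff _ p q).mp h0)
      subst hpq
      exact (WittVector.irreducible (k := k) p).ne_zero (CharP.cast_eq_zero R p)
    · exact CharP.charP_to_charZero _
  let K := AlgebraicClosure (FractionRing R)
  have : CharZero K := charZero_of_injective_algebraMap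
    (algebraMap (FractionRing R) K).injective
  have hk : #k = ℵ₀ := by
    refine le_antisymm ?_ (Cardinal.aleph0_le_mk k)
    exact (Algebra.IsAlgebraic.cardinalMk_le_max (ZMod p) k).trans
      (max_le Cardinal.mk_le_aleph0 le_rfl)
  have hR : #R = continuum := by
    rw [Cardinal.mk_congr (show R ≃ (ℕ → k) from ⟨WittVector.coeff, WittVector.mk p,
      fun x => WittVector.ext fun i => by simp, fun x => by funext i; simp⟩),
      Cardinal.mk_arrow, Cardinal.lift_id, Cardinal.lift_id, hk, Cardinal.mk_nat,
      Cardinal.aleph0_power_aleph0]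
  have : Infinite R := Infinite.of_injective _ (Nat.cast_injective (R := R))
  have hF : #(FractionRing R) = continuum := by rw [Cardinal.mk_fractionRing, hR]
  have hK : #K = continuum := le_antisymm
    ((Algebra.IsAlgebraic.cardinalMk_le_max (FractionRing R) K).trans
      (max_le hF.le Cardinal.aleph0_le_continuum))
    (hF.ge.trans (Cardinal.mk_le_of_injective (algebraMap (FractionRing R) K).injective))
  obtain ⟨eK⟩ := IsAlgClosed.ringEquiv_of_equiv_of_charZero (K := K) (L := ℂ)
    (hK ▸ Cardinal.aleph0_lt_continuum) (Cardinal.eq.mp (hK.trans Cardinal.mk_complex.symm))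
  let f : R →+* ℂ := eK.toRingHom.comp
    ((algebraMap (FractionRing R) K).comp (algebraMap R (FractionRing R)))
  have hf : Function.Injective f := eK.injective.comp
    ((algebraMap (FractionRing R) K).injective.comp (IsFractionRing.injective R (FractionRing R)))
  let O : Subring ℂ := f.range
  let e : R ≃+* O := RingEquiv.ofBijective f.rangeRestrict
    ⟨fun a b h => hf (congrArg Subtype.val h), f.rangeRestrict_surjective⟩
  have hdvr : IsDiscreteValuationRing O := IsDiscreteValuationRing.RingEquivClass.isDiscreteValuationRing e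
  have : IsAdicComplete (maximalIdeal R) R :=
    (WittVector.irreducible (k := k) p).maximalIdeal_eq.symm ▸ WittVector.isAdicCompleteIdealSpanP
  refine ⟨O, hdvr, isAdicComplete_of_ringEquiv e, ?_, ?_⟩
  · have : IsAlgClosed k := inferInstance
    have e' : ResidueField R ≃+* k := (Ideal.quotEquivOfEq
      (WittVector.irreducible (k := k) p).maximalIdeal_eq).trans WittVector.quotientPEquiv
    exact IsAlgClosed.of_ringEquiv k (ResidueField O)
      (e'.symm.trans (IsLocalRing.ResidueField.mapEquiv e))
  · rw [← map_natCast e]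
    exact (MulEquiv.irreducible_iff e).mpr (WittVector.irreducible p)

end Fermat.Agent.AtP

end
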