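import Fermat.Agent.AtP.ClassMain
import Fermat.Agent.KummerES.ModulesFinal

/-!
# Conjugation is available at every even level
-/

set_option autoImplicit false

noncomputable section

open CongruenceSubgroup
open IsLocalRing (maximalIdeal ResidueField)
open scoped MatrixGroups

namespace Fermat.Agent.AtP

open KummerES (ConjLevel)
open LevelLowering (CofiniteResModular FreyModular)
open WeierstrassCurve.Affine.Point (GaloisRepIsIrreducible)

/-- Conjugation with the Eichler–Shimura relation, for characters modulo a prime. -/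
theorem hasConjInput (N p : ℕ) [NeZero N] [hp : Fact p.Prime] : HasConjInput N p := by
  intro L _ h2 hNL
  let S : ConjLevel (Gamma0 N) N L :=
    KummerES.conjLevelTwo h2 (KummerES.isDiagStable_gamma0 N) hNL
  suffices key : ∀ (n : ℕ) [NeZero n], n = p ^ 1 → HasFrobeniusRelation S n from
    ⟨S, key p (pow_one p).symm⟩
  intro n _ hn
  subst hn
  intro ℓ _ hℓN hℓn A hA σ hσ x
  exact KummerES.galRep_frobenius_gamma0_of_glue KummerES.glueProp hp.out S 1 hℓN
    (fun h => hℓn (by rw [h, pow_one])) hA hσ x

variable {p : ℕ} [Fact p.Prime] {M : ℕ} [NeZero M]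

/-- **The class removed by Mazur's principle at `p`.** -/
theorem exists_hasClass {W : WeierstrassCurve ℤ} (hΔ : W.Δ ≠ 0) (hp5 : 5 ≤ p)
    (hirr : W.ModRepIsIrreducible p) (hpM : ¬ p ∣ M) (hmod : CofiniteResModular W p (p * M))
    (hnot : ¬ CofiniteResModular W p M) {b d : ℤ} (h : (p : ℤ) * d - (M : ℤ) * b = 1)
    (O : Subring ℂ) (hloc : HasLocalSplit W p O) : HasClass W p h hpM O :=
  haveI : NeZero (p * M) := ⟨mul_ne_zero (Fact.out : p.Prime).ne_zero (NeZero.ne M)⟩
  exists_class hΔ hp5 hirr hpM hmod hnot (hasConjInput (p * M) p) h O hloc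

end Fermat.Agent.AtP

end
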