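import Mathlib.LinearAlgebra.Matrix.Trace
import Mathlib.LinearAlgebra.Span.Basic
import Mathlib.Tactic.NoncommRing
import Mathlib.Tactic.Module
import Mathlib.Data.Matrix.Basis
import Mathlib.LinearAlgebra.Matrix.Notation

/-!
# Representations with the characteristic relation of a full two-dimensional representation

If `R g + d g • R g⁻¹ = tr (ρ g)` for a two-dimensional representation `ρ` spanning all matrices,
then `R = ψ ∘ ρ` for an algebra map `ψ` on matrices (`2` invertible).
-/

set_option autoImplicit false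

namespace Fermat.Agent.AtP

open Matrix

variable {k : Type*} [Field k] {G : Type*} [Group G] {V : Type*} [AddCommGroup V] [Module k V]
  (d : G →* k) (ρ : G →* Matrix (Fin 2) (Fin 2) k) (R : G →* Module.End k V)

/-- The triples `(R g, d g • R g⁻¹, ρ g)`. -/
def relSpan : Submodule k (Module.End k V × Module.End k V × Matrix (Fin 2) (Fin 2) k) :=
  Submodule.span k (Set.range fun g => (R g, d g • R g⁻¹, ρ g))

variable {d ρ R}

theorem relSpan_mul {x y : Module.End k V × Module.End k V × Matrix (Fin 2) (Fin 2) k}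
    (hx : x ∈ relSpan d ρ R) (hy : y ∈ relSpan d ρ R) :
    (x.1 * y.1, y.2.1 * x.2.1, x.2.2 * y.2.2) ∈ relSpan d ρ R := by
  induction hx using Submodule.span_induction with
  | mem x hx =>
    obtain ⟨g, rfl⟩ := hx
    induction hy using Submodule.span_induction with
    | mem y hy =>
      obtain ⟨h, rfl⟩ := hy
      refine Submodule.subset_span ⟨g * h, ?_⟩
      simp only [map_mul, _root_.mul_inv_rev, smul_mul_assoc, mul_smul_comm, smul_smul]
    | zero =>
      simp only [Prod.fst_zero, Prod.snd_zero, mul_zero, zero_mul]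
      exact zero_mem _
    | add y z _ _ hy hz =>
      simpa only [Prod.fst_add, Prod.snd_add, mul_add, add_mul, Prod.mk_add_mk] using
        add_mem hy hz
    | smul a y _ hy =>
      have := Submodule.smul_mem _ a hy
      simpa only [Prod.smul_fst, Prod.smul_snd, mul_smul_comm, smul_mul_assoc, Prod.smul_mk,
        smul_comm (d g) a] using this
  | zero =>
    simp only [Prod.fst_zero, Prod.snd_zero, mul_zero, zero_mul]
    exact zero_mem _
  | add x z _ _ hx hz =>
    simpa only [Prod.fst_add, Prod.snd_add, mul_add, add_mul, Prod.mk_add_mk] using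
      add_mem hx hz
  | smul a x _ hx =>
    simpa only [Prod.smul_fst, Prod.smul_snd, mul_smul_comm, smul_mul_assoc, Prod.smul_mk,
      smul_comm] using Submodule.smul_mem _ a hx

variable (hrel : ∀ g, R g + d g • R g⁻¹ = (ρ g).trace • (1 : Module.End k V))
  (hspan : Submodule.span k (Set.range ρ) = ⊤)

include hrel in
theorem relSpan_add {x : Module.End k V × Module.End k V × Matrix (Fin 2) (Fin 2) k}
    (hx : x ∈ relSpan d ρ R) : x.1 + x.2.1 = x.2.2.trace • (1 : Module.End k V) := by
  induction hx using Submodule.span_induction with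
  | mem x hx => obtain ⟨g, rfl⟩ := hx; exact hrel g
  | zero => simp
  | add x y _ _ hx hy =>
    simp only [Prod.fst_add, Prod.snd_add, trace_add, add_smul, ← hx, ← hy]
    abel
  | smul a x _ hx =>
    simp only [Prod.smul_fst, Prod.smul_snd, trace_smul, ← smul_add, hx, smul_assoc]

include hspan in
theorem relSpan_surj (B : Matrix (Fin 2) (Fin 2) k) : ∃ x ∈ relSpan d ρ R, x.2.2 = B := by
  have hB : B ∈ Submodule.span k (Set.range ρ) := hspan ▸ Submodule.mem_top
  induction hB using Submodule.span_induction with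
  | mem B hB => obtain ⟨g, rfl⟩ := hB; exact ⟨_, Submodule.subset_span ⟨g, rfl⟩, rfl⟩
  | zero => exact ⟨0, zero_mem _, rfl⟩
  | add x y _ _ hx hy =>
    obtain ⟨a, ha, rfl⟩ := hx
    obtain ⟨b, hb, rfl⟩ := hy
    exact ⟨a + b, add_mem ha hb, rfl⟩
  | smul c x _ hx =>
    obtain ⟨a, ha, rfl⟩ := hx
    exact ⟨c • a, Submodule.smul_mem _ c ha, rfl⟩

include hrel hspan in
/-- An element with zero matrix component is zero. -/
theorem relSpan_eq_zero (h2 : (2 : k) ≠ 0)
    {x : Module.End k V × Module.End k V × Matrix (Fin 2) (Fin 2) k} (hx : x ∈ relSpan d ρ R)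
    (h0 : x.2.2 = 0) : x = 0 := by
  have hcomm : ∀ y ∈ relSpan d ρ R, x.1 * y.1 + y.1 * x.1 = y.2.2.trace • x.1 := by
    intro y hy
    have e1 := relSpan_add hrel hx
    have e2 := relSpan_add hrel hy
    have e3 := relSpan_add hrel (relSpan_mul hx hy)
    rw [h0, trace_zero, zero_smul] at e1
    simp only [h0, zero_mul, trace_zero, zero_smul] at e3
    rw [eq_neg_of_add_eq_zero_right e1, eq_sub_of_add_eq' e2, mul_neg, sub_mul, smul_mul_assoc,
      one_mul] at e3
    rw [← sub_eq_zero, ← e3]
    abel
  obtain ⟨yb, hyb, hb⟩ := relSpan_surj (d := d) (R := R) hspan (!![0, 1; 0, 0] : Matrix (Fin 2) (Fin 2) k)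
  obtain ⟨yc, hyc, hc⟩ := relSpan_surj (d := d) (R := R) hspan (!![0, 0; 1, 0] : Matrix (Fin 2) (Fin 2) k)
  have hu := relSpan_mul hyb hyc
  have hk := (relSpan d ρ R).sub_mem (relSpan_mul hu hu) hu
  set a := x.1
  set u := yb.1 * yc.1 with hu'
  have hab : a * yb.1 = -(yb.1 * a) := eq_neg_of_add_eq_zero_left (by
    rw [hcomm _ hyb, hb]; simp [trace_fin_two])
  have hac : a * yc.1 = -(yc.1 * a) := eq_neg_of_add_eq_zero_left (by
    rw [hcomm _ hyc, hc]; simp [trace_fin_two])
  have hau : a * u = u * a := by
    rw [hu', ← mul_assoc, hab, neg_mul, mul_assoc, hac, mul_neg, neg_neg, ← mul_assoc]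
  have e1 : (2 : k) • (u * a) = a := by
    have := hcomm _ hu
    simp only [hau, hb, hc] at this
    rw [two_smul]
    simpa [trace_fin_two] using this
  have e2 : u * u * a = u * a := by
    have h := hcomm _ hk
    simp only [Prod.fst_sub, Prod.snd_sub, hb, hc] at h
    have hau2 : a * (u * u - u) = (u * u - u) * a := by
      simp only [mul_sub, sub_mul, ← mul_assoc, hau]
      rw [mul_assoc u a u, hau, ← mul_assoc]
    rw [hau2] at h
    have h' : (2 : k) • ((u * u - u) * a) = 0 := by
      rw [two_smul]
      simpa [trace_fin_two] using h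
    rw [smul_eq_zero, or_iff_right h2, sub_mul, sub_eq_zero] at h'
    exact h'
  have ha : a = 0 := by
    have e3 : (2 : k) • (u * a) = (4 : k) • (u * a) := by
      calc (2 : k) • (u * a) = (2 : k) • (u * ((2 : k) • (u * a))) :=
            congrArg (fun z => (2 : k) • (u * z)) e1.symm
        _ = (4 : k) • (u * a) := by
          rw [mul_smul_comm, smul_smul, ← mul_assoc, e2]; norm_num
    have h4 : (2 : k) • ((2 : k) • (u * a)) = (2 : k) • (u * a) := by
      rw [smul_smul]; norm_num [← e3]
    rw [e1] at h4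
    rw [two_smul] at h4
    exact add_eq_left.mp h4
  have e := relSpan_add hrel hx
  rw [h0, trace_zero, zero_smul, show x.1 = 0 from ha, zero_add] at e
  exact Prod.ext ha (Prod.ext e h0)

include hrel hspan in
/-- **The factorisation through matrices.** -/
theorem exists_matrix_algHom (h2 : (2 : k) ≠ 0) :
    ∃ ψ : Matrix (Fin 2) (Fin 2) k →ₐ[k] Module.End k V, ∀ g, ψ (ρ g) = R g := by
  choose f hf hfB using relSpan_surj (d := d) (R := R) hspan
  have huniq : ∀ x ∈ relSpan d ρ R, f x.2.2 = x := fun x hx =>
    sub_eq_zero.mp (relSpan_eq_zero hrel hspan h2 ((relSpan d ρ R).sub_mem (hf _) hx) (by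
      simp [hfB]))
  have hone : f 1 = (1, 1, 1) := by
    have := huniq _ (Submodule.subset_span ⟨(1 : G), rfl⟩ : _ ∈ relSpan d ρ R)
    simpa using this
  let L : Matrix (Fin 2) (Fin 2) k →ₗ[k] Module.End k V :=
    { toFun := fun B => (f B).1
      map_add' := fun B C => by
        have := huniq _ (add_mem (hf B) (hf C))
        rw [Prod.snd_add, Prod.snd_add, hfB, hfB] at this
        rw [this, Prod.fst_add]
      map_smul' := fun c B => by
        have := huniq _ (Submodule.smul_mem _ c (hf B))
        rw [Prod.smul_snd, Prod.smul_snd, hfB] at this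
        rw [this, Prod.smul_fst, RingHom.id_apply] }
  refine ⟨AlgHom.ofLinearMap L ?_ ?_, fun g => ?_⟩
  · show (f 1).1 = 1
    rw [hone]
  · intro B C
    have := huniq _ (relSpan_mul (hf B) (hf C))
    simp only [hfB] at this
    show (f (B * C)).1 = _
    rw [this]
    rfl
  · show (f (ρ g)).1 = R g
    have := huniq _ (Submodule.subset_span ⟨g, rfl⟩ : _ ∈ relSpan d ρ R)
    exact congrArg Prod.fst this

end Fermat.Agent.AtP
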