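import Fermat.Agent.TWHyp.Curve
import Fermat.Agent.HeckeAlg.FiniteLevel

/-!
# The matrices of the Galois action on the `p`-torsion of a curve
-/

set_option autoImplicit false

noncomputable section

open Matrix WeierstrassCurve WeierstrassCurve.Affine
open scoped WeierstrassCurve.Affine

namespace Fermat.Agent.AtP

open GaloisBasics (Qbar GalQ)
open TWHyp (residualRep basisOf Eig IsTWRep)
open RepTheory (matRep matRep_apply det_matRep trace_matRep IsFull mapRep)

variable (W : WeierstrassCurve ℤ) (hΔ : W.Δ ≠ 0) (p : ℕ) [Fact p.Prime]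

/-- The matrices of the Galois action on `W[p]`. -/
def curveRep : GalQ →* Matrix (Fin 2) (Fin 2) (ZMod p) :=
  matRep (basisOf (residualRep W hΔ p)) (residualRep W hΔ p).ρ

/-- Its determinant. -/
def curveDet : GalQ →* ZMod p :=
  (Matrix.detMonoidHom (R := ZMod p) (n := Fin 2)).comp (curveRep W hΔ p)

/-- The representation on `W[p]` factors through a finite level. -/
lemma curveRep_finiteLevel : GaloisFactorsThroughFiniteLevel (curveRep W hΔ p) := by
  obtain ⟨L, hL, h⟩ := (residualRep W hΔ p).factorsThroughFiniteLevel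
  exact ⟨L, hL, fun σ hσ => by rw [curveRep, matRep_apply, h σ hσ, Module.End.one_eq_id,
    LinearMap.toMatrix_id]⟩

/-- Trace and determinant of Frobenius on `W[p]` at a good prime. -/
lemma curveRep_frobenius {q : ℕ} (hq : q.Prime) (hqp : q ≠ p) (hgood : W.IsGoodPrimeFor q)
    {A : ValuationSubring Qbar} (hA : A.LiesOverPrime q) {φ : GalQ} (hφ : A.IsFrobeniusAt φ q) :
    (curveRep W hΔ p φ).trace = (W.apOfModel q : ZMod p) ∧
      curveDet W hΔ p φ = (q : ZMod p) := by
  obtain ⟨h1, h2⟩ := TWHyp.frobenius_trace_det W hq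
    (fun h => hqp ((Nat.prime_dvd_prime_iff_eq hq Fact.out).mp h)) hgood hA hφ
  exact ⟨(trace_matRep _ _ φ).trans h1,
    (det_matRep (basisOf (residualRep W hΔ p)) (residualRep W hΔ p).ρ φ).trans h2⟩

variable {p}

lemma det_curveRep_complexConjugation : (curveRep W hΔ p complexConjugation).det = -1 := by
  have hp : p ≠ 0 := (Fact.out : p.Prime).ne_zero
  have hcyc : ∀ μ : Qbar, μ ^ p = 1 → complexConjugation μ = μ ^ (p - 1) := fun μ hμ =>
    Oddness.algEquiv_involution_apply_pow_eq complexConjugation_mul_self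
      Oddness.complexConjugation_ne_one hp hμ
  have h1 := (TWHyp.residualRep_detIsCyclotomic (p := p) W hΔ).2 1 complexConjugation (p - 1)
    (by simpa using hcyc)
  rw [pow_one, ZMod.natCast_self, Ideal.mem_span_singleton, zero_dvd_iff, sub_eq_zero] at h1
  rw [curveRep, det_matRep]
  refine h1.trans ?_
  rw [Nat.cast_sub (Nat.one_le_iff_ne_zero.mpr hp), ZMod.natCast_self, Nat.cast_one, zero_sub]

/-- **Burnside.** -/
theorem span_curveRep (hp2 : p ≠ 2) (hirr : W.ModRepIsIrreducible p) :
    Submodule.span (ZMod p) (Set.range (curveRep W hΔ p)) = ⊤ := by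
  set ρ := residualRep W hΔ p
  set b := basisOf ρ
  have h2 : (2 : ZMod p) ≠ 0 := TWHyp.two_ne_zero_of_ne_two hp2
  have hcc : curveRep W hΔ p complexConjugation *
      curveRep W hΔ p complexConjugation = 1 := by
    rw [← map_mul, complexConjugation_mul_self, map_one]
  have hirr' : ∀ w : Fin 2 → ZMod p, w ≠ 0 → ∃ g, ¬ Eig (curveRep W hΔ p g) w := by
    intro w hw
    by_contra hcon
    push Not at hcon
    set u := b.equivFun.symm w with hu
    have hu0 : u ≠ 0 := (LinearEquiv.map_ne_zero_iff _).mpr hw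
    have hw' : b.equivFun u = w := by rw [hu, LinearEquiv.apply_symm_apply]
    have hst : ∀ σ, ∀ x ∈ Submodule.span (ZMod p) {u}, ρ.ρ σ x ∈ Submodule.span (ZMod p) {u} := by
      intro σ x hx
      obtain ⟨t, rfl⟩ := Submodule.mem_span_singleton.mp hx
      obtain ⟨a, ha⟩ := hcon σ
      refine Submodule.mem_span_singleton.mpr ⟨t * a, ?_⟩
      rw [map_smul, mul_smul]
      congr 1
      apply b.equivFun.injective
      rw [map_smul, hw', ← ha, curveRep, matRep_apply, ← hw', Module.Basis.equivFun_apply,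
        Module.Basis.equivFun_apply]
      exact LinearMap.toMatrix_mulVec_repr b b (ρ.ρ σ) u
    rcases TWHyp.residualRep_isIrreducible W hΔ p hirr _ hst with e | e
    · exact hu0 (by simpa using e)
    · have h1 := finrank_span_singleton (K := ZMod p) hu0
      rw [e, finrank_top, ρ.finrank_eq] at h1
      omega
  let K := AlgebraicClosure (ZMod p)
  have habs := TWHyp.abs_irreducible (algebraMap (ZMod p) K) h2 _ hcc
    (det_curveRep_complexConjugation W hΔ) hirr'
  have hfull : IsFull (mapRep (algebraMap (ZMod p) K) (curveRep W hΔ p)) := by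
    refine RepTheory.isFull_of_isAlgClosed _ fun U hU => ?_
    have hV : Module.finrank K (Fin 2 → K) = 2 := Module.finrank_fin_fun K
    refine ConductorLevel.eq_bot_or_top_of_no_stable_line hV
      ((Matrix.toLinAlgEquiv' (R := K) (n := Fin 2)).toAlgHom.toMonoidHom.comp
        (mapRep (algebraMap (ZMod p) K) (curveRep W hΔ p))) (fun v hv => ?_) U hU
    obtain ⟨g, hg⟩ := habs v hv
    exact ⟨g, fun a e => hg ⟨a, e⟩⟩
  exact hfull.of_map _

/-- A point fixed by Galois elements gives a vector fixed by their matrices. -/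
theorem exists_vector {x : Submodule.torsionBy ℤ ((W.map (Int.castRingHom ℚ))⁄Qbar).Point p}
    (hx : x ≠ 0) : ∃ v : Fin 2 → ZMod p, v ≠ 0 ∧
      ∀ σ : GalQ, σ • x = x → curveRep W hΔ p σ *ᵥ v = v := by
  set ρ := residualRep W hΔ p
  set b := basisOf ρ
  let x' : ρ.V := x
  refine ⟨b.equivFun x', fun h => hx ((LinearEquiv.map_eq_zero_iff _).mp h), fun σ hσ => ?_⟩
  rw [curveRep, matRep_apply, Module.Basis.equivFun_apply]
  refine (LinearMap.toMatrix_mulVec_repr b b (ρ.ρ σ) x').trans ?_
  rw [show ρ.ρ σ x' = x' from hσ]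

end Fermat.Agent.AtP

end
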