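import Fermat.Agent.AtP.ClassInput
import Fermat.Agent.AtP.ClassQuadratic
import Fermat.Agent.AtP.ClassResidual
import Fermat.Agent.KummerES.ModulesMain
import Fermat.Agent.EigenRep.QuadraticRep
import Fermat.Agent.Chebotarev.Basic

/-!
# The eigen classes as a sum of copies of `W[p]`

On the parabolic characters modulo `p` with the Hecke eigenvalues of `W`, conjugation factors
through the matrices of `W[p]`.  Hence a vector of `W[p]` gives an eigen class fixed by every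
automorphism fixing the vector, in each eigenspace of a commuting involution that is nonzero.
-/

set_option autoImplicit false

noncomputable section

open Matrix CongruenceSubgroup ModularCurve.Period
open scoped MatrixGroups

namespace Fermat.Agent.AtP

open GaloisBasics (Qbar GalQ)
open KummerES (ConjLevel transferChar)
open EigenRep (SatisfiesQuadratic satisfiesQuadratic_of_sq)

variable (W : WeierstrassCurve ℤ) (N p : ℕ) [NeZero N] [Fact p.Prime] (T : Finset ℕ)

/-- The parabolic characters modulo `p` with the eigenvalues of `W` outside `T`. -/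
def eigenPart : AddSubgroup (parabolicHoms ℤ (Gamma0 N) (ZMod p)) where
  carrier := {x | ∀ (ℓ : ℕ) [Fact ℓ.Prime] (hℓN : ¬ ℓ ∣ N), ℓ ∉ T →
    HeckeLattice.transfer hℓN x.1 = W.apOfModel ℓ • x.1}
  zero_mem' := fun ℓ _ hℓN _ => by simp
  add_mem' := fun {x y} hx hy ℓ _ hℓN hℓT => by
    rw [Submodule.coe_add, map_add, hx ℓ hℓN hℓT, hy ℓ hℓN hℓT, smul_add]
  neg_mem' := fun {x} hx ℓ _ hℓN hℓT => by
    rw [Submodule.coe_neg, map_neg, hx ℓ hℓN hℓT, smul_neg]

variable {W N p T}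

instance eigenPartModule : Module (ZMod p) (eigenPart W N p T) :=
  AddCommGroup.zmodModule fun x => Subtype.ext (Subtype.ext (AddMonoidHom.ext fun γ => by
    show p • (x.1.1 γ) = 0
    rw [nsmul_eq_mul, ZMod.natCast_self, zero_mul]))

omit [NeZero N] in
/-- Membership in the eigen part: `T_ℓ` acts by `a_ℓ` outside `T`. -/
lemma mem_eigenPart {x : parabolicHoms ℤ (Gamma0 N) (ZMod p)} :
    x ∈ eigenPart W N p T ↔ ∀ (ℓ : ℕ) [Fact ℓ.Prime] (hℓN : ¬ ℓ ∣ N), ℓ ∉ T →
      HeckeLattice.transfer hℓN x.1 = W.apOfModel ℓ • x.1 := Iff.rfl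

variable {L : ℕ} [NeZero L] (S : ConjLevel (Gamma0 N) N L)

omit [NeZero N] in
lemma galRep_mem_eigenPart (σ : GalQ) {x : parabolicHoms ℤ (Gamma0 N) (ZMod p)}
    (hx : x ∈ eigenPart W N p T) : S.galRep σ x ∈ eigenPart W N p T := by
  intro ℓ _ hℓN hℓT
  have h := S.galRep_transferChar (n := p) (KummerES.isStandard_gamma0 hℓN)
    (KummerES.heckeProd_gamma0System_eq hℓN)
    (KummerES.IsTwistFixed.one (KummerES.isDiagStable_gamma0 N)) (MonoidHom.id _) (fun γ => by simp)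
    (by rw [Gamma0_mem]; simp [ModularGroup.coe_T]) σ x
  rw [show transferChar (HeckeLattice.gamma0System N ℓ hℓN) x = W.apOfModel ℓ • x from
    Subtype.ext (hx ℓ hℓN hℓT), map_zsmul] at h
  exact (congrArg Subtype.val h).symm

/-- The action of the Galois group on the eigen part. -/
def eigenRep : GalQ →* Module.End (ZMod p) (eigenPart W N p T) where
  toFun σ := (((S.galRep (n := p) σ).comp (eigenPart W N p T).subtype).codRestrict
    (eigenPart W N p T) fun x => galRep_mem_eigenPart S σ x.2).toZModLinearMap p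
  map_one' := LinearMap.ext fun x => Subtype.ext (by
    show S.galRep (n := p) 1 x.1 = x.1
    rw [map_one]; rfl)
  map_mul' σ τ := LinearMap.ext fun x => Subtype.ext (by
    show S.galRep (n := p) (σ * τ) x.1 = S.galRep σ (S.galRep τ x.1)
    rw [map_mul]; rfl)

omit [NeZero N] in
@[simp] lemma coe_eigenRep (σ : GalQ) (x : eigenPart W N p T) :
    (eigenRep S σ x).1 = S.galRep σ x.1 := rfl

omit [NeZero N] in
lemma eigenRep_finiteLevel : GaloisFactorsThroughFiniteLevel (eigenRep S (W := W) (T := T) (p := p)) := by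
  obtain ⟨F, hF, h⟩ := S.galRep_finiteLevel (n := p)
  exact ⟨F, hF, fun σ hσ => LinearMap.ext fun x => Subtype.ext (by
    rw [coe_eigenRep, h σ hσ]; rfl)⟩

variable (hΔ : W.Δ ≠ 0) (hS : HasFrobeniusRelation S p)
  (hT : ∀ q : ℕ, q.Prime → (q ∣ N ∨ q = p ∨ ¬ W.IsGoodPrimeFor q) → q ∈ T)

omit [NeZero N] in
lemma matrix_quadratic {k : Type*} [Field k] {G : Type*} [Group G]
    (f : G →* Matrix (Fin 2) (Fin 2) k) (g : G) :
    Matrix.toLinAlgEquiv' (f g) + (f g).det • Matrix.toLinAlgEquiv' (f g⁻¹) =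
      (f g).trace • (1 : Module.End k (Fin 2 → k)) := by
  have e : f g + (f g).det • f g⁻¹ = (f g).trace • (1 : Matrix (Fin 2) (Fin 2) k) := by
    have h : f g * f g - (f g).trace • f g + (f g).det • 1 = 0 := by
      ext i j
      fin_cases i <;> fin_cases j <;>
        simp [Matrix.mul_apply, Matrix.trace_fin_two, Matrix.det_fin_two, Fin.sum_univ_two] <;>
        ring
    have hinv : f g * f g⁻¹ = 1 := by rw [← map_mul, mul_inv_cancel, map_one]
    have := congrArg (· * f g⁻¹) h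
    simp only [add_mul, sub_mul, smul_mul_assoc, one_mul, zero_mul, mul_assoc, hinv, mul_one] at this
    rwa [sub_add_eq_add_sub, sub_eq_zero] at this
  have := congrArg (Matrix.toLinAlgEquiv' (R := k) (n := Fin 2)) e
  rwa [map_add, map_smul, map_smul, map_one] at this

omit [NeZero N] in
include hS hT in
/-- The relation at Frobenius elements. -/
theorem eigenRep_frobenius {ℓ : ℕ} (hℓ : ℓ.Prime) (hℓT : ℓ ∉ T) {A : ValuationSubring Qbar}
    (hA : A.LiesOverPrime ℓ) {φ : GalQ} (hφ : A.IsFrobeniusAt φ ℓ) :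
    eigenRep S (W := W) (T := T) φ + curveDet W hΔ p φ • eigenRep S φ⁻¹ =
      (curveRep W hΔ p φ).trace • (1 : Module.End (ZMod p) (eigenPart W N p T)) := by
  have := Fact.mk hℓ
  have hℓN : ¬ ℓ ∣ N := fun h => hℓT (hT ℓ hℓ (Or.inl h))
  have hℓp : ℓ ≠ p := fun h => hℓT (hT ℓ hℓ (Or.inr (Or.inl h)))
  have hgood : W.IsGoodPrimeFor ℓ := by
    by_contra h; exact hℓT (hT ℓ hℓ (Or.inr (Or.inr h)))
  obtain ⟨htr, hdet⟩ := curveRep_frobenius W hΔ p hℓ hℓp hgood hA hφ
  refine satisfiesQuadratic_of_sq ?_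
  simp only [htr, hdet, Int.cast_smul_eq_zsmul, Nat.cast_smul_eq_nsmul]
  refine LinearMap.ext fun x => Subtype.ext (Subtype.ext ?_)
  have hℓp' : ¬ ℓ ∣ p := fun h => hℓp ((Nat.prime_dvd_prime_iff_eq hℓ Fact.out).mp h)
  have h := hS ℓ inferInstance hℓN hℓp' A hA φ hφ x.1
  rw [(galRep_mem_eigenPart S φ x.2) ℓ hℓN hℓT] at h
  simp only [LinearMap.add_apply, LinearMap.sub_apply, LinearMap.smul_apply,
    Module.End.mul_apply, Module.End.one_apply, LinearMap.zero_apply, AddSubgroup.coe_add,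
    AddSubgroupClass.coe_sub, AddSubgroupClass.coe_zsmul, AddSubmonoidClass.coe_nsmul,
    ZeroMemClass.coe_zero, coe_eigenRep, Submodule.coe_add]
  exact h

/-- Frobenius density for the characteristic relation. -/
theorem rel_of_frobenius {k : Type} [Field k] {V : Type} [AddCommGroup V] [Module k V]
    (R : GalQ →* Module.End k V) (f : GalQ →* Matrix (Fin 2) (Fin 2) k)
    (hR : GaloisFactorsThroughFiniteLevel R) (hf : GaloisFactorsThroughFiniteLevel f)
    (T : Finset ℕ)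
    (hfrob : ∀ ℓ : ℕ, ℓ.Prime → ℓ ∉ T → ∀ A : ValuationSubring Qbar, A.LiesOverPrime ℓ →
      ∀ φ : GalQ, A.IsFrobeniusAt φ ℓ → R φ + (f φ).det • R φ⁻¹ = (f φ).trace • 1)
    (σ : GalQ) : R σ + (f σ).det • R σ⁻¹ = (f σ).trace • 1 := by
  let d : GalQ →* k := (Matrix.detMonoidHom (R := k) (n := Fin 2)).comp f
  let ρ : GalQ →* Module.End k (Fin 2 → k) :=
    (Matrix.toLinAlgEquiv' (R := k) (n := Fin 2)).toAlgHom.toMonoidHom.comp f
  let P : GalQ →* Module.End k (V × (Fin 2 → k)) :=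
    (LinearMap.prodMapRingHom k _ _).toMonoidHom.comp (R.prod ρ)
  have hP : ∀ g, P g = LinearMap.prodMap (R g) (ρ g) := fun g => rfl
  have hsnd : ∀ g, ρ g + d g • ρ g⁻¹ = (f g).trace • 1 := matrix_quadratic f
  obtain ⟨F, hF, -, hFix⟩ := HeckeAlg.exists_numberField_level hR hf
  have := hF
  have hPF : ∀ g : GalQ, (∀ x ∈ F, g x = x) → P g = 1 := fun g hg => by
    rw [hP, (hFix g hg).1, show ρ g = 1 by
      show Matrix.toLinAlgEquiv' (f g) = 1
      rw [(hFix g hg).2, map_one]]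
    exact LinearMap.prodMap_one
  have hdF : ∀ g : GalQ, (∀ x ∈ F, g x = x) → d g = 1 := fun g hg => by
    show (f g).det = 1
    rw [(hFix g hg).2, det_one]
  obtain ⟨ℓ, hℓ, hℓT, -, A, hA, τ, hτ, m, j, a, -, -, -, -, ha⟩ :=
    Chebotarev.exists_isFrobeniusAt_pow F σ T
  have hτP : P τ + d τ • P τ⁻¹ = (f τ).trace • 1 := by
    rw [hP, hP]
    refine LinearMap.ext fun x => Prod.ext ?_ ?_
    · exact LinearMap.congr_fun (hfrob ℓ hℓ hℓT A hA τ hτ) x.1
    · exact LinearMap.congr_fun (hsnd τ) x.2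
  obtain ⟨c, hc⟩ : SatisfiesQuadratic P d σ := by
    have hpow := SatisfiesQuadratic.pow (d := d) ⟨_, hτP⟩ a
    have e := Chebotarev.map_eq_of_eqOn hPF ha
    refine hpow.congr e ?_ (Chebotarev.map_eq_of_eqOn hdF ha)
    calc P σ⁻¹ = P σ⁻¹ * (P (τ ^ a) * P (τ ^ a)⁻¹) := by
          rw [← map_mul, ← map_mul, mul_inv_cancel, mul_one]
      _ = P σ⁻¹ * P σ * P (τ ^ a)⁻¹ := by rw [← mul_assoc, e]
      _ = P (τ ^ a)⁻¹ := by rw [← map_mul, inv_mul_cancel, map_one, one_mul]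
  have hc' : c = (f σ).trace := by
    have h1 := congrArg Prod.snd (LinearMap.congr_fun hc (0, fun _ => 1))
    have h2 := LinearMap.congr_fun (hsnd σ) (fun _ => 1)
    simp only [hP, LinearMap.add_apply, LinearMap.smul_apply, LinearMap.prodMap_apply, Prod.snd_add,
      Prod.smul_snd, Module.End.one_apply] at h1 h2
    rw [h2] at h1
    simpa using (congrFun h1 0).symm
  subst hc'
  exact LinearMap.ext fun x => congrArg Prod.fst (LinearMap.congr_fun hc (x, 0))

omit [NeZero N] in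
include hS hT in
/-- Conjugation satisfies the characteristic polynomials of `W[p]`. -/
theorem eigenRep_rel (σ : GalQ) :
    eigenRep S (W := W) (T := T) σ + curveDet W hΔ p σ • eigenRep S σ⁻¹ =
      (curveRep W hΔ p σ).trace • (1 : Module.End (ZMod p) (eigenPart W N p T)) :=
  rel_of_frobenius (eigenRep S (W := W) (T := T)) (curveRep W hΔ p) (eigenRep_finiteLevel S)
    (curveRep_finiteLevel W hΔ p) T
    (fun _ hℓ hℓT _ hA _ hφ => eigenRep_frobenius S hΔ hS hT hℓ hℓT hA hφ) σ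

omit [NeZero N] in
lemma exists_vecMulVec_apply_ne_zero {k V : Type} [Field k] [AddCommGroup V] [Module k V]
    (ψ : Matrix (Fin 2) (Fin 2) k →ₐ[k] Module.End k V) {w₀ : V} (hw₀ : w₀ ≠ 0) {v : Fin 2 → k}
    (hv : v ≠ 0) : ∃ w, ψ (vecMulVec v (Pi.single 0 1)) w ≠ 0 := by
  obtain ⟨i, hi⟩ := Function.ne_iff.mp hv
  set P : Matrix (Fin 2) (Fin 2) k := vecMulVec v (Pi.single 0 1) with hP
  have hone : (1 : Matrix (Fin 2) (Fin 2) k) =
      ∑ j, Matrix.single j i (v i)⁻¹ * P * Matrix.single 0 j 1 := by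
    ext a b
    fin_cases a <;> fin_cases b <;>
      simp [hP, Matrix.mul_apply, Fin.sum_univ_two, Matrix.single, vecMulVec] <;>
      fin_cases i <;> simp_all
  by_contra hcon
  push Not at hcon
  have h0 : ψ P = 0 := LinearMap.ext hcon
  refine hw₀ ?_
  have h1 : (1 : Module.End k V) = 0 := by
    rw [← map_one ψ, hone, map_sum]
    exact Finset.sum_eq_zero fun j _ => by rw [map_mul, map_mul, h0, mul_zero, zero_mul]
  exact LinearMap.congr_fun h1 w₀

omit [NeZero N] in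
/-- If `R = ψ ∘ ρ`, one nonzero vector is fixed by `R g` whenever `ρ g` fixes `v`. -/
lemma exists_fixed_vector {k V : Type} [Field k] [AddCommGroup V] [Module k V] {G : Type} [Group G]
    {ρ : G →* Matrix (Fin 2) (Fin 2) k} {R : G →* Module.End k V}
    {ψ : Matrix (Fin 2) (Fin 2) k →ₐ[k] Module.End k V} (hψ : ∀ g, ψ (ρ g) = R g)
    {w₀ : V} (hw₀ : w₀ ≠ 0) {v : Fin 2 → k} (hv : v ≠ 0) :
    ∃ y : V, y ≠ 0 ∧ ∀ g, ρ g *ᵥ v = v → R g y = y := by
  obtain ⟨w, hw⟩ := exists_vecMulVec_apply_ne_zero ψ hw₀ hv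
  refine ⟨_, hw, fun g hg => ?_⟩
  have h1 : ψ (ρ g) * ψ (vecMulVec v (Pi.single 0 1)) = ψ (vecMulVec v (Pi.single 0 1)) := by
    rw [← map_mul, mul_vecMulVec, hg]
  rw [← hψ]
  exact LinearMap.congr_fun h1 w

omit [NeZero N] in
include hΔ hS hT in
/-- **An eigen class fixed with a given vector of `W[p]`.** -/
theorem exists_fixed_eigen (hp2 : p ≠ 2) (hirr : W.ModRepIsIrreducible p)
    (hne : ∃ x ∈ eigenPart W N p T, x ≠ 0)
    (J : parabolicHoms ℤ (Gamma0 N) (ZMod p) →+ parabolicHoms ℤ (Gamma0 N) (ZMod p))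
    (hJ : ∀ x, J (J x) = x) (hJT : ∀ x ∈ eigenPart W N p T, J x ∈ eigenPart W N p T)
    (hJS : ∀ σ x, S.galRep σ (J x) = J (S.galRep σ x)) {v : Fin 2 → ZMod p} (hv : v ≠ 0) :
    ∃ x ∈ eigenPart W N p T, ∃ α : ℤ, x ≠ 0 ∧ (α = 1 ∨ α = -1) ∧ J x = α • x ∧
      ∀ σ : GalQ, curveRep W hΔ p σ *ᵥ v = v → S.galRep σ x = x := by
  have h2 : (2 : ZMod p) ≠ 0 := TWHyp.two_ne_zero_of_ne_two hp2
  obtain ⟨ψ, hψ⟩ := exists_matrix_algHom (d := curveDet W hΔ p) (ρ := curveRep W hΔ p) (R := eigenRep S (W := W) (T := T) (p := p))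
    (eigenRep_rel S hΔ hS hT) (span_curveRep W hΔ hp2 hirr) h2
  obtain ⟨w₀, hw₀T, hw₀⟩ := hne
  obtain ⟨y, hy, hyfix⟩ := exists_fixed_vector hψ
    (w₀ := (⟨w₀, hw₀T⟩ : eigenPart W N p T)) (fun h => hw₀ (congrArg Subtype.val h)) hv
  obtain ⟨x, hxT⟩ := y
  have hxne : x ≠ 0 := fun h => hy (Subtype.ext h)
  have hfix : ∀ σ : GalQ, curveRep W hΔ p σ *ᵥ v = v → S.galRep σ x = x := fun σ hσ =>
    (coe_eigenRep S σ ⟨x, hxT⟩).symm.trans (congrArg Subtype.val (hyfix σ hσ))
  by_cases hplus : x + J x = 0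
  · refine ⟨x, hxT, -1, hxne, Or.inr rfl, ?_, hfix⟩
    rw [neg_smul, one_smul]
    exact eq_neg_of_add_eq_zero_right hplus
  · refine ⟨x + J x, add_mem hxT (hJT x hxT), 1, hplus, Or.inl rfl, ?_, fun σ hσ => ?_⟩
    · rw [map_add, hJ, one_smul, add_comm]
    · rw [map_add, hJS, hfix σ hσ]

end Fermat.Agent.AtP

end
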