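import Fermat.Agent.HeckeLattice.Parabolic

/-!
# Transfers between two congruence groups

`Reps Γ Γ' P` is a family of matrices `β p` such that right multiplication by `Γ'` permutes the
cosets `Γ β p`; it induces `transfer : Hom(Γ, B) → Hom(Γ', B)`.  This covers the coset systems of
`HeckeLattice`, conjugations, restrictions and corestrictions, and is closed under composition.
-/

set_option autoImplicit false

noncomputable section

namespace Fermat.Agent.AtP

open Matrix.SpecialLinearGroup (mapGL mapGL_injective)
open ModularCurve.Period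
open HeckeLattice (toGL toGL_mul toGL_one toGL_injective)
open scoped MatrixGroups

/-- Representatives whose `Γ`-cosets are permuted by right multiplication by `Γ'`. -/
structure Reps (Γ Γ' : Subgroup SL(2, ℤ)) (P : Type*) where
  /-- The representatives. -/
  β : P → GL (Fin 2) ℝ
  exists_mul : ∀ (γ : Γ') (x : P), ∃ q : P × Γ, β x * toGL γ = toGL q.2 * β q.1
  inj : ∀ (g : Γ) (x y : P), toGL g * β x = β y → x = y

namespace Reps

variable {Γ Γ' Γ'' : Subgroup SL(2, ℤ)} {P Q : Type*}

/-- A coset system is a family of representatives from `Γ` to itself. -/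
def ofCosetSystem {ι : Type*} (D : HeckeLattice.CosetSystem Γ ι) : Reps Γ Γ ι where
  β := D.β
  exists_mul := D.exists_mul
  inj g x y h := D.inj g x y h

variable (C : Reps Γ Γ' P)

/-- The permutation of the representatives induced by `γ`. -/
def next (γ : Γ') (x : P) : P := (C.exists_mul γ x).choose.1

/-- The element of `Γ` moved to the left by `γ`. -/
def cocycle (γ : Γ') (x : P) : Γ := (C.exists_mul γ x).choose.2

/-- Right multiplication of a representative by `γ`. -/
lemma rep_mul (γ : Γ') (x : P) :
    C.β x * toGL γ = toGL (C.cocycle γ x) * C.β (C.next γ x) :=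
  (C.exists_mul γ x).choose_spec

/-- The permutation and the cocycle are determined by their equation. -/
lemma eq_of_rep_mul {γ : Γ'} {g : Γ} {x y : P} (h : C.β x * toGL γ = toGL g * C.β y) :
    C.next γ x = y ∧ C.cocycle γ x = g := by
  rw [C.rep_mul γ x] at h
  have hy : C.next γ x = y := by
    refine C.inj (g⁻¹ * C.cocycle γ x) _ _ ?_
    rw [toGL_mul, mul_assoc, show toGL g⁻¹ = (toGL g)⁻¹ from map_inv (mapGL ℝ) _]
    exact inv_mul_eq_of_eq_mul h
  refine ⟨hy, toGL_injective ?_⟩
  rw [hy] at h
  exact mul_right_cancel h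

/-- Right multiplication of a representative by a product. -/
lemma rep_mul_mul (γ δ : Γ') (x : P) :
    C.β x * toGL (γ * δ) = toGL (C.cocycle γ x * C.cocycle δ (C.next γ x))
      * C.β (C.next δ (C.next γ x)) := by
  rw [toGL_mul, ← mul_assoc, C.rep_mul γ x, mul_assoc, C.rep_mul δ (C.next γ x), ← mul_assoc,
    toGL_mul]

/-- The permutations compose. -/
lemma next_mul (γ δ : Γ') (x : P) : C.next (γ * δ) x = C.next δ (C.next γ x) :=
  (C.eq_of_rep_mul (C.rep_mul_mul γ δ x)).1

/-- The cocycle relation. -/
lemma cocycle_mul (γ δ : Γ') (x : P) :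
    C.cocycle (γ * δ) x = C.cocycle γ x * C.cocycle δ (C.next γ x) :=
  (C.eq_of_rep_mul (C.rep_mul_mul γ δ x)).2

/-- The identity fixes the representatives. -/
lemma next_one (x : P) : C.next 1 x = x :=
  (C.eq_of_rep_mul (g := 1) (by simp)).1

/-- The cocycle at the identity is trivial. -/
lemma cocycle_one (x : P) : C.cocycle 1 x = 1 :=
  (C.eq_of_rep_mul (g := 1) (y := x) (by simp)).2

/-- `next γ` as a permutation. -/
def nextPerm (γ : Γ') : Equiv.Perm P where
  toFun := C.next γ
  invFun := C.next γ⁻¹
  left_inv x := by rw [← next_mul, mul_inv_cancel, next_one]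
  right_inv x := by rw [← next_mul, inv_mul_cancel, next_one]

section transfer

variable [Fintype P] {B : Type*} [AddCommGroup B]

/-- The induced map on homomorphisms. -/
def transfer : (Additive Γ →+ B) →+ (Additive Γ' →+ B) where
  toFun χ :=
    { toFun := fun γ => ∑ x : P, χ (Additive.ofMul (C.cocycle (Additive.toMul γ) x))
      map_zero' := Finset.sum_eq_zero fun x _ => by
        rw [toMul_zero, cocycle_one]; exact χ.map_zero
      map_add' := fun γ δ => by
        simp only [toMul_add, cocycle_mul, ofMul_mul, map_add, Finset.sum_add_distrib]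
        congr 1
        exact Equiv.sum_comp (C.nextPerm (Additive.toMul γ))
          (fun y => χ (Additive.ofMul (C.cocycle (Additive.toMul δ) y))) }
  map_zero' := AddMonoidHom.ext fun γ => by simp
  map_add' χ χ' := AddMonoidHom.ext fun γ => by simp [Finset.sum_add_distrib]

/-- The transfer is the sum over the cocycle. -/
@[simp] lemma transfer_apply (χ : Additive Γ →+ B) (γ : Γ') :
    C.transfer χ (Additive.ofMul γ) = ∑ x : P, χ (Additive.ofMul (C.cocycle γ x)) := rfl

end transfer

/-- Composition of families of representatives, when the products are still inequivalent. -/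
def comp (D : Reps Γ' Γ'' Q)
    (h : ∀ (g : Γ) (x y : P × Q), toGL g * (C.β x.1 * D.β x.2) = C.β y.1 * D.β y.2 → x = y) :
    Reps Γ Γ'' (P × Q) where
  β x := C.β x.1 * D.β x.2
  exists_mul γ x :=
    ⟨((C.next (D.cocycle γ x.2) x.1, D.next γ x.2), C.cocycle (D.cocycle γ x.2) x.1), by
      rw [mul_assoc, D.rep_mul, ← mul_assoc, C.rep_mul, mul_assoc]⟩
  inj := h

/-- The transfer of a composite is the composite of the transfers. -/
lemma transfer_comp [Fintype P] [Fintype Q] {B : Type*} [AddCommGroup B] (D : Reps Γ' Γ'' Q)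
    (h : ∀ (g : Γ) (x y : P × Q), toGL g * (C.β x.1 * D.β x.2) = C.β y.1 * D.β y.2 → x = y)
    (χ : Additive Γ →+ B) : (C.comp D h).transfer χ = D.transfer (C.transfer χ) := by
  refine AddMonoidHom.ext fun γ => ?_
  rw [← ofMul_toMul γ, transfer_apply, transfer_apply, Fintype.sum_prod_type_right]
  refine Finset.sum_congr rfl fun q _ => ?_
  rw [transfer_apply]
  refine Finset.sum_congr rfl fun p _ => ?_
  rw [((C.comp D h).eq_of_rep_mul (x := (p, q))
    (y := (C.next (D.cocycle (Additive.toMul γ) q) p, D.next (Additive.toMul γ) q))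
    (g := C.cocycle (D.cocycle (Additive.toMul γ) q) p) ?_).2]
  show C.β p * D.β q * toGL _ = toGL _ * (C.β _ * D.β _)
  rw [mul_assoc, D.rep_mul, ← mul_assoc, C.rep_mul, mul_assoc]

/-- Two families which agree up to `Γ` on the left induce the same transfer. -/
theorem transfer_eq_of_reindex [Fintype P] [Fintype Q] {B : Type*} [AddCommGroup B]
    (C' : Reps Γ Γ' Q) (hcard : Fintype.card P = Fintype.card Q)
    (hex : ∀ x, ∃ (y : Q) (g : Γ), C.β x = toGL g * C'.β y) :
    (C.transfer : (Additive Γ →+ B) →+ _) = C'.transfer := by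
  choose e g hg using hex
  have hinj : Function.Injective e := by
    intro x y hxy
    refine C.inj (g y * (g x)⁻¹) x y ?_
    rw [hg x, hg y, hxy, toGL_mul, show toGL (g x)⁻¹ = (toGL (g x))⁻¹ from map_inv (mapGL ℝ) _]
    group
  have hbij : Function.Bijective e :=
    (Fintype.bijective_iff_injective_and_card e).mpr ⟨hinj, hcard⟩
  refine AddMonoidHom.ext fun χ => AddMonoidHom.ext fun γ => ?_
  rw [← ofMul_toMul γ, transfer_apply, transfer_apply]
  set γ₀ := Additive.toMul γ
  have hnext : ∀ x, e (C.next γ₀ x) = C'.next γ₀ (e x) ∧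
      C.cocycle γ₀ x = g x * C'.cocycle γ₀ (e x) * (g (C.next γ₀ x))⁻¹ := by
    intro x
    obtain ⟨x', hx'⟩ := hbij.2 (C'.next γ₀ (e x))
    have key : C.β x * toGL γ₀ = toGL (g x * C'.cocycle γ₀ (e x) * (g x')⁻¹) * C.β x' := by
      rw [hg x, hg x', mul_assoc, C'.rep_mul, hx', toGL_mul, toGL_mul,
        show toGL (g x')⁻¹ = (toGL (g x'))⁻¹ from map_inv (mapGL ℝ) _]
      group
    obtain ⟨h1, h2⟩ := C.eq_of_rep_mul key
    rw [h1]
    exact ⟨hx', h2⟩
  calc ∑ x, χ (Additive.ofMul (C.cocycle γ₀ x))
      = ∑ x, (χ (Additive.ofMul (g x)) + χ (Additive.ofMul (C'.cocycle γ₀ (e x)))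
          - χ (Additive.ofMul (g (C.next γ₀ x)))) := by
        refine Finset.sum_congr rfl fun x _ => ?_
        rw [(hnext x).2, ofMul_mul, ofMul_mul, map_add, map_add, ofMul_inv, map_neg]
        abel
    _ = ∑ x, χ (Additive.ofMul (C'.cocycle γ₀ x)) := by
        rw [Finset.sum_sub_distrib, Finset.sum_add_distrib,
          hbij.sum_comp (fun y => χ (Additive.ofMul (C'.cocycle γ₀ y))),
          show ∑ x, χ (Additive.ofMul (g (C.next γ₀ x))) = ∑ x, χ (Additive.ofMul (g x)) from
            Equiv.sum_comp (C.nextPerm γ₀) (fun y => χ (Additive.ofMul (g y)))]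
        abel

section parabolic

/-- The permutation of a power is the iterate. -/
lemma next_pow (γ : Γ') (i : ℕ) (x : P) : C.next (γ ^ i) x = (C.next γ)^[i] x := by
  induction i with
  | zero => rw [pow_zero, next_one]; rfl
  | succ i ih => rw [pow_succ, next_mul, ih, Function.iterate_succ_apply']

/-- A homomorphism at the cocycle of a power is the sum along the orbit. -/
lemma apply_cocycle_pow {B : Type*} [AddCommGroup B] (χ : Additive Γ →+ B) (γ : Γ') (x : P) :
    ∀ i : ℕ, χ (Additive.ofMul (C.cocycle (γ ^ i) x))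
      = ∑ j ∈ Finset.range i, χ (Additive.ofMul (C.cocycle γ ((C.next γ)^[j] x)))
  | 0 => by rw [pow_zero, cocycle_one]; simp
  | (i + 1) => by
      rw [pow_succ, cocycle_mul, ofMul_mul, map_add, apply_cocycle_pow χ γ x i, next_pow,
        Finset.sum_range_succ]

/-- At a fixed representative the cocycle keeps the trace. -/
lemma trace_cocycle_of_next_eq (δ : Γ') (x : P) (h : C.next δ x = x) :
    ((C.cocycle δ x : Γ) : Matrix (Fin 2) (Fin 2) ℤ).trace
      = ((δ : SL(2, ℤ)) : Matrix (Fin 2) (Fin 2) ℤ).trace := by
  have h1 := C.rep_mul δ x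
  rw [h] at h1
  have h2 : toGL (C.cocycle δ x) = C.β x * toGL δ * (C.β x)⁻¹ := eq_mul_inv_of_mul_eq h1.symm
  have h3 := congrArg (fun A : GL (Fin 2) ℝ => (A : Matrix (Fin 2) (Fin 2) ℝ).trace) h2
  rw [Units.val_mul, Units.val_mul, Matrix.trace_units_conj] at h3
  simp only [HeckeLattice.toGL] at h3
  simp only [Matrix.trace_fin_two] at h3 ⊢
  simp at h3
  exact_mod_cast h3

/-- Transfers preserve parabolic homomorphisms. -/
theorem transfer_isParabolicHom [Fintype P] {B : Type*} [AddCommGroup B] {χ : Additive Γ →+ B}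
    (hχ : IsParabolicHom Γ χ) : IsParabolicHom Γ' (C.transfer χ) := by
  classical
  intro γ hγ
  set f := C.next γ with hf
  have hinj : Function.Injective f := (C.nextPerm γ).injective
  have key : ∀ s : Finset P, (∀ x ∈ s, f x ∈ s) →
      ∑ x ∈ s, χ (Additive.ofMul (C.cocycle γ x)) = 0 := by
    intro s
    induction s using Finset.strongInduction with
    | H s ih =>
      intro hs
      rcases s.eq_empty_or_nonempty with rfl | ⟨x, hx⟩
      · rfl
      set m := Function.minimalPeriod f x with hm
      have hm0 : 0 < m :=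
        Function.minimalPeriod_pos_of_mem_periodicPts (hinj.mem_periodicPts x)
      set O := (Finset.range m).image (fun i => f^[i] x) with hO
      have hit : ∀ i, f^[i] x ∈ s := fun i => by
        induction i with
        | zero => exact hx
        | succ i hi => rw [Function.iterate_succ_apply']; exact hs _ hi
      have hOs : O ⊆ s := by
        intro y hy
        obtain ⟨i, -, rfl⟩ := Finset.mem_image.mp hy
        exact hit i
      have hmem : ∀ i, f^[i] x ∈ O := fun i => Finset.mem_image.mpr
        ⟨i % m, Finset.mem_range.mpr (Nat.mod_lt _ hm0), Function.iterate_mod_minimalPeriod_eq⟩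
      have hback : ∀ y, f y ∈ O → y ∈ O := by
        intro y hy
        obtain ⟨i, hi, hiy⟩ := Finset.mem_image.mp hy
        have h1 : f (f^[i + (m - 1)] x) = f y := by
          rw [← Function.iterate_succ_apply' f, show (i + (m - 1)).succ = i + m by omega,
            Function.iterate_add_apply, Function.iterate_minimalPeriod, hiy]
        rw [← hinj h1]
        exact hmem _
      have hsum : ∑ y ∈ O, χ (Additive.ofMul (C.cocycle γ y)) = 0 := by
        rw [hO, Finset.sum_image (fun a ha b hb hab => by
          simp only [Finset.coe_range, Set.mem_Iio] at ha hb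
          exact Function.iterate_injOn_Iio_minimalPeriod ha hb hab),
          ← C.apply_cocycle_pow χ γ x m]
        refine hχ _ ?_
        rw [C.trace_cocycle_of_next_eq _ x
          (by rw [C.next_pow]; exact Function.iterate_minimalPeriod)]
        push_cast
        simpa using HeckeLattice.trace_pow_sq_eq_four (γ : SL(2, ℤ)) hγ m
      have hrest : ∑ y ∈ s \ O, χ (Additive.ofMul (C.cocycle γ y)) = 0 := by
        refine ih _ (Finset.sdiff_ssubset hOs ⟨x, hmem 0⟩) fun y hy => ?_
        rw [Finset.mem_sdiff] at hy ⊢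
        exact ⟨hs y hy.1, fun h => hy.2 (hback y h)⟩
      rw [← Finset.sum_sdiff hOs, hrest, hsum, add_zero]
  rw [transfer_apply]
  exact key Finset.univ fun x _ => Finset.mem_univ _

end parabolic

end Reps

end Fermat.Agent.AtP
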