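import Mathlib.Data.Nat.Prime.Int
import Fermat.Prelude.Sol.S_ModularForm_heckeU_slash_eq_self_of_mem_Gamma0
import Fermat.Agent.Newforms.Matrices
import Fermat.Agent.AtP.LevelReps

/-!
# `U_r`, `W_r` and the corestriction on homomorphisms of `Γ₀(r M)`, `r ∤ M`

The families of representatives and their identities:
* `res (cor χ) = χ + U (W χ)`;
* `W (W χ) = χ`;
* `T_ℓ` commutes with `W` and with the corestriction.
-/

set_option autoImplicit false

noncomputable section

namespace Fermat.Agent.AtP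

open Matrix.SpecialLinearGroup (mapGL mapGL_injective)
open CongruenceSubgroup ModularForm ModularCurve.Period
open HeckeLattice (toGL toGL_mul toGL_one Idx rep)
open Newforms (alW alSL trRep exists_trRep trRep_inj exists_alW_mul exists_alW_mul_self scalarGL
  val_scalarGL val_alW mem_Gamma0_iff)
open scoped MatrixGroups OnePoint

lemma scalarGL_comm {q : ℕ} (hq : q ≠ 0) (A : GL (Fin 2) ℝ) : scalarGL q * A = A * scalarGL q := by
  ext i j
  fin_cases i <;> fin_cases j <;>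
    simp [val_scalarGL hq, Matrix.mul_apply, Fin.sum_univ_two] <;> ring

section U

variable {r M : ℕ} [hr : Fact r.Prime]

theorem exists_uRep_mul (γ : Gamma0 (r * M)) (j : ZMod r) :
    ∃ q : ZMod r × Gamma0 (r * M),
      heckeMatrix r j.val * toGL γ = toGL q.2 * heckeMatrix r q.1.val := by
  have hγ : ((r * M : ℕ) : ℤ) ∣ (γ : SL(2, ℤ)) 1 0 := mem_Gamma0_iff.mp γ.2
  obtain ⟨g', hg', hmul⟩ :=
    P2MW.S_ModularForm_heckeU_slash_eq_self_of_mem_Gamma0.ModularForm.HeckeSlashInvariance.heckeMatrix_mul_of_dvd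
      (γ : SL(2, ℤ)) (dvd_trans (Int.natCast_dvd_natCast.mpr (dvd_mul_right r M)) hγ) j
  exact ⟨(_, ⟨g', mem_Gamma0_iff.mpr (hg' ▸ dvd_mul_of_dvd_right hγ _)⟩), hmul⟩

/-- The coset system of `U_r` on `Γ₀(r M)`. -/
def uSystem (r M : ℕ) [Fact r.Prime] : HeckeLattice.CosetSystem (Gamma0 (r * M)) (ZMod r) where
  β j := heckeMatrix r j.val
  exists_mul := exists_uRep_mul
  inj u x y h := OnePoint.coe_injective
    (HeckeLattice.eq_of_mapGL_mul_rep (ℓ := r) u (x := (x : Idx r)) (y := (y : Idx r)) h)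

/-- The representatives of `U_r`. -/
abbrev uReps (r M : ℕ) [Fact r.Prime] : Reps (Gamma0 (r * M)) (Gamma0 (r * M)) (ZMod r) :=
  Reps.ofCosetSystem (uSystem r M)

end U

section AL

variable {r M : ℕ} [hr : Fact r.Prime] {b d : ℤ} (h : (r : ℤ) * d - (M : ℤ) * b = 1)

/-- Conjugation by the Atkin-Lehner matrix. -/
def alReps : Reps (Gamma0 (r * M)) (Gamma0 (r * M)) Unit where
  β _ := alW r M b d h
  exists_mul γ x := by
    obtain ⟨g', hg', hmul⟩ := exists_alW_mul h hr.out.ne_zero _ (mem_Gamma0_iff.mp γ.2)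
    exact ⟨(x, ⟨g', mem_Gamma0_iff.mpr hg'⟩), hmul⟩
  inj _ _ _ _ := Subsingleton.elim _ _

/-- The corestriction from `Γ₀(r M)` to `Γ₀(M)`. -/
def corReps (hrM : ¬ r ∣ M) : Reps (Gamma0 (r * M)) (Gamma0 M) (Option (Fin r)) where
  β x := mapGL ℝ (trRep h x)
  exists_mul γ x := by
    have hR : (M : ℤ) ∣ (trRep h x) 1 0 := by
      rcases x with _ | j <;> simp [trRep]
    obtain ⟨y, g, hg, hmul⟩ := exists_trRep h hr.out hrM (trRep h x * (γ : SL(2, ℤ)))
      (mem_Gamma0_iff.mp (mul_mem (mem_Gamma0_iff.mpr hR) γ.2))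
    refine ⟨(y, ⟨g, mem_Gamma0_iff.mpr hg⟩), ?_⟩
    simp only [toGL, ← map_mul, hmul]
  inj g x y e := by
    rw [toGL, ← map_mul] at e
    exact (trRep_inj h hr.out hrM y x g (mem_Gamma0_iff.mp g.2) (mapGL_injective e).symm).symm

/-- The inclusion `Γ₀(r M) → Γ₀(M)`. -/
def inclGamma0 (r M : ℕ) : Gamma0 (r * M) →* Gamma0 M :=
  Subgroup.inclusion fun _ hg =>
    mem_Gamma0_iff.mpr ((Int.natCast_dvd_natCast.mpr (dvd_mul_left M r)).trans (mem_Gamma0_iff.mp hg))

/-- Restriction of homomorphisms. -/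
def resHom (r M : ℕ) {B : Type*} [AddCommGroup B] :
    (Additive (Gamma0 M) →+ B) →+ (Additive (Gamma0 (r * M)) →+ B) :=
  AddMonoidHom.compHom'
    (MonoidHom.toAdditive (inclGamma0 r M))

omit hr in
/-- The values of a restricted homomorphism. -/
lemma resHom_apply {B : Type*} [AddCommGroup B] (χ : Additive (Gamma0 M) →+ B)
    (γ : Gamma0 (r * M)) :
    resHom r M χ (Additive.ofMul γ) = χ (Additive.ofMul (inclGamma0 r M γ)) := rfl

lemma alW_mul_heckeMatrix (j : Fin r) :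
    alW r M b d h * heckeMatrix r (j : ℕ) = mapGL ℝ (trRep h (some j)) * scalarGL r := by
  have hq := hr.out.ne_zero
  ext i k
  fin_cases i <;> fin_cases k <;>
    simp [val_alW h hq, val_scalarGL hq, trRep, hq, Matrix.mul_apply, Fin.sum_univ_two] <;> ring

/-- `res (cor χ) = χ + U (W χ)`. -/
theorem res_cor (hrM : ¬ r ∣ M) {B : Type*} [AddCommGroup B]
    (χ : Additive (Gamma0 (r * M)) →+ B) :
    resHom r M ((corReps h hrM).transfer χ) =
      χ + (uReps r M).transfer ((alReps h).transfer χ) := by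
  have hq := hr.out.ne_zero
  have hcast : ∀ j : ZMod r, mapGL ℝ (trRep h (some ⟨j.val, j.val_lt⟩)) * scalarGL r =
      alW r M b d h * heckeMatrix r j.val := fun j =>
    (alW_mul_heckeMatrix h ⟨j.val, j.val_lt⟩).symm
  let e : ZMod r → Fin r := fun j => ⟨j.val, j.val_lt⟩
  have he : Function.Bijective e :=
    (Fintype.bijective_iff_injective_and_card e).mpr
      ⟨fun x y hxy => ZMod.val_injective r (congrArg Fin.val hxy), by simp⟩
  refine AddMonoidHom.ext fun γ => ?_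
  rw [← ofMul_toMul γ, resHom_apply, Reps.transfer_apply, AddMonoidHom.add_apply,
    Reps.transfer_apply, Fintype.sum_option]
  set γ₀ := Additive.toMul γ
  congr 1
  · have key : (corReps h hrM).β none * toGL (inclGamma0 r M γ₀) = toGL γ₀ * (corReps h hrM).β none := by
      show mapGL ℝ (trRep h none) * mapGL ℝ (γ₀ : SL(2, ℤ)) =
        mapGL ℝ (γ₀ : SL(2, ℤ)) * mapGL ℝ (trRep h none)
      simp [trRep]
    rw [((corReps h hrM).eq_of_rep_mul key).2]
  · rw [← he.sum_comp]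
    refine Finset.sum_congr rfl fun j _ => ?_
    rw [Reps.transfer_apply, Fintype.sum_unique]
    set u := (uReps r M).cocycle γ₀ j
    set j' := (uReps r M).next γ₀ j with hj'
    have key : (corReps h hrM).β (some (e j)) * toGL (inclGamma0 r M γ₀) =
        toGL ((alReps h).cocycle u default) * (corReps h hrM).β (some (e j')) := by
      refine mul_right_cancel (b := scalarGL r) ?_
      show mapGL ℝ (trRep h (some (e j))) * mapGL ℝ (γ₀ : SL(2, ℤ)) * scalarGL r = _
      rw [mul_assoc, ← scalarGL_comm hq, ← mul_assoc, hcast, mul_assoc (alW r M b d h)]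
      show alW r M b d h * ((uReps r M).β j * toGL γ₀) = _
      rw [(uReps r M).rep_mul, ← mul_assoc]
      show (alReps h).β default * toGL u * (uReps r M).β j' = _
      rw [(alReps h).rep_mul, mul_assoc, mul_assoc]
      congr 1
      exact (hcast j').symm
    rw [((corReps h hrM).eq_of_rep_mul key).2]

/-- `W` is an involution on homomorphisms. -/
theorem al_al {B : Type*} [AddCommGroup B] (χ : Additive (Gamma0 (r * M)) →+ B) :
    (alReps h).transfer ((alReps h).transfer χ) = χ := by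
  have hq := hr.out.ne_zero
  obtain ⟨g, hg, hmul⟩ := exists_alW_mul_self h hq
  refine AddMonoidHom.ext fun γ => ?_
  rw [← ofMul_toMul γ, Reps.transfer_apply, Fintype.sum_unique, Reps.transfer_apply,
    Fintype.sum_unique]
  set γ₀ := Additive.toMul γ
  set c₁ := (alReps h).cocycle γ₀ default
  set c₂ := (alReps h).cocycle c₁ default
  let g₂ : Gamma0 (r * M) := ⟨g, mem_Gamma0_iff.mpr hg⟩
  have key : toGL (g₂ * γ₀) = toGL (c₂ * g₂) := by
    refine mul_right_cancel (b := scalarGL r) ?_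
    rw [toGL_mul, toGL_mul, mul_assoc, ← scalarGL_comm hq, ← mul_assoc, mul_assoc (toGL c₂)]
    show mapGL ℝ g * scalarGL r * toGL γ₀ = toGL c₂ * (mapGL ℝ g * scalarGL r)
    rw [← hmul, mul_assoc, ← mul_assoc (toGL c₂)]
    show (alReps h).β default * ((alReps h).β default * toGL γ₀) =
      toGL c₂ * (alReps h).β ((alReps h).next c₁ default) * (alReps h).β default
    rw [← (alReps h).rep_mul c₁ default, (alReps h).rep_mul γ₀ default, ← mul_assoc]
  have := congrArg (fun z => χ (Additive.ofMul z)) (HeckeLattice.toGL_injective key)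
  simp only [ofMul_mul, map_add] at this
  rw [add_comm] at this
  exact (add_right_cancel this).symm

/-- The relation on classes killed by the corestriction: `U χ = -W χ`. -/
theorem u_eq_neg_al (hrM : ¬ r ∣ M) {B : Type*} [AddCommGroup B]
    {χ : Additive (Gamma0 (r * M)) →+ B}
    (hW : (corReps h hrM).transfer ((alReps h).transfer χ) = 0) :
    (uReps r M).transfer χ = -(alReps h).transfer χ := by
  have e := res_cor h hrM ((alReps h).transfer χ)
  rw [hW, map_zero, al_al] at e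
  exact eq_neg_of_add_eq_zero_right e.symm

/-- `W` preserves parabolic homomorphisms. -/
theorem al_isParabolicHom {B : Type*} [AddCommGroup B] {χ : Additive (Gamma0 (r * M)) →+ B}
    (hχ : IsParabolicHom (Gamma0 (r * M)) χ) :
    IsParabolicHom (Gamma0 (r * M)) ((alReps h).transfer χ) :=
  (alReps h).transfer_isParabolicHom hχ

/-- The corestriction preserves parabolic homomorphisms. -/
theorem cor_isParabolicHom (hrM : ¬ r ∣ M) {B : Type*} [AddCommGroup B]
    {χ : Additive (Gamma0 (r * M)) →+ B} (hχ : IsParabolicHom (Gamma0 (r * M)) χ) :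
    IsParabolicHom (Gamma0 M) ((corReps h hrM).transfer χ) :=
  (corReps h hrM).transfer_isParabolicHom hχ

variable {ℓ : ℕ} [hl : Fact ℓ.Prime]

omit hr in
lemma exists_val_rep (x : Idx ℓ) :
    ∃ a c w : ℤ, ((rep ℓ x : GL (Fin 2) ℝ) : Matrix (Fin 2) (Fin 2) ℝ) =
      !![(a : ℝ), (c : ℝ); 0, (w : ℝ)] ∧ a * w = ℓ := by
  cases x using OnePoint.rec with
  | infty => exact ⟨ℓ, 0, 1, by simp [rep, hl.out.ne_zero], by ring⟩
  | coe j => exact ⟨1, j.val, ℓ, by simp [rep, hl.out.ne_zero], by ring⟩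

/-- The representatives of `T_ℓ` commute with `W` up to `Γ₀(r M)` on the left. -/
theorem exists_rep_mul_alW (hℓN : ¬ ℓ ∣ r * M) (x : Idx ℓ) :
    ∃ (y : Idx ℓ) (g : Gamma0 (r * M)),
      rep ℓ x * alW r M b d h = toGL g * (alW r M b d h * rep ℓ y) := by
  have hq := hr.out.ne_zero
  obtain ⟨x', z, w, hval, hdet⟩ := exists_val_rep x
  obtain ⟨y', g, hg, heq⟩ := Newforms.exists_eq_mapGL_mul_tRep hl.out hℓN
    ((r : ℤ) * d * x' + M * (r * d * z - b * w)) (b * d * x' + r * d ^ 2 * z - b * d * w)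
    (((r * M : ℕ) : ℤ) * (-x' - M * z + w)) (-b * M * x' - d * (r * M) * z + r * d * w)
    (dvd_mul_right _ _)
    (by push_cast; linear_combination (((r : ℤ) * d - M * b) ^ 2) * hdet
          + (ℓ : ℤ) * (((r : ℤ) * d - M * b) + 1) * h)
  obtain ⟨g', hg', hmul⟩ := exists_alW_mul h hq g hg
  obtain ⟨y, hy⟩ : ∃ y : Idx ℓ, Newforms.tRep ℓ y' = rep ℓ y := by
    rcases y' with _ | j
    · exact ⟨∞, rfl⟩
    · refine ⟨((j : ℕ) : ZMod ℓ), ?_⟩
      show heckeMatrix ℓ j = heckeMatrix ℓ ((j : ℕ) : ZMod ℓ).val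
      rw [ZMod.val_cast_of_lt j.isLt]
  refine ⟨y, ⟨g', mem_Gamma0_iff.mpr hg'⟩, ?_⟩
  rw [← hy, ← mul_assoc]
  show _ = mapGL ℝ g' * alW r M b d h * _
  rw [← hmul, mul_assoc]
  refine Units.ext ?_
  push_cast
  rw [show ((mapGL ℝ g : GL (Fin 2) ℝ) : Matrix (Fin 2) (Fin 2) ℝ) *
    (Newforms.tRep ℓ y' : Matrix (Fin 2) (Fin 2) ℝ) = _ from heq, hval, val_alW h hq]
  have hR := congrArg (Int.cast : ℤ → ℝ) h
  push_cast at hR
  ext i j
  fin_cases i <;> fin_cases j <;> simp [Matrix.mul_apply, Fin.sum_univ_two]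
  · linear_combination -((x' : ℝ) * r + z * r * M) * hR
  · linear_combination -((x' : ℝ) * b + z * r * d) * hR
  · linear_combination -((w : ℝ) * r * M) * hR
  · linear_combination -((w : ℝ) * r * d) * hR

/-- `T_ℓ` commutes with `W`. -/
theorem al_transfer_comm (hℓN : ¬ ℓ ∣ r * M) {B : Type*} [AddCommGroup B]
    (χ : Additive (Gamma0 (r * M)) →+ B) :
    (alReps h).transfer (HeckeLattice.transfer hℓN χ) =
      HeckeLattice.transfer hℓN ((alReps h).transfer χ) := by
  have hq := hr.out.ne_zero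
  let T := Reps.ofCosetSystem (HeckeLattice.gamma0System (r * M) ℓ hℓN)
  have h₁ : ∀ (g : Gamma0 (r * M)) (x y : Idx ℓ × Unit),
      toGL g * (T.β x.1 * (alReps h).β x.2) = T.β y.1 * (alReps h).β y.2 → x = y := by
    intro g x y e
    rw [← mul_assoc] at e
    exact Prod.ext (T.inj g _ _ (mul_right_cancel e)) (Subsingleton.elim _ _)
  have h₂ : ∀ (g : Gamma0 (r * M)) (x y : Unit × Idx ℓ),
      toGL g * ((alReps h).β x.1 * T.β x.2) = (alReps h).β y.1 * T.β y.2 → x = y := by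
    intro g x y e
    refine Prod.ext (Subsingleton.elim _ _) ?_
    change toGL g * (alW r M b d h * T.β x.2) = alW r M b d h * T.β y.2 at e
    obtain ⟨g', hg', hmul⟩ := exists_alW_mul h hq (g : SL(2, ℤ)) (mem_Gamma0_iff.mp g.2)
    obtain ⟨g₂, hg₂, hsq⟩ := exists_alW_mul_self h hq
    have e2 : mapGL ℝ g' * (mapGL ℝ g₂ * scalarGL r) * T.β x.2 =
        mapGL ℝ g₂ * scalarGL r * T.β y.2 := by
      rw [← hsq, ← mul_assoc, ← hmul, mul_assoc (alW r M b d h), mul_assoc (alW r M b d h),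
        mul_assoc (alW r M b d h) (alW r M b d h), mul_assoc]
      exact congrArg (alW r M b d h * ·) e
    refine T.inj ⟨g₂⁻¹ * g' * g₂, mul_mem (mul_mem (inv_mem (mem_Gamma0_iff.mpr hg₂))
      (mem_Gamma0_iff.mpr hg')) (mem_Gamma0_iff.mpr hg₂)⟩ _ _ ?_
    refine mul_left_cancel (a := mapGL ℝ g₂ * scalarGL r) ?_
    rw [← e2]
    show mapGL ℝ g₂ * scalarGL r * (mapGL ℝ (g₂⁻¹ * g' * g₂) * T.β x.2) = _
    rw [map_mul, map_mul, map_inv, ← mul_assoc, mul_assoc (mapGL ℝ g₂) (scalarGL r),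
      scalarGL_comm hq]
    group
  have e := Reps.transfer_eq_of_reindex (B := B) (T.comp (alReps h) h₁) ((alReps h).comp T h₂)
    (by simp) (fun x => by
      obtain ⟨y, g, hg⟩ := exists_rep_mul_alW h hℓN x.1
      exact ⟨((), y), g, hg⟩)
  have := DFunLike.congr_fun e χ
  rwa [Reps.transfer_comp, Reps.transfer_comp] at this

/-- `T_ℓ` commutes with the corestriction. -/
theorem cor_transfer_comm (hrM : ¬ r ∣ M) (hℓN : ¬ ℓ ∣ r * M) (hℓM : ¬ ℓ ∣ M) {B : Type*}
    [AddCommGroup B] (χ : Additive (Gamma0 (r * M)) →+ B) :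
    (corReps h hrM).transfer (HeckeLattice.transfer hℓN χ) =
      HeckeLattice.transfer hℓM ((corReps h hrM).transfer χ) := by
  let T := Reps.ofCosetSystem (HeckeLattice.gamma0System (r * M) ℓ hℓN)
  let T' := Reps.ofCosetSystem (HeckeLattice.gamma0System M ℓ hℓM)
  have hrl : ¬ (r : ℤ) ∣ (ℓ : ℤ) := by
    rw [Int.natCast_dvd_natCast, Nat.prime_dvd_prime_iff_eq hr.out hl.out]
    rintro rfl
    exact hℓN (dvd_mul_right r M)
  have hMR : ∀ z, (M : ℤ) ∣ (trRep h z) 1 0 := by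
    rintro (_ | j) <;> simp [trRep]
  have h₁ : ∀ (g : Gamma0 (r * M)) (x y : Idx ℓ × Option (Fin r)),
      toGL g * (T.β x.1 * (corReps h hrM).β x.2) = T.β y.1 * (corReps h hrM).β y.2 → x = y := by
    intro g x y e
    set u : SL(2, ℤ) := trRep h y.2 * (trRep h x.2)⁻¹ with hu
    have e' : toGL g * rep ℓ x.1 = rep ℓ y.1 * mapGL ℝ u := by
      rw [hu, map_mul, map_inv, ← mul_assoc, eq_mul_inv_iff_mul_eq, mul_assoc]
      exact e
    have huM : (M : ℤ) ∣ u 1 0 :=
      mem_Gamma0_iff.mp (mul_mem (mem_Gamma0_iff.mpr (hMR y.2))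
        (inv_mem (mem_Gamma0_iff.mpr (hMR x.2))))
    have hg : ((r * M : ℕ) : ℤ) ∣ (g : SL(2, ℤ)) 1 0 := mem_Gamma0_iff.mp g.2
    have hur : (r : ℤ) ∣ u 1 0 := by
      have e10 := congrArg (fun A : GL (Fin 2) ℝ => (A : Matrix (Fin 2) (Fin 2) ℝ) 1 0) e'
      have hdvd : (r : ℤ) ∣ (g : SL(2, ℤ)) 1 0 :=
        (Int.natCast_dvd_natCast.mpr (dvd_mul_right r M)).trans hg
      obtain ⟨a₁, c₁, w₁, hv₁, -⟩ := exists_val_rep x.1
      obtain ⟨a₂, c₂, w₂, hv₂, hd₂⟩ := exists_val_rep y.1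
      rw [Units.val_mul, Units.val_mul, hv₁, hv₂] at e10
      simp [toGL, Matrix.mul_apply, Fin.sum_univ_two] at e10
      have e10' : (g : SL(2, ℤ)) 1 0 * a₁ = w₂ * u 1 0 := by exact_mod_cast e10
      exact ((Nat.prime_iff_prime_int.1 hr.out).dvd_or_dvd
        (e10' ▸ dvd_mul_of_dvd_left hdvd _)).resolve_left
          fun hd => hrl (hd.trans (Dvd.intro_left a₂ hd₂))
    have huN : ((r * M : ℕ) : ℤ) ∣ u 1 0 := by
      push_cast
      exact (Nat.isCoprime_iff_coprime.mpr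
        ((Nat.Prime.coprime_iff_not_dvd hr.out).mpr hrM)).mul_dvd hur huM
    have hxy : y.2 = x.2 := trRep_inj h hr.out hrM y.2 x.2 u huN (by rw [hu, inv_mul_cancel_right])
    refine Prod.ext (T.inj g _ _ ?_) hxy.symm
    rw [hxy, ← mul_assoc] at e
    exact mul_right_cancel e
  have h₂ : ∀ (g : Gamma0 (r * M)) (x y : Option (Fin r) × Idx ℓ),
      toGL g * ((corReps h hrM).β x.1 * T'.β x.2) = (corReps h hrM).β y.1 * T'.β y.2 → x = y := by
    intro g x y e
    have e' : mapGL ℝ ((trRep h y.1)⁻¹ * (g : SL(2, ℤ)) * trRep h x.1) * rep ℓ x.2 = rep ℓ y.2 := by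
      rw [map_mul, map_mul, map_inv, mul_assoc, mul_assoc, inv_mul_eq_iff_eq_mul]
      exact e
    have hxy := HeckeLattice.eq_of_mapGL_mul_rep _ e'
    refine Prod.ext ((corReps h hrM).inj g _ _ ?_) hxy
    rw [hxy, ← mul_assoc] at e
    exact mul_right_cancel e
  have e := Reps.transfer_eq_of_reindex (B := B) (T.comp (corReps h hrM) h₁)
    ((corReps h hrM).comp T' h₂) (by simp [mul_comm]) (fun x => by
      obtain ⟨⟨x', g⟩, hg⟩ := HeckeLattice.exists_rep_mul (N := M) hℓM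
        ⟨trRep h x.2, mem_Gamma0_iff.mpr (hMR x.2)⟩ x.1
      obtain ⟨y, γ, hγ, hmul⟩ := exists_trRep h hr.out hrM g (mem_Gamma0_iff.mp g.2)
      refine ⟨(y, x'), ⟨γ, mem_Gamma0_iff.mpr hγ⟩, ?_⟩
      refine hg.trans ?_
      show mapGL ℝ (g : SL(2, ℤ)) * _ = mapGL ℝ γ * (mapGL ℝ (trRep h y) * _)
      rw [hmul, map_mul, mul_assoc]
      rfl)
  have := DFunLike.congr_fun e χ
  rwa [Reps.transfer_comp, Reps.transfer_comp] at this

end AL

end Fermat.Agent.AtP
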