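import Fermat.Agent.AtP.ClassLiftInt
import Fermat.Agent.AtP.LevelOperators
import Fermat.Agent.EichlerShimura.Main
import Fermat.Agent.DimFormula.Main
import Fermat.Agent.HeckeCohom.EigenHoms
import Fermat.Agent.HeckeEigen.Lift
import Fermat.Agent.EigenRep.Residual
import Fermat.Agent.LevelLowering.FreyDescent
import Fermat.Agent.TWHyp.Curve

/-!
# Eigen classes modulo `p` and congruences

An eigen parabolic character modulo `p` of level `N` gives an eigenform of level `N`, hence the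
eigen classes of level `p M` of a curve not congruent at level `M` have zero corestriction.
-/

set_option autoImplicit false

noncomputable section

open CongruenceSubgroup ModularCurve.Period
open scoped MatrixGroups

namespace Fermat.Agent.AtP

open HeckeLattice (AwayIdx FreeHecke evalFree transferAct)
open LevelLowering (CofiniteResModular)

/-- The Eichler–Shimura map is surjective at every level. -/
theorem eichlerShimuraSurjective (N : ℕ) [NeZero N] : HeckeCohom.EichlerShimuraSurjective N :=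
  (EichlerShimura.eichlerShimura_of_le N (DimFormula.two_mul_finrank_add_orbits N).ge).2.ge

section ModP

open HeckeCohom (wordAct wordEval wordEval_surjective comp_wordAct heckeOp OpIdx)

variable {N p : ℕ} [NeZero N] [hp : Fact p.Prime] {S : Set ℕ}

/-- A nonzero multiple of `φ` is the reduction of an integral parabolic homomorphism. -/
def HasIntLift (φ : Additive (Gamma0 N) →+ ZMod p) : Prop :=
  ∃ (k : ℕ) (X : Additive (Gamma0 N) →+ ℤ), (k : ZMod p) ≠ 0 ∧ IsParabolicHom (Gamma0 N) X ∧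
    (Int.castAddHom (ZMod p)).comp X = k • φ

/-- Parabolic characters modulo `p ≥ 5` lift. -/
theorem hasIntLift_of_five_le (hp5 : 5 ≤ p) (φ : Additive (Gamma0 N) →+ ZMod p)
    (hφ : IsParabolicHom (Gamma0 N) φ) : HasIntLift φ := by
  obtain ⟨X, hX, hXφ⟩ := exists_parabolic_lift φ hφ
  refine ⟨6, X, ?_, hX, hXφ⟩
  rw [show ((6 : ℕ) : ZMod p) = ((2 * 3 : ℕ) : ZMod p) by norm_num, Ne, ZMod.natCast_eq_zero_iff,
    hp.out.dvd_mul, Nat.prime_dvd_prime_iff_eq hp.out Nat.prime_two,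
    Nat.prime_dvd_prime_iff_eq hp.out Nat.prime_three]
  omega

/-- Formal operators vanishing on cusp forms vanish on liftable characters modulo `p`. -/
theorem wordAct_mod_eq_zero {P : FreeAlgebra ℤ (OpIdx S)} (hP : wordEval N S P = 0)
    (φ : Additive (Gamma0 N) →+ ZMod p) (hφ : HasIntLift φ) :
    wordAct N S (ZMod p) P φ = 0 := by
  obtain ⟨k, X, hk, hX, hXφ⟩ := hφ
  have h0 := HeckeCohom.wordAct_eq_zero_of_wordEval_eq_zero (eichlerShimuraSurjective N) hP X hX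
  have h1 : k • wordAct N S (ZMod p) P φ = 0 := by
    rw [← map_nsmul, ← hXφ, ← comp_wordAct, h0]
    exact AddMonoidHom.comp_zero _
  refine AddMonoidHom.ext fun x => ?_
  have := DFunLike.congr_fun h1 x
  rw [AddMonoidHom.nsmul_apply, nsmul_eq_mul, AddMonoidHom.zero_apply, mul_eq_zero] at this
  exact this.resolve_left hk

/-- An eigen parabolic character modulo `p` gives a character of the Hecke algebra. -/
theorem exists_ringHom_zmod (hNS : ∀ q : ℕ, q.Prime → q ∣ N → q ∈ S)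
    (φ : Additive (Gamma0 N) →+ ZMod p) (hφ : HasIntLift φ) (hφ0 : φ ≠ 0)
    (a : ℕ → ℤ)
    (ha : ∀ (ℓ : ℕ) [Fact ℓ.Prime] (hℓN : ¬ ℓ ∣ N), ℓ ∉ S →
      HeckeLattice.transfer hℓN φ = a ℓ • φ) :
    ∃ ψ : CuspForm.heckeAlgebra N 2 S →+* ZMod p, Function.Surjective ψ ∧
      ∀ (ℓ : ℕ) (hℓ : ℓ.Prime) (hℓN : ¬ ℓ ∣ N) (hℓS : ℓ ∉ S),
        ψ (CuspForm.heckeAlgebra.T hℓ hℓN hℓS) = (a ℓ : ZMod p) := by
  let χ : FreeAlgebra ℤ (OpIdx S) →ₐ[ℤ] ZMod p :=
    FreeAlgebra.lift ℤ fun ℓ => ((a (ℓ.1 : ℕ) : ℤ) : ZMod p)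
  have hχ : ∀ P, wordAct N S (ZMod p) P φ = χ P • φ := by
    intro P
    induction P using FreeAlgebra.induction with
    | grade0 r =>
      rw [AlgHom.commutes, AlgHom.commutes, Module.algebraMap_end_apply, algebraMap_int_eq,
        eq_intCast]
      exact (Int.cast_smul_eq_zsmul (ZMod p) r φ).symm
    | grade1 ℓ =>
      have := Fact.mk ℓ.1.2
      have hℓN : ¬ (ℓ.1 : ℕ) ∣ N := fun h => ℓ.2 (hNS _ ℓ.1.2 h)
      simpa [wordAct, χ, HeckeCohom.heckeOp, hℓN, Int.cast_smul_eq_zsmul] using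
        ha (ℓ.1 : ℕ) hℓN ℓ.2
    | add P Q hP hQ => simp only [map_add, LinearMap.add_apply, hP, hQ, add_smul]
    | mul P Q hP hQ =>
      have hlin : ∀ (P : FreeAlgebra ℤ (OpIdx S)) (c : ZMod p)
          (ψ : Additive (Gamma0 N) →+ ZMod p),
          wordAct N S (ZMod p) P (c • ψ) = c • wordAct N S (ZMod p) P ψ := by
        intro P c ψ
        exact (comp_wordAct (N := N) (AddMonoidHom.mulLeft c) P ψ).symm
      rw [map_mul, map_mul, Module.End.mul_apply, hQ, hlin, hP, smul_smul, mul_comm]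
  have hker : ∀ P Q, wordEval N S P = wordEval N S Q → χ P = χ Q := by
    intro P Q hPQ
    refine smul_left_injective (ZMod p) hφ0 ?_
    show χ P • φ = χ Q • φ
    rw [← sub_eq_zero, ← hχ, ← hχ, ← LinearMap.sub_apply, ← map_sub]
    exact wordAct_mod_eq_zero (by rw [map_sub, hPQ, sub_self]) φ hφ
  let inv := Function.surjInv (wordEval_surjective (N := N) (S := S))
  have hinv : ∀ t, wordEval N S (inv t) = t := Function.surjInv_eq _
  let ψ : CuspForm.heckeAlgebra N 2 S →+* ZMod p :=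
    { toFun := fun t => χ (inv t)
      map_one' := by rw [← map_one χ]; exact hker _ _ (by rw [hinv, map_one])
      map_mul' := fun s t => by rw [← map_mul]; exact hker _ _ (by rw [hinv, map_mul, hinv, hinv])
      map_zero' := by rw [← map_zero χ]; exact hker _ _ (by rw [hinv, map_zero])
      map_add' := fun s t => by
        rw [← map_add]; exact hker _ _ (by rw [hinv, map_add, hinv, hinv]) }
  refine ⟨ψ, fun x => ⟨(x.val : CuspForm.heckeAlgebra N 2 S), ?_⟩, fun ℓ hℓ hℓN hℓS => ?_⟩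
  · rw [map_natCast, ZMod.natCast_zmod_val]
  · refine (hker _ (FreeAlgebra.ι ℤ ⟨⟨ℓ, hℓ⟩, hℓS⟩) ?_).trans (by simp [χ])
    rw [hinv]
    simp [wordEval, hℓN]

/-- A liftable eigen character modulo `p` gives a congruent eigenform. -/
theorem cofiniteResModular_of_lift {W : WeierstrassCurve ℤ}
    (φ : Additive (Gamma0 N) →+ ZMod p) (hφ : HasIntLift φ) (hφ0 : φ ≠ 0)
    (T : Finset ℕ) (hNT : ∀ q : ℕ, q.Prime → q ∣ N → q ∈ T)
    (ha : ∀ (ℓ : ℕ) [Fact ℓ.Prime] (hℓN : ¬ ℓ ∣ N), ℓ ∉ T →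
      HeckeLattice.transfer hℓN φ = W.apOfModel ℓ • φ) :
    CofiniteResModular W p N := by
  obtain ⟨ψ, hψ, hψT⟩ := exists_ringHom_zmod (S := (T : Set ℕ)) hNT φ hφ hφ0
    (fun ℓ => W.apOfModel ℓ) fun ℓ _ h1 h2 => ha ℓ h1 h2
  obtain ⟨f, hf, Q, hQ, hchar, hT, -⟩ :=
    HeckeEigen.exists_eigenform_congruent (CuspIntStr.hasIntegralStructure N 2) ψ hψ
  refine ⟨f, Q, hf, hQ, by simpa using hchar (p : ℤ) (by simp), T, fun ℓ hℓ hℓT => ?_⟩
  exact hT ℓ hℓ (fun h => hℓT (hNT ℓ hℓ h)) hℓT _ (hψT ℓ hℓ _ hℓT)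

/-- An eigen parabolic character modulo `p ≥ 5` gives a congruent eigenform. -/
theorem cofiniteResModular_of_eigen (hp5 : 5 ≤ p) {W : WeierstrassCurve ℤ}
    (φ : Additive (Gamma0 N) →+ ZMod p) (hφ : IsParabolicHom (Gamma0 N) φ) (hφ0 : φ ≠ 0)
    (T : Finset ℕ) (hNT : ∀ q : ℕ, q.Prime → q ∣ N → q ∈ T)
    (ha : ∀ (ℓ : ℕ) [Fact ℓ.Prime] (hℓN : ¬ ℓ ∣ N), ℓ ∉ T →
      HeckeLattice.transfer hℓN φ = W.apOfModel ℓ • φ) :
    CofiniteResModular W p N :=
  cofiniteResModular_of_lift φ (hasIntLift_of_five_le hp5 φ hφ) hφ0 T hNT ha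

/-- A congruent eigenform gives an eigen parabolic character modulo `p`. -/
theorem exists_eigen_of_cofiniteResModular {W : WeierstrassCurve ℤ}
    (h : CofiniteResModular W p N) :
    ∃ T : Finset ℕ, (∀ q : ℕ, q.Prime → q ∣ N → q ∈ T) ∧ p ∈ T ∧
      ∃ φ : Additive (Gamma0 N) →+ ZMod p, IsParabolicHom (Gamma0 N) φ ∧ φ ≠ 0 ∧
        ∀ (ℓ : ℕ) [Fact ℓ.Prime] (hℓN : ¬ ℓ ∣ N), ℓ ∉ T →
          HeckeLattice.transfer hℓN φ = W.apOfModel ℓ • φ := by
  obtain ⟨f, 𝔪, hf, hmax, hp𝔪, S₀, hS₀⟩ := h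
  set T : Finset ℕ := S₀ ∪ N.primeFactors ∪ {p} with hT
  have hNT : ∀ q : ℕ, q.Prime → q ∣ N → q ∈ T := fun q hq h =>
    Finset.mem_union_left _ (Finset.mem_union_right _
      (Nat.mem_primeFactors.mpr ⟨hq, h, NeZero.ne N⟩))
  have : 𝔪.IsMaximal := hmax
  let θ : CuspForm.heckeAlgebra N 2 (T : Set ℕ) →+* integralClosure ℤ ℂ ⧸ 𝔪 :=
    (Ideal.Quotient.mk 𝔪).comp
      (HeckeEigen.eigenCharInt (CuspIntStr.hasIntegralStructure N 2) hf (T : Set ℕ))
  obtain ⟨χ, hχ0, -, hkill⟩ := EigenRep.exists_character_killed (p := p) (S := (T : Set ℕ)) hNT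
    (RingHom.ker θ) (RingHom.ker_ne_top θ) (by
      rw [RingHom.mem_ker, map_natCast, ← map_natCast (Ideal.Quotient.mk 𝔪),
        Ideal.Quotient.eq_zero_iff_mem]
      exact hp𝔪)
  refine ⟨T, hNT, by simp [hT], χ.1, χ.2, fun h0 => hχ0 (Subtype.ext h0),
    fun ℓ hℓ hℓN hℓT => ?_⟩
  obtain ⟨c, hc, hca⟩ := hS₀ ℓ hℓ.out fun h => hℓT
    (Finset.mem_union_left _ (Finset.mem_union_left _ h))
  have hP := hkill (FreeAlgebra.ι ℤ ⟨⟨ℓ, hℓ.out⟩, hℓT⟩ - algebraMap ℤ _ (W.apOfModel ℓ)) (by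
    rw [RingHom.mem_ker, map_sub, AlgHom.commutes, map_sub]
    simp only [evalFree, FreeAlgebra.lift_ι_apply, algebraMap_int_eq, eq_intCast, map_intCast]
    rw [← map_intCast (Ideal.Quotient.mk 𝔪), RingHom.comp_apply, ← map_sub,
      Ideal.Quotient.eq_zero_iff_mem]
    convert hca
    exact Subtype.ext (by rw [HeckeEigen.coe_eigenCharInt, HeckeEigen.eigenChar_T, hc]))
  rw [map_sub, AlgHom.commutes, LinearMap.sub_apply, Module.algebraMap_end_apply,
    sub_eq_zero] at hP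
  simpa [transferAct] using hP

end ModP

section Curve

variable {W : WeierstrassCurve ℤ} {p : ℕ} [Fact p.Prime] {M : ℕ} [NeZero M]

/-- Eigen classes of level `p M` have zero corestriction when `W[p]` is not congruent at level
`M`, `p ≥ 5`. -/
theorem corReps_transfer_eq_zero (hp5 : 5 ≤ p) (hpM : ¬ p ∣ M)
    (hnot : ¬ CofiniteResModular W p M) {b d : ℤ}
    (h : (p : ℤ) * d - (M : ℤ) * b = 1) (T : Finset ℕ)
    (hT : ∀ q : ℕ, q.Prime → q ∣ p * M → q ∈ T)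
    (φ : Additive (Gamma0 (p * M)) →+ ZMod p) (hφ : IsParabolicHom (Gamma0 (p * M)) φ)
    (ha : ∀ (ℓ : ℕ) [Fact ℓ.Prime] (hℓ : ¬ ℓ ∣ p * M), ℓ ∉ T →
      HeckeLattice.transfer hℓ φ = W.apOfModel ℓ • φ) :
    (corReps h hpM).transfer φ = 0 := by
  by_contra hne
  refine hnot (cofiniteResModular_of_eigen hp5 _ (cor_isParabolicHom h hpM hφ) hne T
    (fun q hq hqM => hT q hq (hqM.mul_left _)) fun ℓ hℓ hℓM hℓT => ?_)
  have hℓN : ¬ ℓ ∣ p * M := fun hd => hℓT (hT ℓ hℓ.out hd)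
  rw [← cor_transfer_comm h hpM hℓN hℓM, ha ℓ hℓN hℓT, map_zsmul]

/-- Infinitely many primes are not Eisenstein for `W[p]`. -/
theorem exists_prime_trace_ne (hΔ : W.Δ ≠ 0) (hp2 : p ≠ 2) (hirr : W.ModRepIsIrreducible p)
    (T : Finset ℕ) :
    ∃ ℓ : ℕ, ℓ.Prime ∧ ℓ ∉ T ∧ (W.apOfModel ℓ : ZMod p) ≠ (ℓ : ZMod p) + 1 := by
  set m := ∏ q ∈ T.filter Nat.Prime, q with hm
  have hm0 : 0 < m := Finset.prod_pos fun q hq => (Finset.mem_filter.mp hq).2.pos
  obtain ⟨ℓ, hℓ, hℓm, -, hone, htr⟩ :=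
    LevelRaisingPrime.exists_prime_one_mod_trace_ne_two W p
      hΔ hp2 (TWHyp.frobeniusTraceDet _ _) hirr m hm0
  refine ⟨ℓ, hℓ, fun hT => hℓm (dvd_mul_of_dvd_left
    (Finset.dvd_prod_of_mem (fun q => q) (Finset.mem_filter.mpr ⟨hT, hℓ⟩)) _), ?_⟩
  have h1 : (ℓ : ZMod p) = 1 := by
    have := congrArg (ZMod.castHom (dvd_mul_right p m) (ZMod p)) hone
    simpa using this
  rw [h1, one_add_one_eq_two]
  exact htr

end Curve

end Fermat.Agent.AtP

end
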