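import Fermat.Agent.KummerES.ModulesTwist
import Fermat.Agent.KummerES.ConjugateRep
import Fermat.Prelude.Def_FLTPrelim_ModularRep
import Fermat.Prelude.Def_GaloisRep_ComplexConjugation

/-!
# Conjugation of characters, Frobenius, and local vectors

The properties used to construct the class.

`HasFrobeniusRelation S n`: on characters modulo `n`, the action of a Frobenius at `ℓ` read through
the level `S` satisfies `F² - T_ℓ F + ℓ = 0`.
-/

set_option autoImplicit false

noncomputable section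

open CongruenceSubgroup ModularCurve.Period
open scoped MatrixGroups

namespace Fermat.Agent.AtP

open KummerES (ConjLevel)

/-- The Eichler–Shimura relation for the conjugation of characters modulo `n`. -/
def HasFrobeniusRelation {N L : ℕ} [NeZero L] (S : ConjLevel (Gamma0 N) N L) (n : ℕ) [NeZero n] :
    Prop :=
  ∀ (ℓ : ℕ) (_ : Fact ℓ.Prime) (hℓN : ¬ ℓ ∣ N), ¬ ℓ ∣ n →
    ∀ A : ValuationSubring (AlgebraicClosure ℚ), A.LiesOverPrime ℓ →
      ∀ σ : AlgebraicClosure ℚ ≃ₐ[ℚ] AlgebraicClosure ℚ, A.IsFrobeniusAt σ ℓ →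
        ∀ x : parabolicHoms ℤ (Gamma0 N) (ZMod n),
          (S.galRep σ (S.galRep σ x)).1 - HeckeLattice.transfer hℓN (S.galRep σ x).1
            + ℓ • x.1 = 0

/-- Conjugation is available at every even multiple of `N`, with the Eichler–Shimura relation. -/
def HasConjInput (N n : ℕ) [NeZero n] : Prop :=
  ∀ (L : ℕ) [NeZero L], 2 ∣ L → N ∣ L →
    ∃ S : ConjLevel (Gamma0 N) N L, HasFrobeniusRelation S n

open scoped WeierstrassCurve.Affine in
/-- Some nonzero `p`-torsion point is fixed by all automorphisms over `O` fixing a `p`-th root of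
some `1 + p c₀`, `c₀ ∈ Oˣ`. -/
def HasLocalSplit (W : WeierstrassCurve ℤ) (p : ℕ) (O : Subring ℂ) : Prop :=
  ∃ (x : Submodule.torsionBy ℤ
      ((W.map (Int.castRingHom ℚ))⁄(AlgebraicClosure ℚ)).Point p) (η : ℂ) (c₀ : Oˣ),
    x ≠ 0 ∧ η ^ p = 1 + (p : ℂ) * ((c₀ : O) : ℂ) ∧
    ∀ (σ : ℂ ≃+* ℂ) (σ₀ : AlgebraicClosure ℚ ≃ₐ[ℚ] AlgebraicClosure ℚ),
      (∀ z ∈ O, σ z = z) → (∀ z, complexEmbedding (σ₀ z) = σ (complexEmbedding z)) →
        σ η = η → σ₀ • x = x

end Fermat.Agent.AtP

end
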