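import Mathlib.Data.ZMod.Basic
import Mathlib.Tactic.Abel
import Mathlib.Tactic.Ring
import Mathlib.Tactic.LinearCombination
import Mathlib.Algebra.BigOperators.Ring.Finset
import Mathlib.Algebra.Module.BigOperators
import Mathlib.GroupTheory.QuotientGroup.Defs
import Mathlib.Algebra.BigOperators.Group.Finset.Piecewise

/-!
# Lifting functions with two- and three-term relations from `ℤ/n` to `ℤ`

On a finite connected set with an involution `s` and a permutation `t` of order three, six times a
solution modulo `n` of `F (s x) = -F x`, `F x + F (t x) + F (t (t x)) = 0` lifts to an integral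
solution.
-/

set_option autoImplicit false

namespace Fermat.Agent.AtP

variable {X : Type} (t : Equiv.Perm X)

/-- The three-term sums. -/
def triSum : (X → ℤ) →+ (X → ℤ) where
  toFun G x := G x + G (t x) + G (t (t x))
  map_zero' := funext fun _ => by simp
  map_add' G H := funext fun _ => by simp only [Pi.add_apply]; abel

/-- The three-term sum at a point. -/
@[simp] lemma triSum_apply (G : X → ℤ) (x : X) : triSum t G x = G x + G (t x) + G (t (t x)) := rfl

/-- Functions changed to their opposite by `s`. -/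
def oddFun (s : Equiv.Perm X) : AddSubgroup (X → ℤ) where
  carrier := {G | ∀ x, G (s x) = -G x}
  zero_mem' _ := by simp
  add_mem' hG hH x := by
    simp only [Pi.add_apply, hG x, hH x]; abel
  neg_mem' hG x := by simp [hG x]

variable {t} [Fintype X] [Nonempty X] {s : Equiv.Perm X} (hs : ∀ x, s (s x) = x)
  (ht : ∀ x, t (t (t x)) = x)
  (hconn : ∀ {Q : Type} (f : X → Q), (∀ x, f (s x) = f x) → (∀ x, f (t x) = f x) →
    ∀ x y, f x = f y)

include hs ht hconn

/-- A three-term sum with total zero is the three-term sum of an odd function. -/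
theorem exists_odd_triSum_eq (E : X → ℤ) (hE : ∑ x, E x = 0) :
    ∃ H ∈ oddFun s, triSum t H = triSum t E := by
  classical
  set I := (oddFun s).map (triSum t) with hI
  let e : X → (X → ℤ) ⧸ I := fun x => ((triSum t (Pi.single x 1) : X → ℤ) : (X → ℤ) ⧸ I)
  have hes : ∀ x, e (s x) = e x := fun x => by
    rw [QuotientAddGroup.eq]
    refine ⟨Pi.single x 1 - Pi.single (s x) 1, fun y => ?_, by rw [map_sub]; abel⟩
    by_cases hy : y = x
    · subst hy
      by_cases hfix : s y = y
      · simp [hfix]
      · simp [hfix, Ne.symm hfix]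
    · by_cases hy' : y = s x
      · subst hy'
        simp [hs, hy, Ne.symm hy]
      · have h1 : s y ≠ x := fun h => hy' (by rw [← h, hs])
        have h2 : s y ≠ s x := fun h => hy (s.injective h)
        simp [hy, hy', h1, h2]
  have het : ∀ x, e (t x) = e x := fun x => by
    refine congrArg (fun G : X → ℤ => (G : (X → ℤ) ⧸ I)) (funext fun y => ?_)
    have h1 : (t y = t x) = (y = x) := propext t.injective.eq_iff
    have h2 : (t (t y) = t x) = (t y = x) := propext t.injective.eq_iff
    have h3 : (y = t x) = (t (t y) = x) := propext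
      ⟨fun h => by rw [h, ht], fun h => by rw [← h, ht]⟩
    simp only [triSum_apply, Pi.single_apply, h1, h2, h3]
    abel
  obtain ⟨x₀⟩ := ‹Nonempty X›
  have hall : ∀ x, e x = e x₀ := fun x => hconn e hes het x x₀
  have hsum : ((triSum t E : X → ℤ) : (X → ℤ) ⧸ I) = 0 := by
    have hdec : E = ∑ x, E x • Pi.single x (1 : ℤ) := funext fun y => by
      simp [Finset.sum_apply, Pi.single_apply]; rfl
    rw [hdec, map_sum, ← QuotientAddGroup.mk'_apply I, map_sum]
    calc ∑ x, QuotientAddGroup.mk' I (triSum t (E x • Pi.single x (1 : ℤ)))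
        = ∑ x, E x • e x₀ := Finset.sum_congr rfl fun x _ => by
          rw [map_zsmul, map_zsmul, QuotientAddGroup.mk'_apply]
          exact congrArg (E x • ·) (hall x)
      _ = 0 := by rw [← Finset.sum_smul, hE, zero_smul]
  obtain ⟨H, hH, hHE⟩ := (QuotientAddGroup.eq_zero_iff _).mp hsum
  exact ⟨H, hH, hHE⟩

/-- Six times a solution modulo `n` lifts to an integral solution. -/
theorem exists_int_lift {n : ℕ} [NeZero n] (F : X → ZMod n) (hFs : ∀ x, F (s x) = -F x)
    (hFt : ∀ x, F x + F (t x) + F (t (t x)) = 0) :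
    ∃ G : X → ℤ, (∀ x, G (s x) = -G x) ∧ (∀ x, triSum t G x = 0) ∧
      ∀ x, (G x : ZMod n) = 6 * F x := by
  set G₀ : X → ℤ := fun x => ((F x).val : ℤ) - ((F (s x)).val : ℤ) with hG₀
  have hmod : ∀ x, (G₀ x : ZMod n) = 2 * F x := fun x => by
    simp [hG₀, hFs, two_mul]
  have hdvd : ∀ x, (n : ℤ) ∣ triSum t G₀ x := fun x => by
    rw [← ZMod.intCast_zmod_eq_zero_iff_dvd, triSum_apply, Int.cast_add, Int.cast_add, hmod, hmod,
      hmod, ← mul_add, ← mul_add, hFt, mul_zero]
  choose E hE using hdvd
  have hn : (n : ℤ) ≠ 0 := Int.natCast_ne_zero.mpr (NeZero.ne n)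
  have hEt : ∀ x, E (t x) = E x := fun x => mul_left_cancel₀ hn (by
    rw [← hE, ← hE, triSum_apply, triSum_apply, ht]; ring)
  have hsum : ∑ x, E x = 0 := by
    refine mul_left_cancel₀ hn ?_
    rw [Finset.mul_sum, mul_zero, ← Finset.sum_congr rfl fun x _ => hE x]
    simp only [triSum_apply, Finset.sum_add_distrib]
    have h0 : ∑ x, G₀ x = 0 := by
      simp only [hG₀, Finset.sum_sub_distrib]
      rw [Equiv.sum_comp s (fun x => ((F x).val : ℤ)), sub_self]
    rw [h0, Equiv.sum_comp t G₀, h0, zero_add, zero_add,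
      show (∑ x, G₀ (t (t x))) = ∑ x, G₀ x from
        (Equiv.sum_comp t (fun x => G₀ (t x))).trans (Equiv.sum_comp t G₀), h0]
  obtain ⟨H, hH, hHE⟩ := exists_odd_triSum_eq hs ht hconn E hsum
  refine ⟨fun x => 3 * G₀ x - n * H x, fun x => ?_, fun x => ?_, fun x => ?_⟩
  · simp only [hG₀, hs, hH x]; ring
  · have h1 := congrFun hHE x
    simp only [triSum_apply, hEt] at h1
    have h2 := hE x
    simp only [triSum_apply] at h2
    simp only [triSum_apply]
    linear_combination 3 * h2 - (n : ℤ) * h1
  · simp [hmod, ← mul_assoc]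
    norm_num

end Fermat.Agent.AtP
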