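import Mathlib.Algebra.Order.Field.Rat
import Mathlib.Data.Rat.Lemmas
import Mathlib.Tactic.FieldSimp
import Fermat.Agent.LevelRaising.Manin

/-!
# Manin's relations suffice

An invariant function on `SL(2, ℤ)` with the two- and three-term relations is the value at unimodular
symbols of a functional on modular symbols.
-/

set_option autoImplicit false

noncomputable section

open Matrix CongruenceSubgroup
open scoped MatrixGroups

namespace Fermat.Agent.AtP

open LevelRaising

/-- The relations of the values of a functional at unimodular symbols. -/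
structure ManinRel {A : Type*} [AddCommGroup A] (G : SL(2, ℤ) → A) : Prop where
  neg : ∀ g, G (-g) = G g
  mul_S : ∀ g, G (g * ModularGroup.S) = -G g
  triangle : ∀ g, G g + G (g * tau) + G (g * tau * tau) = 0

theorem exists_canon (q : ℚ) : ∃ g : SL(2, ℤ),
    g 0 0 = q.num ∧ g 1 0 = (q.den : ℤ) ∧ 0 ≤ g 1 1 ∧ g 1 1 < (q.den : ℤ) := by
  obtain ⟨u, w, huw⟩ : IsCoprime q.num (q.den : ℤ) := Rat.isCoprime_num_den q
  have hc : (0 : ℤ) < q.den := by exact_mod_cast q.den_pos
  refine ⟨⟨!![q.num, -(w + q.num * (u / q.den)); (q.den : ℤ), u % q.den], ?_⟩, by simp, by simp,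
    by simpa using Int.emod_nonneg u hc.ne', by simpa using Int.emod_lt_of_pos u hc⟩
  rw [det_fin_two_of, Int.emod_def]
  linear_combination huw

/-- The matrix of the canonical edge arriving at `q`. -/
def canon (q : ℚ) : SL(2, ℤ) := (exists_canon q).choose

theorem canon_spec (q : ℚ) : canon q 0 0 = q.num ∧ canon q 1 0 = (q.den : ℤ) ∧
    0 ≤ canon q 1 1 ∧ canon q 1 1 < (q.den : ℤ) := (exists_canon q).choose_spec

theorem den_div_le (b d : ℤ) (hd : d ≠ 0) : (((b : ℚ) / d).den : ℤ) ≤ |d| := by
  refine Int.le_of_dvd (abs_pos.mpr hd) ((dvd_abs _ _).mpr ?_)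
  rw [← Rat.divInt_eq_div]
  exact Rat.den_dvd b d

variable {A : Type*} [AddCommGroup A]

/-- The potential at a finite cusp. -/
def potQ (G : SL(2, ℤ) → A) (q : ℚ) : A :=
  if canon q 1 1 = 0 then G (canon q)
  else potQ G ((canon q 0 1 : ℚ) / (canon q 1 1 : ℤ)) + G (canon q)
termination_by q.den
decreasing_by
  have h1 := den_div_le (canon q 0 1) _ ‹_›
  rw [abs_of_nonneg (canon_spec q).2.2.1] at h1
  exact_mod_cast h1.trans_lt (canon_spec q).2.2.2

/-- The potential at a vector. -/
def pot (G : SL(2, ℤ) → A) (v : Vec) : A := if v 1 = 0 then 0 else potQ G ((v 0 : ℚ) / (v 1 : ℤ))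

variable {G : SL(2, ℤ) → A}

theorem pot_smul {a : ℤ} (ha : a ≠ 0) (v : Vec) : pot G (a • v) = pot G v := by
  have haq : (a : ℚ) ≠ 0 := Int.cast_ne_zero.mpr ha
  by_cases h : v 1 = 0
  · simp [pot, h]
  · simp only [pot, Pi.smul_apply, smul_eq_mul, mul_eq_zero, ha, h, or_self, if_false,
      Int.cast_mul, mul_div_mul_left _ _ haq]

theorem mulVec_vecInfty (g : SL(2, ℤ)) : mat g *ᵥ vecInfty = ![g 0 0, g 1 0] := by
  ext i; fin_cases i <;> simp [mat, vecInfty, Matrix.mulVec, dotProduct, Fin.sum_univ_two]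

theorem mulVec_vecZero (g : SL(2, ℤ)) : mat g *ᵥ vecZero = ![g 0 1, g 1 1] := by
  ext i; fin_cases i <;> simp [mat, vecZero, Matrix.mulVec, dotProduct, Fin.sum_univ_two]

/-- `G g` is the difference of the potential between the ends of `g`. -/
def Edge (G : SL(2, ℤ) → A) (g : SL(2, ℤ)) : Prop :=
  pot G (mat g *ᵥ vecInfty) - pot G (mat g *ᵥ vecZero) = G g

variable (hG : ManinRel G)
include hG

theorem edge_neg {g : SL(2, ℤ)} (h : Edge G g) : Edge G (-g) := by
  unfold Edge at h ⊢
  rw [hG.neg, show mat (-g) = (-1 : ℤ) • mat g by simp [mat], smul_mulVec, smul_mulVec,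
    pot_smul (by norm_num), pot_smul (by norm_num), h]

theorem edge_mul_S {g : SL(2, ℤ)} (h : Edge G g) : Edge G (g * ModularGroup.S) := by
  unfold Edge at h ⊢
  have h1 : mat (g * ModularGroup.S) *ᵥ vecInfty = mat g *ᵥ vecZero := by
    rw [mat_mul, ← mulVec_mulVec]
    congr 1
    ext i; fin_cases i <;> simp [mat, ModularGroup.coe_S, vecZero, vecInfty]
  have h2 : mat (g * ModularGroup.S) *ᵥ vecZero = (-1 : ℤ) • (mat g *ᵥ vecInfty) := by
    rw [mat_mul, ← mulVec_mulVec, ← mulVec_smul]
    congr 1
    ext i; fin_cases i <;> simp [mat, ModularGroup.coe_S, vecZero, vecInfty]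
  rw [hG.mul_S, h1, h2, pot_smul (by norm_num), ← h, neg_sub]

omit hG in
theorem edge_canon {g : SL(2, ℤ)} (hc : 0 < g 1 0) (h0 : 0 ≤ g 1 1) (h1 : g 1 1 < g 1 0) :
    Edge G g := by
  set q : ℚ := (g 0 0 : ℚ) / (g 1 0 : ℤ) with hq
  have hdet := g.det_coe
  rw [Matrix.det_fin_two] at hdet
  have hcop : (g 0 0).natAbs.Coprime (g 1 0).natAbs :=
    Int.isCoprime_iff_gcd_eq_one.mp ⟨g 1 1, -g 0 1, by linear_combination hdet⟩
  have hnum : q.num = g 0 0 := Rat.num_div_eq_of_coprime hc hcop
  have hden : (q.den : ℤ) = g 1 0 := Rat.den_div_eq_of_coprime hc hcop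
  obtain ⟨e1, e2, e3, e4⟩ := canon_spec q
  rw [hnum] at e1
  rw [hden] at e2 e4
  have hdet' := (canon q).det_coe
  rw [Matrix.det_fin_two, e1, e2] at hdet'
  have hcd : g 1 0 ∣ canon q 1 1 - g 1 1 := by
    refine (Int.isCoprime_iff_gcd_eq_one.mpr hcop).symm.dvd_of_dvd_mul_left
      ⟨canon q 0 1 - g 0 1, ?_⟩
    linear_combination hdet' - hdet
  have h11 : canon q 1 1 = g 1 1 := by
    obtain ⟨k, hk⟩ := hcd
    have hk0 : k = 0 := by
      by_contra hk0
      rcases lt_or_gt_of_ne hk0 with hk0 | hk0 <;> nlinarith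
    rw [hk0, mul_zero, sub_eq_zero] at hk
    exact hk
  have h01 : canon q 0 1 = g 0 1 := by
    rw [h11] at hdet'
    exact mul_right_cancel₀ hc.ne' (by linear_combination hdet - hdet')
  have hg : canon q = g := by
    ext i j
    fin_cases i <;> fin_cases j <;> assumption
  rw [Edge, mulVec_vecInfty, mulVec_vecZero]
  simp only [pot, cons_val_one, cons_val_zero, hc.ne', if_false, ← hq]
  rw [potQ]
  simp only [hg]
  by_cases h11' : g 1 1 = 0 <;> simp [h11']

theorem edge_all (g : SL(2, ℤ)) : Edge G g := by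
  suffices key : ∀ (n : ℕ) (g : SL(2, ℤ)), (g 1 0).natAbs + (g 1 1).natAbs ≤ n → Edge G g from
    key _ g le_rfl
  intro n
  induction n with
  | zero =>
    intro g hg
    have hdet := g.det_coe
    rw [Matrix.det_fin_two] at hdet
    rw [show g 1 0 = 0 by omega, show g 1 1 = 0 by omega] at hdet
    simp at hdet
  | succ n ih =>
    -- the case `|d| ≤ c`
    have main : ∀ g : SL(2, ℤ), 0 < g 1 0 → (g 1 1).natAbs ≤ (g 1 0).natAbs →
        (g 1 0).natAbs + (g 1 1).natAbs ≤ n + 1 → Edge G g := by
      intro g hc hdc hn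
      by_cases hcan : 0 ≤ g 1 1 ∧ g 1 1 < g 1 0
      · exact edge_canon hc hcan.1 hcan.2
      have htri : ∀ h : SL(2, ℤ), Edge G (h * tau) → Edge G (h * tau * tau) → Edge G h := by
        intro h e1 e2
        have h0 : mat tau *ᵥ vecInfty = ![1, 1] := by
          ext i; fin_cases i <;> simp [mat_tau, vecInfty]
        have h1 : mat tau *ᵥ ![1, 1] = vecZero := by
          ext i; fin_cases i <;> simp [mat_tau, vecZero]
        have h2 : mat tau *ᵥ vecZero = (-1 : ℤ) • vecInfty := by
          ext i; fin_cases i <;> simp [mat_tau, vecZero, vecInfty]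
        unfold Edge at e1 e2 ⊢
        simp only [mat_mul, ← mulVec_mulVec, h0, h1, h2, mulVec_smul,
          pot_smul (by norm_num : (-1 : ℤ) ≠ 0)] at e1 e2
        rw [← sub_eq_zero]
        calc pot G (mat h *ᵥ vecInfty) - pot G (mat h *ᵥ vecZero) - G h
            = -(G h + G (h * tau) + G (h * tau * tau)) := by rw [← e1, ← e2]; abel
          _ = 0 := by rw [hG.triangle, neg_zero]
      rcases lt_or_ge (g 1 1) 0 with hd | hd
      · -- `-c ≤ d < 0`
        refine htri g ?_ (ih _ ?_)
        · rw [tau, ← mul_assoc]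
          refine edge_mul_S hG (edge_canon ?_ ?_ ?_) <;>
            simp [Matrix.SpecialLinearGroup.coe_mul, ModularGroup.coe_T, Matrix.mul_apply,
              Fin.sum_univ_two] <;> omega
        · simp [tau, Matrix.SpecialLinearGroup.coe_mul, ModularGroup.coe_T, ModularGroup.coe_S,
            Matrix.mul_apply, Fin.sum_univ_two]
          omega
      · -- `d = c`
        have hdc' : g 1 1 = g 1 0 := by omega
        set h := g * ModularGroup.T⁻¹ with hh
        have hgh : g = h * ModularGroup.T := by rw [hh, inv_mul_cancel_right]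
        have hent : h 1 0 = g 1 0 ∧ h 1 1 = 0 := by
          simp [hh, Matrix.SpecialLinearGroup.coe_mul, Matrix.mul_apply,
            Fin.sum_univ_two, hdc']
        have e0 : Edge G h := edge_canon (hent.1 ▸ hc) hent.2.ge (by rw [hent.1, hent.2]; exact hc)
        have e2 : Edge G (h * tau * tau) := ih _ (by
          simp [tau, Matrix.SpecialLinearGroup.coe_mul, ModularGroup.coe_T, ModularGroup.coe_S,
            Matrix.mul_apply, Fin.sum_univ_two, hent.1, hent.2]
          omega)
        -- recover the edge of `g` from the triangle of `h`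
        have e1 : Edge G (h * tau) := by
          have htau : tau * tau * tau = -1 := by
            ext i j
            fin_cases i <;> fin_cases j <;>
              simp [tau, Matrix.SpecialLinearGroup.coe_mul, ModularGroup.coe_T, ModularGroup.coe_S,
                Matrix.mul_apply, Fin.sum_univ_two]
          refine htri _ e2 ?_
          rw [show h * tau * tau * tau = -h by rw [mul_assoc, mul_assoc, ← mul_assoc tau, htau, mul_neg_one]]
          exact edge_neg hG e0
        have hgS : h * tau = g * ModularGroup.S := by rw [tau, ← mul_assoc, ← hgh]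
        have e3 := edge_mul_S hG (hgS ▸ e1)
        rw [mul_assoc, show ModularGroup.S * ModularGroup.S = -1 by
          ext i j; fin_cases i <;> fin_cases j <;>
            simp [Matrix.SpecialLinearGroup.coe_mul, ModularGroup.coe_S, Matrix.mul_apply],
          mul_neg_one] at e3
        simpa using edge_neg hG e3
    intro g hn
    have hdet := g.det_coe
    rw [Matrix.det_fin_two] at hdet
    have norm1 : ∀ h : SL(2, ℤ), (h 1 1).natAbs ≤ (h 1 0).natAbs →
        (h 1 0).natAbs + (h 1 1).natAbs ≤ n + 1 → Edge G h := by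
      intro h hdc hn
      rcases lt_trichotomy (h 1 0) 0 with hc | hc | hc
      · have e := main (-h) (by simpa using hc) (by simpa using hdc) (by simpa using hn)
        simpa using edge_neg hG e
      · have := h.det_coe
        rw [Matrix.det_fin_two, hc, show h 1 1 = 0 by omega] at this
        simp at this
      · exact main h hc hdc hn
    by_cases hdc : (g 1 1).natAbs ≤ (g 1 0).natAbs
    · exact norm1 g hdc hn
    · have hent : (g * ModularGroup.S) 1 0 = g 1 1 ∧ (g * ModularGroup.S) 1 1 = -g 1 0 := by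
        simp [Matrix.SpecialLinearGroup.coe_mul, ModularGroup.coe_S, Matrix.mul_apply,
          Fin.sum_univ_two]
      have e := edge_mul_S hG (norm1 (g * ModularGroup.S)
        (by rw [hent.1, hent.2, Int.natAbs_neg]; omega)
        (by rw [hent.1, hent.2, Int.natAbs_neg]; omega))
      rw [mul_assoc, show ModularGroup.S * ModularGroup.S = -1 by
        ext i j; fin_cases i <;> fin_cases j <;>
          simp [Matrix.SpecialLinearGroup.coe_mul, ModularGroup.coe_S, Matrix.mul_apply],
        mul_neg_one] at e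
      simpa using edge_neg hG e

/-- Left translation moves the potential by a constant. -/
theorem pot_mulVec_sub {γ : SL(2, ℤ)} (hγ : ∀ g, G (γ * g) = G g) {v : Vec} (hv : v ≠ 0) :
    pot G (mat γ *ᵥ v) - pot G v = pot G (mat γ *ᵥ vecInfty) - pot G vecInfty := by
  set D : Vec → A := fun w => pot G (mat γ *ᵥ w) - pot G w
  have hscale : ∀ {a : ℤ}, a ≠ 0 → ∀ w, D (a • w) = D w := fun ha w => by
    simp only [D, mulVec_smul, pot_smul ha]
  have hedge : ∀ g : SL(2, ℤ), D (mat g *ᵥ vecInfty) = D (mat g *ᵥ vecZero) := fun g => by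
    have e1 : Edge G g := edge_all hG g
    have e2 : Edge G (γ * g) := edge_all hG (γ * g)
    unfold Edge at e1 e2
    rw [hγ, mat_mul, ← mulVec_mulVec, ← mulVec_mulVec, ← e1] at e2
    rw [← sub_eq_zero]
    simp only [D]
    rw [← sub_eq_zero] at e2
    rw [← e2]; abel
  suffices key : ∀ (n : ℕ) (w : Vec), w ≠ 0 → (w 1).natAbs ≤ n → D w = D vecInfty from
    key _ v hv le_rfl
  intro n
  induction n using Nat.strong_induction_on with
  | _ n ih =>
    intro w hw hn
    by_cases hc : w 1 = 0
    · have h0 : w 0 ≠ 0 := fun h0 => hw (by ext i; fin_cases i <;> assumption)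
      rw [show w = (w 0) • vecInfty by ext i; fin_cases i <;> simp [vecInfty, hc], hscale h0]
    set q : ℚ := (w 0 : ℚ) / (w 1 : ℤ) with hq
    obtain ⟨e1, e2, e3, e4⟩ := canon_spec q
    have hwq : w 0 * (q.den : ℤ) = q.num * w 1 := by
      have h1 : (q.num : ℚ) / q.den = (w 0 : ℚ) / (w 1 : ℤ) := Rat.num_div_den q
      rw [div_eq_div_iff (by exact_mod_cast q.den_ne_zero) (by exact_mod_cast hc)] at h1
      exact_mod_cast h1.symm
    have hkey : D w = D (mat (canon q) *ᵥ vecInfty) := by
      rw [mulVec_vecInfty, e1, e2, ← hscale (a := (q.den : ℤ)) (by exact_mod_cast q.den_ne_zero),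
        ← hscale (a := w 1) hc ![q.num, (q.den : ℤ)]]
      congr 1
      ext i; fin_cases i
      · simpa [mul_comm] using hwq
      · simp
        ring
    rw [hkey, hedge]
    refine ih _ ?_ _ (mat_mulVec_ne_zero _ vecZero_ne_zero) le_rfl
    rw [mulVec_vecZero]
    simp only [cons_val_one, cons_val_zero]
    have := den_div_le (w 0) (w 1) hc
    rw [← hq, Int.abs_eq_natAbs] at this
    omega

/-- Manin's relations define a functional on modular symbols. -/
theorem exists_modSym_hom {N : ℕ} (hinv : ∀ γ ∈ Gamma0 N, ∀ g, G (γ * g) = G g) :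
    ∃ Φ : ModSym N →+ A, ∀ g, Φ (unimod N g) = G g := by
  have hsym : IsSymbol N (fun v w => if v = 0 ∨ w = 0 then 0 else pot G w - pot G v) := by
    refine ⟨fun w => by simp, fun v => by simp, fun u v w hu hv hw => by simp [hu, hv, hw],
      fun c hc v w => ?_, fun γ hγ v w => ?_⟩
    · by_cases hv : v = 0
      · simp [hv]
      · simp only [hv, smul_ne_zero hc hv, false_or, pot_smul hc]
    · by_cases hv : v = 0
      · simp [hv]
      by_cases hw : w = 0
      · simp [hw]
      simp only [hv, hw, mat_mulVec_ne_zero γ hv, mat_mulVec_ne_zero γ hw, or_self, if_false]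
      have e1 := pot_mulVec_sub hG (hinv γ hγ) hv
      have e2 := pot_mulVec_sub hG (hinv γ hγ) hw
      rw [← sub_eq_zero] at e1 e2 ⊢
      calc _ = (pot G (mat γ *ᵥ w) - pot G w - (pot G (mat γ *ᵥ vecInfty) - pot G vecInfty))
          - (pot G (mat γ *ᵥ v) - pot G v - (pot G (mat γ *ᵥ vecInfty) - pot G vecInfty)) := by abel
        _ = 0 := by rw [e1, e2, sub_zero]
  refine ⟨lift _ hsym, fun g => ?_⟩
  rw [unimod, lift_symb]
  simp only [mat_mulVec_ne_zero g vecZero_ne_zero, mat_mulVec_ne_zero g vecInfty_ne_zero, or_self,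
    if_false]
  exact edge_all hG g

end Fermat.Agent.AtP

end
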