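import Fermat.Agent.AtP.ClassLiftGraph
import Fermat.Agent.AtP.ClassLiftPotential
import Mathlib.LinearAlgebra.Matrix.FixedDetMatrices

/-!
# Six times a parabolic homomorphism modulo `n` lifts to an integral one
-/

set_option autoImplicit false

noncomputable section

open Matrix CongruenceSubgroup ModularCurve.Period
open scoped MatrixGroups

namespace Fermat.Agent.AtP

open LevelRaising

variable {N n : ℕ} [NeZero N] [NeZero n]

omit [NeZero N] in
lemma neg_one_smul_coset (x : SL(2, ℤ) ⧸ Gamma0 N) : (-1 : SL(2, ℤ)) • x = x := by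
  induction x using QuotientGroup.induction_on with
  | H g =>
    rw [MulAction.Quotient.smul_mk, smul_eq_mul, neg_one_mul, QuotientGroup.eq]
    have : (-g)⁻¹ * g = -1 := by
      rw [inv_mul_eq_iff_eq_mul, mul_neg_one, neg_neg]
    rw [this, Gamma0_mem]
    simp

lemma S_mul_S : ModularGroup.S * ModularGroup.S = -1 := by
  ext i j; fin_cases i <;> fin_cases j <;>
    simp [Matrix.SpecialLinearGroup.coe_mul, ModularGroup.coe_S, Matrix.mul_apply]

lemma tau_mul_tau_mul_tau : tau * tau * tau = -1 := by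
  ext i j
  fin_cases i <;> fin_cases j <;>
    simp [tau, Matrix.SpecialLinearGroup.coe_mul, ModularGroup.coe_T, ModularGroup.coe_S,
      Matrix.mul_apply, Fin.sum_univ_two]

omit [NeZero N] in
lemma rightCoset_mul (g h : SL(2, ℤ)) : rightCoset N (g * h) = h⁻¹ • rightCoset N g := by
  rw [rightCoset, rightCoset, MulAction.Quotient.smul_mk, smul_eq_mul, _root_.mul_inv_rev]

omit [NeZero N] in
/-- A function on the cosets invariant under `S` and `tau` is constant. -/
lemma apply_eq_of_invariant {Q : Type} (f : SL(2, ℤ) ⧸ Gamma0 N → Q)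
    (hs : ∀ x, f (ModularGroup.S⁻¹ • x) = f x) (ht : ∀ x, f (tau⁻¹ • x) = f x)
    (x y : SL(2, ℤ) ⧸ Gamma0 N) : f x = f y := by
  have hgen : ∀ g : SL(2, ℤ), ∀ z, f (g • z) = f z := by
    intro g
    have hg : g ∈ Subgroup.closure ({ModularGroup.S, ModularGroup.T} : Set SL(2, ℤ)) := by
      rw [_root_.SpecialLinearGroup.SL2Z_generators]; trivial
    induction hg using Subgroup.closure_induction with
    | mem g hg =>
      have hS : ∀ z, f (ModularGroup.S • z) = f z := fun z => by
        conv_rhs => rw [← inv_smul_smul ModularGroup.S z, hs]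
      intro z
      rcases hg with rfl | rfl
      · exact hS z
      · have h2 : ModularGroup.T • z = tau • ModularGroup.S⁻¹ • z := by
          rw [← mul_smul, tau, mul_inv_cancel_right]
        rw [h2, ← ht, inv_smul_smul, hs]
    | one => simp
    | mul a b _ _ ha hb => intro z; rw [mul_smul, ha, hb]
    | inv a _ ha =>
      intro z
      conv_rhs => rw [← smul_inv_smul a z, ha]
  induction x using QuotientGroup.induction_on with
  | H g => induction y using QuotientGroup.induction_on with
    | H h =>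
      rw [← hgen (g * h⁻¹) (QuotientGroup.mk h), MulAction.Quotient.smul_mk, smul_eq_mul,
        inv_mul_cancel_right]

/-- The permutation of the cosets attached to `S`. -/
def cosetS (N : ℕ) : Equiv.Perm (SL(2, ℤ) ⧸ Gamma0 N) := MulAction.toPerm ModularGroup.S⁻¹

/-- The permutation of the cosets attached to `tau`. -/
def cosetTau (N : ℕ) : Equiv.Perm (SL(2, ℤ) ⧸ Gamma0 N) := MulAction.toPerm tau⁻¹

omit [NeZero N] in
/-- The permutation attached to `S` is an involution. -/
lemma cosetS_cosetS (x : SL(2, ℤ) ⧸ Gamma0 N) : cosetS N (cosetS N x) = x := by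
  show ModularGroup.S⁻¹ • ModularGroup.S⁻¹ • x = x
  rw [← mul_smul, ← _root_.mul_inv_rev, S_mul_S, inv_smul_eq_iff, neg_one_smul_coset]

omit [NeZero N] in
/-- The permutation attached to `tau` has order dividing three. -/
lemma cosetTau_cube (x : SL(2, ℤ) ⧸ Gamma0 N) : cosetTau N (cosetTau N (cosetTau N x)) = x := by
  show tau⁻¹ • tau⁻¹ • tau⁻¹ • x = x
  rw [← mul_smul, ← mul_smul, ← _root_.mul_inv_rev, ← _root_.mul_inv_rev,
    ← mul_assoc, tau_mul_tau_mul_tau, inv_smul_eq_iff, neg_one_smul_coset]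

omit [NeZero N] in
lemma cosetS_rightCoset (g : SL(2, ℤ)) :
    cosetS N (rightCoset N g) = rightCoset N (g * ModularGroup.S) :=
  (rightCoset_mul g _).symm

omit [NeZero N] in
/-- `cosetTau` is right multiplication by `tau`. -/
lemma cosetTau_rightCoset (g : SL(2, ℤ)) :
    cosetTau N (rightCoset N g) = rightCoset N (g * tau) :=
  (rightCoset_mul g _).symm

/-- The values of a functional on modular symbols at the edges. -/
def edgeValue {B : Type*} [AddCommGroup B] (φ : ModSym N →+ B) (x : SL(2, ℤ) ⧸ Gamma0 N) : B :=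
  φ (unimod N (cosetRep x))

omit [NeZero N] [NeZero n] in
/-- The value at the edge of `g` is the value at its unimodular symbol. -/
lemma edgeValue_rightCoset (φ : ModSym N →+ ZMod n) (g : SL(2, ℤ)) :
    edgeValue φ (rightCoset N g) = φ (unimod N g) := by
  rw [edgeValue, unimod_eq_cosetRep g]

omit [NeZero N] [NeZero n] in
/-- The values at the edges satisfy the two-term relation. -/
lemma edgeValue_S (φ : ModSym N →+ ZMod n) (x : SL(2, ℤ) ⧸ Gamma0 N) :
    edgeValue φ (cosetS N x) = -edgeValue φ x := by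
  obtain ⟨g, rfl⟩ : ∃ g, x = rightCoset N g := ⟨cosetRep x, (rightCoset_cosetRep x).symm⟩
  rw [cosetS_rightCoset, edgeValue_rightCoset, edgeValue_rightCoset, unimod_mul_S, map_neg]

omit [NeZero N] [NeZero n] in
/-- The values at the edges satisfy the three-term relation. -/
lemma edgeValue_triangle (φ : ModSym N →+ ZMod n) (x : SL(2, ℤ) ⧸ Gamma0 N) :
    edgeValue φ x + edgeValue φ (cosetTau N x) + edgeValue φ (cosetTau N (cosetTau N x)) = 0 := by
  obtain ⟨g, rfl⟩ : ∃ g, x = rightCoset N g := ⟨cosetRep x, (rightCoset_cosetRep x).symm⟩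
  rw [cosetTau_rightCoset, cosetTau_rightCoset, edgeValue_rightCoset, edgeValue_rightCoset,
    edgeValue_rightCoset, ← map_add, ← map_add, unimod_triangle, map_zero]

omit [NeZero N] [NeZero n] in
/-- An integral solution of the Manin relations congruent to `c` times the edge values of `φ` gives
an integral functional congruent to `c` times `φ`. -/
theorem exists_modSym_lift_of_edgeLift (φ : ModSym N →+ ZMod n) (c : ℕ)
    (G : SL(2, ℤ) ⧸ Gamma0 N → ℤ) (hGs : ∀ x, G (cosetS N x) = -G x)
    (hGt : ∀ x, triSum (cosetTau N) G x = 0) (hGF : ∀ x, (G x : ZMod n) = c * edgeValue φ x) :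
    ∃ Φ : ModSym N →+ ℤ, (Int.castAddHom (ZMod n)).comp Φ = c • φ := by
  have hrel : ManinRel (fun g => G (rightCoset N g)) := by
    refine ⟨fun g => ?_, fun g => ?_, fun g => ?_⟩
    · rw [show -g = g * (-1 : SL(2, ℤ)) by rw [mul_neg_one], rightCoset_mul, inv_smul_eq_iff.mpr]
      exact (neg_one_smul_coset _).symm
    · rw [← cosetS_rightCoset]; exact hGs _
    · have := hGt (rightCoset N g)
      rwa [triSum_apply, cosetTau_rightCoset, cosetTau_rightCoset] at this
  obtain ⟨Φ, hΦ⟩ := exists_modSym_hom hrel (N := N) fun γ hγ g => by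
    rw [rightCoset_mul_left hγ]
  refine ⟨Φ, AddMonoidHom.eq_of_eqOn_dense closure_unimod ?_⟩
  rintro _ ⟨g, rfl⟩
  rw [AddMonoidHom.comp_apply, hΦ, Int.coe_castAddHom, AddMonoidHom.nsmul_apply, nsmul_eq_mul]
  beta_reduce
  rw [hGF, edgeValue_rightCoset]

/-- Six times a functional modulo `n` on modular symbols is the reduction of an integral one. -/
theorem exists_modSym_lift (φ : ModSym N →+ ZMod n) :
    ∃ Φ : ModSym N →+ ℤ, (Int.castAddHom (ZMod n)).comp Φ = 6 • φ := by
  let _ := Fintype.ofFinite (SL(2, ℤ) ⧸ Gamma0 N)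
  obtain ⟨G, hGs, hGt, hGF⟩ := exists_int_lift (n := n) cosetS_cosetS cosetTau_cube
    (fun f h1 h2 => apply_eq_of_invariant f h1 h2) (edgeValue φ) (edgeValue_S φ)
    (edgeValue_triangle φ)
  exact exists_modSym_lift_of_edgeLift φ 6 G hGs hGt fun x => by rw [hGF x]; norm_num

/-- Six times a parabolic homomorphism modulo `n` is the reduction of an integral one. -/
theorem exists_parabolic_lift (χ : Additive (Gamma0 N) →+ ZMod n)
    (hχ : IsParabolicHom (Gamma0 N) χ) :
    ∃ X : Additive (Gamma0 N) →+ ℤ, IsParabolicHom (Gamma0 N) X ∧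
      (Int.castAddHom (ZMod n)).comp X = 6 • χ := by
  obtain ⟨φ, rfl⟩ := exists_comp_cycleHom_eq χ hχ
  obtain ⟨Φ, hΦ⟩ := exists_modSym_lift φ
  refine ⟨Φ.comp (cycleHom N), isParabolicHom_comp_cycleHom Φ, ?_⟩
  rw [← AddMonoidHom.comp_assoc, hΦ]
  exact AddMonoidHom.ext fun x => by simp

end Fermat.Agent.AtP

end
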