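import Fermat.Agent.AtP.ClassInput
import Fermat.Agent.LowerAtP.GeneralVector
import Fermat.Agent.LowerAtP.LocalTorsionVector
import Fermat.Agent.FreyModel.Basic
import Mathlib.FieldTheory.AlgebraicClosure

/-!
# The local vector of the Frey curve inside `ℂ`
-/

set_option autoImplicit false

noncomputable section

open IsLocalRing (maximalIdeal ResidueField)
open scoped WeierstrassCurve.Affine

namespace Fermat.Agent.AtP

/-- The restriction of an automorphism of `ℂ` to the algebraic numbers. -/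
theorem exists_galois_restrict (σ : ℂ ≃+* ℂ) :
    ∃ σ₀ : AlgebraicClosure ℚ ≃ₐ[ℚ] AlgebraicClosure ℚ,
      ∀ z, complexEmbedding (σ₀ z) = σ (complexEmbedding z) := by
  let : Algebra (AlgebraicClosure ℚ) ℂ := complexEmbedding.toRingHom.toAlgebra
  have : IsScalarTower ℚ (AlgebraicClosure ℚ) ℂ :=
    IsScalarTower.of_algebraMap_eq fun q => (complexEmbedding.commutes q).symm
  have : Algebra.IsAlgebraic ℚ (AlgebraicClosure ℚ) := AlgebraicClosure.isAlgebraic ℚ
  have : IsAlgClosure ℚ (AlgebraicClosure ℚ) := ⟨inferInstance, inferInstance⟩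
  have : Normal ℚ (AlgebraicClosure ℚ) := IsAlgClosure.normal ℚ (AlgebraicClosure ℚ)
  let σ' : ℂ ≃ₐ[ℚ] ℂ := AlgEquiv.ofRingEquiv (f := σ) fun q => map_ratCast σ q
  exact ⟨σ'.restrictNormal (AlgebraicClosure ℚ), fun z =>
    AlgEquiv.restrictNormal_commutes σ' (AlgebraicClosure ℚ) z⟩

/-- A local vector in an algebraic closure of the fraction field gives one inside `ℂ`. -/
theorem hasLocalSplit_of_split (W : WeierstrassCurve ℤ) (p : ℕ) (O : Subring ℂ) [IsDomain O]
    (hsplit : ∀ (K Ω : Type) [Field K] [Algebra O K] [IsFractionRing O K] [Field Ω] [Algebra K Ω]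
      [Algebra O Ω] [IsScalarTower O K Ω] [CharZero Ω] [IsAlgClosure K Ω]
      (ι : AlgebraicClosure ℚ →+* Ω),
      ∃ (x : Submodule.torsionBy ℤ ((W.map (Int.castRingHom ℚ))⁄(AlgebraicClosure ℚ)).Point p)
        (η : Ω) (c₀ : Oˣ), x ≠ 0 ∧ η ^ p = 1 + (p : Ω) * algebraMap O Ω c₀ ∧
        ∀ (σ : Ω ≃ₐ[K] Ω) (σ₀ : AlgebraicClosure ℚ ≃ₐ[ℚ] AlgebraicClosure ℚ),
          (∀ z, ι (σ₀ z) = σ (ι z)) → σ η = η → σ₀ • x = x) :
    HasLocalSplit W p O := by
  let K := FractionRing O
  let : Algebra K ℂ := (IsFractionRing.lift (A := O) (K := K) (g := O.subtype)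
    (Subtype.val_injective)).toAlgebra
  have : IsScalarTower O K ℂ := IsScalarTower.of_algebraMap_eq fun z =>
    (IsFractionRing.lift_algebraMap (g := O.subtype) Subtype.val_injective z).symm
  let Ω := algebraicClosure K ℂ
  have : CharZero K := charZero_of_injective_ringHom
    (f := algebraMap O K) (IsFractionRing.injective O K)
  have : IsScalarTower ℚ K ℂ :=
    IsScalarTower.of_algebraMap_eq fun q => (map_ratCast (algebraMap K ℂ) q).symm
  let ι : AlgebraicClosure ℚ →+* Ω := complexEmbedding.toRingHom.codRestrict Ω.toSubfield fun z => by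
    refine mem_algebraicClosure_iff.mpr ?_
    have h : IsAlgebraic ℚ (complexEmbedding z) :=
      ((AlgebraicClosure.isAlgebraic ℚ).isAlgebraic z).algHom complexEmbedding
    exact h.extendScalars (algebraMap ℚ K).injective
  obtain ⟨x, η, c₀, hx, hη, hfix⟩ := hsplit K Ω ι
  refine ⟨x, η, c₀, hx, ?_, fun σ σ₀ hσO hσ₀ hσ => ?_⟩
  · have h' := congrArg (fun t : Ω => (t : ℂ)) hη
    simp at h'
    rw [h']
    congr 2
  · have hσK : ∀ c : K, σ (algebraMap K ℂ c) = algebraMap K ℂ c := by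
      intro c
      obtain ⟨a, b, -, rfl⟩ := IsFractionRing.div_surjective (A := O) c
      rw [map_div₀, map_div₀, ← IsScalarTower.algebraMap_apply, ← IsScalarTower.algebraMap_apply]
      exact congrArg₂ (· / ·) (hσO _ a.2) (hσO _ b.2)
    let σ' : ℂ ≃ₐ[K] ℂ := AlgEquiv.ofRingEquiv (f := σ) hσK
    refine hfix (σ'.restrictNormal Ω) σ₀ (fun z => Subtype.ext ?_) (Subtype.ext ?_)
    · exact (hσ₀ z).trans (AlgEquiv.restrictNormal_commutes σ' Ω (ι z)).symm
    · exact (AlgEquiv.restrictNormal_commutes σ' Ω η).trans hσ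

/-- The Frey curve with `p ∣ a b c` has a local vector. -/
theorem freyCurve_hasLocalSplit (P : FreyPackage) (hdvd : (P.p : ℤ) ∣ P.a * P.b * P.c)
    (O : Subring ℂ) [IsDiscreteValuationRing O] [IsAdicComplete (maximalIdeal O) O]
    [IsAlgClosed (ResidueField O)] (hunif : Irreducible (P.p : O)) :
    HasLocalSplit P.freyCurveInt P.p O := by
  refine hasLocalSplit_of_split _ _ O fun K Ω _ _ _ _ _ _ _ _ _ ι => ?_
  rw [FreyModel.map_freyCurveInt]
  exact LowerAtP.freyCurve_exists_vector_split (O := O) (K := K) (Ω := Ω) P hdvd hunif ι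

/-- A semistable curve, peu ramifiée at `p`, ordinary if good at `p`, has a local vector. -/
theorem hasLocalSplit_of_semistable (W : WeierstrassCurve ℤ) (hΔ : W.Δ ≠ 0) {p : ℕ}
    [Fact p.Prime] (hp2 : p ≠ 2) (hss : (p : ℤ) ∣ W.Δ → ¬ (p : ℤ) ∣ W.c₄)
    (hpeu : p ∣ padicValInt p W.Δ) (hord : ¬ (p : ℤ) ∣ W.Δ → ¬ (p : ℤ) ∣ W.apOfModel p)
    (O : Subring ℂ) [IsDiscreteValuationRing O] [IsAdicComplete (maximalIdeal O) O]
    [IsAlgClosed (ResidueField O)] (hunif : Irreducible (p : O)) :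
    HasLocalSplit W p O :=
  hasLocalSplit_of_split W p O fun K Ω _ _ _ _ _ _ _ _ _ ι =>
    LowerAtP.exists_vector_split (O := O) (K := K) (Ω := Ω) W hΔ hp2 hss hpeu hord hunif ι

end Fermat.Agent.AtP

end
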