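import Fermat.Agent.AtP.LevelOperators
import Fermat.Agent.KummerES.ModulesTwist
import Fermat.Agent.KummerES.HeckeWeak

/-!
# Conjugation of characters commutes with the Atkin–Lehner involution
-/

set_option autoImplicit false

noncomputable section

open UpperHalfPlane CongruenceSubgroup ModularCurve.Period
open Matrix.SpecialLinearGroup (mapGL)
open scoped MatrixGroups Manifold OnePoint

namespace Fermat.Agent.AtP

open KummerES (HasExp IsKummer IsConj IsCharConj ConjLevel comp weak expansion qL twist hasExp_expansion)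
open ModularCurve (coeffMap qExpand)
open HeckeLattice (rep toGL)
open Newforms (alW alSL mem_Gamma0_iff)

variable {r : ℕ} [hr : Fact r.Prime]

/-- Dilation by `r`, written at level `L r`. -/
lemma hasExp_smul_rep_infty {L : ℕ} [NeZero L] {f : ℍ → ℂ} {s : LaurentSeries ℂ}
    (hs : HasExp L f s) :
    HasExp (L * r) (fun τ => f (rep r ∞ • τ)) (qExpand ℂ (r ^ 2) (twist 1 one_ne_zero s)) := by
  refine hs.subst (L' := L * r) (fun τ => rep r ∞ • τ) one_ne_zero (r ^ 2) fun τ => ?_
  have hl : (r : ℂ) ≠ 0 := by exact_mod_cast hr.out.ne_zero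
  have hL : (L : ℂ) ≠ 0 := by exact_mod_cast NeZero.ne L
  rw [one_mul]
  show Function.Periodic.qParam L ((ModularForm.heckeDiagMatrix r • τ : ℍ) : ℂ) = _
  rw [ModularForm.coe_heckeDiagMatrix_smul hr.out.ne_zero, qL, Function.Periodic.qParam,
    Function.Periodic.qParam, ← Complex.exp_nat_mul]
  congr 1
  push_cast
  field_simp

variable {M : ℕ} {b d : ℤ} (h : (r : ℤ) * d - (M : ℤ) * b = 1) {L n : ℕ} [NeZero L] [NeZero n]

omit hr in
lemma alW_smul (τ : ℍ) : alW r M b d h • τ = alSL r M b d h • (rep r ∞ • τ) := by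
  rw [show alW r M b d h = mapGL ℝ (alSL r M b d h) * rep r ∞ from rfl, mul_smul]
  rfl

/-- `g ∘ W` is a root of the transferred character. -/
theorem isKummer_comp_alW (hNL : r * M ∣ L) {χ : Additive (Gamma0 (r * M)) →+ ZMod n} {g : ℍ → ℂ}
    (hg : IsKummer L n χ g) :
    IsKummer (L * r) n ((alReps h).transfer χ) (fun τ => g (alW r M b d h • τ)) := by
  set W := alW r M b d h with hW
  have hWpos : 0 < (W.det : ℝ) := Newforms.det_alW_pos h
  have hcomp : ∀ γ : Gamma0 (r * M), comp (fun τ => g (W • τ)) γ = fun τ =>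
      KummerES.rootPow n ((alReps h).transfer χ (Additive.ofMul γ)) * g (W • τ) := by
    intro γ
    funext τ
    have hmul : W * toGL γ = toGL ((alReps h).cocycle γ default) * W :=
      (alReps h).rep_mul γ default
    rw [Reps.transfer_apply, Fintype.sum_unique]
    show g (W • (toGL γ • τ)) = _
    rw [← mul_smul, hmul, mul_smul]
    exact congrFun (hg.comp_eq ((alReps h).cocycle γ default)) (W • τ)
  refine ⟨fun h0 => hg.ne_zero (funext fun τ => ?_), hg.holo.comp (mdifferentiable_smul hWpos),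
    hcomp, ?_, ?_, fun δ => ?_⟩
  · simpa using congrFun h0 (W⁻¹ • τ)
  · exact (hg.holo.comp (mdifferentiable_smul hWpos)).pow n
  · exact fun γ hγ => KummerES.comp_eq_of_rootPow hcomp γ
      (KummerES.IsDiagStable.gamma_le (KummerES.isDiagStable_gamma0 _) (hNL.mul_right r) hγ)
  · obtain ⟨v, z, hv⟩ := KummerES.exists_rep_mul_SL (ℓ := r) ∞ δ
    obtain ⟨c, e, hc, he, hq⟩ := KummerES.qL_rep (ℓ := r) L z
    have : NeZero e := ⟨he⟩
    obtain ⟨s, -, hs⟩ := hg.pow_mem.2.2 (alSL r M b d h * v)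
    refine ⟨qExpand ℂ e (twist c hc s), fun i => trivial, ?_⟩
    have h2 := hs.subst (L' := L * r) (fun τ => rep r z • τ) hc e hq
    have h3 : comp ((fun τ => g (W • τ)) ^ n) δ =
        comp (g ^ n) (alSL r M b d h * v) ∘ fun τ => rep r z • τ := by
      funext τ
      show g (W • (mapGL ℝ δ • τ)) ^ n =
        g (mapGL ℝ (alSL r M b d h * v) • (rep r z • τ)) ^ n
      rw [← mul_smul, ← mul_smul, show W = mapGL ℝ (alSL r M b d h) * rep r ∞ from rfl, mul_assoc,
        hv, ← mul_assoc, map_mul]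
    rw [h3]
    exact h2

omit hr in
/-- The matrix `alSL` is fixed by twists modulo `Γ₀(r M)`. -/
theorem isTwistFixed_alSL : KummerES.IsTwistFixed (Gamma0 (r * M)) (r * M) (alSL r M b d h) := by
  intro c hc δ' hδ'
  rw [Gamma0_mem]
  have hu : IsUnit (c : ZMod (r * M)) := (ZMod.unitOfCoprime c hc).isUnit
  have h10 := congrFun (congrFun hδ' 1) 0
  have h11 := congrFun (congrFun hδ' 1) 1
  simp [KummerES.redMat, KummerES.diagMat, alSL, Matrix.mul_apply, Fin.sum_univ_two] at h10 h11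
  have h11' : ((δ' 1 1 : ℤ) : ZMod (r * M)) = (r : ZMod (r * M)) * d :=
    hu.mul_right_cancel (by rw [h11]; ring)
  have hent : (δ' * (alSL r M b d h)⁻¹) 1 0 = δ' 1 0 * ((r : ℤ) * d) - δ' 1 1 * M := by
    simp [alSL, Matrix.SpecialLinearGroup.coe_mul, Matrix.SpecialLinearGroup.coe_inv,
      Matrix.adjugate_fin_two, Matrix.mul_apply, Fin.sum_univ_two, sub_eq_add_neg]
  rw [hent]
  push_cast
  rw [h10, h11']
  have h0 : (r : ZMod (r * M)) * (M : ZMod (r * M)) = 0 := by
    rw [← Nat.cast_mul, ZMod.natCast_self]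
  linear_combination ((c : ZMod (r * M)) - 1) * (d : ZMod (r * M)) * h0

/-- The transferred parabolic character. -/
def alChar (χ : parabolicHoms ℤ (Gamma0 (r * M)) (ZMod n)) :
    parabolicHoms ℤ (Gamma0 (r * M)) (ZMod n) :=
  ⟨(alReps h).transfer χ.1, al_isParabolicHom h χ.2⟩

/-- **Conjugation commutes with `W`.** -/
theorem conjChar_alChar (S : ConjLevel (Gamma0 (r * M)) (r * M) L)
    (S' : ConjLevel (Gamma0 (r * M)) (r * M) (L * r)) (σ : ℂ ≃+* ℂ)
    (χ : parabolicHoms ℤ (Gamma0 (r * M)) (ZMod n)) :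
    S.conjChar σ (alChar h χ) = alChar h (S.conjChar σ χ) := by
  obtain ⟨c, g, g', hc, hσ, hg, hg', hconj⟩ := S.isCharConj_conjChar σ χ
  rw [← S.conjChar_eq_of_dvd S' (dvd_mul_right L r)]
  refine S'.conjChar_eq ?_
  set δ := alSL r M b d h
  have hK := isKummer_comp_alW h S.dvd_N hg
  have hK' := isKummer_comp_alW h S.dvd_N hg'
  obtain ⟨c', hc', hσ'⟩ := KummerES.exists_pow_zetaC (L * r) (σ : ℂ →+* ℂ)
  refine ⟨c', _, _, hc', hσ', hK, hK', ?_⟩
  obtain ⟨F, hF⟩ := S'.hasConj _ c' hσ' _ hK.pow_mem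
  suffices heq : expansion (L * r) ((fun τ => g' (alW r M b d h • τ)) ^ n) = expansion (L * r) F by
    exact (KummerES.eq_of_expansion_eq hK'.pow_mem hF.2.1 heq).symm ▸ hF
  have hfix := (isTwistFixed_alSL h).isConj_comp S.dvd_N hc hconj fun γ hγ => hg.pow_comp_eq hγ
  have hexp : ∀ (k : ℍ → ℂ), comp (k ^ n) δ ∈ weak (Gamma L) L ⊤ →
      HasExp (L * r) ((fun τ => k (alW r M b d h • τ)) ^ n)
        (qExpand ℂ (r ^ 2) (twist 1 one_ne_zero (expansion L (comp (k ^ n) δ)))) := by
    intro k hk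
    have hs := hasExp_expansion hk 1
    rw [KummerES.comp_one] at hs
    have he := hasExp_smul_rep_infty (r := r) hs
    have hfun : (fun τ => k (alW r M b d h • τ)) ^ n = fun τ => comp (k ^ n) δ (rep r ∞ • τ) := by
      funext τ
      simp only [Pi.pow_apply, KummerES.comp_apply, alW_smul]
      rfl
    rwa [hfun]
  rw [hF.expansion_eq, (hexp g hfix.1).expansion_eq, (hexp g' hfix.2.1).expansion_eq,
    hfix.expansion_eq, ModularCurve.coeffMap_qExpand]
  congr 1
  ext i
  simp [δ]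

end Fermat.Agent.AtP

end
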