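import Fermat.Agent.AtP.ClassHecke
import Fermat.Agent.AtP.ClassEigen
import Fermat.Agent.AtP.ClassWComm
import Fermat.Agent.AtP.ClassCoeff
import Fermat.Agent.AtP.ClassLocal
import Fermat.Agent.KummerES.ConjugateCanon

/-!
# The class removed by Mazur's principle at `p`

A parabolic character of level `p M` with the eigenvalues of `W`, an eigenvector of `W_p` and
`U_p`, killed by the corestriction, with a root whose power has coefficients in `O[η]`.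
-/

set_option autoImplicit false

noncomputable section

open UpperHalfPlane CongruenceSubgroup ModularCurve.Period
open IsLocalRing (maximalIdeal ResidueField)
open scoped MatrixGroups

namespace Fermat.Agent.AtP

open KummerES (IsKummer IsCanon expansion leadCoeff)
open LevelLowering (CofiniteResModular FreyModular)
open WeierstrassCurve.Affine.Point (GaloisRepIsIrreducible)

variable {W : WeierstrassCurve ℤ} {p : ℕ} [Fact p.Prime] {M : ℕ} [NeZero M]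

/-- The conclusion of the class construction. -/
def HasClass (W : WeierstrassCurve ℤ) (p : ℕ) [Fact p.Prime] {M : ℕ} [NeZero M] {b d : ℤ}
    (h : (p : ℤ) * d - (M : ℤ) * b = 1) (hpM : ¬ p ∣ M) (O : Subring ℂ) : Prop :=
  ∃ (η : ℂ) (c₀ : Oˣ) (χ : parabolicHoms ℤ (Gamma0 (p * M)) (ZMod p)) (α : ℤ)
    (S₀ : Finset ℕ) (g : ℍ → ℂ),
    η ^ p = 1 + (p : ℂ) * ((c₀ : O) : ℂ) ∧ χ ≠ 0 ∧ (α = 1 ∨ α = -1) ∧
    IsKummer (p * (2 * M)) p χ.1 g ∧
    (∀ i : ℤ, (expansion (p * (2 * M)) (g ^ p)).coeff i ∈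
      Subfield.closure ((O : Set ℂ) ∪ {η})) ∧
    leadCoeff (p * (2 * M)) (g ^ p) = 1 ∧
    (alReps h).transfer χ.1 = (-α) • χ.1 ∧ (uReps p M).transfer χ.1 = α • χ.1 ∧
    (corReps h hpM).transfer χ.1 = 0 ∧
    (∀ (ℓ : ℕ) [Fact ℓ.Prime] (hℓ : ¬ ℓ ∣ p * M), ℓ ∉ S₀ →
      HeckeLattice.transfer hℓ χ.1 = W.apOfModel ℓ • χ.1) ∧
    ∃ ℓ : ℕ, ℓ.Prime ∧ ℓ ∉ S₀ ∧ ¬ ℓ ∣ p * M ∧
      (W.apOfModel ℓ : ZMod p) ≠ (ℓ : ZMod p) + 1

/-- **The class**, for an odd `p`, granting that eigen classes have zero corestriction. -/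
theorem hasClass_of_cor (hΔ : W.Δ ≠ 0) (hp2 : p ≠ 2) (hirr : W.ModRepIsIrreducible p)
    (hpM : ¬ p ∣ M) (hmod : CofiniteResModular W p (p * M))
    (hconj : HasConjInput (p * M) p) {b d : ℤ} (h : (p : ℤ) * d - (M : ℤ) * b = 1)
    (hcor : ∀ T : Finset ℕ, (∀ q : ℕ, q.Prime → q ∣ p * M → q ∈ T) →
      ∀ φ : Additive (Gamma0 (p * M)) →+ ZMod p, IsParabolicHom (Gamma0 (p * M)) φ →
        (∀ (ℓ : ℕ) [Fact ℓ.Prime] (hℓ : ¬ ℓ ∣ p * M), ℓ ∉ T →
          HeckeLattice.transfer hℓ φ = W.apOfModel ℓ • φ) →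
        (corReps h hpM).transfer φ = 0)
    (O : Subring ℂ) (hloc : HasLocalSplit W p O) : HasClass W p h hpM O := by
  classical
  have : NeZero (p * M) := ⟨mul_ne_zero (Fact.out : p.Prime).ne_zero (NeZero.ne M)⟩
  have : NeZero (p * (2 * M)) :=
    ⟨mul_ne_zero (Fact.out : p.Prime).ne_zero (mul_ne_zero two_ne_zero (NeZero.ne M))⟩
  have : NeZero (p * (2 * M) * p) := ⟨mul_ne_zero (NeZero.ne _) (Fact.out : p.Prime).ne_zero⟩
  obtain ⟨x, η, c₀, hx, hη, hfix⟩ := hloc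
  obtain ⟨S, hS⟩ := hconj (p * (2 * M)) (dvd_mul_of_dvd_right (dvd_mul_right 2 M) p)
    (mul_dvd_mul_left p (dvd_mul_left M 2))
  obtain ⟨S', -⟩ := hconj (p * (2 * M) * p)
    (dvd_mul_of_dvd_left (dvd_mul_of_dvd_right (dvd_mul_right 2 M) p) p)
    (dvd_mul_of_dvd_left (mul_dvd_mul_left p (dvd_mul_left M 2)) p)
  obtain ⟨T₀, -, -, φ, hφ, hφ0, hφT₀⟩ := exists_eigen_of_cofiniteResModular hmod
  set T : Finset ℕ := T₀ ∪ (p * M).primeFactors ∪ {p} ∪ W.Δ.natAbs.primeFactors with hTdef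
  have hT : ∀ q : ℕ, q.Prime → (q ∣ p * M ∨ q = p ∨ ¬ W.IsGoodPrimeFor q) → q ∈ T := by
    intro q hq hcase
    simp only [hTdef, Finset.mem_union, Finset.mem_singleton, Nat.mem_primeFactors]
    rcases hcase with h1 | h1 | h1
    · exact Or.inl (Or.inl (Or.inr ⟨hq, h1, NeZero.ne _⟩))
    · exact Or.inl (Or.inr h1)
    · exact Or.inr ⟨hq, Int.natCast_dvd.mp (not_not.mp h1), Int.natAbs_ne_zero.mpr hΔ⟩
  have hne : ∃ y ∈ eigenPart W (p * M) p T, y ≠ 0 :=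
    ⟨⟨φ, hφ⟩, fun ℓ _ hℓ hℓT => hφT₀ ℓ hℓ fun h' => hℓT (by simp [hTdef, h']),
      fun h0 => hφ0 (congrArg Subtype.val h0)⟩
  let J : parabolicHoms ℤ (Gamma0 (p * M)) (ZMod p) →+
      parabolicHoms ℤ (Gamma0 (p * M)) (ZMod p) :=
    AddMonoidHom.mk' (alChar h) fun y z => Subtype.ext (map_add (alReps h).transfer y.1 z.1)
  have hJT : ∀ y ∈ eigenPart W (p * M) p T, J y ∈ eigenPart W (p * M) p T := by
    intro y hy ℓ _ hℓ hℓT
    show HeckeLattice.transfer hℓ ((alReps h).transfer y.1) = _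
    rw [← al_transfer_comm h hℓ, hy ℓ hℓ hℓT, map_zsmul]
    rfl
  have hJS : ∀ σ y, S.galRep σ (J y) = J (S.galRep σ y) := by
    intro σ y
    obtain ⟨σ', hσ', -⟩ := S.exists_isCharConj σ y
    rw [S.galRep_apply, S.galRep_apply, S.galChar_eq hσ', S.galChar_eq hσ']
    exact conjChar_alChar h S S' σ' y
  obtain ⟨v, hv, hvfix⟩ := exists_vector W hΔ hx
  obtain ⟨χ, hχT, α, hχ0, hα, hJχ, hgal⟩ := exists_fixed_eigen S hΔ hS hT hp2 hirr hne J
    (fun y => Subtype.ext (al_al h y.1)) hJT hJS hv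
  obtain ⟨g₀, hg₀⟩ := KummerES.exists_isKummer S.gamma_le χ
  obtain ⟨K, hK⟩ := KummerES.exists_poleBound hg₀.pow_mem
  obtain ⟨g, hg⟩ := KummerES.exists_isCanon S.gamma_le hg₀ hK
  have hW : (alReps h).transfer χ.1 = α • χ.1 := congrArg Subtype.val hJχ
  have hTN : ∀ q : ℕ, q.Prime → q ∣ p * M → q ∈ T := fun q hq hqM => hT q hq (Or.inl hqM)
  obtain ⟨ℓ, hℓ, hℓT, hℓne⟩ := exists_prime_trace_ne hΔ hp2 hirr T
  refine ⟨η, c₀, χ, -α, T, g, hη, hχ0, ?_, hg.kummer, fun i => ?_, hg.lead, ?_, ?_,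
    hcor T hTN χ.1 χ.2 hχT, fun ℓ _ hℓ hℓT => hχT ℓ hℓ hℓT,
    ℓ, hℓ, hℓT, fun hd => hℓT (hTN ℓ hℓ hd), hℓne⟩
  · rcases hα with rfl | rfl <;> simp
  · refine mem_of_forall_fixed _ _ fun σ hσ => ?_
    obtain ⟨σ₀, hσ₀⟩ := exists_galois_restrict σ
    have hfixx : σ₀ • x = x := hfix σ σ₀
      (fun z hz => hσ z (Subfield.subset_closure (Or.inl hz))) hσ₀
      (hσ η (Subfield.subset_closure (Or.inr rfl)))
    have hχfix : S.conjChar σ χ = χ := by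
      rw [← S.galChar_eq (σ := σ₀) (σ' := σ) (fun z => (hσ₀ z).symm), ← S.galRep_apply]
      exact hgal σ₀ (hvfix σ₀ hfixx)
    obtain ⟨g', hg', hexp⟩ := S.exists_isCanon_conj σ hg
    rw [hχfix] at hg'
    rw [hg'.pow_eq S.gamma_le hg] at hexp
    conv_rhs => rw [hexp]
    simp
  · rw [neg_neg]; exact hW
  · have hWW : (corReps h hpM).transfer ((alReps h).transfer χ.1) = 0 :=
      hcor T hTN _ (al_isParabolicHom h χ.2) (hJT χ hχT)
    rw [u_eq_neg_al h hpM hWW, hW]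
    exact (neg_smul α χ.1).symm

/-- **The class**, for `p ≥ 5`. -/
theorem exists_class (hΔ : W.Δ ≠ 0) (hp5 : 5 ≤ p) (hirr : W.ModRepIsIrreducible p)
    (hpM : ¬ p ∣ M) (hmod : CofiniteResModular W p (p * M)) (hnot : ¬ CofiniteResModular W p M)
    (hconj : HasConjInput (p * M) p) {b d : ℤ} (h : (p : ℤ) * d - (M : ℤ) * b = 1)
    (O : Subring ℂ) (hloc : HasLocalSplit W p O) : HasClass W p h hpM O :=
  haveI : NeZero (p * M) := ⟨mul_ne_zero (Fact.out : p.Prime).ne_zero (NeZero.ne M)⟩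
  hasClass_of_cor hΔ (by omega) hirr hpM hmod hconj h
    (fun T hT φ hφ ha => corReps_transfer_eq_zero hp5 hpM hnot h T hT φ hφ ha) O hloc

end Fermat.Agent.AtP

end
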