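import Fermat.Agent.AtP.ClassCoeff
import Fermat.Agent.AtP.ClassResidual
import Fermat.Agent.LowerAtP.GeneralVector
import Fermat.Agent.OrdinaryExclusion.Residual
import Fermat.Agent.OrdinaryExclusion.QBasisExists
import Fermat.Agent.LevelLowering.Core
import Fermat.Agent.GaloisBasics.Galois
import Mathlib.GroupTheory.PGroup

/-!
# A curve with supersingular reduction at `p` is not congruent to a form of level `p M` new at `p`

A form new at `p ∥ N` has `a_p = ± 1`, so some eigen point of `J₀(N)[p]` is multiplied by the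
cyclotomic character under inertia at `p`. Then `1` is an eigenvalue of every inertia element
fixing `ζ_p`; these act unipotently on `W[p]`, hence fix a nonzero vector, which supersingular
reduction forbids.
-/

set_option autoImplicit false

noncomputable section

open Matrix
open IsLocalRing (maximalIdeal ResidueField)
open scoped WeierstrassCurve.Affine

namespace Fermat.Agent.AtP

open GaloisBasics (Qbar GalQ)
open TWHyp (residualRep basisOf)

variable {p : ℕ} [hp : Fact p.Prime]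

section Local

variable {O K Ω : Type} [CommRing O] [IsDomain O] [IsDiscreteValuationRing O]
  [IsAdicComplete (maximalIdeal O) O] [IsAlgClosed (ResidueField O)] [Field K] [Algebra O K]
  [IsFractionRing O K] [Field Ω] [Algebra K Ω] [Algebra O Ω] [IsScalarTower O K Ω] [CharZero Ω]
  [IsAlgClosure K Ω]

omit [CharZero Ω] hp [IsAdicComplete (maximalIdeal O) O] [IsAlgClosed (ResidueField O)] in
/-- The place of `ℚ̄` under `ι` and the valuation of `Ω`. -/
lemma mem_comap_nonunits (A : ValuationSubring Ω) (ι : Qbar →+* Ω) (x : Qbar) :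
    (A.comap ι).valuation x < 1 ↔ A.valuation (ι x) < 1 := by
  rw [← not_le, ← not_le]
  refine not_congr ?_
  rcases eq_or_ne x 0 with rfl | hx
  · simp
  · rw [← inv_le_one₀ (zero_lt_iff.mpr ((Valuation.ne_zero_iff _).mpr hx)),
      ← inv_le_one₀ (zero_lt_iff.mpr ((Valuation.ne_zero_iff _).mpr ((_root_.map_ne_zero ι).mpr hx))),
      ← map_inv₀, ← map_inv₀ A.valuation, ← map_inv₀ ι, ValuationSubring.valuation_le_one_iff,
      ValuationSubring.valuation_le_one_iff]
    rfl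

omit hp [IsAlgClosure K Ω] in
/-- A restriction to `ℚ̄` of an automorphism over `K` is in the inertia group of the place. -/
lemma restrict_mem_inertia {A : ValuationSubring Ω} (S : LowerAtP.LocalSetting K A p)
    (ι : Qbar →+* Ω) {σ : Ω ≃ₐ[K] Ω} {σ₀ : GalQ} (h : ∀ z, ι (σ₀ z) = σ (ι z)) :
    σ₀ ∈ (A.comap ι).inertiaSubgroupIn ℚ := by
  rw [LocalInertia.mem_inertiaSubgroupIn_iff, LocalInertia.mem_decompositionSubgroup_iff]
  refine ⟨fun x => ?_, fun x hx => ?_⟩
  · rw [ValuationSubring.mem_comap, ValuationSubring.mem_comap, ← A.valuation_le_one_iff,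
      ← A.valuation_le_one_iff, h, S.iso]
  · rw [mem_comap_nonunits, map_sub, h]
    exact S.trivial_res σ (ι x) ((A.valuation_le_one_iff _).mpr hx)

end Local

/-- Unipotent matrices of a group have a common fixed vector. -/
lemma exists_fixed_of_unipotent (H : Subgroup (GL (Fin 2) (ZMod p)))
    (hH : ∀ g ∈ H, ((g : Matrix (Fin 2) (Fin 2) (ZMod p)) - 1) ^ 2 = 0) :
    ∃ w : Fin 2 → ZMod p, w ≠ 0 ∧
      ∀ g ∈ H, (g : Matrix (Fin 2) (Fin 2) (ZMod p)) *ᵥ w = w := by
  have : NeZero p := ⟨hp.out.ne_zero⟩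
  have : CharP (Matrix (Fin 2) (Fin 2) (ZMod p)) p := Matrix.charP p
  have hP : IsPGroup p H := fun g => by
    refine ⟨1, Subtype.ext (Units.ext ?_)⟩
    have h1 := sub_pow_char_of_commute (p := p)
      (Commute.one_right ((g : GL (Fin 2) (ZMod p)) : Matrix (Fin 2) (Fin 2) (ZMod p)))
    rw [pow_eq_zero_of_le hp.out.two_le (hH _ g.2), one_pow, eq_comm, sub_eq_zero] at h1
    simpa using h1
  let : MulAction H (Fin 2 → ZMod p) :=
    { smul := fun g w => ((g : GL (Fin 2) (ZMod p)) : Matrix (Fin 2) (Fin 2) (ZMod p)) *ᵥ w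
      one_smul := fun w => one_mulVec w
      mul_smul := fun g g' w => (mulVec_mulVec w _ _).symm }
  obtain ⟨w, hw, hne⟩ := hP.exists_fixed_point_of_prime_dvd_card_of_fixed_point
    (Fin 2 → ZMod p) (by simp) (a := 0) (fun g => mulVec_zero _)
  exact ⟨w, fun h => hne h.symm, fun g hg => hw ⟨g, hg⟩⟩

/-- **The supersingular exclusion.** -/
theorem false_of_newformAt_supersingular {W : WeierstrassCurve ℤ} (hΔ : W.Δ ≠ 0) (hp2 : p ≠ 2)
    (hgood : W.IsGoodPrimeFor p) (hss : (p : ℤ) ∣ W.apOfModel p) {N : ℕ} [NeZero N] (hpN : p ∣ N)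
    (hT : OrdinaryCurve.OrdinaryTate p N)
    {f : CuspForm (CongruenceSubgroup.Gamma0 N) 2} (hf : f.IsNormalizedEigenform)
    {k : Type*} [Field k] [CharP k p] (φ : integralClosure ℤ ℂ →+* k) (S : Finset ℕ)
    (ha : ∀ ℓ : ℕ, ℓ.Prime → ℓ ∉ S → ∀ c : integralClosure ℤ ℂ,
      (c : ℂ) = ModularFormClass.qCoeff f ℓ → φ c = (W.apOfModel ℓ : k))
    (hu : ∀ c : integralClosure ℤ ℂ, (c : ℂ) = ModularFormClass.qCoeff f p → φ c ≠ 0) :
    False := by
  obtain ⟨Q⟩ := OrdinaryExclusion.nonempty_qBasis (N := N)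
  set T : Finset ℕ := S ∪ insert p N.primeFactors ∪ W.Δ.natAbs.primeFactors with hTdef
  obtain ⟨y, hy0, hy, hin⟩ := OrdinaryExclusion.exists_inertia_eigen hT Q hpN hf φ
    (S := T) (fun ℓ => W.apOfModel ℓ)
    (fun q hq hqN => by simp [hTdef, Nat.mem_primeFactors, hq, hqN, NeZero.ne N])
    (fun ℓ hℓ hℓT => ha ℓ hℓ fun hS => hℓT (by simp [hTdef, hS])) hu
  -- the representation
  set r := curveRep W hΔ p
  have hfrob : ∀ ℓ : ℕ, ℓ.Prime → ℓ ∉ T → ∀ A : ValuationSubring Qbar,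
      A.LiesOverPrime ℓ → ∀ φ : GalQ, A.IsFrobeniusAt φ ℓ →
        (r φ).trace = (W.apOfModel ℓ : ZMod p) ∧ (r φ).det = (ℓ : ZMod p) := by
    intro ℓ hℓ hℓT A hA φ hφ
    simp only [hTdef, Finset.mem_union, Finset.mem_insert, not_or] at hℓT
    refine curveRep_frobenius W hΔ p hℓ hℓT.1.2.1 (fun hd => hℓT.2 ?_) hA hφ
    exact Nat.mem_primeFactors.mpr ⟨hℓ, Int.natCast_dvd.mp hd, by simpa using hΔ⟩
  -- the local field
  obtain ⟨O, _, _, _, hirr⟩ := exists_coeffRing p
  let K := FractionRing O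
  let Ω := AlgebraicClosure K
  have : CharZero K := charZero_of_injective_ringHom
    (f := algebraMap O K) (IsFractionRing.injective O K)
  have : CharZero Ω := charZero_of_injective_algebraMap (algebraMap K Ω).injective
  have : IsAlgClosure K Ω := ⟨inferInstance, inferInstance⟩
  have : Algebra.IsAlgebraic ℚ Qbar := AlgebraicClosure.isAlgebraic ℚ
  let ι : Qbar →+* Ω := (IsAlgClosed.lift (R := ℚ) : Qbar →ₐ[ℚ] Ω).toRingHom
  have L := LowerAtP.localSetting O K Ω hp.out hirr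
  set A := (LowerAtP.closureRing O K Ω).comap ι
  have hA : A.LiesOverPrime p := by
    show (p : Qbar) ∈ A.nonunits
    rw [ValuationSubring.mem_nonunits_iff, mem_comap_nonunits, map_natCast]
    exact L.lt_one
  obtain ⟨τ, hτ⟩ := GaloisBasics.exists_smul_eq
    (PoitouTate.padicPlace_liesOverPrime p) hA hp.out
  have : NeZero p := ⟨hp.out.ne_zero⟩
  have : NeZero (p : Ω) := ⟨Nat.cast_ne_zero.mpr hp.out.ne_zero⟩
  obtain ⟨ζ, hζ⟩ := HasEnoughRootsOfUnity.exists_primitiveRoot Ω p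
  let G : Subgroup GalQ :=
    { carrier := {σ₀ | ∃ σ : Ω ≃ₐ[K] Ω, σ ζ = ζ ∧ ∀ z, ι (σ₀ z) = σ (ι z)}
      one_mem' := ⟨1, rfl, fun _ => rfl⟩
      mul_mem' := fun {a b} ⟨s, hs, hs'⟩ ⟨t, ht, ht'⟩ =>
        ⟨s * t, by rw [AlgEquiv.mul_apply, ht, hs],
          fun z => by rw [AlgEquiv.mul_apply, hs', ht']; rfl⟩
      inv_mem' := fun {a} ⟨s, hs, hs'⟩ => by
        refine ⟨s⁻¹, ?_, fun z => s.injective ?_⟩
        · exact (AlgEquiv.symm_apply_eq s).mpr hs.symm
        · rw [← hs', ← AlgEquiv.mul_apply, ← AlgEquiv.mul_apply, mul_inv_cancel, mul_inv_cancel]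
          rfl }
  -- the elements of `G` fix the roots of unity and act unipotently
  have hmu : ∀ σ₀ ∈ G, ∀ μ : Qbar, μ ^ p = 1 → σ₀ μ = μ := by
    rintro σ₀ ⟨σ, hσ, h⟩ μ hμ
    obtain ⟨i, -, hi⟩ := hζ.eq_pow_of_pow_eq_one (ξ := ι μ) (by rw [← map_pow, hμ, map_one])
    exact ι.injective (by rw [h, ← hi, map_pow, hσ])
  have huni : ∀ σ₀ ∈ G, (r σ₀ - 1) ^ 2 = 0 := by
    intro σ₀ h0
    obtain ⟨σ, hσ, h⟩ := id h0
    have hmem : τ⁻¹ * σ₀ * τ ∈ (padicPlace p).inertiaSubgroupIn ℚ := by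
      rw [← GaloisBasics.inertiaSubgroupIn_smul_iff (τ⁻¹ * σ₀ * τ) τ, hτ,
        show τ * (τ⁻¹ * σ₀ * τ) * τ⁻¹ = σ₀ by group]
      exact restrict_mem_inertia L ι h
    have hfix := hin _ hmem 1 fun μ hμ => by
      rw [pow_one, AlgEquiv.mul_apply, AlgEquiv.mul_apply,
        hmu σ₀ h0 (τ μ) (by rw [← map_pow, hμ, map_one]), ← AlgEquiv.mul_apply, inv_mul_cancel]
      rfl
    have hfix' : σ₀ • (τ • y) = 1 • (τ • y) := by
      rw [one_smul] at hfix ⊢
      conv_rhs => rw [← hfix]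
      rw [← mul_smul, ← mul_smul]
      congr 1
      group
    have hy' := OrdinaryExclusion.smul_mem_eigenPoints τ hy
    have hdet : (r σ₀).det = 1 := by
      have h1 := (TWHyp.residualRep_detIsCyclotomic (p := p) W hΔ).2 1 σ₀ 1
        (by simpa using hmu σ₀ h0)
      rw [pow_one, ZMod.natCast_self, Ideal.mem_span_singleton, zero_dvd_iff, sub_eq_zero,
        Nat.cast_one] at h1
      exact (RepTheory.det_matRep _ _ σ₀).trans h1
    have htr : (r σ₀).trace = 2 := by
      by_contra hne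
      refine hy0 (eq_zero_of_galois_smul_eq_zero τ (OrdinaryExclusion.eq_zero_of_smul_eq r
        (curveRep_finiteLevel W hΔ p) hfrob hy' hfix' ?_))
      rw [hdet, Nat.cast_one]
      intro h2
      exact hne (by linear_combination -h2)
    rw [trace_fin_two] at htr
    rw [det_fin_two] at hdet
    ext i j
    fin_cases i <;> fin_cases j <;> simp [pow_two, Matrix.mul_apply, Fin.sum_univ_two]
    · linear_combination (r σ₀ 0 0) * htr - hdet
    · linear_combination (r σ₀ 0 1) * htr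
    · linear_combination (r σ₀ 1 0) * htr
    · linear_combination (r σ₀ 1 1) * htr - hdet
  -- a fixed vector
  obtain ⟨w, hw0, hw⟩ := exists_fixed_of_unipotent (G.map r.toHomUnits) (by
    rintro _ ⟨σ₀, hσ₀, rfl⟩
    exact huni σ₀ hσ₀)
  set b := basisOf (residualRep W hΔ p)
  set x := b.equivFun.symm w
  have hx0 : x ≠ 0 := (LinearEquiv.map_ne_zero_iff _).mpr hw0
  refine hx0 (LowerAtP.eq_zero_of_fixed_supersingular (O := O) (K := K) W hp2 hgood hss hirr ι hζ x
    fun σ σ₀ h hσ => ?_)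
  have h1 := hw _ (Subgroup.mem_map_of_mem r.toHomUnits (show σ₀ ∈ G from ⟨σ, hσ, h⟩))
  show (residualRep W hΔ p).ρ σ₀ x = x
  refine b.equivFun.injective ?_
  rw [LinearEquiv.apply_symm_apply]
  refine Eq.trans ?_ h1
  have h2 := LinearMap.toMatrix_mulVec_repr b b ((residualRep W hΔ p).ρ σ₀) x
  rw [show b.repr x = b.equivFun x from rfl, LinearEquiv.apply_symm_apply] at h2
  exact h2.symm
where
  eq_zero_of_galois_smul_eq_zero {N : ℕ} [NeZero N] (τ : GalQ) {y : ModularCurve.JZero N}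
      (h : τ • y = 0) : y = 0 := by
    have := congrArg (τ⁻¹ • ·) h
    simp only [inv_smul_smul] at this
    rw [this]
    exact (DistribSMul.toAddMonoidHom (ModularCurve.JZero N) τ⁻¹).map_zero

/-- **Level lowering at a supersingular prime**: a congruence at level `p M` gives one at level
`M`. -/
theorem cofiniteResModular_of_supersingular {W : WeierstrassCurve ℤ} (hΔ : W.Δ ≠ 0) (hp2 : p ≠ 2)
    (hgood : W.IsGoodPrimeFor p) (hss : (p : ℤ) ∣ W.apOfModel p) {M : ℕ} [NeZero M]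
    (hpM : ¬ p ∣ M) (hT : ∀ [NeZero (p * M)], OrdinaryCurve.OrdinaryTate p (p * M))
    (h : LevelLowering.CofiniteResModular W p (p * M)) :
    LevelLowering.CofiniteResModular W p M := by
  classical
  obtain ⟨f, 𝔪, hf, hmax, hp𝔪, S, hS⟩ := h
  have : NeZero (p * M) := ⟨mul_ne_zero hp.out.ne_zero (NeZero.ne M)⟩
  by_cases hocc : f.GoodEigensystemOccursAt M
  · obtain ⟨g, hg, hgf⟩ := hocc
    refine ⟨g, 𝔪, hg, hmax, hp𝔪, S ∪ (p * M).primeFactors, fun ℓ hℓ hℓS => ?_⟩
    rw [Finset.mem_union, Nat.mem_primeFactors, not_or] at hℓS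
    rw [hgf ℓ hℓ fun hd => hℓS.2 ⟨hℓ, hd, NeZero.ne _⟩]
    exact hS ℓ hℓ hℓS.1
  exfalso
  have hnew : f.IsNewformAt p := ⟨hf, dvd_mul_right p M, by
    rwa [Nat.mul_div_cancel_left M hp.out.pos]⟩
  have hsq := Newforms.qCoeff_sq_eq_one_of_isNewformAt hp.out (fun h2 => hpM
    ((Nat.mul_dvd_mul_iff_left hp.out.pos).mp (by rwa [← pow_two]))) f hnew
  let := Ideal.Quotient.field 𝔪
  have : CharP (integralClosure ℤ ℂ ⧸ 𝔪) p :=
    (CharP.charP_iff_prime_eq_zero hp.out).2 (by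
      rw [← map_natCast (Ideal.Quotient.mk 𝔪)]
      exact Ideal.Quotient.eq_zero_iff_mem.2 hp𝔪)
  refine false_of_newformAt_supersingular hΔ hp2 hgood hss (dvd_mul_right p M) hT hf
    (Ideal.Quotient.mk 𝔪) S (fun ℓ hℓ hℓS c hc => ?_) fun c hc h0 => ?_
  · obtain ⟨c', hc', hcm⟩ := hS ℓ hℓ hℓS
    obtain rfl : c = c' := Subtype.ext (hc.trans hc'.symm)
    rw [← map_intCast (Ideal.Quotient.mk 𝔪)]
    exact (Ideal.Quotient.mk_eq_mk_iff_sub_mem _ _).2 hcm
  · have e : c ^ 2 = 1 := Subtype.ext (by simp [hc, hsq])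
    have := congrArg (Ideal.Quotient.mk 𝔪) e
    rw [map_pow, h0, map_one, zero_pow two_ne_zero] at this
    exact zero_ne_one this

end Fermat.Agent.AtP

end
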