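import Fermat.Agent.AtP.ClassLiftInt

/-!
# Lifting homomorphisms that vanish on elliptic elements of order three

A parabolic homomorphism modulo `n` vanishing at the elements of trace `1` has its double lifted to
an integral parabolic homomorphism; no factor `3` is needed.
-/

set_option autoImplicit false

noncomputable section

open Matrix CongruenceSubgroup ModularCurve.Period
open scoped MatrixGroups

namespace Fermat.Agent.AtP

open LevelRaising

section Graph

variable {X : Type} {t : Equiv.Perm X} [Fintype X] [Nonempty X] {s : Equiv.Perm X}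
  (hs : ∀ x, s (s x) = x) (ht : ∀ x, t (t (t x)) = x)
  (hconn : ∀ {Q : Type} (f : X → Q), (∀ x, f (s x) = f x) → (∀ x, f (t x) = f x) →
    ∀ x y, f x = f y)

include hs ht hconn

/-- Twice a solution modulo `n` that vanishes at the fixed points of `t` lifts to an integral
solution. -/
theorem exists_int_lift_of_fixed {n : ℕ} [NeZero n] (F : X → ZMod n) (hFs : ∀ x, F (s x) = -F x)
    (hFt : ∀ x, F x + F (t x) + F (t (t x)) = 0) (hF0 : ∀ x, t x = x → F x = 0) :
    ∃ G : X → ℤ, (∀ x, G (s x) = -G x) ∧ (∀ x, triSum t G x = 0) ∧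
      ∀ x, (G x : ZMod n) = 2 * F x := by
  classical
  set G₀ : X → ℤ := fun x => ((F x).val : ℤ) - ((F (s x)).val : ℤ) with hG₀
  have hmod : ∀ x, (G₀ x : ZMod n) = 2 * F x := fun x => by
    simp [hG₀, hFs, two_mul]
  have hdvd : ∀ x, (n : ℤ) ∣ triSum t G₀ x := fun x => by
    rw [← ZMod.intCast_zmod_eq_zero_iff_dvd, triSum_apply, Int.cast_add, Int.cast_add, hmod, hmod,
      hmod, ← mul_add, ← mul_add, hFt, mul_zero]
  choose E hE using hdvd
  have hn : (n : ℤ) ≠ 0 := Int.natCast_ne_zero.mpr (NeZero.ne n)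
  have hEt : ∀ x, E (t x) = E x := fun x => mul_left_cancel₀ hn (by
    rw [← hE, ← hE, triSum_apply, triSum_apply, ht]; ring)
  have hG0 : ∀ x, t x = x → G₀ x = 0 := fun x hx => by simp [hG₀, hFs, hF0 x hx]
  have hE0 : ∀ x, t x = x → E x = 0 := fun x hx => mul_left_cancel₀ hn (by
    rw [← hE, triSum_apply, hx, hx, hG0 x hx, mul_zero]; rfl)
  have hsum : ∑ x, E x = 0 := by
    refine mul_left_cancel₀ hn ?_
    rw [Finset.mul_sum, mul_zero, ← Finset.sum_congr rfl fun x _ => hE x]
    show ∑ x, (G₀ x + G₀ (t x) + G₀ (t (t x))) = 0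
    simp only [Finset.sum_add_distrib]
    have h0 : ∑ x, G₀ x = 0 := by
      simp only [hG₀, Finset.sum_sub_distrib]
      rw [Equiv.sum_comp s (fun x => ((F x).val : ℤ)), sub_self]
    rw [h0, Equiv.sum_comp t G₀, h0, zero_add, zero_add,
      show (∑ x, G₀ (t (t x))) = ∑ x, G₀ x from
        (Equiv.sum_comp t (fun x => G₀ (t x))).trans (Equiv.sum_comp t G₀), h0]
  -- one representative in each orbit
  set r : X → ℕ := fun x => (Fintype.equivFin X x : ℕ) with hr
  have hrinj : Function.Injective r := Fin.val_injective.comp (Equiv.injective _)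
  set E' : X → ℤ := fun x => if r x < r (t x) ∧ r x < r (t (t x)) then E x else 0 with hE'
  have hE'sum : ∀ x, triSum t E' x = E x := by
    intro x
    show E' x + E' (t x) + E' (t (t x)) = E x
    simp only [hE', ht, hEt]
    by_cases hx : t x = x
    · simp [hx, hE0 x hx]
    have h1 : r x ≠ r (t x) := fun h => hx (hrinj h).symm
    have h2 : r (t x) ≠ r (t (t x)) := fun h => hx (t.injective (hrinj h).symm)
    have h3 : r x ≠ r (t (t x)) := fun h => hx (by
      have := congrArg t (hrinj h)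
      rw [ht] at this
      exact this)
    split_ifs <;> omega
  have hsum' : ∑ x, E' x = 0 := by
    have h : ∑ x, triSum t E' x = 3 * ∑ x, E' x := by
      simp only [triSum_apply, Finset.sum_add_distrib]
      rw [show (∑ x, E' (t (t x))) = ∑ x, E' x from
        (Equiv.sum_comp t (fun x => E' (t x))).trans (Equiv.sum_comp t E'), Equiv.sum_comp t E']
      ring
    simp only [hE'sum, hsum] at h
    omega
  obtain ⟨H, hH, hHE⟩ := exists_odd_triSum_eq hs ht hconn E' hsum'
  refine ⟨fun x => G₀ x - n * H x, fun x => ?_, fun x => ?_, fun x => ?_⟩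
  · simp only [hG₀, hs, hH x]; ring
  · have h1 := congrFun hHE x
    rw [hE'sum, triSum_apply] at h1
    have h2 := hE x
    simp only [triSum_apply] at h2
    simp only [triSum_apply]
    linear_combination h2 - (n : ℤ) * h1
  · simp [hmod]

end Graph

variable {N n : ℕ} [NeZero N] [NeZero n]

/-- Twice a functional modulo `n` on modular symbols, vanishing at the edges fixed by `τ`, is the
reduction of an integral one. -/
theorem exists_modSym_lift_of_fixed (φ : ModSym N →+ ZMod n)
    (hφ : ∀ g, rightCoset N (g * tau) = rightCoset N g → φ (unimod N g) = 0) :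
    ∃ Φ : ModSym N →+ ℤ, (Int.castAddHom (ZMod n)).comp Φ = 2 • φ := by
  let _ := Fintype.ofFinite (SL(2, ℤ) ⧸ Gamma0 N)
  obtain ⟨G, hGs, hGt, hGF⟩ := exists_int_lift_of_fixed (n := n) cosetS_cosetS cosetTau_cube
    (fun f h1 h2 => apply_eq_of_invariant f h1 h2) (edgeValue φ) (edgeValue_S φ)
    (edgeValue_triangle φ) fun x hx => by
      obtain ⟨g, rfl⟩ : ∃ g, x = rightCoset N g := ⟨cosetRep x, (rightCoset_cosetRep x).symm⟩
      rw [cosetTau_rightCoset] at hx
      rw [edgeValue_rightCoset]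
      exact hφ g hx
  exact exists_modSym_lift_of_edgeLift φ 2 G hGs hGt fun x => by rw [hGF x]; norm_num

/-- Twice a parabolic homomorphism vanishing at the elements of trace `1` lifts. -/
theorem exists_parabolic_lift_of_elliptic (χ : Additive (Gamma0 N) →+ ZMod n)
    (hχ : IsParabolicHom (Gamma0 N) χ)
    (hell : ∀ γ : Gamma0 N, (γ : SL(2, ℤ)) 0 0 + (γ : SL(2, ℤ)) 1 1 = 1 →
      χ (Additive.ofMul γ) = 0) :
    ∃ X : Additive (Gamma0 N) →+ ℤ, IsParabolicHom (Gamma0 N) X ∧
      (Int.castAddHom (ZMod n)).comp X = 2 • χ := by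
  obtain ⟨φ, rfl⟩ := exists_comp_cycleHom_eq χ hχ
  have hφ : ∀ g, rightCoset N (g * tau) = rightCoset N g → φ (unimod N g) = 0 := by
    intro g hg
    rw [rightCoset_eq_iff] at hg
    let γ : Gamma0 N := ⟨g * tau * g⁻¹, hg⟩
    have hγ := hell γ (by
      have htr : ∀ A B : SL(2, ℤ), (A * B * A⁻¹ : SL(2, ℤ)) 0 0 + (A * B * A⁻¹ : SL(2, ℤ)) 1 1 =
          B 0 0 + B 1 1 := fun A B => by
        have h := Matrix.trace_mul_comm (A : Matrix (Fin 2) (Fin 2) ℤ)
          ((B * A⁻¹ : SL(2, ℤ)) : Matrix (Fin 2) (Fin 2) ℤ)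
        rw [← Matrix.SpecialLinearGroup.coe_mul, ← Matrix.SpecialLinearGroup.coe_mul,
          ← mul_assoc, inv_mul_cancel_right, Matrix.trace_fin_two, Matrix.trace_fin_two] at h
        exact h
      show (g * tau * g⁻¹ : SL(2, ℤ)) 0 0 + (g * tau * g⁻¹ : SL(2, ℤ)) 1 1 = 1
      rw [htr]
      simp [tau, Matrix.SpecialLinearGroup.coe_mul, ModularGroup.coe_T, ModularGroup.coe_S,
        Matrix.mul_apply, Fin.sum_univ_two])
    have hw : mat g *ᵥ vecInfty ≠ 0 := mat_mulVec_ne_zero g vecInfty_ne_zero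
    have hone : mat tau *ᵥ vecInfty = ![1, 1] := by
      ext i; fin_cases i <;> simp [mat_tau, vecInfty]
    have h0 : mat tau *ᵥ vecZero = (-1 : ℤ) • vecInfty := by
      ext i; fin_cases i <;> simp [mat_tau, vecZero, vecInfty]
    have hcyc : cycleHom N (Additive.ofMul γ) = unimod N (g * tau) := by
      rw [cycleHom_eq N γ hw, unimod, mat_mul g tau, ← mulVec_mulVec, ← mulVec_mulVec, h0,
        mulVec_smul, symb_scale_left (by norm_num)]
      congr 1
      show mat (g * tau * g⁻¹) *ᵥ _ = _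
      rw [mulVec_mulVec, ← mat_mul, inv_mul_cancel_right, mat_mul, ← mulVec_mulVec]
    rw [AddMonoidHom.comp_apply, hcyc] at hγ
    rw [unimod_eq_cosetRep g, ← (rightCoset_eq_iff.mpr hg), ← unimod_eq_cosetRep]
    exact hγ
  obtain ⟨Φ, hΦ⟩ := exists_modSym_lift_of_fixed φ hφ
  refine ⟨Φ.comp (cycleHom N), isParabolicHom_comp_cycleHom Φ, ?_⟩
  rw [← AddMonoidHom.comp_assoc, hΦ]
  exact AddMonoidHom.ext fun x => by simp

end Fermat.Agent.AtP

end
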