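import Fermat.Agent.AtP.ClassThreeElliptic
import Fermat.Agent.AtP.ClassThreeLift
import Fermat.Agent.AtP.ClassConjInput

/-!
# The class for `p = 3`

Eigen characters modulo `3` of an irreducible system vanish at the elements of trace `1`: for a
prime `ℓ ≡ 1 mod 3` with `a_ℓ ≠ 2` the operator `T_ℓ` multiplies these values by `2`.  So they lift,
and the class construction works as for `p ≥ 5`.
-/

set_option autoImplicit false

noncomputable section

open CongruenceSubgroup ModularCurve.Period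
open scoped MatrixGroups

namespace Fermat.Agent.AtP

open LevelLowering (CofiniteResModular)

section Three

variable {W : WeierstrassCurve ℤ} [Fact (Nat.Prime 3)] {N : ℕ} [NeZero N]

omit [NeZero N] in
/-- Eigen characters modulo `3` vanish at elements of trace `1`. -/
theorem eigen_apply_eq_zero_of_trace_one (hΔ : W.Δ ≠ 0) (hirr : W.ModRepIsIrreducible 3)
    (φ : Additive (Gamma0 N) →+ ZMod 3) (hφ : IsParabolicHom (Gamma0 N) φ) (T : Finset ℕ)
    (hNT : ∀ q : ℕ, q.Prime → q ∣ N → q ∈ T)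
    (ha : ∀ (ℓ : ℕ) [Fact ℓ.Prime] (hℓN : ¬ ℓ ∣ N), ℓ ∉ T →
      HeckeLattice.transfer hℓN φ = W.apOfModel ℓ • φ)
    (γ : Gamma0 N) (ht : (γ : SL(2, ℤ)) 0 0 + (γ : SL(2, ℤ)) 1 1 = 1) :
    φ (Additive.ofMul γ) = 0 := by
  set c := (γ : SL(2, ℤ)) 1 0 with hcdef
  have hc0 : c ≠ 0 := fun h => by
    have hdet := (γ : SL(2, ℤ)).det_coe
    rw [Matrix.det_fin_two, ← hcdef, h, mul_zero, sub_zero] at hdet
    rcases Int.eq_one_or_neg_one_of_mul_eq_one hdet with h' | h' <;>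
      rw [h'] at hdet ht <;> omega
  set m := (∏ q ∈ T.filter Nat.Prime, q) * c.natAbs with hm
  have hm0 : 0 < m := Nat.mul_pos (Finset.prod_pos fun q hq => (Finset.mem_filter.mp hq).2.pos)
    (Int.natAbs_pos.mpr hc0)
  obtain ⟨ℓ, hℓ, hℓm, -, hone, htr⟩ :=
    LevelRaisingPrime.exists_prime_one_mod_trace_ne_two W 3
      hΔ (by norm_num) (TWHyp.frobeniusTraceDet _ _) hirr m hm0
  have := Fact.mk hℓ
  have hℓT : ℓ ∉ T := fun hT => hℓm (dvd_mul_of_dvd_left (dvd_mul_of_dvd_left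
    (Finset.dvd_prod_of_mem (fun q => q) (Finset.mem_filter.mpr ⟨hT, hℓ⟩)) _) _)
  have hℓc : ¬ (ℓ : ℤ) ∣ c := fun h =>
    hℓm (dvd_mul_of_dvd_left (dvd_mul_of_dvd_right (Int.natCast_dvd.mp h) _) _)
  have h3 : ℓ % 3 = 1 := by
    have h := congrArg (ZMod.castHom (dvd_mul_right 3 m) (ZMod 3)) hone
    simp only [map_natCast, map_one] at h
    simpa using (ZMod.natCast_eq_natCast_iff' ℓ 1 3).mp (by simpa using h)
  have hℓN : ¬ ℓ ∣ N := fun h => hℓT (hNT ℓ hℓ h)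
  have e := DFunLike.congr_fun (ha ℓ hℓN hℓT) (Additive.ofMul γ)
  rw [transfer_apply_of_trace_one hℓN γ h3 ht hℓc φ
      (hφ _ (by simp [negOne])),
    AddMonoidHom.smul_apply, zsmul_eq_mul, nsmul_eq_mul, eq_comm, ← sub_eq_zero, ← sub_mul,
    mul_eq_zero] at e
  exact e.resolve_left (sub_ne_zero.mpr htr)

/-- An eigen parabolic character modulo `3` of an irreducible system gives a congruent
eigenform. -/
theorem cofiniteResModular_of_eigen_three (hΔ : W.Δ ≠ 0) (hirr : W.ModRepIsIrreducible 3)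
    (φ : Additive (Gamma0 N) →+ ZMod 3) (hφ : IsParabolicHom (Gamma0 N) φ) (hφ0 : φ ≠ 0)
    (T : Finset ℕ) (hNT : ∀ q : ℕ, q.Prime → q ∣ N → q ∈ T)
    (ha : ∀ (ℓ : ℕ) [Fact ℓ.Prime] (hℓN : ¬ ℓ ∣ N), ℓ ∉ T →
      HeckeLattice.transfer hℓN φ = W.apOfModel ℓ • φ) :
    CofiniteResModular W 3 N := by
  obtain ⟨X, hX, hXφ⟩ := exists_parabolic_lift_of_elliptic φ hφ fun γ ht =>
    eigen_apply_eq_zero_of_trace_one hΔ hirr φ hφ T hNT ha γ ht
  exact cofiniteResModular_of_lift φ ⟨2, X, by rw [Ne, ZMod.natCast_eq_zero_iff]; norm_num, hX, hXφ⟩ hφ0 T hNT ha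

end Three

/-- An eigen parabolic character of an irreducible system modulo an odd prime gives a congruent
eigenform. -/
theorem cofiniteResModular_of_eigen_of_odd {W : WeierstrassCurve ℤ} {p : ℕ} [hp : Fact p.Prime]
    (hΔ : W.Δ ≠ 0) (hp2 : p ≠ 2) (hirr : W.ModRepIsIrreducible p) {N : ℕ} [NeZero N]
    (φ : Additive (Gamma0 N) →+ ZMod p) (hφ : IsParabolicHom (Gamma0 N) φ) (hφ0 : φ ≠ 0)
    (T : Finset ℕ) (hNT : ∀ q : ℕ, q.Prime → q ∣ N → q ∈ T)
    (ha : ∀ (ℓ : ℕ) [Fact ℓ.Prime] (hℓN : ¬ ℓ ∣ N), ℓ ∉ T →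
      HeckeLattice.transfer hℓN φ = W.apOfModel ℓ • φ) :
    CofiniteResModular W p N := by
  by_cases h3 : p = 3
  · subst h3
    exact cofiniteResModular_of_eigen_three hΔ hirr φ hφ hφ0 T hNT ha
  · have h4 : p ≠ 4 := fun h => Nat.not_prime_mul (a := 2) (b := 2) (by norm_num) (by norm_num)
      (show Nat.Prime (2 * 2) by rw [show 2 * 2 = p by omega]; exact hp.out)
    exact cofiniteResModular_of_eigen (by have := hp.out.two_le; omega) φ hφ hφ0 T hNT ha

/-- **The class removed by Mazur's principle at an odd prime `p`.** -/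
theorem exists_hasClass_of_odd {W : WeierstrassCurve ℤ} {p : ℕ} [Fact p.Prime] {M : ℕ} [NeZero M]
    (hΔ : W.Δ ≠ 0) (hp2 : p ≠ 2) (hirr : W.ModRepIsIrreducible p) (hpM : ¬ p ∣ M)
    (hmod : CofiniteResModular W p (p * M)) (hnot : ¬ CofiniteResModular W p M) {b d : ℤ}
    (h : (p : ℤ) * d - (M : ℤ) * b = 1) (O : Subring ℂ) (hloc : HasLocalSplit W p O) :
    HasClass W p h hpM O := by
  have : NeZero (p * M) := ⟨mul_ne_zero (Fact.out : p.Prime).ne_zero (NeZero.ne M)⟩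
  refine hasClass_of_cor hΔ hp2 hirr hpM hmod (hasConjInput (p * M) p) h
    (fun T hT φ hφ ha => ?_) O hloc
  by_contra hne
  refine hnot (cofiniteResModular_of_eigen_of_odd hΔ hp2 hirr _ (cor_isParabolicHom h hpM hφ) hne T
    (fun q hq hqM => hT q hq (hqM.mul_left _)) fun ℓ hℓ hℓM hℓT => ?_)
  have hℓN : ¬ ℓ ∣ p * M := fun hd => hℓT (hT ℓ hℓ.out hd)
  rw [← cor_transfer_comm h hpM hℓN hℓM, ha ℓ hℓN hℓT, map_zsmul]

end Fermat.Agent.AtP

end
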