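import Fermat.Agent.HeckeLattice.Parabolic
import Fermat.Agent.Newforms.Matrices
import Mathlib.Data.Nat.Sqrt
import Mathlib.GroupTheory.Perm.Cycle.Type
import Mathlib.FieldTheory.Finite.Basic
import Mathlib.Data.ZMod.Units

/-!
# The Hecke operators at elements of order six

For a prime `ℓ ≡ 1 mod 3` the element `γ` of trace `± 1` fixes two of the `ℓ + 1` cosets of `T_ℓ`
and commutes with their representatives, so `T_ℓ χ` takes the value `2 χ γ` at `γ`.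
-/

set_option autoImplicit false

noncomputable section

namespace Fermat.Agent.AtP

open Matrix.SpecialLinearGroup (mapGL mapGL_injective)
open CongruenceSubgroup ModularCurve.Period
open HeckeLattice (Idx rep toGL toGL_mul toGL_one gamma0System)
open scoped MatrixGroups OnePoint

/-- A prime `≡ 1 mod 3` is a value of `a ^ 2 + a b + b ^ 2`. -/
theorem exists_norm_eq {ℓ : ℕ} [hl : Fact ℓ.Prime] (h3 : ℓ % 3 = 1) :
    ∃ a b : ℤ, a ^ 2 + a * b + b ^ 2 = (ℓ : ℤ) := by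
  have hℓ := hl.out
  have hdvd : 3 ∣ Nat.card (ZMod ℓ)ˣ := by
    rw [Nat.card_eq_fintype_card, ZMod.card_units]
    omega
  have : Fact (Nat.Prime 3) := ⟨Nat.prime_three⟩
  obtain ⟨u, hu⟩ := exists_prime_orderOf_dvd_card' 3 hdvd
  set r : ZMod ℓ := (u : ZMod ℓ)
  have hr1 : r ≠ 1 := fun h => by
    have : u = 1 := Units.ext h
    rw [this, orderOf_one] at hu
    omega
  have hr3 : r ^ 3 = 1 := by
    rw [← hu, ← Units.val_pow_eq_pow_val, pow_orderOf_eq_one, Units.val_one]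
  have hr : r ^ 2 + r + 1 = 0 := by
    have : (r - 1) * (r ^ 2 + r + 1) = 0 := by linear_combination hr3
    exact (mul_eq_zero.mp this).resolve_left (sub_ne_zero.mpr hr1)
  set k := Nat.sqrt ℓ with hk
  have hk1 : ℓ < (k + 1) * (k + 1) := Nat.lt_succ_sqrt ℓ
  have hk2 : k * k < ℓ := by
    refine lt_of_le_of_ne (Nat.sqrt_le ℓ) fun h => ?_
    exact hℓ.not_isSquare ⟨k, h.symm⟩
  obtain ⟨⟨i, j⟩, ⟨i', j'⟩, hne, heq⟩ := Fintype.exists_ne_map_eq_of_card_lt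
    (fun x : Fin (k + 1) × Fin (k + 1) => ((x.1 : ℕ) : ZMod ℓ) - r * ((x.2 : ℕ) : ZMod ℓ))
    (by rw [ZMod.card, Fintype.card_prod, Fintype.card_fin]; exact hk1)
  set a : ℤ := (i : ℕ) - (i' : ℕ) with ha
  set b : ℤ := (j : ℕ) - (j' : ℕ) with hb
  have hab : (a : ZMod ℓ) = r * b := by
    simp only [ha, hb, Int.cast_sub, Int.cast_natCast]
    linear_combination heq
  have hmod : (ℓ : ℤ) ∣ a ^ 2 + a * b + b ^ 2 := by
    rw [← ZMod.intCast_zmod_eq_zero_iff_dvd]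
    push_cast
    rw [hab]
    linear_combination (b : ZMod ℓ) ^ 2 * hr
  have hne' : a ≠ 0 ∨ b ≠ 0 := by
    by_contra h
    push Not at h
    exact hne (Prod.ext (Fin.ext (by dsimp only; omega)) (Fin.ext (by dsimp only; omega)))
  have hpos : 0 < a ^ 2 + a * b + b ^ 2 := by
    rcases hne' with h | h <;>
      nlinarith [sq_nonneg (a + b), sq_pos_of_ne_zero h, sq_nonneg a, sq_nonneg b]
  have habs : ∀ x y : Fin (k + 1), ((x : ℕ) - (y : ℕ) : ℤ) ^ 2 ≤ (k : ℤ) ^ 2 := fun x y =>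
    sq_le_sq' (by omega) (by omega)
  have hlt : a ^ 2 + a * b + b ^ 2 < 3 * (ℓ : ℤ) := by
    have h1 := habs i i'
    have h2 := habs j j'
    rw [← ha] at h1
    rw [← hb] at h2
    have h4 : (k : ℤ) * k < (ℓ : ℤ) := by exact_mod_cast hk2
    nlinarith [sq_nonneg (a - b)]
  obtain ⟨m, hm⟩ := hmod
  rw [hm] at hpos hlt
  have hℓpos : (0 : ℤ) < ℓ := by exact_mod_cast hℓ.pos
  have hm1 : 0 < m := by
    by_contra hcon
    nlinarith
  have hm3 : m < 3 := by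
    by_contra hcon
    nlinarith
  obtain rfl | rfl : m = 1 ∨ m = 2 := by omega
  · exact ⟨a, b, by rw [hm, mul_one]⟩
  · exfalso
    have hodd : (ℓ : ℤ) % 2 = 1 := by
      have h' := hℓ.eq_two_or_odd
      omega
    rcases Int.even_or_odd' a with ⟨x, hx | hx⟩ <;> rcases Int.even_or_odd' b with ⟨y, hy | hy⟩ <;>
      rw [hx, hy] at hm <;> ring_nf at hm <;> omega

/-- A function with vanishing orbit sums under a fixed-point-free map of order three has sum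
zero. -/
lemma sum_eq_zero_of_triangle {ι B : Type*} [DecidableEq ι] [AddCommGroup B] (s : ι → ι)
    (hs : ∀ x, s (s (s x)) = x) (f : ι → B) (S : Finset ι) (hS : ∀ x ∈ S, s x ∈ S)
    (hfix : ∀ x ∈ S, s x ≠ x) (hf : ∀ x ∈ S, f x + f (s x) + f (s (s x)) = 0) :
    ∑ x ∈ S, f x = 0 := by
  induction S using Finset.strongInduction with
  | _ S ih =>
    rcases S.eq_empty_or_nonempty with rfl | ⟨x, hx⟩
    · simp
    have h1 : s x ≠ x := hfix x hx
    have h2 : s (s x) ≠ s x := hfix _ (hS x hx)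
    have h3 : s (s x) ≠ x := fun h => h1 (by
      have := congrArg s h
      rw [hs] at this
      exact this.symm)
    set O : Finset ι := {x, s x, s (s x)} with hO
    have hsub : O ⊆ S := by
      simp only [hO, Finset.insert_subset_iff, Finset.singleton_subset_iff]
      exact ⟨hx, hS x hx, hS _ (hS x hx)⟩
    rw [← Finset.sum_sdiff hsub, ih (S \ O) (Finset.sdiff_ssubset hsub ⟨x, by simp [hO]⟩)
      (fun y hy => ?_) (fun y hy => hfix y (Finset.mem_sdiff.mp hy).1)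
      (fun y hy => hf y (Finset.mem_sdiff.mp hy).1), zero_add]
    · rw [hO, Finset.sum_insert (by simp [h1.symm, h3.symm]), Finset.sum_insert
        (by simp [h2.symm]), Finset.sum_singleton, ← add_assoc]
      exact hf x hx
    · obtain ⟨hyS, hyO⟩ := Finset.mem_sdiff.mp hy
      refine Finset.mem_sdiff.mpr ⟨hS y hyS, fun h => hyO ?_⟩
      simp only [hO, Finset.mem_insert, Finset.mem_singleton] at h ⊢
      rcases h with h | h | h
      · right; right; rw [← hs y, h]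
      · left; rw [← hs y, h, hs]
      · right; left; rw [← hs y, h, hs]

/-- `-1` in `Γ₀(N)`. -/
def negOne (N : ℕ) : Gamma0 N := ⟨-1, by rw [Gamma0_mem]; simp⟩

variable {N ℓ : ℕ} [hl : Fact ℓ.Prime] (hℓN : ¬ ℓ ∣ N) (γ : Gamma0 N)

omit hl in
lemma rep_mul_negOne (x : Idx ℓ) : rep ℓ x * toGL (negOne N) = toGL (negOne N) * rep ℓ x := by
  refine Units.ext ?_
  show (rep ℓ x : Matrix (Fin 2) (Fin 2) ℝ) * _ = _
  ext i j
  fin_cases i <;> fin_cases j <;> simp [toGL, negOne, Matrix.mul_apply, Fin.sum_univ_two]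

/-- The coset of `a + b γ`, with the commuting matrix. -/
lemma exists_fixed_coset (ht : (γ : SL(2, ℤ)) 0 0 + (γ : SL(2, ℤ)) 1 1 = 1)
    (hc : ¬ (ℓ : ℤ) ∣ (γ : SL(2, ℤ)) 1 0) {a b : ℤ} (hab : a ^ 2 + a * b + b ^ 2 = (ℓ : ℤ)) :
    ∃ (j : ZMod ℓ) (g : Gamma0 N), (gamma0System N ℓ hℓN).next γ j = (j : Idx ℓ) ∧
      (gamma0System N ℓ hℓN).cocycle γ j = g⁻¹ * γ * g ∧
      ((mapGL ℝ (g : SL(2, ℤ)) * rep ℓ (j : Idx ℓ) : GL (Fin 2) ℝ) : Matrix (Fin 2) (Fin 2) ℝ) =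
        !![((a + b * (γ : SL(2, ℤ)) 0 0 : ℤ) : ℝ), ((b * (γ : SL(2, ℤ)) 0 1 : ℤ) : ℝ);
          ((b * (γ : SL(2, ℤ)) 1 0 : ℤ) : ℝ), ((a + b * (γ : SL(2, ℤ)) 1 1 : ℤ) : ℝ)] ∧
      ((b : ZMod ℓ) * ((γ : SL(2, ℤ)) 1 0 : ℤ)) * j = a + b * ((γ : SL(2, ℤ)) 1 1 : ℤ) := by
  set A : SL(2, ℤ) := (γ : SL(2, ℤ))
  have hdet := A.det_coe
  rw [Matrix.det_fin_two] at hdet
  have hp := Nat.prime_iff_prime_int.mp hl.out
  have hbc : ¬ (ℓ : ℤ) ∣ b * A 1 0 := by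
    refine fun h => (hp.dvd_or_dvd h).elim (fun hb => ?_) hc
    have ha : (ℓ : ℤ) ∣ a := hp.dvd_of_dvd_pow (n := 2) (by
      rw [show a ^ 2 = (ℓ : ℤ) - b * (a + b) by linear_combination hab]
      exact dvd_sub dvd_rfl (hb.mul_right _))
    obtain ⟨a', rfl⟩ := ha
    obtain ⟨b', rfl⟩ := hb
    have h1 : (ℓ : ℤ) * (a' ^ 2 + a' * b' + b' ^ 2) = 1 :=
      mul_left_cancel₀ (Int.natCast_ne_zero.mpr hl.out.ne_zero) (by linear_combination hab)
    exact hp.not_isUnit (IsUnit.of_mul_eq_one _ h1)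
  obtain ⟨y', g, hg, heq⟩ := Newforms.exists_eq_mapGL_mul_tRep hl.out hℓN
    (a + b * A 0 0) (b * A 0 1) (b * A 1 0) (a + b * A 1 1)
    (dvd_mul_of_dvd_right (Newforms.mem_Gamma0_iff.mp γ.2) b)
    (by linear_combination hab + a * b * ht + b ^ 2 * hdet)
  rcases y' with _ | i
  · exfalso
    have h10 := congrFun (congrFun heq 1) 0
    simp [Newforms.tRep, Matrix.mul_apply, Fin.sum_univ_two, hl.out.ne_zero] at h10
    refine hbc ⟨g 1 0, ?_⟩
    have h10' : ((g 1 0 * (ℓ : ℤ) : ℤ) : ℝ) = ((b * A 1 0 : ℤ) : ℝ) := by push_cast; exact h10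
    rw [mul_comm (ℓ : ℤ)]
    exact (Int.cast_injective h10').symm
  · let g₀ : Gamma0 N := ⟨g, Newforms.mem_Gamma0_iff.mpr hg⟩
    have hrep : rep ℓ (((i : ℕ) : ZMod ℓ) : Idx ℓ) = Newforms.tRep ℓ (some i) := by
      show ModularForm.heckeMatrix ℓ ((i : ℕ) : ZMod ℓ).val = ModularForm.heckeMatrix ℓ i
      rw [ZMod.val_cast_of_lt i.isLt]
    have key : (gamma0System N ℓ hℓN).β (((i : ℕ) : ZMod ℓ) : Idx ℓ) * toGL γ =
        toGL (g₀⁻¹ * γ * g₀) * (gamma0System N ℓ hℓN).β (((i : ℕ) : ZMod ℓ) : Idx ℓ) := by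
      refine mul_left_cancel (a := toGL g₀) ?_
      rw [← mul_assoc, ← mul_assoc, ← toGL_mul, show g₀ * (g₀⁻¹ * γ * g₀) = γ * g₀ by group,
        toGL_mul, mul_assoc (toGL γ)]
      show toGL g₀ * rep ℓ (((i : ℕ) : ZMod ℓ) : Idx ℓ) * toGL γ =
        toGL γ * (toGL g₀ * rep ℓ (((i : ℕ) : ZMod ℓ) : Idx ℓ))
      rw [hrep]
      refine Units.ext ?_
      show ((mapGL ℝ g * Newforms.tRep ℓ (some i) : GL (Fin 2) ℝ) :
          Matrix (Fin 2) (Fin 2) ℝ) * _ =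
        _ * ((mapGL ℝ g * Newforms.tRep ℓ (some i) : GL (Fin 2) ℝ) : Matrix (Fin 2) (Fin 2) ℝ)
      rw [heq]
      ext r s
      fin_cases r <;> fin_cases s <;>
        simp [toGL, A, Matrix.mul_apply, Fin.sum_univ_two] <;> ring
    refine ⟨((i : ℕ) : ZMod ℓ), g₀, ((gamma0System N ℓ hℓN).eq_of_rep_mul key).1,
      ((gamma0System N ℓ hℓN).eq_of_rep_mul key).2, by rw [hrep]; exact heq, ?_⟩
    have h10 := congrFun (congrFun heq 1) 0
    have h11 := congrFun (congrFun heq 1) 1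
    simp [Newforms.tRep, Matrix.mul_apply, Fin.sum_univ_two, hl.out.ne_zero] at h10 h11
    have h10' : g 1 0 = b * A 1 0 := by exact_mod_cast h10
    have h11' : g 1 0 * ((i : ℕ) : ℤ) + g 1 1 * (ℓ : ℤ) = a + b * A 1 1 := by exact_mod_cast h11
    have := congrArg (Int.cast : ℤ → ZMod ℓ) h11'
    push_cast at this
    rw [h10', ZMod.natCast_self, mul_zero, add_zero, Int.cast_mul] at this
    exact this

/-- The fixed cosets satisfy a quadratic equation. -/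
lemma quadratic_of_next_eq (hc : ¬ (ℓ : ℤ) ∣ (γ : SL(2, ℤ)) 1 0) {x : Idx ℓ}
    (hx : (gamma0System N ℓ hℓN).next γ x = x) :
    ∃ j : ZMod ℓ, x = (j : Idx ℓ) ∧ ((γ : SL(2, ℤ)) 1 0 : ℤ) * j ^ 2 +
      (((γ : SL(2, ℤ)) 0 0 : ℤ) - ((γ : SL(2, ℤ)) 1 1 : ℤ)) * j -
        (((γ : SL(2, ℤ)) 0 1 : ℤ) : ZMod ℓ) = 0 := by
  have key := (gamma0System N ℓ hℓN).rep_mul γ x
  rw [hx] at key
  set u : SL(2, ℤ) := ((gamma0System N ℓ hℓN).cocycle γ x : SL(2, ℤ)) with hu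
  have hm : ∀ i j : Fin 2, ((rep ℓ x * mapGL ℝ (γ : SL(2, ℤ)) : GL (Fin 2) ℝ) :
      Matrix (Fin 2) (Fin 2) ℝ) i j =
      ((mapGL ℝ u * rep ℓ x : GL (Fin 2) ℝ) : Matrix (Fin 2) (Fin 2) ℝ) i j := fun i j =>
    congrArg (fun z : GL (Fin 2) ℝ => (z : Matrix (Fin 2) (Fin 2) ℝ) i j) key
  cases x using OnePoint.rec with
  | infty =>
    exfalso
    have h10 := hm 1 0
    simp [rep, hl.out.ne_zero, Matrix.mul_apply, Fin.sum_univ_two] at h10
    have h10' : (γ : SL(2, ℤ)) 1 0 = u 1 0 * (ℓ : ℤ) := by exact_mod_cast h10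
    exact hc (h10' ▸ dvd_mul_left _ _)
  | coe j =>
    refine ⟨j, rfl, ?_⟩
    have h00 := hm 0 0
    have h01 := hm 0 1
    simp [rep, hl.out.ne_zero, Matrix.mul_apply, Fin.sum_univ_two] at h00 h01
    rw [← ZMod.natCast_val] at h00 h01
    have h00' : (γ : SL(2, ℤ)) 0 0 + (j.val : ℤ) * (γ : SL(2, ℤ)) 1 0 = u 0 0 := by
      exact_mod_cast h00
    have h01' : (γ : SL(2, ℤ)) 0 1 + (j.val : ℤ) * (γ : SL(2, ℤ)) 1 1 =
        u 0 0 * (j.val : ℤ) + u 0 1 * (ℓ : ℤ) := by exact_mod_cast h01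
    rw [← h00'] at h01'
    have h := congrArg (Int.cast : ℤ → ZMod ℓ) h01'
    push_cast at h
    rw [ZMod.natCast_zmod_val, ZMod.natCast_self] at h
    linear_combination -h

omit hl in
/-- An element of trace `1` cubes to `-1`. -/
lemma pow_three_eq_negOne (ht : (γ : SL(2, ℤ)) 0 0 + (γ : SL(2, ℤ)) 1 1 = 1) :
    γ * (γ * γ) = negOne N := by
  have hdet := (γ : SL(2, ℤ)).det_coe
  rw [Matrix.det_fin_two] at hdet
  refine Subtype.ext ?_
  ext i k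
  set A : SL(2, ℤ) := (γ : SL(2, ℤ))
  have hA : A 1 1 = 1 - A 0 0 := by linear_combination ht
  rw [hA] at hdet
  fin_cases i <;> fin_cases k <;>
    simp [negOne, A, Matrix.mul_apply, Fin.sum_univ_two] at hA ⊢ <;> rw [hA]
  · linear_combination (-(A 0 0) - 1) * hdet
  · linear_combination (-(A 0 1)) * hdet
  · linear_combination (-(A 1 0)) * hdet
  · linear_combination (A 0 0 - 2) * hdet

/-- Exactly two cosets are fixed, and the others form orbits of order three. -/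
theorem exists_fixed_pair (h3 : ℓ % 3 = 1)
    (ht : (γ : SL(2, ℤ)) 0 0 + (γ : SL(2, ℤ)) 1 1 = 1) (hc : ¬ (ℓ : ℤ) ∣ (γ : SL(2, ℤ)) 1 0) :
    ∃ (j : Fin 2 → ZMod ℓ) (g : Fin 2 → Gamma0 N) (a b : Fin 2 → ℤ), j 0 ≠ j 1 ∧
      (∀ x, (gamma0System N ℓ hℓN).next γ x = x → x = (j 0 : Idx ℓ) ∨ x = (j 1 : Idx ℓ)) ∧
      (∀ x, (gamma0System N ℓ hℓN).next γ
        ((gamma0System N ℓ hℓN).next γ ((gamma0System N ℓ hℓN).next γ x)) = x) ∧
      ∀ i, (gamma0System N ℓ hℓN).next γ (j i) = (j i : Idx ℓ) ∧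
        (gamma0System N ℓ hℓN).cocycle γ (j i) = (g i)⁻¹ * γ * g i ∧
        a i ^ 2 + a i * b i + b i ^ 2 = (ℓ : ℤ) ∧
        ((mapGL ℝ (g i : SL(2, ℤ)) * rep ℓ (j i : Idx ℓ) : GL (Fin 2) ℝ) :
            Matrix (Fin 2) (Fin 2) ℝ) =
          !![((a i + b i * (γ : SL(2, ℤ)) 0 0 : ℤ) : ℝ), ((b i * (γ : SL(2, ℤ)) 0 1 : ℤ) : ℝ);
            ((b i * (γ : SL(2, ℤ)) 1 0 : ℤ) : ℝ),
            ((a i + b i * (γ : SL(2, ℤ)) 1 1 : ℤ) : ℝ)] := by
  obtain ⟨a, b, hab⟩ := exists_norm_eq h3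
  obtain ⟨j₁, g₁, hn₁, hc₁, hA₁, hj₁⟩ := exists_fixed_coset hℓN γ ht hc hab
  obtain ⟨j₂, g₂, hn₂, hc₂, hA₂, hj₂⟩ := exists_fixed_coset hℓN γ ht hc (a := a + b) (b := -b)
    (by linear_combination hab)
  have hne : j₁ ≠ j₂ := by
    intro h
    subst h
    have h' : ((2 * a + b : ℤ) : ZMod ℓ) = 0 := by
      have e : (((γ : SL(2, ℤ)) 0 0 : ℤ) : ZMod ℓ) + (((γ : SL(2, ℤ)) 1 1 : ℤ) : ZMod ℓ) = 1 := by
        exact_mod_cast congrArg (Int.cast : ℤ → ZMod ℓ) ht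
      push_cast at hj₂ ⊢
      linear_combination -(hj₁ + hj₂)
    rw [ZMod.intCast_zmod_eq_zero_iff_dvd] at h'
    have hℓ2 := hl.out.two_le
    have h3b : (ℓ : ℤ) ∣ 3 * b ^ 2 := by
      rw [show 3 * b ^ 2 = 4 * (ℓ : ℤ) - (2 * a + b) * (2 * a + b) by linear_combination 4 * hab]
      exact dvd_sub (dvd_mul_left _ _) (h'.mul_right _)
    have hp := Nat.prime_iff_prime_int.mp hl.out
    rcases hp.dvd_or_dvd h3b with h | h
    · have := Int.le_of_dvd (by norm_num) h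
      omega
    · have hb := hp.dvd_of_dvd_pow h
      have ha : (ℓ : ℤ) ∣ a := hp.dvd_of_dvd_pow (n := 2) (by
        rw [show a ^ 2 = (ℓ : ℤ) - b * (a + b) by linear_combination hab]
        exact dvd_sub dvd_rfl (hb.mul_right _))
      obtain ⟨a', rfl⟩ := ha
      obtain ⟨b', rfl⟩ := hb
      have h1 : (ℓ : ℤ) * (a' ^ 2 + a' * b' + b' ^ 2) = 1 :=
        mul_left_cancel₀ (Int.natCast_ne_zero.mpr hl.out.ne_zero) (by linear_combination hab)
      exact hp.not_isUnit (IsUnit.of_mul_eq_one _ h1)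
  set D := gamma0System N ℓ hℓN
  have honly : ∀ x, D.next γ x = x → x = (j₁ : Idx ℓ) ∨ x = (j₂ : Idx ℓ) := by
    intro x hx
    obtain ⟨j, rfl, hj⟩ := quadratic_of_next_eq hℓN γ hc hx
    obtain ⟨i, hi, hq₁⟩ := quadratic_of_next_eq hℓN γ hc hn₁
    obtain rfl : j₁ = i := OnePoint.coe_injective hi
    obtain ⟨i, hi, hq₂⟩ := quadratic_of_next_eq hℓN γ hc hn₂
    obtain rfl : j₂ = i := OnePoint.coe_injective hi
    by_cases hjj : j = j₁
    · exact Or.inl (congrArg _ hjj)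
    refine Or.inr (congrArg _ ?_)
    set c : ZMod ℓ := (((γ : SL(2, ℤ)) 1 0 : ℤ) : ZMod ℓ)
    have hc0 : c ≠ 0 := fun h => hc ((ZMod.intCast_zmod_eq_zero_iff_dvd _ _).mp h)
    set e : ZMod ℓ := (((γ : SL(2, ℤ)) 0 0 : ℤ) : ZMod ℓ) - (((γ : SL(2, ℤ)) 1 1 : ℤ) : ZMod ℓ)
    have e1 : (j - j₁) * (c * (j + j₁) + e) = 0 := by linear_combination hj - hq₁
    have e2 : (j₂ - j₁) * (c * (j₂ + j₁) + e) = 0 := by linear_combination hq₂ - hq₁
    have f1 := (mul_eq_zero.mp e1).resolve_left (sub_ne_zero.mpr hjj)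
    have f2 := (mul_eq_zero.mp e2).resolve_left (sub_ne_zero.mpr hne.symm)
    have f3 : c * (j - j₂) = 0 := by linear_combination f1 - f2
    exact sub_eq_zero.mp ((mul_eq_zero.mp f3).resolve_left hc0)
  have hcube := pow_three_eq_negOne γ ht
  have hneg : ∀ x, D.next (negOne N) x = x := fun x => (D.eq_of_rep_mul (rep_mul_negOne x)).1
  refine ⟨![j₁, j₂], ![g₁, g₂], ![a, a + b], ![b, -b], hne, honly,
    fun x => by rw [← D.next_mul, ← D.next_mul, hcube, hneg],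
    Fin.forall_fin_two.mpr ⟨⟨hn₁, hc₁, hab, hA₁⟩, ⟨hn₂, hc₂, ?_, hA₂⟩⟩⟩
  show (a + b) ^ 2 + (a + b) * -b + (-b) ^ 2 = (ℓ : ℤ)
  linear_combination hab

/-- **`T_ℓ` at an element of trace `1`.** -/
theorem transfer_apply_of_trace_one (h3 : ℓ % 3 = 1)
    (ht : (γ : SL(2, ℤ)) 0 0 + (γ : SL(2, ℤ)) 1 1 = 1) (hc : ¬ (ℓ : ℤ) ∣ (γ : SL(2, ℤ)) 1 0)
    {B : Type*} [AddCommGroup B] (χ : Additive (Gamma0 N) →+ B)
    (hχ : χ (Additive.ofMul (negOne N)) = 0) :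
    HeckeLattice.transfer hℓN χ (Additive.ofMul γ) = 2 • χ (Additive.ofMul γ) := by
  classical
  set D := gamma0System N ℓ hℓN
  obtain ⟨j, g, a, b, hne, honly, hs, hfix⟩ := exists_fixed_pair hℓN γ h3 ht hc
  have hconj : ∀ g : Gamma0 N, χ (Additive.ofMul (g⁻¹ * γ * g)) = χ (Additive.ofMul γ) := fun g => by
    simp only [ofMul_mul, ofMul_inv, map_add, map_neg]; abel
  have hcube := pow_three_eq_negOne γ ht
  have hneg : ∀ x, D.cocycle (negOne N) x = negOne N := fun x =>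
    (D.eq_of_rep_mul (rep_mul_negOne x)).2
  have htri : ∀ x, χ (Additive.ofMul (D.cocycle γ x)) + χ (Additive.ofMul (D.cocycle γ (D.next γ x)))
      + χ (Additive.ofMul (D.cocycle γ (D.next γ (D.next γ x)))) = 0 := fun x => by
    rw [← map_add, ← map_add, ← ofMul_mul, ← ofMul_mul, mul_assoc, ← D.cocycle_mul γ γ,
      ← D.cocycle_mul, hcube, hneg x, hχ]
  set S : Finset (Idx ℓ) := (Finset.univ.erase (j 0 : Idx ℓ)).erase (j 1 : Idx ℓ) with hS
  have hmem : ∀ x, x ∈ S ↔ x ≠ (j 0 : Idx ℓ) ∧ x ≠ (j 1 : Idx ℓ) := fun x => by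
    simp [hS, and_comm]
  have hrest := sum_eq_zero_of_triangle (D.next γ) hs (fun x => χ (Additive.ofMul (D.cocycle γ x))) S
    (fun x hx => by
      obtain ⟨h1, h2⟩ := (hmem x).mp hx
      refine (hmem _).mpr ⟨fun h => h1 ?_, fun h => h2 ?_⟩
      · rw [← hs x, h, (hfix 0).1, (hfix 0).1]
      · rw [← hs x, h, (hfix 1).1, (hfix 1).1])
    (fun x hx h => ((honly x h).elim ((hmem x).mp hx).1 ((hmem x).mp hx).2))
    (fun x _ => htri x)
  rw [HeckeLattice.CosetSystem.transfer_apply,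
    ← Finset.add_sum_erase _ _ (Finset.mem_univ (j 0 : Idx ℓ)),
    ← Finset.add_sum_erase _ _ (Finset.mem_erase.mpr
      ⟨fun h => hne.symm (OnePoint.coe_injective h), Finset.mem_univ (j 1 : Idx ℓ)⟩)]
  simp only [← hS]
  rw [hrest, add_zero, (hfix 0).2.1, (hfix 1).2.1, hconj, hconj, two_nsmul]

end Fermat.Agent.AtP

end
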