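import Fermat.Agent.AtP.SeriesNormMap
import Mathlib.RingTheory.Ideal.Quotient.Operations
import Mathlib.RingTheory.Ideal.Quotient.Nilpotent

/-!
# Kummer series: content, the subring modulo `π²`, roots modulo powers of `π`

`SeriesHyp p π O`: a domain `B` with a prime element `π` generating a maximal ideal, `π² ∣ p`,
separated, and a subring `O` mapping onto `B/π` with `O ∩ πB ⊆ π² B`.
-/

set_option autoImplicit false

noncomputable section

namespace Fermat.Agent.AtP

open ModularCurve (qExpand coeffMap)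
open HahnSeries (single)

variable {B : Type*} [CommRing B] [IsDomain B]

/-- `π` is a prime element generating a maximal ideal, and `B` is separated. -/
structure ContentHyp (π : B) : Prop where
  prime : Prime π
  isMaximal : (Ideal.span {π}).IsMaximal
  separated : ∀ b : B, (∀ n : ℕ, π ^ n ∣ b) → b = 0

/-- The hypotheses on the coefficient rings. -/
structure SeriesHyp (p : ℕ) (π : B) (O : Subring B) : Prop extends ContentHyp π where
  sq_dvd : π ^ 2 ∣ (p : B)
  residue : ∀ b : B, ∃ o ∈ O, π ∣ b - o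
  inter : ∀ o ∈ O, π ∣ o → π ^ 2 ∣ o

/-- Reduction of series modulo `π ^ n`. -/
def redSer (π : B) (n : ℕ) : LaurentSeries B →+* LaurentSeries (B ⧸ Ideal.span {π ^ n}) :=
  coeffMap (Ideal.Quotient.mk _)

/-- `s` is primitive: not zero modulo `π`. -/
def IsPrim (π : B) (s : LaurentSeries B) : Prop := ∃ i, ¬ π ∣ s.coeff i

variable {p : ℕ} {π : B} {O : Subring B}

omit [IsDomain B] in
/-- A series vanishes modulo `π ^ n` iff all its coefficients do. -/
lemma redSer_eq_zero_iff {n : ℕ} {s : LaurentSeries B} :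
    redSer π n s = 0 ↔ ∀ i, π ^ n ∣ s.coeff i := by
  constructor
  · intro h i
    have := congrArg (fun u : LaurentSeries (B ⧸ Ideal.span {π ^ n}) => u.coeff i) h
    rwa [redSer, ModularCurve.coeffMap_coeff, HahnSeries.coeff_zero,
      Ideal.Quotient.eq_zero_iff_mem, Ideal.mem_span_singleton] at this
  · intro h
    ext i
    rw [redSer, ModularCurve.coeffMap_coeff, HahnSeries.coeff_zero,
      Ideal.Quotient.eq_zero_iff_mem, Ideal.mem_span_singleton]
    exact h i

omit [IsDomain B] in
lemma isPrim_iff {s : LaurentSeries B} : IsPrim π s ↔ redSer π 1 s ≠ 0 := by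
  rw [IsPrim, Ne, redSer_eq_zero_iff]
  simp

omit [IsDomain B] in
/-- A series is primitive iff its reduction is nonzero. -/
lemma isPrim_iff_coeffMap {k : Type*} [CommRing k] (red : B →+* k)
    (hker : ∀ b, red b = 0 ↔ π ∣ b) {s : LaurentSeries B} :
    IsPrim π s ↔ coeffMap red s ≠ 0 := by
  rw [IsPrim, Ne, HahnSeries.ext_iff, funext_iff]
  push Not
  simp [hker]

omit [IsDomain B] in
lemma not_isPrim_single_mul (s : LaurentSeries B) {n : ℕ} (hn : n ≠ 0) :
    ¬ IsPrim π (single 0 (π ^ n) * s) := by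
  rintro ⟨i, hi⟩
  rw [HahnSeries.coeff_single_mul] at hi
  exact hi (dvd_mul_of_dvd_left (dvd_pow_self π hn) _)

/-- Lift a series coefficientwise along a surjection. -/
lemma exists_coeff_lift {R S : Type*} [CommRing R] [CommRing S] {f : R →+* S} {P : R → Prop}
    (h0 : P 0) (hf : ∀ y, ∃ x, P x ∧ f x = y) (s : LaurentSeries S) :
    ∃ t : LaurentSeries R, (∀ i, P (t.coeff i)) ∧ coeffMap f t = s := by
  classical
  choose c hcP hc using hf
  let t : LaurentSeries R :=
    { coeff := fun i => if s.coeff i = 0 then 0 else c (s.coeff i)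
      isPWO_support' := s.isPWO_support.mono fun i hi h0 => hi (if_pos h0) }
  refine ⟨t, fun i => ?_, ?_⟩
  · show P (if s.coeff i = 0 then 0 else c (s.coeff i))
    split_ifs
    · exact h0
    · exact hcP _
  · ext i
    rw [ModularCurve.coeffMap_coeff]
    show f (if s.coeff i = 0 then 0 else c (s.coeff i)) = s.coeff i
    split_ifs with h0
    · rw [h0, map_zero]
    · exact hc _

namespace ContentHyp

variable (h : ContentHyp π)
include h

omit [IsDomain B] in
/-- Products of primitive series are primitive. -/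
lemma isPrim_mul {s t : LaurentSeries B} (hs : IsPrim π s) (ht : IsPrim π t) :
    IsPrim π (s * t) := by
  have := h.isMaximal
  have hp' : (Ideal.span {π ^ 1}).IsPrime := by rw [pow_one]; exact h.isMaximal.isPrime
  rw [isPrim_iff, map_mul] at *
  exact mul_ne_zero hs ht

omit [IsDomain B] in
/-- Powers of primitive series are primitive. -/
lemma isPrim_pow {s : LaurentSeries B} (hs : IsPrim π s) : ∀ n : ℕ, IsPrim π (s ^ n)
  | 0 => by
    refine ⟨0, ?_⟩
    rw [pow_zero, HahnSeries.coeff_one, if_pos rfl]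
    exact fun hd => h.prime.not_isUnit (isUnit_of_dvd_one hd)
  | n + 1 => by rw [pow_succ]; exact isPrim_mul h (isPrim_pow hs n) hs

omit [IsDomain B] in
/-- The content of a nonzero series. -/
lemma exists_isPrim {s : LaurentSeries B} (hs : s ≠ 0) :
    ∃ (n : ℕ) (t : LaurentSeries B), IsPrim π t ∧ s = single 0 (π ^ n) * t := by
  classical
  have hex : ∃ n : ℕ, ∃ i, ¬ π ^ (n + 1) ∣ s.coeff i := by
    by_contra hcon
    push Not at hcon
    refine hs ?_
    ext i
    refine h.separated _ fun n => ?_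
    exact (pow_dvd_pow π n.le_succ).trans (hcon n i)
  obtain ⟨t, ht⟩ := exists_eq_smul_of_coeff (π := π ^ Nat.find hex) s fun i => by
    rcases Nat.eq_zero_or_pos (Nat.find hex) with h0 | h0
    · rw [h0, pow_zero]; exact one_dvd _
    · have := Nat.find_min hex (Nat.sub_lt h0 one_pos)
      push Not at this
      rw [show Nat.find hex - 1 + 1 = Nat.find hex by omega] at this
      exact this i
  refine ⟨Nat.find hex, t, ?_, ht⟩
  obtain ⟨i, hi⟩ := Nat.find_spec hex
  refine ⟨i, fun hd => hi ?_⟩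
  have h1 := congrArg (fun u : LaurentSeries B => u.coeff i) ht
  simp only [HahnSeries.coeff_single_mul, sub_zero] at h1
  rw [h1, pow_succ]
  exact mul_dvd_mul_left _ hd

/-- The content and the primitive part are unique. -/
lemma eq_of_isPrim {a b : ℕ} {x y : LaurentSeries B} (hx : IsPrim π x) (hy : IsPrim π y)
    (he : single 0 (π ^ a) * x = single 0 (π ^ b) * y) : a = b ∧ x = y := by
  have key : ∀ {a b : ℕ} {x y : LaurentSeries B}, IsPrim π x → a ≤ b →
      single 0 (π ^ a) * x = single 0 (π ^ b) * y → a = b ∧ x = y := by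
    intro a b x y hx hab he
    obtain ⟨c, rfl⟩ := Nat.exists_eq_add_of_le hab
    have hne : single (0 : ℤ) (π ^ a) ≠ 0 := HahnSeries.single_ne_zero (pow_ne_zero _ h.prime.ne_zero)
    rw [pow_add, ← HahnSeries.C_apply, ← HahnSeries.C_apply, map_mul, mul_assoc] at he
    have hxy := mul_left_cancel₀ (by rwa [HahnSeries.C_apply]) he
    rcases Nat.eq_zero_or_pos c with rfl | hc
    · simpa using hxy
    · exact absurd hx (by rw [hxy, HahnSeries.C_apply]; exact not_isPrim_single_mul y hc.ne')
  rcases le_total a b with hab | hab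
  · exact key hx hab he
  · obtain ⟨h1, h2⟩ := key hy hab he.symm
    exact ⟨h1.symm, h2.symm⟩

end ContentHyp

namespace SeriesHyp

variable (h : SeriesHyp p π O)
include h

section norm

variable [hp : Fact p.Prime]

omit [IsDomain B] in
lemma charP_quotient {n : ℕ} (hn : n = 1 ∨ n = 2) : CharP (B ⧸ Ideal.span {π ^ n}) p := by
  have : Nontrivial (B ⧸ Ideal.span {π ^ n}) := by
    refine Ideal.Quotient.nontrivial_iff.mpr ?_
    rw [Ne, Ideal.span_singleton_eq_top]
    exact fun hu => h.prime.not_isUnit ((isUnit_pow_iff (by omega)).mp hu)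
  refine (CharP.charP_iff_prime_eq_zero hp.out).2 ?_
  rw [← map_natCast (Ideal.Quotient.mk _), Ideal.Quotient.eq_zero_iff_mem,
    Ideal.mem_span_singleton]
  exact (pow_dvd_pow π (by omega : n ≤ 2)).trans h.sq_dvd

omit [IsDomain B] in
/-- The norm of a primitive series is primitive. -/
lemma isPrim_uNorm {s : LaurentSeries B} (hs : IsPrim π s) : IsPrim π (uNorm p s) := by
  have := h.charP_quotient (n := 1) (Or.inl rfl)
  have hp' : (Ideal.span {π ^ 1}).IsPrime := by rw [pow_one]; exact h.isMaximal.isPrime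
  rw [isPrim_iff] at hs ⊢
  rw [redSer, coeffMap_uNorm]
  intro h0
  have h1 : uNorm p (redSer π 1 s ^ p) = 0 := by
    rw [map_pow]; unfold redSer; rw [h0, zero_pow hp.out.ne_zero]
  rw [pow_char_eq_qExpand, uNorm_qExpand, pow_eq_zero_iff hp.out.ne_zero] at h1
  refine hs ?_
  ext i
  have := congrArg (fun u : LaurentSeries (B ⧸ Ideal.span {π ^ 1}) => u.coeff i) h1
  rw [ModularCurve.coeffMap_coeff, HahnSeries.coeff_zero, frobenius_def,
    pow_eq_zero_iff hp.out.ne_zero] at this
  simpa using this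

end norm

end SeriesHyp

section b2

variable (π O)

/-- The image of `O` modulo `π²`. -/
def resRing : Subring (B ⧸ Ideal.span {π ^ 2}) := O.map (Ideal.Quotient.mk _)

/-- The ring `O + π² B`. -/
def sqSubring : Subring B := (resRing π O).comap (Ideal.Quotient.mk _)

/-- The series whose reduction modulo `π²` has coefficients coming from `O`. -/
def sqSeries : Subring (LaurentSeries B) :=
  (coeffMap (resRing π O).subtype).range.comap (redSer π 2)

variable {π O}

omit [IsDomain B] in
/-- Membership in `O + π² B`. -/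
lemma mem_sqSubring {b : B} : b ∈ sqSubring π O ↔ ∃ o ∈ O, π ^ 2 ∣ b - o := by
  simp only [sqSubring, resRing, Subring.mem_comap, Subring.mem_map]
  constructor
  · rintro ⟨o, ho, he⟩
    exact ⟨o, ho, Ideal.mem_span_singleton.1 (Ideal.Quotient.eq.1 he.symm)⟩
  · rintro ⟨o, ho, he⟩
    exact ⟨o, ho, (Ideal.Quotient.eq.2 (Ideal.mem_span_singleton.2 he)).symm⟩

omit [IsDomain B] in
/-- Membership in the series over `O + π² B`. -/
lemma mem_sqSeries {s : LaurentSeries B} :
    s ∈ sqSeries π O ↔ ∀ i, s.coeff i ∈ sqSubring π O := by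
  simp only [sqSeries, Subring.mem_comap, RingHom.mem_range]
  constructor
  · rintro ⟨t, ht⟩ i
    have := congrArg (fun u : LaurentSeries (B ⧸ Ideal.span {π ^ 2}) => u.coeff i) ht
    rw [redSer, ModularCurve.coeffMap_coeff, ModularCurve.coeffMap_coeff] at this
    rw [sqSubring, Subring.mem_comap, ← this]
    exact (t.coeff i).2
  · intro hs
    refine ⟨{ coeff := fun i => ⟨_, hs i⟩
              isPWO_support' := s.isPWO_support.mono fun i hi h0 => hi ?_ }, ?_⟩
    · simp [h0]
    · ext i; rfl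

end b2

namespace SeriesHyp

variable (h : SeriesHyp p π O)
include h

omit [IsDomain B] in
lemma isField_resRing : IsField (resRing π O) where
  exists_pair_ne := by
    refine ⟨0, 1, fun he => h.prime.not_isUnit ?_⟩
    have h1 := congrArg Subtype.val he
    simp only [ZeroMemClass.coe_zero, OneMemClass.coe_one] at h1
    exact isUnit_of_dvd_one ((dvd_pow_self π two_ne_zero).trans
      (Ideal.mem_span_singleton.1 (Ideal.Quotient.eq_zero_iff_mem.1
        ((map_one (Ideal.Quotient.mk (Ideal.span {π ^ 2}))).trans h1.symm))))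
  mul_comm := mul_comm
  mul_inv_cancel := by
    rintro ⟨_, o, ho, rfl⟩ hne
    have hπo : ¬ π ∣ o := fun hd => hne (Subtype.ext (Ideal.Quotient.eq_zero_iff_mem.2
      (Ideal.mem_span_singleton.2 (h.inter o ho hd))))
    obtain ⟨a, b, hab⟩ := Ideal.mem_span_pair.1
      (show (1 : B) ∈ Ideal.span {o, π} by
        have h1 : Ideal.span {π} < Ideal.span {o, π} := by
          refine lt_of_le_of_ne (Ideal.span_mono (by simp)) fun he => hπo ?_
          rw [← Ideal.mem_span_singleton, he]
          exact Ideal.subset_span (by simp)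
        rw [h.isMaximal.1.2 _ h1]
        trivial)
    obtain ⟨o', ho', hd⟩ := h.residue a
    refine ⟨⟨_, o', ho', rfl⟩, Subtype.ext ?_⟩
    show Ideal.Quotient.mk _ o * Ideal.Quotient.mk _ o' = 1
    rw [← map_mul, ← map_one (Ideal.Quotient.mk (Ideal.span {π ^ 2})), Ideal.Quotient.eq,
      Ideal.mem_span_singleton]
    refine h.inter _ (sub_mem (mul_mem ho ho') (one_mem _)) ?_
    obtain ⟨c, hc⟩ := hd
    exact ⟨-b - c * o, by linear_combination hab - o * hc⟩

omit [IsDomain B] in
lemma isUnit_redSer_two {y : LaurentSeries B} (hy : y ∈ sqSeries π O) (hy' : IsPrim π y) :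
    ∃ u, redSer π 2 y * coeffMap (resRing π O).subtype u = 1 := by
  let _ := h.isField_resRing.toField
  obtain ⟨v, hv⟩ := hy
  have hv0 : v ≠ 0 := by
    rintro rfl
    obtain ⟨i, hi⟩ := hy'
    rw [map_zero] at hv
    exact hi ((dvd_pow_self π two_ne_zero).trans (redSer_eq_zero_iff.1 hv.symm i))
  exact ⟨v⁻¹, by rw [← hv, ← map_mul, mul_inv_cancel₀ hv0, map_one]⟩

omit [IsDomain B] in
/-- Division in `sqSeries`. -/
lemma mem_of_mul_mem {x y : LaurentSeries B} (hy : y ∈ sqSeries π O) (hy' : IsPrim π y)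
    (hxy : x * y ∈ sqSeries π O) : x ∈ sqSeries π O := by
  obtain ⟨u, hu⟩ := h.isUnit_redSer_two hy hy'
  have : redSer π 2 x = redSer π 2 (x * y) * coeffMap (resRing π O).subtype u := by
    rw [map_mul, mul_assoc, hu, mul_one]
  show redSer π 2 x ∈ (coeffMap (resRing π O).subtype).range
  rw [this]
  exact mul_mem hxy ⟨u, rfl⟩

omit [IsDomain B] in
/-- Write a series as an `O`-series plus a multiple of `π`. -/
lemma exists_eq_add (s : LaurentSeries B) :
    ∃ s₀ x, (∀ i, s₀.coeff i ∈ O) ∧ s = s₀ + single 0 π * x := by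
  obtain ⟨s₀, h0, he⟩ := exists_coeff_lift (f := Ideal.Quotient.mk (Ideal.span {π}))
    (P := (· ∈ O)) O.zero_mem (fun y => by
      obtain ⟨b, rfl⟩ := Ideal.Quotient.mk_surjective y
      obtain ⟨o, ho, hd⟩ := h.residue b
      exact ⟨o, ho, (Ideal.Quotient.eq.2 (Ideal.mem_span_singleton.2 hd)).symm⟩)
    (coeffMap (Ideal.Quotient.mk (Ideal.span {π})) s)
  obtain ⟨x, hx⟩ := Ideal.mem_span_singleton.1
    ((mem_span_single_iff (π := π) (s - s₀)).2 (by rw [map_sub, he, sub_self]))
  exact ⟨s₀, x, h0, sub_eq_iff_eq_add'.1 hx⟩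

variable [hp : Fact p.Prime]

omit [IsDomain B] in
/-- `p`-th powers have coefficients in `O + π² B`. -/
lemma pow_mem (x : LaurentSeries B) : x ^ p ∈ sqSeries π O := by
  have := h.charP_quotient (n := 2) (Or.inr rfl)
  rw [mem_sqSeries]
  intro i
  rw [sqSubring, Subring.mem_comap, ← ModularCurve.coeffMap_coeff,
    show coeffMap (Ideal.Quotient.mk (Ideal.span {π ^ 2})) (x ^ p) = redSer π 2 x ^ p from map_pow _ _ _,
    pow_char_eq_qExpand]
  by_cases hi : (p : ℤ) ∣ i
  · obtain ⟨m, rfl⟩ := hi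
    rw [ModularCurve.qExpand_coeff_mul, ModularCurve.coeffMap_coeff, redSer,
      ModularCurve.coeffMap_coeff, frobenius_def]
    obtain ⟨o, ho, c, hc⟩ := h.residue (x.coeff m)
    refine ⟨o ^ p, _root_.pow_mem ho p, ?_⟩
    rw [sub_eq_iff_eq_add'.1 hc, map_add, add_pow_char, map_pow, map_mul, mul_pow, ← map_pow _ π,
      show Ideal.Quotient.mk (Ideal.span {π ^ 2}) (π ^ p) = 0 from
        Ideal.Quotient.eq_zero_iff_mem.2 (Ideal.mem_span_singleton.2
          (pow_dvd_pow π hp.out.two_le)), zero_mul, add_zero]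
  · rw [ModularCurve.qExpand_coeff_of_not_dvd _ _ hi]
    exact zero_mem _

omit [IsDomain B] in
lemma uNorm_mem (s : LaurentSeries B) : uNorm p s ∈ sqSeries π O := by
  have := h.charP_quotient (n := 2) (Or.inr rfl)
  obtain ⟨s₀, x, h0, rfl⟩ := h.exists_eq_add s
  have h0' : s₀ ∈ sqSeries π O :=
    mem_sqSeries.2 fun i => mem_sqSubring.2 ⟨_, h0 i, by simp⟩
  set f := Ideal.Quotient.mk (Ideal.span {π ^ 2})
  show redSer π 2 _ ∈ (coeffMap (resRing π O).subtype).range
  rw [redSer, coeffMap_uNorm]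
  have hred : coeffMap f (s₀ + single 0 π * x) = redSer π 2 s₀ + single 0 (f π) * redSer π 2 x := by
    rw [map_add, map_mul]
    congr 2
    ext i
    rcases eq_or_ne i 0 with rfl | hi <;> simp [*]
  by_cases hprim : IsPrim π s₀
  · obtain ⟨u, hu⟩ := h.isUnit_redSer_two h0' hprim
    rw [hred, show redSer π 2 s₀ + single 0 (f π) * redSer π 2 x = redSer π 2 s₀ *
        (1 + single 0 (f π) * (coeffMap (resRing π O).subtype u * redSer π 2 x)) by
      linear_combination (-(single 0 (f π) * redSer π 2 x)) * hu, map_mul]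
    refine mul_mem ?_ ?_
    · obtain ⟨v, hv⟩ := h0'
      rw [← hv, ← coeffMap_uNorm]
      exact ⟨_, rfl⟩
    · have hπ' : (Ideal.span {f π}).IsPrime := by
        have := h.isMaximal.isPrime
        rw [show Ideal.span {f π} = (Ideal.span {π}).map f by rw [Ideal.map_span, Set.image_singleton]]
        refine Ideal.map_isPrime_of_surjective Ideal.Quotient.mk_surjective ?_
        rw [Ideal.mk_ker, Ideal.span_singleton_le_span_singleton]
        exact dvd_pow_self π two_ne_zero
      obtain ⟨a, b, hab⟩ := exists_uNorm_one_add (p := p)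
        (π := f π) (by rw [CharP.cast_eq_zero]; exact dvd_zero _) hπ' (f π)
        (coeffMap (resRing π O).subtype u * redSer π 2 x)
      rw [hab, show f π * f π = 0 by
          rw [← map_mul, Ideal.Quotient.eq_zero_iff_mem, Ideal.mem_span_singleton, sq],
        show f π ^ p = 0 by
          rw [← map_pow, Ideal.Quotient.eq_zero_iff_mem, Ideal.mem_span_singleton]
          exact pow_dvd_pow π hp.out.two_le]
      simp [one_mem]
  · have hz : redSer π 2 s₀ = 0 := redSer_eq_zero_iff.2 fun i => h.inter _ (h0 i) (by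
      by_contra hd
      exact hprim ⟨i, hd⟩)
    rw [hred, hz, zero_add, map_mul, uNorm_single_zero,
      show f π ^ p = 0 by
        rw [← map_pow, Ideal.Quotient.eq_zero_iff_mem, Ideal.mem_span_singleton]
        exact pow_dvd_pow π hp.out.two_le]
    simp [zero_mem]

omit [IsDomain B] in
/-- The normalised series has its coefficients in `O + π² B`. -/
theorem mem_of_norm_eq {s H : LaurentSeries B} (hs : IsPrim π s) {m : ℕ}
    (hm : m = 1 ∨ m + 1 = p) (he : uNorm p s * s ^ m = H ^ p) : s ∈ sqSeries π O := by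
  rcases hm with rfl | hm
  · refine h.mem_of_mul_mem (h.uNorm_mem s) (h.isPrim_uNorm hs) ?_
    rw [pow_one] at he
    rw [mul_comm, he]
    exact h.pow_mem H
  · have hsm : s ^ m ∈ sqSeries π O := by
      refine h.mem_of_mul_mem (h.uNorm_mem s) (h.isPrim_uNorm hs) ?_
      rw [mul_comm, he]
      exact h.pow_mem H
    refine h.mem_of_mul_mem hsm (h.isPrim_pow hs m) ?_
    rw [← pow_succ', hm]
    exact h.pow_mem s

omit [IsDomain B] in
/-- The same after `W`. -/
theorem mem_of_mul_pow_eq {s t H : LaurentSeries B} (hs : s ∈ sqSeries π O) (hs' : IsPrim π s)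
    {m : ℕ} (he : t * s ^ m = H ^ p) : t ∈ sqSeries π O :=
  h.mem_of_mul_mem (_root_.pow_mem hs m) (h.isPrim_pow hs' m) (he ▸ h.pow_mem H)

omit [IsDomain B] hp in
/-- A primitive series is a unit modulo every power of `π`. -/
lemma isUnit_redSer {R : ℕ} {s : LaurentSeries B} (hs : IsPrim π s) : IsUnit (redSer π R s) := by
  have := h.isMaximal
  let _ := Ideal.Quotient.field (Ideal.span {π})
  set g := coeffMap (Ideal.Quotient.mk (Ideal.span {π}))
  have hgs : g s ≠ 0 := (isPrim_iff_coeffMap _ (fun b => by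
    rw [Ideal.Quotient.eq_zero_iff_mem, Ideal.mem_span_singleton])).1 hs
  obtain ⟨t, -, ht⟩ := exists_coeff_lift (P := fun _ => True)
    (f := Ideal.Quotient.mk (Ideal.span {π})) trivial
    (fun y => (Ideal.Quotient.mk_surjective y).imp fun _ hx => ⟨trivial, hx⟩) (g s)⁻¹
  obtain ⟨z, hz⟩ := Ideal.mem_span_singleton.1
    ((mem_span_single_iff (π := π) (s * t - 1)).2 (by
      rw [map_sub, map_mul, map_one, ht, mul_inv_cancel₀ hgs, sub_self]))
  refine isUnit_of_mul_isUnit_left (y := redSer π R t) ?_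
  rw [← map_mul, sub_eq_iff_eq_add'.1 hz, map_add, map_one]
  refine IsNilpotent.isUnit_one_add ⟨R, ?_⟩
  rw [← map_pow, mul_pow, HahnSeries.single_pow, smul_zero, redSer_eq_zero_iff]
  intro i
  rw [HahnSeries.coeff_single_mul]
  exact dvd_mul_right _ _

omit [IsDomain B] in
/-- One step of the contraction. -/
lemma exists_step {R n : ℕ} (hn : 1 ≤ n) {s U : LaurentSeries (B ⧸ Ideal.span {π ^ (R + 1)})}
    (hs : IsUnit s) (hU : s = U ^ p * uNorm p s ∨ s * uNorm p s = U ^ p)
    {w x : LaurentSeries (B ⧸ Ideal.span {π ^ (R + 1)})}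
    (hw : s = w ^ p * (1 + single 0 (Ideal.Quotient.mk _ π ^ n) * x)) :
    ∃ w' x', s = w' ^ p *
      (1 + single 0 (Ideal.Quotient.mk (Ideal.span {π ^ (R + 1)}) π ^ (n + 1)) * x') := by
  set c := Ideal.Quotient.mk (Ideal.span {π ^ (R + 1)}) π
  have hcp : c ∣ ((p : ℕ) : B ⧸ Ideal.span {π ^ (R + 1)}) := by
    rw [← map_natCast (Ideal.Quotient.mk (Ideal.span {π ^ (R + 1)}))]
    exact map_dvd _ ((dvd_pow_self π two_ne_zero).trans h.sq_dvd)
  have hc' : (Ideal.span {c}).IsPrime := by
    have := h.isMaximal.isPrime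
    rw [show Ideal.span {c} = (Ideal.span {π}).map (Ideal.Quotient.mk _) by
      rw [Ideal.map_span, Set.image_singleton]]
    refine Ideal.map_isPrime_of_surjective Ideal.Quotient.mk_surjective ?_
    rw [Ideal.mk_ker, Ideal.span_singleton_le_span_singleton]
    exact dvd_pow_self π (Nat.succ_ne_zero R)
  obtain ⟨a, b, hab⟩ := exists_uNorm_one_add hcp hc' (c ^ n) x
  obtain ⟨e, he⟩ : ∃ e, n * p = n + 1 + e := Nat.exists_eq_add_of_le (by
    have := hp.out.two_le
    nlinarith)
  set y := a + single 0 (c ^ e) * b with hy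
  have hN : uNorm p (1 + single 0 (c ^ n) * x) = 1 + single 0 (c ^ (n + 1)) * y := by
    rw [hab, hy, mul_add, ← mul_assoc, HahnSeries.single_mul_single, zero_add, ← pow_add c, ← he,
      ← pow_mul c, ← pow_succ' c, add_assoc]
  have hNs : uNorm p s = uNorm p w ^ p * (1 + single 0 (c ^ (n + 1)) * y) := by
    conv_lhs => rw [hw]
    rw [map_mul, map_pow, hN]
  rcases hU with hU | hU
  · exact ⟨U * uNorm p w, y, by rw [mul_pow, mul_assoc, ← hNs]; exact hU⟩
  · set E := (1 : LaurentSeries (B ⧸ Ideal.span {π ^ (R + 1)})) + single 0 (c ^ (n + 1)) * y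
    obtain ⟨v, hv⟩ : ∃ v, E * v = 1 := by
      refine IsUnit.exists_right_inv (IsNilpotent.isUnit_one_add ⟨R + 1, ?_⟩)
      rw [mul_pow, HahnSeries.single_pow, smul_zero, ← pow_mul c, mul_comm (n + 1), pow_mul c,
        show c ^ (R + 1) = 0 by
          rw [← map_pow, Ideal.Quotient.eq_zero_iff_mem]
          exact Ideal.mem_span_singleton_self _, zero_pow (Nat.succ_ne_zero n),
        map_zero, zero_mul]
    obtain ⟨Nw, hNw⟩ : ∃ x, uNorm p w * x = 1 :=
      IsUnit.exists_right_inv ((isUnit_pow_iff hp.out.ne_zero).1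
        (isUnit_of_mul_isUnit_left (hNs ▸ hs.map (uNorm p))))
    refine ⟨U * Nw, -(y * v), ?_⟩
    have h1 : (1 : LaurentSeries _) + single 0 (c ^ (n + 1)) * -(y * v) = v := by
      linear_combination -hv
    rw [hNs] at hU
    rw [h1, mul_pow, ← hU]
    calc s = s * (uNorm p w * Nw) ^ p * (E * v) := by rw [hNw, hv, one_pow, mul_one, mul_one]
      _ = _ := by ring

omit [CommRing B] [IsDomain B] h in
lemma exists_U {A : Type*} [CommRing A] (N : A →* A) {s H : A} (hs : IsUnit s) {m : ℕ}
    (hm : m = 1 ∨ m + 1 = p) (he : N s * s ^ m = H ^ p) :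
    ∃ U, s = U ^ p * N s ∨ s * N s = U ^ p := by
  rcases hm with rfl | hm
  · exact ⟨H, Or.inr (by rw [mul_comm, ← he, pow_one])⟩
  · obtain ⟨G, hG⟩ := IsUnit.exists_right_inv ((isUnit_pow_iff hp.out.ne_zero).1
      (he ▸ (hs.map N).mul (hs.pow m)))
    refine ⟨s * G, Or.inl ?_⟩
    calc s = s * (H * G) ^ p := by rw [hG, one_pow, mul_one]
      _ = (s ^ (m + 1)) * G ^ p * N s := by rw [mul_pow, ← he]; ring
      _ = _ := by rw [hm, mul_pow]

omit [IsDomain B] in
/-- Roots modulo `π ^ R`. -/
theorem exists_root_of_norm_eq {s H : LaurentSeries B} (hs : IsPrim π s) {m : ℕ}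
    (hm : m = 1 ∨ m + 1 = p) (he : uNorm p s * s ^ m = H ^ p)
    (hroot : ∃ w, redSer π 1 s = w ^ p) (R : ℕ) :
    ∃ g : LaurentSeries B, redSer π R (g ^ p) = redSer π R s := by
  obtain ⟨w₀, hw₀⟩ := hroot
  obtain ⟨w, -, hw⟩ := exists_coeff_lift (P := fun _ => True)
    (f := Ideal.Quotient.mk (Ideal.span {π ^ 1})) trivial
    (fun y => (Ideal.Quotient.mk_surjective y).imp fun _ hx => ⟨trivial, hx⟩) w₀
  have hwprim : IsPrim π w := by
    rw [isPrim_iff] at hs ⊢
    intro h0
    refine hs ?_
    rw [hw₀, ← hw]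
    unfold redSer at h0
    rw [h0, zero_pow hp.out.ne_zero]
  obtain ⟨x, hx⟩ : ∃ x, s - w ^ p = single 0 π * x :=
    exists_eq_smul_of_coeff _ fun i => by
      have hz : redSer π 1 (s - w ^ p) = 0 := by
        rw [map_sub, map_pow, hw₀, ← hw, redSer, sub_self]
      simpa using redSer_eq_zero_iff.1 hz i
  set q := redSer π (R + 1)
  obtain ⟨u, hu⟩ := h.isUnit_redSer (R := R + 1) (h.isPrim_pow hwprim p)
  set c := Ideal.Quotient.mk (Ideal.span {π ^ (R + 1)}) π
  have hq1 : q (single 0 π) = single 0 c := by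
    ext i
    rcases eq_or_ne i 0 with rfl | hi <;> simp [q, redSer, c, *]
  have hsu : IsUnit (q s) := h.isUnit_redSer hs
  obtain ⟨U, hU⟩ := exists_U (uNorm p) hsu (H := q H) hm (by
    rw [← map_pow q H, ← he, map_mul, map_pow]
    congr 1
    exact (coeffMap_uNorm p _ s).symm)
  have hiter : ∀ n : ℕ, 1 ≤ n → ∃ w' x', q s = w' ^ p * (1 + single 0 (c ^ n) * x') := by
    intro n hn
    induction n, hn using Nat.le_induction with
    | base =>
      refine ⟨q w, q x * ↑u⁻¹, ?_⟩
      rw [pow_one, mul_add, mul_one, ← map_pow, ← hu,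
        show (↑u : LaurentSeries _) * (single 0 c * (q x * ↑u⁻¹)) = single 0 c * q x by
          rw [mul_left_comm, mul_left_comm (↑u : LaurentSeries _) (q x), Units.mul_inv, mul_one],
        hu, ← hq1, ← map_mul, ← hx, ← map_add, add_sub_cancel]
    | succ n hn ih =>
      obtain ⟨w', x', hw'⟩ := ih
      exact h.exists_step hn hsu hU hw'
  obtain ⟨w', x', hw'⟩ := hiter (R + 1) (Nat.succ_pos R)
  rw [show c ^ (R + 1) = 0 by
    rw [← map_pow, Ideal.Quotient.eq_zero_iff_mem]; exact Ideal.mem_span_singleton_self _,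
    map_zero, zero_mul, add_zero, mul_one] at hw'
  obtain ⟨g, -, hg⟩ := exists_coeff_lift (P := fun _ => True)
    (f := Ideal.Quotient.mk (Ideal.span {π ^ (R + 1)})) trivial
    (fun y => (Ideal.Quotient.mk_surjective y).imp fun _ hx => ⟨trivial, hx⟩) w'
  refine ⟨g, sub_eq_zero.1 ?_⟩
  rw [← map_sub, redSer_eq_zero_iff]
  intro i
  refine (pow_dvd_pow π R.le_succ).trans (redSer_eq_zero_iff.1 ?_ i)
  rw [map_sub, map_pow]
  show coeffMap _ g ^ p - q s = 0
  rw [hg, hw', sub_self]

end SeriesHyp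

end Fermat.Agent.AtP
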