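import Fermat.Agent.AtP.NodeBranch
import Fermat.Agent.AtP.SeriesAlgebra
import Fermat.Agent.AtP.LambdaPSeries
import Fermat.Agent.KummerES.Interface

/-!
# Coefficient rings for Mazur's principle at `p`

`O ⊂ B = O[η]` in `ℂ`, with `η ^ p = 1 + p c₀`: `B` is a complete discrete valuation ring with
uniformiser `ϖ = η - 1`, `p = ϖ ^ p μ`, and `B → k[ε]` kills the `ε`-part exactly on `O + ϖ ² B`.
-/

set_option autoImplicit false

noncomputable section

open IsLocalRing

namespace Fermat.Agent.AtP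

/-- The coefficient rings. -/
structure Coeff (p : ℕ) where
  /-- The unramified coefficients. -/
  O : Subring ℂ
  /-- The ramified coefficients. -/
  B : Subring ℂ
  le : O ≤ B
  dvrO : IsDiscreteValuationRing O
  completeO : IsAdicComplete (maximalIdeal O) O
  irredO : Irreducible (p : O)
  dvr : IsDiscreteValuationRing B
  complete : IsAdicComplete (maximalIdeal B) B
  algClosed : IsAlgClosed (ResidueField B)
  charP : CharP (ResidueField B) p
  /-- The uniformiser `η - 1`. -/
  unif : B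
  irred : Irreducible unif
  /-- The unit with `p = unif ^ p * unit`. -/
  mu : B
  mu_isUnit : IsUnit mu
  p_eq : (p : B) = unif ^ p * mu
  /-- Reduction modulo `unif ^ 2`. -/
  red₂ : B →+* DualNumber (ResidueField B)
  fst_red₂ : ∀ b, TrivSqZeroExt.fst (red₂ b) = residue B b
  snd_unif : TrivSqZeroExt.snd (red₂ unif) = 1
  snd_mu : TrivSqZeroExt.snd (red₂ mu) ≠ 0
  snd_eq_zero_iff : ∀ b : B, TrivSqZeroExt.snd (red₂ b) = 0 ↔
    ∃ o : B, (o : ℂ) ∈ O ∧ ∃ c : B, b = o + unif ^ 2 * c
  seriesHyp : SeriesHyp p unif (O.comap B.subtype)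
  noRoot : ∀ x ∈ Subfield.closure (B : Set ℂ), x ^ p = 1 → x = 1
  zeta_mem : ∀ m : ℕ, ¬ p ∣ m → KummerES.zetaC m ∈ O ∧ (m : ℂ)⁻¹ ∈ O
  two_le : B2 ≤ O

attribute [instance] Coeff.dvrO Coeff.completeO Coeff.dvr Coeff.complete Coeff.algClosed

namespace Coeff

variable {p : ℕ} (C : Coeff p)

/-- The field of the coefficients. -/
def field : Subfield ℂ := Subfield.closure (C.B : Set ℂ)

/-- The uniformiser lies in the maximal ideal. -/
theorem unif_mem : C.unif ∈ maximalIdeal C.B := mem_max_of_irreducible C.irred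

/-- `O` contains `ℤ[ζ_L, 1/L]` for `p ∤ L`. -/
theorem zetaRing_le {L : ℕ} (h : ¬ p ∣ L) : KummerES.zetaRing L ≤ C.O :=
  Subring.closure_le.2 fun x hx => by
    rcases hx with rfl | rfl
    exacts [(C.zeta_mem L h).1, (C.zeta_mem L h).2]

end Coeff

end Fermat.Agent.AtP
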