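import Fermat.Agent.KummerES.Weak
import Fermat.Agent.AtP.LambdaPSeries

/-!
# Functions with an expansion over a ring of coefficients
-/

set_option autoImplicit false

noncomputable section

open UpperHalfPlane
open scoped MatrixGroups
open Fermat.Agent.KummerES
open ModularCurve (qExpand coeffMap)

namespace Fermat.Agent.AtP

/-- The functions with an expansion in `exp (2πiτ/L)` with coefficients in `B`. -/
def expSubring (L : ℕ) (B : Subring ℂ) : Subring (ℍ → ℂ) where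
  carrier := {f | ∃ s ∈ coeffSubring B, HasExp L f s}
  one_mem' := ⟨1, one_mem _, HasExp.one⟩
  zero_mem' := ⟨0, zero_mem _, HasExp.zero⟩
  add_mem' := fun ⟨s, hs, hs'⟩ ⟨t, ht, ht'⟩ => ⟨s + t, add_mem hs ht, hs'.add ht'⟩
  neg_mem' := fun ⟨s, hs, hs'⟩ => ⟨-s, neg_mem hs, hs'.neg⟩
  mul_mem' := fun ⟨s, hs, hs'⟩ ⟨t, ht, ht'⟩ => ⟨s * t, mul_mem hs ht, hs'.mul ht'⟩

/-- Constants from `B` have an expansion over `B`. -/
theorem const_mem_expSubring {L : ℕ} {B : Subring ℂ} {c : ℂ} (hc : c ∈ B) :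
    (fun _ => c) ∈ expSubring L B :=
  ⟨_, single_mem_coeffSubring 0 hc, HasExp.const c⟩

/-- `expSubring` is monotone in the coefficients. -/
theorem expSubring_mono {L : ℕ} {B B' : Subring ℂ} (h : B ≤ B') :
    expSubring L B ≤ expSubring L B' := fun _ ⟨s, hs, hs'⟩ => ⟨s, fun i => h (hs i), hs'⟩

/-- The expansion of a member has coefficients in `B`. -/
theorem expansion_mem_of_mem_expSubring {L : ℕ} [NeZero L] {B : Subring ℂ} {f : ℍ → ℂ}
    (h : f ∈ expSubring L B) :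
    expansion L f ∈ coeffSubring B ∧ HasExp L f (expansion L f) := by
  obtain ⟨s, hs, hs'⟩ := h
  rw [hs'.expansion_eq]
  exact ⟨hs, hs'⟩

/-- A subring containing `1/2` contains `ℤ[1/2]`. -/
theorem B2_le {B : Subring ℂ} (h : (2 : ℂ)⁻¹ ∈ B) : B2 ≤ B := by
  rintro _ ⟨x, rfl⟩
  obtain ⟨⟨a, s, n, hn⟩, hs⟩ := IsLocalization.surj (Submonoid.powers (2 : ℤ)) x
  have hs' := congrArg awayToC hs
  subst hn
  simp only [map_mul, map_pow, eq_intCast, map_intCast] at hs'
  have e : awayToC x = (a : ℂ) * ((2 : ℂ)⁻¹) ^ n := by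
    have h2 : (2 : ℂ) ^ n ≠ 0 := pow_ne_zero _ two_ne_zero
    rw [inv_pow, eq_mul_inv_iff_mul_eq₀ h2]
    simpa using hs'
  rw [e]
  exact mul_mem (intCast_mem _ _) (pow_mem h n)

/-- A series over `ℤ[1/2]` has coefficients in a ring containing `1/2`. -/
theorem coeffMap_iota2_mem {B : Subring ℂ} (h : (2 : ℂ)⁻¹ ∈ B) (s : LaurentSeries R2) :
    coeffMap iota2 s ∈ coeffSubring B := fun i => B2_le h (coeffMap_mem_B2 s i)

/-- `1/2` lies in `ℤ[ζ_L, 1/L]` for even `L`. -/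
theorem inv_two_mem_zetaRing_exp {L : ℕ} [NeZero L] (hL2 : 2 ∣ L) : (2 : ℂ)⁻¹ ∈ zetaRing L := by
  obtain ⟨l, rfl⟩ := hL2
  have hl : (l : ℂ) ≠ 0 := by
    exact_mod_cast fun h : l = 0 => NeZero.ne (2 * l) (by simp [h])
  have e : (2 : ℂ)⁻¹ = (l : ℂ) * ((2 * l : ℕ) : ℂ)⁻¹ := by
    push_cast
    field_simp
  rw [e]
  exact mul_mem (natCast_mem _ _) (inv_natCast_mem_zetaRing _)

/-- Series over `ℤ[1/2]` in the parameter of level `2`, read at level `L`. -/
theorem mem_expSubring_of_two {L : ℕ} [NeZero L] (hL2 : 2 ∣ L) {B : Subring ℂ}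
    (hB : (2 : ℂ)⁻¹ ∈ B) {f : ℍ → ℂ} {s : LaurentSeries R2}
    (h : HasExp 2 f (coeffMap iota2 s)) : f ∈ expSubring L B := by
  obtain ⟨l, rfl⟩ := hL2
  have : NeZero l := ⟨fun h => NeZero.ne (2 * l) (by simp [h])⟩
  exact ⟨_, qExpand_mem_coeffSubring l (coeffMap_iota2_mem hB s), h.dilate l⟩

/-- The inverse of a series over a subfield is over that subfield. -/
theorem inv_mem_coeffSubring {K : Subfield ℂ} {s : LaurentSeries ℂ}
    (hs : s ∈ coeffSubring K.toSubring) : s⁻¹ ∈ coeffSubring K.toSubring := by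
  let s' : LaurentSeries K :=
    { coeff := fun i => ⟨s.coeff i, hs i⟩
      isPWO_support' := s.isPWO_support.mono fun i hi h0 => hi (Subtype.ext h0) }
  have e : s = coeffMap K.subtype s' := by
    ext i
    rw [ModularCurve.coeffMap_coeff]
    rfl
  intro i
  rw [e, ← map_inv₀, ModularCurve.coeffMap_coeff]
  exact ((s'⁻¹).coeff i).2

end Fermat.Agent.AtP
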