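import Mathlib.RingTheory.HahnSeries.Summable
import Fermat.Agent.AtP.LambdaPSeries

/-!
# The series of the derivative of the modular polynomial at `λ (pτ)`

It has a unit leading coefficient over `ℤ[1/2]`.
-/

set_option autoImplicit false

noncomputable section

open Polynomial ModularCurve
open Fermat.Agent.KummerES

namespace Fermat.Agent.AtP

variable {p : ℕ} [hp : Fact p.Prime]

variable (p) in
/-- The series of the derivative. -/
def diffSeries (σ : LaurentSeries R2) : LaurentSeries R2 :=
  (normPoly p σ).eval (qExpand R2 p σ)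

lemma leadingCoeff_eq_of_lowest {K : Type*} [Field K] {s : LaurentSeries K} {n : ℤ}
    (h0 : ∀ i < n, s.coeff i = 0) (hn : s.coeff n ≠ 0) :
    s.leadingCoeff = s.coeff n ∧ s ≠ 0 := by
  have hs : s ≠ 0 := fun h => hn (by simp [h])
  refine ⟨?_, hs⟩
  have h1 : s.order ≤ n := HahnSeries.order_le_of_coeff_ne_zero hn
  have h2 : n ≤ s.order := by
    by_contra h
    exact hs (HahnSeries.coeff_order_eq_zero.1 (h0 _ (not_le.1 h)))
  rw [HahnSeries.leadingCoeff_eq, le_antisymm h1 h2]

lemma leadingCoeff_map {A K : Type*} [CommRing A] [Field K] (ι : A →+* K)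
    (hι : Function.Injective ι) {s : LaurentSeries A} (hs : s ≠ 0) :
    (qExpand K p (coeffMap ι s)).leadingCoeff = ι s.leadingCoeff := by
  have hp0 : (0 : ℤ) < p := by exact_mod_cast hp.out.pos
  have hne : s.coeff s.order ≠ 0 := fun h => hs (HahnSeries.coeff_order_eq_zero.1 h)
  have hc : (qExpand K p (coeffMap ι s)).coeff ((p : ℤ) * s.order) = ι (s.coeff s.order) := by
    rw [qExpand_coeff_mul, coeffMap_coeff]
  have hne' : (qExpand K p (coeffMap ι s)).coeff ((p : ℤ) * s.order) ≠ 0 := by
    rw [hc]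
    exact (map_ne_zero_iff ι hι).2 hne
  rw [(leadingCoeff_eq_of_lowest (fun i hi => ?_) hne').1, hc, HahnSeries.leadingCoeff_eq]
  by_cases hd : (p : ℤ) ∣ i
  · obtain ⟨m, rfl⟩ := hd
    rw [qExpand_coeff_mul, coeffMap_coeff,
      HahnSeries.coeff_eq_zero_of_lt_order (lt_of_mul_lt_mul_left hi hp0.le), map_zero]
  · exact qExpand_coeff_of_not_dvd _ _ hd

lemma leadingCoeff_finset_prod {K α : Type*} [Field K] (T : Finset α) (t : α → LaurentSeries K) :
    (∏ a ∈ T, t a).leadingCoeff = ∏ a ∈ T, (t a).leadingCoeff := by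
  classical
  induction T using Finset.induction_on with
  | empty => simp
  | insert a T ha ih => rw [Finset.prod_insert ha, Finset.prod_insert ha, HahnSeries.leadingCoeff_mul, ih]

/-- The leading coefficient of a difference of two conjugates, up to `p`-th roots of unity. -/
lemma leadingCoeff_factor {s : LaurentSeries ℂ} {n : ℤ} (hn0 : n ≠ 0) (hn : s.coeff n ≠ 0)
    (hlow : ∀ i < n, i ≠ 0 → s.coeff i = 0) {u : ℂˣ} (hu : u ^ p = 1) :
    (qExpand ℂ p (qExpand ℂ p s) - twistU u s).leadingCoeff ^ p =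
        (if 0 < n then -s.coeff n else s.coeff n) ^ p ∧
      qExpand ℂ p (qExpand ℂ p s) - twistU u s ≠ 0 := by
  have hp1 : (1 : ℤ) < p := by exact_mod_cast hp.out.one_lt
  set P : ℤ := (p : ℤ) * p with hP
  have hP1 : 1 < P := by nlinarith
  have hq : ∀ i, (qExpand ℂ p (qExpand ℂ p s)).coeff (P * i) = s.coeff i := fun i => by
    rw [hP, mul_assoc, qExpand_coeff_mul, qExpand_coeff_mul]
  have hq' : ∀ i, ¬ P ∣ i → (qExpand ℂ p (qExpand ℂ p s)).coeff i = 0 := fun i hi => by
    by_cases hd : (p : ℤ) ∣ i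
    · obtain ⟨m, rfl⟩ := hd
      rw [qExpand_coeff_mul]
      exact qExpand_coeff_of_not_dvd _ _ fun hd => hi (mul_dvd_mul_left _ hd)
    · exact qExpand_coeff_of_not_dvd _ _ hd
  set d := qExpand ℂ p (qExpand ℂ p s) - twistU u s with hd
  have hdc : ∀ i, d.coeff i = (qExpand ℂ p (qExpand ℂ p s)).coeff i - (↑(u ^ i) : ℂ) * s.coeff i :=
    fun i => by rw [hd, HahnSeries.coeff_sub, twistU_coeff]
  have hzero : d.coeff 0 = 0 := by
    rw [hdc, ← mul_zero P, hq]
    simp
  rcases lt_or_gt_of_ne hn0 with hneg | hpos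
  · have hPn : P * n < n := by nlinarith
    have h1 : d.coeff (P * n) = s.coeff n := by
      rw [hdc, hq, hlow _ hPn (mul_ne_zero (by omega) hn0), mul_zero, sub_zero]
    have h2 : ∀ i < P * n, d.coeff i = 0 := by
      intro i hi
      have hi0 : i ≠ 0 := by nlinarith
      rw [hdc, hlow i (by omega) hi0, mul_zero, sub_zero]
      by_cases hdi : P ∣ i
      · obtain ⟨m, rfl⟩ := hdi
        rw [hq]
        exact hlow m (lt_of_mul_lt_mul_left hi (by omega)) (right_ne_zero_of_mul hi0)
      · exact hq' i hdi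
    obtain ⟨e1, e2⟩ := leadingCoeff_eq_of_lowest h2 (h1 ▸ hn)
    refine ⟨?_, e2⟩
    rw [e1, h1, if_neg (by omega)]
  · have h1 : d.coeff n = -((↑(u ^ n) : ℂ) * s.coeff n) := by
      rw [hdc]
      by_cases hdi : P ∣ n
      · obtain ⟨m, hm⟩ := hdi
        have hmn : m < n := by nlinarith
        rw [hm] at hn0
        rw [hm, hq, hlow m (hm ▸ hmn) (right_ne_zero_of_mul hn0), zero_sub]
      · rw [hq' n hdi, zero_sub]
    have h2 : ∀ i < n, d.coeff i = 0 := by
      intro i hi
      rcases eq_or_ne i 0 with rfl | hi0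
      · exact hzero
      rw [hdc, hlow i hi hi0, mul_zero, sub_zero]
      by_cases hdi : P ∣ i
      · obtain ⟨m, rfl⟩ := hdi
        rw [hq]
        refine hlow m ?_ (right_ne_zero_of_mul hi0)
        rcases le_or_gt m 0 with h | h <;> nlinarith
      · exact hq' i hdi
    have hne : d.coeff n ≠ 0 := by
      rw [h1, neg_ne_zero]
      exact mul_ne_zero (Units.ne_zero _) hn
    obtain ⟨e1, e2⟩ := leadingCoeff_eq_of_lowest h2 hne
    refine ⟨?_, e2⟩
    have hun : ((↑(u ^ n) : ℂ)) ^ p = 1 := by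
      rw [← Units.val_pow_eq_pow_val, ← zpow_natCast, zpow_comm, zpow_natCast, hu, one_zpow,
        Units.val_one]
    rw [e1, h1, if_pos hpos, neg_mul_eq_mul_neg, mul_pow, hun, one_mul]

/-- `diffSeries` is the product of the differences with the twisted conjugates. -/
lemma qExpand_diffSeries (σ : LaurentSeries R2) :
    qExpand ℂ p (coeffMap iota2 (diffSeries p σ)) =
      ∏ b : ZMod p, (qExpand ℂ p (qExpand ℂ p (coeffMap iota2 σ)) -
        twistU (zetaUnit p b) (coeffMap iota2 σ)) := by
  have h := congrArg (Polynomial.eval (((qExpand ℂ p).comp (coeffMap iota2)) (qExpand R2 p σ)))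
    (normPoly_map (isPrimitiveRoot_zetaC p) (ι := iota2) (p := p) σ)
  rw [eval_map, eval₂_at_apply, eval_prod] at h
  simp only [eval_sub, eval_X, eval_C, RingHom.comp_apply] at h
  rw [diffSeries, h]
  simp only [qExpand_coeffMap]
  rfl

/-- Expansions multiply over finite products. -/
lemma hasExp_finset_prod {L : ℕ} {ι : Type*} (T : Finset ι) {F : ι → UpperHalfPlane → ℂ}
    {S : ι → LaurentSeries ℂ} (h : ∀ i ∈ T, HasExp L (F i) (S i)) :
    HasExp L (∏ i ∈ T, F i) (∏ i ∈ T, S i) := by
  classical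
  induction T using Finset.induction_on with
  | empty => simpa using HasExp.one
  | insert a T ha ih =>
    rw [Finset.prod_insert ha, Finset.prod_insert ha]
    exact (h a (Finset.mem_insert_self a T)).mul (ih fun i hi => h i (Finset.mem_insert_of_mem hi))

/-- The series of the derivative has an inverse over `ℤ[1/2]`. -/
theorem isUnit_diffSeries {σ : LaurentSeries R2} (hθ : IsUnit (thetaOp R2 σ)) :
    IsUnit (diffSeries p σ) := by
  have hθc : ∀ i, (thetaOp R2 σ).coeff i = (i : R2) * σ.coeff i := fun i => rfl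
  have hlead := HahnSeries.isUnit_iff.1 hθ
  rw [HahnSeries.leadingCoeff_eq, hθc] at hlead
  set n := (thetaOp R2 σ).order with hn
  have hcu : IsUnit (σ.coeff n) := isUnit_of_mul_isUnit_right hlead
  have hn0 : n ≠ 0 := fun h => by simp [h] at hlead
  set s := coeffMap iota2 σ with hs
  have hsn : s.coeff n ≠ 0 := by
    rw [hs, coeffMap_coeff]
    exact (map_ne_zero_iff _ iota2_injective).2 hcu.ne_zero
  have hlow : ∀ i < n, i ≠ 0 → s.coeff i = 0 := fun i hi hi0 => by
    have h := HahnSeries.coeff_eq_zero_of_lt_order (show i < (thetaOp R2 σ).order from hn ▸ hi)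
    rw [hθc] at h
    have h' := congrArg iota2 h
    rw [map_mul, map_intCast, map_zero, mul_eq_zero] at h'
    rw [hs, coeffMap_coeff]
    exact h'.resolve_left (by exact_mod_cast hi0)
  have himg := qExpand_diffSeries (p := p) σ
  rw [← hs] at himg
  have hne : diffSeries p σ ≠ 0 := by
    intro h0
    rw [h0, map_zero, map_zero, eq_comm, Finset.prod_eq_zero_iff] at himg
    obtain ⟨b, -, hb⟩ := himg
    exact (leadingCoeff_factor hn0 hsn hlow (zetaUnit_pow b)).2 hb
  refine HahnSeries.isUnit_iff.2 (isUnit_pow_iff hp.out.ne_zero |>.1 ?_)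
  have hval : iota2 ((diffSeries p σ).leadingCoeff ^ p) =
      iota2 ((if 0 < n then -σ.coeff n else σ.coeff n) ^ p) ^ p := by
    rw [map_pow, map_pow, ← leadingCoeff_map (p := p) iota2 iota2_injective hne, himg,
      leadingCoeff_finset_prod, ← Finset.prod_pow,
      Finset.prod_congr rfl fun b _ => (leadingCoeff_factor hn0 hsn hlow (zetaUnit_pow b)).1,
      Finset.prod_const, Finset.card_univ, ZMod.card]
    simp [hs, apply_ite iota2]
  rw [← map_pow] at hval
  rw [iota2_injective hval]
  refine IsUnit.pow _ (IsUnit.pow _ ?_)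
  split_ifs
  · exact hcu.neg
  · exact hcu

end Fermat.Agent.AtP
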