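import Fermat.Agent.Newforms.Matrices
import Fermat.Agent.AtP.DescentLevel
import Fermat.Agent.AtP.LambdaPSeries

/-!
# The map exchanging the two cusps of `Γ₀(p)`

`swapMap = γ₀ ∘ (τ ↦ p τ)` with `γ₀ = swapSL ∈ Γ(L)`; it normalises `Γ₀(p) ∩ Γ(L)` and agrees with
every Atkin–Lehner matrix at `p` on `Γ₀(p M)`-invariant functions, `M ∣ L`.
-/

set_option autoImplicit false

noncomputable section

open UpperHalfPlane CongruenceSubgroup
open scoped MatrixGroups Manifold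
open Fermat.Agent.KummerES

namespace Fermat.Agent.AtP

variable {p : ℕ} [hp : Fact p.Prime] {L : ℕ}

variable (p L) in
/-- `τ ↦ γ₀ (p τ)`. -/
def swapMap (τ : ℍ) : ℍ := swapSL p L • conjMap (none : Option (ZMod p)) τ

variable (p L) in
/-- `F ∘ swapMap`. -/
def swapFun (F : ℍ → ℂ) : ℍ → ℂ := fun τ => F (swapMap p L τ)

theorem smul_conjMap_none_eq (γ γ1 : SL(2, ℤ)) (τ : ℍ) (h00 : γ1.1 0 0 = γ.1 0 0)
    (h01 : γ1.1 0 1 = p * γ.1 0 1) (h10 : γ.1 1 0 = p * γ1.1 1 0) (h11 : γ1.1 1 1 = γ.1 1 1) :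
    conjMap (none : Option (ZMod p)) (γ • τ) = γ1 • conjMap (none : Option (ZMod p)) τ := by
  have hγ : 0 < (γ : Matrix (Fin 2) (Fin 2) ℤ).det := by rw [γ.2]; norm_num
  have hγ1 : 0 < (γ1 : Matrix (Fin 2) (Fin 2) ℤ).det := by rw [γ1.2]; norm_num
  have hmul : conjMat (none : Option (ZMod p)) * γ.1 = γ1.1 * conjMat (none : Option (ZMod p)) := by
    ext i j
    fin_cases i <;> fin_cases j <;>
      simp [conjMat, Matrix.mul_apply, Fin.sum_univ_two, h00, h01, h10, h11, mul_comm]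
  have hC : 0 < (conjMat (none : Option (ZMod p)) * γ.1).det := by
    rw [Matrix.det_mul, γ.2, mul_one]; exact det_conjMat_pos none
  simp only [conjMap]
  rw [← posGL_SL_smul γ hγ, posGL_mul_smul _ _ hC rfl,
    ← posGL_mul_smul hγ1 (det_conjMat_pos none) hC hmul.symm, posGL_SL_smul γ1 hγ1]

omit hp in
/-- The lower left entry on `Γ₀(p)` is a multiple of `p`. -/
theorem exists_lower_left {γ : SL(2, ℤ)} (hγ : γ ∈ Gamma0 p) : ∃ c : ℤ, γ.1 1 0 = p * c :=
  (ZMod.intCast_zmod_eq_zero_iff_dvd _ p).1 (Gamma0_mem.1 hγ)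

theorem swapMap_smul_eq {γ : SL(2, ℤ)} (hγ : γ ∈ Gamma0 p) :
    ∃ γ1 : SL(2, ℤ), γ1.1 0 0 = γ.1 0 0 ∧ γ1.1 1 1 = γ.1 1 1 ∧ (p : ℤ) ∣ γ1.1 0 1 ∧
      γ1.1 0 1 = p * γ.1 0 1 ∧ γ.1 1 0 = p * γ1.1 1 0 ∧
      ∀ τ, swapMap p L (γ • τ) = (swapSL p L * γ1 * (swapSL p L)⁻¹) • swapMap p L τ := by
  obtain ⟨c, hc⟩ := exists_lower_left hγ
  obtain ⟨γ1, h1⟩ : ∃ γ1 : SL(2, ℤ),
      γ1.1 = !![γ.1 0 0, (p : ℤ) * γ.1 0 1; c, γ.1 1 1] := by
    refine ⟨⟨_, ?_⟩, rfl⟩
    have h := γ.2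
    rw [Matrix.det_fin_two, hc] at h
    rw [Matrix.det_fin_two_of]
    linear_combination h
  have h00 : γ1.1 0 0 = γ.1 0 0 := by simp [h1]
  have h01 : γ1.1 0 1 = p * γ.1 0 1 := by simp [h1]
  have h11 : γ1.1 1 1 = γ.1 1 1 := by simp [h1]
  have h10 : γ.1 1 0 = p * γ1.1 1 0 := by simp [h1, hc]
  refine ⟨γ1, h00, h11, h01 ▸ dvd_mul_right _ _, h01, h10, fun τ => ?_⟩
  rw [swapMap, swapMap, smul_conjMap_none_eq γ γ1 τ h00 h01 h10 h11, ← mul_smul, ← mul_smul]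
  congr 1
  group

theorem swap_conj_mem (hpL : ¬ p ∣ L) {γ : SL(2, ℤ)} (hγ : γ ∈ levelP p L) :
    ∃ γ' ∈ levelP p L, ∀ τ, swapMap p L (γ • τ) = γ' • swapMap p L τ := by
  obtain ⟨γ1, h00, h11, hpb, h01, h10, he⟩ := swapMap_smul_eq (L := L) (mem_levelP.1 hγ).1
  refine ⟨_, mem_levelP.2 ⟨?_, (Gamma_normal L).conj_mem γ1 ?_ _⟩, he⟩
  · have hb : ((γ1.1 0 1 : ℤ) : ZMod p) = 0 := (ZMod.intCast_zmod_eq_zero_iff_dvd _ p).2 hpb
    have hs := descM_spec (p := p) (L := L) hpL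
    push_cast at hs
    simp [Gamma0_mem, Matrix.SpecialLinearGroup.coe_mul, Matrix.SpecialLinearGroup.coe_inv,
      Matrix.adjugate_fin_two, coe_swapSL, Matrix.mul_apply, Matrix.vecMul, dotProduct,
      Fin.sum_univ_two, hb, hs]
  · have hco : IsCoprime (L : ℤ) (p : ℤ) := by
      rw [Int.isCoprime_iff_nat_coprime]
      exact (hp.out.coprime_iff_not_dvd.2 hpL).symm
    obtain ⟨g00, g01, g10, g11⟩ := Gamma_mem.1 (mem_levelP.1 hγ).2
    refine Gamma_mem.2 ⟨by rw [h00]; exact g00, ?_, ?_, by rw [h11]; exact g11⟩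
    · rw [h01, Int.cast_mul, g01, mul_zero]
    · rw [ZMod.intCast_zmod_eq_zero_iff_dvd]
      refine hco.dvd_of_dvd_mul_left ?_
      rw [← h10]
      exact (ZMod.intCast_zmod_eq_zero_iff_dvd _ L).1 g10

theorem swapFun_invariant (hpL : ¬ p ∣ L) {F : ℍ → ℂ} (hF : ∀ g ∈ levelP p L, comp F g = F)
    {γ : SL(2, ℤ)} (hγ : γ ∈ levelP p L) : comp (swapFun p L F) γ = swapFun p L F := by
  obtain ⟨γ', hγ', he⟩ := swap_conj_mem hpL hγ
  funext τ
  rw [comp_apply, swapFun, swapFun, he, ← comp_apply F γ', hF γ' hγ']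

/-- Composition with the maps of determinant `p` preserves holomorphy. -/
theorem mdiff_conjMap (i : Option (ZMod p)) {F : ℍ → ℂ} (hF : MDiff F) :
    MDiff fun τ => F (conjMap i τ) := fun z => by
  rw [UpperHalfPlane.mdifferentiableAt_iff]
  exact (hasDerivAt_comp_posGL hF (conjMat i) (det_conjMat_pos i) z).differentiableAt

theorem mdiff_swapFun {F : ℍ → ℂ} (hF : MDiff F) : MDiff (swapFun p L F) :=
  mdiff_conjMap (none : Option (ZMod p)) (F := comp F (swapSL p L)) (mdiff_comp hF (swapSL p L))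

theorem qL_conjMap_none_gen (N : ℕ) (τ : ℍ) :
    qL N (conjMap (none : Option (ZMod p)) τ) = 1 * qL N τ ^ p := by
  rw [one_mul, qL, qL, Function.Periodic.qParam, Function.Periodic.qParam, ← Complex.exp_nat_mul,
    coe_conjMap_none]
  congr 1
  ring

/-- `g (pτ)` expands in the `p`-th powers of the parameter. -/
theorem hasExp_comp_mulp {N : ℕ} {g : ℍ → ℂ} {s : LaurentSeries ℂ} (h : HasExp N g s) :
    HasExp N (g ∘ conjMap (none : Option (ZMod p))) (ModularCurve.qExpand ℂ p s) := by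
  have := h.subst (conjMap (none : Option (ZMod p))) one_ne_zero p (qL_conjMap_none_gen N)
  convert this using 3
  ext i; simp

theorem qL_conjMap_some_gen (N : ℕ) [NeZero N] (b : ZMod p) (τ : ℍ) :
    qL N (conjMap (some b) τ) = zetaC (N * p) ^ (2 * b.val) * qL (N * p) τ ^ 1 := by
  rw [pow_one, qL, qL, zetaC, Function.Periodic.qParam, Function.Periodic.qParam,
    ← Complex.exp_nat_mul, ← Complex.exp_add, coe_conjMap_some]
  congr 1
  have : (p : ℂ) ≠ 0 := by exact_mod_cast hp.out.ne_zero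
  have : (N : ℂ) ≠ 0 := by exact_mod_cast NeZero.ne N
  push_cast
  field_simp
  ring

variable [NeZero L]

/-- Composition with a matrix of determinant `p` keeps the parameter, given periodicity. -/
theorem exists_hasExp_conjMap {N : ℕ} [NeZero N] {g : ℍ → ℂ} {s : LaurentSeries ℂ}
    (h : HasExp N g s) (i : Option (ZMod p)) :
    ∃ t, HasExp (N * p) (g ∘ conjMap i) t := by
  cases i with
  | none => exact ⟨_, (hasExp_comp_mulp h).dilate p⟩
  | some b =>
    exact ⟨_, h.subst (conjMap (some b)) (pow_ne_zero _ (zetaC_ne_zero _)) 1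
      (qL_conjMap_some_gen N b)⟩

theorem comp_conjMap_eq {δ D : SL(2, ℤ)} {i j : Option (ZMod p)}
    (hD : conjMat i * δ.1 = D.1 * conjMat j) (τ : ℍ) :
    conjMap i (δ • τ) = D • conjMap j τ := by
  have hδ : 0 < (δ : Matrix (Fin 2) (Fin 2) ℤ).det := by rw [δ.2]; norm_num
  have hD' : 0 < (D : Matrix (Fin 2) (Fin 2) ℤ).det := by rw [D.2]; norm_num
  have hC : 0 < (conjMat i * δ.1).det := by
    rw [Matrix.det_mul, δ.2, mul_one]; exact det_conjMat_pos i
  simp only [conjMap]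
  rw [← posGL_SL_smul δ hδ, posGL_mul_smul _ _ hC rfl,
    ← posGL_mul_smul hD' (det_conjMat_pos j) hC hD.symm, posGL_SL_smul D hD']

omit hp [NeZero L] in
theorem Gamma_mul_le_levelP : Gamma (p * L) ≤ levelP p L := fun _ hγ =>
  mem_levelP.2 ⟨Gamma0_mem.2 ((Gamma_mem.1 (Gamma_le_of_dvd (dvd_mul_right p L) hγ)).2.2.1),
    Gamma_le_of_dvd (dvd_mul_left L p) hγ⟩

/-- `F ∘ swapMap` is of the same kind. -/
theorem swapFun_mem (hp2 : p ≠ 2) (hpL : ¬ p ∣ L) {F : ℍ → ℂ}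
    (hF : F ∈ weak (levelP p L) (p * L) ⊤) : swapFun p L F ∈ weak (levelP p L) (p * L) ⊤ := by
  refine ⟨mdiff_swapFun hF.1, fun γ hγ => swapFun_invariant hpL hF.2.1 hγ, fun δ => ?_⟩
  obtain ⟨j, D, hD⟩ : ∃ (j : Option (ZMod p)) (D : SL(2, ℤ)),
      conjMat (none : Option (ZMod p)) * δ.1 = D.1 * conjMat j :=
    exists_decomp hp2 _ (by rw [Matrix.det_mul, det_conjMat, δ.2, mul_one])
  obtain ⟨s, -, hs⟩ := hF.2.2 (swapSL p L * D)
  obtain ⟨t, ht⟩ := exists_hasExp_conjMap hs j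
  have e : comp (swapFun p L F) δ = comp F (swapSL p L * D) ∘ conjMap j := by
    funext τ
    simp only [comp_apply, Function.comp_apply, swapFun, swapMap, comp_conjMap_eq hD τ, mul_smul]
  rw [← e] at ht
  obtain ⟨t', -, ht'⟩ := exists_hasExp_of_comp_T_pow (B := ⊤) ht (fun _ => Subring.mem_top _)
    (comp_comp_T_pow (fun γ hγ => swapFun_invariant hpL hF.2.1 (Gamma_mul_le_levelP hγ)) δ)
  exact ⟨t', fun _ => Subring.mem_top _, ht'⟩

/-- An integral matrix of Atkin–Lehner shape and of determinant `p`. -/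
structure IsALShape (p M : ℕ) (A : Matrix (Fin 2) (Fin 2) ℤ) : Prop where
  det_eq : A.det = p
  upper : (p : ℤ) ∣ A 0 0
  lower : ((p * M : ℕ) : ℤ) ∣ A 1 0
  diag : (p : ℤ) ∣ A 1 1

/-- A matrix of Atkin–Lehner shape has positive determinant. -/
theorem IsALShape.det_pos {M : ℕ} {A : Matrix (Fin 2) (Fin 2) ℤ} (hA : IsALShape p M A) :
    0 < A.det := by
  rw [hA.det_eq]; exact_mod_cast hp.out.pos

/-- Invariant functions do not distinguish matrices of Atkin–Lehner shape. -/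
theorem comp_ALShape_eq {M : ℕ} {F : ℍ → ℂ} (hinv : ∀ γ ∈ Gamma0 (p * M), comp F γ = F)
    {A A' : Matrix (Fin 2) (Fin 2) ℤ} (hA : IsALShape p M A) (hA' : IsALShape p M A') (τ : ℍ) :
    F (posGL A hA.det_pos • τ) = F (posGL A' hA'.det_pos • τ) := by
  have hpz : (p : ℤ) ≠ 0 := by exact_mod_cast hp.out.ne_zero
  have hd : A.det = p := hA.det_eq
  have hd' : A'.det = p := hA'.det_eq
  rw [Matrix.det_fin_two] at hd hd'
  obtain ⟨⟨a, ha⟩, ⟨c, hc⟩, ⟨d, hdd⟩⟩ := hA.upper, hA.lower, hA.diag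
  obtain ⟨⟨a', ha'⟩, ⟨c', hc'⟩, ⟨d', hdd'⟩⟩ := hA'.upper, hA'.lower, hA'.diag
  push_cast at hc hc'
  rw [ha, hc, hdd] at hd
  rw [ha', hc', hdd'] at hd'
  have hd1 : (p : ℤ) * (a * d) - A 0 1 * (M * c) = 1 := mul_left_cancel₀ hpz (by linarith)
  have hd2 : (p : ℤ) * (a' * d') - A' 0 1 * (M * c') = 1 := mul_left_cancel₀ hpz (by linarith)
  obtain ⟨g, hg⟩ : ∃ g : SL(2, ℤ), g.1 = !![(p : ℤ) * a * d' - A 0 1 * M * c',
      A 0 1 * a' - a * A' 0 1; (p : ℤ) * M * (c * d' - d * c'), (p : ℤ) * d * a' - M * c * A' 0 1] := by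
    refine ⟨⟨_, ?_⟩, rfl⟩
    rw [Matrix.det_fin_two_of]
    linear_combination ((p : ℤ) * (a' * d') - A' 0 1 * (M * c')) * hd1 + hd2
  have hgN : g ∈ Gamma0 (p * M) := by
    rw [Gamma0_mem, ZMod.intCast_zmod_eq_zero_iff_dvd, hg]
    exact ⟨c * d' - d * c', by simp⟩
  have hmul : g.1 * A' = A := by
    rw [hg]
    ext i j
    fin_cases i <;> fin_cases j <;>
      simp [Matrix.mul_apply, Fin.sum_univ_two, ha, hc, hdd, ha', hc', hdd']
    · linear_combination (p : ℤ) * a * hd2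
    · linear_combination A 0 1 * hd2
    · linear_combination (p : ℤ) * M * c * hd2
    · linear_combination (p : ℤ) * d * hd2
  have hg' : 0 < (g : Matrix (Fin 2) (Fin 2) ℤ).det := by rw [g.2]; norm_num
  rw [← posGL_mul_smul hg' hA'.det_pos hA.det_pos hmul, posGL_SL_smul g hg', ← comp_apply F g,
    hinv g hgN]

variable (p L) in
/-- The matrix of `swapMap`. -/
def swapMat : Matrix (Fin 2) (Fin 2) ℤ := (swapSL p L).1 * conjMat (none : Option (ZMod p))

theorem isALShape_swapMat (hpL : ¬ p ∣ L) {M : ℕ} (hM : M ∣ L) : IsALShape p M (swapMat p L) := by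
  refine ⟨?_, ?_, ?_, ?_⟩
  · rw [swapMat, Matrix.det_mul, (swapSL p L).2, det_conjMat, one_mul]
  · simp [swapMat, coe_swapSL, conjMat, Matrix.mul_apply, Fin.sum_univ_two]
  · obtain ⟨e, rfl⟩ := hM
    simp [swapMat, coe_swapSL, conjMat, Matrix.mul_apply, Fin.sum_univ_two]
    exact ⟨(e : ℤ) * descM p (M * e), by ring⟩
  · have hs := (ZMod.intCast_zmod_eq_zero_iff_dvd _ p).1 (descM_spec (p := p) (L := L) hpL)
    simpa [swapMat, coe_swapSL, conjMat, Matrix.mul_apply, Fin.sum_univ_two] using hs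

omit [NeZero L] in
theorem swapMap_eq_posGL (τ : ℍ) (h : 0 < (swapMat p L).det) :
    swapMap p L τ = posGL (swapMat p L) h • τ := by
  have hs : 0 < (swapSL p L : Matrix (Fin 2) (Fin 2) ℤ).det := by rw [(swapSL p L).2]; norm_num
  simp only [swapMap, conjMap]
  rw [← posGL_mul_smul hs (det_conjMat_pos _) h rfl, posGL_SL_smul _ hs]

/-- `swapMap` computes the Atkin–Lehner operator. -/
theorem swapFun_eq_alW (hpL : ¬ p ∣ L) {M : ℕ} (hM : M ∣ L) {b d : ℤ}
    (h : (p : ℤ) * d - (M : ℤ) * b = 1) {F : ℍ → ℂ}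
    (hinv : ∀ γ ∈ Gamma0 (p * M), comp F γ = F) :
    (fun τ : ℍ => F (Newforms.alW p M b d h • τ)) = swapFun p L F := by
  have hA : IsALShape p M !![(p : ℤ), b; (p : ℤ) * M, (p : ℤ) * d] :=
    ⟨by rw [Matrix.det_fin_two_of]; linear_combination (p : ℤ) * h, by simp, by simp, by simp⟩
  funext τ
  rw [swapFun, swapMap_eq_posGL τ (isALShape_swapMat hpL hM).det_pos,
    ← comp_ALShape_eq hinv hA (isALShape_swapMat hpL hM) τ]
  congr 2
  ext i j
  rw [Newforms.val_alW h hp.out.ne_zero]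
  fin_cases i <;> fin_cases j <;> simp [posGL]

/-- `F ∘ swapMap` has period one. -/
theorem comp_swapFun_T (hpL : ¬ p ∣ L) {M : ℕ} (hM : M ∣ L) {F : ℍ → ℂ}
    (hinv : ∀ γ ∈ Gamma0 (p * M), comp F γ = F) :
    comp (swapFun p L F) ModularGroup.T = swapFun p L F := by
  have hA := isALShape_swapMat hpL hM
  have hB : IsALShape p M (swapMat p L * ModularGroup.T.1) := by
    refine ⟨?_, ?_, ?_, ?_⟩
    · rw [Matrix.det_mul, hA.det_eq, ModularGroup.T.2, mul_one]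
    · simpa [ModularGroup.coe_T, Matrix.mul_apply, Fin.sum_univ_two] using hA.upper
    · simpa [ModularGroup.coe_T, Matrix.mul_apply, Fin.sum_univ_two] using hA.lower
    · have h1 := hA.diag
      have h2 : (p : ℤ) ∣ swapMat p L 1 0 :=
        dvd_trans (by push_cast; exact dvd_mul_right _ _) hA.lower
      simpa [ModularGroup.coe_T, Matrix.mul_apply, Fin.sum_univ_two] using dvd_add h2 h1
  funext τ
  have hT : 0 < (ModularGroup.T : Matrix (Fin 2) (Fin 2) ℤ).det := by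
    rw [ModularGroup.T.2]; norm_num
  rw [comp_apply, swapFun, swapFun, swapMap_eq_posGL _ hA.det_pos, swapMap_eq_posGL _ hA.det_pos,
    ← comp_ALShape_eq hinv hB hA τ]
  congr 1
  rw [← posGL_SL_smul ModularGroup.T hT τ, posGL_mul_smul hA.det_pos hT hB.det_pos rfl]

end Fermat.Agent.AtP
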