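import Fermat.Agent.AtP.DescentLevel
import Fermat.Agent.AtP.DescentSwap
import Fermat.Agent.AtP.DescentSeries
import Fermat.Agent.AtP.LambdaPModular

/-!
# `λ (pτ)` and `λ'(τ)/λ'(pτ)` on `Γ₀(p) ∩ Γ(L)`, `2 ∣ L`
-/

set_option autoImplicit false

noncomputable section

open UpperHalfPlane CongruenceSubgroup
open Polynomial hiding comp
open scoped MatrixGroups Manifold
open Fermat.Agent.KummerES
open Fermat.Agent.Eisenstein (act act_mul act_one act_none_eq_none_iff)
open ModularCurve (qExpand coeffMap)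

namespace Fermat.Agent.AtP

variable {p : ℕ} [hp : Fact p.Prime] {L : ℕ}

variable (p) in
/-- `λ (pτ)`. -/
abbrev lamP : ℍ → ℂ := muFun p lam none

theorem exists_matrix_Gamma0 (hp2 : p ≠ 2) {δ : SL(2, ℤ)} (hδ : δ ∈ Gamma0 p) :
    ∃ D : SL(2, ℤ), conjMat (none : Option (ZMod p)) * δ.1 =
        D.1 * conjMat (none : Option (ZMod p)) ∧
      D.1.map (Int.castRingHom (ZMod 2)) = δ.1.map (Int.castRingHom (ZMod 2)) := by
  obtain ⟨c, hc⟩ := exists_lower_left hδ
  obtain ⟨γ1, h1⟩ : ∃ γ1 : SL(2, ℤ),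
      γ1.1 = !![δ.1 0 0, (p : ℤ) * δ.1 0 1; c, δ.1 1 1] := by
    refine ⟨⟨_, ?_⟩, rfl⟩
    have h := δ.2
    rw [Matrix.det_fin_two, hc] at h
    rw [Matrix.det_fin_two_of]
    linear_combination h
  have hmul : conjMat (none : Option (ZMod p)) * δ.1 = γ1.1 * conjMat (none : Option (ZMod p)) := by
    ext i j
    fin_cases i <;> fin_cases j <;>
      simp [conjMat, Matrix.mul_apply, Fin.sum_univ_two, h1, hc, mul_comm]
  refine ⟨γ1, hmul, ?_⟩
  have := congrArg (fun M : Matrix (Fin 2) (Fin 2) ℤ => M.map (Int.castRingHom (ZMod 2))) hmul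
  rw [Matrix.map_mul, Matrix.map_mul, conjMat_mod_two hp2, one_mul, mul_one] at this
  exact this.symm

/-- `λ (pτ)` and `λ'(τ)/λ'(pτ)` after an element of `Γ₀(p)`. -/
theorem comp_lamP_Gamma0 (hp2 : p ≠ 2) {δ : SL(2, ℤ)} (hδ : δ ∈ Gamma0 p) :
    comp (lamP p) δ = muFun p (comp lam δ) none ∧
      comp (vFun p lam none) δ = vFun p (comp lam δ) none := by
  obtain ⟨D, h1, h2⟩ := exists_matrix_Gamma0 hp2 hδ
  exact comp_muFun_eq h1 h2

/-- `Γ(L) ≤ Γ(2)` for even `L`. -/
theorem mem_Gamma_two (hL2 : 2 ∣ L) {γ : SL(2, ℤ)} (hγ : γ ∈ Gamma L) : γ ∈ Gamma 2 :=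
  Gamma_le_of_dvd hL2 hγ

theorem hasExp_two_pL [NeZero L] (hL2 : 2 ∣ L) {f : ℍ → ℂ} {s : LaurentSeries ℂ}
    (h : HasExp 2 f s) : ∃ t, HasExp (p * L) f t := by
  obtain ⟨l, rfl⟩ := hL2
  have : NeZero l := ⟨fun h => NeZero.ne (2 * l) (by simp [h])⟩
  exact ⟨_, by rw [show p * (2 * l) = 2 * (p * l) by ring]; exact h.dilate (p * l)⟩

theorem hasExp_two_mul_pL [NeZero L] (hL2 : 2 ∣ L) {f : ℍ → ℂ} {s : LaurentSeries ℂ}
    (h : HasExp (2 * p) f s) : ∃ t, HasExp (p * L) f t := by
  obtain ⟨l, rfl⟩ := hL2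
  have : NeZero l := ⟨fun h => NeZero.ne (2 * l) (by simp [h])⟩
  exact ⟨_, by rw [show p * (2 * l) = 2 * p * l by ring]; exact h.dilate l⟩

/-- The conjugates of `λ (pτ)` have expansions at level `p L`. -/
theorem exists_hasExp_muFun [NeZero L] (hL2 : 2 ∣ L) (δ : SL(2, ℤ)) (i : Option (ZMod p)) :
    ∃ s, HasExp (p * L) (muFun p (comp lam δ) i) s := by
  obtain ⟨σ, hσ, -⟩ := exists_good δ
  cases i with
  | none => exact hasExp_two_pL hL2 (hasExp_comp_conjMap_none hσ)
  | some b => exact hasExp_two_mul_pL hL2 (hasExp_comp_conjMap_some hσ b)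

/-- The conjugates of `λ'(τ)/λ'(pτ)` have expansions at level `p L`. -/
theorem exists_hasExp_vFun [NeZero L] (hL2 : 2 ∣ L) (δ : SL(2, ℤ)) (i : Option (ZMod p)) :
    ∃ s, HasExp (p * L) (vFun p (comp lam δ) i) s := by
  obtain ⟨σ, hσ, hgood⟩ := exists_good δ
  have hD : HasExp 2 (dSlash 2 (comp lam δ)) (coeffMap iota2 (thetaOp R2 σ)) := by
    rw [coeffMap_thetaOp]; exact HasExp.dSlash hσ
  have hD0 : ∀ τ, dSlash 2 (comp lam δ) τ ≠ 0 := fun τ =>
    (dSlash_ne_zero_iff τ).2 (deriv_comp_lam_ne_zero δ τ)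
  have ht0 : coeffMap iota2 (thetaOp R2 σ) ≠ 0 := (hgood.thetaUnit.map (coeffMap iota2)).ne_zero
  cases i with
  | none =>
    refine hasExp_two_pL hL2 (s := coeffMap iota2 (thetaOp R2 σ) *
      (qExpand ℂ p (coeffMap iota2 (thetaOp R2 σ)))⁻¹) ?_
    rw [show vFun p (comp lam δ) none = dSlash 2 (comp lam δ) * fun τ =>
        ((dSlash 2 (comp lam δ) ∘ conjMap (none : Option (ZMod p))) τ)⁻¹ from
      funext fun τ => (vFun_none (mdiff_comp_lam δ) τ).trans (div_eq_mul_inv _ _)]
    exact hD.mul ((hasExp_comp_conjMap_none hD).inv (fun τ => hD0 _)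
      ((map_ne_zero_iff _ (ModularCurve.qExpand_injective p)).2 ht0))
  | some b =>
    refine hasExp_two_mul_pL hL2 (s := HahnSeries.single 0 ((p : ℂ) ^ 2) *
      (qExpand ℂ p (coeffMap iota2 (thetaOp R2 σ)) *
        (twistU (zetaUnit p b) (coeffMap iota2 (thetaOp R2 σ)))⁻¹)) ?_
    rw [show vFun p (comp lam δ) (some b) = (fun _ => (p : ℂ) ^ 2) * (dSlash 2 (comp lam δ) *
        fun τ => ((dSlash 2 (comp lam δ) ∘ conjMap (some b)) τ)⁻¹) from
      funext fun τ => (vFun_some (mdiff_comp_lam δ) b τ).trans (by rw [div_eq_mul_inv]; rfl)]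
    exact (HasExp.const _).mul ((hD.dilate p).mul ((hasExp_comp_conjMap_some hD b).inv
      (fun τ => hD0 _) (coe_twistU_units _ (zetaUnit p b) ht0)))

/-- `λ (pτ)` is weakly holomorphic of level `Γ₀(p) ∩ Γ(L)`. -/
theorem lamP_mem [NeZero L] (hp2 : p ≠ 2) (hL2 : 2 ∣ L) :
    lamP p ∈ weak (levelP p L) (p * L) ⊤ := by
  refine ⟨mdiff_conjMap none mdiff_lam, fun γ hγ => ?_, fun δ => ?_⟩
  · rw [(comp_lamP_Gamma0 hp2 (mem_levelP.1 hγ).1).1,
      comp_lam_of_mem_Gamma (mem_Gamma_two hL2 (mem_levelP.1 hγ).2)]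
  · obtain ⟨pr, -, h1, -⟩ := comp_muFun (p := p) hp2 δ
    obtain ⟨s, hs⟩ := exists_hasExp_muFun (p := p) hL2 δ (pr none)
    exact ⟨s, fun _ => Subring.mem_top _, by rw [lamP, h1]; exact hs⟩

/-- The conjugates of `λ (pτ)` are the functions `muFun`. -/
theorem exists_conjFun_lamP (hp2 : p ≠ 2) (hpL : ¬ p ∣ L) (hL2 : 2 ∣ L) :
    ∃ e : Option (ZMod p) ≃ Option (ZMod p), e none = none ∧
      (∀ x, conjFun (L := L) (lamP p) x = muFun p lam (e x)) ∧
      ∀ x, conjFun (L := L) (vFun p lam none) x = vFun p lam (e x) := by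
  choose f D hfD using fun x : Option (ZMod p) => exists_decomp hp2
    (conjMat (none : Option (ZMod p)) * (descRep p L x).1)
    (by rw [Matrix.det_mul, det_conjMat, (descRep p L x).2, mul_one])
  have hmod : ∀ x, (D x).1.map (Int.castRingHom (ZMod 2)) =
      (descRep p L x).1.map (Int.castRingHom (ZMod 2)) := fun x => by
    have := congrArg (fun M : Matrix (Fin 2) (Fin 2) ℤ => M.map (Int.castRingHom (ZMod 2))) (hfD x)
    rw [Matrix.map_mul, Matrix.map_mul, conjMat_mod_two hp2, conjMat_mod_two hp2, one_mul,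
      mul_one] at this
    exact this.symm
  have hinj : Function.Injective f := fun x y hxy => by
    refine (bijective_act_descRep (p := p) (L := L) hpL).1 ?_
    show act (none : Option (ZMod p)) (descRep p L x) = act none (descRep p L y)
    have hmem : descRep p L x * (descRep p L y)⁻¹ ∈ Gamma0 p := by
      have hinv : ∀ E : SL(2, ℤ), E⁻¹.1 * E.1 = 1 := fun E => by
        rw [← Matrix.SpecialLinearGroup.coe_mul, inv_mul_cancel, Matrix.SpecialLinearGroup.coe_one]
      have hinv' : ∀ E : SL(2, ℤ), E.1 * E⁻¹.1 = 1 := fun E => by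
        rw [← Matrix.SpecialLinearGroup.coe_mul, mul_inv_cancel, Matrix.SpecialLinearGroup.coe_one]
      have e : conjMat (none : Option (ZMod p)) * (descRep p L x * (descRep p L y)⁻¹).1 =
          (D x * (D y)⁻¹).1 * conjMat (none : Option (ZMod p)) := by
        have e1 := hfD x
        have e2 := hfD y
        rw [← hxy] at e2
        calc conjMat (none : Option (ZMod p)) * (descRep p L x * (descRep p L y)⁻¹).1
            = (D x).1 * conjMat (f x) * (descRep p L y)⁻¹.1 := by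
              rw [Matrix.SpecialLinearGroup.coe_mul, ← mul_assoc, e1]
          _ = (D x).1 * ((D y)⁻¹.1 * ((D y).1 * conjMat (f x))) * (descRep p L y)⁻¹.1 := by
              rw [← mul_assoc (D y)⁻¹.1, hinv, one_mul]
          _ = (D x * (D y)⁻¹).1 * conjMat (none : Option (ZMod p)) := by
              rw [← e2, Matrix.SpecialLinearGroup.coe_mul, mul_assoc, mul_assoc, mul_assoc, hinv',
                mul_one, mul_assoc]
      have h10 := congrArg (fun M : Matrix (Fin 2) (Fin 2) ℤ => M 1 0) e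
      simp [conjMat, Matrix.mul_apply, Fin.sum_univ_two] at h10
      rw [Gamma0_mem, ZMod.intCast_zmod_eq_zero_iff_dvd]
      exact ⟨((D x * (D y)⁻¹ : SL(2, ℤ)) : Matrix (Fin 2) (Fin 2) ℤ) 1 0,
        by simp [Matrix.mul_apply, Fin.sum_univ_two] at h10 ⊢; linear_combination h10⟩
    rw [← inv_mul_cancel_right (descRep p L x) (descRep p L y), act_mul,
      (act_none_eq_none_iff (p := p) _).2 hmem]
  have hnone : f none = none := by
    refine (conjMat_unique (i := (none : Option (ZMod p))) hp2 (D none) ?_).symm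
    have h := hfD none
    rwa [show (descRep p L (none : Option (ZMod p))).1 = 1 from Matrix.SpecialLinearGroup.coe_one,
      mul_one] at h
  refine ⟨Equiv.ofBijective f (Finite.injective_iff_bijective.1 hinj), hnone,
    fun x => ?_, fun x => ?_⟩
  · have h := (comp_muFun_eq (hfD x) (hmod x)).1
    rwa [comp_lam_of_mem_Gamma (mem_Gamma_two hL2 (descRep_mem x))] at h
  · have h := (comp_muFun_eq (hfD x) (hmod x)).2
    rwa [comp_lam_of_mem_Gamma (mem_Gamma_two hL2 (descRep_mem x))] at h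

/-- The derivative of the polynomial of `λ (pτ)`, in terms of the conjugates. -/
theorem diffFun_lamP_eq (hp2 : p ≠ 2) (hpL : ¬ p ∣ L) (hL2 : 2 ∣ L) (τ : ℍ) :
    diffFun (p := p) (L := L) (lamP p) τ =
      ∏ b : ZMod p, (lamP p τ - muFun p lam (some b) τ) := by
  classical
  obtain ⟨e, he, h1, -⟩ := exists_conjFun_lamP (p := p) hp2 hpL hL2
  have h : diffFun (p := p) (L := L) (lamP p) τ =
      ∏ i ∈ Finset.univ.erase (none : Option (ZMod p)), (lamP p τ - muFun p lam i τ) := by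
    refine Finset.prod_equiv e (fun x => ?_) fun x _ => by rw [h1]
    simp only [Finset.mem_erase, Finset.mem_univ, and_true]
    exact ⟨fun h hh => h (e.injective (hh.trans he.symm)), fun h hh => h (by rw [hh, he])⟩
  rw [h, show Finset.univ.erase (none : Option (ZMod p)) =
    Finset.univ.map Function.Embedding.some by ext x; cases x <;> simp, Finset.prod_map]
  rfl

/-- The expansions of the derivative at `δ ∞`, `δ ∈ Γ₀(p)`, have inverses over `ℤ[1/2]`. -/
theorem exists_hasExp_diffFun (hp2 : p ≠ 2) (hpL : ¬ p ∣ L) (hL2 : 2 ∣ L) {δ : SL(2, ℤ)}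
    (hδ : δ ∈ Gamma0 p) :
    ∃ e : LaurentSeries R2, IsUnit e ∧
      HasExp 2 (comp (diffFun (p := p) (L := L) (lamP p)) δ) (coeffMap iota2 e) := by
  classical
  obtain ⟨σ, hσ, hgood⟩ := exists_good δ
  refine ⟨diffSeries p σ, isUnit_diffSeries hgood.thetaUnit, HasExp.of_qExpand p ?_⟩
  obtain ⟨pr, hpr, hD⟩ := exists_perm hp2 δ
  have hnone : pr none = none := by
    obtain ⟨D, h1, -⟩ := hD none
    obtain ⟨D', h1', -⟩ := exists_matrix_Gamma0 hp2 hδ
    refine conjMat_unique hp2 (D⁻¹ * D') ?_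
    calc conjMat (pr none) = (D⁻¹ * D).1 * conjMat (pr none) := by
          rw [inv_mul_cancel, Matrix.SpecialLinearGroup.coe_one, one_mul]
      _ = D⁻¹.1 * (D'.1 * conjMat (none : Option (ZMod p))) := by
          rw [Matrix.SpecialLinearGroup.coe_mul, mul_assoc, ← h1, h1']
      _ = (D⁻¹ * D').1 * conjMat none := by rw [Matrix.SpecialLinearGroup.coe_mul, mul_assoc]
  have hmu : ∀ i, comp (muFun p lam i) δ = muFun p (comp lam δ) (pr i) := fun i => by
    obtain ⟨D, h1, h2⟩ := hD i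
    exact (comp_muFun_eq h1 h2).1
  have hfun : comp (diffFun (p := p) (L := L) (lamP p)) δ =
      ∏ b : ZMod p, (muFun p (comp lam δ) none - muFun p (comp lam δ) (some b)) := by
    funext τ
    rw [comp_apply, diffFun_lamP_eq hp2 hpL hL2, Finset.prod_apply]
    have e1 : ∀ i, muFun p lam i (δ • τ) = muFun p (comp lam δ) (pr i) τ := fun i =>
      congrFun (hmu i) τ
    have e0 : lamP p (δ • τ) = muFun p (comp lam δ) none τ := by
      rw [show lamP p = muFun p lam none from rfl, e1, hnone]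
    let E : Option (ZMod p) ≃ Option (ZMod p) := Equiv.ofBijective pr hpr
    have : ∏ i ∈ Finset.univ.erase (none : Option (ZMod p)),
        (lamP p (δ • τ) - muFun p lam i (δ • τ)) = ∏ i ∈ Finset.univ.erase (none : Option (ZMod p)),
        (muFun p (comp lam δ) none τ - muFun p (comp lam δ) i τ) := by
      refine Finset.prod_equiv E (fun x => ?_) fun x _ => by rw [e0, e1]; rfl
      simp only [Finset.mem_erase, Finset.mem_univ, and_true]
      exact ⟨fun h hh => h (hpr.1 (hh.trans hnone.symm)),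
        fun h hh => h (by subst hh; exact hnone)⟩
    rw [show Finset.univ.erase (none : Option (ZMod p)) =
      Finset.univ.map Function.Embedding.some by ext x; cases x <;> simp, Finset.prod_map,
      Finset.prod_map] at this
    exact this
  rw [qExpand_diffSeries, hfun]
  exact hasExp_finset_prod _ fun b _ =>
    ((hasExp_comp_conjMap_none hσ).dilate p).sub (hasExp_comp_conjMap_some hσ b)

end Fermat.Agent.AtP
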