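import Fermat.Agent.KummerES.SpecialFibre
import Fermat.Agent.AtP.DescentExpSubring
import Fermat.Agent.AtP.DescentLam
import Fermat.Agent.AtP.DescentSpan

/-!
# Rationality and boundedness on `Γ₀(p) ∩ Γ(L)`

For `F` of that level with expansion at `∞` over a subfield `K`: `F · D` is a combination over
level `L` with coefficients in `K`, the expansion of `F ∘ swapMap` is over `K`, and both have
bounded denominators at all cusps over `∞`; if both are integral, `F` is integral over level `L`.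
-/

set_option autoImplicit false

noncomputable section

open UpperHalfPlane CongruenceSubgroup
open Polynomial hiding comp
open scoped MatrixGroups Manifold
open Fermat.Agent.KummerES
open ModularCurve (qExpand coeffMap)

namespace Fermat.Agent.AtP

variable {p : ℕ} [hp : Fact p.Prime] {L : ℕ} [NeZero L]

theorem zetaRing_mono_field {K : Subfield ℂ} (hK : zetaRing L ≤ K.toSubring) (hL2 : 2 ∣ L) :
    (2 : ℂ)⁻¹ ∈ K.toSubring :=
  hK (inv_two_mem_zetaRing_exp hL2)

/-- `λ (pτ) ∘ δ` for `δ ∈ Γ₀(p)`. -/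
theorem lamP_comp_mem_expSubring (hp2 : p ≠ 2) (hL2 : 2 ∣ L) {B : Subring ℂ}
    (hB : (2 : ℂ)⁻¹ ∈ B) {δ : SL(2, ℤ)} (hδ : δ ∈ Gamma0 p) :
    comp (lamP p) δ ∈ expSubring L B := by
  obtain ⟨σ, hσ, -⟩ := exists_good δ
  rw [(comp_lamP_Gamma0 hp2 hδ).1]
  refine mem_expSubring_of_two hL2 hB (s := qExpand R2 p σ) ?_
  rw [← qExpand_coeffMap]
  exact hasExp_comp_conjMap_none hσ

theorem lamP_mem_expSubring (hp2 : p ≠ 2) (hL2 : 2 ∣ L) {B : Subring ℂ} (hB : (2 : ℂ)⁻¹ ∈ B) :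
    lamP p ∈ expSubring L B := by
  simpa using lamP_comp_mem_expSubring hp2 hL2 hB (one_mem (Gamma0 p))

omit [NeZero L] in
/-- The derivative as an evaluation of the modular polynomial. -/
theorem diffFun_lamP_eval (hp2 : p ≠ 2) (hpL : ¬ p ∣ L) (hL2 : 2 ∣ L) (τ : ℍ) :
    diffFun (p := p) (L := L) (lamP p) τ =
      ((derivative (lamPoly p)).map (eval₂RingHom iota2 (lam τ))).eval (lamP p τ) := by
  rw [diffFun_lamP_eq hp2 hpL hL2, ← derivative_map, lamPoly_roots hp2, derivative_prod_finset,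
    eval_finsetSum, Finset.sum_eq_single (none : Option (ZMod p))]
  · rw [show Finset.univ.erase (none : Option (ZMod p)) =
      Finset.univ.map Function.Embedding.some by ext x; cases x <;> simp, Finset.prod_map]
    simp [eval_prod]
  · intro i _ hi
    rw [eval_mul, eval_prod, Finset.prod_eq_zero (Finset.mem_erase.2 ⟨Ne.symm hi,
      Finset.mem_univ (none : Option (ZMod p))⟩) (by simp), zero_mul]
  · simp

omit [NeZero L] in
/-- `λ ∘ swapMap = λ (pτ)`. -/
theorem lam_swapMap (hL2 : 2 ∣ L) (τ : ℍ) : lam (swapMap p L τ) = lamP p τ := by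
  rw [swapMap, ← comp_apply lam (swapSL p L),
    comp_lam_of_mem_Gamma (mem_Gamma_two hL2 swapSL_mem_Gamma)]
  rfl

omit [NeZero L] in
/-- The matrix of `τ ↦ p (swapMap τ)`. -/
theorem exists_conjMap_swapMap (hpL : ¬ p ∣ L) :
    ∃ (g : SL(2, ℤ)) (Z : ℤ), 1 + (L : ℤ) * (L * descM p L) = p * Z ∧
      g.1 = !![(p : ℤ), (L : ℤ); (L : ℤ) * descM p L, Z] ∧
      ∀ τ, conjMap (none : Option (ZMod p)) (swapMap p L τ) = g • τ := by
  obtain ⟨Z, hZ⟩ := (ZMod.intCast_zmod_eq_zero_iff_dvd _ p).1 (descM_spec (p := p) (L := L) hpL)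
  obtain ⟨g, hg⟩ : ∃ g : SL(2, ℤ), g.1 = !![(p : ℤ), (L : ℤ); (L : ℤ) * descM p L, Z] := by
    refine ⟨⟨_, ?_⟩, rfl⟩
    rw [Matrix.det_fin_two_of]
    linear_combination -hZ
  refine ⟨g, Z, hZ, hg, fun τ => ?_⟩
  apply UpperHalfPlane.ext
  have hgp : 0 < (g : Matrix (Fin 2) (Fin 2) ℤ).det := by rw [g.2]; norm_num
  have hsp : 0 < (swapSL p L : Matrix (Fin 2) (Fin 2) ℤ).det := by rw [(swapSL p L).2]; norm_num
  rw [coe_conjMap_none, swapMap, ← posGL_SL_smul g hgp, ← posGL_SL_smul _ hsp, coe_posGL_smul,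
    coe_posGL_smul, coe_conjMap_none, hg, coe_swapSL]
  have hZc := congrArg (fun z : ℤ => (z : ℂ)) hZ
  simp only [Matrix.of_apply, Matrix.cons_val', Matrix.cons_val_zero, Matrix.cons_val_one,
    Matrix.cons_val_fin_one, Matrix.empty_val'] at hZc ⊢
  push_cast at hZc ⊢
  rw [hZc]
  have hp0 : (p : ℂ) ≠ 0 := by exact_mod_cast hp.out.ne_zero
  have hd : (L : ℂ) * descM p L * τ + Z ≠ 0 := by
    have := denom_ne_zero_of_im (posGL g.1 hgp) τ.im_ne_zero
    simpa [denom, posGL, hg] using this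
  rw [show (L : ℂ) * descM p L * ((p : ℂ) * τ) + p * Z = p * ((L : ℂ) * descM p L * τ + Z) by ring]
  field_simp

omit [NeZero L] in
/-- `λ (p τ) ∘ swapMap = λ`. -/
theorem lamP_swapMap (hpL : ¬ p ∣ L) (hL2 : 2 ∣ L) (τ : ℍ) : lamP p (swapMap p L τ) = lam τ := by
  obtain ⟨g, Z, hZ, hg, he⟩ := exists_conjMap_swapMap (p := p) (L := L) hpL
  have hmem : g ∈ Gamma 2 := by
    have hpodd : ((p : ℤ) : ZMod 2) = 1 := by
      rw [Int.cast_natCast]
      refine ZMod.natCast_eq_one_iff_odd.2 (hp.out.odd_of_ne_two ?_)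
      rintro rfl
      exact hpL hL2
    have hL0 : ((L : ℤ) : ZMod 2) = 0 := (ZMod.intCast_zmod_eq_zero_iff_dvd _ 2).2 (by exact_mod_cast hL2)
    have hZ1 : ((Z : ℤ) : ZMod 2) = 1 := by
      have := congrArg (fun z : ℤ => (z : ZMod 2)) hZ
      simp only [Int.cast_add, Int.cast_one, Int.cast_mul, hL0, zero_mul, add_zero, hpodd,
        one_mul] at this
      exact this.symm
    simp [Gamma_mem, hg, hL0, hpodd, hZ1, -Int.cast_natCast]
  rw [← comp_lam_of_mem_Gamma hmem]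
  show lam (conjMap (none : Option (ZMod p)) (swapMap p L τ)) = lam (g • τ)
  rw [he]

omit [NeZero L] in
theorem swapMap_surjective : Function.Surjective (swapMap p L) := fun z => by
  refine ⟨(posGL (conjMat (none : Option (ZMod p))) (det_conjMat_pos none))⁻¹ •
    ((swapSL p L)⁻¹ • z), ?_⟩
  simp [swapMap, conjMap]

omit [NeZero L] in
/-- The derivative of the modular polynomial at `λ (pτ)` is nonzero. -/
theorem diffFun_lamP_ne_zero (hp2 : p ≠ 2) (hpL : ¬ p ∣ L) (hL2 : 2 ∣ L) :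
    diffFun (p := p) (L := L) (lamP p) ≠ 0 := fun h => by
  obtain ⟨e, he, hexp⟩ := exists_hasExp_diffFun (p := p) hp2 hpL hL2 (one_mem (Gamma0 p))
  rw [comp_one, h] at hexp
  exact (he.map (coeffMap iota2)).ne_zero hexp.eq_zero_of_fun_zero

/-- The derivative after `swapMap` has its series over any field containing `1/2`. -/
theorem swapFun_diffFun_mem (hp2 : p ≠ 2) (hpL : ¬ p ∣ L) (hL2 : 2 ∣ L) {B : Subring ℂ}
    (hB : (2 : ℂ)⁻¹ ∈ B) :
    swapFun p L (diffFun (p := p) (L := L) (lamP p)) ∈ expSubring L B := by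
  have hlam : lam ∈ expSubring L B := mem_expSubring_of_two hL2 hB exp2_l2
  have hR : ∀ R : R2[X], (fun τ => R.eval₂ iota2 (lamP p τ)) ∈ expSubring L B := fun R => by
    induction R using Polynomial.induction_on' with
    | add P Q hP hQ => simp only [eval₂_add]; exact add_mem hP hQ
    | monomial n a =>
      simp only [eval₂_monomial]
      exact mul_mem (const_mem_expSubring (B2_le hB a.2))
        (pow_mem (lamP_mem_expSubring hp2 hL2 hB) n)
  have hP : ∀ P : R2[X][X],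
      (fun τ => (P.map (eval₂RingHom iota2 (lamP p τ))).eval (lam τ)) ∈ expSubring L B := fun P => by
    induction P using Polynomial.induction_on' with
    | add P Q hP hQ => simp only [Polynomial.map_add, eval_add]; exact add_mem hP hQ
    | monomial n a =>
      simp only [Polynomial.map_monomial, eval_monomial, coe_eval₂RingHom]
      exact mul_mem (hR a) (pow_mem hlam n)
  refine (funext fun τ => ?_ : (swapFun p L (diffFun (p := p) (L := L) (lamP p))) = _) ▸
    hP (derivative (lamPoly p))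
  rw [swapFun, diffFun_lamP_eval hp2 hpL hL2, lam_swapMap hL2, lamP_swapMap hpL hL2]

/-- `F · D` as a combination of the powers of `λ (pτ)` over level `L`, with coefficients in `K`. -/
theorem exists_combination (H : LevelHyp 2 L (zetaRing L)) (hp2 : p ≠ 2) (hpL : ¬ p ∣ L)
    {K : Subfield ℂ} (hK : zetaRing L ≤ K.toSubring) {F : ℍ → ℂ}
    (hF : F ∈ weak (levelP p L) (p * L) ⊤) (hFK : F ∈ expSubring L K.toSubring) :
    ∃ (n : ℕ → ℕ) (b : (Σ j, Fin (n j)) → ℂ) (e : (Σ j, Fin (n j)) → ℍ → ℂ),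
      (∀ i, b i ∈ K) ∧ (∀ i, e i ∈ weak (Gamma L) L (zetaRing L)) ∧
      ∀ τ, F τ * diffFun (p := p) (L := L) (lamP p) τ =
        ∑ j ∈ Finset.range (p + 1), (∑ k, b ⟨j, k⟩ * e ⟨j, k⟩ τ) * lamP p τ ^ j := by
  classical
  have hL2 := H.dvd
  have h2K := zetaRing_mono_field hK hL2
  have hY := lamP_mem (p := p) hp2 hL2
  choose n a e he hc using fun j => exists_eq_sum H (lagrangeCoeff_mem hpL hF hY j)
  set ι := Σ j, Fin (n j)
  set T : Finset ι := (Finset.range (p + 1)).sigma fun j => Finset.univ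
  set A : ι → ℂ := fun i => a i.1 i.2
  set E : ι → ℍ → ℂ := fun i => e i.1 i.2
  have hG : ∀ i : ι, (fun τ => E i τ * lamP p τ ^ i.1) ∈ expSubring L (zetaRing L) := fun i => by
    refine mul_mem ?_ (pow_mem (lamP_mem_expSubring hp2 hL2 (inv_two_mem_zetaRing_exp hL2)) _)
    obtain ⟨s, hs, hs'⟩ := (he i.1 i.2).2.2 1
    exact ⟨s, hs, by simpa using hs'⟩
  choose s hs hs' using hG
  have hsum : ∀ (c : ι → ℂ), HasExp L
      (fun τ => ∑ j ∈ Finset.range (p + 1), (∑ k, c ⟨j, k⟩ * E ⟨j, k⟩ τ) * lamP p τ ^ j)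
      (∑ i ∈ T, HahnSeries.single 0 (c i) * s i) := fun c => by
    have := HasExp.finset_sum T fun i _ => (HasExp.const (L := L) (c i)).mul (hs' i)
    convert this using 1
    funext τ
    rw [Finset.sum_apply, Finset.sum_sigma]
    refine Finset.sum_congr rfl fun j _ => ?_
    rw [Finset.sum_mul]
    exact Finset.sum_congr rfl fun k _ => mul_assoc _ _ _
  have hid : ∀ τ, F τ * diffFun (p := p) (L := L) (lamP p) τ =
      ∑ j ∈ Finset.range (p + 1), (∑ k, A ⟨j, k⟩ * E ⟨j, k⟩ τ) * lamP p τ ^ j := fun τ => by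
    rw [mul_diffFun_eq]
    refine Finset.sum_congr rfl fun j _ => ?_
    rw [hc j]
    simp [A, E]
  obtain ⟨d, hd, hdexp⟩ := exists_hasExp_diffFun (p := p) hp2 hpL hL2 (one_mem (Gamma0 p))
  rw [comp_one] at hdexp
  obtain ⟨t, ht, ht'⟩ := mul_mem hFK (mem_expSubring_of_two hL2 h2K hdexp)
  have hlin : t = ∑ i ∈ T, HahnSeries.single 0 (A i) * s i :=
    ht'.series_eq (by convert hsum A using 1; exact funext hid)
  obtain ⟨b, hb, hbt⟩ := exists_coeff_mem T K ht (fun i _ => fun m => hK (hs i m)) hlin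
  refine ⟨n, b, E, hb, fun i => he i.1 i.2, fun τ => ?_⟩
  have h := hsum b
  rw [← hbt] at h
  exact congrFun (ht'.fun_eq h) τ

/-- Bounded denominators at the cusps `δ ∞`, `δ ∈ Γ₀(p)`. -/
theorem exists_bound (H : LevelHyp 2 L (zetaRing L)) (hp2 : p ≠ 2) (hpL : ¬ p ∣ L)
    {K : Subfield ℂ} (hK : zetaRing L ≤ K.toSubring) {B : Subring ℂ} (hB : zetaRing L ≤ B)
    {π : ℂ} (hπ : π ∈ B) (hbd : ∀ x ∈ K, ∃ N : ℕ, π ^ N * x ∈ B) {F : ℍ → ℂ}
    (hF : F ∈ weak (levelP p L) (p * L) ⊤) (hFK : F ∈ expSubring L K.toSubring) :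
    ∃ N : ℕ, ∀ δ ∈ Gamma0 p, (fun τ => π ^ N * F (δ • τ)) ∈ expSubring L B := by
  classical
  have hL2 := H.dvd
  have h2B := hB (inv_two_mem_zetaRing_exp hL2)
  obtain ⟨n, b, e, hb, he, hid⟩ := exists_combination H hp2 hpL hK hF hFK
  obtain ⟨N, hN⟩ := exists_pow_mul_mem ((Finset.range (p + 1)).sigma fun j => Finset.univ) hπ hbd
    (a := b) fun i _ => hb i
  refine ⟨N, fun δ hδ => ?_⟩
  obtain ⟨d, hd, hdexp⟩ := exists_hasExp_diffFun (p := p) hp2 hpL hL2 hδ
  have hrhs : (fun τ => π ^ N * F (δ • τ)) * comp (diffFun (p := p) (L := L) (lamP p)) δ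
      ∈ expSubring L B := by
    have e1 : (fun τ => π ^ N * F (δ • τ)) * comp (diffFun (p := p) (L := L) (lamP p)) δ =
        ∑ j ∈ Finset.range (p + 1),
          (∑ k, (fun _ => π ^ N * b ⟨j, k⟩) * comp (e ⟨j, k⟩) δ) * comp (lamP p) δ ^ j := by
      funext τ
      simp only [Pi.mul_apply, comp_apply, Finset.sum_apply, Pi.pow_apply]
      rw [mul_assoc, hid, Finset.mul_sum]
      refine Finset.sum_congr rfl fun j _ => ?_
      rw [← mul_assoc, Finset.mul_sum]
      exact congrArg (· * _) (Finset.sum_congr rfl fun k _ => (mul_assoc _ _ _).symm)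
    rw [e1]
    refine sum_mem fun j hj => mul_mem (sum_mem fun k _ => mul_mem
      (const_mem_expSubring (hN ⟨j, k⟩ (Finset.mem_sigma.2 ⟨hj, Finset.mem_univ k⟩))) ?_)
      (pow_mem (lamP_comp_mem_expSubring hp2 hL2 h2B hδ) j)
    obtain ⟨s, hs, hs'⟩ := (he ⟨j, k⟩).2.2 δ
    exact ⟨s, fun i => hB (hs i), hs'⟩
  obtain ⟨t, ht, ht'⟩ := hrhs
  obtain ⟨l, rfl⟩ := hL2
  have : NeZero l := ⟨fun h => NeZero.ne (2 * l) (by simp [h])⟩
  have hD := hdexp.dilate l
  obtain ⟨v, hv⟩ := hd.exists_left_inv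
  set u := qExpand ℂ l (coeffMap iota2 v) with hu
  have hud : u * qExpand ℂ l (coeffMap iota2 d) = 1 := by
    rw [hu, ← map_mul, ← map_mul, hv, map_one, map_one]
  have hF' : HasExp (2 * l) (fun τ => π ^ N * F (δ • τ))
      (HahnSeries.single 0 (π ^ N) * expansion (2 * l) (comp F δ)) :=
    (HasExp.const _).mul (hasExp_expansion_Gamma0 hF hδ)
  have heq := (hF'.mul hD).series_eq ht'
  refine ⟨_, mul_mem ht (qExpand_mem_coeffSubring l (coeffMap_iota2_mem h2B v)), ?_⟩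
  rw [← heq, ← hu, mul_assoc, mul_comm _ u, hud, mul_one]
  exact hF'

/-- Rationality after `swapMap`. -/
theorem swapFun_mem_expSubring (H : LevelHyp 2 L (zetaRing L)) (hp2 : p ≠ 2) (hpL : ¬ p ∣ L)
    {K : Subfield ℂ} (hK : zetaRing L ≤ K.toSubring) {F : ℍ → ℂ}
    (hF : F ∈ weak (levelP p L) (p * L) ⊤) (hFK : F ∈ expSubring L K.toSubring) :
    swapFun p L F ∈ expSubring L K.toSubring := by
  classical
  have hL2 := H.dvd
  have h2K := zetaRing_mono_field hK hL2
  obtain ⟨n, b, e, hb, he, hid⟩ := exists_combination H hp2 hpL hK hF hFK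
  have hW := swapFun_mem hp2 hpL hF
  have hrhs : swapFun p L F * swapFun p L (diffFun (p := p) (L := L) (lamP p))
      ∈ expSubring L K.toSubring := by
    have e1 : swapFun p L F * swapFun p L (diffFun (p := p) (L := L) (lamP p)) =
        ∑ j ∈ Finset.range (p + 1), (∑ k, (fun _ => b ⟨j, k⟩) *
          fun τ => e ⟨j, k⟩ (conjMap (none : Option (ZMod p)) τ)) * lam ^ j := by
      funext τ
      simp only [Pi.mul_apply, swapFun, Finset.sum_apply, Pi.pow_apply]
      rw [hid]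
      refine Finset.sum_congr rfl fun j _ => ?_
      rw [lamP_swapMap hpL hL2]
      refine congrArg (· * _) (Finset.sum_congr rfl fun k _ => congrArg (b ⟨j, k⟩ * ·) ?_)
      exact congrFun ((he ⟨j, k⟩).2.1 _ swapSL_mem_Gamma) _
    rw [e1]
    refine sum_mem fun j _ => mul_mem (sum_mem fun k _ => mul_mem
      (const_mem_expSubring (hb ⟨j, k⟩)) ?_) (pow_mem (mem_expSubring_of_two hL2 h2K exp2_l2) j)
    obtain ⟨s, hs, hs'⟩ := (he ⟨j, k⟩).2.2 1
    rw [comp_one] at hs'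
    exact ⟨_, qExpand_mem_coeffSubring p fun i => hK (hs i), hasExp_comp_mulp hs'⟩
  obtain ⟨u, hu, hu'⟩ := swapFun_diffFun_mem (p := p) hp2 hpL hL2 h2K
  obtain ⟨t, ht, ht'⟩ := hrhs
  have hu0 : u ≠ 0 := fun h0 => by
    rw [h0] at hu'
    refine diffFun_lamP_ne_zero (p := p) hp2 hpL hL2 (funext fun z => ?_)
    obtain ⟨τ, rfl⟩ := swapMap_surjective (p := p) (L := L) z
    exact congrFun (hu'.fun_eq HasExp.zero) τ
  have hG := hasExp_expansion_infty hW
  refine ⟨_, ?_, hG⟩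
  rw [show expansion L (swapFun p L F) = t * u⁻¹ by
    rw [← (hG.mul hu').series_eq ht', mul_assoc, mul_inv_cancel₀ hu0, mul_one]]
  exact mul_mem ht (inv_mem_coeffSubring hu)

end Fermat.Agent.AtP
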