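import Fermat.Agent.AtP.DiffLiftFrame
import Mathlib.RingTheory.Nakayama
import Mathlib.LinearAlgebra.Basis.VectorSpace
import Mathlib.RingTheory.Noetherian.Basic

/-!
# Lifting differentials with poles only modulo `π`

A differential `a θ t` whose expansions are `≡ 0 mod π` in degrees `≤ 0` at every cusp is congruent
to one whose expansions vanish in these degrees.
-/

set_option autoImplicit false

noncomputable section

namespace Fermat.Agent.AtP.DiffLift

open Fermat.Agent.ModularFunctionField ModularCurve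

lemma truncLT_twist {R : Type*} [CommRing R] (c : ℤ) (v : Rˣ) (z : LaurentSeries R) :
    HahnSeries.truncLT c (twist v z) = twist v (HahnSeries.truncLT c z) := by
  ext i
  by_cases h : i < c <;> simp [HahnSeries.coeff_truncLT, h]

lemma smul_left_cancel' {R : Type*} [CommRing R] [IsDomain R] {r : R} (hr : r ≠ 0)
    {x y : LaurentSeries R} (h : r • x = r • y) : x = y := by
  ext i
  have := congrArg (fun z : LaurentSeries R => z.coeff i) h
  simpa [hr] using this

namespace Frame

variable {O k : Type*} [CommRing O] [IsDomain O] [CharZero O] [Field k] {X Y ι J : Type*}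
  [Fintype X] [DecidableEq X] [DecidableEq Y] [Fintype J] [Fintype Y] [Fintype ι]
  (F : Frame O k X Y ι J)

omit [CharZero O] [Fintype Y] [Fintype ι] in
/-- A series reducing to zero is a multiple of `π`. -/
lemma exists_div {z : LaurentSeries O} (h : ∀ i, F.red (z.coeff i) = 0) :
    ∃ z', F.π • z' = z := by
  choose q hq using fun i => (F.red_ker _).mp (h i)
  refine ⟨⟨q, z.isPWO_support.mono fun i hi => ?_⟩, ?_⟩
  · simp only [Function.mem_support] at hi
    simp [hq i, F.π_ne_zero, hi]
  · ext i; simp [hq i]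

omit [IsDomain O] [CharZero O] [Fintype Y] [Fintype ι] in
/-- `π` reduces to zero. -/
lemma red_π : F.red F.π = 0 := (F.red_ker _).mpr dvd_rfl

omit [CharZero O] [Fintype Y] [Fintype ι] in
lemma exists_div_family {z : X → LaurentSeries O} (hz : IsFam F.T F.line.ζ z)
    (h : ∀ x i, F.red ((z x).coeff i) = 0) :
    ∃ z', IsFam F.T F.line.ζ z' ∧ F.π • z' = z := by
  choose z' hz' using fun x => F.exists_div (h x)
  refine ⟨z', fun x => smul_left_cancel' F.π_ne_zero ?_, funext hz'⟩
  rw [hz', hz x, ← hz' x, ← HahnSeries.C_mul_eq_smul, map_mul, twist_C, HahnSeries.C_mul_eq_smul]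

omit [IsDomain O] [CharZero O] [Fintype Y] [Fintype ι] in
lemma wX_fam : IsFam F.T F.line.ζ F.wX := fun x => by
  simp only [wX, Function.comp_apply, F.proj_T]
  exact F.line.w_fam _

omit [CharZero O] in
/-- Every differential is `a θ t` up to poles of bounded order. -/
lemma exists_bound : ∃ N : ℕ, ∀ η : X → LaurentSeries O, IsFam F.T F.line.ζ η →
    ∃ c ∈ F.A, ∀ x, LowBd (-(N : ℤ)) ((η - c * F.wX) x) := by
  obtain ⟨Bx, hBx⟩ := exists_lowBd_family fun p : J × X => F.xc p.1 p.2
  refine ⟨Bx + F.line.m, fun η hη => ?_⟩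
  choose v hv hvb using fun x => F.line.w_inverse (F.proj x)
  have hvf : IsFam F.T F.line.ζ v := fun x => by
    have h := congrArg (twist F.line.ζ) (hv x)
    rw [map_mul, map_one, ← F.line.w_fam, ← F.proj_T] at h
    calc v (F.T x) = v (F.T x) * (F.line.w (F.proj (F.T x)) * twist F.line.ζ (v x)) := by
          rw [h, mul_one]
      _ = (F.line.w (F.proj (F.T x)) * v (F.T x)) * twist F.line.ζ (v x) := by ring
      _ = twist F.line.ζ (v x) := by rw [hv, one_mul]
  choose p hp hp' using fun j =>
    F.line.exists_polar (F.tr_fam ((F.A_fam _ (F.yc_mem j)).mul (hη.mul hvf)))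
  refine ⟨∑ j, F.xc j * p j ∘ F.proj,
    sum_mem fun j _ => mul_mem (F.xc_mem j) (F.pull_mem _ (F.polar_mem_B (hp j))), fun x => ?_⟩
  have hrec := congrFun (F.reconstruct (RingHom.id O) (η * v)) x
  have hid : ∀ z : LaurentSeries O, coeffMap (RingHom.id O) z = z := fun z => by ext i; simp
  simp only [Finset.sum_apply, Pi.mul_apply, Function.comp_apply, hid] at hrec
  have key : (η - (∑ j, F.xc j * p j ∘ F.proj) * F.wX) x =
      (∑ j, F.xc j x * (F.tr (F.yc j * (η * v)) (F.proj x) - p j (F.proj x))) *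
        F.line.w (F.proj x) := by
    simp only [mul_sub, Finset.sum_sub_distrib, sub_mul, Pi.sub_apply, Pi.mul_apply,
      Finset.sum_apply, Function.comp_apply, wX]
    rw [show (∑ j, F.xc j x * F.tr (F.yc j * (η * v)) (F.proj x)) = η x * v x from hrec.symm,
      mul_assoc, mul_comm (v x), hv, mul_one]
  rw [key]
  have h1 : LowBd (-(Bx : ℤ))
      (∑ j, F.xc j x * (F.tr (F.yc j * (η * v)) (F.proj x) - p j (F.proj x))) :=
    LowBd.sum _ fun j _ => (hBx (j, x)).mul_nonneg (hp' j _)
  exact (h1.mul (F.line.w_lowBd _)).mono (by push_cast; omega)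

omit [CharZero O] [Fintype Y] [Fintype ι] in
/-- Poles of high order which vanish modulo `π` can be removed. -/
lemma exists_deep_fix {N : ℕ}
    (hN : ∀ η : X → LaurentSeries O, IsFam F.T F.line.ζ η →
      ∃ c ∈ F.A, ∀ x, LowBd (-(N : ℤ)) ((η - c * F.wX) x))
    {a : X → LaurentSeries O} (ha : a ∈ F.A)
    (h : ∀ x, ∀ i < -(N : ℤ), F.red (((a * F.wX) x).coeff i) = 0) :
    ∃ c ∈ F.A, ∀ x, LowBd (-(N : ℤ)) (((a - F.π • c) * F.wX) x) := by
  set z : X → LaurentSeries O := fun x => HahnSeries.truncLT (-(N : ℤ)) ((a * F.wX) x) with hz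
  have hzf : IsFam F.T F.line.ζ z := fun x => by
    simp only [hz, ((F.A_fam a ha).mul F.wX_fam) x, truncLT_twist]
  obtain ⟨η, hη, hηz⟩ := F.exists_div_family hzf fun x i => by
    by_cases hi : i < -(N : ℤ)
    · simpa [hz, HahnSeries.coeff_truncLT, hi] using h x i hi
    · simp [hz, HahnSeries.coeff_truncLT, hi]
  obtain ⟨c, hc, hc'⟩ := hN η hη
  refine ⟨c, hc, fun x i hi => ?_⟩
  have h1 := congrArg (fun s : X → LaurentSeries O => (s x).coeff i) hηz
  simp only [hz, Pi.smul_apply, HahnSeries.coeff_smul, smul_eq_mul, HahnSeries.coeff_truncLT,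
    if_pos hi] at h1
  have h2 := hc' x i hi
  simp only [Pi.sub_apply, HahnSeries.coeff_sub] at h2
  simp only [sub_mul, Pi.sub_apply, HahnSeries.coeff_sub, Pi.mul_apply, Pi.smul_apply,
    ← HahnSeries.C_mul_eq_smul, mul_assoc]
  rw [HahnSeries.C_mul_eq_smul, HahnSeries.coeff_smul, smul_eq_mul, ← Pi.mul_apply a,
    ← Pi.mul_apply c, ← h1, ← mul_sub, h2, mul_zero]

/-- Truncation to the degrees `≤ 0`. -/
def tail (z : X → LaurentSeries O) : X → LaurentSeries O :=
  fun x => HahnSeries.truncLT 1 (z x)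

omit [IsDomain O] [CharZero O] [Fintype X] [DecidableEq X] in
/-- The coefficients of a truncation. -/
lemma tail_coeff (z : X → LaurentSeries O) (x : X) (i : ℤ) :
    (tail z x).coeff i = if i ≤ 0 then (z x).coeff i else 0 := by
  simp only [tail, HahnSeries.coeff_truncLT]
  split_ifs <;> first | rfl | omega

omit [IsDomain O] [CharZero O] [Fintype X] [DecidableEq X] in
lemma tail_add (a b : X → LaurentSeries O) : tail (a + b) = tail a + tail b := by
  funext x; simp [tail, HahnSeries.truncLT_add]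

omit [IsDomain O] [CharZero O] [Fintype X] [DecidableEq X] in
lemma tail_smul (r : O) (a : X → LaurentSeries O) : tail (r • a) = r • tail a := by
  funext x; simp [tail, HahnSeries.truncLT_smul]

omit [IsDomain O] [CharZero O] [Fintype Y] [Fintype ι] in
lemma tail_fam {z : X → LaurentSeries O} (hz : IsFam F.T F.line.ζ z) :
    IsFam F.T F.line.ζ (tail z) := fun x => by simp only [tail, hz x, truncLT_twist]

omit [IsDomain O] [CharZero O] [DecidableEq X] in
lemma res_tail (z : X → LaurentSeries O) : res (tail z) = res z := by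
  simp [res, tail_coeff]

/-- The possible polar parts of order at most `N`. -/
def window (N : ℕ) : Submodule O (X → LaurentSeries O) where
  carrier := {v | IsFam F.T F.line.ζ v ∧
    (∀ x i, i < -(N : ℤ) ∨ 0 < i → (v x).coeff i = 0) ∧ res v = 0}
  zero_mem' := ⟨IsFam.zero, fun _ _ _ => rfl, by simp [res]⟩
  add_mem' {v w} hv hw := ⟨hv.1.add hw.1, fun x i h => by simp [hv.2.1 x i h, hw.2.1 x i h],
    by rw [res_add, hv.2.2, hw.2.2, add_zero]⟩
  smul_mem' r v hv := ⟨hv.1.smul r, fun x i h => by simp [hv.2.1 x i h],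
    by rw [res_smul, hv.2.2, mul_zero]⟩

/-- The polar parts of differentials of order at most `N`. -/
def polarParts (N : ℕ) : Submodule O (X → LaurentSeries O) where
  carrier := {v | ∃ a ∈ F.A, (∀ x, LowBd (-(N : ℤ)) ((a * F.wX) x)) ∧ tail (a * F.wX) = v}
  zero_mem' := ⟨0, zero_mem _, fun x => by simpa using lowBd_zero _,
    by funext x; simp [tail]⟩
  add_mem' := by
    rintro _ _ ⟨a, ha, ha', rfl⟩ ⟨b, hb, hb', rfl⟩
    exact ⟨a + b, add_mem ha hb, fun x => by simpa [add_mul] using (ha' x).add (hb' x),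
      by rw [add_mul, tail_add]⟩
  smul_mem' := by
    rintro r _ ⟨a, ha, ha', rfl⟩
    have e : r • a * F.wX = r • (a * F.wX) := by
      rw [smul_eq_const_mul, smul_eq_const_mul, mul_assoc]
    exact ⟨r • a, F.smul_mem_A r ha, fun x => by rw [e]; exact (ha' x).smul r,
      by rw [e, tail_smul]⟩

lemma polarParts_le (N : ℕ) : F.polarParts N ≤ F.window N := by
  rintro _ ⟨a, ha, ha', rfl⟩
  refine ⟨F.tail_fam ((F.A_fam a ha).mul F.wX_fam), fun x i hi => ?_, ?_⟩
  · rw [tail_coeff]
    rcases hi with h | h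
    · rw [ha' x i h]; simp
    · rw [if_neg (by omega)]
  · rw [res_tail, F.res_A_mul_w ha]

omit [IsDomain O] [CharZero O] [Fintype Y] [Fintype ι] in
lemma window_fg [IsNoetherianRing O] (N : ℕ) : (F.window N).FG := by
  let Φ : F.window N →ₗ[O] (X × Fin (N + 1) → O) :=
    { toFun := fun v p => (v.1 p.1).coeff (-(p.2 : ℤ))
      map_add' := fun v w => by funext p; simp
      map_smul' := fun r v => by funext p; simp }
  rw [← Module.Finite.iff_fg]
  refine Module.Finite.of_injective Φ ((injective_iff_map_eq_zero Φ).mpr fun v hv => ?_)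
  refine Subtype.ext (funext fun x => HahnSeries.ext (funext fun i => ?_))
  by_cases hi : i < -(N : ℤ) ∨ 0 < i
  · exact v.2.2.1 x i hi
  · simp only [not_or, not_lt] at hi
    have := congrFun hv (x, ⟨(-i).toNat, by omega⟩)
    simpa [Φ, Int.toNat_of_nonneg (by omega : 0 ≤ -i)] using this

/-- A functional killing families without polar part is given by a series. -/
lemma functional_eq (lam : (X → LaurentSeries k) →ₗ[k] k)
    (hl : ∀ G : X → LaurentSeries k, (∀ x, LowBd 1 (G x)) → lam G = 0) :
    ∃ g : X → LaurentSeries k, (∀ x, LowBd 0 (g x)) ∧ ∀ G, lam G = res (G * g) := by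
  let g : X → LaurentSeries k := fun x => HahnSeries.ofPowerSeries ℤ k
    (PowerSeries.mk fun j => lam (Pi.single x (HahnSeries.single (-(j : ℤ)) 1)))
  have hg : ∀ x, LowBd 0 (g x) := fun x i hi => by
    simp only [g, HahnSeries.ofPowerSeries_apply]
    rw [HahnSeries.embDomain_of_notMem_range]
    rintro ⟨n, hn⟩
    simp at hn
    omega
  refine ⟨g, hg, ?_⟩
  have hone : ∀ (x : X) (N : ℕ) (f : LaurentSeries k), LowBd (1 - (N : ℤ)) f →
      lam (Pi.single x f) = (f * g x).coeff 0 := by
    intro x N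
    induction N with
    | zero =>
      intro f hf
      rw [(hf.mul (hg x)) 0 (by simp)]
      refine hl _ fun z => ?_
      rcases eq_or_ne z x with rfl | h
      · simpa using hf
      · simpa [h] using lowBd_zero (R := k) 1
    | succ N ih =>
      intro f hf
      set c := f.coeff (-(N : ℤ))
      have hf' : LowBd (1 - (N : ℤ)) (f - c • HahnSeries.single (-(N : ℤ)) (1 : k)) := by
        intro i hi
        rcases eq_or_lt_of_le (show i ≤ -(N : ℤ) by omega) with rfl | h
        · simp [c]
        · simp [hf i (by push_cast; omega), HahnSeries.coeff_single_of_ne h.ne]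
      have hs : (HahnSeries.single (-(N : ℤ)) (1 : k) * g x).coeff 0 =
          lam (Pi.single x (HahnSeries.single (-(N : ℤ)) 1)) := by
        rw [HahnSeries.coeff_single_mul, one_mul, zero_sub, neg_neg]
        simp only [g, HahnSeries.ofPowerSeries_apply_coeff, PowerSeries.coeff_mk]
      have := ih _ hf'
      rw [Pi.single_sub, map_sub, Pi.single_smul, map_smul, sub_mul, HahnSeries.coeff_sub,
        smul_eq_mul, ← HahnSeries.C_mul_eq_smul, mul_assoc, HahnSeries.C_mul_eq_smul,
        HahnSeries.coeff_smul, smul_eq_mul, hs] at this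
      exact sub_left_inj.mp this
  intro G
  conv_lhs => rw [← Finset.univ_sum_single G]
  rw [map_sum]
  refine Finset.sum_congr rfl fun x _ => ?_
  obtain ⟨N, hN⟩ := exists_lowBd (G x)
  exact hone x (N + 1) (G x) (hN.mono (by push_cast; omega))

omit [IsDomain O] [CharZero O] [Fintype Y] [Fintype ι] in
lemma zetaK_pow : F.lineK.ζ ^ F.line.L = 1 :=
  (IsPrimitiveRoot.coe_units_iff.mp F.lineK.prim).pow_eq_one

omit [IsDomain O] [CharZero O] [Fintype Y] [Fintype ι] in
lemma periodicT (x : X) : (F.T ^ F.line.L) x = x := by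
  rw [Equiv.Perm.coe_pow]; exact F.periodic x

omit [IsDomain O] [CharZero O] [Fintype Y] [Fintype ι] in
/-- Averaging a series over the translations. -/
lemma exists_average (g : X → LaurentSeries k) (hg : ∀ x, LowBd 0 (g x)) :
    ∃ s : X → LaurentSeries k, IsFam F.T F.lineK.ζ s ∧ (∀ x, LowBd 0 (s x)) ∧
      ∀ G : X → LaurentSeries k, IsFam F.T F.lineK.ζ G → res (G * s) = res (G * g) := by
  set c := F.lineK.ζ with hc
  have hLk : (F.line.L : k) ≠ 0 := by simpa using (F.line.L_unit.map F.red).ne_zero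
  let h : X → ℕ → LaurentSeries k := fun x i => twist (c ^ i)⁻¹ (g ((F.T ^ i) x))
  have hper : ∀ x, h x F.line.L = h x 0 := fun x => by
    simp [h, hc, zetaK_pow, periodicT]
  have hshift : ∀ x, ∑ i ∈ Finset.range F.line.L, h x (i + 1) =
      ∑ i ∈ Finset.range F.line.L, h x i := fun x => by
    have h1 := Finset.sum_range_succ (h x) F.line.L
    have h2 := Finset.sum_range_succ' (h x) F.line.L
    rw [hper] at h1
    exact add_right_cancel (h2.symm.trans h1)
  refine ⟨fun x => (F.line.L : k)⁻¹ • ∑ i ∈ Finset.range F.line.L, h x i, ?_, ?_, ?_⟩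
  · intro x
    simp only [← hshift x, ← HahnSeries.C_mul_eq_smul, map_mul, twist_C, map_sum]
    congr 1
    refine Finset.sum_congr rfl fun i _ => ?_
    simp only [h, pow_succ, Equiv.Perm.mul_apply, twist_twist, mul_inv_rev, mul_inv_cancel_left]
  · exact fun x => (LowBd.sum _ fun i _ => (hg _).twist _).smul _
  · intro G hG
    have hterm : ∀ i : ℕ, ∑ x, (G x * h x i).coeff 0 = res (G * g) := by
      intro i
      rw [res, ← Equiv.sum_comp (F.T ^ i) fun x => ((G * g) x).coeff 0]
      refine Finset.sum_congr rfl fun x _ => ?_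
      rw [← coeff_zero_twist (c ^ i), map_mul, twist_twist, mul_inv_cancel, twist_one,
        Pi.mul_apply, Equiv.Perm.coe_pow, hG.iterate x i]
    have e : G * (fun x => (F.line.L : k)⁻¹ • ∑ i ∈ Finset.range F.line.L, h x i) =
        (F.line.L : k)⁻¹ • fun x => ∑ i ∈ Finset.range F.line.L, G x * h x i := by
      funext x
      simp only [Pi.mul_apply, Pi.smul_apply, ← HahnSeries.C_mul_eq_smul, ← Finset.mul_sum]
      ring
    rw [e, res_smul]
    simp only [res, HahnSeries.coeff_sum]
    rw [Finset.sum_comm, Finset.sum_congr rfl fun i _ => hterm i, Finset.sum_const,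
      Finset.card_range, nsmul_eq_mul, ← mul_assoc, inv_mul_cancel₀ hLk, one_mul]
    rfl

/-- Modulo `π`, every admissible polar part is the polar part of a differential. -/
lemma window_mem [IsAlgClosed k] {N : ℕ} {v : X → LaurentSeries O} (hv : v ∈ F.window N) :
    ∃ a ∈ F.A, ∀ x, LowBd 1 ((F.redS v - F.redS a * F.wbar) x) := by
  let S : Submodule k (X → LaurentSeries k) :=
    { carrier := {g | ∃ a ∈ F.A, ∀ x, LowBd 1 ((g - F.redS a * F.wbar) x)}
      zero_mem' := ⟨0, zero_mem _, fun x => by simpa [redS] using lowBd_zero (R := k) 1⟩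
      add_mem' := by
        rintro g g' ⟨a, ha, ha'⟩ ⟨b, hb, hb'⟩
        refine ⟨a + b, add_mem ha hb, fun x => ?_⟩
        rw [show g + g' - F.redS (a + b) * F.wbar =
          (g - F.redS a * F.wbar) + (g' - F.redS b * F.wbar) by rw [F.redS_add]; ring]
        exact (ha' x).add (hb' x)
      smul_mem' := by
        rintro r g ⟨a, ha, ha'⟩
        obtain ⟨r, rfl⟩ := F.red_surj r
        refine ⟨r • a, F.smul_mem_A r ha, fun x => ?_⟩
        rw [show F.red r • g - F.redS (r • a) * F.wbar = F.red r • (g - F.redS a * F.wbar) by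
          rw [F.redS_smul, smul_eq_const_mul, smul_eq_const_mul, smul_eq_const_mul]; ring]
        exact (ha' x).smul _ }
  by_contra hcon
  obtain ⟨lam, hlv, hlS⟩ := Submodule.exists_le_ker_of_notMem (p := S) (v := F.redS v) hcon
  have hkill : ∀ g ∈ S, lam g = 0 := fun g hg => hlS hg
  obtain ⟨g, hg, hlam⟩ := functional_eq lam fun G hG =>
    hkill G ⟨0, zero_mem _, fun x => by simpa [redS] using hG x⟩
  obtain ⟨s, hsf, hs0, hsG⟩ := F.exists_average g hg
  have hs : s ∈ F.orthSubmodule := by
    refine ⟨hsf, hs0, fun a ha => ?_⟩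
    rw [show F.redS a * s * F.wbar = F.redS a * F.wbar * s by ring,
      hsG (F.redS a * F.wbar) ((F.redS_fam (F.A_fam a ha)).mul (F.redS_fam F.wX_fam)), ← hlam]
    exact hkill _ ⟨a, ha, fun x => by simpa using lowBd_zero (R := k) 1⟩
  obtain ⟨c, rfl⟩ := F.eq_const_of_mem_orth hs
  refine hlv ?_
  rw [hlam, ← hsG _ (F.redS_fam hv.1), mul_comm, ← smul_eq_const_mul, res_smul,
    show res (F.redS v) = F.red (res v) from res_map F.red v, hv.2.2, map_zero, mul_zero]

/-- Every admissible polar part is the polar part of a differential. -/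
theorem window_le_polarParts [IsAlgClosed k] [IsNoetherianRing O] {N : ℕ}
    (hN : ∀ η : X → LaurentSeries O, IsFam F.T F.line.ζ η →
      ∃ c ∈ F.A, ∀ x, LowBd (-(N : ℤ)) ((η - c * F.wX) x)) :
    F.window N ≤ F.polarParts N := by
  refine Submodule.le_of_le_smul_of_le_jacobson_bot (I := Ideal.span {F.π}) (F.window_fg N)
    ((Ideal.span_singleton_le_iff_mem _).mpr F.π_jac) fun v hv => ?_
  obtain ⟨a, ha, ha'⟩ := F.window_mem hv
  have hcong : ∀ x i, i ≤ 0 → F.red ((v x).coeff i) = F.red (((a * F.wX) x).coeff i) := by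
    intro x i hi
    have := ha' x i (by omega)
    simpa [redS, wbar, sub_eq_zero, ← map_mul] using this
  obtain ⟨c, hc, hc'⟩ := F.exists_deep_fix hN ha fun x i hi => by
    rw [← hcong x i (by omega), hv.2.1 x i (Or.inl hi), map_zero]
  have hP : tail ((a - F.π • c) * F.wX) ∈ F.polarParts N :=
    ⟨_, sub_mem ha (F.smul_mem_A _ hc), hc', rfl⟩
  have hdiff : ∀ x i, F.red (((v - tail ((a - F.π • c) * F.wX)) x).coeff i) = 0 := by
    intro x i
    simp only [Pi.sub_apply, HahnSeries.coeff_sub, tail_coeff, map_sub]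
    split_ifs with hi
    · simp only [sub_mul, Pi.sub_apply, HahnSeries.coeff_sub, map_sub, hcong x i hi,
        sub_sub_cancel, Pi.mul_apply, Pi.smul_apply, ← HahnSeries.C_mul_eq_smul, mul_assoc]
      simp [red_π]
    · simp [hv.2.1 x i (Or.inr (by omega))]
  have hw := sub_mem hv (F.polarParts_le N hP)
  obtain ⟨y, hy, hyv⟩ := F.exists_div_family hw.1 hdiff
  have hy' : y ∈ F.window N := by
    refine ⟨hy, fun x i hi => ?_, ?_⟩
    · have := hw.2.1 x i hi
      rw [← hyv] at this
      simpa [F.π_ne_zero] using this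
    · have := hw.2.2
      rw [← hyv, res_smul] at this
      exact (mul_eq_zero.mp this).resolve_left F.π_ne_zero
  rw [← add_sub_cancel (tail ((a - F.π • c) * F.wX)) v, ← hyv]
  exact Submodule.add_mem_sup hP (Submodule.smul_mem_smul (Ideal.mem_span_singleton_self _) hy')

/-- **Lifting of differentials.** If `a θ t` has no terms of degree `≤ 0` modulo `π` at any cusp,
then some `a + π b` has none at all. -/
theorem exists_lift [IsAlgClosed k] [IsNoetherianRing O] {a : X → LaurentSeries O} (ha : a ∈ F.A)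
    (h : ∀ x i, i ≤ 0 → F.red (((a * F.wX) x).coeff i) = 0) :
    ∃ b ∈ F.A, ∀ x, LowBd 1 (((a + F.π • b) * F.wX) x) := by
  obtain ⟨N, hN⟩ := F.exists_bound
  obtain ⟨c, hc, hc'⟩ := F.exists_deep_fix hN ha fun x i hi => h x i (by omega)
  set a₁ := a - F.π • c
  have ha₁ : a₁ ∈ F.A := sub_mem ha (F.smul_mem_A _ hc)
  obtain ⟨y, hy, hyv⟩ :=
    F.exists_div_family (F.tail_fam ((F.A_fam _ ha₁).mul F.wX_fam)) fun x i => by
      rw [tail_coeff]
      split_ifs with hi
      · simp only [a₁, sub_mul, Pi.sub_apply, HahnSeries.coeff_sub, map_sub,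
          Pi.mul_apply, Pi.smul_apply, ← HahnSeries.C_mul_eq_smul, mul_assoc]
        have := h x i hi
        simp [Pi.mul_apply] at this
        simp [red_π, this]
      · simp
  have hw := F.polarParts_le N ⟨a₁, ha₁, hc', rfl⟩
  rw [← hyv] at hw
  have hy' : y ∈ F.window N := ⟨hy, fun x i hi => by simpa [F.π_ne_zero] using hw.2.1 x i hi,
    by simpa [res_smul, F.π_ne_zero] using hw.2.2⟩
  obtain ⟨b, hb, -, hby⟩ := F.window_le_polarParts hN hy'
  refine ⟨-(c + b), neg_mem (add_mem hc hb), fun x i hi => ?_⟩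
  have h1 := congrArg (fun z : X → LaurentSeries O => (z x).coeff i) hyv
  rw [← hby] at h1
  simp only [Pi.smul_apply, HahnSeries.coeff_smul, smul_eq_mul, tail_coeff,
    if_pos (by omega : i ≤ 0)] at h1
  have e : ((a + F.π • -(c + b)) * F.wX) x = (a₁ * F.wX) x - F.π • ((b * F.wX) x) := by
    simp only [a₁, Pi.mul_apply, Pi.add_apply, Pi.sub_apply, Pi.smul_apply, Pi.neg_apply,
      ← HahnSeries.C_mul_eq_smul]
    ring
  rw [e, HahnSeries.coeff_sub, HahnSeries.coeff_smul, smul_eq_mul, h1, sub_self]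

end Frame

end Fermat.Agent.AtP.DiffLift
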