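import Fermat.Agent.AtP.DiffLiftCusps
import Fermat.Agent.AtP.DiffLiftMain
import Fermat.Agent.KummerES.ReductionHyp

/-!
# Lifting differentials on the curve of a group between `Γ(L)` and `Γ(2)`

The Galois coordinates of level `L` over level `2` descend to every group `± Γ(L) ≤ Γ ≤ Γ(2)`, so
the expansions of the level `Γ` ring form a `Frame`.
-/

set_option autoImplicit false

noncomputable section

open UpperHalfPlane CongruenceSubgroup
open scoped MatrixGroups

namespace Fermat.Agent.AtP.DiffLift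

open Fermat.Agent.KummerES
open ModularCurve (coeffMap)
open Fermat.Agent.ModularFunctionField (theta)

variable {L : ℕ} [NeZero L] {O : Subring ℂ} (H : LevelHyp 2 L O)

include H in
/-- An element of `Γ(2)` acting trivially on level `L` lies in `± Γ(L)`. -/
lemma mem_pm_of_trivial {γ : SL(2, ℤ)} (hγ : γ ∈ Gamma 2)
    (htriv : ∀ f ∈ weak (Gamma L) L O, comp f γ = f) : γ ∈ Gamma L ∨ -γ ∈ Gamma L := by
  refine mem_or_neg_mem_Gamma fun v hv0 => ?_
  by_contra hcon
  push Not at hcon
  obtain ⟨hv1, hv2⟩ := hcon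
  set a₀ := (RatioData.base (L := L) 2).1
  set b₀ := (RatioData.base (L := L) 2).2
  have hab : IsPair a₀ b₀ := isPair_base le_rfl H.dvd
  have ha : vAct a₀ γ = a₀ := vAct_torsionVec H.dvd hγ _
  have hb : vAct b₀ γ = b₀ := vAct_torsionVec H.dvd hγ _
  have hva : v ≠ a₀ := fun h => hv1 (h ▸ ha)
  have hva' : v ≠ -a₀ := fun h => hv1 (by rw [h, LevelHyp.vAct_neg, ha])
  have p1 : IsPair v a₀ := ⟨hv0, hab.left_ne_zero, hva, hva'⟩
  have hγv0 : vAct v γ ≠ 0 := fun h =>
    hv0 (LevelHyp.vAct_injective γ (h.trans (Matrix.zero_vecMul _).symm))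
  have p2 : IsPair v (vAct v γ) :=
    ⟨hv0, hγv0, fun h => hv1 h.symm, fun h => hv2 (neg_eq_iff_eq_neg.mp h.symm)⟩
  have p3 : IsPair (vAct v γ) a₀ := by simpa [ha] using LevelHyp.isPair_vAct p1 γ
  have key : H.D.ratio a₀ b₀ v (vAct v γ) *
      (H.D.ratio v a₀ a₀ b₀ - comp (H.D.ratio v a₀ a₀ b₀) γ) = 1 := by
    rw [H.D.comp_eq γ p1 hab, ha, hb, ← H.D.add_eq p2 p3 p1 hab, add_sub_cancel_right,
      H.D.trans hab p2 hab, H.D.ratio_self hab]
  rw [htriv _ (H.gens_subset (Or.inr (Or.inl ⟨v, a₀, a₀, b₀, p1, hab, rfl⟩))), sub_self,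
    mul_zero] at key
  exact zero_ne_one key

variable (L O) in
/-- The image of `Γ` in the group of level `L` over level `2`. -/
def imageGroup (Γ : Subgroup SL(2, ℤ)) : Subgroup (levelGroup L O 2) :=
  (Γ.map (actAut L O)).subgroupOf (levelGroup L O 2)

variable {Γ : Subgroup SL(2, ℤ)}

include H in
/-- An element of `Γ(2)` acts as a member of the image group iff it lies in `Γ`. -/
lemma mem_imageGroup_iff (hL : Gamma L ≤ Γ) (h2 : Γ ≤ Gamma 2) (hneg : -1 ∈ Γ) {h : SL(2, ℤ)}
    (hh : h ∈ Gamma 2) :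
    (⟨actAut L O h, ⟨h, hh, rfl⟩⟩ : levelGroup L O 2) ∈ imageGroup L O Γ ↔ h ∈ Γ := by
  simp only [imageGroup, Subgroup.mem_subgroupOf, Subgroup.mem_map]
  refine ⟨fun ⟨k, hk, he⟩ => ?_, fun hm => ⟨h, hm, rfl⟩⟩
  have hone : actAut L O (k⁻¹ * h) = 1 := by rw [map_mul, map_inv, he, inv_mul_cancel]
  have htriv : ∀ f ∈ weak (Gamma L) L O, comp f (k⁻¹ * h)⁻¹ = f := fun f hf => by
    exact congrArg Subtype.val (RingEquiv.congr_fun hone ⟨f, hf⟩)
  have hmem : (k⁻¹ * h)⁻¹ ∈ Γ := by
    rcases mem_pm_of_trivial H (inv_mem (mul_mem (inv_mem (h2 hk)) hh)) htriv with h1 | h1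
    · exact hL h1
    · have := mul_mem hneg (hL h1)
      rwa [neg_one_mul, neg_neg] at this
  simpa using mul_mem hk (inv_mem hmem)

omit [NeZero L] in
/-- Functions fixed by the image group have level `Γ`. -/
lemma mem_weak_of_fixed (h2 : Γ ≤ Gamma 2) (f : LRing L O)
    (h : ∀ σ ∈ imageGroup L O Γ, σ • f = f) : f.1 ∈ weak Γ L O := by
  refine ⟨f.2.1, fun γ hγ => ?_, f.2.2.2⟩
  have h1 : comp f.1 γ⁻¹⁻¹ = f.1 := congrArg Subtype.val
    (h ⟨actAut L O γ⁻¹, ⟨γ⁻¹, inv_mem (h2 hγ), rfl⟩⟩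
      (by simp only [imageGroup, Subgroup.mem_subgroupOf]
          exact ⟨γ⁻¹, inv_mem hγ, rfl⟩))
  rwa [inv_inv] at h1

include H in
/-- Some element of level `L` has trace `1` to the curve of `Γ`. -/
theorem exists_trace_one [Fintype (imageGroup L O Γ)] :
    ∃ z : LRing L O, ∑ k : imageGroup L O Γ, k • z = 1 := by
  classical
  obtain ⟨ι, _, C, -⟩ := H.exists_coords
  let K := imageGroup L O Γ
  let CK : GaloisCoords K ι (LRing L O) :=
    { x := C.x
      y := C.y
      self := C.self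
      orth := fun g hg => C.orth g.1 fun h => hg (Subtype.ext h) }
  let R' : Subring (LRing L O) :=
    { carrier := {f | ∀ σ ∈ K, σ • f = f}
      one_mem' := fun σ _ => smul_one σ
      zero_mem' := fun σ _ => smul_zero σ
      add_mem' := fun hf hg σ hσ => by rw [smul_add, hf σ hσ, hg σ hσ]
      neg_mem' := fun hf σ hσ => by rw [smul_neg, hf σ hσ]
      mul_mem' := fun hf hg σ hσ => by rw [smul_mul', hf σ hσ, hg σ hσ] }
  let T : LRing L O → LRing L O := fun a => ∑ k : K, k • a
  have hT : ∀ a, T a ∈ R' := fun a σ hσ => by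
    simp only [T, Finset.smul_sum]
    exact Fintype.sum_equiv (Equiv.mulLeft ⟨σ, hσ⟩) _ _ fun k => by
      simp only [Equiv.coe_mulLeft, Subgroup.smul_def, mul_smul]
  have hTR : ∀ r ∈ R', ∀ a, T (r * a) = r * T a := fun r hr a => by
    simp only [T, Finset.mul_sum]
    exact Finset.sum_congr rfl fun k _ => by
      rw [smul_mul', Subgroup.smul_def k r, hr k.1 k.2]
  let I : Ideal R' :=
    { carrier := {r | ∃ a, T a = r.1}
      zero_mem' := ⟨0, by simp [T]⟩
      add_mem' := by
        rintro r s ⟨a, ha⟩ ⟨b, hb⟩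
        exact ⟨a + b, by simp only [T, smul_add, Finset.sum_add_distrib] at ha hb ⊢; rw [ha, hb]; rfl⟩
      smul_mem' := by
        rintro c r ⟨a, ha⟩
        exact ⟨c.1 * a, by rw [hTR _ c.2, ha]; rfl⟩ }
  have hI : ∀ a : LRing L O, a ∈ I • (⊤ : Submodule R' (LRing L O)) := fun a => by
    rw [CK.eq_sum a]
    refine Submodule.sum_mem _ fun i _ => ?_
    have := Submodule.smul_mem_smul (I := I) (N := (⊤ : Submodule R' (LRing L O)))
      (r := ⟨T (C.y i * a), hT _⟩) ⟨_, rfl⟩ (Submodule.mem_top (x := C.x i))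
    rw [mul_comm]
    exact this
  have hfg : (⊤ : Submodule R' (LRing L O)).FG := by
    refine ⟨Finset.univ.image C.x, eq_top_iff.mpr fun a _ => ?_⟩
    rw [CK.eq_sum a]
    refine Submodule.sum_mem _ fun i _ => ?_
    have := Submodule.smul_mem (Submodule.span R' (↑(Finset.univ.image C.x) : Set (LRing L O)))
      (⟨T (C.y i * a), hT _⟩ : R') (Submodule.subset_span (by simp : C.x i ∈ _))
    rw [mul_comm]
    exact this
  obtain ⟨r, hr, hr'⟩ :=
    Submodule.exists_sub_one_mem_and_smul_eq_zero_of_fg_of_le_smul I ⊤ hfg fun a _ => hI a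
  have hr0 : r.1 = 0 := by
    have := hr' 1 Submodule.mem_top
    rwa [Subring.smul_def, smul_eq_mul, mul_one] at this
  obtain ⟨a, ha⟩ := hr
  have hz : T (-a) = 1 := by
    have h1 : T a = -1 := by rw [ha, AddSubgroupClass.coe_sub, hr0, Subring.coe_one, zero_sub]
    simp only [T, smul_neg, Finset.sum_neg_distrib] at h1 ⊢
    rw [h1, neg_neg]
  refine ⟨-a, ?_⟩
  simpa only [T, K] using hz

include H in
open scoped Classical in
/-- Coordinates of level `Γ` over level `2`. -/
theorem exists_coverCoords (h2 : Γ ≤ Gamma 2) :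
    ∃ (ι : Type) (_ : Fintype ι) (x y : ι → LRing L O),
      (∀ i, (x i).1 ∈ weak Γ L O ∧ (y i).1 ∈ weak Γ L O) ∧
      ∀ σ : levelGroup L O 2, ∑ i, x i * σ • y i = if σ ∈ imageGroup L O Γ then 1 else 0 := by
  obtain ⟨ι, _, C, -⟩ := H.exists_coords
  let : Fintype (levelGroup L O 2) := Fintype.ofFinite _
  set K := imageGroup L O Γ
  let : Fintype K := Fintype.ofFinite _
  obtain ⟨z, hz⟩ := exists_trace_one (Γ := Γ) H
  let T : LRing L O → LRing L O := fun a => ∑ k : K, k • a
  change T z = 1 at hz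
  have hT : ∀ a, ∀ σ ∈ K, σ • T a = T a := fun a σ hσ => by
    simp only [T, Finset.smul_sum]
    exact Fintype.sum_equiv (Equiv.mulLeft ⟨σ, hσ⟩) _ _ fun k => by
      simp only [Equiv.coe_mulLeft, Subgroup.smul_def, mul_smul]
  refine ⟨ι, inferInstance, fun i => T (z * C.x i), fun i => T (C.y i),
    fun i => ⟨mem_weak_of_fixed h2 _ (hT _), mem_weak_of_fixed h2 _ (hT _)⟩, fun σ => ?_⟩
  have key : ∀ k k' : K, ∑ i, k • C.x i * σ • k' • C.y i =
      if σ * k'.1 = k.1 then 1 else 0 := by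
    intro k k'
    have e : ∀ i, k • C.x i * σ • k' • C.y i =
        k.1 • (C.x i * (k.1⁻¹ * σ * k'.1) • C.y i) := fun i => by
      rw [smul_mul', ← mul_smul, ← mul_assoc, ← mul_assoc, mul_inv_cancel, one_mul, mul_smul]
      rfl
    rw [Finset.sum_congr rfl fun i _ => e i, ← Finset.smul_sum]
    split_ifs with h
    · rw [show k.1⁻¹ * σ * k'.1 = 1 by rw [mul_assoc, h, inv_mul_cancel]]
      simp [C.self]
    · rw [C.orth _ fun h' => h (by rwa [mul_assoc, inv_mul_eq_one, eq_comm] at h'), smul_zero]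
  calc ∑ i, T (z * C.x i) * σ • T (C.y i)
      = ∑ k : K, ∑ k' : K, k • z * ∑ i, k • C.x i * σ • k' • C.y i := by
        simp only [T, smul_mul', Finset.smul_sum, Finset.sum_mul]
        rw [Finset.sum_comm]
        refine Finset.sum_congr rfl fun k _ => ?_
        simp only [Finset.mul_sum, mul_assoc]
        exact Finset.sum_comm
    _ = _ := by
        simp only [key]
        split_ifs with hσ
        · have : ∀ k : K, ∑ k' : K, k • z * (if σ * k'.1 = k.1 then (1 : LRing L O) else 0) =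
              k • z := fun k => by
            rw [Finset.sum_eq_single (⟨σ, hσ⟩⁻¹ * k : K)]
            · simp
            · intro k' _ hne
              rw [if_neg fun h => hne ?_, mul_zero]
              exact Subtype.ext (by simp [← h])
            · simp
          rw [Finset.sum_congr rfl fun k _ => this k]
          exact hz
        · refine Finset.sum_eq_zero fun k _ => Finset.sum_eq_zero fun k' _ => ?_
          rw [if_neg fun h => hσ ?_, mul_zero]
          rw [eq_mul_inv_iff_mul_eq.mpr h]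
          exact mul_mem k.2 (inv_mem k'.2)

section frame

variable {k : Type*} [Field k] (C : Chart 2 L) (red : O →+* k) (π : O)

/-- The coordinate in the level `L` ring. -/
def chartTL (hO : zetaRing L ≤ O) : LRing L O :=
  Subring.inclusion (weak_mono (Gamma_le_of_dvd (two_dvd_level C)) le_rfl) (chartT C hO)

/-- There are finitely many cusps of level two. -/
lemma line_fintype : Nonempty (Fintype Line) :=
  ⟨Subgroup.fintypeQuotientOfFiniteIndex⟩

open scoped Classical in
/-- The trace from the curve of `Γ` to the line of level two preserves the rings of functions. -/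
lemma trace_mem_range_expsLine (hL : Gamma L ≤ Γ) (h2 : Γ ≤ Gamma 2) [Fintype (SL(2, ℤ) ⧸ Γ)]
    (f : weak Γ L O) :
    (fun y => ∑ x with Subgroup.quotientMapOfLE h2 x = y, exps O hL f x) ∈ (expsLine C).range := by
  let fL : LRing L O := Subring.inclusion (weak_mono hL le_rfl) f
  let proj : SL(2, ℤ) ⧸ Γ → Line := Subgroup.quotientMapOfLE h2
  have hproj : ∀ g : SL(2, ℤ), proj (QuotientGroup.mk g) = QuotientGroup.mk g := fun g => rfl
  let X₁ := {x : SL(2, ℤ) ⧸ Γ // proj x = QuotientGroup.mk 1}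
  let tF : LRing L O := ∑ x : X₁, actAut L O x.1.out fL
  have hout : ∀ (g : SL(2, ℤ)),
      actAut L O (QuotientGroup.mk g : SL(2, ℤ) ⧸ Γ).out fL = actAut L O g fL := by
    intro g
    obtain ⟨⟨γ, hγ⟩, hg⟩ := QuotientGroup.mk_out_eq_mul Γ g
    refine Subtype.ext ?_
    show comp f.1 (QuotientGroup.mk g : SL(2, ℤ) ⧸ Γ).out⁻¹ = comp f.1 g⁻¹
    rw [hg, mul_inv_rev, ← comp_comp, f.2.2.1 _ (inv_mem hγ)]
  have hfix : ∀ σ : levelGroup L O 2, σ • tF = tF := by
    rintro ⟨_, γ, hγ, rfl⟩
    simp only [tF, Finset.smul_sum]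
    have hmk : (QuotientGroup.mk γ : Line) = QuotientGroup.mk 1 :=
      QuotientGroup.eq.mpr (by simpa using inv_mem hγ)
    have hmove : ∀ (δ : SL(2, ℤ)) (x : SL(2, ℤ) ⧸ Γ), proj (δ • x) = δ • proj x := by
      intro δ x
      induction x using QuotientGroup.induction_on with
      | H g => rfl
    have hγ1 : ∀ δ ∈ Gamma 2, δ • (QuotientGroup.mk 1 : Line) = QuotientGroup.mk 1 := by
      intro δ hδ
      rw [MulAction.Quotient.smul_mk, smul_eq_mul, mul_one]
      exact QuotientGroup.eq.mpr (by simpa using inv_mem hδ)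
    refine Fintype.sum_equiv
      ⟨fun x => ⟨γ • x.1, by rw [hmove, x.2, hγ1 γ hγ]⟩,
       fun x => ⟨γ⁻¹ • x.1, by rw [hmove, x.2, hγ1 _ (inv_mem hγ)]⟩,
       fun x => Subtype.ext (inv_smul_smul γ x.1),
       fun x => Subtype.ext (smul_inv_smul γ x.1)⟩ _ _ fun x => ?_
    obtain ⟨x, hx⟩ := x
    induction x using QuotientGroup.induction_on with
    | H g =>
      show actAut L O γ (actAut L O (QuotientGroup.mk g : SL(2, ℤ) ⧸ Γ).out fL) =
        actAut L O (γ • (QuotientGroup.mk g : SL(2, ℤ) ⧸ Γ)).out fL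
      rw [MulAction.Quotient.smul_mk, smul_eq_mul, hout, hout, map_mul]
      rfl
  refine ⟨⟨tF.1, mem_level_of_fixed tF hfix⟩, funext fun y => ?_⟩
  induction y using QuotientGroup.induction_on with
  | H g =>
    rw [expsLine, exps_mk]
    rw [show Subring.inclusion (weak_mono (Gamma_le_of_dvd (two_dvd_level C)) le_rfl)
      (⟨tF.1, mem_level_of_fixed tF hfix⟩ : weak (Gamma 2) L O) = tF from Subtype.ext rfl]
    simp only [tF, map_sum]
    rw [← Finset.sum_subtype (Finset.univ.filter fun x => proj x = QuotientGroup.mk 1)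
      (by simp) fun x => expB L O g⁻¹ (actAut L O x.out fL)]
    refine Finset.sum_bij (fun x _ => g • x) ?_ ?_ ?_ ?_
    · intro x hx
      simp only [Finset.mem_filter, Finset.mem_univ, true_and] at hx ⊢
      induction x using QuotientGroup.induction_on with
      | H k =>
        simp only [MulAction.Quotient.smul_mk, smul_eq_mul, hproj,
          Subgroup.quotientMapOfLE_apply_mk] at hx ⊢
        exact QuotientGroup.eq.mpr (by simpa [mul_assoc] using QuotientGroup.eq.mp hx)
    · exact fun x _ x' _ h => MulAction.injective g h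
    · intro x hx
      simp only [Finset.mem_filter, Finset.mem_univ, true_and] at hx ⊢
      refine ⟨g⁻¹ • x, ?_, smul_inv_smul g x⟩
      induction x using QuotientGroup.induction_on with
      | H k =>
        simp only [MulAction.Quotient.smul_mk, smul_eq_mul, hproj,
          Subgroup.quotientMapOfLE_apply_mk] at hx ⊢
        exact QuotientGroup.eq.mpr (by simpa [mul_assoc] using QuotientGroup.eq.mp hx)
    · intro x _
      induction x using QuotientGroup.induction_on with
      | H k =>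
        rw [hout, MulAction.Quotient.smul_mk, exps_mk, smul_eq_mul]
        refine expB_ext ?_
        show comp (comp f.1 k⁻¹) g⁻¹ = comp f.1 (g * k)⁻¹
        rw [comp_comp, mul_inv_rev]

include H in
open scoped Classical in
/-- Coordinates of level `Γ` over level two are coordinates on the cusps of a fibre. -/
lemma sum_exps_coords (hL : Gamma L ≤ Γ) (h2 : Γ ≤ Gamma 2) (hneg : -1 ∈ Γ) {J : Type} [Fintype J]
    {xc yc : J → LRing L O} (hmem : ∀ j, (xc j).1 ∈ weak Γ L O ∧ (yc j).1 ∈ weak Γ L O)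
    (hcoord : ∀ σ : levelGroup L O 2,
      ∑ j, xc j * σ • yc j = if σ ∈ imageGroup L O Γ then 1 else 0)
    {x x' : SL(2, ℤ) ⧸ Γ}
    (hxx' : Subgroup.quotientMapOfLE h2 x = Subgroup.quotientMapOfLE h2 x') :
    ∑ j, exps O hL ⟨(xc j).1, (hmem j).1⟩ x * exps O hL ⟨(yc j).1, (hmem j).2⟩ x' =
      if x = x' then 1 else 0 := by
  induction x using QuotientGroup.induction_on with
  | H g₁ =>
    induction x' using QuotientGroup.induction_on with
    | H g₂ =>
      rw [Subgroup.quotientMapOfLE_apply_mk, Subgroup.quotientMapOfLE_apply_mk] at hxx'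
      have hh : g₁⁻¹ * g₂ ∈ Gamma 2 := QuotientGroup.eq.mp hxx'
      set σ : levelGroup L O 2 := ⟨actAut L O (g₁⁻¹ * g₂), ⟨_, hh, rfl⟩⟩ with hσ
      have hy : ∀ j, expB L O g₂⁻¹ (yc j) = expB L O g₁⁻¹ (σ • yc j) := fun j =>
        expB_ext (by
          show comp (yc j).1 g₂⁻¹ = comp (comp (yc j).1 (g₁⁻¹ * g₂)⁻¹) g₁⁻¹
          rw [comp_comp]; group)
      simp only [exps_mk]
      show ∑ j, expB L O g₁⁻¹ (xc j) * expB L O g₂⁻¹ (yc j) = _
      simp only [hy, ← map_mul, ← map_sum, hcoord σ]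
      have hiff : σ ∈ imageGroup L O Γ ↔
          (QuotientGroup.mk g₁ : SL(2, ℤ) ⧸ Γ) = QuotientGroup.mk g₂ :=
        (mem_imageGroup_iff H hL h2 hneg hh).trans QuotientGroup.eq.symm
      simp only [hiff]
      split_ifs <;> simp

include H in
/-- A function of level two without poles is constant. -/
lemma exists_const_of_lowBd (f : weak (Gamma 2) L O)
    (h : ∀ y, LowBd 0 (expsLine C f y)) : ∃ r, expsLine C f = fun _ => HahnSeries.C r := by
  have hf : f.1 = fun _ => (expansion L f.1).coeff 0 :=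
    C.eq_const_of_regular H.le f.2 fun i j hj => by
      rw [← coe_expsLine_repPt C f i j, h (repPt C i) j hj]
      rfl
  have hc : (expansion L f.1).coeff 0 ∈ O := by
    have := expansion_mem f.2 1 0
    rwa [comp_one] at this
  generalize (expansion L f.1).coeff 0 = c at hf hc
  refine ⟨⟨c, hc⟩, ?_⟩
  rw [show f = ⟨fun _ => c, const_mem_weak hc⟩ from Subtype.ext hf]
  exact exps_const hc

variable {π}

/-- The special fibre is connected: a function vanishing modulo `π` at one cusp vanishes at all. -/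
lemma coeffMap_exps_eq_zero (hker : ∀ r, red r = 0 ↔ π ∣ r) (hS : SpecialFibre L O π.1 π.2)
    (hL : Gamma L ≤ Γ) (f : weak Γ L O) {x₀ : SL(2, ℤ) ⧸ Γ}
    (h0 : coeffMap red (exps O hL f x₀) = 0) (x : SL(2, ℤ) ⧸ Γ) :
    coeffMap red (exps O hL f x) = 0 := by
  have hk : kerAt O π.1 x₀.out⁻¹ (Subring.inclusion (weak_mono hL le_rfl) f) :=
    (kerAt_iff_dvd π.2 _ _).mpr (C_dvd_of_coeffMap_eq_zero red π hker h0)
  obtain ⟨u, hu⟩ := Ideal.mem_span_singleton.mp (hS.mem_span _ _ hk)
  show coeffMap red (expB L O x.out⁻¹ (Subring.inclusion (weak_mono hL le_rfl) f)) = 0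
  rw [hu, map_mul, expB_constL, map_mul, HahnSeries.C_apply, ModularCurve.coeffMap_single,
    show red (⟨π.1, π.2⟩ : O) = 0 from (hker _).mpr dvd_rfl]
  simp

open scoped Classical in
/-- The cusps of the curve of `Γ` with the expansions of its ring, over the line of level two. -/
def coverFrame (hπ0 : π ≠ 0) (hsurj : Function.Surjective red) (hker : ∀ r, red r = 0 ↔ π ∣ r)
    (hjac : π ∈ (⊥ : Ideal O).jacobson) (hS : SpecialFibre L O π.1 π.2)
    (hL : Gamma L ≤ Γ) (h2 : Γ ≤ Gamma 2) (hneg : -1 ∈ Γ) [Fintype (SL(2, ℤ) ⧸ Γ)]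
    [Fintype Line] {J : Type} [Fintype J] (xc yc : J → LRing L O)
    (hmem : ∀ j, (xc j).1 ∈ weak Γ L O ∧ (yc j).1 ∈ weak Γ L O)
    (hcoord : ∀ σ : levelGroup L O 2,
      ∑ j, xc j * σ • yc j = if σ ∈ imageGroup L O Γ then 1 else 0) :
    Frame O k (SL(2, ℤ) ⧸ Γ) Line (Fin 2) J :=
  { line := chartLine C H.le
    red := red
    π := π
    π_ne_zero := hπ0
    red_surj := hsurj
    red_ker := hker
    π_jac := hjac
    prim_red := isPrimitiveRoot_red H.le red
    T := transl Γ
    periodic := fun x => by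
      rw [transl_iterate, inv_pow, ← zpow_natCast, ← zpow_neg]
      exact T_zpow_smul_of_dvd hL ⟨-1, by simp [chartLine]⟩ x
    proj := Subgroup.quotientMapOfLE h2
    proj_T := fun x => by
      induction x using QuotientGroup.induction_on with
      | H g => rfl
    base := QuotientGroup.mk 1
    A := (exps O hL).range
    A_fam := by rintro _ ⟨f, rfl⟩; exact exps_fam H.le f
    A_const := fun r => ⟨⟨fun _ => (r : ℂ), const_mem_weak r.2⟩, exps_const r.2⟩
    B := (expsLine C).range
    B_fam := by rintro _ ⟨f, rfl⟩; exact exps_fam H.le f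
    B_const := fun r => ⟨⟨fun _ => (r : ℂ), const_mem_weak r.2⟩, exps_const r.2⟩
    B_t := ⟨_, rfl⟩
    B_u := fun c => ⟨_, rfl⟩
    pull_mem := by
      rintro _ ⟨f, rfl⟩
      refine ⟨Subring.inclusion (weak_mono h2 le_rfl) f, funext fun x => ?_⟩
      induction x using QuotientGroup.induction_on with
      | H g =>
        simp only [expsLine, Function.comp_apply, Subgroup.quotientMapOfLE_apply_mk, exps_mk]
        exact expB_ext rfl
    trace_mem := by
      rintro _ ⟨f, rfl⟩
      exact trace_mem_range_expsLine C hL h2 f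
    xc := fun j => exps O hL ⟨(xc j).1, (hmem j).1⟩
    yc := fun j => exps O hL ⟨(yc j).1, (hmem j).2⟩
    xc_mem := fun j => ⟨_, rfl⟩
    yc_mem := fun j => ⟨_, rfl⟩
    coords := fun x x' hxx' => sum_exps_coords H hL h2 hneg hmem hcoord hxx'
    const_B := by
      rintro _ ⟨f, rfl⟩ h
      exact exists_const_of_lowBd H C f h
    conn := by
      rintro _ ⟨f, rfl⟩ x₀ h0 x
      exact coeffMap_exps_eq_zero red hker hS hL f h0 x }

variable {hπ0 : π ≠ 0} {hsurj : Function.Surjective red} {hker : ∀ r, red r = 0 ↔ π ∣ r}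
  {hjac : π ∈ (⊥ : Ideal O).jacobson} {hS : SpecialFibre L O π.1 π.2} {hL : Gamma L ≤ Γ}
  {h2 : Γ ≤ Gamma 2} {hneg : -1 ∈ Γ} [Fintype (SL(2, ℤ) ⧸ Γ)] [Fintype Line] {J : Type}
  [Fintype J] {xc yc : J → LRing L O}
  {hmem : ∀ j, (xc j).1 ∈ weak Γ L O ∧ (yc j).1 ∈ weak Γ L O}

open scoped Classical in
/-- The frame's `θ t` at the cusp `δ ∞`. -/
lemma coverFrame_wX {hcoord : ∀ σ : levelGroup L O 2,
      ∑ j, xc j * σ • yc j = if σ ∈ imageGroup L O Γ then 1 else 0} (δ : SL(2, ℤ)) :
    (coverFrame H C red hπ0 hsurj hker hjac hS hL h2 hneg xc yc hmem hcoord).wX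
        (QuotientGroup.mk δ⁻¹) = theta (expB L O δ (chartTL C H.le)) := by
  show theta (expsLine C (chartT C H.le) (QuotientGroup.mk δ⁻¹)) = _
  rw [expsLine, exps_mk, inv_inv]
  rfl

end frame

section lift

variable {k : Type*} [Field k] (C : Chart 2 L) (red : O →+* k) (π : O)

include H in
/-- **Lifting of differentials on the curve of `Γ`.** -/
theorem exists_lift_weak [IsAlgClosed k] [IsNoetherianRing O] (hπ0 : π ≠ 0)
    (hsurj : Function.Surjective red) (hker : ∀ r, red r = 0 ↔ π ∣ r)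
    (hjac : π ∈ (⊥ : Ideal O).jacobson) (hS : SpecialFibre L O π.1 π.2)
    (hL : Gamma L ≤ Γ) (h2 : Γ ≤ Gamma 2) (hneg : -1 ∈ Γ) (a : weak Γ L O)
    (ha : ∀ (δ : SL(2, ℤ)) (i : ℤ), i ≤ 0 →
      red ((expB L O δ (Subring.inclusion (weak_mono hL le_rfl) a) *
        theta (expB L O δ (chartTL C H.le))).coeff i) = 0) :
    ∃ b : weak Γ L O, ∀ δ : SL(2, ℤ),
      LowBd 1 (expB L O δ (Subring.inclusion (weak_mono hL le_rfl) a +
        constL π.1 π.2 * Subring.inclusion (weak_mono hL le_rfl) b) *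
          theta (expB L O δ (chartTL C H.le))) := by
  classical
  have : Γ.FiniteIndex := Subgroup.finiteIndex_of_le hL
  have : (Gamma 2).FiniteIndex := Subgroup.finiteIndex_of_le (Gamma_le_of_dvd (two_dvd_level C))
  let : Fintype (SL(2, ℤ) ⧸ Γ) := Subgroup.fintypeQuotientOfFiniteIndex
  let : Fintype Line := line_fintype.some
  obtain ⟨J, _, xc, yc, hmem, hcoord⟩ := exists_coverCoords (Γ := Γ) H h2
  set F := coverFrame H C red hπ0 hsurj hker hjac hS hL h2 hneg xc yc hmem hcoord
  obtain ⟨_, ⟨b, rfl⟩, hb⟩ := F.exists_lift (a := exps O hL a) ⟨a, rfl⟩ fun x i hi => by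
    induction x using QuotientGroup.induction_on with
    | H g =>
      have e := exps_mk (hΓ := hL) a g
      rw [Pi.mul_apply, e, ← inv_inv g, coverFrame_wX, inv_inv]
      exact ha g⁻¹ i hi
  refine ⟨b, fun δ => ?_⟩
  have h1 := hb (QuotientGroup.mk δ⁻¹)
  rw [Pi.mul_apply, Pi.add_apply, Pi.smul_apply, coverFrame_wX, exps_mk, exps_mk, inv_inv,
    ← HahnSeries.C_mul_eq_smul] at h1
  rw [map_add, map_mul, expB_constL]
  exact h1

end lift


end Fermat.Agent.AtP.DiffLift
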