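import Fermat.Agent.AtP.DiffLiftLine
import Fermat.Agent.KummerES.BaseFromChart
import Fermat.Agent.KummerES.ReductionSeries

/-!
# The cusps of the level two coordinate

The cusps of a group `Γ` between `Γ(L)` and `SL(2, ℤ)`, with the expansions of weakly modular
functions there, and the `LineData` of a chart of level `2`.  The cusp of the coset `g Γ` is
`g⁻¹ ∞`, so that translation of the parameter is left multiplication by `T⁻¹`.
-/

set_option autoImplicit false

noncomputable section

open UpperHalfPlane CongruenceSubgroup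
open scoped MatrixGroups

namespace Fermat.Agent.AtP.DiffLift

open Fermat.Agent.KummerES
open ModularCurve (coeffMap)
open Fermat.Agent.ModularFunctionField (twist)

variable {L : ℕ} [NeZero L] {O : Subring ℂ}

omit [NeZero L] in
/-- A series which vanishes modulo `π` is divisible by `π`. -/
lemma C_dvd_of_coeffMap_eq_zero {R k : Type*} [CommRing R] [CommRing k] (red : R →+* k) (π : R)
    (hker : ∀ r, red r = 0 ↔ π ∣ r) {s : LaurentSeries R} (h : coeffMap red s = 0) :
    (HahnSeries.C π : LaurentSeries R) ∣ s := by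
  choose q hq using fun i => (hker _).mp (show red (s.coeff i) = 0 by
    simpa using congrArg (fun u : LaurentSeries k => u.coeff i) h)
  classical
  refine ⟨⟨fun i => if s.coeff i = 0 then 0 else q i, s.isPWO_support.mono fun i hi => ?_⟩, ?_⟩
  · simp only [Function.mem_support] at hi
    simpa using fun h0 => hi (if_pos h0)
  · ext i
    rw [HahnSeries.C_mul_eq_smul, HahnSeries.coeff_smul, smul_eq_mul]
    show s.coeff i = π * if s.coeff i = 0 then 0 else q i
    split_ifs with h0
    · rw [h0, mul_zero]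
    · exact hq i

/-- `exp (2πi / L)` as a unit of the coefficient ring. -/
def zetaUnit (hO : zetaRing L ≤ O) : Oˣ :=
  Units.ofPowEqOne ⟨zetaC L, hO (zetaC_mem_zetaRing L)⟩ L (Subtype.ext (zeta_pow_self L))
    (NeZero.ne L)

/-- The unit `zetaUnit` is `exp (2πi/L)`. -/
lemma coe_zetaUnit (hO : zetaRing L ≤ O) : (((zetaUnit hO : Oˣ) : O) : ℂ) = zetaC L := rfl

lemma coe_zetaUnit_zpow (hO : zetaRing L ≤ O) (i : ℤ) :
    (((zetaUnit hO ^ i : Oˣ) : O) : ℂ) = zetaC L ^ i := by
  have h := congrArg Units.val (map_zpow (Units.map (O.subtype : O →* ℂ)) (zetaUnit hO) i)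
  simp only [Units.val_zpow_eq_zpow_val] at h
  exact h

lemma isPrimitiveRoot_zetaUnit (hO : zetaRing L ≤ O) :
    IsPrimitiveRoot ((zetaUnit hO : Oˣ) : O) L :=
  IsPrimitiveRoot.of_map_of_injective (f := O.subtype) (by
    show IsPrimitiveRoot (zetaC L) L
    exact isPrimitiveRoot_zetaC L) Subtype.val_injective

/-- The level is invertible in the coefficients. -/
lemma isUnit_natCast_level (hO : zetaRing L ≤ O) : IsUnit (L : O) := by
  refine IsUnit.of_mul_eq_one ⟨(L : ℂ)⁻¹, hO (inv_natCast_mem_zetaRing L)⟩ (Subtype.ext ?_)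
  have : (L : ℂ) ≠ 0 := by exact_mod_cast NeZero.ne L
  simp [this]

/-- Primitivity survives reduction, as `L` is invertible. -/
lemma isPrimitiveRoot_red {k : Type*} [Field k] (hO : zetaRing L ≤ O) (red : O →+* k) :
    IsPrimitiveRoot (red (zetaUnit hO)) L := by
  have hp := isPrimitiveRoot_zetaUnit hO
  refine IsPrimitiveRoot.mk_of_lt _ (Nat.pos_of_ne_zero (NeZero.ne L))
    (by rw [← map_pow, hp.pow_eq_one, map_one]) fun i hi0 hiL hi => ?_
  set z : O := ((zetaUnit hO : Oˣ) : O) ^ i with hz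
  have hz1 : z ≠ 1 := hp.pow_ne_one_of_pos_of_lt hi0.ne' hiL
  have hsum : ∑ j ∈ Finset.range L, z ^ j = 0 := by
    have h := geom_sum_mul z L
    rw [show z ^ L = 1 by rw [hz, ← pow_mul, mul_comm, pow_mul, hp.pow_eq_one, one_pow],
      sub_self] at h
    exact (mul_eq_zero.mp h).resolve_right (sub_ne_zero.mpr hz1)
  have h := congrArg red hsum
  rw [← map_pow] at hi
  simp only [map_sum, map_pow, map_zero, hz, map_pow] at h hi
  rw [hi] at h
  simp only [one_pow, Finset.sum_const, Finset.card_range, nsmul_eq_mul, mul_one] at h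
  exact ((isUnit_natCast_level hO).map red).ne_zero (by simpa using h)

/-- Expansions at cusps only depend on the translated functions. -/
lemma expB_ext {δ δ' : SL(2, ℤ)} {f g : LRing L O} (h : comp f.1 δ = comp g.1 δ') :
    expB L O δ f = expB L O δ' g := by
  refine HahnSeries.ext (funext fun i => Subtype.ext ?_)
  show (expansion L (comp f.1 δ)).coeff i = (expansion L (comp g.1 δ')).coeff i
  rw [h]

lemma coe_expB_coeff (δ : SL(2, ℤ)) (f : LRing L O) (i : ℤ) :
    (((expB L O δ f).coeff i : O) : ℂ) = (expansion L (comp f.1 δ)).coeff i := rfl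

/-- Translating the parameter twists the expansion. -/
lemma expB_mul_T_zpow (hO : zetaRing L ≤ O) (δ : SL(2, ℤ)) (y : ℤ) (f : LRing L O) :
    expB L O (δ * ModularGroup.T ^ y) f = twist (zetaUnit hO ^ y) (expB L O δ f) := by
  refine HahnSeries.ext (funext fun i => Subtype.ext ?_)
  rw [coe_expB_coeff, ← comp_comp, expansion_comp_T_zpow (hasExp_expansion f.2 δ) y,
    KummerES.twist_coeff, ModularFunctionField.twist_coeff, Subring.coe_mul, coe_expB_coeff,
    ← zpow_mul, ← zpow_mul, coe_zetaUnit_zpow]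

variable (O) in
/-- The expansions at the cusps of `Γ`. -/
def exps {Γ : Subgroup SL(2, ℤ)} (hΓ : Gamma L ≤ Γ) :
    weak Γ L O →+* (SL(2, ℤ) ⧸ Γ → LaurentSeries O) :=
  RingHom.pi fun x => (expB L O x.out⁻¹).comp (Subring.inclusion (weak_mono hΓ le_rfl))

variable {Γ : Subgroup SL(2, ℤ)} {hΓ : Gamma L ≤ Γ}

/-- The expansion at the cusp of a coset. -/
lemma exps_mk (f : weak Γ L O) (g : SL(2, ℤ)) :
    exps O hΓ f (QuotientGroup.mk g) =
      expB L O g⁻¹ (Subring.inclusion (weak_mono hΓ le_rfl) f) := by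
  obtain ⟨⟨γ, hγ⟩, hg⟩ := QuotientGroup.mk_out_eq_mul Γ g
  refine expB_ext ?_
  show comp f.1 (QuotientGroup.mk g : SL(2, ℤ) ⧸ Γ).out⁻¹ = comp f.1 g⁻¹
  rw [hg, mul_inv_rev, ← comp_comp, f.2.2.1 _ (inv_mem hγ)]

/-- The translation of the parameter on cusps. -/
def transl (Γ : Subgroup SL(2, ℤ)) : Equiv.Perm (SL(2, ℤ) ⧸ Γ) :=
  MulAction.toPerm (ModularGroup.T⁻¹ : SL(2, ℤ))

/-- Translation is multiplication by `T⁻¹`. -/
@[simp] lemma transl_apply (x : SL(2, ℤ) ⧸ Γ) : transl Γ x = ModularGroup.T⁻¹ • x := rfl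

/-- Iterated translation is multiplication by a power of `T⁻¹`. -/
lemma transl_iterate (x : SL(2, ℤ) ⧸ Γ) (j : ℕ) :
    (⇑(transl Γ))^[j] x = (ModularGroup.T⁻¹ : SL(2, ℤ)) ^ j • x := by
  induction j with
  | zero => simp
  | succ j ih => rw [Function.iterate_succ_apply', ih, transl_apply, pow_succ', mul_smul]

lemma exps_T_zpow (hO : zetaRing L ≤ O) (f : weak Γ L O) (x : SL(2, ℤ) ⧸ Γ) (z : ℤ) :
    exps O hΓ f (ModularGroup.T ^ z • x) = twist (zetaUnit hO ^ (-z)) (exps O hΓ f x) := by
  induction x using QuotientGroup.induction_on with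
  | H g =>
    rw [MulAction.Quotient.smul_mk, exps_mk, exps_mk, smul_eq_mul, mul_inv_rev, ← zpow_neg,
      expB_mul_T_zpow hO]

/-- The expansions form a family compatible with translation. -/
lemma exps_fam (hO : zetaRing L ≤ O) (f : weak Γ L O) :
    IsFam (transl Γ) (zetaUnit hO) (exps O hΓ f) := fun x => by
  have := exps_T_zpow (hΓ := hΓ) hO f x (-1)
  rwa [zpow_neg_one, neg_neg, zpow_one] at this

/-- Constants expand to constants at every cusp. -/
lemma exps_const {c : ℂ} (hc : c ∈ O) :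
    exps O hΓ ⟨fun _ => c, const_mem_weak hc⟩ = fun _ => HahnSeries.C (⟨c, hc⟩ : O) :=
  funext fun _ => expB_constL c hc _

lemma pow_T_mem_Gamma (N : ℕ) {j : ℤ} (h : (N : ℤ) ∣ j) : ModularGroup.T ^ j ∈ Gamma N := by
  obtain ⟨i, rfl⟩ := h
  rw [Gamma_mem, ModularGroup.coe_T_zpow]
  simp

/-- Translation by a multiple of the level fixes the cusps. -/
lemma T_zpow_smul_of_dvd {N : ℕ} (hN : Gamma N ≤ Γ) {j : ℤ} (h : (N : ℤ) ∣ j)
    (x : SL(2, ℤ) ⧸ Γ) : ModularGroup.T ^ j • x = x := by
  induction x using QuotientGroup.induction_on with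
  | H g =>
    rw [MulAction.Quotient.smul_mk, QuotientGroup.eq, smul_eq_mul]
    refine hN ?_
    have := (Gamma_normal N).conj_mem _ (inv_mem (pow_T_mem_Gamma N h)) g⁻¹
    simpa [mul_assoc] using this

/-- `Γ(2)` is stable under negation. -/
lemma neg_mem_Gamma_two {γ : SL(2, ℤ)} (h : γ ∈ Gamma 2) : -γ ∈ Gamma 2 := by
  have e : (-1 : ZMod 2) = 1 := rfl
  rw [Gamma_mem] at h ⊢
  simp [Matrix.SpecialLinearGroup.coe_neg, h.1, h.2.1, h.2.2.1, h.2.2.2, e]

omit [NeZero L] in
lemma isUnit_of_unitIn (hO : zetaRing L ≤ O) {x : ℂ} (h : UnitIn (zetaRing L) x) {y : O}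
    (hy : (y : ℂ) = x) : IsUnit y := by
  obtain ⟨-, u, hu, hxu⟩ := h
  exact IsUnit.of_mul_eq_one ⟨u, hO hu⟩ (Subtype.ext (by simpa [hy] using hxu))

section chart

variable (C : Chart 2 L) (hO : zetaRing L ≤ O)

include C in
/-- The level of a chart of level two is even. -/
lemma two_dvd_level : 2 ∣ L := ⟨C.e, C.hL.trans (mul_comm _ _)⟩

/-- The cusps of level two. -/
abbrev Line : Type := SL(2, ℤ) ⧸ Gamma 2

/-- The expansions at the cusps of level two. -/
def expsLine : weak (Gamma 2) L O →+* (Line → LaurentSeries O) :=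
  exps O (Gamma_le_of_dvd (two_dvd_level C))

/-- The coordinate as an element of the ring of level two. -/
def chartT : weak (Gamma 2) L O := ⟨C.t, Chart.weakB hO C.t_mem⟩

/-- The functions `1/(t - val x)` and `t` in the ring of level two. -/
def chartU (i : Option (Fin 2)) : weak (Gamma 2) L O := ⟨C.u i, Chart.weakB hO (C.u_mem i)⟩

/-- The cusp of a representative. -/
def repPt (i : Option (Fin 2)) : Line := QuotientGroup.mk (C.rep i)⁻¹

/-- The expansion at the representative of a class is the analytic one. -/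
lemma coe_expsLine_repPt (f : weak (Gamma 2) L O) (i : Option (Fin 2)) (j : ℤ) :
    (((expsLine C f (repPt C i)).coeff j : O) : ℂ) =
      (expansion L (comp f.1 (C.rep i))).coeff j := by
  rw [expsLine, repPt, exps_mk, inv_inv, coe_expB_coeff]
  rfl

/-- Every cusp of level two is a translate of a representative. -/
lemma exists_class (y : Line) : ∃ (i : Option (Fin 2)) (z : ℤ),
    y = ModularGroup.T ^ z • repPt C i := by
  induction y using QuotientGroup.induction_on with
  | H g =>
    obtain ⟨i, z, γ, hγ, hg⟩ := C.cover g⁻¹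
    refine ⟨i, -z, ?_⟩
    rw [repPt, MulAction.Quotient.smul_mk, smul_eq_mul]
    obtain ⟨δ, hδ, hg'⟩ : ∃ δ ∈ Gamma 2, g⁻¹ = δ * C.rep i * ModularGroup.T ^ z := by
      rcases hg with h | h
      · exact ⟨γ, hγ, h⟩
      · exact ⟨-γ, neg_mem_Gamma_two hγ, by rw [h, neg_mul, neg_mul]; rfl⟩
    rw [QuotientGroup.eq]
    have hg2 : g = (ModularGroup.T ^ z)⁻¹ * (C.rep i)⁻¹ * δ⁻¹ := by
      rw [← inv_inj, hg']; group
    rw [hg2]
    convert hδ using 1
    group

/-- The class of a cusp of level two. -/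
def classOf (y : Line) : Option (Fin 2) := (exists_class C y).choose

lemma classOf_spec (y : Line) : ∃ z : ℤ, y = ModularGroup.T ^ z • repPt C (classOf C y) :=
  (exists_class C y).choose_spec

lemma expsLine_T (f : weak (Gamma 2) L O) (y : Line) (z : ℤ) :
    expsLine C f (ModularGroup.T ^ z • y) = twist (zetaUnit hO ^ (-z)) (expsLine C f y) :=
  exps_T_zpow hO f y z

include hO in
lemma coeff_unit_iff {i : Option (Fin 2)} {y : Line} (f : weak (Gamma 2) L O)
    (hy : ∃ z : ℤ, y = ModularGroup.T ^ z • repPt C i) (j : ℤ) :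
    IsUnit ((expsLine C f y).coeff j) ↔ IsUnit ((expsLine C f (repPt C i)).coeff j) := by
  obtain ⟨z, rfl⟩ := hy
  rw [expsLine_T C hO, ModularFunctionField.twist_coeff]
  exact IsUnit.mul_iff.trans (and_iff_right (Units.isUnit _))

include hO in
lemma lowBd_iff {i : Option (Fin 2)} {y : Line} (f : weak (Gamma 2) L O)
    (hy : ∃ z : ℤ, y = ModularGroup.T ^ z • repPt C i) (d : ℤ) :
    LowBd d (expsLine C f y) ↔ LowBd d (expsLine C f (repPt C i)) := by
  obtain ⟨z, rfl⟩ := hy
  rw [expsLine_T C hO]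
  refine ⟨fun h j hj => ?_, fun h => h.twist _⟩
  simpa using h j hj

lemma pole_self (i : Option (Fin 2)) :
    IsUnit ((expsLine C (chartU C hO i) (repPt C i)).coeff (-(C.e : ℤ))) ∧
      LowBd (-(C.e : ℤ)) (expsLine C (chartU C hO i) (repPt C i)) :=
  ⟨isUnit_of_unitIn hO (C.u_pole i).lead (coe_expsLine_repPt C _ i _),
    fun j hj => Subtype.ext ((coe_expsLine_repPt C _ i j).trans ((C.u_pole i).below j hj))⟩

lemma pole_other {i j : Option (Fin 2)} (h : i ≠ j) :
    LowBd 0 (expsLine C (chartU C hO i) (repPt C j)) :=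
  fun k hk => Subtype.ext ((coe_expsLine_repPt C _ j k).trans (C.u_reg h k hk))

include hO in
/-- Uniqueness of the class. -/
lemma classOf_eq {y : Line} {i : Option (Fin 2)}
    (hy : ∃ z : ℤ, y = ModularGroup.T ^ z • repPt C i) : classOf C y = i := by
  by_contra h
  have h1 := ((lowBd_iff C hO (chartU C hO i) (classOf_spec C y) 0).mpr
    (pole_other C hO (Ne.symm h))) (-(C.e : ℤ)) (by have := C.e_pos; omega)
  have h2 := (coeff_unit_iff C hO (chartU C hO i) hy (-(C.e : ℤ))).mpr (pole_self C hO i).1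
  rw [h1] at h2
  exact not_isUnit_zero h2

lemma T_smul_repPt_ne (i : Option (Fin 2)) :
    ModularGroup.T ^ (1 : ℤ) • repPt C i ≠ repPt C i := by
  have hzle : zetaRing L ≤ zetaRing L := le_rfl
  intro h
  have h1 := expsLine_T C hzle (chartU C hzle i) (repPt C i) 1
  rw [h] at h1
  have h2 := congrArg (fun s : LaurentSeries (zetaRing L) =>
    ((s.coeff (-(C.e : ℤ)) : zetaRing L) : ℂ)) h1
  simp only [ModularFunctionField.twist_coeff, Subring.coe_mul] at h2
  set a := (((expsLine C (chartU C hzle i) (repPt C i)).coeff (-(C.e : ℤ)) : zetaRing L) : ℂ)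
  have ha : a ≠ 0 := fun h0 =>
    (pole_self C hzle i).1.ne_zero (Subtype.ext h0)
  rw [← zpow_mul, coe_zetaUnit_zpow] at h2
  have h3 : zetaC L ^ (-1 * -(C.e : ℤ)) = 1 :=
    mul_right_cancel₀ ha (by rw [one_mul]; exact h2.symm)
  rw [(isPrimitiveRoot_zetaC L).zpow_eq_one_iff_dvd, neg_one_mul, neg_neg] at h3
  have := Int.le_of_dvd (by exact_mod_cast C.e_pos) h3
  have := C.e_pos
  have := C.hL
  omega

/-- Each class of cusps of level two has two members. -/
lemma card_class (i : Option (Fin 2)) : Nat.card {y : Line // classOf C y = i} = 2 := by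
  have hzle : zetaRing L ≤ zetaRing L := le_rfl
  let f : Fin 2 → {y : Line // classOf C y = i} := fun j =>
    ⟨ModularGroup.T ^ (j : ℤ) • repPt C i, classOf_eq C hzle ⟨_, rfl⟩⟩
  have hf : Function.Bijective f := by
    refine ⟨fun a b hab => ?_, fun y => ?_⟩
    · have h := congrArg Subtype.val hab
      fin_cases a <;> fin_cases b <;>
        simp only [f, Fin.zero_eta, Fin.mk_one, Nat.cast_zero,
          Nat.cast_one, zpow_zero, one_smul] at h ⊢
      · exact absurd h.symm (T_smul_repPt_ne C i)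
      · exact absurd h (T_smul_repPt_ne C i)
    · obtain ⟨y, hy⟩ := y
      obtain ⟨z, hz⟩ := classOf_spec C y
      rw [hy] at hz
      refine ⟨⟨(z % 2).toNat, by omega⟩, Subtype.ext ?_⟩
      simp only [f]
      rw [Int.toNat_of_nonneg (Int.emod_nonneg z two_ne_zero), hz,
        ← T_zpow_smul_of_dvd (N := 2) le_rfl (j := z / 2 * 2) ⟨z / 2, by push_cast; ring⟩
          (ModularGroup.T ^ (z % 2) • repPt C i), ← mul_smul, ← zpow_add]
      congr 2
      omega
  rw [← Nat.card_eq_of_bijective f hf, Nat.card_fin]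

/-- The line of a chart of level two. -/
def chartLine : LineData O Line (Fin 2) where
  T := transl (Gamma 2)
  M := 2
  m := C.e
  L := L
  L_eq := C.hL
  periodic y := by
    rw [transl_iterate, inv_pow, ← zpow_natCast, ← zpow_neg]
    exact T_zpow_smul_of_dvd le_rfl ⟨-1, by norm_num⟩ y
  L_unit := isUnit_natCast_level hO
  ζ := zetaUnit hO
  prim := isPrimitiveRoot_zetaUnit hO
  κ := classOf C
  κ_T y := by
    obtain ⟨z, hz⟩ := classOf_spec C y
    refine classOf_eq C hO ⟨-1 + z, ?_⟩
    rw [transl_apply, zpow_add, mul_smul, ← hz, zpow_neg_one]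
  orbit y y' h := by
    obtain ⟨z, hz⟩ := classOf_spec C y
    obtain ⟨z', hz'⟩ := classOf_spec C y'
    refine ⟨((z - z') % 2).toNat, ?_⟩
    rw [transl_iterate, inv_pow, ← zpow_natCast, ← zpow_neg,
      Int.toNat_of_nonneg (Int.emod_nonneg _ two_ne_zero), hz, hz', h, ← mul_smul, ← zpow_add,
      show -((z - z') % 2) + z = z' + ((z - z') / 2 * 2) by omega, zpow_add, mul_smul,
      T_zpow_smul_of_dvd (N := 2) le_rfl (j := (z - z') / 2 * 2) ⟨(z - z') / 2, by push_cast; ring⟩]
  n := 2
  n_unit := by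
    have h := isUnit_natCast_level (L := L) hO
    rw [C.hL, Nat.cast_mul] at h
    exact isUnit_of_mul_isUnit_right h
  card_fibre := card_class C
  val x := ⟨C.val x, hO (C.val_mem x)⟩
  val_sub x x' hne := by
    have h1 := congrArg (fun s : LaurentSeries ℂ => s.coeff 0) (C.tsub_mul_inv x' (C.δ x))
    have hd : ∀ i < 0, (expansion L (comp (C.tsub x') (C.δ x))).coeff i = 0 := fun i hi => by
      rw [C.expansion_tsub, HahnSeries.coeff_sub, C.t_reg x i hi,
        HahnSeries.coeff_single_of_ne hi.ne, sub_zero]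
    have h2 := coeff_mul_low (a := 0) (b := 0)
      (x := expansion L (comp (C.tsub x') (C.δ x))) hd
      (C.inv_reg x' (some x) (fun e => hne (by simpa using e)))
    rw [add_zero] at h2
    simp only [Option.elim_some] at h2
    simp only [HahnSeries.coeff_one, if_true, h2] at h1
    rw [C.expansion_tsub, HahnSeries.coeff_sub, C.t_val, HahnSeries.coeff_single_same] at h1
    exact IsUnit.of_mul_eq_one ⟨_, hO (expansion_mem (C.inv_mem x') (C.δ x) 0)⟩ (Subtype.ext h1)
  t := expsLine C (chartT C hO)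
  t_fam := exps_fam hO _
  t_none y hy := by
    obtain ⟨z, hz⟩ := classOf_spec C y
    rw [hy] at hz
    exact ⟨(lowBd_iff C hO _ ⟨z, hz⟩ _).mpr (pole_self C hO none).2,
      (coeff_unit_iff C hO _ ⟨z, hz⟩ _).mpr (pole_self C hO none).1⟩
  t_some y x hy := by
    obtain ⟨z, hz⟩ := classOf_spec C y
    rw [hy] at hz
    have he := C.e_pos
    refine ⟨(lowBd_iff C hO _ ⟨z, hz⟩ _).mpr fun j hj =>
      Subtype.ext ((coe_expsLine_repPt C _ (some x) j).trans (C.t_reg x j hj)), ?_, ?_⟩
    · rw [hz, expsLine_T C hO, coeff_zero_twist]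
      exact Subtype.ext ((coe_expsLine_repPt C _ (some x) 0).trans (C.t_val x))
    · refine (coeff_unit_iff C hO _ ⟨z, hz⟩ _).mpr (isUnit_of_unitIn hO (C.tsub_zero x).lead ?_)
      rw [coe_expsLine_repPt, C.expansion_tsub, HahnSeries.coeff_sub,
        HahnSeries.coeff_single_of_ne (by omega), sub_zero]
      rfl
  u x := expsLine C (chartU C hO (some x))
  u_mul x y := by
    rw [← congrFun (exps_const (hΓ := Gamma_le_of_dvd (two_dvd_level C)) (hO (C.val_mem x))) y,
      expsLine, ← Pi.sub_apply, ← map_sub, ← Pi.mul_apply, ← map_mul]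
    have : (chartT C hO - ⟨fun _ => C.val x, const_mem_weak (hO (C.val_mem x))⟩) *
        chartU C hO (some x) = 1 := Subtype.ext (C.inv_mul x)
    rw [this, map_one, Pi.one_apply]

end chart

end Fermat.Agent.AtP.DiffLift
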