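import Fermat.Agent.KummerES.RatioExp
import Fermat.Agent.KummerES.BaseConst
import Fermat.Agent.ModularFunctionField.Twist

/-!
# Derivatives of Laurent expansions

The expansion of `D f = (2πi)⁻¹ df/dτ` is `θ` of the expansion of `f`, divided by `L`.
-/

set_option autoImplicit false

noncomputable section

open UpperHalfPlane Filter Topology Derivative
open scoped Real MatrixGroups Manifold

namespace Fermat.Agent.AtP.DiffLift

open Fermat.Agent.KummerES
open Fermat.Agent.ModularFunctionField (theta theta_mul)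

variable {L : ℕ} [NeZero L] {f : ℍ → ℂ} {s : LaurentSeries ℂ}

/-- Derivative of an expansion without negative powers. -/
lemma hasExp_deriv_of_nonneg (h : HasExp L f s) (hs : ∀ i < 0, s.coeff i = 0) :
    HasExp L (normalizedDerivOfComplex f) (HahnSeries.C ((L : ℂ)⁻¹) * theta s) := by
  have hL : (0 : ℝ) < L := by exact_mod_cast Nat.pos_of_ne_zero (NeZero.ne L)
  obtain ⟨G, hG, hGf, -⟩ := h.exists_ball hs
  -- Taylor coefficients
  set c : ℕ → ℂ := fun n => (↑n.factorial)⁻¹ * iteratedDeriv n G 0 with hc
  have hc' : ∀ n : ℕ, c n = s.coeff n := by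
    have hd : HasExp L f (HahnSeries.ofPowerSeries ℤ ℂ (PowerSeries.mk c)) := by
      intro τ
      refine ((Nat.cast_injective (R := ℤ)).hasSum_iff ?_).mp ?_
      · intro i hi
        rw [HahnSeries.ofPowerSeries_apply, HahnSeries.embDomain_of_notMem_range, zero_mul]
        rintro ⟨n, hn⟩
        exact hi ⟨n, by simpa using hn⟩
      · have := Complex.hasSum_taylorSeries_on_ball hG
          (mem_ball_zero_iff.mpr (norm_qL_lt_one L τ))
        simp only [sub_zero, smul_eq_mul, hGf] at this
        refine this.congr_fun fun n => ?_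
        simp [c, HahnSeries.ofPowerSeries_apply_coeff]
        ring
    intro n
    rw [h.series_eq hd, HahnSeries.ofPowerSeries_apply_coeff, PowerSeries.coeff_mk]
  intro τ
  have hmem : qL L τ ∈ Metric.ball (0 : ℂ) 1 := mem_ball_zero_iff.mpr (norm_qL_lt_one L τ)
  have hG' : DifferentiableOn ℂ (deriv G) (Metric.ball 0 1) := hG.deriv Metric.isOpen_ball
  have hsum := Complex.hasSum_taylorSeries_on_ball hG' hmem
  simp only [sub_zero, smul_eq_mul, ← iteratedDeriv_succ'] at hsum
  have hD : normalizedDerivOfComplex f τ = deriv G (qL L τ) * qL L τ / L := by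
    have hq : HasDerivAt (Function.Periodic.qParam (L : ℝ)) (qL L τ * (2 * π * Complex.I / L))
        (τ : ℂ) := by
      have := (((hasDerivAt_id (τ : ℂ)).const_mul (2 * π * Complex.I)).div_const
        ((L : ℝ) : ℂ)).cexp
      have hfun : Function.Periodic.qParam (L : ℝ) =
          fun z : ℂ => Complex.exp (2 * π * Complex.I * z / ((L : ℝ) : ℂ)) := rfl
      rw [hfun]
      simpa [qL, Function.Periodic.qParam, mul_one] using this
    have hGd : HasDerivAt G (deriv G (qL L τ)) (qL L τ) :=
      (hG.differentiableAt (Metric.isOpen_ball.mem_nhds hmem)).hasDerivAt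
    have hcomp := hGd.comp (τ : ℂ) hq
    have heq : f ∘ ofComplex =ᶠ[𝓝 (τ : ℂ)] G ∘ Function.Periodic.qParam (L : ℝ) := by
      filter_upwards [isOpen_upperHalfPlaneSet.mem_nhds τ.im_pos] with z hz
      rw [Function.comp_apply, ofComplex_apply_of_im_pos hz, ← hGf]
      rfl
    rw [normalizedDerivOfComplex, (hcomp.congr_of_eventuallyEq heq).deriv]
    have : (L : ℂ) ≠ 0 := by exact_mod_cast NeZero.ne L
    field_simp
  rw [hD]
  refine ((Nat.cast_injective (R := ℤ)).hasSum_iff ?_).mp ?_
  · intro i hi
    have : i < 0 := not_le.mp fun h0 => hi ⟨i.toNat, Int.toNat_of_nonneg h0⟩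
    rw [HahnSeries.C_mul_eq_smul, HahnSeries.coeff_smul, ModularFunctionField.theta_coeff,
      hs i this]
    simp
  · have h1 := (hsum.mul_right (qL L τ)).div_const (L : ℂ)
    rw [← hasSum_nat_add_iff' 1]
    simp only [Finset.range_one, Finset.sum_singleton, Function.comp_apply, Nat.cast_zero,
      HahnSeries.C_mul_eq_smul, HahnSeries.coeff_smul, ModularFunctionField.theta_coeff,
      Int.cast_zero, zero_mul, smul_zero, sub_zero]
    refine h1.congr_fun fun n => ?_
    rw [← hc' (n + 1)]
    simp only [c, Nat.factorial_succ, Nat.cast_mul, mul_inv, smul_eq_mul, zpow_natCast, pow_succ,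
      Int.cast_natCast]
    have : ((n + 1 : ℕ) : ℂ) ≠ 0 := by exact_mod_cast n.succ_ne_zero
    field_simp

/-- Derivative of an expansion. -/
theorem hasExp_deriv (h : HasExp L f s) :
    HasExp L (normalizedDerivOfComplex f) (HahnSeries.C ((L : ℂ)⁻¹) * theta s) := by
  set N := s.order
  set g : ℍ → ℂ := fun τ => qL L τ ^ (-N) * f τ with hg
  set u : LaurentSeries ℂ := HahnSeries.single (-N) 1 * s with hu
  have hgu : HasExp L g u := h.shift (-N)
  have hu0 : ∀ i < 0, u.coeff i = 0 := fun i hi => by
    rw [hu, HahnSeries.coeff_single_mul, one_mul]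
    exact HahnSeries.coeff_eq_zero_of_lt_order (by omega)
  have hfg : f = (fun τ => qL L τ ^ N) * g := by
    funext τ
    simp [hg, zpow_neg, ← mul_assoc, mul_inv_cancel₀ (zpow_ne_zero N (qL_ne_zero L τ))]
  have hsu : s = HahnSeries.single N 1 * u := by
    rw [hu, ← mul_assoc, HahnSeries.single_mul_single, add_neg_cancel, one_mul]
    exact (one_mul s).symm
  have hD : normalizedDerivOfComplex f =
      (fun τ => (N : ℂ) / L * qL L τ ^ N) * g +
        (fun τ => qL L τ ^ N) * normalizedDerivOfComplex g := by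
    funext τ
    rw [hfg, normalizedDerivOfComplex_mul _ _ (mdiff_qL_zpow L N) hgu.mdiff, D_qL_zpow]
  have hsingle : theta (HahnSeries.single N (1 : ℂ)) = HahnSeries.single N (N : ℂ) := by
    ext i
    rcases eq_or_ne i N with rfl | hi <;> simp [*]
  have hser : HahnSeries.C ((L : ℂ)⁻¹) * theta s = HahnSeries.single N ((N : ℂ) / L) * u +
      HahnSeries.single N 1 * (HahnSeries.C ((L : ℂ)⁻¹) * theta u) := by
    rw [hsu, theta_mul, hsingle, mul_add, ← mul_assoc, HahnSeries.C_apply,
      HahnSeries.single_mul_single, zero_add]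
    congr 1
    · rw [div_eq_inv_mul]
    · ring
  rw [hD, hser]
  refine ((HasExp.single (L := L) N _).mul hgu).add ?_
  have := (HasExp.single (L := L) N 1).mul (hasExp_deriv_of_nonneg hgu hu0)
  simp only [one_mul] at this
  exact this

end Fermat.Agent.AtP.DiffLift
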