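import Fermat.Agent.AtP.DiffLiftCover
import Fermat.Agent.AtP.DiffLiftDeriv
import Fermat.Agent.KummerES.LocalGen
import Fermat.Agent.KummerES.SpecialFibre
import Fermat.Prelude.Def_FLTPrelim_Modularity
import Fermat.Prelude.Thm_CongruenceSubgroup_one_mem_strictPeriods_Gamma0

/-!
# Lifting differentials modulo `π` to cusp forms of weight two

A differential `ā θ t̄` on the curve of level `L` modulo `π` which is invariant under `Γ₀(M)` and
regular at all cusps is the reduction of a cusp form of weight `2` for `Γ₀(M)`.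
-/

set_option autoImplicit false

noncomputable section

open UpperHalfPlane CongruenceSubgroup Derivative Filter Topology ModularFormClass
open scoped MatrixGroups ModularForm Manifold

namespace Fermat.Agent.AtP.DiffLift

open Fermat.Agent.KummerES
open ModularCurve (coeffMap)
open Fermat.Agent.ModularFunctionField (theta coeffMap_theta)

variable {L M : ℕ} [NeZero L] {O : Subring ℂ} (C : Chart 2 L)

/-- The expansion of `f θ t` at the cusp `δ ∞`. -/
def diffExp (hO : zetaRing L ≤ O) (δ : SL(2, ℤ)) (f : LRing L O) : LaurentSeries O :=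
  expB L O δ f * theta (expB L O δ (chartTL C hO))

/-- The weight two function `(f ∘ δ) D (t ∘ δ)`. -/
def diffFun (f : ℍ → ℂ) (δ : SL(2, ℤ)) : ℍ → ℂ :=
  comp f δ * normalizedDerivOfComplex (comp C.t δ)

/-- The weight two action moves `diffFun` by right translation. -/
lemma diffFun_slash (f : ℍ → ℂ) (δ γ : SL(2, ℤ)) :
    (diffFun C f δ) ∣[(2 : ℤ)] γ = diffFun C f (δ * γ) := by
  funext τ
  rw [ModularForm.SL_slash_apply]
  simp only [diffFun, Pi.mul_apply]
  rw [deriv_smul (mdiff_comp C.t_mem.1 δ) γ τ, comp_comp, show (comp f δ) (γ • τ) =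
    comp (comp f δ) γ τ from rfl, comp_comp]
  have hd := denom_ne_zero γ τ
  rw [zpow_neg, show (2 : ℤ) = ((2 : ℕ) : ℤ) from rfl, zpow_natCast]
  field_simp

/-- The expansion of `diffFun` is `diffExp` divided by `L`. -/
lemma hasExp_diffFun (hO : zetaRing L ≤ O) (δ : SL(2, ℤ)) (f : LRing L O) :
    HasExp L (diffFun C f.1 δ)
      (HahnSeries.C ((L : ℂ)⁻¹) * coeffMap O.subtype (diffExp C hO δ f)) := by
  have h1 := hasExp_expansion f.2 δ
  have h2 := hasExp_deriv (hasExp_expansion (chartTL C hO).2 δ)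
  have e : HahnSeries.C ((L : ℂ)⁻¹) * coeffMap O.subtype (diffExp C hO δ f) =
      expansion L (comp f.1 δ) *
        (HahnSeries.C ((L : ℂ)⁻¹) * theta (expansion L (comp (chartTL C hO).1 δ))) := by
    rw [diffExp, map_mul, coeffMap_theta, coeffMap_expB, coeffMap_expB, expAt_apply, expAt_apply]
    ring
  rw [e]
  exact h1.mul h2

/-- The coordinate is invariant under `Γ(2)`. -/
lemma comp_t_mul {γ : SL(2, ℤ)} (hγ : γ ∈ Gamma 2) (δ : SL(2, ℤ)) :
    comp C.t (γ * δ) = comp C.t δ := by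
  rw [← comp_comp, C.t_mem.2.1 γ hγ]

/-- `θ t` does not vanish modulo `π`. -/
lemma coeffMap_theta_t_ne_zero {k : Type*} [Field k] (red : O →+* k) (hO : zetaRing L ≤ O)
    (δ : SL(2, ℤ)) : coeffMap red (theta (expB L O δ (chartTL C hO))) ≠ 0 := by
  have hw := (chartLine C hO).w_lead (y := QuotientGroup.mk δ⁻¹) rfl
  have e : (chartLine C hO).w (QuotientGroup.mk δ⁻¹) = theta (expB L O δ (chartTL C hO)) := by
    show theta (expsLine C (chartT C hO) (QuotientGroup.mk δ⁻¹)) = _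
    rw [expsLine, exps_mk, inv_inv]
    rfl
  rw [e] at hw
  intro h
  have h1 := hw.2.map red
  rw [← ModularCurve.coeffMap_coeff, h] at h1
  exact not_isUnit_zero h1

include C in
/-- There are six cusps of level two. -/
lemma natCard_line : Nat.card Line = 6 := by
  classical
  have : (Gamma 2).FiniteIndex := Subgroup.finiteIndex_of_le (Gamma_le_of_dvd (two_dvd_level C))
  let : Fintype Line := Subgroup.fintypeQuotientOfFiniteIndex
  rw [Nat.card_congr (Equiv.sigmaFiberEquiv (classOf C)).symm, Nat.card_sigma,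
    Finset.sum_congr rfl fun i _ => card_class C i]
  simp

/-- `Γ(2)` has index two in `Γ₀(2)`. -/
lemma relIndex_Gamma0_two : (Gamma 2).relIndex (Gamma0 2) = 2 := by
  have hz : ∀ a b c d : ZMod 2, a * d - b * c = 1 → c = 0 → a = 1 ∧ d = 1 ∧ (b = 0 ∨ b = 1) := by
    decide
  refine Subgroup.relIndex_eq_two_iff.mpr ⟨ModularGroup.T, ?_, fun b hb => ?_⟩
  · simp [Gamma0_mem, ModularGroup.coe_T]
  · rw [Gamma0_mem] at hb
    have hdet : (b 0 0 : ZMod 2) * (b 1 1 : ZMod 2) - (b 0 1 : ZMod 2) * (b 1 0 : ZMod 2) = 1 := by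
      have := congrArg (Int.cast (R := ZMod 2)) b.det_coe
      rw [Matrix.det_fin_two] at this
      simpa using this
    obtain ⟨h1, h2, h3⟩ := hz _ _ _ _ hdet hb
    have e : (1 : ZMod 2) + 1 = 0 := rfl
    rcases h3 with h3 | h3
    · exact Or.inr ⟨Gamma_mem.mpr ⟨h1, h3, hb, h2⟩, fun h => by
        have := (Gamma_mem.mp h).2.1
        simp [Matrix.SpecialLinearGroup.coe_mul, ModularGroup.coe_T, Matrix.mul_apply,
          Fin.sum_univ_two, h1, h3] at this⟩
    · refine Or.inl ⟨Gamma_mem.mpr ?_, fun h => by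
        have := (Gamma_mem.mp h).2.1
        simp [h3] at this⟩
      simp [Matrix.SpecialLinearGroup.coe_mul, ModularGroup.coe_T, Matrix.mul_apply,
        Fin.sum_univ_two, h1, h2, h3, hb, e]

include C in
/-- The number of cusp translates used in averaging is invertible. -/
lemma isUnit_natCast_relIndex {M : ℕ} (hO : zetaRing L ≤ O) (hidx : 2 ∣ M ∨ IsUnit (6 : O)) :
    IsUnit (((Gamma 2).relIndex (Gamma0 M) : ℕ) : O) := by
  have := Gamma_normal 2
  rcases hidx with h | h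
  · have hle : Gamma0 M ≤ Gamma0 2 := fun γ hγ => by
      rw [Gamma0_mem] at hγ ⊢
      rw [← map_intCast (ZMod.castHom h (ZMod 2)), hγ, map_zero]
    have hdvd : (Gamma 2).relIndex (Gamma0 M) ∣ 2 := by
      have h2 := relIndex_Gamma0_two
      have h3 := Subgroup.relIndex_subgroupOf (H := Gamma 2) hle
      have : ((Gamma 2).subgroupOf (Gamma0 2)).Normal := inferInstance
      have h4 : ((Gamma 2).subgroupOf (Gamma0 2)).relIndex ((Gamma0 M).subgroupOf (Gamma0 2)) ∣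
          ((Gamma 2).subgroupOf (Gamma0 2)).index := Subgroup.relIndex_dvd_index_of_normal _ _
      rw [h3] at h4
      rw [Subgroup.relIndex] at h2
      rwa [h2] at h4
    obtain ⟨e, he⟩ := hdvd
    have hL : IsUnit ((2 : ℕ) : O) := by
      obtain ⟨c, hc⟩ := two_dvd_level C
      have hu := isUnit_natCast_level (L := L) hO
      rw [hc, Nat.cast_mul] at hu
      exact isUnit_of_mul_isUnit_left hu
    rw [he, Nat.cast_mul] at hL
    exact isUnit_of_mul_isUnit_left hL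
  · have hdvd : (Gamma 2).relIndex (Gamma0 M) ∣ 6 := by
      rw [← natCard_line C, ← Subgroup.index_eq_card]
      exact Subgroup.relIndex_dvd_index_of_normal _ _
    obtain ⟨e, he⟩ := hdvd
    have h6 : (((Gamma 2).relIndex (Gamma0 M) : ℕ) : O) * (e : O) = 6 := by
      rw [← Nat.cast_mul, ← he]; norm_num
    exact isUnit_of_mul_isUnit_left (h6 ▸ h)

/-- `-1` lies in `Γ(2) ∩ Γ₀(M)`. -/
lemma one_zero_mem {M : ℕ} : (-1 : SL(2, ℤ)) ∈ Gamma 2 ⊓ Gamma0 M :=
  ⟨neg_mem_Gamma_two (one_mem _), by simp [Gamma0_mem]⟩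

omit [NeZero L] in
/-- `Γ(L) ≤ Γ(2) ∩ Γ₀(M)` for `2 ∣ L` and `M ∣ L`. -/
lemma Gamma_le_inf {M : ℕ} (h2 : 2 ∣ L) (hML : M ∣ L) : Gamma L ≤ Gamma 2 ⊓ Gamma0 M :=
  le_inf (Gamma_le_of_dvd h2) fun γ hγ => by
    have h := Gamma_le_of_dvd hML hγ
    rw [Gamma_mem] at h
    exact Gamma0_mem.mpr h.2.2.1

/-- A family of translates with integral expansions vanishing at all cusps, whose member at `1` is
invariant under `Γ₀(M)`, is a cusp form. -/
theorem exists_cuspForm_of_family [NeZero M] (G : SL(2, ℤ) → ℍ → ℂ)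
    (ser : SL(2, ℤ) → LaurentSeries O)
    (hG : ∀ δ, HasExp L (G δ) (coeffMap O.subtype (ser δ))) (hser : ∀ δ, LowBd 1 (ser δ))
    (hslash : ∀ δ, (G 1) ∣[(2 : ℤ)] δ = G δ) (hGinv : ∀ γ ∈ Gamma0 M, G γ = G 1) :
    ∃ F : CuspForm (Gamma0 M) 2, ∀ n : ℕ, qCoeff F n = (ser 1).coeff ((L : ℤ) * n) := by
  have hzero : ∀ δ, IsZeroAtImInfty (G δ) := fun δ => by
    have h := (hG δ).tendsto_atImInfty fun i hi => by simp [hser δ i (by omega)]
    rw [show (coeffMap O.subtype (ser δ)).coeff 0 = 0 by simp [hser δ 0 zero_lt_one]] at h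
    exact h
  let F : CuspForm (Gamma0 M) 2 :=
    { toFun := G 1
      slash_action_eq' := fun g hg => by
        obtain ⟨γ, hγ, rfl⟩ := Subgroup.mem_map.mp hg
        exact (hslash γ).trans (hGinv γ hγ)
      holo' := (hG 1).mdiff
      zero_at_cusps' := fun {c} hc => by
        rw [Subgroup.IsArithmetic.isCusp_iff_isCusp_SL2Z] at hc
        rw [OnePoint.isZeroAt_iff_forall_SL2Z hc]
        intro γ _
        rw [hslash]
        exact hzero γ }
  refine ⟨F, fun n => ?_⟩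
  have h1 := one_mem_strictPeriods_Gamma0 M
  have : Fact (IsCusp OnePoint.infty
      (Subgroup.map (Matrix.SpecialLinearGroup.mapGL ℝ) (Gamma0 M))) :=
    ⟨Subgroup.isCusp_of_mem_strictPeriods one_pos h1⟩
  have hq : HasExp 1 ⇑F (HahnSeries.ofPowerSeries ℤ ℂ (qExpansion 1 ⇑F)) := by
    intro τ
    refine ((Nat.cast_injective (R := ℤ)).hasSum_iff ?_).mp ?_
    · intro i hi
      rw [HahnSeries.ofPowerSeries_apply, HahnSeries.embDomain_of_notMem_range, zero_mul]
      rintro ⟨m, hm⟩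
      exact hi ⟨m, by simpa using hm⟩
    · refine (ModularForm.hasSum_qExpansion F one_pos h1 τ).congr_fun fun m => ?_
      simp [HahnSeries.ofPowerSeries_apply_coeff, qL]
  have hq' := hq.dilate L
  rw [one_mul] at hq'
  have h := congrArg (fun s : LaurentSeries ℂ => s.coeff ((L : ℤ) * n))
    ((hG 1).series_eq (f := G 1) hq')
  simp only [ModularCurve.qExpand_coeff_mul, HahnSeries.ofPowerSeries_apply_coeff,
    ModularCurve.coeffMap_coeff, Subring.coe_subtype] at h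
  exact h.symm

variable {k : Type*} [Field k] (red : O →+* k) (π : O)

/-- A function invariant modulo `π` under `Γ` is congruent at all cusps to an invariant one. -/
theorem exists_invariant_congr (H : LevelHyp 2 L O) {Γ : Subgroup SL(2, ℤ)} (h2 : Γ ≤ Gamma 2)
    (a : LRing L O)
    (hainv : ∀ γ ∈ Γ, ∀ δ, coeffMap red (expB L O (γ * δ) a) = coeffMap red (expB L O δ a)) :
    ∃ a₀ : LRing L O, a₀.1 ∈ weak Γ L O ∧
      ∀ δ, coeffMap red (expB L O δ a₀) = coeffMap red (expB L O δ a) := by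
  classical
  let : Fintype (imageGroup L O Γ) := Fintype.ofFinite _
  obtain ⟨z, hz⟩ := exists_trace_one (Γ := Γ) H
  set a₀ : LRing L O := ∑ σ : imageGroup L O Γ, σ • (z * a) with ha₀def
  have ha₀mem : a₀.1 ∈ weak Γ L O := mem_weak_of_fixed h2 a₀ fun σ hσ => by
    rw [ha₀def, Finset.smul_sum]
    exact Fintype.sum_equiv (Equiv.mulLeft ⟨σ, hσ⟩) _ _ fun k => by
      simp only [Equiv.coe_mulLeft, Subgroup.smul_def, mul_smul]
  have ha₀ : ∀ δ, coeffMap red (expB L O δ a₀) = coeffMap red (expB L O δ a) := by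
    intro δ
    have hterm : ∀ σ : imageGroup L O Γ, coeffMap red (expB L O δ (σ • (z * a))) =
        coeffMap red (expB L O δ (σ • z)) * coeffMap red (expB L O δ a) := by
      intro σ
      obtain ⟨γ, hγ, hσγ⟩ := σ.2
      have e : expB L O δ (σ • a) = expB L O (γ⁻¹ * δ) a := by
        refine expB_ext ?_
        show comp ((σ.1.1 : RingAut (weak (Gamma L) L O)) a).1 δ = _
        rw [show (σ.1.1 : RingAut (weak (Gamma L) L O)) = actAut L O γ from hσγ.symm, coe_actAut,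
          comp_comp]
      rw [smul_mul', map_mul, map_mul, e, hainv γ⁻¹ (inv_mem hγ) δ]
    rw [ha₀def, map_sum, map_sum, Finset.sum_congr rfl fun σ _ => hterm σ, ← Finset.sum_mul,
      ← map_sum, ← map_sum, hz, map_one, map_one, one_mul]
  exact ⟨a₀, ha₀mem, ha₀⟩

/-- **Prescribed polar parts.** The differentials `q θ t` on the curve of `Γ` have every admissible
polar part, and their residues sum to zero. -/
theorem exists_polar_weak [IsAlgClosed k] [IsNoetherianRing O] (H : LevelHyp 2 L O) (hπ0 : π ≠ 0)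
    (hsurj : Function.Surjective red) (hker : ∀ r, red r = 0 ↔ π ∣ r)
    (hjac : π ∈ (⊥ : Ideal O).jacobson) (hS : SpecialFibre L O π.1 π.2)
    {Γ : Subgroup SL(2, ℤ)} (hL : Gamma L ≤ Γ) (h2 : Γ ≤ Gamma 2) (hneg : -1 ∈ Γ)
    [Fintype (SL(2, ℤ) ⧸ Γ)] :
    (∀ a : weak Γ L O, res (fun x : SL(2, ℤ) ⧸ Γ =>
        diffExp C H.le x.out⁻¹ (Subring.inclusion (weak_mono hL le_rfl) a)) = 0) ∧
    ∀ v : SL(2, ℤ) ⧸ Γ → LaurentSeries O, IsFam (transl Γ) (zetaUnit H.le) v →
      (∀ x i, 0 < i → (v x).coeff i = 0) → res v = 0 →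
      ∃ q : weak Γ L O, ∀ (δ : SL(2, ℤ)) (i : ℤ), i ≤ 0 →
        (diffExp C H.le δ (Subring.inclusion (weak_mono hL le_rfl) q)).coeff i =
          (v (QuotientGroup.mk δ⁻¹)).coeff i := by
  classical
  have : Γ.FiniteIndex := Subgroup.finiteIndex_of_le hL
  have : (Gamma 2).FiniteIndex := Subgroup.finiteIndex_of_le (Gamma_le_of_dvd (two_dvd_level C))
  let : Fintype Line := line_fintype.some
  obtain ⟨J, _, xc, yc, hmem, hcoord⟩ := exists_coverCoords (Γ := Γ) H h2
  set F := coverFrame H C red hπ0 hsurj hker hjac hS hL h2 hneg xc yc hmem hcoord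
  have hdiff : ∀ (δ : SL(2, ℤ)) (a : weak Γ L O),
      (exps O hL a * F.wX) (QuotientGroup.mk δ⁻¹) =
        diffExp C H.le δ (Subring.inclusion (weak_mono hL le_rfl) a) := fun δ a => by
    rw [Pi.mul_apply, coverFrame_wX, exps_mk, inv_inv]
    rfl
  refine ⟨fun a => ?_, fun v hv hpos hres => ?_⟩
  · rw [← F.res_A_mul_w (a := exps O hL a) ⟨a, rfl⟩]
    refine congrArg res (funext fun x => ?_)
    rw [← hdiff x.out⁻¹ a, inv_inv, QuotientGroup.out_eq']
  · obtain ⟨N, hN⟩ := F.exists_bound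
    obtain ⟨N', hN'⟩ := exists_lowBd_family v
    set K := max N N'
    have hvw : v ∈ F.window K := ⟨hv, fun x i hi => hi.elim
      (fun h => hN' x i (by omega)) (hpos x i), hres⟩
    obtain ⟨_, ⟨q, rfl⟩, -, hq⟩ := F.window_le_polarParts (N := K) (fun f hf => by
      obtain ⟨c, hc, hc'⟩ := hN f hf
      exact ⟨c, hc, fun x => (hc' x).mono (by omega)⟩) hvw
    refine ⟨q, fun δ i hi => ?_⟩
    have h1 := congrArg (fun z : SL(2, ℤ) ⧸ Γ → LaurentSeries O =>
      (z (QuotientGroup.mk δ⁻¹)).coeff i) hq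
    rw [Frame.tail_coeff, if_pos hi, hdiff] at h1
    exact h1

/-- The cosets of `Γ` met by `Γ₀(M)`. -/
abbrev CosetsIn (Γ : Subgroup SL(2, ℤ)) (M : ℕ) : Type :=
  {x : SL(2, ℤ) ⧸ Γ // ∃ g ∈ Gamma0 M, QuotientGroup.mk g = x}

/-- The chosen representative of a coset met by `Γ₀(M)` lies in `Γ₀(M)`. -/
lemma out_mem_Gamma0 {Γ : Subgroup SL(2, ℤ)} (h0 : Γ ≤ Gamma0 M) (x : CosetsIn Γ M) :
    x.1.out ∈ Gamma0 M := by
  obtain ⟨_, g, hg, rfl⟩ := x
  obtain ⟨⟨j, hj⟩, e⟩ := QuotientGroup.mk_out_eq_mul Γ g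
  rw [e]
  exact mul_mem hg (h0 hj)

include C in
/-- `[Γ₀(M) : Γ(2) ∩ Γ₀(M)]` is a unit of `O`. -/
lemma isUnit_card_cosetsIn [NeZero M] (hO : zetaRing L ≤ O) (hidx : 2 ∣ M ∨ IsUnit (6 : O))
    {Γ : Subgroup SL(2, ℤ)} (hΓ : Γ = Gamma 2 ⊓ Gamma0 M) :
    IsUnit ((Nat.card (CosetsIn Γ M) : ℕ) : O) := by
  classical
  have hrel : Nat.card (CosetsIn Γ M) = Γ.relIndex (Gamma0 M) := by
    rw [Subgroup.relIndex, Subgroup.index_eq_card]
    refine (Nat.card_congr (Equiv.ofBijective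
      (fun q => (⟨Quotient.map' Subtype.val (fun g h e => by
          rw [QuotientGroup.leftRel_apply] at e ⊢
          exact e) q, by
        induction q using QuotientGroup.induction_on with
        | H g => exact ⟨g.1, g.2, rfl⟩⟩ : CosetsIn Γ M)) ⟨fun p q e => ?_, fun x => ?_⟩)).symm
    · induction p using QuotientGroup.induction_on with
      | H g =>
        induction q using QuotientGroup.induction_on with
        | H h =>
          have := congrArg Subtype.val e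
          exact QuotientGroup.eq.mpr ((QuotientGroup.eq (s := Γ) (a := g.1) (b := h.1)).mp this)
    · obtain ⟨x, g, hg, rfl⟩ := x
      exact ⟨QuotientGroup.mk ⟨g, hg⟩, rfl⟩
  rw [hrel, hΓ, Subgroup.inf_relIndex_right]
  exact isUnit_natCast_relIndex C hO hidx

/-- A differential invariant under `Γ₀(M)` modulo `π` and regular at the cusps is congruent to one of
level `Γ(2) ∩ Γ₀(M)` vanishing at every cusp. -/
lemma exists_regular_congr [NeZero M] [IsAlgClosed k] [IsNoetherianRing O]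
    (H : LevelHyp 2 L O) (hπ0 : π ≠ 0) (hsurj : Function.Surjective red)
    (hker : ∀ r, red r = 0 ↔ π ∣ r) (hjac : π ∈ (⊥ : Ideal O).jacobson)
    (hS : SpecialFibre L O π.1 π.2) {Γ : Subgroup SL(2, ℤ)} (hΓ : Γ = Gamma 2 ⊓ Gamma0 M)
    (hML : M ∣ L) (a : LRing L O)
    (ha : ∀ (δ : SL(2, ℤ)) (i : ℤ), i ≤ 0 → red ((diffExp C H.le δ a).coeff i) = 0)
    (hinv : ∀ γ ∈ Gamma0 M, ∀ δ,
      coeffMap red (diffExp C H.le (γ * δ) a) = coeffMap red (diffExp C H.le δ a)) :
    ∃ f : LRing L O, (∀ γ ∈ Γ, comp f.1 γ = f.1) ∧ (∀ δ, LowBd 1 (diffExp C H.le δ f)) ∧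
      ∀ δ, coeffMap red (diffExp C H.le δ f) = coeffMap red (diffExp C H.le δ a) := by
  subst hΓ
  set Γ := Gamma 2 ⊓ Gamma0 M
  have hL : Gamma L ≤ Γ := Gamma_le_inf (two_dvd_level C) hML
  have h2 : Γ ≤ Gamma 2 := inf_le_left
  have h0 : Γ ≤ Gamma0 M := inf_le_right
  have hDiv : ∀ γ ∈ Gamma 2, ∀ δ, expB L O (γ * δ) (chartTL C H.le) =
      expB L O δ (chartTL C H.le) := fun γ hγ δ => expB_ext (comp_t_mul C hγ δ)
  -- invariance of the function modulo `π`
  have hainv : ∀ γ ∈ Γ, ∀ δ, coeffMap red (expB L O (γ * δ) a) = coeffMap red (expB L O δ a) := by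
    intro γ hγ δ
    have h := hinv γ (h0 hγ) δ
    simp only [diffExp, map_mul, hDiv γ (h2 hγ)] at h
    exact mul_right_cancel₀ (coeffMap_theta_t_ne_zero C red H.le δ) h
  -- make it invariant
  obtain ⟨a₀, ha₀mem, ha₀⟩ := exists_invariant_congr red H h2 a hainv
  -- lift
  have hL0 : Subring.inclusion (weak_mono hL le_rfl) (⟨a₀.1, ha₀mem⟩ : weak Γ L O) = a₀ :=
    Subtype.ext rfl
  obtain ⟨b, hb⟩ := exists_lift_weak H C red π hπ0 hsurj hker hjac hS hL h2 one_zero_mem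
    ⟨a₀.1, ha₀mem⟩ fun δ i hi => by
      rw [hL0, ← ModularCurve.coeffMap_coeff, map_mul, ha₀ δ, ← map_mul,
        ModularCurve.coeffMap_coeff]
      exact ha δ i hi
  set f : LRing L O := a₀ + constL π.1 π.2 * Subring.inclusion (weak_mono hL le_rfl) b with hf
  have hlow : ∀ δ, LowBd 1 (diffExp C H.le δ f) := fun δ => by
    have := hb δ
    rw [hL0] at this
    exact this
  have hfΓ : ∀ γ ∈ Γ, comp f.1 γ = f.1 := by
    intro γ hγ
    have hb' : comp (Subring.inclusion (weak_mono hL le_rfl) b).1 γ = b.1 := b.2.2.1 γ hγ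
    funext τ
    have e1 := congrFun (ha₀mem.2.1 γ hγ) τ
    have e2 := congrFun hb' τ
    simp only [comp_apply] at e1 e2
    show a₀.1 (γ • τ) + π.1 * (Subring.inclusion (weak_mono hL le_rfl) b).1 (γ • τ) = _
    rw [e1, e2]
    rfl
  have hfred : ∀ δ, coeffMap red (diffExp C H.le δ f) = coeffMap red (diffExp C H.le δ a) := by
    intro δ
    simp only [diffExp, hf, map_add, map_mul, expB_constL, HahnSeries.C_apply,
      ModularCurve.coeffMap_single, show red (⟨π.1, π.2⟩ : O) = 0 from (hker _).mpr dvd_rfl,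
      HahnSeries.single_eq_zero, zero_mul, add_zero, ha₀ δ]
  exact ⟨f, hfΓ, hlow, hfred⟩

/-- The trace to `Γ₀(M)` of a differential of level `Γ` vanishing at every cusp, divided by a unit
`u`, is a cusp form. -/
lemma exists_cuspForm_trace [NeZero M] (hO : zetaRing L ≤ O) {Γ : Subgroup SL(2, ℤ)}
    (h2 : Γ ≤ Gamma 2) [Fintype (CosetsIn Γ M)] (u : Oˣ) (f : LRing L O)
    (hfΓ : ∀ γ ∈ Γ, comp f.1 γ = f.1) (hlow : ∀ δ, LowBd 1 (diffExp C hO δ f)) :
    ∃ F : CuspForm (Gamma0 M) 2, ∀ n : ℕ, qCoeff F n =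
      (HahnSeries.C (↑u⁻¹ : O) *
        ∑ x : CosetsIn Γ M, diffExp C hO (x.1.out⁻¹ * 1) f).coeff ((L : ℤ) * n) := by
  have hout : ∀ g : SL(2, ℤ), ∃ j ∈ Γ, (QuotientGroup.mk g : SL(2, ℤ) ⧸ Γ).out = g * j := fun g =>
    ⟨_, (QuotientGroup.mk_out_eq_mul Γ g).choose.2, (QuotientGroup.mk_out_eq_mul Γ g).choose_spec⟩
  have hfinv : ∀ γ ∈ Γ, ∀ δ, diffFun C f.1 (γ * δ) = diffFun C f.1 δ := fun γ hγ δ => by
    rw [diffFun, diffFun, comp_t_mul C (h2 hγ), ← comp_comp, hfΓ γ hγ]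
  set sc : ℂ := (((↑u⁻¹ : O)) : ℂ) * L with hsc
  let G : SL(2, ℤ) → ℍ → ℂ := fun δ =>
    (fun _ => sc) * ∑ x : CosetsIn Γ M, diffFun C f.1 (x.1.out⁻¹ * δ)
  let ser : SL(2, ℤ) → LaurentSeries O := fun δ =>
    HahnSeries.C (↑u⁻¹ : O) * ∑ x : CosetsIn Γ M, diffExp C hO (x.1.out⁻¹ * δ) f
  have hG : ∀ δ, HasExp L (G δ) (coeffMap O.subtype (ser δ)) := by
    intro δ
    have h := (HasExp.const (L := L) sc).mul (HasExp.finset_sum Finset.univ
      fun (x : CosetsIn Γ M) _ => hasExp_diffFun C hO (x.1.out⁻¹ * δ) f)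
    have e : coeffMap O.subtype (ser δ) = HahnSeries.single 0 sc *
        ∑ x : CosetsIn Γ M, HahnSeries.C ((L : ℂ)⁻¹) *
          coeffMap O.subtype (diffExp C hO (x.1.out⁻¹ * δ) f) := by
      have hL' : (L : ℂ) ≠ 0 := by exact_mod_cast NeZero.ne L
      simp only [ser, map_mul, map_sum, ← Finset.mul_sum, ← mul_assoc, HahnSeries.C_apply,
        ModularCurve.coeffMap_single, HahnSeries.single_mul_single, zero_add, hsc,
        Subring.coe_subtype, mul_inv_cancel_right₀ hL']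
    rw [e]
    exact h
  have hser : ∀ δ, LowBd 1 (ser δ) := fun δ => by
    simp only [ser]
    rw [HahnSeries.C_mul_eq_smul]
    exact (LowBd.sum _ fun x _ => hlow _).smul _
  have hslash : ∀ δ, (G 1) ∣[(2 : ℤ)] δ = G δ := by
    intro δ
    funext τ
    have hx : ∀ x : CosetsIn Γ M, diffFun C f.1 (x.1.out⁻¹ * 1) (δ • τ) * denom δ τ ^ (-2 : ℤ) =
        diffFun C f.1 (x.1.out⁻¹ * δ) τ := fun x => by
      rw [← ModularForm.SL_slash_apply, diffFun_slash, mul_one]
    rw [ModularForm.SL_slash_apply]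
    simp only [G, Pi.mul_apply, Finset.sum_apply]
    rw [mul_assoc, Finset.sum_mul]
    exact congrArg (sc * ·) (Finset.sum_congr rfl fun x _ => hx x)
  have hGinv : ∀ γ ∈ Gamma0 M, G γ = G 1 := by
    intro γ hγ
    simp only [G, mul_one]
    congr 1
    have hmove : ∀ (g : SL(2, ℤ)), g ∈ Gamma0 M → ∀ x : CosetsIn Γ M,
        ∃ g' ∈ Gamma0 M, QuotientGroup.mk g' = g • x.1 := by
      rintro g hg ⟨_, h, hh, rfl⟩
      exact ⟨g * h, mul_mem hg hh, rfl⟩
    refine Fintype.sum_equiv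
      ⟨fun x => ⟨γ⁻¹ • x.1, hmove _ (inv_mem hγ) x⟩, fun x => ⟨γ • x.1, hmove _ hγ x⟩,
       fun x => Subtype.ext (smul_inv_smul γ x.1), fun x => Subtype.ext (inv_smul_smul γ x.1)⟩
      _ _ fun x => ?_
    obtain ⟨_, g, hg, rfl⟩ := x
    show diffFun C f.1 ((QuotientGroup.mk g : SL(2, ℤ) ⧸ Γ).out⁻¹ * γ) =
      diffFun C f.1 (γ⁻¹ • (QuotientGroup.mk g : SL(2, ℤ) ⧸ Γ)).out⁻¹
    rw [MulAction.Quotient.smul_mk, smul_eq_mul]
    obtain ⟨j, hj, e⟩ := hout g
    obtain ⟨j', hj', e'⟩ := hout (γ⁻¹ * g)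
    rw [e, e', mul_inv_rev, mul_inv_rev, mul_inv_rev, inv_inv, mul_assoc,
      hfinv _ (inv_mem hj), hfinv _ (inv_mem hj')]
  obtain ⟨F, hF⟩ := exists_cuspForm_of_family G ser hG hser hslash hGinv
  exact ⟨F, hF⟩

/-- **Differentials without poles lift to cusp forms.** -/
theorem exists_cuspForm_lift [NeZero M] [IsAlgClosed k] [IsNoetherianRing O]
    (H : LevelHyp 2 L O) (hπ0 : π ≠ 0) (hsurj : Function.Surjective red)
    (hker : ∀ r, red r = 0 ↔ π ∣ r) (hjac : π ∈ (⊥ : Ideal O).jacobson)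
    (hS : SpecialFibre L O π.1 π.2) (hML : M ∣ L) (hidx : 2 ∣ M ∨ IsUnit (6 : O)) (a : LRing L O)
    (ha : ∀ (δ : SL(2, ℤ)) (i : ℤ), i ≤ 0 → red ((diffExp C H.le δ a).coeff i) = 0)
    (hinv : ∀ γ ∈ Gamma0 M, ∀ δ,
      coeffMap red (diffExp C H.le (γ * δ) a) = coeffMap red (diffExp C H.le δ a)) :
    ∃ (F : CuspForm (Gamma0 M) 2) (c : ℕ → O), (∀ n, qCoeff F n = c n) ∧
      ∀ n, red (c n) = red ((diffExp C H.le 1 a).coeff ((L : ℤ) * n)) := by
  classical
  set Γ := Gamma 2 ⊓ Gamma0 M with hΓ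
  have : Γ.FiniteIndex := Subgroup.finiteIndex_of_le (Gamma_le_inf (two_dvd_level C) hML)
  let : Fintype (SL(2, ℤ) ⧸ Γ) := Subgroup.fintypeQuotientOfFiniteIndex
  obtain ⟨f, hfΓ, hlow, hfred⟩ :=
    exists_regular_congr C red π H hπ0 hsurj hker hjac hS hΓ hML a ha hinv
  obtain ⟨du, hdu⟩ := isUnit_card_cosetsIn C H.le hidx hΓ
  rw [Nat.card_eq_fintype_card] at hdu
  obtain ⟨F, hF⟩ := exists_cuspForm_trace C H.le (M := M) inf_le_left du f hfΓ hlow
  refine ⟨F, _, hF, fun n => ?_⟩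
  have hx : ∀ x : CosetsIn Γ M, coeffMap red (diffExp C H.le (x.1.out⁻¹ * 1) f) =
      coeffMap red (diffExp C H.le 1 a) := fun x => by
    rw [hfred, hinv _ (inv_mem (out_mem_Gamma0 inf_le_right x))]
  rw [← ModularCurve.coeffMap_coeff, ← ModularCurve.coeffMap_coeff]
  simp only [map_mul, map_sum, HahnSeries.C_apply, ModularCurve.coeffMap_single]
  rw [Finset.sum_congr rfl fun x _ => hx x, Finset.sum_const, Finset.card_univ]
  rw [← HahnSeries.C_apply, nsmul_eq_mul, ← map_natCast (HahnSeries.C : k →+* LaurentSeries k),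
    ← mul_assoc, ← map_mul, ← map_natCast red, ← map_mul, ← hdu, Units.inv_mul, map_one, map_one,
    one_mul]

/-- `exists_cuspForm_lift` over a discrete valuation ring, where the special fibre has the required
properties. -/
theorem exists_cuspForm_lift_of_coeffHyp [NeZero M] [IsAlgClosed k] (H : LevelHyp 2 L O) {n : ℕ}
    (hB : CoeffHyp O π.1 n) (hsurj : Function.Surjective red) (hker : ∀ r, red r = 0 ↔ π ∣ r)
    (hML : M ∣ L) (hidx : 2 ∣ M ∨ IsUnit (6 : O)) (a : LRing L O)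
    (ha : ∀ (δ : SL(2, ℤ)) (i : ℤ), i ≤ 0 → red ((diffExp C H.le δ a).coeff i) = 0)
    (hinv : ∀ γ ∈ Gamma0 M, ∀ δ,
      coeffMap red (diffExp C H.le (γ * δ) a) = coeffMap red (diffExp C H.le δ a)) :
    ∃ (F : CuspForm (Gamma0 M) 2) (c : ℕ → O), (∀ n, qCoeff F n = c n) ∧
      ∀ n, red (c n) = red ((diffExp C H.le 1 a).coeff ((L : ℤ) * n)) := by
  have := hB.dvr
  refine exists_cuspForm_lift C red π H hB.irred.ne_zero hsurj hker ?_
    (specialFibre H hB (localGen H hB)) hML hidx a ha hinv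
  rw [IsLocalRing.jacobson_eq_maximalIdeal ⊥ bot_ne_top]
  exact (IsLocalRing.mem_maximalIdeal _).mpr hB.irred.not_isUnit

end Fermat.Agent.AtP.DiffLift
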