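import Fermat.Agent.AtP.DiffLiftLine
import Mathlib.FieldTheory.IsAlgClosed.Basic
import Mathlib.RingTheory.Noetherian.Defs
import Mathlib.LinearAlgebra.Dimension.Finite

/-!
# A covering of the `t`-line modulo `π`

`Frame` is a ring `A` of Laurent expansions at the cusps `X` of a covering, etale away from the
cusps, of the `t`-line `Y`, which is connected modulo `π`.  The families without poles which are
orthogonal to `A` modulo `π` are the constants.
-/

set_option autoImplicit false

noncomputable section

namespace Fermat.Agent.AtP.DiffLift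

open Fermat.Agent.ModularFunctionField ModularCurve

/-- The expansions of functions on a covering of the `t`-line. -/
structure Frame (O k : Type*) [CommRing O] [Field k] (X Y ι J : Type*) [Fintype X] [DecidableEq X]
    [DecidableEq Y] [Fintype J] where
  /-- The line. -/
  line : LineData O Y ι
  /-- Reduction. -/
  red : O →+* k
  /-- Generator of the kernel of reduction. -/
  π : O
  π_ne_zero : π ≠ 0
  red_surj : Function.Surjective red
  red_ker : ∀ r, red r = 0 ↔ π ∣ r
  π_jac : π ∈ (⊥ : Ideal O).jacobson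
  prim_red : IsPrimitiveRoot (red line.ζ) line.L
  /-- Translation of the parameter. -/
  T : Equiv.Perm X
  periodic : ∀ x, (⇑T)^[line.L] x = x
  /-- The projection of cusps. -/
  proj : X → Y
  proj_T : ∀ x, proj (T x) = line.T (proj x)
  /-- A point of `X`. -/
  base : X
  /-- The functions on the covering. -/
  A : Subring (X → LaurentSeries O)
  A_fam : ∀ a ∈ A, IsFam T line.ζ a
  A_const : ∀ r : O, (fun _ => HahnSeries.C r) ∈ A
  /-- The functions on the line. -/
  B : Subring (Y → LaurentSeries O)
  B_fam : ∀ b ∈ B, IsFam line.T line.ζ b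
  B_const : ∀ r : O, (fun _ => HahnSeries.C r) ∈ B
  B_t : line.t ∈ B
  B_u : ∀ c, line.u c ∈ B
  pull_mem : ∀ b ∈ B, b ∘ proj ∈ A
  trace_mem : ∀ a ∈ A, (fun y => ∑ x with proj x = y, a x) ∈ B
  /-- Coordinates. -/
  xc : J → X → LaurentSeries O
  /-- Dual coordinates. -/
  yc : J → X → LaurentSeries O
  xc_mem : ∀ j, xc j ∈ A
  yc_mem : ∀ j, yc j ∈ A
  coords : ∀ x x', proj x = proj x' → ∑ j, xc j x * yc j x' = if x = x' then 1 else 0
  const_B : ∀ b ∈ B, (∀ y, LowBd 0 (b y)) → ∃ r, b = fun _ => HahnSeries.C r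
  conn : ∀ a ∈ A, ∀ x₀, coeffMap red (a x₀) = 0 → ∀ x, coeffMap red (a x) = 0

namespace Frame

variable {O k : Type*} [CommRing O] [Field k] {X Y ι J : Type*} [Fintype X] [DecidableEq X]
  [DecidableEq Y] [Fintype J] (F : Frame O k X Y ι J)

/-- Coefficientwise reduction. -/
def redS (a : X → LaurentSeries O) : X → LaurentSeries k := fun x => coeffMap F.red (a x)

/-- The trace. -/
def tr {R : Type*} [CommRing R] (a : X → LaurentSeries R) : Y → LaurentSeries R :=
  fun y => ∑ x with F.proj x = y, a x

/-- The reduction of the line. -/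
def lineK : LineData k Y ι := F.line.map F.red F.prim_red

/-- `θ t` on the covering. -/
def wX : X → LaurentSeries O := F.line.w ∘ F.proj

/-- `θ t` modulo `π` on the covering. -/
def wbar : X → LaurentSeries k := F.redS F.wX

/-- The reduction of the functions on the covering. -/
def InRed (s : X → LaurentSeries k) : Prop := ∃ a ∈ F.A, F.redS a = s

/-- Coefficientwise reduction is additive. -/
lemma redS_add (a b : X → LaurentSeries O) : F.redS (a + b) = F.redS a + F.redS b := by
  funext x; simp [redS]

lemma redS_mul (a b : X → LaurentSeries O) : F.redS (a * b) = F.redS a * F.redS b := by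
  funext x; simp [redS]

/-- Coefficientwise reduction is semilinear. -/
lemma redS_smul (r : O) (a : X → LaurentSeries O) : F.redS (r • a) = F.red r • F.redS a := by
  funext x; simp [redS, coeffMap_smul]

/-- Reduction preserves compatibility with translation. -/
lemma redS_fam {a : X → LaurentSeries O} (h : IsFam F.T F.line.ζ a) :
    IsFam F.T F.lineK.ζ (F.redS a) :=
  h.map F.red

/-- Scalar multiples are products with constant series. -/
lemma smul_eq_const_mul {R : Type*} [CommRing R] {Z : Type*} (r : R) (a : Z → LaurentSeries R) :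
    r • a = (fun _ => HahnSeries.C r) * a := by
  funext z; simp

/-- The ring of the covering is stable under scalars. -/
lemma smul_mem_A (r : O) {a : X → LaurentSeries O} (ha : a ∈ F.A) : r • a ∈ F.A := by
  rw [smul_eq_const_mul]; exact mul_mem (F.A_const r) ha

lemma smul_mem_B (r : O) {b : Y → LaurentSeries O} (hb : b ∈ F.B) : r • b ∈ F.B := by
  rw [smul_eq_const_mul]; exact mul_mem (F.B_const r) hb

lemma gen_mem_B : ∀ o, F.line.gen o ∈ F.B
  | none => F.B_t
  | some c => F.B_u c

/-- Polar polynomials lie in the ring of the line. -/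
lemma polar_mem_B {p : Y → LaurentSeries O} (hp : p ∈ F.line.polar) : p ∈ F.B := by
  induction hp using Submodule.span_induction with
  | mem x hx => obtain ⟨q, rfl⟩ := hx; exact pow_mem (F.gen_mem_B _) _
  | zero => exact zero_mem _
  | add x y _ _ hx hy => exact add_mem hx hy
  | smul r x _ hx => exact F.smul_mem_B r hx

/-- Reduction of a polynomial. -/
lemma exists_lift_polar {p : Y → LaurentSeries k} (hp : p ∈ F.lineK.polar) :
    ∃ b ∈ F.line.polar, (fun y => coeffMap F.red (b y)) = p := by
  induction hp using Submodule.span_induction with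
  | mem x hx =>
    obtain ⟨q, rfl⟩ := hx
    refine ⟨F.line.gen q.1 ^ (q.2 + 1), Submodule.subset_span ⟨q, rfl⟩, funext fun y => ?_⟩
    simp [lineK, LineData.map_gen]
  | zero => exact ⟨0, zero_mem _, funext fun y => by simp⟩
  | add x y _ _ hx hy =>
    obtain ⟨a, ha, rfl⟩ := hx
    obtain ⟨b, hb, rfl⟩ := hy
    exact ⟨a + b, add_mem ha hb, funext fun y => by simp⟩
  | smul r x _ hx =>
    obtain ⟨a, ha, rfl⟩ := hx
    obtain ⟨r, rfl⟩ := F.red_surj r
    exact ⟨r • a, Submodule.smul_mem _ r ha, funext fun y => by simp [coeffMap_smul]⟩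

lemma proj_inj_T {x : X} {y : Y} : F.proj (F.T x) = F.line.T y ↔ F.proj x = y := by
  rw [F.proj_T]; exact F.line.T.apply_eq_iff_eq

/-- The trace preserves compatibility with translation. -/
lemma tr_fam {R : Type*} [CommRing R] {c : Rˣ} {s : X → LaurentSeries R} (hs : IsFam F.T c s) :
    IsFam F.line.T c (F.tr s) := by
  intro y
  simp only [tr, map_sum]
  refine (Finset.sum_bij (fun x _ => F.T x) ?_ ?_ ?_ ?_).symm
  · intro x hx
    simp only [Finset.mem_filter, Finset.mem_univ, true_and] at hx ⊢
    exact F.proj_inj_T.mpr hx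
  · intro a _ b _ h
    exact F.T.injective h
  · intro b hb
    simp only [Finset.mem_filter, Finset.mem_univ, true_and] at hb ⊢
    exact ⟨F.T.symm b, F.proj_inj_T.mp (by simpa using hb), by simp⟩
  · intro x _
    exact (hs x).symm

lemma res_tr [Fintype Y] {R : Type*} [CommRing R] (s : X → LaurentSeries R) :
    res (F.tr s) = res s := by
  simp only [res, tr, HahnSeries.coeff_sum]
  exact Finset.sum_fiberwise Finset.univ F.proj fun x => (s x).coeff 0

lemma tr_pull_mul {R : Type*} [CommRing R] (b : Y → LaurentSeries R) (s : X → LaurentSeries R) :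
    F.tr ((b ∘ F.proj) * s) = b * F.tr s := by
  funext y
  simp only [tr, Pi.mul_apply, Function.comp_apply, Finset.mul_sum]
  exact Finset.sum_congr rfl fun x hx => by rw [(Finset.mem_filter.mp hx).2]

/-- Reconstruction from traces. -/
lemma reconstruct {R : Type*} [CommRing R] (f : O →+* R) (s : X → LaurentSeries R) :
    s = ∑ j, (fun x => coeffMap f (F.xc j x)) *
      (F.tr ((fun x => coeffMap f (F.yc j x)) * s) ∘ F.proj) := by
  funext x
  simp only [Finset.sum_apply, Pi.mul_apply, Function.comp_apply, tr, Finset.mul_sum]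
  rw [Finset.sum_comm, Finset.sum_eq_single x]
  · simp only [← mul_assoc, ← map_mul, ← Finset.sum_mul, ← map_sum, F.coords x x rfl]
    simp
  · intro x' hx' hne
    simp only [← mul_assoc, ← map_mul, ← Finset.sum_mul, ← map_sum,
      F.coords x x' (Finset.mem_filter.mp hx').2.symm, if_neg hne.symm, map_zero, zero_mul]
  · simp

variable [IsDomain O] [CharZero O] [Fintype Y] [Fintype ι]

omit [CharZero O] in
/-- A function on the line is a polynomial in `t`, `1/(t-c)` plus a constant. -/
lemma mem_B_eq {b : Y → LaurentSeries O} (hb : b ∈ F.B) :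
    ∃ p ∈ F.line.polar, ∃ r, b = p + fun _ => HahnSeries.C r := by
  obtain ⟨p, hp, hp'⟩ := F.line.exists_polar (F.B_fam b hb)
  obtain ⟨r, hr⟩ := F.const_B (b - p) (sub_mem hb (F.polar_mem_B hp)) hp'
  exact ⟨p, hp, r, by rw [← hr, add_sub_cancel]⟩

lemma res_B_mul_w {b : Y → LaurentSeries O} (hb : b ∈ F.B) : res (b * F.line.w) = 0 := by
  obtain ⟨p, hp, r, rfl⟩ := F.mem_B_eq hb
  rw [add_mul, res_add, F.line.res_polar_mul_w hp, ← smul_eq_const_mul, res_smul, zero_add]
  have := F.line.res_gen_pow_mul_w none 0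
  simp only [pow_zero, one_mul] at this
  rw [this, mul_zero]

/-- The sum of residues of a differential `a θ t` vanishes. -/
theorem res_A_mul_w {a : X → LaurentSeries O} (ha : a ∈ F.A) : res (a * F.wX) = 0 := by
  rw [← F.res_tr, mul_comm, wX, F.tr_pull_mul, mul_comm]
  exact F.res_B_mul_w (F.trace_mem a ha)

omit [Fintype ι] in
lemma res_lineK (o : Option ι) (j : ℕ) : res (F.lineK.gen o ^ j * F.lineK.w) = 0 := by
  have : F.lineK.gen o ^ j * F.lineK.w =
      fun y => coeffMap F.red ((F.line.gen o ^ j * F.line.w) y) := by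
    funext y; simp [lineK, LineData.map_gen, LineData.map_w]
  rw [this, res_map, F.line.res_gen_pow_mul_w, map_zero]

/-- The families without poles orthogonal to all `a θ t` modulo `π`. -/
def orthSubmodule : Submodule k (X → LaurentSeries k) where
  carrier := {s | IsFam F.T F.lineK.ζ s ∧ (∀ x, LowBd 0 (s x)) ∧
    ∀ a ∈ F.A, res (F.redS a * s * F.wbar) = 0}
  zero_mem' := ⟨IsFam.zero, fun _ => lowBd_zero 0, fun a _ => by simp [res]⟩
  add_mem' {s t} hs ht := ⟨hs.1.add ht.1, fun x => (hs.2.1 x).add (ht.2.1 x), fun a ha => by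
    rw [mul_add, add_mul, res_add, hs.2.2 a ha, ht.2.2 a ha, add_zero]⟩
  smul_mem' r s hs := ⟨hs.1.smul r, fun x => (hs.2.1 x).smul r, fun a ha => by
    rw [smul_eq_const_mul, show F.redS a * ((fun _ => HahnSeries.C r) * s) * F.wbar =
      (fun _ => HahnSeries.C r) * (F.redS a * s * F.wbar) by ring, ← smul_eq_const_mul,
      res_smul, hs.2.2 a ha, mul_zero]⟩

/-- The trace coordinates of an orthogonal family. -/
def coordTr (j : J) (s : X → LaurentSeries k) : Y → LaurentSeries k := F.tr (F.redS (F.yc j) * s)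

omit [IsDomain O] [CharZero O] [Fintype ι] in
lemma res_coordTr {s : X → LaurentSeries k} (hs : s ∈ F.orthSubmodule) (j : J)
    {b : Y → LaurentSeries O} (hb : b ∈ F.B) :
    res ((fun y => coeffMap F.red (b y)) * F.coordTr j s * F.lineK.w) = 0 := by
  have key := hs.2.2 (b ∘ F.proj * F.yc j) (mul_mem (F.pull_mem b hb) (F.yc_mem j))
  rw [← F.res_tr] at key
  have : F.redS (b ∘ F.proj * F.yc j) * s * F.wbar =
      ((((fun y => coeffMap F.red (b y)) * F.lineK.w) ∘ F.proj)) * (F.redS (F.yc j) * s) := by
    funext x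
    simp only [redS, wbar, wX, lineK, Pi.mul_apply, Function.comp_apply, map_mul,
      LineData.map_w]
    ring
  rw [this, F.tr_pull_mul] at key
  rw [← key, coordTr]
  congr 1
  ring

omit [Fintype ι] in
lemma coordTr_of_nonneg {s : X → LaurentSeries k} (hs : s ∈ F.orthSubmodule) (j : J)
    (h : ∀ y, LowBd 0 (F.coordTr j s y)) : ∃ c, F.coordTr j s = fun _ => HahnSeries.C c := by
  refine F.lineK.eq_const_of_orth (F.tr_fam ((F.redS_fam (F.A_fam _ (F.yc_mem j))).mul hs.1)) h
    F.res_lineK fun o i => ?_
  have := F.res_coordTr hs j (b := F.line.gen o ^ i) (pow_mem (F.gen_mem_B o) i)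
  convert this using 3
  funext y
  simp [lineK, LineData.map_gen]

lemma coordTr_inRed {s : X → LaurentSeries k} (hs : s ∈ F.orthSubmodule) (j : J) :
    ∃ b ∈ F.B, (fun y => coeffMap F.red (b y)) = F.coordTr j s := by
  obtain ⟨p, hp, hp'⟩ := F.lineK.exists_polar (R := k)
    (F.tr_fam ((F.redS_fam (F.A_fam _ (F.yc_mem j))).mul hs.1))
  obtain ⟨b, hb, rfl⟩ := F.exists_lift_polar hp
  set u : Y → LaurentSeries k := F.coordTr j s - fun y => coeffMap F.red (b y) with hu
  obtain ⟨c, hc⟩ : ∃ c : k, u = fun _ => HahnSeries.C c := by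
    refine F.lineK.eq_const_of_orth ((F.tr_fam
      ((F.redS_fam (F.A_fam _ (F.yc_mem j))).mul hs.1)).sub ((F.line.polar_fam hb).map F.red))
      hp' F.res_lineK fun o i => ?_
    have h1 := F.res_coordTr hs j (b := F.line.gen o ^ i) (pow_mem (F.gen_mem_B o) i)
    have h2 := F.res_B_mul_w (mul_mem (pow_mem (F.gen_mem_B o) i) (F.polar_mem_B hb))
    have h3 : res (fun y => coeffMap F.red ((F.line.gen o ^ i * b * F.line.w) y)) = 0 := by
      rw [res_map, h2, map_zero]
    have : F.lineK.gen o ^ i * u * F.lineK.w =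
        (fun y => coeffMap F.red ((F.line.gen o ^ i) y)) * F.coordTr j s * F.lineK.w -
          fun y => coeffMap F.red ((F.line.gen o ^ i * b * F.line.w) y) := by
      funext y
      simp only [hu, lineK, Pi.mul_apply, Pi.sub_apply, Pi.pow_apply, map_mul, map_pow,
        LineData.map_gen, LineData.map_w]
      ring
    rw [this, res_sub, h1, h3, sub_zero]
  obtain ⟨r, rfl⟩ := F.red_surj c
  refine ⟨b + fun _ => HahnSeries.C r, add_mem (F.polar_mem_B hb) (F.B_const r), funext fun y => ?_⟩
  have := congrFun hc y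
  simp only [hu, Pi.sub_apply, sub_eq_iff_eq_add] at this
  rw [this]
  simp [add_comm]

/-- Orthogonal families are reductions of functions. -/
lemma inRed_of_mem_orth {s : X → LaurentSeries k} (hs : s ∈ F.orthSubmodule) : F.InRed s := by
  choose b hb hb' using fun j => F.coordTr_inRed hs j
  refine ⟨∑ j, F.xc j * b j ∘ F.proj,
    sum_mem fun j _ => mul_mem (F.xc_mem j) (F.pull_mem _ (hb j)), ?_⟩
  conv_rhs => rw [F.reconstruct F.red s]
  funext x
  simp only [redS, Finset.sum_apply, Pi.mul_apply, Function.comp_apply, map_sum, map_mul]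
  refine Finset.sum_congr rfl fun j _ => ?_
  exact congrArg (coeffMap F.red (F.xc j x) * ·) (congrFun (hb' j) (F.proj x))

lemma one_mem_orth : (1 : X → LaurentSeries k) ∈ F.orthSubmodule := by
  refine ⟨IsFam.one, fun _ => lowBd_one, fun a ha => ?_⟩
  rw [mul_one, wbar, ← F.redS_mul]
  show res (fun x => coeffMap F.red ((a * F.wX) x)) = 0
  rw [res_map, F.res_A_mul_w ha, map_zero]

lemma mul_mem_orth {s t : X → LaurentSeries k} (hs : s ∈ F.orthSubmodule)
    (ht : t ∈ F.orthSubmodule) : s * t ∈ F.orthSubmodule := by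
  refine ⟨hs.1.mul ht.1, fun x => (hs.2.1 x).mul_nonneg (ht.2.1 x), fun a ha => ?_⟩
  obtain ⟨b, hb, rfl⟩ := F.inRed_of_mem_orth hs
  rw [← mul_assoc, ← F.redS_mul]
  exact ht.2.2 (a * b) (mul_mem ha hb)

lemma pow_mem_orth {s : X → LaurentSeries k} (hs : s ∈ F.orthSubmodule) :
    ∀ n : ℕ, s ^ n ∈ F.orthSubmodule
  | 0 => by simpa using F.one_mem_orth
  | n + 1 => by rw [pow_succ]; exact F.mul_mem_orth (pow_mem_orth hs n) hs

instance finite_orth : Module.Finite k F.orthSubmodule := by
  obtain ⟨N, hN⟩ := exists_lowBd_family fun p : J × X => coeffMap F.red (F.yc p.1 p.2)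
  let Φ : F.orthSubmodule →ₗ[k] (J × Y × Fin (N + 1) → k) :=
    { toFun := fun s p => (F.coordTr p.1 s.1 p.2.1).coeff (-(p.2.2 : ℤ))
      map_add' := fun s t => by funext p; simp [coordTr, tr, mul_add, Finset.sum_add_distrib]
      map_smul' := fun r s => by
        funext p
        simp only [coordTr, tr, Submodule.coe_smul, Pi.mul_apply, Pi.smul_apply,
          RingHom.id_apply, smul_eq_mul, HahnSeries.coeff_sum, Finset.mul_sum]
        refine Finset.sum_congr rfl fun x _ => ?_
        rw [← HahnSeries.C_mul_eq_smul, mul_left_comm, HahnSeries.C_mul_eq_smul,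
          HahnSeries.coeff_smul, smul_eq_mul] }
  refine Module.Finite.of_injective Φ ((injective_iff_map_eq_zero Φ).mpr fun s hs => ?_)
  have hzero : ∀ j, F.coordTr j s.1 = 0 := by
    intro j
    have hlow : ∀ y, LowBd (-(N : ℤ)) (F.coordTr j s.1 y) := fun y =>
      LowBd.sum _ fun x _ => (hN (j, x)).mul_nonneg (s.2.2.1 x)
    have hcoeff : ∀ y (i : ℤ), i ≤ 0 → (F.coordTr j s.1 y).coeff i = 0 := by
      intro y i hi
      rcases lt_or_ge i (-(N : ℤ)) with h | h
      · exact hlow y i h
      have := congrFun hs (j, y, ⟨(-i).toNat, by omega⟩)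
      simpa [Φ, Int.toNat_of_nonneg (by omega : 0 ≤ -i)] using this
    obtain ⟨c, hc⟩ := F.coordTr_of_nonneg s.2 j fun y i hi => hcoeff y i hi.le
    have := hcoeff (F.proj F.base) 0 le_rfl
    simp only [hc, HahnSeries.C_apply, HahnSeries.coeff_single_same] at this
    rw [hc, this]
    funext y; simp
  refine Subtype.ext ?_
  have h := F.reconstruct F.red s.1
  rw [h]
  refine Finset.sum_eq_zero fun j _ => ?_
  have := hzero j
  simp only [coordTr] at this
  show _ * F.tr (F.redS (F.yc j) * s.1) ∘ F.proj = 0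
  rw [this]
  funext x; simp

/-- A family without poles orthogonal to `A θ t` modulo `π` is constant. -/
theorem eq_const_of_mem_orth [IsAlgClosed k] {s : X → LaurentSeries k}
    (hs : s ∈ F.orthSubmodule) : ∃ c : k, s = fun _ => HahnSeries.C c := by
  have := F.finite_orth
  let g : Fin (Module.finrank k F.orthSubmodule + 1) → F.orthSubmodule :=
    fun i => ⟨s ^ (i : ℕ), F.pow_mem_orth hs i⟩
  have hdep : ¬ LinearIndependent k g := fun h => by
    have := h.fintype_card_le_finrank
    simp at this
  obtain ⟨e, he, i₀, hi₀⟩ := Fintype.not_linearIndependent_iff.mp hdep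
  set P : Polynomial k := ∑ i : Fin (Module.finrank k F.orthSubmodule + 1),
    Polynomial.monomial (i : ℕ) (e i)
  have hP : P ≠ 0 := fun h => hi₀ (by
    have := congrArg (fun Q : Polynomial k => Q.coeff i₀) h
    simpa [P, Polynomial.finsetSum_coeff, Polynomial.coeff_monomial, Fin.val_inj] using this)
  have hev : P.eval₂ HahnSeries.C (s F.base) = 0 := by
    have := congrFun (congrArg Subtype.val he) F.base
    simpa [P, g, Polynomial.eval₂_finsetSum, Polynomial.eval₂_monomial,
      HahnSeries.C_mul_eq_smul] using this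
  obtain ⟨c, hc⟩ : ∃ c : k, HahnSeries.C c = s F.base := by
    rw [(IsAlgClosed.splits P).eq_prod_roots, Polynomial.eval₂_mul, Polynomial.eval₂_C,
      mul_eq_zero, ← Polynomial.coe_eval₂RingHom, map_multiset_prod,
      Multiset.prod_eq_zero_iff] at hev
    rcases hev with h | h
    · exact absurd (Polynomial.leadingCoeff_eq_zero.mp
        (HahnSeries.C_injective (by rw [h, map_zero]))) hP
    · simp only [Multiset.map_map, Multiset.mem_map, Function.comp_apply,
        Polynomial.coe_eval₂RingHom, Polynomial.eval₂_sub, Polynomial.eval₂_X,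
        Polynomial.eval₂_C] at h
      obtain ⟨c, -, hc⟩ := h
      exact ⟨c, (sub_eq_zero.mp hc).symm⟩
  refine ⟨c, ?_⟩
  have hmem : s - c • (1 : X → LaurentSeries k) ∈ F.orthSubmodule :=
    sub_mem hs (Submodule.smul_mem _ c F.one_mem_orth)
  obtain ⟨a, ha, hae⟩ := F.inRed_of_mem_orth hmem
  have h0 : coeffMap F.red (a F.base) = 0 := by
    rw [show coeffMap F.red (a F.base) = F.redS a F.base from rfl, hae]
    simp [← HahnSeries.C_mul_eq_smul, hc]
  funext x
  have := F.conn a ha F.base h0 x
  rw [show coeffMap F.red (a x) = F.redS a x from rfl, hae] at this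
  simpa [← HahnSeries.C_mul_eq_smul, sub_eq_zero] using this

end Frame

end Fermat.Agent.AtP.DiffLift
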