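import Fermat.Agent.AtP.DiffLiftSeries
import Mathlib.RingTheory.RootsOfUnity.PrimitiveRoots
import Mathlib.Algebra.BigOperators.Pi
import Mathlib.Algebra.CharZero.Defs
import Mathlib.LinearAlgebra.Span.Basic

/-!
# Residues on the line of a coordinate `t`

`LineData` records the expansions of a coordinate `t` at the cusps `Y`, grouped in classes
(`none`: poles of `t`, `some c`: zeros of `t - val c`).  Twist compatible families are the sum of
a polynomial in `t, 1/(t - c)` and a family without poles, the residues of `P θ t` sum to zero,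
and over a field the families orthogonal to all of them are constant.
-/

set_option autoImplicit false

noncomputable section

namespace Fermat.Agent.AtP.DiffLift

open Fermat.Agent.ModularFunctionField ModularCurve

variable {R S : Type*} [CommRing R] [CommRing S] {X : Type*}

/-- Families compatible with the translation of the parameter. -/
def IsFam (T : Equiv.Perm X) (c : Rˣ) (s : X → LaurentSeries R) : Prop :=
  ∀ x, s (T x) = twist c (s x)

/-- The sum of the constant terms. -/
def res [Fintype X] (s : X → LaurentSeries R) : R := ∑ x, (s x).coeff 0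

/-- The residue is additive. -/
lemma res_add [Fintype X] (s t : X → LaurentSeries R) : res (s + t) = res s + res t := by
  simp [res, Finset.sum_add_distrib]

/-- The residue respects differences. -/
lemma res_sub [Fintype X] (s t : X → LaurentSeries R) : res (s - t) = res s - res t := by
  simp [res, Finset.sum_sub_distrib]

/-- The residue is linear. -/
lemma res_smul [Fintype X] (r : R) (s : X → LaurentSeries R) : res (r • s) = r * res s := by
  simp [res, Finset.mul_sum]

/-- The residue commutes with maps of coefficients. -/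
lemma res_map [Fintype X] (f : R →+* S) (s : X → LaurentSeries R) :
    res (fun x => coeffMap f (s x)) = f (res s) := by
  simp [res, map_sum]

namespace IsFam

variable {T : Equiv.Perm X} {c : Rˣ} {s t : X → LaurentSeries R}

/-- The zero family is compatible. -/
protected lemma zero : IsFam T c (0 : X → LaurentSeries R) := fun _ => (map_zero _).symm

/-- The family `1` is compatible. -/
protected lemma one : IsFam T c (1 : X → LaurentSeries R) := fun _ => (map_one _).symm

/-- Constant families are compatible. -/
protected lemma const (r : R) : IsFam T c fun _ => HahnSeries.C r := fun _ => (twist_C c r).symm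

/-- Sums of compatible families are compatible. -/
protected lemma add (hs : IsFam T c s) (ht : IsFam T c t) : IsFam T c (s + t) := fun x => by
  simp [hs x, ht x]

/-- Opposites of compatible families are compatible. -/
protected lemma neg (hs : IsFam T c s) : IsFam T c (-s) := fun x => by simp [hs x]

/-- Differences of compatible families are compatible. -/
protected lemma sub (hs : IsFam T c s) (ht : IsFam T c t) : IsFam T c (s - t) := fun x => by
  simp [hs x, ht x]

/-- Products of compatible families are compatible. -/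
protected lemma mul (hs : IsFam T c s) (ht : IsFam T c t) : IsFam T c (s * t) := fun x => by
  simp [hs x, ht x]

/-- Scalar multiples of compatible families are compatible. -/
protected lemma smul (hs : IsFam T c s) (r : R) : IsFam T c (r • s) := fun x => by
  simp only [Pi.smul_apply, hs x, ← HahnSeries.C_mul_eq_smul, map_mul, twist_C]

/-- Powers of compatible families are compatible. -/
protected lemma pow (hs : IsFam T c s) : ∀ n : ℕ, IsFam T c (s ^ n)
  | 0 => by simpa using IsFam.one
  | n + 1 => by rw [pow_succ]; exact (IsFam.pow hs n).mul hs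

/-- Finite sums of compatible families are compatible. -/
protected lemma sum {ι : Type*} (I : Finset ι) {f : ι → X → LaurentSeries R}
    (h : ∀ i ∈ I, IsFam T c (f i)) : IsFam T c (∑ i ∈ I, f i) := fun x => by
  simp only [Finset.sum_apply, map_sum]
  exact Finset.sum_congr rfl fun i hi => h i hi x

/-- A compatible family at an iterated translate is a twist. -/
lemma iterate (hs : IsFam T c s) (x : X) : ∀ j : ℕ, s (T^[j] x) = twist (c ^ j) (s x)
  | 0 => by simp
  | j + 1 => by rw [Function.iterate_succ_apply', hs, iterate hs x j, twist_twist, pow_succ']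

/-- Maps of coefficients preserve compatibility. -/
lemma map (hs : IsFam T c s) (f : R →+* S) :
    IsFam T (Units.map (f : R →* S) c) fun x => coeffMap f (s x) := fun x => by
  simp only [hs x, coeffMap_twist]

/-- The operator `θ` preserves compatibility. -/
lemma theta (hs : IsFam T c s) : IsFam T c fun x => theta (s x) := fun x => by
  simp only [hs x, theta_twist]

end IsFam

/-- The expansions of the coordinate at the cusps `Y`. -/
structure LineData (R : Type*) [CommRing R] (Y ι : Type*) where
  /-- Translation of the parameter. -/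
  T : Equiv.Perm Y
  /-- The period of `T`. -/
  M : ℕ
  /-- The order of the poles of `t`. -/
  m : ℕ
  /-- The level of the parameter. -/
  L : ℕ
  L_eq : L = m * M
  periodic : ∀ y, (⇑T)^[M] y = y
  L_unit : IsUnit (L : R)
  /-- The root of unity. -/
  ζ : Rˣ
  prim : IsPrimitiveRoot (ζ : R) L
  /-- The class of a cusp. -/
  κ : Y → Option ι
  κ_T : ∀ y, κ (T y) = κ y
  orbit : ∀ y y', κ y = κ y' → ∃ j : ℕ, (⇑T)^[j] y = y'
  /-- The common cardinality of the classes. -/
  n : ℕ
  n_unit : IsUnit (n : R)
  card_fibre : ∀ o, Nat.card {y // κ y = o} = n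
  /-- The finite values. -/
  val : ι → R
  val_sub : ∀ c c', c ≠ c' → IsUnit (val c - val c')
  /-- The coordinate. -/
  t : Y → LaurentSeries R
  t_fam : IsFam T ζ t
  t_none : ∀ y, κ y = none → LowBd (-(m : ℤ)) (t y) ∧ IsUnit ((t y).coeff (-(m : ℤ)))
  t_some : ∀ y c, κ y = some c →
    LowBd 0 (t y) ∧ (t y).coeff 0 = val c ∧ IsUnit ((t y).coeff (m : ℤ))
  /-- `1 / (t - val c)`. -/
  u : ι → Y → LaurentSeries R
  u_mul : ∀ c y, (t y - HahnSeries.C (val c)) * u c y = 1

namespace LineData

variable {Y ι : Type*} (D : LineData R Y ι)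

/-- The function with poles exactly at the class `o`. -/
def gen : Option ι → Y → LaurentSeries R
  | none => D.t
  | some c => D.u c

/-- The order sign of `θ t`. -/
def sgn : Option ι → ℤ
  | none => -1
  | some _ => 1

/-- `θ t`. -/
def w : Y → LaurentSeries R := fun y => theta (D.t y)

/-- Polynomials in `t` and the `1/(t - c)` without constant term. -/
def polar : Submodule R (Y → LaurentSeries R) :=
  Submodule.span R (Set.range fun p : Option ι × ℕ => D.gen p.1 ^ (p.2 + 1))

/-- `θ t` is compatible with translation. -/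
lemma w_fam : IsFam D.T D.ζ D.w := D.t_fam.theta

lemma u_fam (c : ι) : IsFam D.T D.ζ (D.u c) := fun y => by
  have h := congrArg (twist D.ζ) (D.u_mul c y)
  rw [map_mul, map_one, map_sub, twist_C, ← D.t_fam y] at h
  calc D.u c (D.T y)
      = D.u c (D.T y) * ((D.t (D.T y) - HahnSeries.C (D.val c)) * twist D.ζ (D.u c y)) := by
        rw [h, mul_one]
    _ = ((D.t (D.T y) - HahnSeries.C (D.val c)) * D.u c (D.T y)) * twist D.ζ (D.u c y) := by ring
    _ = twist D.ζ (D.u c y) := by rw [D.u_mul, one_mul]

lemma gen_fam : ∀ o, IsFam D.T D.ζ (D.gen o)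
  | none => D.t_fam
  | some c => D.u_fam c

/-- Polar polynomials are compatible with translation. -/
lemma polar_fam {p : Y → LaurentSeries R} (hp : p ∈ D.polar) : IsFam D.T D.ζ p := by
  induction hp using Submodule.span_induction with
  | mem x hx => obtain ⟨q, rfl⟩ := hx; exact (D.gen_fam q.1).pow _
  | zero => exact IsFam.zero
  | add x y _ _ hx hy => exact hx.add hy
  | smul r x _ hx => exact hx.smul r

lemma gen_pow_mem_polar (o : Option ι) {j : ℕ} (hj : j ≠ 0) : D.gen o ^ j ∈ D.polar := by
  obtain ⟨i, rfl⟩ := Nat.exists_eq_succ_of_ne_zero hj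
  exact Submodule.subset_span ⟨(o, i), rfl⟩

include D in
lemma m_pos [Nontrivial R] : 0 < D.m := by
  rcases Nat.eq_zero_or_pos D.m with h | h
  · exfalso; exact not_isUnit_zero (M₀ := R) (by simpa [D.L_eq, h] using D.L_unit)
  · exact h

lemma m_unit : IsUnit (D.m : R) := by
  have h := D.L_unit
  rw [D.L_eq, Nat.cast_mul] at h
  exact isUnit_of_mul_isUnit_left h

/-- Every class contains a cusp. -/
lemma exists_rep [Nontrivial R] (o : Option ι) : ∃ y, D.κ y = o := by
  by_contra h
  push Not at h
  have : IsEmpty {y // D.κ y = o} := ⟨fun y => h y.1 y.2⟩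
  have hn := D.card_fibre o
  rw [Nat.card_of_isEmpty] at hn
  exact not_isUnit_zero (M₀ := R) (by simpa [← hn] using D.n_unit)

section Domain

variable [IsDomain R]

lemma fam_coeff_eq_zero {s : Y → LaurentSeries R} (hs : IsFam D.T D.ζ s) (y : Y) {i : ℤ}
    (hi : ¬ (D.m : ℤ) ∣ i) : (s y).coeff i = 0 := by
  have h := hs.iterate y D.M
  rw [D.periodic] at h
  have hc := congrArg (fun x : LaurentSeries R => x.coeff i) h
  simp only [twist_coeff] at hc
  have hprim : IsPrimitiveRoot D.ζ D.L := (IsPrimitiveRoot.coe_units_iff).mp D.prim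
  have hne : (((D.ζ ^ D.M) ^ i : Rˣ) : R) ≠ 1 := by
    intro e
    rw [← Units.val_one] at e
    have := Units.ext e
    rw [← zpow_natCast, ← zpow_mul, hprim.zpow_eq_one_iff_dvd, D.L_eq, Nat.cast_mul,
      mul_comm (D.m : ℤ)] at this
    rcases Nat.eq_zero_or_pos D.M with hM | hM
    · exact not_isUnit_zero (M₀ := R) (by simpa [D.L_eq, hM] using D.L_unit)
    · exact hi (Int.dvd_of_mul_dvd_mul_left (by omega) this)
  by_contra h0
  exact hne (mul_right_cancel₀ h0 (by rw [one_mul]; exact hc.symm))

lemma t_sub_some {y : Y} {c : ι} (hy : D.κ y = some c) :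
    LowBd (D.m : ℤ) (D.t y - HahnSeries.C (D.val c)) ∧
      IsUnit ((D.t y - HahnSeries.C (D.val c)).coeff (D.m : ℤ)) := by
  obtain ⟨h0, hc, hu⟩ := D.t_some y c hy
  have hm := D.m_pos
  refine ⟨fun i hi => ?_, ?_⟩
  · rcases lt_trichotomy i 0 with h | rfl | h
    · simp [h0 i h, HahnSeries.C_apply, HahnSeries.coeff_single_of_ne h.ne]
    · simp [hc, HahnSeries.C_apply]
    · rw [HahnSeries.coeff_sub, HahnSeries.C_apply, HahnSeries.coeff_single_of_ne h.ne', sub_zero]
      refine D.fam_coeff_eq_zero D.t_fam y fun hdvd => ?_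
      have := Int.le_of_dvd h hdvd
      omega
  · rw [HahnSeries.coeff_sub, HahnSeries.C_apply, HahnSeries.coeff_single_of_ne (by omega),
      sub_zero]
    exact hu

lemma t_sub_none {y : Y} (c : ι) (hy : D.κ y = none) :
    LowBd (-(D.m : ℤ)) (D.t y - HahnSeries.C (D.val c)) ∧
      IsUnit ((D.t y - HahnSeries.C (D.val c)).coeff (-(D.m : ℤ))) := by
  have hm := D.m_pos
  refine ⟨(D.t_none y hy).1.sub ((lowBd_C _).mono (by omega)), ?_⟩
  rw [HahnSeries.coeff_sub, HahnSeries.C_apply, HahnSeries.coeff_single_of_ne (by omega),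
    sub_zero]
  exact (D.t_none y hy).2

omit [IsDomain R] in
lemma t_sub_other {y : Y} {c c' : ι} (hy : D.κ y = some c') (h : c' ≠ c) :
    LowBd 0 (D.t y - HahnSeries.C (D.val c)) ∧
      IsUnit ((D.t y - HahnSeries.C (D.val c)).coeff 0) := by
  refine ⟨(D.t_some y c' hy).1.sub (lowBd_C _), ?_⟩
  simpa [(D.t_some y c' hy).2.1, HahnSeries.C_apply] using D.val_sub c' c h

lemma gen_self {y : Y} {o : Option ι} (hy : D.κ y = o) :
    LowBd (-(D.m : ℤ)) (D.gen o y) ∧ IsUnit ((D.gen o y).coeff (-(D.m : ℤ))) := by
  cases o with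
  | none => exact D.t_none y hy
  | some c =>
    obtain ⟨h1, h2⟩ := inverse_lowBd (D.t_sub_some hy).1 (D.t_sub_some hy).2 (D.u_mul c y)
    exact ⟨h1, .of_mul_eq_one_right _ h2⟩

lemma gen_other {y : Y} {o : Option ι} (hy : D.κ y ≠ o) : LowBd 0 (D.gen o y) := by
  cases o with
  | none =>
    obtain ⟨c, hc⟩ := Option.ne_none_iff_exists'.mp hy
    exact (D.t_some y c hc).1
  | some c =>
    cases hk : D.κ y with
    | none =>
      have := (inverse_lowBd (D.t_sub_none c hk).1 (D.t_sub_none c hk).2 (D.u_mul c y)).1
      exact this.mono (by omega)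
    | some c' =>
      have hne : c' ≠ c := fun e => hy (by rw [hk, e])
      simpa [gen] using
        (inverse_lowBd (D.t_sub_other hk hne).1 (D.t_sub_other hk hne).2 (D.u_mul c y)).1

/-- The lowest term of `θ t` at a cusp is a unit in degree `sgn o * m`. -/
lemma w_lead {y : Y} {o : Option ι} (hy : D.κ y = o) :
    LowBd (sgn o * D.m) (D.w y) ∧ IsUnit ((D.w y).coeff (sgn o * D.m)) := by
  cases o with
  | none =>
    simp only [sgn, neg_one_mul, w, theta_coeff]
    refine ⟨(D.t_none y hy).1.theta, ?_⟩
    push_cast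
    exact (D.m_unit.neg).mul (D.t_none y hy).2
  | some c =>
    simp only [sgn, one_mul, w]
    rw [← theta_sub_C (D.t y) (D.val c)]
    refine ⟨(D.t_sub_some hy).1.theta, ?_⟩
    rw [theta_coeff]
    push_cast
    exact D.m_unit.mul (D.t_sub_some hy).2

/-- `θ t` has poles of order at most `m`. -/
lemma w_lowBd (y : Y) : LowBd (-(D.m : ℤ)) (D.w y) := by
  refine (D.w_lead (y := y) rfl).1.mono ?_
  cases D.κ y <;> simp [sgn]

/-- `θ t` is invertible at every cusp, with poles of order at most `m`. -/
lemma w_inverse (y : Y) : ∃ v, D.w y * v = 1 ∧ LowBd (-(D.m : ℤ)) v := by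
  obtain ⟨v, h1, h2, -⟩ := exists_inverse (D.w_lead (y := y) rfl).1 (D.w_lead (y := y) rfl).2
  exact ⟨v, h1, h2.mono (by cases D.κ y <;> simp [sgn])⟩

omit [IsDomain R] in
lemma eq_zero_of_rep {s : Y → LaurentSeries R} (hs : IsFam D.T D.ζ s) {y₀ y : Y}
    (h : D.κ y₀ = D.κ y) {i : ℤ} (h0 : (s y₀).coeff i = 0) : (s y).coeff i = 0 := by
  obtain ⟨j, rfl⟩ := D.orbit y₀ y h
  simp [hs.iterate y₀ j, h0]

open scoped Classical in
omit [IsDomain R] in
lemma sum_class [Fintype Y] {s : Y → LaurentSeries R} (hs : IsFam D.T D.ζ s) {y₀ : Y}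
    {o : Option ι} (h : D.κ y₀ = o) :
    ∑ y with D.κ y = o, (s y).coeff 0 = (D.n : R) * (s y₀).coeff 0 := by
  have : ∀ y ∈ Finset.univ.filter (fun y => D.κ y = o), (s y).coeff 0 = (s y₀).coeff 0 := by
    intro y hy
    obtain ⟨j, rfl⟩ := D.orbit y₀ y (h.trans (Finset.mem_filter.mp hy).2.symm)
    simp [hs.iterate y₀ j]
  rw [Finset.sum_congr rfl this, Finset.sum_const, nsmul_eq_mul,
    show (Finset.univ.filter (fun y => D.κ y = o)).card = D.n by
      rw [← D.card_fibre o, Nat.card_eq_fintype_card, Fintype.card_subtype]]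

open scoped Classical in
omit [IsDomain R] in
lemma res_eq_class [Fintype Y] {s : Y → LaurentSeries R} (hs : IsFam D.T D.ζ s) {y₀ : Y}
    {o : Option ι} (h : D.κ y₀ = o) (hoff : ∀ y, D.κ y ≠ o → (s y).coeff 0 = 0) :
    res s = (D.n : R) * (s y₀).coeff 0 := by
  rw [res, ← D.sum_class hs h, Finset.sum_filter]
  refine Finset.sum_congr rfl fun y _ => ?_
  by_cases hy : D.κ y = o <;> simp [hy, hoff y]

/-- Every family is a polynomial in `t`, `1/(t-c)` plus a family without poles. -/
theorem exists_polar [Finite Y] [Fintype ι] {s : Y → LaurentSeries R} (hs : IsFam D.T D.ζ s) :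
    ∃ p ∈ D.polar, ∀ y, LowBd 0 (s y - p y) := by
  obtain ⟨N, hN⟩ := exists_lowBd_family s
  induction N generalizing s with
  | zero => exact ⟨0, zero_mem _, fun y => by simpa using hN y⟩
  | succ N ih =>
    have step : ∀ {r : Y → LaurentSeries R}, IsFam D.T D.ζ r →
        (∀ y, LowBd (-((N + 1 : ℕ) : ℤ)) (r y)) →
        (∀ y, (r y).coeff (-((N + 1 : ℕ) : ℤ)) = 0) → ∀ y, LowBd (-(N : ℤ)) (r y) := by
      intro r _ h1 h2 y i hi
      rcases eq_or_lt_of_le (show i ≤ -((N + 1 : ℕ) : ℤ) by omega) with rfl | h
      · exact h2 y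
      · exact h1 y i h
    by_cases hdvd : (D.m : ℤ) ∣ ((N + 1 : ℕ) : ℤ)
    swap
    · exact ih hs (step hs hN fun y => D.fam_coeff_eq_zero hs y
        fun h => hdvd (dvd_neg.mp h))
    obtain ⟨j, hj⟩ := Int.natCast_dvd_natCast.mp hdvd
    have hj0 : j ≠ 0 := fun h => by simp [h] at hj
    choose rep hrep using fun o : Option ι => D.exists_rep o
    have hlead : ∀ o, IsUnit ((D.gen o (rep o)).coeff (-(D.m : ℤ)) ^ j) :=
      fun o => (D.gen_self (hrep o)).2.pow j
    let a : Option ι → R := fun o =>
      (s (rep o)).coeff (-((N + 1 : ℕ) : ℤ)) * ↑(hlead o).unit⁻¹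
    let p : Y → LaurentSeries R := ∑ o, a o • D.gen o ^ j
    have hp : p ∈ D.polar :=
      Submodule.sum_mem _ fun o _ => Submodule.smul_mem _ _ (D.gen_pow_mem_polar o hj0)
    have hdeg : (j : ℤ) * -(D.m : ℤ) = -((N + 1 : ℕ) : ℤ) := by rw [hj]; push_cast; ring
    have hb : ∀ o y, LowBd (-((N + 1 : ℕ) : ℤ)) ((D.gen o ^ j) y) := by
      intro o y
      rw [Pi.pow_apply]
      by_cases h : D.κ y = o
      · exact ((D.gen_self h).1.pow j).mono hdeg.ge
      · exact ((D.gen_other h).pow j).mono (by simp)
    have hzero : ∀ y, (s y - p y).coeff (-((N + 1 : ℕ) : ℤ)) = 0 := by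
      intro y
      refine D.eq_zero_of_rep (hs.sub (D.polar_fam hp)) (y₀ := rep (D.κ y)) (hrep _) ?_
      rw [Pi.sub_apply, HahnSeries.coeff_sub, sub_eq_zero]
      simp only [p, Finset.sum_apply, Pi.smul_apply, HahnSeries.coeff_sum, HahnSeries.coeff_smul,
        smul_eq_mul, Pi.pow_apply]
      rw [Finset.sum_eq_single (D.κ y)]
      · rw [← hdeg, coeff_pow_low (D.gen_self (hrep _)).1 j]
        simp only [a, hdeg, mul_assoc, IsUnit.val_inv_mul, mul_one]
      · intro o _ ho
        have := (D.gen_other (y := rep (D.κ y)) (o := o) (by rw [hrep]; exact ho.symm)).pow j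
        rw [this _ (by simp; omega), mul_zero]
      · simp
    obtain ⟨q, hq, hq'⟩ := ih (hs.sub (D.polar_fam hp))
      (step (hs.sub (D.polar_fam hp)) (fun y => (hN y).sub
        (by rw [show p y = ∑ o, a o • (D.gen o ^ j) y by simp [p, Finset.sum_apply]]
            exact LowBd.sum _ fun o _ => (hb o y).smul _)) hzero)
    exact ⟨p + q, add_mem hp hq, fun y => by
      simpa [sub_sub] using hq' y⟩

/-- The differentials `(gen o) ^ j θ t` have residue zero. -/
lemma res_gen_pow_mul_w [Fintype Y] [CharZero R] : ∀ (o : Option ι) (j : ℕ),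
    res (D.gen o ^ j * D.w) = 0 := by
  intro o j
  have hexact : ∀ (x : Y → LaurentSeries R) (i : ℕ),
      res (fun y => x y ^ i * theta (x y)) = 0 := by
    intro x i
    refine Finset.sum_eq_zero fun y _ => ?_
    have h := coeff_zero_theta (x y ^ (i + 1))
    rw [theta_pow_succ, ← map_natCast (HahnSeries.C : R →+* LaurentSeries R),
      HahnSeries.C_mul_eq_smul, HahnSeries.coeff_smul, smul_eq_mul, mul_eq_zero] at h
    exact h.resolve_left (Nat.cast_ne_zero.mpr i.succ_ne_zero)
  cases o with
  | none => exact hexact D.t j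
  | some c =>
    have hwu : ∀ y, D.w y = theta (D.t y - HahnSeries.C (D.val c)) :=
      fun y => (theta_sub_C _ _).symm
    rcases j with _ | _ | j
    · exact Finset.sum_eq_zero fun y _ => by simp [w]
    · classical
      simp only [zero_add, pow_one, gen, res, Pi.mul_apply, hwu]
      have hval : ∀ y, (D.u c y * theta (D.t y - HahnSeries.C (D.val c))).coeff 0 =
          (if D.κ y = some c then (D.m : R) else 0) - if D.κ y = none then (D.m : R) else 0 := by
        intro y
        cases hk : D.κ y with
        | none =>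
          rw [coeff_zero_mul_theta (D.t_sub_none c hk).1 (D.t_sub_none c hk).2 (D.u_mul c y)]
          simp
        | some c' =>
          by_cases h : c' = c
          · subst h
            rw [coeff_zero_mul_theta (D.t_sub_some hk).1 (D.t_sub_some hk).2 (D.u_mul c' y)]
            simp
          · rw [coeff_zero_mul_theta (D.t_sub_other hk h).1 (D.t_sub_other hk h).2 (D.u_mul c y)]
            simp [h]
      rw [Finset.sum_congr rfl fun y _ => hval y, Finset.sum_sub_distrib, ← Finset.sum_filter,
        ← Finset.sum_filter, Finset.sum_const, Finset.sum_const,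
        ← Fintype.card_subtype, ← Fintype.card_subtype, ← Nat.card_eq_fintype_card,
        ← Nat.card_eq_fintype_card, D.card_fibre, D.card_fibre, sub_self]
    · have hu : ∀ y, theta (D.u c y) = -(D.u c y ^ 2 * D.w y) := fun y => by
        rw [hwu]; exact theta_inverse (D.u_mul c y)
      calc res (D.gen (some c) ^ (j + 2) * D.w)
          = res (fun y => -(D.u c y ^ j * theta (D.u c y))) := by
            refine congrArg res (funext fun y => ?_)
            simp [gen, hu, pow_add, mul_assoc]
        _ = -res (fun y => D.u c y ^ j * theta (D.u c y)) := by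
            simp [res, Finset.sum_neg_distrib]
        _ = 0 := by rw [hexact, neg_zero]

/-- The sum of residues of `p θ t` vanishes. -/
theorem res_polar_mul_w [Fintype Y] [CharZero R] {p : Y → LaurentSeries R} (hp : p ∈ D.polar) :
    res (p * D.w) = 0 := by
  induction hp using Submodule.span_induction with
  | mem x hx => obtain ⟨q, rfl⟩ := hx; exact D.res_gen_pow_mul_w _ _
  | zero => simp [res]
  | add x y _ _ hx hy => rw [add_mul, res_add, hx, hy, add_zero]
  | smul r x _ hx =>
    have : (r • x) * D.w = r • (x * D.w) := funext fun y => by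
      simp only [Pi.mul_apply, Pi.smul_apply, ← HahnSeries.C_mul_eq_smul, mul_assoc]
    rw [this, res_smul, hx, mul_zero]

end Domain

/-- Base change along `f`. -/
def map (f : R →+* S) (h : IsPrimitiveRoot (f D.ζ) D.L) : LineData S Y ι where
  T := D.T
  M := D.M
  m := D.m
  L := D.L
  L_eq := D.L_eq
  periodic := D.periodic
  L_unit := by simpa using D.L_unit.map f
  ζ := Units.map (f : R →* S) D.ζ
  prim := h
  κ := D.κ
  κ_T := D.κ_T
  orbit := D.orbit
  n := D.n
  n_unit := by simpa using D.n_unit.map f
  card_fibre := D.card_fibre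
  val c := f (D.val c)
  val_sub c c' hc := by simpa using (D.val_sub c c' hc).map f
  t y := coeffMap f (D.t y)
  t_fam := D.t_fam.map f
  t_none y hy := ⟨(D.t_none y hy).1.map f, by simpa using (D.t_none y hy).2.map f⟩
  t_some y c hy := ⟨(D.t_some y c hy).1.map f, by simp [(D.t_some y c hy).2.1],
    by simpa using (D.t_some y c hy).2.2.map f⟩
  u c y := coeffMap f (D.u c y)
  u_mul c y := by rw [← coeffMap_C, ← map_sub, ← map_mul, D.u_mul, map_one]

/-- Base change of the generators. -/
lemma map_gen (f : R →+* S) (h : IsPrimitiveRoot (f D.ζ) D.L) (o : Option ι) (y : Y) :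
    (D.map f h).gen o y = coeffMap f (D.gen o y) := by cases o <;> rfl

/-- Base change of `θ t`. -/
lemma map_w (f : R →+* S) (h : IsPrimitiveRoot (f D.ζ) D.L) (y : Y) :
    (D.map f h).w y = coeffMap f (D.w y) := (coeffMap_theta f _).symm

section Field

variable {k : Type*} [Field k] (E : LineData k Y ι)

/-- Families without poles orthogonal to all polynomials are constant. -/
theorem eq_const_of_orth [Fintype Y] {s : Y → LaurentSeries k} (hs : IsFam E.T E.ζ s)
    (h0 : ∀ y, LowBd 0 (s y)) (hw : ∀ o j, res (E.gen o ^ j * E.w) = 0)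
    (horth : ∀ o j, res (E.gen o ^ j * s * E.w) = 0) :
    ∃ c : k, s = fun _ => HahnSeries.C c := by
  obtain ⟨yi, hyi⟩ := E.exists_rep none
  set c := (s yi).coeff 0
  refine ⟨c, ?_⟩
  set r : Y → LaurentSeries k := s - fun _ => HahnSeries.C c with hr
  have hrf : IsFam E.T E.ζ r := hs.sub (IsFam.const c)
  have hr0 : ∀ y, LowBd 0 (r y) := fun y => (h0 y).sub (lowBd_C c)
  have horth' : ∀ o j, res (E.gen o ^ j * r * E.w) = 0 := by
    intro o j
    have : E.gen o ^ j * r * E.w = E.gen o ^ j * s * E.w - c • (E.gen o ^ j * E.w) := by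
      funext y
      simp only [hr, Pi.mul_apply, Pi.sub_apply, Pi.smul_apply, ← HahnSeries.C_mul_eq_smul]
      ring
    rw [this, res_sub, horth, res_smul, hw, mul_zero, sub_zero]
  have hri : (r yi).coeff 0 = 0 := by simp [hr, c, HahnSeries.C_apply]
  have hm := E.m_pos
  -- vanishing at a class, given what happens outside
  have key : ∀ (o : Option ι) (y₀ : Y), E.κ y₀ = o →
      (∀ j y, E.κ y ≠ o → ((E.gen o ^ j * r * E.w) y).coeff 0 = 0) →
      (o = none → (r y₀).coeff 0 = 0) → ∀ y, E.κ y = o → r y = 0 := by
    intro o y₀ hy₀ hoff hstart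
    have hall : ∀ i : ℕ, (r y₀).coeff ((i : ℤ) * E.m) = 0 := by
      intro i
      induction i using Nat.strong_induction_on with
      | _ i ih =>
        by_cases hexc : o = none ∧ i = 0
        · simpa [hexc.2] using hstart hexc.1
        have hlow : LowBd ((i : ℤ) * E.m) (r y₀) := by
          intro l hl
          rcases lt_or_ge l 0 with h | h
          · exact hr0 y₀ l h
          by_cases hd : (E.m : ℤ) ∣ l
          · obtain ⟨q, rfl⟩ := hd
            have hq : 0 ≤ q := nonneg_of_mul_nonneg_right h (by exact_mod_cast hm)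
            lift q to ℕ using hq
            rw [mul_comm]
            refine ih q ?_
            have : (q : ℤ) < i := by nlinarith
            exact_mod_cast this
          · exact E.fam_coeff_eq_zero hrf y₀ hd
        obtain ⟨j, hj⟩ : ∃ j : ℕ, (j : ℤ) = i + sgn o := by
          refine ⟨((i : ℤ) + sgn o).toNat, Int.toNat_of_nonneg ?_⟩
          cases o with
          | none =>
            have : i ≠ 0 := fun h => hexc ⟨rfl, h⟩
            simp [sgn]; omega
          | some c => simp [sgn]; omega
        have h1 := (E.gen_self hy₀).1.pow j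
        have h2 := (h1.mul hlow).mul (E.w_lead hy₀).1
        have hdeg : (j : ℤ) * -(E.m : ℤ) + (i : ℤ) * E.m + sgn o * E.m = 0 := by rw [hj]; ring
        have hres := horth' o j
        rw [E.res_eq_class (((E.gen_fam o).pow j).mul hrf |>.mul E.w_fam) hy₀ (hoff j),
          mul_eq_zero] at hres
        have hc0 := hres.resolve_left E.n_unit.ne_zero
        rw [Pi.mul_apply, Pi.mul_apply, Pi.pow_apply, ← hdeg,
          coeff_mul_low (h1.mul hlow) (E.w_lead hy₀).1, coeff_mul_low h1 hlow,
          coeff_pow_low (E.gen_self hy₀).1 j] at hc0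
        rcases mul_eq_zero.mp hc0 with h | h
        · exact (mul_eq_zero.mp h).resolve_left ((E.gen_self hy₀).2.pow j).ne_zero
        · exact absurd h (E.w_lead hy₀).2.ne_zero
    intro y hy
    ext l
    refine E.eq_zero_of_rep hrf (hy₀.trans hy.symm) ?_
    rcases lt_or_ge l 0 with h | h
    · exact hr0 y₀ l h
    by_cases hd : (E.m : ℤ) ∣ l
    · obtain ⟨q, rfl⟩ := hd
      have hq : 0 ≤ q := nonneg_of_mul_nonneg_right h (by exact_mod_cast hm)
      lift q to ℕ using hq
      rw [mul_comm]
      exact hall q
    · exact E.fam_coeff_eq_zero hrf y₀ hd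
  have hnone : ∀ y, E.κ y = none → r y = 0 := by
    refine key none yi hyi (fun j y hy => ?_) (fun _ => hri)
    obtain ⟨c', hc'⟩ := Option.ne_none_iff_exists'.mp hy
    refine ((((E.gen_other hy).pow j).mul (hr0 y)).mul (E.w_lead hc').1) 0 ?_
    simp [sgn]; omega
  have hrz : r = 0 := by
    funext y
    cases hk : E.κ y with
    | none => exact hnone y hk
    | some c' =>
      refine key (some c') y hk (fun j z hz => ?_) (fun h => absurd h (by simp)) y hk
      cases hkz : E.κ z with
      | none => simp [hnone z hkz]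
      | some c'' =>
        refine ((((E.gen_other hz).pow j).mul (hr0 z)).mul (E.w_lead hkz).1) 0 ?_
        simp [sgn]; omega
  exact sub_eq_zero.mp hrz

end Field

end LineData

end Fermat.Agent.AtP.DiffLift
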