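import Fermat.Agent.ModularFunctionField.Twist

/-!
# Lowest coefficients of Laurent series and the residue of `u · θ x`

`LowBd d x` says that `x` has no term of degree `< d`.  The main computation is
`coeff_zero_mul_theta`: the constant term of `θ x / x` is the order of `x`.
-/

set_option autoImplicit false

noncomputable section

namespace Fermat.Agent.AtP.DiffLift

open Fermat.Agent.ModularFunctionField ModularCurve

variable {R S : Type*} [CommRing R] [CommRing S]

/-- No terms of degree less than `d`. -/
def LowBd (d : ℤ) (x : LaurentSeries R) : Prop := ∀ i < d, x.coeff i = 0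

/-- A lower bound may be lowered. -/
lemma LowBd.mono {d d' : ℤ} {x : LaurentSeries R} (h : LowBd d x) (hd : d' ≤ d) : LowBd d' x :=
  fun i hi => h i (lt_of_lt_of_le hi hd)

/-- The zero series satisfies every bound. -/
lemma lowBd_zero (d : ℤ) : LowBd d (0 : LaurentSeries R) := fun _ _ => rfl

/-- Lower bounds pass to sums. -/
lemma LowBd.add {d : ℤ} {x y : LaurentSeries R} (hx : LowBd d x) (hy : LowBd d y) :
    LowBd d (x + y) := fun i hi => by simp [hx i hi, hy i hi]

/-- Lower bounds pass to opposites. -/
lemma LowBd.neg {d : ℤ} {x : LaurentSeries R} (hx : LowBd d x) : LowBd d (-x) :=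
  fun i hi => by simp [hx i hi]

/-- Lower bounds pass to differences. -/
lemma LowBd.sub {d : ℤ} {x y : LaurentSeries R} (hx : LowBd d x) (hy : LowBd d y) :
    LowBd d (x - y) := by rw [sub_eq_add_neg]; exact hx.add hy.neg

/-- Lower bounds pass to finite sums. -/
lemma LowBd.sum {d : ℤ} {ι : Type*} (T : Finset ι) {f : ι → LaurentSeries R}
    (h : ∀ i ∈ T, LowBd d (f i)) : LowBd d (∑ i ∈ T, f i) := fun i hi => by
  rw [HahnSeries.coeff_sum]
  exact Finset.sum_eq_zero fun j hj => h j hj i hi

/-- Lower bounds pass to scalar multiples. -/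
lemma LowBd.smul {d : ℤ} {x : LaurentSeries R} (hx : LowBd d x) (r : R) : LowBd d (r • x) :=
  fun i hi => by simp [hx i hi]

/-- Constants start in degree `0`. -/
lemma lowBd_C (r : R) : LowBd 0 (HahnSeries.C r : LaurentSeries R) := fun i hi => by
  simp [HahnSeries.C_apply, HahnSeries.coeff_single_of_ne hi.ne]

/-- The series `1` starts in degree `0`. -/
lemma lowBd_one : LowBd 0 (1 : LaurentSeries R) := fun i hi => by
  simp [HahnSeries.coeff_one, hi.ne]

/-- Lower bounds add under products. -/
lemma LowBd.mul {a b : ℤ} {x y : LaurentSeries R} (hx : LowBd a x) (hy : LowBd b y) :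
    LowBd (a + b) (x * y) := fun i hi => by
  rw [HahnSeries.coeff_mul]
  refine Finset.sum_eq_zero fun p hp => ?_
  rw [Finset.mem_antidiagonal] at hp
  rcases lt_or_ge p.1 a with h | h
  · simp [hx _ h]
  · simp [hy p.2 (by omega)]

/-- The lowest coefficient of a product. -/
lemma coeff_mul_low {a b : ℤ} {x y : LaurentSeries R} (hx : LowBd a x) (hy : LowBd b y) :
    (x * y).coeff (a + b) = x.coeff a * y.coeff b := by
  rw [HahnSeries.coeff_mul]
  rw [Finset.sum_eq_single (a, b)]
  · intro p hp hne
    rw [Finset.mem_antidiagonal] at hp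
    rcases lt_trichotomy p.1 a with h | h | h
    · simp [hx _ h]
    · exact absurd (Prod.ext h (by omega)) hne
    · simp [hy p.2 (by omega)]
  · intro h
    simp only [Finset.mem_antidiagonal, HahnSeries.mem_support, and_true] at h
    by_contra hne
    exact h ⟨left_ne_zero_of_mul hne, right_ne_zero_of_mul hne⟩

/-- Multiplying by a power series keeps the bound. -/
lemma LowBd.mul_nonneg {a : ℤ} {x y : LaurentSeries R} (hx : LowBd a x) (hy : LowBd 0 y) :
    LowBd a (x * y) := by simpa using hx.mul hy

/-- Lower bounds scale under powers. -/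
lemma LowBd.pow {a : ℤ} {x : LaurentSeries R} (hx : LowBd a x) :
    ∀ n : ℕ, LowBd (n * a) (x ^ n)
  | 0 => by simpa using lowBd_one
  | n + 1 => by
      rw [pow_succ]
      exact ((hx.pow n).mul hx).mono (by push_cast; ring_nf; exact le_rfl)

/-- The lowest coefficient of a power. -/
lemma coeff_pow_low {a : ℤ} {x : LaurentSeries R} (hx : LowBd a x) :
    ∀ n : ℕ, (x ^ n).coeff (n * a) = x.coeff a ^ n
  | 0 => by simp
  | n + 1 => by
      rw [show ((n + 1 : ℕ) : ℤ) * a = n * a + a by push_cast; ring, pow_succ, pow_succ,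
        coeff_mul_low (hx.pow n) hx, coeff_pow_low hx n]

/-- Every Laurent series has a lower bound. -/
lemma exists_lowBd (x : LaurentSeries R) : ∃ n : ℕ, LowBd (-(n : ℤ)) x := by
  rcases eq_or_ne x 0 with rfl | hx
  · exact ⟨0, lowBd_zero _⟩
  · exact ⟨(-x.order).toNat, fun i hi => HahnSeries.coeff_eq_zero_of_lt_order (by omega)⟩

/-- Finitely many series have a common lower bound. -/
lemma exists_lowBd_family {ι : Type*} [Finite ι] (f : ι → LaurentSeries R) :
    ∃ n : ℕ, ∀ i, LowBd (-(n : ℤ)) (f i) := by
  cases nonempty_fintype ι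
  choose n hn using fun i => exists_lowBd (f i)
  exact ⟨Finset.univ.sup n, fun i => (hn i).mono
    (by have := Finset.le_sup (f := n) (Finset.mem_univ i); omega)⟩

/-- A series with a unit lowest coefficient is a unit, with inverse of opposite order. -/
lemma exists_inverse {a : ℤ} {x : LaurentSeries R} (hx : LowBd a x) (hu : IsUnit (x.coeff a)) :
    ∃ y, x * y = 1 ∧ LowBd (-a) y ∧ x.coeff a * y.coeff (-a) = 1 := by
  set p : PowerSeries R := PowerSeries.mk fun n => x.coeff (a + n)
  have hxp : HahnSeries.single (-a) (1 : R) * x = HahnSeries.ofPowerSeries ℤ R p := by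
    ext i
    rw [HahnSeries.coeff_single_mul, one_mul, sub_neg_eq_add]
    rcases lt_or_ge i 0 with hi | hi
    · rw [hx _ (by omega)]
      symm
      rw [HahnSeries.ofPowerSeries_apply, HahnSeries.embDomain_of_notMem_range]
      rintro ⟨n, hn⟩
      simp at hn
      omega
    · lift i to ℕ using hi
      rw [HahnSeries.ofPowerSeries_apply_coeff, PowerSeries.coeff_mk, add_comm]
  obtain ⟨v, hv⟩ := (PowerSeries.isUnit_iff_constantCoeff.mpr
    (by simpa [p] using hu) : IsUnit p)
  refine ⟨HahnSeries.single (-a) 1 * HahnSeries.ofPowerSeries ℤ R ↑v⁻¹, ?_, ?_, ?_⟩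
  · rw [← mul_assoc, mul_comm x, hxp, ← map_mul, ← hv, Units.mul_inv, map_one]
  · intro i hi
    rw [HahnSeries.coeff_single_mul, one_mul, HahnSeries.ofPowerSeries_apply,
      HahnSeries.embDomain_of_notMem_range]
    rintro ⟨n, hn⟩
    simp at hn
    omega
  · rw [HahnSeries.coeff_single_mul, one_mul, sub_self,
      show (0 : ℤ) = ((0 : ℕ) : ℤ) by rfl, HahnSeries.ofPowerSeries_apply_coeff,
      PowerSeries.coeff_zero_eq_constantCoeff]
    have h := congrArg (PowerSeries.constantCoeff (R := R)) v.mul_inv
    rw [map_mul, map_one, hv] at h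
    simpa [p] using h

/-- The inverse of a series with unit lowest coefficient. -/
lemma inverse_lowBd {a : ℤ} {x y : LaurentSeries R} (hx : LowBd a x) (hu : IsUnit (x.coeff a))
    (hxy : x * y = 1) : LowBd (-a) y ∧ x.coeff a * y.coeff (-a) = 1 := by
  obtain ⟨z, hz, h⟩ := exists_inverse hx hu
  have : y = z := by
    calc y = (x * z) * y := by rw [hz, one_mul]
      _ = (x * y) * z := by ring
      _ = z := by rw [hxy, one_mul]
  rwa [this]

/-- Twists keep the constant term. -/
@[simp] lemma coeff_zero_twist (c : Rˣ) (x : LaurentSeries R) :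
    (twist c x).coeff 0 = x.coeff 0 := by simp

/-- Twists keep lower bounds. -/
lemma LowBd.twist {a : ℤ} {x : LaurentSeries R} (hx : LowBd a x) (c : Rˣ) :
    LowBd a (twist c x) := fun i hi => by simp [hx i hi]

/-- The operator `θ` keeps lower bounds. -/
lemma LowBd.theta {a : ℤ} {x : LaurentSeries R} (hx : LowBd a x) : LowBd a (theta x) :=
  fun i hi => by simp [hx i hi]

/-- `θ x` has no constant term. -/
lemma coeff_zero_theta (x : LaurentSeries R) : (theta x).coeff 0 = 0 := by simp

/-- `θ` kills constants. -/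
lemma theta_sub_C (x : LaurentSeries R) (r : R) : theta (x - HahnSeries.C r) = theta x := by
  rw [sub_eq_add_neg, theta_add, ← map_neg, theta_C, add_zero]

/-- `θ 1 = 0`. -/
lemma theta_one : theta (1 : LaurentSeries R) = 0 := by
  rw [← map_one (HahnSeries.C : R →+* LaurentSeries R), theta_C]

/-- `θ (x ^ (n+1)) = (n+1) x ^ n θ x`. -/
lemma theta_pow_succ (x : LaurentSeries R) :
    ∀ n : ℕ, theta (x ^ (n + 1)) = ((n + 1 : ℕ) : LaurentSeries R) * (x ^ n * theta x)
  | 0 => by simp
  | n + 1 => by
      rw [pow_succ, theta_mul, theta_pow_succ x n]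
      push_cast
      ring

/-- The residue of a logarithmic derivative. -/
lemma coeff_zero_mul_theta {a : ℤ} {x u : LaurentSeries R} (hx : LowBd a x)
    (hu : IsUnit (x.coeff a)) (hxu : x * u = 1) : (u * theta x).coeff 0 = (a : R) := by
  obtain ⟨hul, hinv⟩ := inverse_lowBd hx hu hxu
  have h := coeff_mul_low hul hx.theta
  rw [neg_add_cancel] at h
  rw [h, theta_coeff, mul_left_comm, mul_comm (u.coeff _), hinv, mul_one]

/-- `θ` of an inverse. -/
lemma theta_inverse {x u : LaurentSeries R} (hxu : x * u = 1) :
    theta u = -(u ^ 2 * theta x) := by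
  have h := theta_mul x u
  rw [hxu, theta_one] at h
  calc theta u = (x * u) * theta u := by rw [hxu, one_mul]
    _ = u * (theta x * u + x * theta u) - u ^ 2 * theta x := by ring
    _ = -(u ^ 2 * theta x) := by rw [← h]; ring

/-- Maps of coefficients keep lower bounds. -/
lemma LowBd.map {a : ℤ} {x : LaurentSeries R} (hx : LowBd a x) (f : R →+* S) :
    LowBd a (coeffMap f x) := fun i hi => by simp [hx i hi]

/-- Maps of coefficients are semilinear. -/
lemma coeffMap_smul (f : R →+* S) (r : R) (x : LaurentSeries R) :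
    coeffMap f (r • x) = f r • coeffMap f x := by
  ext i; simp

end Fermat.Agent.AtP.DiffLift
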