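import Fermat.Agent.AtP.GlueBranches

/-!
# Approximate roots of the scaled function on both branches

If the reduction at `∞` is a `p`-th power, then for every `R` one quotient `Q(z) / d` is a `p`-th
root modulo `ϖ ^ R` of the scaled expansions on both branches.
-/

set_option autoImplicit false

noncomputable section

open Polynomial CongruenceSubgroup
open scoped MatrixGroups
open Fermat.Agent.KummerES
open ModularCurve (qExpand coeffMap)

namespace Fermat.Agent.AtP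

attribute [local instance] isDomain_LRing

variable {p : ℕ} [hp : Fact p.Prime]

namespace Coeff

variable (C : Coeff p) {M : ℕ} [NeZero M]

omit hp in
theorem unifS_pow_dvd_of_redSer {R : ℕ} {s t : LaurentSeries C.B}
    (h : redSer C.unif R s = redSer C.unif R t) : C.unifS ^ R ∣ s - t := by
  rw [← sub_eq_zero, ← map_sub, redSer_eq_zero_iff] at h
  choose c hc using h
  refine ⟨⟨c, (s - t).isPWO_support.mono fun i hi => ?_⟩, ?_⟩
  · rw [HahnSeries.mem_support, hc]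
    exact mul_ne_zero (pow_ne_zero R C.irred.ne_zero) hi
  · ext i
    rw [unifS, ← map_pow, HahnSeries.C_mul_eq_smul, HahnSeries.coeff_smul, smul_eq_mul, ← hc]

omit hp in
theorem qExpand_unifS (n : ℕ) [NeZero n] : qExpand C.B n C.unifS = C.unifS := by
  rw [unifS, HahnSeries.C_apply, ModularCurve.qExpand_single, mul_zero]

omit hp in
theorem coeffMap_unifS_pow (N : ℕ) : coeffMap C.B.subtype (C.unifS ^ N) =
    HahnSeries.single 0 ((C.unif : ℂ) ^ N) := by
  rw [unifS, ← map_pow, HahnSeries.C_apply, ModularCurve.coeffMap_single]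
  rfl

/-- One branch: a root modulo a higher order, scaled, is approximable. -/
theorem isApp_scaled (hp2 : p ≠ 2) {φ : LRing (2 * M) C.B →+* LaurentSeries C.B}
    {z : LaurentSeries C.B} (H : GlueHyp φ z (C.piA M) p) (hπ : φ (C.piA M) = C.unifS)
    {νA νi : LRing (2 * M) C.B} (hν : νA * νi = 1) (hνS : φ νA = HahnSeries.C C.mu)
    {s h : LaurentSeries C.B} (hs : IsPrim C.unif s) {R N : ℕ}
    (hh : redSer C.unif (R + p) (h ^ p) = redSer C.unif (R + p) s)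
    (happ : ∀ m, IsApp φ z (C.piA M) m (C.unifS ^ (p * N) * qExpand C.B (2 * M) s)) :
    IsApp φ z (C.piA M) R (C.unifS ^ N * qExpand C.B (2 * M) h) ∧
      C.unifS ^ R ∣ (C.unifS ^ N * qExpand C.B (2 * M) h) ^ p -
        C.unifS ^ (p * N) * qExpand C.B (2 * M) s := by
  have hd : C.unifS ^ (R + p) ∣ qExpand C.B (2 * M) h ^ p - qExpand C.B (2 * M) s := by
    have h1 := map_dvd (qExpand C.B (2 * M)) (C.unifS_pow_dvd_of_redSer hh)
    rwa [map_pow, qExpand_unifS, map_sub, map_pow] at h1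
  have hne : ¬ φ (C.piA M) ∣ qExpand C.B (2 * M) h := by
    rw [hπ]
    intro hdh
    have h1 : C.redS (qExpand C.B (2 * M) s) = 0 := by
      rw [C.redS_eq_zero_iff]
      have h2 := dvd_sub (dvd_pow hdh hp.out.ne_zero)
        ((dvd_pow_self C.unifS (by have := hp.out.pos; omega : R + p ≠ 0)).trans hd)
      rwa [sub_sub_cancel] at h2
    rw [redS, ModularCurve.coeffMap_qExpand] at h1
    refine (isPrim_iff_coeffMap (Ideal.Quotient.mk _) (fun b => ?_)).1 hs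
      (ModularCurve.qExpand_injective (R := Resid C.unif.2) (2 * M) (h1.trans (map_zero _).symm))
    rw [Ideal.Quotient.eq_zero_iff_mem, Ideal.mem_span_singleton]
  have hp3 : 3 ≤ p := by have := hp.out.two_le; omega
  have hh' : IsApp φ z (C.piA M) R (qExpand C.B (2 * M) h) := by
    refine H.app_of_pow hp.out hp3 hν (by rw [hπ, hνS, C.natCast_series]) hne ?_
    refine (H.div_pow (v := p * N) ?_).congr (x := qExpand C.B (2 * M) s) (by
      rw [hπ, ← dvd_neg, neg_sub]; exact hd)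
    rw [hπ]
    exact happ _
  refine ⟨?_, ?_⟩
  · have := (IsApp.map (φ := φ) (z := z) H.prime R (C.piA M ^ N)).mul H.prime hh'
    rwa [map_pow, hπ] at this
  · rw [mul_pow, ← pow_mul, mul_comm N p, ← mul_sub]
    exact ((pow_dvd_pow _ (Nat.le_add_right R p)).trans hd).mul_left _

end Coeff

namespace Setting

variable {C : Coeff p} {M : ℕ} [NeZero M] (S : Setting C M) (hp2 : p ≠ 2) (hpM : ¬ p ∣ M)

theorem scale_eq {N₁ N₂ : ℕ} (hN : (N₂ : ℤ) = N₁ + S.j₁ - S.j₂) :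
    (C.unif : ℂ) ^ (p * N₁) * (S.c₁ / S.c₂) = (C.unif : ℂ) ^ (p * N₂) := by
  rw [S.c₁_eq, S.c₂_eq, ← zpow_sub₀ C.unif_ne_zero, ← zpow_natCast (C.unif : ℂ) (p * N₁),
    ← zpow_add₀ C.unif_ne_zero, ← zpow_natCast (C.unif : ℂ) (p * N₂)]
  congr 1
  push_cast
  linear_combination -(p : ℤ) * hN

include hp2 hpM in
/-- The scaled function on the two branches. -/
theorem exists_rep {N₁ N₂ : ℕ} (hN : (N₂ : ℤ) = N₁ + S.j₁ - S.j₂) :
    ∃ (D : LRing (2 * M) C.B) (P : (LRing (2 * M) C.B)[X]), D ≠ 0 ∧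
      C.expA M D * (C.unifS ^ (p * N₁) * qExpand C.B (2 * M) S.s₁) =
        P.eval₂ (C.expA M) (C.lamPS' hp2 hpM) ∧
      C.expA₂ M D * (C.unifS ^ (p * N₂) * qExpand C.B (2 * M) S.s₂) =
        P.eval₂ (C.expA₂ M) (C.lamS hp2 hpM) := by
  obtain ⟨-, P, D, hD, hP⟩ := S.mem_algElts₁ hp2 hpM (p * N₁) (by
    rw [S.scale_eq hN]; exact pow_mem C.unif.2 _)
  have hinj := C.coeffMap_subtype_injective'
  refine ⟨D, P, hD, hinj ?_, hinj ?_⟩
  · rw [map_mul, hom_eval₂, C.coeffMap_lamPS' hp2 hpM]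
    exact hP
  set F : UpperHalfPlane → ℂ := fun τ => (C.unif : ℂ) ^ (p * N₁) * S.f₁ τ
  have hF : F ∈ weak (levelP p (2 * M)) (p * (2 * M)) ⊤ :=
    mul_mem (const_mem_weak (Subring.mem_top _)) (S.f₁_mem hp2 hpM)
  have hFexp : expansion (2 * M) F = coeffMap C.B.subtype
      (C.unifS ^ (p * N₁) * qExpand C.B (2 * M) S.s₁) := by
    rw [map_mul, C.coeffMap_unifS_pow]
    exact ((HasExp.const _).mul (S.hasExp_f₁ hp2 hpM)).expansion_eq
  have hFW : expansion (2 * M) (swapFun p (2 * M) F) = coeffMap C.B.subtype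
      (C.unifS ^ (p * N₂) * qExpand C.B (2 * M) S.s₂) := by
    rw [map_mul, C.coeffMap_unifS_pow, ← S.scale_eq hN]
    refine HasExp.expansion_eq ?_
    have e : swapFun p (2 * M) F = (fun _ => (C.unif : ℂ) ^ (p * N₁) * (S.c₁ / S.c₂)) * S.f₂ := by
      funext τ
      have h := congrFun (S.swapFun_f₁ hp2 hpM) τ
      simp only [swapFun] at h
      simp only [swapFun, F, h, Pi.mul_apply, mul_assoc]
    rw [e]
    exact (HasExp.const _).mul (S.hasExp_f₂ hp2 hpM)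
  have h2 := C.swap_eval₂_eq hp2 hpM hF (P := P) (D := D) (by rw [hFexp]; exact hP)
  rw [hFW] at h2
  have e2 : (coeffMap C.B.subtype).comp (C.expA₂ M) = (qExpand ℂ p).comp (C.expK M) :=
    RingHom.ext fun a => by
      simp only [Coeff.expA₂, Coeff.expK, RingHom.comp_apply, ModularCurve.coeffMap_qExpand]
  rw [map_mul, hom_eval₂, C.coeffMap_lamS hp2 hpM, e2, ← h2,
    ← RingHom.comp_apply (coeffMap C.B.subtype) (C.expA₂ M), e2, RingHom.comp_apply]

include hp2 hpM in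
/-- **Approximate roots on both branches.** -/
theorem exists_approx
    (hres : ∃ w, coeffMap (IsLocalRing.residue C.B) S.s₁ = w ^ p) {N₁ N₂ : ℕ}
    (hN : (N₂ : ℤ) = N₁ + S.j₁ - S.j₂) (R : ℕ) :
    ∃ (Q : (LRing (2 * M) C.B)[X]) (d : LRing (2 * M) C.B), ¬ C.piA M ∣ d ∧
      C.unifS ^ R ∣ C.expA M d ^ p * (C.unifS ^ (p * N₁) * qExpand C.B (2 * M) S.s₁) -
        Q.eval₂ (C.expA M) (C.lamPS' hp2 hpM) ^ p ∧
      C.unifS ^ R ∣ C.expA₂ M d ^ p * (C.unifS ^ (p * N₂) * qExpand C.B (2 * M) S.s₂) -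
        Q.eval₂ (C.expA₂ M) (C.lamS hp2 hpM) ^ p := by
  obtain ⟨D, P, hD, h₁, h₂⟩ := S.exists_rep hp2 hpM hN
  obtain ⟨v, D₀, hDv, hD₀⟩ := C.exists_eq_piA_pow_mul hp2 hpM hD
  obtain ⟨r₁, r₂, hr₁, hr₂⟩ := S.roots hres (R + p)
  have hπ₁ : C.expA M (C.piA M) = C.unifS := C.expA_piA M
  have hν : Points.cstL (C.levelHyp hp2 hpM) C.mu *
      Points.cstL (C.levelHyp hp2 hpM) (↑C.mu_isUnit.unit⁻¹ : C.B) = 1 := by
    rw [← map_mul, C.mu_isUnit.mul_val_inv, map_one]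
  have hν₁ : C.expA M (Points.cstL (C.levelHyp hp2 hpM) C.mu) = HahnSeries.C C.mu := by
    rw [Points.cstL_apply, Coeff.expA, expB_constL]
  have hν₂ : C.expA₂ M (Points.cstL (C.levelHyp hp2 hpM) C.mu) = HahnSeries.C C.mu := by
    rw [Coeff.expA₂, RingHom.comp_apply, hν₁, HahnSeries.C_apply, ModularCurve.qExpand_single,
      mul_zero]
  have H₁ := C.glueHyp₁ hp2 hpM
  have H₂ := C.glueHyp₂ hp2 hpM
  obtain ⟨ha₁, hb₁⟩ := C.isApp_scaled hp2 H₁ hπ₁ hν hν₁ S.prim₁ hr₁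
    (fun m => H₁.of_eq hDv hD₀ h₁ m)
  obtain ⟨ha₂, hb₂⟩ := C.isApp_scaled hp2 H₂ C.expA₂_piA hν hν₂ S.prim₂ hr₂
    (fun m => H₂.of_eq hDv hD₀ h₂ m)
  obtain ⟨Q, d, hd, hQ₁, hQ₂⟩ := exists_app_pair H₁ (C.not_dvd_sep₁ hp2 hpM)
    (C.dvd_sep₂ hp2 hpM) ha₁ ha₂
  rw [hπ₁] at hQ₁
  rw [C.expA₂_piA] at hQ₂
  refine ⟨Q, d, hd, ?_, ?_⟩
  · have := dvd_sub (hQ₁.trans (sub_dvd_pow_sub_pow _ _ p)) (hb₁.mul_left (C.expA M d ^ p))
    convert this using 1
    ring
  · have := dvd_sub (hQ₂.trans (sub_dvd_pow_sub_pow _ _ p)) (hb₂.mul_left (C.expA₂ M d ^ p))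
    convert this using 1
    ring

end Setting

end Fermat.Agent.AtP
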