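import Fermat.Agent.AtP.GlueTrace
import Fermat.Agent.KummerES.HeckeSeries
import Mathlib.LinearAlgebra.Vandermonde
import Mathlib.LinearAlgebra.Matrix.Trace

/-!
# The trace at a cusp

At a cusp the root of `V` is `σ (q ^ p)` on one branch and `σ (ζ q)` on the other, so the trace is
the value on the first branch plus `p` times the contraction of the value on the second.
-/

set_option autoImplicit false

noncomputable section

open Polynomial
open Fermat.Agent.KummerES (contract twist zetaC)
open ModularCurve (coeffMap qExpand)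

namespace Fermat.Agent.AtP.Glue

/-- The trace is the sum over the roots, when these are distinct. -/
theorem map_polyTrace {A K : Type*} [CommRing A] [Field K] (ψ : A →+* K) {V : A[X]}
    (hV : V.Monic) {ι : Type*} [Fintype ι] (r : ι → K) (hr : Function.Injective r)
    (hcard : Fintype.card ι = V.natDegree) (hroot : ∀ i, V.eval₂ ψ (r i) = 0) (Q : A[X]) :
    ψ (polyTrace V Q) = ∑ i, Q.eval₂ ψ (r i) := by
  classical
  have := ψ.domain_nontrivial
  let pb := AdjoinRoot.powerBasis' hV
  have hdim : pb.dim = V.natDegree := AdjoinRoot.powerBasis'_dim hV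
  let e : Fin pb.dim ≃ ι := (Fintype.equivFinOfCardEq (hcard.trans hdim.symm)).symm
  let M : Matrix (Fin pb.dim) (Fin pb.dim) K :=
    (Algebra.leftMulMatrix pb.basis (AdjoinRoot.mk V Q)).map ψ
  let W : Matrix (Fin pb.dim) (Fin pb.dim) K := Matrix.vandermonde fun i => r (e i)
  let D : Matrix (Fin pb.dim) (Fin pb.dim) K := Matrix.diagonal fun i => Q.eval₂ ψ (r (e i))
  have hW : W * M = D * W := by
    ext i k
    rw [Matrix.diagonal_mul, Matrix.mul_apply]
    simp only [W, M, Matrix.vandermonde_apply, Matrix.map_apply,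
      Algebra.leftMulMatrix_eq_repr_mul, PowerBasis.basis_eq_pow, pb,
      AdjoinRoot.powerBasis'_gen]
    have h := congrArg (AdjoinRoot.lift ψ (r (e i)) (hroot (e i)))
      (pb.basis.sum_repr (AdjoinRoot.mk V Q * pb.basis k))
    rw [map_sum] at h
    simp only [map_mul, PowerBasis.basis_eq_pow, pb, AdjoinRoot.powerBasis'_gen, map_pow,
      Algebra.smul_def, AdjoinRoot.lift_root, AdjoinRoot.algebraMap_eq, AdjoinRoot.lift_of,
      AdjoinRoot.lift_mk] at h
    rw [← h]
    exact Finset.sum_congr rfl fun j _ => mul_comm _ _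
  have hWu : IsUnit W.det := isUnit_iff_ne_zero.2
    (Matrix.det_vandermonde_ne_zero_iff.2 fun i j h => e.injective (hr h))
  have hM : M.trace = D.trace := by
    have h1 : M = W⁻¹ * (D * W) := by
      rw [← hW, ← Matrix.mul_assoc, Matrix.nonsing_inv_mul _ hWu, Matrix.one_mul]
    rw [h1, Matrix.trace_mul_comm, Matrix.mul_assoc, Matrix.mul_nonsing_inv _ hWu, Matrix.mul_one]
  rw [polyTrace, Algebra.trace_eq_matrix_trace pb.basis]
  rw [show ψ (Matrix.trace (Algebra.leftMulMatrix pb.basis (AdjoinRoot.mk V Q))) = M.trace by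
    simp [Matrix.trace, M, map_sum]]
  rw [hM, Matrix.trace_diagonal]
  exact e.sum_comp fun i => Q.eval₂ ψ (r i)

variable {p : ℕ} [hp : Fact p.Prime]

lemma qExpand_mul_contract {R : Type*} [CommRing R] (a x : LaurentSeries R) :
    contract p (qExpand R p a * x) = a * contract p x := by
  classical
  ext i
  rw [KummerES.contract_coeff, HahnSeries.coeff_mul, HahnSeries.coeff_mul]
  have hp0 : (p : ℤ) ≠ 0 := by exact_mod_cast hp.out.ne_zero
  symm
  refine Finset.sum_of_injOn (fun q => ((p : ℤ) * q.1, (p : ℤ) * q.2)) ?_ ?_ ?_ ?_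
  · intro q _ q' _ h
    simp only [Prod.mk.injEq] at h
    exact Prod.ext (mul_left_cancel₀ hp0 h.1) (mul_left_cancel₀ hp0 h.2)
  · intro q hq
    simp only [Finset.mem_coe, Finset.mem_antidiagonal, HahnSeries.mem_support,
      KummerES.contract_coeff] at hq ⊢
    refine ⟨by rw [ModularCurve.qExpand_coeff_mul]; exact hq.1, hq.2.1, by rw [← hq.2.2]; ring⟩
  · intro q hq hnot
    by_cases hd : (p : ℤ) ∣ q.1
    swap
    · rw [ModularCurve.qExpand_coeff_of_not_dvd p a hd, zero_mul]
    obtain ⟨c, hc⟩ := hd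
    simp only [Finset.mem_antidiagonal, HahnSeries.mem_support] at hq
    refine absurd ⟨(c, i - c), ?_, ?_⟩ hnot
    · simp only [Finset.mem_coe, Finset.mem_antidiagonal, HahnSeries.mem_support,
        KummerES.contract_coeff]
      refine ⟨fun h => hq.1 (by rw [hc, ModularCurve.qExpand_coeff_mul, h]),
        fun h => hq.2.1 (by rw [← h]; congr 1; linear_combination hq.2.2 - hc), by ring⟩
    · refine Prod.ext hc.symm ?_
      show (p : ℤ) * (i - c) = q.2
      linear_combination hc - hq.2.2
  · intro q _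
    show a.coeff q.1 * (contract p x).coeff q.2 = _
    rw [ModularCurve.qExpand_coeff_mul, KummerES.contract_coeff]

/-- `p` times the contraction. -/
def traceContract (R : Type*) [CommRing R] (p : ℕ) [Fact p.Prime] :
    LaurentSeries R →+ LaurentSeries R where
  toFun x := p • contract p x
  map_zero' := by
    rw [show contract p (0 : LaurentSeries R) = 0 from HahnSeries.ext (funext fun i => by simp),
      smul_zero]
  map_add' x y := by
    rw [show contract p (x + y) = contract p x + contract p y from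
      HahnSeries.ext (funext fun i => by simp), smul_add]

/-- The contraction is linear over series in `q ^ p`. -/
lemma traceContract_qExpand_mul {R : Type*} [CommRing R] (a x : LaurentSeries R) :
    traceContract R p (qExpand R p a * x) = a * traceContract R p x := by
  show p • contract p (qExpand R p a * x) = a * (p • contract p x)
  rw [qExpand_mul_contract, mul_smul_comm]

lemma coeffMap_traceContract {R S : Type*} [CommRing R] [CommRing S] (f : R →+* S)
    (x : LaurentSeries R) :
    coeffMap f (traceContract R p x) = traceContract S p (coeffMap f x) := by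
  show coeffMap f (p • contract p x) = p • contract p (coeffMap f x)
  rw [map_nsmul, KummerES.coeffMap_contract]

/-- The sum of the twists. -/
theorem qExpand_traceContract {K : Type*} [Field K] {ζ : K} (hζ : IsPrimitiveRoot ζ p)
    (x : LaurentSeries K) :
    qExpand K p (traceContract K p x) =
      ∑ b : Fin p, twist (ζ ^ (b : ℕ)) (pow_ne_zero _ (hζ.ne_zero hp.out.ne_zero)) x := by
  ext i
  rw [HahnSeries.coeff_sum]
  simp only [KummerES.twist_coeff, ← Finset.sum_mul]
  have hsum : ∀ j : ℤ, (∑ b : Fin p, (ζ ^ (b : ℕ)) ^ j) = if (p : ℤ) ∣ j then (p : K) else 0 := by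
    intro j
    rw [Fin.sum_univ_eq_sum_range fun b => (ζ ^ b) ^ j]
    have e : ∀ b : ℕ, (ζ ^ b) ^ j = (ζ ^ j) ^ b := fun b => by
      rw [← zpow_natCast ζ b, ← zpow_mul, mul_comm, zpow_mul, zpow_natCast]
    simp only [e]
    split_ifs with h
    · rw [(hζ.zpow_eq_one_iff_dvd j).2 h]
      simp
    · rw [geom_sum_eq (mt (hζ.zpow_eq_one_iff_dvd j).1 h), ← zpow_natCast, ← zpow_mul,
        (hζ.zpow_eq_one_iff_dvd _).2 (dvd_mul_left _ _), sub_self, zero_div]
  rw [hsum]
  split_ifs with h
  · obtain ⟨c, rfl⟩ := h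
    rw [ModularCurve.qExpand_coeff_mul]
    show (p • contract p x).coeff c = _
    rw [HahnSeries.coeff_nsmul, Pi.smul_apply, KummerES.contract_coeff, nsmul_eq_mul]
  · rw [ModularCurve.qExpand_coeff_of_not_dvd p _ h, zero_mul]

/-- Twisting by a `p`-th root of unity fixes series in `q ^ p`. -/
lemma twist_qExpand {K : Type*} [Field K] {c : K} (hc : c ≠ 0) (h : c ^ p = 1)
    (s : LaurentSeries K) : twist c hc (qExpand K p s) = qExpand K p s := by
  ext i
  rw [KummerES.twist_coeff]
  by_cases hi : (p : ℤ) ∣ i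
  · obtain ⟨j, rfl⟩ := hi
    rw [zpow_mul, zpow_natCast, h, one_zpow, one_mul]
  · rw [ModularCurve.qExpand_coeff_of_not_dvd p _ hi, mul_zero]

/-- **The trace at a cusp**: for a root `σ (q ^ p)` of `V`, with `σ` a root over `q ^ p`. -/
theorem polyTrace_cusp {A : Type*} [CommRing A] {B : Subring ℂ} (ψ : A →+* LaurentSeries B)
    {V : A[X]} (hV : V.Monic) (hdeg : V.natDegree = p + 1) {σ : LaurentSeries B}
    (h1 : V.eval₂ ψ (qExpand B p σ) = 0) (h2 : V.eval₂ ((qExpand B p).comp ψ) σ = 0)
    (hnp : ∃ i : ℤ, ¬ (p : ℤ) ∣ i ∧ σ.coeff i ≠ 0) (Q : A[X]) :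
    Q.eval₂ ψ (qExpand B p σ) + traceContract B p (Q.eval₂ ((qExpand B p).comp ψ) σ) =
      ψ (polyTrace V Q) := by
  classical
  obtain ⟨i₀, hi₀, hσ⟩ := hnp
  have hσ' : ((σ.coeff i₀ : B) : ℂ) ≠ 0 := fun h => hσ (Subtype.ext h)
  set ι := coeffMap B.subtype
  set σ' := ι σ with hσdef
  have hcoe : σ'.coeff i₀ = (σ.coeff i₀ : ℂ) := rfl
  have hζ := KummerES.isPrimitiveRoot_zetaC p
  have hq : ∀ s : LaurentSeries B, ι (qExpand B p s) = qExpand ℂ p (ι s) :=
    fun s => ModularCurve.coeffMap_qExpand _ _ s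
  set φ := ((qExpand ℂ p).comp ι).comp ψ with hφ
  let tw := fun b : Fin p => twist (zetaC p ^ (b : ℕ))
    (pow_ne_zero _ (hζ.ne_zero hp.out.ne_zero))
  have htw : ∀ b : Fin p, (tw b).comp φ = φ := fun b => RingHom.ext fun a => twist_qExpand
    (pow_ne_zero _ (hζ.ne_zero hp.out.ne_zero)) (by rw [← pow_mul, mul_comm, pow_mul, hζ.pow_eq_one, one_pow]) _
  have hQ0 : ∀ P : A[X], qExpand ℂ p (ι (P.eval₂ ψ (qExpand B p σ))) =
      P.eval₂ φ (qExpand ℂ p (qExpand ℂ p σ')) := fun P => by
    rw [hom_eval₂, hom_eval₂, hq, ← RingHom.comp_assoc]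
  have hQ1 : ∀ P : A[X], ι (P.eval₂ ((qExpand B p).comp ψ) σ) = P.eval₂ φ σ' := fun P => by
    rw [hom_eval₂, hσdef, hφ]
    congr 1
    exact RingHom.ext fun a => hq (ψ a)
  have hQb : ∀ (b : Fin p) (P : A[X]), tw b (P.eval₂ φ σ') = P.eval₂ φ (tw b σ') := fun b P => by
    rw [hom_eval₂, htw]
  let r : Option (Fin p) → LaurentSeries ℂ := fun o =>
    o.elim (qExpand ℂ p (qExpand ℂ p σ')) fun b => tw b σ'
  have hr : Function.Injective r := by
    have hne : ∀ b, r none ≠ r (some b) := fun b h => by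
      have h' := congrArg (fun s : LaurentSeries ℂ => s.coeff i₀) h
      simp only [r, Option.elim_none, Option.elim_some, tw, KummerES.twist_coeff] at h'
      rw [ModularCurve.qExpand_coeff_of_not_dvd p _ hi₀, hcoe] at h'
      exact mul_ne_zero (zpow_ne_zero _ (pow_ne_zero _ (hζ.ne_zero hp.out.ne_zero))) hσ' h'.symm
    rintro (_ | b) (_ | b') h
    · rfl
    · exact absurd h (hne b')
    · exact absurd h.symm (hne b)
    · refine congrArg some (Fin.ext ?_)
      have h' := congrArg (fun s : LaurentSeries ℂ => s.coeff i₀) h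
      simp only [r, Option.elim_some, tw, KummerES.twist_coeff] at h'
      rw [hcoe] at h'
      have h1 := mul_right_cancel₀ hσ' h'
      rw [← zpow_natCast _ (b : ℕ), ← zpow_natCast _ (b' : ℕ), ← zpow_mul, ← zpow_mul] at h1
      have h2 : (p : ℤ) ∣ ((b : ℕ) - (b' : ℕ)) * i₀ := by
        rw [← hζ.zpow_eq_one_iff_dvd, sub_mul, zpow_sub₀ (hζ.ne_zero hp.out.ne_zero), h1,
          div_self (zpow_ne_zero _ (hζ.ne_zero hp.out.ne_zero))]
      have h3 := ((Nat.prime_iff_prime_int.1 hp.out).dvd_or_dvd h2).resolve_right hi₀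
      have hb := b.isLt
      have hb' := b'.isLt
      obtain ⟨c, hc⟩ := h3
      have : c = 0 := by nlinarith
      subst this
      omega
  have htrace := map_polyTrace φ hV r hr (by simp [hdeg]) (fun o => ?_) Q
  swap
  · rcases o with _ | b
    · show V.eval₂ φ (qExpand ℂ p (qExpand ℂ p σ')) = 0
      rw [← hQ0, h1, map_zero, map_zero]
    · show V.eval₂ φ (tw b σ') = 0
      rw [← hQb, ← hQ1, h2, map_zero, map_zero]
  refine HahnSeries.ext (funext fun i => Subtype.ext ?_)
  suffices h : ι (Q.eval₂ ψ (qExpand B p σ) +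
      traceContract B p (Q.eval₂ ((qExpand B p).comp ψ) σ)) = ι (ψ (polyTrace V Q)) by
    exact congrArg (fun s : LaurentSeries ℂ => s.coeff i) h
  refine ModularCurve.qExpand_injective (R := ℂ) p ?_
  rw [map_add, map_add, hQ0, coeffMap_traceContract, qExpand_traceContract hζ, hQ1]
  simp only [r] at htrace
  rw [Fintype.sum_option] at htrace
  simp only [Option.elim_none, Option.elim_some] at htrace
  exact (congrArg₂ (· + ·) rfl (Finset.sum_congr rfl fun b _ => hQb b Q)).trans htrace.symm

end Fermat.Agent.AtP.Glue
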