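import Fermat.Agent.AtP.LambdaDeriv
import Fermat.Agent.AtP.PointsRegular
import Mathlib.Algebra.CharP.Quotient

/-!
# `p`-th powers on the special fibre are seen by the expansion at `∞`

If the expansion at `∞` of a function on the special fibre is a `p`-th power, so is the function.
-/

set_option autoImplicit false

noncomputable section

open Polynomial CongruenceSubgroup
open scoped MatrixGroups
open Fermat.Agent.KummerES
open ModularCurve (coeffMap)

namespace Fermat.Agent.AtP.Points

/-! ## Independence of `1, T, …, T^(p-1)` over series with vanishing derivative -/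

lemma thetaOp_pow_succ' {A : Type*} [CommRing A] (a : LaurentSeries A) (m : ℕ) :
    thetaOp A (a ^ (m + 1)) = ((m : LaurentSeries A) + 1) * a ^ m * thetaOp A a := by
  induction m with
  | zero => simp
  | succ m ih =>
    rw [pow_succ _ (m + 1), thetaOp_mul, ih]
    push_cast
    ring

/-- Powers `T ^ j`, `j < p`, are independent over the kernel of `θ`. -/
lemma coeff_eq_zero_of_theta {K : Type*} [Field K] {p : ℕ} [Fact p.Prime] [CharP K p]
    {T : LaurentSeries K} (hT : thetaOp K T ≠ 0) :
    ∀ (m : ℕ), m ≤ p → ∀ e : ℕ → LaurentSeries K, (∀ j, thetaOp K (e j) = 0) →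
      ∑ j ∈ Finset.range m, e j * T ^ j = 0 → ∀ j < m, e j = 0 := by
  intro m
  induction m with
  | zero => intro _ _ _ _ j hj; exact absurd hj (Nat.not_lt_zero j)
  | succ m ih =>
    intro hm e he h
    have h1 := congrArg (thetaOp K) h
    rw [map_sum, map_zero, Finset.sum_range_succ'] at h1
    simp only [thetaOp_mul, he, mul_zero, add_zero, pow_zero, thetaOp_pow_succ'] at h1
    have h10 : thetaOp K (1 : LaurentSeries K) = 0 := by
      have := thetaOp_mul K (1 : LaurentSeries K) 1
      rw [mul_one, one_mul] at this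
      linear_combination -this
    rw [h10, mul_zero, add_zero] at h1
    have h2 : ∑ j ∈ Finset.range m, ((j : LaurentSeries K) + 1) * e (j + 1) * T ^ j = 0 := by
      refine (mul_eq_zero.1 (?_ : (∑ j ∈ Finset.range m,
        ((j : LaurentSeries K) + 1) * e (j + 1) * T ^ j) * thetaOp K T = 0)).resolve_right hT
      rw [Finset.sum_mul, ← h1]
      exact Finset.sum_congr rfl fun j _ => by ring
    have hcast : ∀ j : ℕ, thetaOp K ((j : LaurentSeries K) + 1) = 0 := fun j => by
      ext i
      rw [thetaOp_coeff, show (j : LaurentSeries K) + 1 = HahnSeries.C ((j : K) + 1) by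
        rw [map_add, map_natCast, map_one], HahnSeries.C_apply]
      rcases eq_or_ne i 0 with rfl | hi <;> simp [*]
    have hsucc : ∀ j < m, e (j + 1) = 0 := fun j hj => by
      refine (mul_eq_zero.1 (ih (by omega) (fun j => ((j : LaurentSeries K) + 1) * e (j + 1))
        (fun j => by rw [thetaOp_mul, hcast, he, mul_zero, mul_zero, add_zero]) h2 j hj)).resolve_left ?_
      rw [show (j : LaurentSeries K) + 1 = HahnSeries.C ((j + 1 : ℕ) : K) by
        rw [map_natCast]; push_cast; rfl]
      refine (map_ne_zero_iff _ HahnSeries.C_injective).2 fun h0 => ?_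
      exact absurd (Nat.le_of_dvd j.succ_pos ((CharP.cast_eq_zero_iff K p _).1 h0)) (by omega)
    intro j hj
    cases j with
    | zero =>
      rw [Finset.sum_range_succ', Finset.sum_eq_zero, zero_add, pow_zero, mul_one] at h
      · exact h
      · exact fun j hj => by rw [hsucc j (Finset.mem_range.1 hj), zero_mul]
    | succ j => exact hsucc j (by omega)

/-! ## Spans of `p`-th powers -/

/-- Combinations `∑ c j ^ p * t ^ j`, `j < p`. -/
def IsPSpan {Q : Type*} [CommRing Q] (p : ℕ) (t a : Q) : Prop :=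
  ∃ c : ℕ → Q, a = ∑ j ∈ Finset.range p, c j ^ p * t ^ j

namespace IsPSpan

variable {Q : Type*} [CommRing Q] {p : ℕ} [hp : Fact p.Prime] [CharP Q p] {t a b : Q}

/-- The span is closed under sums. -/
lemma add (ha : IsPSpan p t a) (hb : IsPSpan p t b) : IsPSpan p t (a + b) := by
  obtain ⟨c, rfl⟩ := ha
  obtain ⟨c', rfl⟩ := hb
  refine ⟨fun j => c j + c' j, ?_⟩
  simp only [add_pow_char, add_mul, Finset.sum_add_distrib]

omit hp [CharP Q p] in
/-- The span is closed under multiplication by `p`-th powers. -/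
lemma pow_mul (ha : IsPSpan p t a) (u : Q) : IsPSpan p t (u ^ p * a) := by
  obtain ⟨c, rfl⟩ := ha
  refine ⟨fun j => u * c j, ?_⟩
  rw [Finset.mul_sum]
  exact Finset.sum_congr rfl fun j _ => by ring

omit [CharP Q p] in
/-- `p`-th powers lie in the span. -/
lemma of_pow (u : Q) : IsPSpan p t (u ^ p) := by
  refine ⟨fun j => if j = 0 then u else 0, ?_⟩
  rw [Finset.sum_eq_single 0]
  · simp
  · exact fun j _ hj => by simp [hj, zero_pow hp.out.ne_zero]
  · exact fun h => absurd (Finset.mem_range.2 hp.out.pos) h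

omit [CharP Q p] in
lemma mul_t (ha : IsPSpan p t a) : IsPSpan p t (a * t) := by
  obtain ⟨c, rfl⟩ := ha
  obtain ⟨m, hm⟩ : ∃ m, p = m + 1 := ⟨p - 1, (Nat.sub_add_cancel hp.out.one_le).symm⟩
  refine ⟨fun j => if j = 0 then c m * t else c (j - 1), ?_⟩
  rw [hm, Finset.sum_range_succ, Finset.sum_range_succ', add_mul, Finset.sum_mul]
  congr 1
  · refine Finset.sum_congr rfl fun j _ => ?_
    simp only [Nat.add_eq_zero_iff, one_ne_zero, and_false, if_false, Nat.add_sub_cancel]
    ring
  · simp only [if_true]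
    ring

/-- The span is closed under finite sums. -/
lemma sum {ι : Type*} (s : Finset ι) {f : ι → Q} (h : ∀ i ∈ s, IsPSpan p t (f i)) :
    IsPSpan p t (∑ i ∈ s, f i) := by
  classical
  induction s using Finset.induction_on with
  | empty => exact ⟨0, by simp [zero_pow hp.out.ne_zero]⟩
  | insert i s hi ih =>
    rw [Finset.sum_insert hi]
    exact (h i (Finset.mem_insert_self i s)).add (ih fun j hj => h j (Finset.mem_insert_of_mem hj))

end IsPSpan

/-! ## The special fibre -/

variable {M L n : ℕ} [NeZero L] {B : Subring ℂ} {π : ℂ} (H : LevelHyp M L B) (hB : CoeffHyp B π n)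

include H in
lemma dvd_of_redExp_eq_zero {f : LRing L B} (hf : redExp hB.mem 1 f = 0) :
    piL (L := L) hB ∣ f := by
  refine Ideal.mem_span_singleton.1 ((H.specialFibre hB).mem_span 1 f ?_)
  rw [kerAt_iff_dvd hB.mem]
  have hd : ∀ i, (⟨π, hB.mem⟩ : B) ∣ (expB L B 1 f).coeff i := fun i => by
    have h := congrArg (fun s : LaurentSeries (Resid hB.mem) => s.coeff i) hf
    simp only [redExp, RingHom.comp_apply, ModularCurve.coeffMap_coeff, HahnSeries.coeff_zero,
      Ideal.Quotient.eq_zero_iff_mem, Ideal.mem_span_singleton] at h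
    exact h
  choose c hc using hd
  refine ⟨⟨c, (expB L B 1 f).isPWO_support.mono fun i hi => ?_⟩, ?_⟩
  · rw [HahnSeries.mem_support, hc]
    exact mul_ne_zero hB.irred.ne_zero hi
  · ext i
    rw [HahnSeries.C_mul_eq_smul, HahnSeries.coeff_smul, smul_eq_mul, ← hc]

include hB in
lemma redExp_piL : redExp hB.mem (1 : SL(2, ℤ)) (piL (L := L) hB) = 0 := by
  rw [redExp, RingHom.comp_apply, piL, expB_constL, HahnSeries.C_apply,
    ModularCurve.coeffMap_single, Ideal.Quotient.eq_zero_iff_mem.mpr (Ideal.mem_span_singleton_self _)]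
  simp

/-- The coordinate has nonzero derivative on the special fibre. -/
lemma thetaOp_redExp_ne_zero :
    thetaOp (Resid hB.mem) (redExp hB.mem 1 (tL H)) ≠ 0 := by
  have := hB.dvr
  have hmax : (Ideal.span {(⟨π, hB.mem⟩ : B)}).IsMaximal :=
    PrincipalIdealRing.isMaximal_of_irreducible hB.irred
  set i : ℤ := -((L / M : ℕ) : ℤ)
  intro h0
  have h := congrArg (fun s : LaurentSeries (Resid hB.mem) => s.coeff i) h0
  simp only [thetaOp_coeff, HahnSeries.coeff_zero, redExp, RingHom.comp_apply,
    ModularCurve.coeffMap_coeff] at h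
  rw [← map_intCast (Ideal.Quotient.mk (Ideal.span {(⟨π, hB.mem⟩ : B)})), ← map_mul,
    Ideal.Quotient.eq_zero_iff_mem] at h
  refine hmax.ne_top (Ideal.eq_top_of_isUnit_mem _ h (IsUnit.mul ?_ ?_))
  · obtain ⟨e, he⟩ : L / M ∣ L := Nat.div_dvd_of_dvd H.dvd
    refine IsUnit.of_mul_eq_one (-((e : B) * ⟨(L : ℂ)⁻¹, H.le (inv_natCast_mem_zetaRing L)⟩)) ?_
    refine Subtype.ext ?_
    have hL : (L : ℂ) ≠ 0 := by exact_mod_cast NeZero.ne L
    have hLe : ((L / M : ℕ) : ℂ) * e = L := by exact_mod_cast he.symm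
    rw [show ((i : ℤ) : B) = -((L / M : ℕ) : B) by simp [i, -Int.natCast_ediv]]
    push_cast
    rw [neg_mul_neg, ← mul_assoc, hLe, mul_inv_cancel₀ hL]
  · obtain ⟨u, hu, hlead⟩ := H.T.leading
    refine IsUnit.of_mul_eq_one (⟨u, H.le hu⟩ : B) (Subtype.ext ?_)
    show ((expB L B 1 (tL H)).coeff i : ℂ) * u = 1
    rw [← hlead]
    congr 1
    show (expansion L (comp H.T.t 1)).coeff i = _
    rw [KummerES.comp_one]

variable (p : ℕ) [hp : Fact p.Prime] [CharP (Resid hB.mem) p]

include H in
omit hp in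
lemma natCast_mem_span : (p : LRing L B) ∈ Ideal.span {piL (L := L) hB} := by
  have h : ((p : B)) ∈ Ideal.span {(⟨π, hB.mem⟩ : B)} := by
    rw [← Ideal.Quotient.eq_zero_iff_mem, map_natCast, CharP.cast_eq_zero]
  rw [Ideal.mem_span_singleton] at h ⊢
  have := map_dvd (cstL H) h
  rwa [map_natCast, cstL_pi H hB] at this

include H in
/-- Every function is a combination of `1, t, …, t^(p-1)` over `p`-th powers modulo `π`. -/
theorem isPSpan (hperf : ∀ x : Resid hB.mem, ∃ y, y ^ p = x) (f : LRing L B) :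
    IsPSpan p (Ideal.Quotient.mk (Ideal.span {piL (L := L) hB}) (tL H))
      (Ideal.Quotient.mk (Ideal.span {piL (L := L) hB}) f) := by
  classical
  have hπ : Prime (piL (L := L) hB) := (H.specialFibre hB).prime
  have : (Ideal.span {piL (L := L) hB}).IsPrime := (Ideal.span_singleton_prime hπ.ne_zero).2 hπ
  set q := Ideal.Quotient.mk (Ideal.span {piL (L := L) hB})
  have : CharP (LRing L B ⧸ Ideal.span {piL (L := L) hB}) p :=
    (CharP.charP_iff_prime_eq_zero hp.out).2 (by
      rw [← map_natCast q, Ideal.Quotient.eq_zero_iff_mem]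
      exact natCast_mem_span H hB p)
  have hcst : ∀ c, IsPSpan p (q (tL H)) (q (cstL H c)) := fun c => by
    obtain ⟨y, hy⟩ := hperf (Ideal.Quotient.mk _ c)
    obtain ⟨y, rfl⟩ := Ideal.Quotient.mk_surjective y
    rw [← map_pow, Ideal.Quotient.eq, Ideal.mem_span_singleton] at hy
    have h2 : q (cstL H c) = q (cstL H y) ^ p := by
      rw [← map_pow, ← map_pow, eq_comm, Ideal.Quotient.eq, ← map_sub, Ideal.mem_span_singleton,
        ← cstL_pi H hB]
      exact map_dvd (cstL H) hy
    rw [h2]
    exact IsPSpan.of_pow _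
  have hev : ∀ P : B[X], IsPSpan p (q (tL H)) (q (inclLevel H.dvd (evalT H P))) := by
    intro P
    induction P using Polynomial.induction_on with
    | C c =>
      rw [evalT, coe_eval₂RingHom, eval₂_C]
      exact hcst c
    | add P Q hP hQ =>
      simp only [map_add]
      exact hP.add hQ
    | monomial k c ih =>
      rw [pow_succ, ← mul_assoc, map_mul (evalT H), map_mul (inclLevel H.dvd), map_mul q]
      have : inclLevel H.dvd (evalT H Polynomial.X) = tL H := by
        rw [evalT, coe_eval₂RingHom, eval₂_X]; rfl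
      rw [this]
      exact ih.mul_t
  obtain ⟨ι, _, C, -⟩ := H.exists_coords
  let _ := Fintype.ofFinite (levelGroup L B M)
  have key : q f = ∑ i, q (C.x i) ^ p * q (LevelHyp.trace (M := M) (C.y i ^ p * f)) := by
    symm
    calc ∑ i, q (C.x i) ^ p * q (LevelHyp.trace (M := M) (C.y i ^ p * f))
        = ∑ g : levelGroup L B M, (q (∑ i, C.x i * g • C.y i)) ^ p * q (g • f) := by
          simp only [LevelHyp.trace, map_sum, smul_mul', smul_pow', map_mul, map_pow, Finset.mul_sum,
            sum_pow_char, mul_pow, Finset.sum_mul, mul_assoc]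
          exact Finset.sum_comm
      _ = q f := by
          rw [Finset.sum_eq_single 1]
          · simp [C.self]
          · exact fun g _ hg => by rw [C.orth g hg, map_zero, zero_pow hp.out.ne_zero, zero_mul]
          · exact fun h => absurd (Finset.mem_univ 1) h
  rw [key]
  refine IsPSpan.sum _ fun i _ => IsPSpan.pow_mul ?_ _
  set r : MRing M L B := ⟨_, LevelHyp.trace_mem (C.y i ^ p * f)⟩
  rw [show LevelHyp.trace (M := M) (C.y i ^ p * f) = inclLevel H.dvd r from rfl]
  obtain ⟨P, k, hP⟩ := exists_evalT H r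
  set bi := ((isUnit_evalT_badPoly H).unit⁻¹ : (MRing M L B)ˣ)
  have hr : r = (↑bi ^ k) ^ p * evalT H (P * badPoly H ^ (k * (p - 1))) := by
    have hb : evalT H (badPoly H) ^ (k * (p - 1)) * evalT H (badPoly H) ^ k =
        evalT H (badPoly H) ^ (k * p) := by
      rw [← pow_add, ← Nat.mul_succ, Nat.succ_eq_add_one, Nat.sub_add_cancel hp.out.one_le]
    rw [map_mul, map_pow, ← hP, ← pow_mul, mul_assoc r, mul_comm (evalT H (badPoly H) ^ k), hb,
      mul_left_comm, ← mul_pow, IsUnit.val_inv_mul, one_pow, mul_one]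
  rw [hr, map_mul, map_pow, map_mul, map_pow]
  exact (hev _).pow_mul _

include H in
/-- **A `p`-th power at `∞` is a `p`-th power on the special fibre.** -/
theorem exists_pow_eq_of_redExp (hperf : ∀ x : Resid hB.mem, ∃ y, y ^ p = x) {f : LRing L B}
    {g : LaurentSeries (Resid hB.mem)} (h : redExp hB.mem 1 f = g ^ p) :
    ∃ c : LRing L B, piL (L := L) hB ∣ f - c ^ p := by
  have := hB.dvr
  have : (Ideal.span {(⟨π, hB.mem⟩ : B)}).IsMaximal :=
    PrincipalIdealRing.isMaximal_of_irreducible hB.irred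
  let _ : Field (Resid hB.mem) := Ideal.Quotient.field _
  obtain ⟨c, hc⟩ := isPSpan H hB p hperf f
  let ρ : LRing L B ⧸ Ideal.span {piL (L := L) hB} →+* LaurentSeries (Resid hB.mem) :=
    Ideal.Quotient.lift _ (redExp hB.mem 1) fun a ha => by
      obtain ⟨u, rfl⟩ := Ideal.mem_span_singleton.1 ha
      rw [map_mul, redExp_piL hB, zero_mul]
  have hρ : ∀ a, ρ (Ideal.Quotient.mk _ a) = redExp hB.mem 1 a := fun a => rfl
  have hθp : ∀ x : LaurentSeries (Resid hB.mem), thetaOp (Resid hB.mem) (x ^ p) = 0 := fun x => by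
    obtain ⟨m, hm⟩ : ∃ m, p = m + 1 := ⟨p - 1, (Nat.sub_add_cancel hp.out.one_le).symm⟩
    have h0 : ((m : LaurentSeries (Resid hB.mem)) + 1) = 0 := by
      rw [← Nat.cast_succ, Nat.succ_eq_add_one, ← hm,
        ← map_natCast (HahnSeries.C (Γ := ℤ) (R := Resid hB.mem)), CharP.cast_eq_zero, map_zero]
    rw [hm, thetaOp_pow_succ', h0, zero_mul, zero_mul]
  have hsum := congrArg ρ hc
  rw [hρ, h, map_sum] at hsum
  simp only [map_mul, map_pow, hρ] at hsum
  set T := redExp hB.mem 1 (tL H)
  have hz := coeff_eq_zero_of_theta (p := p) (thetaOp_redExp_ne_zero H hB) p le_rfl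
    (fun j => (if j = 0 then ρ (c 0) ^ p - g ^ p else ρ (c j) ^ p)) (fun j => by
      split_ifs
      · rw [map_sub, hθp, hθp, sub_self]
      · exact hθp _) (by
      obtain ⟨m, hm⟩ : ∃ m, p = m + 1 := ⟨p - 1, (Nat.sub_add_cancel hp.out.one_le).symm⟩
      have hp' : ∀ (F : ℕ → LaurentSeries (Resid hB.mem)),
          ∑ j ∈ Finset.range p, F j = ∑ j ∈ Finset.range m, F (j + 1) + F 0 := fun F => by
        rw [← Finset.sum_range_succ' F m]
        exact congrArg (fun N => ∑ j ∈ Finset.range N, F j) hm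
      rw [hp'] at hsum ⊢
      simp only [pow_zero, mul_one, Nat.add_eq_zero_iff, one_ne_zero, and_false, if_false, if_true,
        hsum] at hsum ⊢
      ring)
  obtain ⟨c₀, hc₀⟩ := Ideal.Quotient.mk_surjective (c 0)
  refine ⟨c₀, dvd_of_redExp_eq_zero H hB ?_⟩
  rw [map_sub, map_pow, h, ← hρ c₀, hc₀]
  have := hz 0 hp.out.pos
  rw [if_pos rfl] at this
  linear_combination -this

omit hp in
lemma mul_pow_aux {A : Type*} [CommRing A] (x g : A) {m : ℕ} (hm : 1 ≤ m) :
    x * g ^ m * x ^ (m - 1) = (x * g) ^ m := by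
  obtain ⟨j, rfl⟩ : ∃ j, m = j + 1 := ⟨m - 1, by omega⟩
  rw [Nat.add_sub_cancel]
  ring

include H in
/-- The same for quotients. -/
theorem exists_pow_eq_of_redExp_div (hperf : ∀ x : Resid hB.mem, ∃ y, y ^ p = x) {a d : LRing L B}
    {g : LaurentSeries (Resid hB.mem)} (h : redExp hB.mem 1 a = redExp hB.mem 1 d * g ^ p) :
    ∃ c : LRing L B, piL (L := L) hB ∣ a * d ^ p - d * c ^ p := by
  have e : p = (p - 1) + 1 := (Nat.sub_add_cancel hp.out.one_le).symm
  obtain ⟨c, u, hu⟩ := exists_pow_eq_of_redExp H hB p hperf (f := a * d ^ (p - 1))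
    (g := redExp hB.mem 1 d * g) (by
      rw [map_mul, map_pow, h]
      exact mul_pow_aux (A := LaurentSeries (Resid hB.mem)) _ _ hp.out.one_le)
  refine ⟨c, d * u, ?_⟩
  have hd : d ^ p = d ^ (p - 1) * d := by rw [← pow_succ, ← e]
  rw [hd]
  linear_combination d * hu

end Fermat.Agent.AtP.Points
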