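import Fermat.Agent.AtP.GlueLift
import Fermat.Agent.AtP.DescentAlg
import Fermat.Agent.AtP.PointsField
import Fermat.Agent.AtP.LambdaPReduction
import Fermat.Agent.KummerES.HeckeSeries

/-!
# The two branches over the cusp at infinity

`φ₁` reads level `2 M` at `∞`, with `z₁ = λ(pτ) ≡ λ ^ p`; `φ₂` reads it after `τ ↦ pτ`, with
`z₂ = λ`, a `p`-th root of `φ₂ λ` modulo `ϖ`. Both satisfy the hypotheses of gluing.
-/

set_option autoImplicit false

noncomputable section

open UpperHalfPlane CongruenceSubgroup Polynomial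
open scoped MatrixGroups
open Fermat.Agent.KummerES
open ModularCurve (qExpand coeffMap)

namespace Fermat.Agent.AtP

namespace Coeff

attribute [local instance] isDomain_LRing

variable {p : ℕ} [hp : Fact p.Prime] (C : Coeff p) {M : ℕ} [NeZero M]

/-- The uniformiser as a constant series. -/
def unifS : LaurentSeries C.B := HahnSeries.C C.unif

omit hp in
theorem span_isMaximal : (Ideal.span {C.unif}).IsMaximal :=
  PrincipalIdealRing.isMaximal_of_irreducible C.irred

instance fieldResid : Field (Resid C.unif.2) :=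
  letI : (Ideal.span {(⟨(C.unif : ℂ), C.unif.2⟩ : C.B)}).IsMaximal := C.span_isMaximal
  Ideal.Quotient.field _

instance charP_resid : CharP (Resid C.unif.2) p :=
  (CharP.charP_iff_prime_eq_zero hp.out).2 (by
    rw [← map_natCast (Ideal.Quotient.mk (Ideal.span {(⟨(C.unif : ℂ), C.unif.2⟩ : C.B)})),
      Ideal.Quotient.eq_zero_iff_mem, Ideal.mem_span_singleton, C.p_eq]
    exact (dvd_pow_self _ hp.out.ne_zero).mul_right _)

theorem perfect_resid (x : Resid C.unif.2) : ∃ y, y ^ p = x := by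
  obtain ⟨b, rfl⟩ := Ideal.Quotient.mk_surjective x
  obtain ⟨y, hy⟩ := IsAlgClosed.exists_pow_nat_eq (IsLocalRing.residue C.B b) hp.out.pos
  obtain ⟨y, rfl⟩ := IsLocalRing.residue_surjective y
  refine ⟨Ideal.Quotient.mk _ y, ?_⟩
  rw [← map_pow, Ideal.Quotient.eq]
  rw [← map_pow, ← sub_eq_zero, ← map_sub, IsLocalRing.residue_eq_zero_iff,
    C.irred.maximalIdeal_eq] at hy
  exact hy

/-- Reduction of series modulo the uniformiser. -/
def redS : LaurentSeries C.B →+* LaurentSeries (Resid C.unif.2) := coeffMap (Ideal.Quotient.mk _)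

omit hp in
/-- The kernel of the reduction of series is generated by the uniformiser. -/
theorem redS_eq_zero_iff (s : LaurentSeries C.B) : C.redS s = 0 ↔ C.unifS ∣ s := by
  constructor
  · intro h
    have hd : ∀ i, ∃ c, s.coeff i = C.unif * c := fun i => by
      have h2 := congrArg (fun t : LaurentSeries (Resid C.unif.2) => t.coeff i) h
      simp only [redS, ModularCurve.coeffMap_coeff, HahnSeries.coeff_zero,
        Ideal.Quotient.eq_zero_iff_mem, Ideal.mem_span_singleton] at h2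
      exact h2
    choose c hc using hd
    refine ⟨⟨c, s.isPWO_support.mono fun i hi => ?_⟩, ?_⟩
    · rw [HahnSeries.mem_support, hc]
      exact mul_ne_zero C.irred.ne_zero hi
    · ext i
      rw [unifS, HahnSeries.C_mul_eq_smul, HahnSeries.coeff_smul, smul_eq_mul, ← hc]
  · rintro ⟨t, rfl⟩
    rw [map_mul, redS, unifS, HahnSeries.C_apply, ModularCurve.coeffMap_single,
      Ideal.Quotient.eq_zero_iff_mem.mpr (Ideal.mem_span_singleton_self _)]
    simp

omit hp in
theorem dvd_sub_iff_redS (s t : LaurentSeries C.B) : C.unifS ∣ s - t ↔ C.redS s = C.redS t := by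
  rw [← redS_eq_zero_iff, map_sub, sub_eq_zero]

theorem redS_qExpand (s : LaurentSeries C.B) :
    C.redS (qExpand C.B p s) = qExpand (Resid C.unif.2) p (C.redS s) := by
  rw [redS, ModularCurve.coeffMap_qExpand]

/-- The expansion at `∞` read after `τ ↦ pτ`. -/
def expA₂ (M : ℕ) [NeZero M] : LRing (2 * M) C.B →+* LaurentSeries C.B :=
  (qExpand C.B p).comp (C.expA M)

/-- The uniformiser expands to a constant on the second branch. -/
theorem expA₂_piA : C.expA₂ M (C.piA M) = C.unifS := by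
  rw [expA₂, RingHom.comp_apply, expA_piA, HahnSeries.C_apply, ModularCurve.qExpand_single,
    mul_zero, ← HahnSeries.C_apply, unifS]

/-- The uniformiser is prime in the series. -/
theorem prime_unifS (hp2 : p ≠ 2) (hpM : ¬ p ∣ M) : Prime C.unifS :=
  (C.coeffHyp hp2 hpM).prime_C

variable (hp2 : p ≠ 2) (hpM : ¬ p ∣ M)

include hp2 hpM in
theorem sat₁ (a : LRing (2 * M) C.B) (h : C.expA M (C.piA M) ∣ C.expA M a) : C.piA M ∣ a :=
  C.piA_dvd_of_expA hp2 hpM h

include hp2 hpM in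
theorem sat₂ (a : LRing (2 * M) C.B) (h : C.expA₂ M (C.piA M) ∣ C.expA₂ M a) : C.piA M ∣ a := by
  rw [expA₂_piA, ← redS_eq_zero_iff, expA₂, RingHom.comp_apply, redS_qExpand] at h
  refine C.piA_dvd_of_expA hp2 hpM ?_
  rw [expA_piA, show HahnSeries.C C.unif = C.unifS from rfl, ← redS_eq_zero_iff]
  exact ModularCurve.qExpand_injective (R := Resid C.unif.2) p (by rw [h, map_zero])

omit hp in
/-- `p = ϖ ^ p μ` as series. -/
theorem natCast_series : (p : LaurentSeries C.B) = C.unifS ^ p * HahnSeries.C C.mu := by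
  rw [← map_natCast (HahnSeries.C : C.B →+* LaurentSeries C.B), C.p_eq, map_mul, map_pow]
  rfl

omit [NeZero M] in
theorem unifS_dvd_natCast : C.unifS ∣ (p : LaurentSeries C.B) := by
  rw [natCast_series]
  exact (dvd_pow_self _ hp.out.ne_zero).mul_right _

/-- `λ` as a function of level `2 M`. -/
def lamF : LRing (2 * M) C.B := C.polyLam hp2 hpM X

theorem coe_lamF : (C.lamF hp2 hpM).1 = lam := by simp [lamF, polyLam]

/-- The series of `λ`. -/
def lamS : LaurentSeries C.B := C.expA M (C.lamF hp2 hpM)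

/-- The series of `λ (pτ)`. -/
def lamPS' : LaurentSeries C.B := qExpand C.B p (C.lamS hp2 hpM)

theorem expA₂_lamF : C.expA₂ M (C.lamF hp2 hpM) = C.lamPS' hp2 hpM := rfl

/-- `lamS` is the expansion of `λ`. -/
theorem coeffMap_lamS : coeffMap C.B.subtype (C.lamS hp2 hpM) = expansion (2 * M) lam := by
  rw [lamS, ← RingHom.comp_apply (coeffMap C.B.subtype) (C.expA M), ← expK, expK_apply, coe_lamF]

theorem hasExp_lamS : HasExp (2 * M) lam (coeffMap C.B.subtype (C.lamS hp2 hpM)) := by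
  rw [lamS, ← RingHom.comp_apply (coeffMap C.B.subtype) (C.expA M), ← expK, expK_apply]
  simpa [coe_lamF] using hasExp_expansion (C.lamF hp2 hpM).2 1

/-- `lamPS'` is the expansion of `λ (pτ)`. -/
theorem coeffMap_lamPS' :
    coeffMap C.B.subtype (C.lamPS' hp2 hpM) = expansion (2 * M) (lamP p) := by
  have h : HasExp (2 * M) (lamP p) (coeffMap C.B.subtype (C.lamPS' hp2 hpM)) := by
    rw [lamPS', ModularCurve.coeffMap_qExpand]
    exact hasExp_comp_mulp (C.hasExp_lamS hp2 hpM)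
  exact h.expansion_eq.symm

/-- The modular polynomial over level `2 M`. -/
def modPolyA : (LRing (2 * M) C.B)[X] := (lamPoly p).map (C.polyLam hp2 hpM)

theorem eval₂_modPolyA₁ :
    (C.modPolyA hp2 hpM).eval₂ (C.expA M) (C.lamPS' hp2 hpM) = 0 := by
  refine C.coeffMap_subtype_injective' ?_
  rw [hom_eval₂, map_zero, ← expK, coeffMap_lamPS']
  refine series_eq_of_fun_eq (C.hasExp_polyFun (hasExp_lamP hp2) _) HasExp.zero ?_
  funext τ
  rw [modPolyA, C.eval₂_evA_polyLam hp2 hpM, lamPoly_roots hp2, eval_prod]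
  exact Finset.prod_eq_zero (Finset.mem_univ (none : Option (ZMod p))) (by simp)

theorem eval₂_modPolyA₂ :
    (C.modPolyA hp2 hpM).eval₂ (C.expA₂ M) (C.lamS hp2 hpM) = 0 := by
  refine C.coeffMap_subtype_injective' ?_
  rw [hom_eval₂, map_zero, coeffMap_lamS]
  have h := C.swap_eval₂_eq hp2 hpM (F := 0) (P := C.modPolyA hp2 hpM) (D := 0) (zero_mem _) (by
    rw [map_zero, zero_mul, ← coeffMap_lamPS' C hp2 hpM, expK, ← hom_eval₂, eval₂_modPolyA₁,
      map_zero])
  rw [map_zero, map_zero, zero_mul] at h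
  rw [h]
  congr 1
  refine RingHom.ext fun a => ?_
  simp only [expA₂, RingHom.comp_apply, expK, ModularCurve.coeffMap_qExpand]

/-- The correction term over level `2 M`. -/
def modHA : (LRing (2 * M) C.B)[X] := (lamH p).map (C.polyLam hp2 hpM)

/-- The Kronecker congruence. -/
theorem modPolyA_eq : C.modPolyA hp2 hpM =
    (Polynomial.C (C.lamF hp2 hpM) ^ p - X) * (Polynomial.C (C.lamF hp2 hpM) - X ^ p) +
      Polynomial.C (p : LRing (2 * M) C.B) * C.modHA hp2 hpM := by
  rw [modPolyA, lamPoly_eq hp2, Polynomial.map_add, kronecker_aux, Polynomial.map_mul,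
    Polynomial.map_C, map_natCast, map_natCast]
  rfl

/-! ## Reductions -/

theorem hasExp_lam_R2 : HasExp (2 * M) lam (qExpand ℂ M (coeffMap iota2 l2)) := exp2_l2.dilate M

theorem lamS_eq : C.lamS hp2 hpM = qExpand C.B M
    (coeffMap (Subring.inclusion (C.two_le.trans C.le)) l2) := by
  refine C.coeffMap_subtype_injective' ((C.hasExp_lamS hp2 hpM).series_eq ?_)
  rw [ModularCurve.coeffMap_qExpand]
  convert hasExp_lam_R2 (M := M) using 2
  ext i
  rw [ModularCurve.coeffMap_coeff, ModularCurve.coeffMap_coeff, ModularCurve.coeffMap_coeff]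
  rfl

theorem qExpand_redS_lamS : qExpand (Resid C.unif.2) p (C.redS (C.lamS hp2 hpM)) =
    C.redS (C.lamS hp2 hpM) ^ p := by
  rw [pow_eq_qExpand_frobenius (ℓ := p)]
  congr 1
  rw [lamS_eq, redS, ModularCurve.coeffMap_qExpand, ModularCurve.coeffMap_qExpand]
  congr 1
  ext i
  simp only [ModularCurve.coeffMap_coeff]
  exact (RingHom.congr_fun (R2_ringHom_ext
    ((frobenius (Resid C.unif.2) p).comp ((Ideal.Quotient.mk _).comp
      (Subring.inclusion (C.two_le.trans C.le))))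
    ((Ideal.Quotient.mk _).comp (Subring.inclusion (C.two_le.trans C.le)))) (l2.coeff i)).symm

theorem redS_lamPS' : C.redS (C.lamPS' hp2 hpM) = C.redS (C.lamS hp2 hpM) ^ p := by
  rw [lamPS', redS_qExpand, qExpand_redS_lamS]

/-- The coordinate `1 / λ`. -/
def tA : LRing (2 * M) C.B := Points.tL (C.levelHyp hp2 hpM)

theorem tA_mul_lamF : C.tA hp2 hpM * C.lamF hp2 hpM = 1 := by
  refine Subtype.ext (funext fun τ => ?_)
  rw [Subring.coe_mul, Pi.mul_apply, coe_lamF, Subring.coe_one, Pi.one_apply]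
  exact inv_mul_cancel₀ (lam_ne_zero τ)

theorem redS_expA_tA : C.redS (C.expA M (C.tA hp2 hpM)) * C.redS (C.lamS hp2 hpM) = 1 := by
  rw [lamS, ← map_mul, ← map_mul, tA_mul_lamF, map_one, map_one]

/-- `θ` kills `p`-th powers in characteristic `p`. -/
theorem thetaOp_pow_char (x : LaurentSeries (Resid C.unif.2)) :
    thetaOp (Resid C.unif.2) (x ^ p) = 0 := by
  rw [pow_eq_qExpand_frobenius (ℓ := p)]
  ext i
  show (i : Resid C.unif.2) * _ = 0
  by_cases hi : (p : ℤ) ∣ i
  · rw [(CharP.intCast_eq_zero_iff (Resid C.unif.2) p i).2 hi, zero_mul]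
  · rw [ModularCurve.qExpand_coeff_of_not_dvd p _ hi, mul_zero]

theorem thetaOp_qExpand' (x : LaurentSeries (Resid C.unif.2)) :
    thetaOp (Resid C.unif.2) (qExpand (Resid C.unif.2) p x) = 0 := by
  ext i
  show (i : Resid C.unif.2) * _ = 0
  by_cases hi : (p : ℤ) ∣ i
  · rw [(CharP.intCast_eq_zero_iff (Resid C.unif.2) p i).2 hi, zero_mul]
  · rw [ModularCurve.qExpand_coeff_of_not_dvd p _ hi, mul_zero]

theorem thetaOp_redS_lamS : thetaOp (Resid C.unif.2) (C.redS (C.lamS hp2 hpM)) ≠ 0 := by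
  intro h0
  have h := congrArg (thetaOp (Resid C.unif.2)) (C.redS_expA_tA hp2 hpM)
  have h1 : thetaOp (Resid C.unif.2) (1 : LaurentSeries (Resid C.unif.2)) = 0 := by
    simpa using C.thetaOp_pow_char 1
  rw [thetaOp_mul, h0, mul_zero, zero_add, h1, mul_eq_zero] at h
  refine Points.thetaOp_redExp_ne_zero (C.levelHyp hp2 hpM) (C.coeffHyp hp2 hpM)
    (h.resolve_left fun h2 => ?_)
  have := C.redS_expA_tA hp2 hpM
  rw [h2, mul_zero] at this
  exact zero_ne_one this

theorem redS_lamS_pow_sub_ne_zero :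
    C.redS (C.lamS hp2 hpM) ^ (p * p) - C.redS (C.lamS hp2 hpM) ≠ 0 := by
  intro h0
  have h := congrArg (thetaOp (Resid C.unif.2)) h0
  rw [map_sub, pow_mul, thetaOp_pow_char, zero_sub, map_zero, neg_eq_zero] at h
  exact C.thetaOp_redS_lamS hp2 hpM h

/-! ## The branch at `∞` -/

theorem lamPS'_sub_dvd : C.expA M (C.piA M) ∣
    C.lamPS' hp2 hpM - C.expA M (C.lamF hp2 hpM ^ p) := by
  rw [expA_piA, show HahnSeries.C C.unif = C.unifS from rfl, dvd_sub_iff_redS, redS_lamPS',
    map_pow, map_pow]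
  rfl

theorem not_dvd_derivative_modPolyA :
    ¬ C.piA M ∣ (C.modPolyA hp2 hpM).derivative.eval (C.lamF hp2 hpM ^ p) := by
  intro hd
  have h := map_dvd (C.expA M) hd
  rw [expA_piA, show HahnSeries.C C.unif = C.unifS from rfl, ← redS_eq_zero_iff] at h
  have hp0 : C.redS (C.expA M (p : LRing (2 * M) C.B)) = 0 := by
    rw [map_natCast, map_natCast, ← map_natCast (HahnSeries.C (Γ := ℤ) (R := Resid C.unif.2)),
      CharP.cast_eq_zero, map_zero]
  refine C.redS_lamS_pow_sub_ne_zero hp2 hpM ?_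
  rw [← h, modPolyA_eq]
  simp only [derivative_mul, derivative_pow, derivative_C,
    derivative_X, eval_add, eval_mul, eval_sub, eval_pow, eval_C, eval_X, sub_self, zero_mul,
    mul_zero, zero_sub, add_zero, zero_add, mul_one, neg_mul, one_mul, eval_one,
    eval_neg, map_add, map_mul, map_neg, map_sub, map_pow, hp0]
  rw [← pow_mul]
  show C.redS (C.lamS hp2 hpM) ^ (p * p) - C.redS (C.lamS hp2 hpM) = _
  rw [lamS]
  ring

include hp2 hpM in
theorem root₁ (x : LaurentSeries C.B) (a d : LRing (2 * M) C.B) (hd : ¬ C.piA M ∣ d)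
    (h : C.expA M (C.piA M) ∣ C.expA M d * x ^ p - C.expA M a) :
    ∃ a' d' : LRing (2 * M) C.B,
      ¬ C.piA M ∣ d' ∧ C.expA M (C.piA M) ∣ C.expA M d' * x - C.expA M a' := by
  rw [expA_piA, show HahnSeries.C C.unif = C.unifS from rfl, dvd_sub_iff_redS, map_mul,
    map_pow] at h
  obtain ⟨c, hc⟩ := Points.exists_pow_eq_of_redExp_div (C.levelHyp hp2 hpM) (C.coeffHyp hp2 hpM) p
    C.perfect_resid (a := a) (d := d) (g := C.redS x) h.symm
  refine ⟨c, d, hd, ?_⟩
  have hc' := map_dvd (C.expA M) hc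
  rw [show C.expA M (Points.piL (L := 2 * M) (C.coeffHyp hp2 hpM)) = C.unifS from expA_piA C M,
    map_sub, map_mul, map_mul, map_pow, map_pow, dvd_sub_iff_redS, map_mul, map_mul, map_pow,
    map_pow, ← h] at hc'
  rw [expA_piA, show HahnSeries.C C.unif = C.unifS from rfl, dvd_sub_iff_redS, map_mul]
  have hd0 : C.redS (C.expA M d) ≠ 0 := fun h0 => hd (C.sat₁ hp2 hpM d (by
    rw [expA_piA, show HahnSeries.C C.unif = C.unifS from rfl, ← redS_eq_zero_iff]; exact h0))
  have hchar : CharP (LaurentSeries (Resid C.unif.2)) p :=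
    charP_of_injective_ringHom (f := HahnSeries.C) HahnSeries.C_injective p
  refine frobenius_inj (LaurentSeries (Resid C.unif.2)) p (mul_left_cancel₀ hd0 ?_)
  rw [frobenius_def, frobenius_def, ← hc', mul_pow]
  ring

/-- The first branch at infinity satisfies the hypotheses of gluing. -/
theorem glueHyp₁ : GlueHyp (C.expA M) (C.lamPS' hp2 hpM) (C.piA M) p := by
  refine glueHyp_simple (V := C.modPolyA hp2 hpM) (y₀ := C.lamF hp2 hpM ^ p)
    (C.prime_piA hp2 hpM) ?_ (C.sat₁ hp2 hpM) (C.not_dvd_derivative_modPolyA hp2 hpM)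
    (C.eval₂_modPolyA₁ hp2 hpM) (C.lamPS'_sub_dvd hp2 hpM) (C.root₁ hp2 hpM)
  rw [expA_piA]
  exact C.prime_unifS hp2 hpM

/-! ## The branch after `τ ↦ pτ` -/

theorem redS_expA₂ (a : LRing (2 * M) C.B) :
    C.redS (C.expA₂ M a) = qExpand (Resid C.unif.2) p (C.redS (C.expA M a)) :=
  C.redS_qExpand _

theorem redS_eval₂_expA₂ (P : (LRing (2 * M) C.B)[X]) (n : ℕ) (hn : P.natDegree < n) :
    C.redS (P.eval₂ (C.expA₂ M) (C.lamS hp2 hpM)) = ∑ j ∈ Finset.range n,
      qExpand (Resid C.unif.2) p (C.redS (C.expA M (P.coeff j))) *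
        C.redS (C.lamS hp2 hpM) ^ j := by
  rw [eval₂_eq_sum_range' (C.expA₂ M) hn, map_sum]
  exact Finset.sum_congr rfl fun j _ => by rw [map_mul, map_pow, redS_expA₂]

omit [NeZero M] in
theorem natDegree_lt_of_degree {P : (LRing (2 * M) C.B)[X]} (hP : P.degree < (p : ℕ)) :
    P.natDegree < p := by
  rcases eq_or_ne P 0 with rfl | h0
  · simpa using hp.out.pos
  · exact (natDegree_lt_iff_degree_lt h0).2 hP

theorem indep₂ (P : (LRing (2 * M) C.B)[X]) (hP : P.degree < (p : ℕ))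
    (h : C.expA₂ M (C.piA M) ∣ P.eval₂ (C.expA₂ M) (C.lamS hp2 hpM)) :
    Polynomial.C (C.piA M) ∣ P := by
  rw [expA₂_piA, ← redS_eq_zero_iff,
    C.redS_eval₂_expA₂ hp2 hpM P p (C.natDegree_lt_of_degree hP)] at h
  have hz := Points.coeff_eq_zero_of_theta (p := p) (C.thetaOp_redS_lamS hp2 hpM) p le_rfl _
    (fun j => C.thetaOp_qExpand' _) h
  rw [C_dvd_iff_dvd_coeff]
  intro j
  rcases lt_or_ge j p with hj | hj
  · refine C.sat₁ hp2 hpM _ ?_
    rw [expA_piA, show HahnSeries.C C.unif = C.unifS from rfl, ← redS_eq_zero_iff]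
    exact ModularCurve.qExpand_injective (R := Resid C.unif.2) p ((hz j hj).trans (map_zero _).symm)
  · rw [coeff_eq_zero_of_natDegree_lt ((C.natDegree_lt_of_degree hP).trans_le hj)]
    exact dvd_zero _

theorem redS_eval₂_sep : C.redS ((X ^ p - Polynomial.C (C.lamF hp2 hpM) :
    (LRing (2 * M) C.B)[X]).eval₂ (C.expA₂ M) (C.lamS hp2 hpM)) = 0 := by
  rw [eval₂_sub, eval₂_X_pow, eval₂_C, map_sub, map_pow, expA₂_lamF, redS_lamPS', sub_self]

include hp2 hpM in
theorem root₂ (x : LaurentSeries C.B) (d : LRing (2 * M) C.B) (Q : (LRing (2 * M) C.B)[X])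
    (hd : ¬ C.piA M ∣ d)
    (h : C.expA₂ M (C.piA M) ∣ C.expA₂ M d * x ^ p - Q.eval₂ (C.expA₂ M) (C.lamS hp2 hpM)) :
    ∃ (Q' : (LRing (2 * M) C.B)[X]) (d' : LRing (2 * M) C.B), ¬ C.piA M ∣ d' ∧
      C.expA₂ M (C.piA M) ∣ C.expA₂ M d' * x - Q'.eval₂ (C.expA₂ M) (C.lamS hp2 hpM) := by
  classical
  set G : (LRing (2 * M) C.B)[X] := X ^ p - Polynomial.C (C.lamF hp2 hpM)
  have hG : G.Monic := monic_X_pow_sub_C _ hp.out.ne_zero
  set Q₀ := Q %ₘ G
  have hQ₀ : Q₀.natDegree < p := C.natDegree_lt_of_degree (by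
    have := degree_modByMonic_lt Q hG
    rwa [degree_X_pow_sub_C hp.out.pos] at this)
  set κ := Resid C.unif.2
  set E := qExpand κ p
  set ζ := C.redS (C.lamS hp2 hpM)
  set Y := C.redS x
  have hev : C.redS (Q.eval₂ (C.expA₂ M) (C.lamS hp2 hpM)) =
      ∑ j ∈ Finset.range p, E (C.redS (C.expA M (Q₀.coeff j))) * ζ ^ j := by
    conv_lhs => rw [← modByMonic_add_div Q G]
    rw [eval₂_add, eval₂_mul, map_add, map_mul, redS_eval₂_sep, zero_mul, add_zero,
      C.redS_eval₂_expA₂ hp2 hpM Q₀ p hQ₀]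
  rw [expA₂_piA, dvd_sub_iff_redS, map_mul, map_pow, redS_expA₂, hev] at h
  set e : ℕ → LaurentSeries κ := fun j => E (C.redS (C.expA M (Q₀.coeff j))) -
    if j = 0 then E (C.redS (C.expA M d)) * Y ^ p else 0 with he
  have he0 : ∀ j, thetaOp κ (e j) = 0 := fun j => by
    rw [he]
    dsimp only
    rw [map_sub, C.thetaOp_qExpand', zero_sub, neg_eq_zero]
    split_ifs
    · rw [thetaOp_mul, C.thetaOp_pow_char, C.thetaOp_qExpand', mul_zero, mul_zero, add_zero]
    · rw [map_zero]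
  have hsum : ∑ j ∈ Finset.range p, e j * ζ ^ j = 0 := by
    simp only [he, sub_mul, Finset.sum_sub_distrib]
    rw [← h, Finset.sum_eq_single 0 (fun j _ hj => by rw [if_neg hj, zero_mul])
      (fun h0 => absurd (Finset.mem_range.2 hp.out.pos) h0)]
    simp [E, Y]
    try exact sub_self _
  have hz := Points.coeff_eq_zero_of_theta (p := p) (C.thetaOp_redS_lamS hp2 hpM) p le_rfl e he0
    hsum 0 hp.out.pos
  rw [he] at hz
  dsimp only at hz
  rw [if_pos rfl, sub_eq_zero] at hz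
  -- `p`-th powers span the functions modulo the uniformiser
  set q := Ideal.Quotient.mk
    (Ideal.span {Points.piL (L := 2 * M) (C.coeffHyp hp2 hpM)})
  obtain ⟨c, hc⟩ := Points.isPSpan (C.levelHyp hp2 hpM) (C.coeffHyp hp2 hpM) p C.perfect_resid
    (d ^ (p - 1) * Q₀.coeff 0)
  choose c' hc' using fun j => Ideal.Quotient.mk_surjective (c j)
  have hb : C.redS (C.expA M (d ^ (p - 1) * Q₀.coeff 0)) = ∑ j ∈ Finset.range p,
      C.redS (C.expA M (c' j)) ^ p * C.redS (C.expA M (C.tA hp2 hpM)) ^ j := by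
    have h2 : Points.piL (L := 2 * M) (C.coeffHyp hp2 hpM) ∣ d ^ (p - 1) * Q₀.coeff 0 -
        ∑ j ∈ Finset.range p, c' j ^ p * C.tA hp2 hpM ^ j := by
      rw [← Ideal.mem_span_singleton, ← Ideal.Quotient.eq_zero_iff_mem, map_sub, sub_eq_zero, hc,
        map_sum]
      exact Finset.sum_congr rfl fun j _ => by
        rw [map_mul, map_pow, map_pow, hc']; rfl
    have h3 := map_dvd (C.expA M) h2
    rw [show C.expA M (Points.piL (L := 2 * M) (C.coeffHyp hp2 hpM)) = C.unifS from expA_piA C M,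
      map_sub, dvd_sub_iff_redS, map_sum, map_sum] at h3
    rw [h3]
    exact Finset.sum_congr rfl fun j _ => by rw [map_mul, map_pow, map_pow, map_mul, map_pow, map_pow]
  set T := C.redS (C.expA M (C.tA hp2 hpM))
  have hTζ : T * ζ = 1 := C.redS_expA_tA hp2 hpM
  have hζ0 : ζ ≠ 0 := right_ne_zero_of_mul_eq_one hTζ
  have hET : E T = T ^ p := by
    refine mul_right_cancel₀ (pow_ne_zero p hζ0) ?_
    rw [← mul_pow, hTζ, one_pow, ← C.qExpand_redS_lamS hp2 hpM, ← map_mul, hTζ, map_one]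
  set D := C.redS (C.expA M d)
  have hD : E D ^ p = E (D ^ (p - 1)) * E D := by
    rw [← map_pow, ← map_mul, ← pow_succ, Nat.sub_add_cancel hp.out.one_le]
  have hchar : CharP (LaurentSeries κ) p :=
    charP_of_injective_ringHom (f := HahnSeries.C) HahnSeries.C_injective p
  refine ⟨∑ j ∈ Finset.range p, Polynomial.C (c' j * C.tA hp2 hpM ^ j) * X ^ ((p - 1) * j), d, hd,
    ?_⟩
  rw [expA₂_piA, dvd_sub_iff_redS, map_mul, redS_expA₂, eval₂_finsetSum, map_sum]
  refine frobenius_inj (LaurentSeries κ) p ?_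
  rw [frobenius_def, frobenius_def, sum_pow_char, mul_pow, hD, mul_assoc, ← hz, ← map_mul]
  rw [map_mul, map_mul, map_pow, map_pow] at hb
  rw [hb, map_sum]
  refine Finset.sum_congr rfl fun j _ => ?_
  have hT1 : T ^ p * ζ ^ (p - 1) = T := by
    rw [show T ^ p = T * T ^ (p - 1) by rw [← pow_succ', Nat.sub_add_cancel hp.out.one_le],
      mul_assoc, ← mul_pow, hTζ, one_pow, mul_one]
  have hval : C.redS ((Polynomial.C (c' j * C.tA hp2 hpM ^ j) * X ^ ((p - 1) * j) :
      (LRing (2 * M) C.B)[X]).eval₂ (C.expA₂ M) (C.lamS hp2 hpM)) =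
      E (C.redS (C.expA M (c' j))) * T ^ j := by
    rw [eval₂_mul, eval₂_C, eval₂_X_pow, map_mul C.redS, redS_expA₂, map_pow C.redS]
    simp only [map_mul, map_pow]
    rw [show C.redS (C.lamS hp2 hpM) = ζ from rfl,
      show qExpand (Resid C.unif.2) p (C.redS (C.expA M (C.tA hp2 hpM))) = T ^ p from hET,
      pow_mul ζ, mul_assoc, ← mul_pow, hT1]
  rw [hval, map_mul, map_pow, map_pow, mul_pow, hET, ← pow_mul, ← pow_mul, mul_comm j p]

/-- The second branch at infinity satisfies the hypotheses of gluing. -/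
theorem glueHyp₂ : GlueHyp (C.expA₂ M) (C.lamS hp2 hpM) (C.piA M) p := by
  obtain ⟨g, hg⟩ := (C.redS_eq_zero_iff _).1 (C.redS_eval₂_sep hp2 hpM)
  rw [eval₂_sub, eval₂_X_pow, eval₂_C] at hg
  refine glueHyp_insep (lA := C.lamF hp2 hpM) (g := g)
    (W := X - Polynomial.C (C.lamF hp2 hpM ^ p))
    (H₁ := -Polynomial.C (C.piA M ^ (p - 2) * Points.cstL (C.levelHyp hp2 hpM) C.mu) *
      C.modHA hp2 hpM)
    (C.prime_piA hp2 hpM) ?_ (C.sat₂ hp2 hpM) hp.out ?_ ?_ ?_ ?_ (C.indep₂ hp2 hpM)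
    (C.root₂ hp2 hpM)
  · rw [expA₂_piA]; exact C.prime_unifS hp2 hpM
  · rw [expA₂_piA]; exact C.unifS_dvd_natCast
  · rw [expA₂_piA]; exact hg
  · rw [expA₂_piA, ← redS_eq_zero_iff, eval₂_sub, eval₂_X, eval₂_C, map_sub, map_pow, map_pow,
      expA₂_lamF, redS_lamPS', ← pow_mul]
    exact fun h => C.redS_lamS_pow_sub_ne_zero hp2 hpM (by linear_combination -h)
  · have hV := C.eval₂_modPolyA₂ hp2 hpM
    rw [modPolyA_eq] at hV
    simp only [eval₂_add, eval₂_mul, eval₂_sub, eval₂_pow, eval₂_C, eval₂_X, map_natCast] at hV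
    have hmu : C.expA₂ M (Points.cstL (C.levelHyp hp2 hpM) C.mu) = HahnSeries.C C.mu := by
      rw [Points.cstL_apply, expA₂, RingHom.comp_apply, expA, expB_constL, HahnSeries.C_apply,
        ModularCurve.qExpand_single, mul_zero]
    have hu : C.unifS ^ p = C.unifS * (C.unifS * C.unifS ^ (p - 2)) := by
      rw [← pow_succ', ← pow_succ']
      congr 1
      have := hp.out.two_le
      omega
    simp only [eval₂_natCast, C.natCast_series, hu] at hV
    simp only [eval₂_neg, eval₂_mul, eval₂_C, eval₂_sub, eval₂_X, eval₂_pow, map_mul, map_pow,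
      expA₂_piA, hmu]
    refine mul_left_cancel₀ (C.prime_unifS hp2 hpM).ne_zero ?_
    linear_combination hV - (C.lamS hp2 hpM - C.expA₂ M (C.lamF hp2 hpM) ^ p) * hg

/-- The separating polynomial is nonzero modulo `ϖ` on the first branch. -/
theorem not_dvd_sep₁ : ¬ C.expA M (C.piA M) ∣
    (X ^ p - Polynomial.C (C.lamF hp2 hpM) : (LRing (2 * M) C.B)[X]).eval₂ (C.expA M)
      (C.lamPS' hp2 hpM) := by
  rw [expA_piA, show HahnSeries.C C.unif = C.unifS from rfl, ← redS_eq_zero_iff, eval₂_sub,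
    eval₂_X_pow, eval₂_C, map_sub, map_pow, redS_lamPS', ← pow_mul]
  exact C.redS_lamS_pow_sub_ne_zero hp2 hpM

/-- The separating polynomial vanishes modulo `ϖ` on the second branch. -/
theorem dvd_sep₂ : C.expA₂ M (C.piA M) ∣
    (X ^ p - Polynomial.C (C.lamF hp2 hpM) : (LRing (2 * M) C.B)[X]).eval₂ (C.expA₂ M)
      (C.lamS hp2 hpM) := by
  rw [expA₂_piA, ← redS_eq_zero_iff]
  exact C.redS_eval₂_sep hp2 hpM

end Coeff

end Fermat.Agent.AtP
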