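import Fermat.Agent.KummerES.ConjugateCanon
import Mathlib.Algebra.Polynomial.Derivative

/-!
# The end of the gluing

The traces against the powers of the root of `V` give, by the dual basis, a function whose `p`-th
power is `f V' ^ p`; then the Kummer root has trivial multiplier at that level.
-/

set_option autoImplicit false

noncomputable section

open UpperHalfPlane CongruenceSubgroup
open scoped MatrixGroups
open Fermat.Agent.KummerES

namespace Fermat.Agent.AtP.Glue

section Algebra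

open Polynomial

variable {A : Type*} [CommRing A]

/-- The `j`-th coefficient of `G V' (Z)` in terms of the traces of `G Z ^ i`. -/
def dualComb (V : A[X]) (b : ℕ → A) (j : ℕ) : A :=
  ∑ i ∈ Finset.Ioc j V.natDegree, V.coeff i * b (i - 1 - j)

/-- The value of a derivative as a sum over the coefficients. -/
theorem eval₂_derivative {S : Type*} [CommRing S] (ψ : A →+* S) (V : A[X]) (z : S) :
    V.derivative.eval₂ ψ z =
      ∑ i ∈ Finset.range (V.natDegree + 1), ψ (V.coeff i) * ((i : S) * z ^ (i - 1)) := by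
  conv_lhs => rw [V.as_sum_range_C_mul_X_pow]
  rw [derivative_sum, eval₂_finsetSum]
  refine Finset.sum_congr rfl fun i _ => ?_
  rw [derivative_C_mul_X_pow, eval₂_mul, eval₂_C, eval₂_pow, eval₂_X, map_mul, map_natCast,
    mul_assoc]

/-- **The dual basis**: the traces `g₁ z ^ j + τ (g₂ Y ^ j)` give `g₁ V' (z)`. -/
theorem sum_dualComb {S R : Type*} [CommRing S] [CommRing R] [IsDomain R] (ψ : A →+* S)
    (V : A[X]) {z : S} (hz : V.eval₂ ψ z = 0) (ι : S →+* R) (τ : R →+ S)
    (hτ : ∀ a x, τ (ι a * x) = a * τ x) {Y : R} (hY : V.eval₂ (ι.comp ψ) Y = 0) (hne : Y ≠ ι z)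
    (g₁ : S) (g₂ : R) {b : ℕ → A} (hb : ∀ j, ψ (b j) = g₁ * z ^ j + τ (g₂ * Y ^ j)) :
    ∑ j ∈ Finset.range V.natDegree, ψ (dualComb V b j) * z ^ j =
      g₁ * V.derivative.eval₂ ψ z := by
  set N := V.natDegree
  -- the divided difference `(V x - V z) / (x - z)`
  have hsplit : ∑ j ∈ Finset.range N, ψ (dualComb V b j) * z ^ j =
      ∑ i ∈ Finset.range (N + 1), ∑ j ∈ Finset.range i,
        ψ (V.coeff i) * ψ (b (i - 1 - j)) * z ^ j := by
    simp only [dualComb, map_sum, map_mul, Finset.sum_mul]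
    refine Finset.sum_comm' fun j i => ?_
    simp only [Finset.mem_range, Finset.mem_Ioc, N]
    omega
  have hkey : ∑ i ∈ Finset.range (N + 1), ι (ψ (V.coeff i)) *
      ∑ j ∈ Finset.range i, Y ^ (i - 1 - j) * ι z ^ j = 0 := by
    refine (mul_eq_zero.1 ?_).resolve_left (sub_ne_zero.2 (Ne.symm hne))
    rw [Finset.mul_sum, eval₂_eq_sum_range] at *
    calc ∑ i ∈ Finset.range (N + 1), (ι z - Y) * (ι (ψ (V.coeff i)) *
          ∑ j ∈ Finset.range i, Y ^ (i - 1 - j) * ι z ^ j)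
        = ∑ i ∈ Finset.range (N + 1), (ι (ψ (V.coeff i) * z ^ i) - ι (ψ (V.coeff i)) * Y ^ i) := by
          refine Finset.sum_congr rfl fun i _ => ?_
          rw [map_mul, map_pow, ← mul_sub, ← geom_sum₂_mul (ι z) Y i, mul_left_comm]
          refine congrArg (ι (ψ (V.coeff i)) * ·) ((mul_comm _ _).trans ?_)
          exact congrArg (· * (ι z - Y)) (Finset.sum_congr rfl fun j _ => mul_comm _ _)
      _ = 0 := by
          rw [Finset.sum_sub_distrib, ← map_sum, hz, map_zero, zero_sub, neg_eq_zero]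
          exact hY
  rw [hsplit, eval₂_derivative, Finset.mul_sum]
  calc ∑ i ∈ Finset.range (N + 1), ∑ j ∈ Finset.range i,
        ψ (V.coeff i) * ψ (b (i - 1 - j)) * z ^ j
      = ∑ i ∈ Finset.range (N + 1), g₁ * (ψ (V.coeff i) * ((i : S) * z ^ (i - 1))) +
          τ (g₂ * ∑ i ∈ Finset.range (N + 1), ι (ψ (V.coeff i)) *
            ∑ j ∈ Finset.range i, Y ^ (i - 1 - j) * ι z ^ j) := by
        rw [Finset.mul_sum, map_sum, ← Finset.sum_add_distrib]
        refine Finset.sum_congr rfl fun i _ => ?_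
        have h1 : τ (g₂ * (ι (ψ (V.coeff i)) * ∑ j ∈ Finset.range i, Y ^ (i - 1 - j) * ι z ^ j)) =
            ∑ j ∈ Finset.range i, ψ (V.coeff i) * z ^ j * τ (g₂ * Y ^ (i - 1 - j)) := by
          rw [Finset.mul_sum, Finset.mul_sum, map_sum]
          refine Finset.sum_congr rfl fun j _ => ?_
          refine (congrArg τ ?_).trans (hτ _ _)
          rw [map_mul, map_pow]
          ring
        have h2 : ∑ j ∈ Finset.range i, z ^ (i - 1) = (i : S) * z ^ (i - 1) := by
          rw [Finset.sum_const, Finset.card_range, nsmul_eq_mul]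
        rw [h1, ← h2, Finset.mul_sum, Finset.mul_sum, ← Finset.sum_add_distrib]
        refine Finset.sum_congr rfl fun j hj => ?_
        rw [hb, show z ^ (i - 1) = z ^ (i - 1 - j) * z ^ j by
          rw [← pow_add, Nat.sub_add_cancel (by have := Finset.mem_range.1 hj; omega)]]
        ring
    _ = _ := by rw [hkey, mul_zero, map_zero, add_zero]

end Algebra

variable {Γ Γ' : Subgroup SL(2, ℤ)} {L n : ℕ} [NeZero L] [NeZero n]

/-- A Kummer root with a `p`-th power relation to functions of level `Γ'` is invariant under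
`Γ'`. -/
theorem mem_weak_of_pow_eq (hLΓ : Gamma L ≤ Γ)
    {χ : ModularCurve.Period.parabolicHoms ℤ Γ (ZMod n)} {g : ℍ → ℂ}
    (hg : IsKummer L n χ.1 g) (hle : Γ' ≤ Γ) {F D : ℍ → ℂ} (hF : F ∈ weak Γ' L ⊤)
    (hD : D ∈ weak Γ' L ⊤) (hD0 : D ≠ 0) {c : ℂ} (hc : c ≠ 0)
    (h : ∀ τ, F τ ^ n = c * g τ ^ n * D τ ^ n) : g ∈ weak Γ' L ⊤ := by
  obtain ⟨SF, -, hSF⟩ := hF.2.2 1
  obtain ⟨SD, -, hSD⟩ := hD.2.2 1
  obtain ⟨S, hS0, hS, -⟩ := hg.exists_rootExp hLΓ 1
  rw [comp_one] at hSF hSD hS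
  obtain ⟨a, ha⟩ := IsAlgClosed.exists_pow_nat_eq c (Nat.pos_of_ne_zero (NeZero.ne n))
  have ha0 : a ≠ 0 := fun h0 => hc (by rw [← ha, h0, zero_pow (NeZero.ne n)])
  set q : ℍ → ℂ := (fun _ => a) * g * D
  set Sq : LaurentSeries ℂ := HahnSeries.single 0 a * S * SD
  have hq : HasExp L q Sq := ((HasExp.const a).mul hS).mul hSD
  have hSD0 : SD ≠ 0 := by
    rintro rfl
    exact hD0 (hSD.fun_eq HasExp.zero)
  have hSq : Sq ≠ 0 := mul_ne_zero (mul_ne_zero (by simpa using ha0) hS0) hSD0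
  have hpow : SF ^ n = Sq ^ n := (hSF.pow n).series_eq (by
    have e : F ^ n = q ^ n := funext fun τ => by
      simp only [Pi.pow_apply, q, Pi.mul_apply, h, mul_pow, ha]
    rw [e]; exact hq.pow n)
  have hζ := (isPrimitiveRoot_zetaC n).map_of_injective
    (f := (HahnSeries.C : ℂ →+* LaurentSeries ℂ)) HahnSeries.C_injective
  obtain ⟨i, -, hi⟩ := hζ.eq_pow_of_pow_eq_one (ξ := SF / Sq)
    (by rw [div_pow, hpow, div_self (pow_ne_zero _ hSq)])
  rw [eq_div_iff hSq, ← map_pow] at hi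
  set ω := zetaC n ^ i
  have hω : ω ≠ 0 := pow_ne_zero _ (zetaC_ne_zero n)
  have hFq : F = (fun _ => ω) * q := by
    refine hSF.fun_eq ?_
    rw [← hi]
    exact (HasExp.const ω).mul hq
  refine ⟨hg.holo, fun γ hγ => ?_, fun δ => ?_⟩
  · set r := rootPow n (χ.1 (Additive.ofMul (⟨γ, hle hγ⟩ : Γ))) with hrdef
    have hcomp : comp g γ = fun τ => r * g τ := hg.comp_eq ⟨γ, hle hγ⟩
    suffices r = 1 by rw [hcomp, this]; simp
    obtain ⟨τ, hτ⟩ : ∃ τ, F τ ≠ 0 := by
      by_contra h0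
      push Not at h0
      refine mul_ne_zero ((HahnSeries.C_injective.ne_iff' (map_zero _)).2 hω) hSq ?_
      rw [hi]
      exact hSF.series_eq ((funext h0 : F = 0) ▸ HasExp.zero)
    have h1 := congrFun (hF.2.1 γ hγ) τ
    have h2 := congrFun (hD.2.1 γ hγ) τ
    have h3 := congrFun hcomp τ
    simp only [comp_apply] at h1 h2 h3
    rw [hFq] at h1 hτ
    simp only [q, Pi.mul_apply, h2, h3] at h1 hτ
    exact mul_right_cancel₀ hτ (by linear_combination h1)
  · obtain ⟨T, -, hT, -⟩ := hg.exists_rootExp hLΓ δ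
    exact ⟨T, fun _ => Subring.mem_top _, hT⟩

end Fermat.Agent.AtP.Glue
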