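import Fermat.Agent.AtP.PointsRegular
import Fermat.Agent.KummerES.Gluing
import Mathlib.RingTheory.AdjoinRoot
import Mathlib.RingTheory.Trace.Basic
import Mathlib.Data.Nat.Choose.Dvd

/-!
# Gluing by traces

An approximant of a `p`-th root of `f` is `Q (z) / d`. At a place with an exact root `G`, the
trace of `Q (z) z ^ j` is congruent to `d` times the trace of `G Z ^ j`; hence these traces are
regular modulo every power of `π`, and converge to functions with prescribed expansions.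
-/

set_option autoImplicit false

noncomputable section

open Polynomial CongruenceSubgroup
open scoped MatrixGroups
open Fermat.Agent.KummerES
open ModularCurve (coeffMap)
open IsLocalRing (ResidueField)

namespace Fermat.Agent.AtP.Glue

/-- For `p = P ^ p u` with odd `p`, congruent `p`-th powers have congruent roots. -/
theorem pow_dvd_sub_of_pow_dvd_pow_sub_unit {R : Type*} [CommRing R] [IsDomain R] {p : ℕ}
    (hp : p.Prime) (hp2 : p ≠ 2) {P u : R} (hP : Prime P) (hpP : (p : R) = P ^ p * u)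
    (hu : ¬ P ∣ u) {a b : R} (ha : ¬ P ∣ a) {n : ℕ} (h : P ^ n ∣ a ^ p - b ^ p) :
    P ^ (n - p) ∣ a - b := by
  have hp3 : 3 ≤ p := by have := hp.two_le; omega
  set δ := a - b with hδ
  obtain ⟨r, hr⟩ : ∃ r, a ^ p - b ^ p =
      (p : R) * (b ^ (p - 1) * δ) + (p : R) * (δ ^ 2 * r) + δ ^ p := by
    refine ⟨∑ i ∈ Finset.Ico 2 p, ((p.choose i / p : ℕ) : R) * δ ^ (i - 2) * b ^ (p - i), ?_⟩
    rw [show a = δ + b by rw [hδ]; ring, add_pow, Finset.sum_range_succ, Finset.range_eq_Ico,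
      Finset.sum_eq_sum_Ico_succ_bot hp.pos, Finset.sum_eq_sum_Ico_succ_bot hp.one_lt,
      Finset.mul_sum, Finset.mul_sum]
    simp only [pow_zero, Nat.sub_zero, Nat.choose_zero_right, Nat.cast_one, pow_one,
      Nat.choose_one_right, Nat.choose_self, Nat.sub_self, mul_one, one_mul]
    have hs : ∀ i ∈ Finset.Ico 2 p, δ ^ i * b ^ (p - i) * (p.choose i : R) =
        (p : R) * (δ ^ 2 * (((p.choose i / p : ℕ) : R) * δ ^ (i - 2) * b ^ (p - i))) := by
      intro i hi
      rw [Finset.mem_Ico] at hi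
      obtain ⟨j, rfl⟩ : ∃ j, i = j + 2 := ⟨i - 2, by omega⟩
      have hd := Nat.div_mul_cancel (Nat.Prime.dvd_choose_self hp (show j + 2 ≠ 0 by omega) hi.2)
      generalize p.choose (j + 2) / p = m at hd
      rw [← hd, Nat.cast_mul, Nat.add_sub_cancel]
      ring
    rw [Finset.sum_congr rfl hs]
    ring
  have hb : P ∣ δ → ¬ P ∣ b := fun hd hb => ha (by simpa [hδ] using dvd_add hd hb)
  suffices ∀ j, j + p ≤ n → P ^ j ∣ δ by
    by_cases hn : p ≤ n
    · exact this (n - p) (by omega)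
    · rw [Nat.sub_eq_zero_of_le (by omega), pow_zero]
      exact one_dvd _
  intro j
  induction j with
  | zero => intro _; simp
  | succ j ih =>
    intro hj
    obtain ⟨d', hd'⟩ := ih (by omega)
    rw [hr, hpP] at h
    have hPp : P ∣ P ^ p := dvd_pow_self _ hp.ne_zero
    rcases Nat.eq_zero_or_pos j with rfl | hjpos
    · rw [zero_add, pow_one]
      refine hP.dvd_of_dvd_pow (n := p) ?_
      have h1 : P ∣ P ^ p * u * (b ^ (p - 1) * δ) + P ^ p * u * (δ ^ 2 * r) :=
        dvd_add ((hPp.mul_right _).mul_right _) ((hPp.mul_right _).mul_right _)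
      have := dvd_sub ((dvd_pow_self P (by omega : n ≠ 0)).trans h) h1
      rwa [add_sub_cancel_left] at this
    rw [hd'] at h ⊢
    rw [pow_succ P j]
    refine mul_dvd_mul_left _ ?_
    rcases (show j = 1 ∨ 2 ≤ j by omega) with rfl | hj2
    · refine hP.dvd_of_dvd_pow (n := p) ((mul_dvd_mul_iff_left (pow_ne_zero p hP.ne_zero)).1 ?_)
      have h1 : P ^ p * P ∣ P ^ p * u * (b ^ (p - 1) * (P ^ 1 * d')) +
          P ^ p * u * ((P ^ 1 * d') ^ 2 * r) :=
        ⟨u * b ^ (p - 1) * d' + u * P * d' ^ 2 * r, by ring⟩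
      have := dvd_sub ((show P ^ p * P ∣ P ^ n by
        rw [← pow_succ]; exact pow_dvd_pow _ (by omega)).trans h) h1
      rwa [add_sub_cancel_left, mul_pow, pow_one] at this
    · have hexp : j + p + 1 ≤ p * j := by nlinarith
      have h1 : P ^ (p + j) * P ∣ P ^ p * u * ((P ^ j * d') ^ 2 * r) + (P ^ j * d') ^ p := by
        refine dvd_add ?_ ?_
        · rw [← pow_succ]
          exact (pow_dvd_pow P (show p + j + 1 ≤ p + (j + j) by omega)).trans
            ⟨u * d' ^ 2 * r, by rw [pow_add, pow_add]; ring⟩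
        · rw [mul_pow, ← pow_mul, ← pow_succ]
          exact (pow_dvd_pow P (by rw [mul_comm j p]; omega)).mul_right _
      have h2 : P ^ (p + j) * P ∣ P ^ (p + j) * (u * b ^ (p - 1) * d') := by
        have := dvd_sub ((show P ^ (p + j) * P ∣ P ^ n by
          rw [← pow_succ]; exact pow_dvd_pow _ (by omega)).trans h) h1
        convert this using 1
        rw [pow_add]; ring
      have h3 := (mul_dvd_mul_iff_left (pow_ne_zero _ hP.ne_zero)).1 h2
      have hPd : P ∣ δ := hd' ▸ (dvd_pow_self P (by omega : j ≠ 0)).mul_right d'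
      exact ((hP.dvd_or_dvd h3).resolve_left fun h4 => (hP.dvd_or_dvd h4).elim hu
        fun h5 => hb hPd (hP.dvd_of_dvd_pow h5))

/-- The same, for a root divisible by at most `P ^ w`. -/
theorem pow_dvd_sub_of_pow_dvd_pow_sub_pow {R : Type*} [CommRing R] [IsDomain R] {p : ℕ}
    (hp : p.Prime) (hp2 : p ≠ 2) {P u : R} (hP : Prime P) (hpP : (p : R) = P ^ p * u)
    (hu : ¬ P ∣ u) :
    ∀ {w : ℕ} {a b : R}, ¬ P ^ (w + 1) ∣ a → ∀ {n : ℕ}, P ^ n ∣ a ^ p - b ^ p →
      P ^ (n - (p + p * w)) ∣ a - b := by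
  intro w
  induction w with
  | zero =>
    intro a b ha n h
    simpa using pow_dvd_sub_of_pow_dvd_pow_sub_unit hp hp2 hP hpP hu (by simpa using ha) h
  | succ w ih =>
    intro a b ha n h
    by_cases hPa : P ∣ a
    swap
    · exact (pow_dvd_pow P (by omega)).trans
        (pow_dvd_sub_of_pow_dvd_pow_sub_unit hp hp2 hP hpP hu hPa h)
    by_cases hn : n ≤ p + p * (w + 1)
    · rw [Nat.sub_eq_zero_of_le hn, pow_zero]
      exact one_dvd _
    obtain ⟨a', rfl⟩ := hPa
    obtain ⟨b', rfl⟩ : P ∣ b := by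
      refine hP.dvd_of_dvd_pow (n := p) ?_
      have := dvd_sub ((dvd_pow_self P hp.ne_zero).mul_right (a' ^ p))
        ((dvd_pow_self P (by omega : n ≠ 0)).trans h)
      rwa [← mul_pow, sub_sub_cancel] at this
    have h' : P ^ (n - p) ∣ a' ^ p - b' ^ p := by
      refine (mul_dvd_mul_iff_left (pow_ne_zero p hP.ne_zero)).1 ?_
      rw [← pow_add, Nat.add_sub_cancel' (by omega)]
      simpa [mul_pow, mul_sub] using h
    have ha' : ¬ P ^ (w + 1) ∣ a' := fun hd => ha (by rw [pow_succ']; exact mul_dvd_mul_left P hd)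
    rw [← mul_sub]
    exact (pow_dvd_pow P (by rw [mul_add, mul_one]; omega)).trans
      ((ih ha' h').mul_left P)

variable {A E : Type*} [CommRing A] [CommRing E] {ι : Type*}

/-- The trace of a polynomial in the root of `V`. -/
def polyTrace (V Q : A[X]) : A := Algebra.trace A (AdjoinRoot V) (AdjoinRoot.mk V Q)

/-- `Q (z) / d` is a root of `f` modulo the order `R` of smallness. -/
def IsApprox (p : ℕ) (φ : A →+* E) (z f : E) (π : A) (Sm : ι → ℕ → E → Prop) (R : ℕ) (Q : A[X])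
    (d : A) : Prop :=
  ¬ π ∣ d ∧ ∀ k, Sm k R (φ d ^ p * f - Q.eval₂ φ z ^ p)

/-- `t j` is the trace of the root times the `j`-th power of the root of `V`, up to `π ^ e`. -/
def IsTraceVals (p : ℕ) (φ : A →+* E) (z f : E) (π : A) (V : A[X]) (Sm : ι → ℕ → E → Prop)
    {S : Type*} [CommRing S] (ψ : A →+* S) (t : ℕ → S) (e : ℕ) : Prop :=
  ∀ R Q d, IsApprox p φ z f π Sm R Q d →
    ∀ j, ψ π ^ (R - e) ∣ ψ (polyTrace V (Q * X ^ j)) - ψ d * t j

/-- **Exact roots give trace values.** -/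
theorem isTraceVals_of_root {p : ℕ} (hp : p.Prime) (hp2 : p ≠ 2) {φ : A →+* E} {z f : E} {π : A}
    {V : A[X]} {Sm : ι → ℕ → E → Prop} {S Rs : Type*} [CommRing S] [CommRing Rs] {ψ : A →+* S}
    (ιS : S →+* Rs) (τ : Rs →+ S) (hτ : ∀ a x, τ (ιS a * x) = a * τ x) (θ : E →+* Rs)
    (hθ : ∀ a, θ (φ a) = ιS (ψ a))
    (htr : ∀ Q : A[X], τ (θ (Q.eval₂ φ z)) = ψ (polyTrace V Q))
    {G : Rs} (hG : θ f = G ^ p) {κ : Type*} {T : κ → Type*} [∀ k, CommRing (T k)]
    [∀ k, IsDomain (T k)] (q : ∀ k, Rs →+* T k) (P u : ∀ k, T k) (hP : ∀ k, Prime (P k))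
    (hpP : ∀ k, (p : T k) = P k ^ p * u k) (hu : ∀ k, ¬ P k ∣ u k)
    (hinj : ∀ k a, P k ∣ q k (ιS (ψ a)) → π ∣ a) {w : ℕ} (hw : ∀ k, ¬ P k ^ (w + 1) ∣ q k G)
    (hjoint : ∀ n x, (∀ k, P k ^ n ∣ q k x) → ιS (ψ π) ^ n ∣ x) (br : κ → ι)
    (hSm : ∀ k n x, Sm (br k) n x → P k ^ n ∣ q k (θ x)) :
    IsTraceVals p φ z f π V Sm ψ (fun j => τ (G * θ z ^ j)) (p + p * w) := by
  intro R Q d hQ j
  set a := ιS (ψ d) * G
  set b := θ (Q.eval₂ φ z)
  have hdvd : ιS (ψ π) ^ (R - (p + p * w)) ∣ a - b := by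
    refine hjoint _ _ fun k => ?_
    have hk := hSm k R _ (hQ.2 (br k))
    rw [map_sub, map_mul, map_pow, map_pow, hθ, hG] at hk
    rw [map_sub]
    refine pow_dvd_sub_of_pow_dvd_pow_sub_pow hp hp2 (hP k) (hpP k) (hu k) (fun hd => hw k ?_) ?_
    · rw [map_mul] at hd
      exact (hP k).pow_dvd_of_dvd_mul_left _ (fun h => hQ.1 (hinj k d h)) hd
    · rwa [← map_pow, ← map_pow, ← map_sub, mul_pow]
  obtain ⟨x, hx⟩ := hdvd
  refine ⟨-τ (x * θ z ^ j), ?_⟩
  have h1 : θ ((Q * X ^ j).eval₂ φ z) = b * θ z ^ j := by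
    rw [eval₂_mul, eval₂_pow, eval₂_X, map_mul, map_pow]
  rw [← htr, h1, ← hτ, ← map_sub, mul_neg, ← map_pow ψ, ← hτ, ← map_neg, map_pow, map_pow]
  refine congrArg τ ?_
  linear_combination (-θ z ^ j) * hx

section Complete

variable {M L n : ℕ} [NeZero L] {B : Subring ℂ} {ϖ : ℂ} (H : LevelHyp M L B)
  (hB : CoeffHyp B ϖ n) [IsLocalRing B] [IsAlgClosed (ResidueField B)]

include H in
/-- **The traces are functions.** -/
theorem exists_traces {p : ℕ} {φ : LRing L B →+* E} {z f : E} {V : (LRing L B)[X]}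
    {Sm : ι → ℕ → E → Prop} {e : ℕ}
    (happ : ∀ R, ∃ Q d, IsApprox p φ z f (Points.piL hB) Sm R Q d)
    (hdisc : ∀ s : LRing L B →+* ResidueField B, Points.IsPoint H s → ∃ ψ, Points.IsDisc H s ψ ∧
      ∃ t, IsTraceVals p φ z f (Points.piL hB) V Sm ψ t e)
    (t : SL(2, ℤ) → ℕ → LaurentSeries B)
    (hcusp : ∀ δ, IsTraceVals p φ z f (Points.piL hB) V Sm (expB L B δ) (t δ) e) :
    ∃ b : ℕ → LRing L B, ∀ δ j, expB L B δ (b j) = t δ j := by
  have hS := H.specialFibre hB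
  suffices h : ∀ j, ∃ b : LRing L B, ∀ δ, expB L B δ b = t δ j by
    choose b hb using h
    exact ⟨b, fun δ j => hb j δ⟩
  intro j
  obtain ⟨y, hy, hy'⟩ := H.complete hB.mem hB.isSeparated (fun δ => coeffMap B.subtype (t δ j))
    (fun δ i => ((t δ j).coeff i).2) (fun r => by
      obtain ⟨Q, d, hQ⟩ := happ (r + e)
      set a := polyTrace V (Q * X ^ j)
      obtain ⟨c, hc⟩ := Points.exists_dvd_sub H hB hQ.1 r a fun s hs => by
        obtain ⟨ψ, hψ, t', ht'⟩ := hdisc s hs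
        refine ⟨ψ, hψ, t' j, ?_⟩
        have h := ht' (r + e) Q d hQ j
        rwa [Nat.add_sub_cancel, ← Points.cstL_pi H hB, hψ.const] at h
      refine ⟨c.1, c.2, fun δ => ?_⟩
      rw [← expAt_apply, ← coeffMap_expB]
      refine (cong_iff_dvd hB.mem r _ _).mpr ?_
      have hpi : expB L B δ (Points.piL hB) = HahnSeries.C (⟨ϖ, hB.mem⟩ : B) := expB_constL _ _ _
      have h := hcusp δ (r + e) Q d hQ j
      have h' := map_dvd (expB L B δ) hc
      rw [Nat.add_sub_cancel, hpi] at h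
      rw [map_pow, hpi, map_sub, map_mul] at h'
      refine hB.prime_C.pow_dvd_of_dvd_mul_left r (fun hd => hQ.1 ?_) (a := expB L B δ d) ?_
      · exact Ideal.mem_span_singleton.mp (hS.mem_span δ d ((kerAt_iff_dvd hB.mem δ d).mpr hd))
      · have := dvd_sub h' h
        convert this using 1
        ring)
  refine ⟨⟨y, hy⟩, fun δ => ?_⟩
  refine HahnSeries.ext (funext fun i => Subtype.ext ?_)
  have h := congrArg (fun s => s.coeff i) ((coeffMap_expB δ (⟨y, hy⟩ : LRing L B)).trans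
    ((expAt_apply δ (⟨y, hy⟩ : LRing L B)).trans (hy' δ)))
  exact h

end Complete

end Fermat.Agent.AtP.Glue
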