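import Fermat.Agent.AtP.AssemblyBranch
import Fermat.Agent.AtP.GlueTrace
import Fermat.Agent.AtP.GlueEnd

/-!
# The two branches of `λ (pτ)` at every cusp

At the cusp `δ ∞` the roots of the modular polynomial are `σ (q ^ p)` and, over `q ^ p`, `σ`, with
`σ` the series of `λ ∘ δ`. Modulo `ϖ` the first is simple and the second generates a purely
inseparable extension, so divisibility by powers of `ϖ` is the same at all cusps.
-/

set_option autoImplicit false

noncomputable section

open UpperHalfPlane CongruenceSubgroup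
open Polynomial hiding comp
open scoped MatrixGroups
open Fermat.Agent.KummerES
open ModularCurve (qExpand coeffMap)
open IsLocalRing (residue ResidueField)

namespace Fermat.Agent.AtP

namespace Glue

/-- Divisibility by powers of `π` passes between two roots of `V`, when `V ≡ W G` modulo `π`, `W`
is invertible at both and `G` is irreducible at the first. -/
theorem pow_dvd_eval₂_of_factor {A S R : Type*} [CommRing A] [CommRing S] [IsDomain S]
    [CommRing R] [IsDomain R] {φ : A →+* S} {Ψ : A →+* R} {z : S} {y : R} {π : A}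
    {G W V H : A[X]} (hWG : W * G = V + C π * H) (hG : G.Monic) (hG0 : G ≠ 1)
    (hPS : Prime (φ π)) (hPR : Prime (Ψ π)) (hz : V.eval₂ φ z = 0) (hy : V.eval₂ Ψ y = 0)
    (hWz : ¬ φ π ∣ W.eval₂ φ z) (hWy : ¬ Ψ π ∣ W.eval₂ Ψ y)
    (hindep : ∀ P : A[X], P.natDegree < G.natDegree → φ π ∣ P.eval₂ φ z → C π ∣ P) :
    ∀ (n : ℕ) (P : A[X]), φ π ^ n ∣ P.eval₂ φ z → Ψ π ^ n ∣ P.eval₂ Ψ y := by
  have hGz : φ π ∣ G.eval₂ φ z := by
    refine (hPS.dvd_or_dvd ⟨H.eval₂ φ z, ?_⟩).resolve_left hWz
    rw [← eval₂_mul, hWG, eval₂_add, hz, zero_add, eval₂_mul, eval₂_C]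
  intro n
  induction n with
  | zero => intro P _; simp
  | succ n ih =>
    intro P hP
    set P₁ := P /ₘ G
    have hdiv : P %ₘ G + G * P₁ = P := modByMonic_add_div P _
    obtain ⟨P₂, hP₂⟩ : C π ∣ P %ₘ G := by
      refine hindep _ (natDegree_modByMonic_lt P hG hG0) ?_
      have h1 := congrArg (eval₂ φ z) hdiv
      rw [eval₂_add, eval₂_mul] at h1
      rw [show (P %ₘ G).eval₂ φ z = P.eval₂ φ z - G.eval₂ φ z * P₁.eval₂ φ z by
        linear_combination h1]
      exact dvd_sub ((dvd_pow_self _ n.succ_ne_zero).trans hP) (hGz.mul_right _)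
    set P' := W * P₂ + H * P₁
    have hid : W * P = C π * P' + V * P₁ := by
      linear_combination (-W) * hdiv + W * hP₂ + P₁ * hWG
    have hz' := congrArg (eval₂ φ z) hid
    have hy' := congrArg (eval₂ Ψ y) hid
    simp only [eval₂_add, eval₂_mul, eval₂_C, hz, hy, zero_mul, add_zero] at hz' hy'
    have h2 : φ π ^ n ∣ P'.eval₂ φ z := by
      have h3 := hP.mul_left (W.eval₂ φ z)
      rw [hz', pow_succ'] at h3
      exact (mul_dvd_mul_iff_left hPS.ne_zero).1 h3
    have h4 := mul_dvd_mul_left (Ψ π) (ih P' h2)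
    rw [← hy', ← pow_succ'] at h4
    exact hPR.pow_dvd_of_dvd_mul_left _ hWy h4

section Derivation

variable {k : Type*} [Field k] {p : ℕ} [CharP k p]

omit [CharP k p] in
lemma thetaOp_pow (s : LaurentSeries k) (n : ℕ) :
    thetaOp k (s ^ n) = (n : LaurentSeries k) * s ^ (n - 1) * thetaOp k s := by
  induction n with
  | zero =>
    rw [pow_zero, Nat.cast_zero, zero_mul, zero_mul]
    have h := thetaOp_mul k 1 1
    rw [one_mul, one_mul] at h
    linear_combination -h
  | succ n ih =>
    rw [pow_succ, thetaOp_mul, ih, Nat.add_sub_cancel, Nat.cast_succ]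
    rcases Nat.eq_zero_or_pos n with rfl | hn
    · simp
    · rw [show s ^ n = s ^ (n - 1) * s by rw [← pow_succ, Nat.sub_add_cancel hn]]
      ring

lemma natCast_char_eq_zero : (p : LaurentSeries k) = 0 := by
  rw [← map_natCast (HahnSeries.C : k →+* LaurentSeries k), CharP.cast_eq_zero, map_zero]

/-- `θ` kills `p`-th powers in characteristic `p`. -/
lemma thetaOp_pow_char (s : LaurentSeries k) : thetaOp k (s ^ p) = 0 := by
  rw [thetaOp_pow, natCast_char_eq_zero, zero_mul, zero_mul]

/-- `θ` kills series in `q ^ p` in characteristic `p`. -/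
lemma thetaOp_qExpand_char [NeZero p] (s : LaurentSeries k) : thetaOp k (qExpand k p s) = 0 := by
  rw [thetaOp_qExpand, natCast_char_eq_zero, zero_mul]

omit [CharP k p] in
lemma thetaOp_eval {σ : LaurentSeries k} {Q : (LaurentSeries k)[X]}
    (hQ : ∀ i, thetaOp k (Q.coeff i) = 0) :
    thetaOp k (Q.eval σ) = Q.derivative.eval σ * thetaOp k σ := by
  rw [eval_eq_sum_range, map_sum,
    show Q.derivative.eval σ = ∑ i ∈ Finset.range (Q.natDegree + 1),
        Q.coeff i * ((i : LaurentSeries k) * σ ^ (i - 1)) from Glue.eval₂_derivative _ Q σ,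
    Finset.sum_mul]
  refine Finset.sum_congr rfl fun i _ => ?_
  rw [thetaOp_mul, hQ, thetaOp_pow, mul_zero, add_zero]
  ring

/-- A series with nonzero derivative satisfies no equation of degree `< p` with coefficients
killed by the derivative. -/
theorem eq_zero_of_eval_eq_zero {σ : LaurentSeries k} (hσ : thetaOp k σ ≠ 0) :
    ∀ (m : ℕ) (Q : (LaurentSeries k)[X]), m < p → Q.natDegree ≤ m →
      (∀ i, thetaOp k (Q.coeff i) = 0) → Q.eval σ = 0 → Q = 0 := by
  intro m
  induction m with
  | zero =>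
    intro Q _ hdeg _ h
    obtain ⟨a, rfl⟩ := natDegree_eq_zero.1 (Nat.le_zero.1 hdeg)
    rw [eval_C] at h
    rw [h, map_zero]
  | succ m ih =>
    intro Q hm hdeg hθ h
    have h1 : Q.derivative.eval σ = 0 := by
      have h2 := thetaOp_eval (σ := σ) hθ
      rw [h, map_zero] at h2
      exact (mul_eq_zero.1 h2.symm).resolve_right hσ
    have h2 : Q.derivative = 0 := by
      refine ih _ (by omega) ((natDegree_derivative_le Q).trans (by omega)) (fun i => ?_) h1
      rw [coeff_derivative, show ((i : LaurentSeries k) + 1) = ((i + 1 : ℕ) : LaurentSeries k) by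
        push_cast; ring, ← nsmul_eq_mul', map_nsmul, hθ, smul_zero]
    refine ih Q (by omega) (natDegree_le_iff_coeff_eq_zero.2 fun i hi => ?_) hθ h
    rcases lt_or_ge (m + 1) i with hi' | hi'
    · exact natDegree_le_iff_coeff_eq_zero.1 hdeg i hi'
    obtain ⟨j, rfl⟩ : ∃ j, i = j + 1 := ⟨i - 1, by omega⟩
    have h3 := congrArg (fun R => R.coeff j) h2
    simp only [coeff_derivative, coeff_zero] at h3
    refine (mul_eq_zero.1 h3).resolve_right ?_
    rw [show ((j : LaurentSeries k) + 1) = ((j + 1 : ℕ) : LaurentSeries k) by push_cast; ring,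
      ← map_natCast (HahnSeries.C : k →+* LaurentSeries k), map_eq_zero_iff _ HahnSeries.C_injective,
      CharP.cast_eq_zero_iff k p]
    exact fun hd => absurd (Nat.le_of_dvd (by omega) hd) (by omega)

end Derivation

end Glue

namespace Coeff

attribute [local instance] isDomain_LRing

variable {p : ℕ} [hp : Fact p.Prime] (C : Coeff p) {M : ℕ} [NeZero M] (hp2 : p ≠ 2) (hpM : ¬ p ∣ M)

/-- The two branch maps at the cusp `δ ∞`. -/
def brHom (δ : SL(2, ℤ)) : Fin 2 → LRing (2 * M) C.B →+* LaurentSeries C.B :=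
  ![expB (2 * M) C.B δ, (qExpand C.B p).comp (expB (2 * M) C.B δ)]

/-- The roots on the two branches. -/
def brRoot (δ : SL(2, ℤ)) : Fin 2 → LaurentSeries C.B :=
  ![qExpand C.B p (expB (2 * M) C.B δ (C.lamL hp2 hpM)), expB (2 * M) C.B δ (C.lamL hp2 hpM)]

/-- The factor of `V` modulo `ϖ` which vanishes on each branch. -/
def brFactor : Fin 2 → (LRing (2 * M) C.B)[X] :=
  ![X - Polynomial.C (C.lamL hp2 hpM ^ p), X ^ p - Polynomial.C (C.lamL hp2 hpM)]

/-- The other factor. -/
def brCofactor : Fin 2 → (LRing (2 * M) C.B)[X] :=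
  ![X ^ p - Polynomial.C (C.lamL hp2 hpM), X - Polynomial.C (C.lamL hp2 hpM ^ p)]

/-- The factor and the cofactor multiply to `V` modulo the uniformiser. -/
theorem exists_brFactor_eq (k : Fin 2) : ∃ H, C.brCofactor hp2 hpM k * C.brFactor hp2 hpM k =
    C.lamV hp2 hpM + Polynomial.C (C.piA M) * H := by
  obtain ⟨c, hc⟩ := C.piA_dvd_natCast (M := M)
  refine ⟨-(Polynomial.C c * (lamH p).map (C.polyLam hp2 hpM)), ?_⟩
  have hV : C.lamV hp2 hpM = (Polynomial.C (C.lamL hp2 hpM) ^ p - X) *
      (Polynomial.C (C.lamL hp2 hpM) - X ^ p) +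
        Polynomial.C (C.piA M * c) * (lamH p).map (C.polyLam hp2 hpM) := by
    rw [lamV, lamPoly_eq hp2, Polynomial.map_add, Polynomial.map_mul, Polynomial.map_mul,
      Polynomial.map_sub, Polynomial.map_sub, Polynomial.map_pow, Polynomial.map_pow, map_C,
      map_C, map_X, Polynomial.C_eq_natCast, map_natCast, hc]
    rfl
  rw [hV]
  fin_cases k <;>
  · simp [brFactor, brCofactor]
    ring

/-- The series of `λ ∘ δ` modulo `ϖ` has nonzero derivative. -/
theorem thetaOp_residue_lamL (δ : SL(2, ℤ)) :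
    thetaOp (ResidueField C.B) (coeffMap (residue C.B) (expB (2 * M) C.B δ (C.lamL hp2 hpM))) ≠ 0 := by
  have := C.charP
  obtain ⟨σ, hσ, hgood⟩ := exists_good δ
  rw [C.expB_lamL hp2 hpM hσ, ← coeffMap_thetaOp, ← coeffMap_thetaOp, thetaOp_qExpand,
    map_mul, map_mul, map_natCast, map_natCast]
  refine mul_ne_zero ?_ ?_
  · rw [← map_natCast (HahnSeries.C : ResidueField C.B →+* LaurentSeries (ResidueField C.B)),
      map_ne_zero_iff _ HahnSeries.C_injective, Ne, CharP.cast_eq_zero_iff (ResidueField C.B) p]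
    exact hpM
  · exact (((hgood.thetaUnit.map (qExpand R2 M)).map (coeffMap C.ofR2)).map
      (coeffMap (residue C.B))).ne_zero

/-- The uniformiser goes to a constant on both branches. -/
theorem brHom_piA (δ : SL(2, ℤ)) (k : Fin 2) : C.brHom δ k (C.piA M) = HahnSeries.C C.unif := by
  fin_cases k
  · exact C.expB_piA δ
  · show qExpand C.B p (expB (2 * M) C.B δ (C.piA M)) = _
    rw [C.expB_piA, HahnSeries.C_apply, ModularCurve.qExpand_single, mul_zero]

lemma C_unif_dvd_qExpand {s : LaurentSeries C.B} :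
    HahnSeries.C C.unif ∣ qExpand C.B p s ↔ HahnSeries.C C.unif ∣ s := by
  rw [C_unif_dvd_iff, C_unif_dvd_iff, ModularCurve.coeffMap_qExpand,
    map_eq_zero_iff _ (ModularCurve.qExpand_injective p)]

include hp2 hpM in
/-- Saturation on the branches. -/
theorem piA_dvd_of_brHom {δ : SL(2, ℤ)} {k : Fin 2} {a : LRing (2 * M) C.B}
    (h : HahnSeries.C C.unif ∣ C.brHom δ k a) : C.piA M ∣ a := by
  fin_cases k
  · exact C.piA_dvd_of_expB hp2 hpM h
  · exact C.piA_dvd_of_expB hp2 hpM (C.C_unif_dvd_qExpand.1 h)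

/-- The branch maps are injective. -/
theorem brHom_injective (δ : SL(2, ℤ)) (k : Fin 2) : Function.Injective (C.brHom (M := M) δ k) := by
  have h : Function.Injective (expB (2 * M) C.B δ) := fun a b h =>
    expAt_B_injective δ (by rw [RingHom.comp_apply, RingHom.comp_apply, h])
  fin_cases k
  · exact h
  · exact (ModularCurve.qExpand_injective p).comp h

/-- The cofactor is nonzero modulo the uniformiser at the root of its branch. -/
theorem not_dvd_brCofactor (δ : SL(2, ℤ)) (k : Fin 2) :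
    ¬ HahnSeries.C C.unif ∣
      (C.brCofactor hp2 hpM k).eval₂ (C.brHom δ k) (C.brRoot hp2 hpM δ k) := by
  have := C.charP
  have hne := C.thetaOp_residue_lamL hp2 hpM δ
  rw [C_unif_dvd_iff]
  intro h
  refine hne ?_
  fin_cases k <;>
    simp only [brCofactor, brRoot, brHom, Matrix.cons_val_zero, Matrix.cons_val_one,
      Matrix.cons_val_fin_one, Fin.zero_eta, Fin.mk_one, eval₂_sub, eval₂_pow, eval₂_X,
      eval₂_C, map_sub, map_pow, RingHom.comp_apply, ModularCurve.coeffMap_qExpand, sub_eq_zero] at h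
  · rw [← h, Glue.thetaOp_pow_char]
  · rw [h, Glue.thetaOp_pow_char]

/-- The factors are monic. -/
theorem brFactor_monic (k : Fin 2) :
    (C.brFactor (M := M) hp2 hpM k).Monic ∧ C.brFactor (M := M) hp2 hpM k ≠ 1 := by
  have h1 : (C.brFactor (M := M) hp2 hpM k).Monic := by
    fin_cases k
    · exact monic_X_sub_C _
    · exact monic_X_pow_sub_C _ hp.out.ne_zero
  refine ⟨h1, fun h => ?_⟩
  have h2 := congrArg natDegree h
  fin_cases k
  · simp [brFactor, -map_pow] at h2
  · simp [brFactor, hp.out.ne_zero] at h2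

/-- Below the degree of a factor, small at its root implies small coefficients. -/
theorem piA_dvd_of_degree_lt (δ : SL(2, ℤ)) (k : Fin 2) (P : (LRing (2 * M) C.B)[X])
    (hdeg : P.natDegree < (C.brFactor (M := M) hp2 hpM k).natDegree)
    (h : HahnSeries.C C.unif ∣ P.eval₂ (C.brHom δ k) (C.brRoot hp2 hpM δ k)) :
    Polynomial.C (C.piA M) ∣ P := by
  have := C.charP
  rw [C_dvd_iff_dvd_coeff]
  intro i
  refine C.piA_dvd_of_brHom hp2 hpM (δ := δ) (k := k) ?_
  rw [C_unif_dvd_iff] at h ⊢
  set r := coeffMap (residue C.B)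
  fin_cases k
  · simp only [brFactor, Fin.zero_eta, Matrix.cons_val_zero, natDegree_X_sub_C, Nat.lt_one_iff]
      at hdeg
    obtain ⟨a, rfl⟩ := natDegree_eq_zero.1 hdeg
    rw [eval₂_C] at h
    rcases i with _ | i
    · simpa using h
    · simp
  · simp only [brFactor, Fin.mk_one, Matrix.cons_val_one, Matrix.cons_val_fin_one,
      natDegree_X_pow_sub_C] at hdeg
    rw [hom_eval₂, eval₂_eq_eval_map] at h
    have h0 := Glue.eq_zero_of_eval_eq_zero (p := p) (C.thetaOp_residue_lamL hp2 hpM δ)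
      P.natDegree _ hdeg natDegree_map_le (fun j => ?_) h
    · simpa using congrArg (fun Q => Q.coeff i) h0
    · rw [coeff_map]
      show thetaOp _ (r (qExpand C.B p _)) = 0
      rw [ModularCurve.coeffMap_qExpand, Glue.thetaOp_qExpand_char]

/-- Both are roots of the modular polynomial. -/
theorem brRoot_root (δ : SL(2, ℤ)) (k : Fin 2) :
    (C.lamV hp2 hpM).eval₂ (C.brHom δ k) (C.brRoot hp2 hpM δ k) = 0 := by
  obtain ⟨pr, hpr, hcomp, -⟩ := comp_muFun (p := p) hp2 δ
  have hroot : ∀ i, (C.lamV (M := M) hp2 hpM).eval₂ (funA (2 * M) C.B) (muFun p lam i) = 0 := by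
    intro i
    rw [lamV, eval₂_funA_map]
    funext τ
    simp only [lamPoly_roots hp2, eval_prod, Pi.zero_apply]
    exact Finset.prod_eq_zero (Finset.mem_univ i) (by simp)
  have hl : HasExp (2 * M) (comp lam δ)
      (coeffMap C.B.subtype (expB (2 * M) C.B δ (C.lamL hp2 hpM))) := by
    simpa [coe_lamL] using hasExp_expB (C.lamL hp2 hpM : LRing (2 * M) C.B) δ
  fin_cases k
  · obtain ⟨i, hi⟩ := hpr.2 none
    simp only [Fin.zero_eta]
    refine eval₂_expB_eq_zero (Y := muFun p lam i) ?_ (hroot i)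
    rw [hcomp, hi]
    show HasExp _ (comp lam δ ∘ conjMap (none : Option (ZMod p))) _
    rw [show C.brRoot hp2 hpM δ 0 = qExpand C.B p (expB (2 * M) C.B δ (C.lamL hp2 hpM)) from rfl,
      ModularCurve.coeffMap_qExpand]
    exact hasExp_comp_mulp hl
  · obtain ⟨i, hi⟩ := hpr.2 (some 0)
    refine C.coeffMap_subtype_injective' ?_
    rw [map_zero, hom_eval₂]
    set ψ := (coeffMap C.B.subtype).comp (C.brHom (M := M) δ 1)
    have key : ∀ Q : (LRing (2 * M) C.B)[X],
        HasExp (2 * M) (fun τ => Q.eval₂ (funA (2 * M) C.B) (muFun p lam i)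
          (δ • conjMap (none : Option (ZMod p)) τ))
          (Q.eval₂ ψ (coeffMap C.B.subtype (C.brRoot hp2 hpM δ 1))) := by
      intro Q
      induction Q using Polynomial.induction_on' with
      | add P Q hP hQ => simp only [eval₂_add, Pi.add_apply]; exact hP.add hQ
      | monomial n a =>
        simp only [eval₂_monomial, Pi.mul_apply, Pi.pow_apply]
        refine HasExp.mul ?_ (HasExp.pow ?_ n)
        · show HasExp _ (comp a.1 δ ∘ conjMap (none : Option (ZMod p)))
            (coeffMap C.B.subtype (qExpand C.B p (expB (2 * M) C.B δ a)))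
          rw [ModularCurve.coeffMap_qExpand]
          exact hasExp_comp_mulp (hasExp_expB a δ)
        · have e : (fun τ => muFun p lam i (δ • conjMap (none : Option (ZMod p)) τ)) =
              comp lam δ := by
            funext τ
            have h1 : conjMap (some 0 : Option (ZMod p)) (conjMap (none : Option (ZMod p)) τ) = τ := by
              ext1
              rw [coe_conjMap_some, coe_conjMap_none, ZMod.val_zero]
              have hp0 : (p : ℂ) ≠ 0 := by exact_mod_cast hp.out.ne_zero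
              simp [hp0]
            rw [← comp_apply (muFun p lam i), hcomp, hi, muFun, h1]
          rw [e]
          exact hl
    have h := key (C.lamV hp2 hpM)
    rw [hroot i] at h
    exact h.eq_zero_of_fun_zero

include hp2 hpM in
/-- The uniformiser is prime on each branch. -/
theorem prime_brHom_piA (δ : SL(2, ℤ)) (k : Fin 2) : Prime (C.brHom δ k (C.piA M)) := by
  rw [C.brHom_piA]
  exact C.prime_C_unif (M := M) hp2 hpM

/-- Divisibility by powers of `ϖ` is the same at all cusps. -/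
theorem pow_dvd_eval₂_brRoot (δ δ' : SL(2, ℤ)) (k : Fin 2) (n : ℕ) (P : (LRing (2 * M) C.B)[X])
    (h : HahnSeries.C C.unif ^ n ∣ P.eval₂ (C.brHom δ k) (C.brRoot hp2 hpM δ k)) :
    HahnSeries.C C.unif ^ n ∣ P.eval₂ (C.brHom δ' k) (C.brRoot hp2 hpM δ' k) := by
  obtain ⟨H, hH⟩ := C.exists_brFactor_eq hp2 hpM k
  obtain ⟨hm, h1⟩ := C.brFactor_monic (M := M) hp2 hpM k
  have h' := Glue.pow_dvd_eval₂_of_factor hH hm h1 (C.prime_brHom_piA hp2 hpM δ k)
    (C.prime_brHom_piA hp2 hpM δ' k) (C.brRoot_root hp2 hpM δ k) (C.brRoot_root hp2 hpM δ' k)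
    (by rw [C.brHom_piA]; exact C.not_dvd_brCofactor hp2 hpM δ k)
    (by rw [C.brHom_piA]; exact C.not_dvd_brCofactor hp2 hpM δ' k)
    (fun P hd hP => C.piA_dvd_of_degree_lt hp2 hpM δ k P hd (by rwa [C.brHom_piA] at hP))
    n P (by rwa [C.brHom_piA])
  rwa [C.brHom_piA] at h'

/-! ## The extension -/

variable (M) in
/-- The integral extension generated by `λ (pτ)`. -/
abbrev glueRing : Subring (LaurentSeries ℂ) :=
  algElts (C.expK M) (expansion (2 * M) (lamP p))

variable (M) in
/-- The functions of level `2 M` in the extension. -/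
def glueMap : LRing (2 * M) C.B →+* C.glueRing M :=
  (C.expK M).codRestrict _ (map_mem_algElts _ _)

/-- `λ (pτ)` in the extension. -/
def glueGen : C.glueRing M := ⟨_, C.muExp_mem_algElts hp2 hpM⟩

theorem exists_brExt (δ : SL(2, ℤ)) (k : Fin 2) :
    ∃ θ : C.glueRing M →+* LaurentSeries C.B,
      ∀ (e : C.glueRing M) (P : (LRing (2 * M) C.B)[X]) (D : LRing (2 * M) C.B),
        C.expK M D * (e : LaurentSeries ℂ) = P.eval₂ (C.expK M) (expansion (2 * M) (lamP p)) →
          C.brHom δ k D * θ e = P.eval₂ (C.brHom δ k) (C.brRoot hp2 hpM δ k) := by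
  have := C.isIntegrallyClosed_series
  exact exists_ext (fun Q hQ => C.lamV_dvd hp2 hpM (hasExp_lamP hp2) hQ)
    (C.brRoot_root hp2 hpM δ k) (C.brHom_injective δ k)

/-- The extension of a branch map. -/
def brExt (δ : SL(2, ℤ)) (k : Fin 2) : C.glueRing M →+* LaurentSeries C.B :=
  (C.exists_brExt hp2 hpM δ k).choose

/-- The extended branch map on a fraction. -/
theorem brExt_spec (δ : SL(2, ℤ)) (k : Fin 2) {e : C.glueRing M} {P : (LRing (2 * M) C.B)[X]}
    {D : LRing (2 * M) C.B}
    (h : C.expK M D * (e : LaurentSeries ℂ) = P.eval₂ (C.expK M) (expansion (2 * M) (lamP p))) :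
    C.brHom δ k D * C.brExt hp2 hpM δ k e = P.eval₂ (C.brHom δ k) (C.brRoot hp2 hpM δ k) :=
  (C.exists_brExt hp2 hpM δ k).choose_spec e P D h

/-- The extended branch map extends the branch map. -/
theorem brExt_glueMap (δ : SL(2, ℤ)) (k : Fin 2) (a : LRing (2 * M) C.B) :
    C.brExt hp2 hpM δ k (C.glueMap M a) = C.brHom δ k a := by
  have h := C.brExt_spec hp2 hpM δ k (e := C.glueMap M a) (P := Polynomial.C a) (D := 1)
    (by rw [map_one, one_mul, eval₂_C]; rfl)
  rwa [map_one, one_mul, eval₂_C] at h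

/-- The extended branch map sends the generator to the root. -/
theorem brExt_glueGen (δ : SL(2, ℤ)) (k : Fin 2) :
    C.brExt hp2 hpM δ k (C.glueGen hp2 hpM) = C.brRoot hp2 hpM δ k := by
  have h := C.brExt_spec hp2 hpM δ k (e := C.glueGen hp2 hpM) (P := X) (D := 1)
    (by rw [map_one, one_mul, eval₂_X]; rfl)
  rwa [map_one, one_mul, eval₂_X] at h

/-- The extended branch map on polynomials in the generator. -/
theorem brExt_eval₂ (δ : SL(2, ℤ)) (k : Fin 2) (Q : (LRing (2 * M) C.B)[X]) :
    C.brExt hp2 hpM δ k (Q.eval₂ (C.glueMap M) (C.glueGen hp2 hpM)) =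
      Q.eval₂ (C.brHom δ k) (C.brRoot hp2 hpM δ k) := by
  rw [hom_eval₂, brExt_glueGen]
  congr 1
  exact RingHom.ext (C.brExt_glueMap hp2 hpM δ k)

/-- **Transfer** of divisibility between the cusps. -/
theorem pow_dvd_brExt {δ δ' : SL(2, ℤ)} {k : Fin 2} {n : ℕ} {e : C.glueRing M}
    (h : HahnSeries.C C.unif ^ n ∣ C.brExt hp2 hpM δ k e) :
    HahnSeries.C C.unif ^ n ∣ C.brExt hp2 hpM δ' k e := by
  obtain ⟨-, P, D, hD, hP⟩ := e.2
  obtain ⟨v, D₀, rfl, hD₀⟩ := C.exists_eq_piA_pow_mul hp2 hpM hD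
  have h1 := C.pow_dvd_eval₂_brRoot hp2 hpM δ δ' k (v + n) P (by
    rw [← C.brExt_spec hp2 hpM δ k hP, map_mul, map_pow, C.brHom_piA, mul_assoc, pow_add]
    exact mul_dvd_mul_left _ (h.mul_left _))
  rw [← C.brExt_spec hp2 hpM δ' k hP, map_mul, map_pow, C.brHom_piA, mul_assoc, pow_add,
    mul_dvd_mul_iff_left (pow_ne_zero _ (C.prime_C_unif (M := M) hp2 hpM).ne_zero)] at h1
  exact (C.prime_C_unif (M := M) hp2 hpM).pow_dvd_of_dvd_mul_left n
    (fun hd => hD₀ (C.piA_dvd_of_brHom hp2 hpM hd)) h1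

/-- The first branch at `∞` is the inclusion. -/
theorem coeffMap_brExt_one_zero (e : C.glueRing M) :
    coeffMap C.B.subtype (C.brExt hp2 hpM 1 0 e) = e := by
  obtain ⟨-, P, D, hD, hP⟩ := e.2
  have hz : coeffMap C.B.subtype (C.brRoot hp2 hpM 1 0) = expansion (2 * M) (lamP p) := by
    have hl : HasExp (2 * M) lam
        (coeffMap C.B.subtype (expB (2 * M) C.B 1 (C.lamL hp2 hpM))) := by
      simpa [coe_lamL, KummerES.comp_one] using hasExp_expB (C.lamL hp2 hpM : LRing (2 * M) C.B) 1
    show coeffMap C.B.subtype (qExpand C.B p _) = _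
    rw [ModularCurve.coeffMap_qExpand]
    exact (hasExp_comp_mulp hl).expansion_eq.symm
  refine mul_left_cancel₀ (fun h0 => hD (C.expK_injective M (h0.trans (map_zero _).symm))) ?_
  rw [hP, ← hz, show C.expK M = (coeffMap C.B.subtype).comp (C.brHom 1 0) from rfl, ← hom_eval₂,
    ← C.brExt_spec hp2 hpM 1 0 hP, map_mul]
  rfl

end Coeff

end Fermat.Agent.AtP
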