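import Fermat.Agent.AtP.GlueRoot
import Fermat.Agent.AtP.SeriesEval
import Fermat.Agent.AtP.NodeRing
import Mathlib.RingTheory.PowerSeries.WeierstrassPreparation
import Mathlib.LinearAlgebra.Matrix.ToLin
import Mathlib.RingTheory.IntegralClosure.IsIntegralClosure.Basic

/-!
# Finite covers of a disc

For a series `w` which is `U ^ n` modulo the maximal ideal, `B⟦U⟧` is free over `B⟦T⟧`, `T ↦ w`,
with basis `1, U, …, U ^ (n - 1)`. A trace can be computed in any basis in which the powers of a
root are independent. A series with a certificate and approximate `p`-th roots is a `p`-th power.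
-/

set_option autoImplicit false

noncomputable section

open Polynomial
open IsLocalRing (residue maximalIdeal)

namespace Fermat.Agent.AtP.Glue

/-! ## Rings along a homomorphism -/

/-- `R`, as an algebra along `ι`. -/
def Along {S R : Type} [CommRing S] [CommRing R] (_ι : S →+* R) : Type := R

instance {S R : Type} [CommRing S] [CommRing R] (ι : S →+* R) : CommRing (Along ι) :=
  inferInstanceAs (CommRing R)

instance {S R : Type} [CommRing S] [CommRing R] (ι : S →+* R) : Algebra S (Along ι) :=
  RingHom.toAlgebra (R := S) (S := Along ι) ι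

/-- A map into `R`, as a map into `Along ι`. -/
def toAlong {S R T : Type} [CommRing S] [CommRing R] [CommRing T] (ι : S →+* R) (f : T →+* R) :
    T →+* Along ι := f

/-- The underlying element. -/
def ofAlong {S R : Type} [CommRing S] [CommRing R] (ι : S →+* R) : Along ι →+* R := RingHom.id R

/-! ## The trace in a basis -/

/-- The trace of `Q` in the root of `V` is the trace of `Q (y)` when the powers of `y` are
independent in an algebra of the same rank. -/
theorem map_polyTrace_of_basis {A S R : Type*} [CommRing A] [CommRing S] [IsDomain S] [CommRing R]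
    [Algebra S R] (ψ : A →+* S) {V : A[X]} (hV : V.Monic) {κ : Type*} [Fintype κ]
    (b : Module.Basis κ S R) (hcard : Fintype.card κ = V.natDegree) {y : R}
    (hy : V.eval₂ ((algebraMap S R).comp ψ) y = 0)
    (hind : ∀ P : S[X], P.degree < V.natDegree → aeval y P = 0 → P = 0) (Q : A[X]) :
    ψ (polyTrace V Q) = Algebra.trace S R (Q.eval₂ ((algebraMap S R).comp ψ) y) := by
  classical
  have := ψ.domain_nontrivial
  let pb := AdjoinRoot.powerBasis' hV
  have hdim : pb.dim = V.natDegree := AdjoinRoot.powerBasis'_dim hV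
  let b' := b.reindex (Fintype.equivFinOfCardEq (hcard.trans hdim.symm))
  set x := Q.eval₂ ((algebraMap S R).comp ψ) y
  let M : Matrix (Fin pb.dim) (Fin pb.dim) S :=
    (Algebra.leftMulMatrix pb.basis (AdjoinRoot.mk V Q)).map ψ
  let W : Matrix (Fin pb.dim) (Fin pb.dim) S := Matrix.of fun i k => b'.repr (y ^ (k : ℕ)) i
  let L := Algebra.leftMulMatrix b' x
  have hW : L * W = W * M := by
    ext i k
    have h := congrArg (AdjoinRoot.lift ((algebraMap S R).comp ψ) y hy)
      (pb.basis.sum_repr (AdjoinRoot.mk V Q * pb.basis k))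
    rw [map_sum] at h
    simp only [map_mul, PowerBasis.basis_eq_pow, pb, AdjoinRoot.powerBasis'_gen, map_pow,
      Algebra.smul_def, AdjoinRoot.lift_root, AdjoinRoot.algebraMap_eq, AdjoinRoot.lift_of,
      AdjoinRoot.lift_mk] at h
    have h1 : (L * W) i k = b'.repr (x * y ^ (k : ℕ)) i := by
      conv_rhs => rw [← b'.sum_repr (y ^ (k : ℕ)), Finset.mul_sum]
      rw [map_sum, Finsupp.finsetSum_apply, Matrix.mul_apply]
      refine Finset.sum_congr rfl fun j _ => ?_
      simp only [mul_smul_comm, map_smul, Finsupp.smul_apply, smul_eq_mul, L, W, Matrix.of_apply,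
        Algebra.leftMulMatrix_eq_repr_mul]
      exact mul_comm _ _
    rw [h1]
    simp only [x]
    rw [← h, map_sum, Finsupp.finsetSum_apply, Matrix.mul_apply]
    refine Finset.sum_congr rfl fun j _ => ?_
    simp only [W, M, Matrix.of_apply, Matrix.map_apply, Algebra.leftMulMatrix_eq_repr_mul, RingHom.comp_apply,
      PowerBasis.basis_eq_pow, pb, AdjoinRoot.powerBasis'_gen]
    rw [← Algebra.smul_def, map_smul, Finsupp.smul_apply, smul_eq_mul, mul_comm]
  have hdet : W.det ≠ 0 := fun h0 => by
    obtain ⟨v, hv, hv0⟩ := Matrix.exists_mulVec_eq_zero_iff.2 h0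
    refine hv (funext fun k => ?_)
    have hP := hind (∑ j : Fin pb.dim, Polynomial.C (v j) * X ^ (j : ℕ))
      (hdim ▸ degree_sum_fin_lt v) ?_
    · have := congrArg (fun P : S[X] => P.coeff k) hP
      simpa [finsetSum_coeff, coeff_C_mul, coeff_X_pow, Fin.val_inj] using this
    · refine b'.repr.map_eq_zero_iff.1 (Finsupp.ext fun i => ?_)
      have := congrFun hv0 i
      simp only [Matrix.mulVec, dotProduct, Pi.zero_apply, W, Matrix.of_apply] at this
      rw [map_sum, map_sum, Finsupp.finsetSum_apply, Finsupp.coe_zero, Pi.zero_apply]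
      refine (Finset.sum_congr rfl fun j _ => ?_).trans this
      rw [map_mul, aeval_C, map_pow, aeval_X, ← Algebra.smul_def, map_smul, Finsupp.smul_apply,
        smul_eq_mul, mul_comm]
  have htr : L.trace = M.trace := by
    refine mul_left_cancel₀ hdet ?_
    have h1 := congrArg (fun N => Matrix.trace (W.adjugate * N)) hW
    simp only [← Matrix.mul_assoc, Matrix.adjugate_mul, Matrix.smul_mul, Matrix.one_mul,
      Matrix.trace_smul, smul_eq_mul] at h1
    rw [← h1, Matrix.trace_mul_comm, ← Matrix.mul_assoc, Matrix.mul_adjugate, Matrix.smul_mul,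
      Matrix.one_mul, Matrix.trace_smul, smul_eq_mul]
  rw [Algebra.trace_eq_matrix_trace b', htr, polyTrace, Algebra.trace_eq_matrix_trace pb.basis]
  simp [Matrix.trace, M, map_sum]

/-! ## Substitution of a distinguished series -/

section Substitution

variable {B : Type} [CommRing B] [IsLocalRing B] [IsNoetherianRing B]
  [IsAdicComplete (maximalIdeal B) B] {w : PowerSeries B} {n : ℕ}

omit [IsNoetherianRing B] [IsAdicComplete (maximalIdeal B) B] in
/-- A series reducing to `X ^ n`, `n ≠ 0`, lies in the maximal ideal. -/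
lemma mem_maximalIdeal_of_map_residue (hn : n ≠ 0)
    (hw : PowerSeries.map (residue B) w = PowerSeries.X ^ n) :
    w ∈ maximalIdeal (PowerSeries B) := by
  rw [IsLocalRing.mem_maximalIdeal, mem_nonunits_iff, PowerSeries.isUnit_iff_constantCoeff,
    ← IsLocalRing.residue_ne_zero_iff_isUnit, not_not]
  have h := congrArg (PowerSeries.coeff 0) hw
  rwa [PowerSeries.coeff_map, PowerSeries.coeff_X_pow, if_neg (Ne.symm hn),
    PowerSeries.coeff_zero_eq_constantCoeff_apply] at h

/-- The substitution `T ↦ w`. -/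
def substDisc (hmem : w ∈ maximalIdeal (PowerSeries B)) : PowerSeries B →+* PowerSeries B :=
  haveI := isAdicComplete_powerSeries (B := B)
  evalSeries PowerSeries.C w hmem

variable (hmem : w ∈ maximalIdeal (PowerSeries B))

/-- The substitution fixes constants. -/
lemma substDisc_C (b : B) : substDisc hmem (PowerSeries.C b) = PowerSeries.C b := by
  have := isAdicComplete_powerSeries (B := B)
  exact evalSeries_C _ _ _ b

/-- The substitution sends `T` to `w`. -/
lemma substDisc_X : substDisc hmem PowerSeries.X = w := by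
  have := isAdicComplete_powerSeries (B := B)
  exact evalSeries_X _ _ _

/-- The combinations of `1, U, …, U ^ (n - 1)`. -/
def combU (n : ℕ) (a : Fin n → PowerSeries B) : PowerSeries B :=
  ∑ i : Fin n, substDisc hmem (a i) * PowerSeries.X ^ (i : ℕ)

variable (hw : PowerSeries.map (residue B) w = PowerSeries.X ^ n)
include hw

omit [IsNoetherianRing B] [IsAdicComplete (maximalIdeal B) B] in
lemma map_residue_ne_zero : PowerSeries.map (residue B) w ≠ 0 := by
  rw [hw]; exact pow_ne_zero _ PowerSeries.X_ne_zero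

omit [IsNoetherianRing B] [IsAdicComplete (maximalIdeal B) B] in
lemma toNat_order_map : (PowerSeries.map (Ideal.Quotient.mk (maximalIdeal B)) w).order.toNat = n := by
  rw [show PowerSeries.map (Ideal.Quotient.mk (maximalIdeal B)) w = PowerSeries.X ^ n from hw,
    PowerSeries.order_X_pow]
  rfl

theorem combU_surjective : Function.Surjective (combU hmem n) := by
  have := isAdicComplete_powerSeries (B := B)
  intro f
  have hdiv : ∀ g : PowerSeries B, ∃ q : PowerSeries B, ∃ r : B[X], r.degree < n ∧
      g = w * q + (r : PowerSeries B) := fun g => by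
    obtain ⟨q, r, h⟩ := PowerSeries.exists_isWeierstrassDivision g (map_residue_ne_zero hw)
    exact ⟨q, r, by simpa [toNat_order_map hw] using h.degree_lt, h.eq_mul_add⟩
  choose q r hr hg using hdiv
  have hsum : ∀ K, f = ∑ k ∈ Finset.range K, w ^ k * (r (q^[k] f) : PowerSeries B) +
      w ^ K * q^[K] f := by
    intro K
    induction K with
    | zero => simp
    | succ K ih =>
      conv_lhs => rw [ih, hg (q^[K] f)]
      rw [Finset.sum_range_succ, Function.iterate_succ_apply', pow_succ]
      ring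
  refine ⟨fun i => PowerSeries.mk fun k => (r (q^[k] f)).coeff i, sub_eq_zero.1 ?_⟩
  refine IsHausdorff.haus (I := maximalIdeal (PowerSeries B)) inferInstance _ fun K => ?_
  rw [SModEq.zero, smul_eq_mul, Ideal.mul_top, ← Ideal.Quotient.eq_zero_iff_mem, map_sub,
    sub_eq_zero]
  conv_rhs => rw [hsum K]
  rw [map_add, map_mul _ (w ^ K), (Ideal.Quotient.eq_zero_iff_mem (a := w ^ K)).2 (Ideal.pow_mem_pow hmem K),
    zero_mul, add_zero, combU, map_sum]
  have h1 : ∀ g : PowerSeries B, Ideal.Quotient.mk (maximalIdeal (PowerSeries B) ^ K) (substDisc hmem g) =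
      Ideal.Quotient.mk _ (∑ k ∈ Finset.range K, PowerSeries.C (PowerSeries.coeff k g) * w ^ k) :=
    fun g => Ideal.Quotient.eq.2 (by
      rw [← PowerSeries.eval₂_trunc_eq_sum_range]
      exact evalSeries_sub_mem _ _ _ K g)
  simp only [map_mul, h1]
  simp only [← map_mul, ← map_sum, PowerSeries.coeff_mk]
  refine congrArg _ ?_
  simp only [Finset.sum_mul]
  rw [Finset.sum_comm]
  refine Finset.sum_congr rfl fun k _ => ?_
  have h2 : (r (q^[k] f) : PowerSeries B) =
      ∑ i : Fin n, PowerSeries.C ((r (q^[k] f)).coeff i) * PowerSeries.X ^ (i : ℕ) := by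
    conv_lhs => rw [← sum_monomial_eq (r (q^[k] f))]
    rw [sum_eq_of_subset _ (fun _ => map_zero _) (s := Finset.range n) (fun i hi =>
      Finset.mem_range.2 (by
        by_contra hlt
        exact mem_support_iff.1 hi (coeff_eq_zero_of_degree_lt
          ((hr _).trans_le (by exact_mod_cast not_lt.1 hlt))))),
      ← Fin.sum_univ_eq_sum_range fun i => monomial i ((r (q^[k] f)).coeff i)]
    simp only [← Polynomial.coeToPowerSeries.ringHom_apply, map_sum]
    refine Finset.sum_congr rfl fun i _ => ?_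
    rw [← C_mul_X_pow_eq_monomial, map_mul, map_pow]
    simp
  rw [h2, Finset.mul_sum]
  exact Finset.sum_congr rfl fun i _ => by ring

theorem eq_zero_of_combU : ∀ (a : Fin n → PowerSeries B), combU hmem n a = 0 → a = 0 := by
  have := isAdicComplete_powerSeries (B := B)
  suffices ∀ (k : ℕ) (a : Fin n → PowerSeries B), combU hmem n a = 0 →
      ∀ i, PowerSeries.coeff k (a i) = 0 from
    fun a ha => funext fun i => PowerSeries.ext fun k => by simpa using this k a ha i
  have hstep : ∀ a : Fin n → PowerSeries B, combU hmem n a = 0 →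
      combU hmem n (fun i => PowerSeries.mk fun m => PowerSeries.coeff (m + 1) (a i)) = 0 ∧
        ∀ i, PowerSeries.constantCoeff (a i) = 0 := by
    intro a ha
    set r : B[X] := ∑ i : Fin n, Polynomial.C (PowerSeries.constantCoeff (a i)) * X ^ (i : ℕ)
    set q := combU hmem n (fun i => PowerSeries.mk fun m => PowerSeries.coeff (m + 1) (a i))
    have h : PowerSeries.IsWeierstrassDivision 0 w q r := by
      refine ⟨?_, ?_⟩
      · rw [toNat_order_map hw]
        exact degree_sum_fin_lt _
      · rw [← ha]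
        simp only [q, combU, r, Finset.mul_sum, ← Polynomial.coeToPowerSeries.ringHom_apply, map_sum,
          ← Finset.sum_add_distrib]
        refine Finset.sum_congr rfl fun i _ => ?_
        conv_lhs => rw [PowerSeries.eq_X_mul_shift_add_const (a i)]
        rw [map_add, map_mul, substDisc_X, substDisc_C, map_mul, map_pow]
        simp only [Polynomial.coeToPowerSeries.ringHom_apply, Polynomial.coe_C, Polynomial.coe_X]
        ring
    obtain ⟨h1, h2⟩ := h.eq_zero (map_residue_ne_zero hw)
    refine ⟨h1, fun i => ?_⟩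
    have := congrArg (fun P : B[X] => P.coeff i) h2
    simpa [r, finsetSum_coeff, coeff_C_mul, coeff_X_pow, Fin.val_inj] using this
  intro k
  induction k with
  | zero =>
    intro a ha i
    rw [PowerSeries.coeff_zero_eq_constantCoeff_apply]
    exact (hstep a ha).2 i
  | succ k ih =>
    intro a ha i
    simpa using ih _ (hstep a ha).1 i

/-- The basis `1, U, …, U ^ (n - 1)`. -/
def basisU : Module.Basis (Fin n) (PowerSeries B) (Along (substDisc hmem)) :=
  Module.Basis.ofEquivFun (LinearEquiv.symm (LinearEquiv.ofBijective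
    ({ toFun := fun a => (combU hmem n a : Along (substDisc hmem))
       map_add' := fun a a' => by
         show combU hmem n (a + a') = combU hmem n a + combU hmem n a'
         simp only [combU, Pi.add_apply, map_add, add_mul, Finset.sum_add_distrib]
       map_smul' := fun c a => by
         show combU hmem n (c • a) = substDisc hmem c * combU hmem n a
         simp only [combU, Pi.smul_apply, smul_eq_mul, map_mul, Finset.mul_sum, mul_assoc] } :
      (Fin n → PowerSeries B) →ₗ[PowerSeries B] Along (substDisc hmem))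
    ⟨(injective_iff_map_eq_zero _).2 (eq_zero_of_combU hmem hw), combU_surjective hmem hw⟩))

/-- Every series is a polynomial of degree `< n` in `U + c`. -/
theorem exists_poly_eq (c : B) (f : PowerSeries B) : ∃ P : (PowerSeries B)[X], P.degree < n ∧
    P.eval₂ (substDisc hmem) (PowerSeries.C c + PowerSeries.X) = f := by
  obtain ⟨a, ha⟩ := combU_surjective hmem hw f
  refine ⟨(∑ i : Fin n, Polynomial.C (a i) * X ^ (i : ℕ)).comp (X - Polynomial.C (PowerSeries.C c)),
    ?_, ?_⟩
  · rcases eq_or_ne (∑ i : Fin n, Polynomial.C (a i) * X ^ (i : ℕ)) 0 with h | h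
    · rw [h, zero_comp, degree_zero]
      exact WithBot.bot_lt_coe _
    refine lt_of_le_of_lt degree_le_natDegree (Nat.cast_lt.2 (natDegree_comp_le.trans_lt ?_))
    rw [natDegree_X_sub_C, mul_one]
    exact (natDegree_lt_iff_degree_lt h).2 (degree_sum_fin_lt a)
  · rw [eval₂_comp, eval₂_sub, eval₂_X, eval₂_C, substDisc_C, add_sub_cancel_left, eval₂_finsetSum,
      ← ha, combU]
    simp

/-- The powers of `U + c` below `n` are independent. -/
theorem eq_zero_of_eval₂_eq_zero (c : B) {P : (PowerSeries B)[X]} (hP : P.degree < n)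
    (h : P.eval₂ (substDisc hmem) (PowerSeries.C c + PowerSeries.X) = 0) : P = 0 := by
  set P' := P.comp (X + Polynomial.C (PowerSeries.C c)) with hP'
  have hdeg : ∀ i, n ≤ i → P'.coeff i = 0 := fun i hi => by
    rcases eq_or_ne P 0 with rfl | h0
    · simp [hP']
    refine coeff_eq_zero_of_natDegree_lt ?_
    rw [hP']
    refine natDegree_comp_le.trans_lt ?_
    rw [natDegree_X_add_C, mul_one]
    exact lt_of_lt_of_le (natDegree_lt_iff_degree_lt h0 |>.2 hP) hi
  have h' : combU hmem n (fun i => P'.coeff i) = 0 := by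
    have e : P'.eval₂ (substDisc hmem) PowerSeries.X = 0 := by
      rw [hP', eval₂_comp, eval₂_add, eval₂_X, eval₂_C, substDisc_C, add_comm]
      exact h
    rw [← e, combU, eval₂_eq_sum, sum_eq_of_subset _ (fun _ => by simp) (s := Finset.range n)
      fun i hi => Finset.mem_range.2 (not_le.1 fun hle => mem_support_iff.1 hi (hdeg i hle)),
      ← Fin.sum_univ_eq_sum_range fun i => substDisc hmem (P'.coeff i) * PowerSeries.X ^ i]
  have h0 : P' = 0 := by
    ext i : 1
    rcases lt_or_ge i n with hi | hi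
    · simpa using congrFun (eq_zero_of_combU hmem hw _ h') ⟨i, hi⟩
    · simpa using hdeg i hi
  have := congrArg (fun R => R.comp (X - Polynomial.C (PowerSeries.C c))) h0
  simpa [hP', comp_assoc] using this

/-- The substitution reflects divisibility by constants. -/
theorem C_dvd_of_substDisc (hn : n ≠ 0) {b : B} {f : PowerSeries B}
    (h : PowerSeries.C b ∣ substDisc hmem f) : PowerSeries.C b ∣ f := by
  obtain ⟨g, hg⟩ := h
  obtain ⟨a, rfl⟩ := combU_surjective hmem hw g
  have h' : combU hmem n (fun i => (if (i : ℕ) = 0 then f else 0) - PowerSeries.C b * a i) = 0 := by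
    simp only [combU, map_sub, map_mul, substDisc_C, sub_mul, Finset.sum_sub_distrib, mul_assoc,
      ← Finset.mul_sum]
    rw [show ∑ i : Fin n, substDisc hmem (a i) * PowerSeries.X ^ (i : ℕ) = combU hmem n a from rfl,
      ← hg, sub_eq_zero, Finset.sum_eq_single (⟨0, Nat.pos_of_ne_zero hn⟩ : Fin n)]
    · simp
    · intro i _ hi
      rw [if_neg (fun h => hi (Fin.ext h)), map_zero, zero_mul]
    · simp
  refine ⟨a ⟨0, Nat.pos_of_ne_zero hn⟩, ?_⟩
  simpa [sub_eq_zero] using congrFun (eq_zero_of_combU hmem hw _ h') ⟨0, Nat.pos_of_ne_zero hn⟩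

end Substitution

/-! ## Roots -/

lemma pow_dvd_of_pow_mul_dvd_pow {R : Type*} [CommRing R] [IsDomain R] {P : R} (hP : Prime P)
    {p : ℕ} (hp : p ≠ 0) : ∀ (a : ℕ) (Q : R), P ^ (p * a) ∣ Q ^ p → P ^ a ∣ Q := by
  intro a
  induction a with
  | zero => intro Q _; simp
  | succ a ih =>
    intro Q h
    rw [mul_add, mul_one, pow_add] at h
    obtain ⟨Q', rfl⟩ : P ∣ Q := hP.dvd_of_dvd_pow (((dvd_pow_self P hp).mul_left _).trans h)
    rw [pow_succ']
    refine mul_dvd_mul_left P (ih Q' ((mul_dvd_mul_iff_left (pow_ne_zero p hP.ne_zero)).1 ?_))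
    rwa [← mul_pow, mul_comm (P ^ p)]

lemma dvd_of_exact_pow {R : Type*} [CommRing R] [IsDomain R] {P : R} (hP : Prime P) {p : ℕ} :
    ∀ (v : ℕ) (Q : R), P ^ v ∣ Q ^ p → ¬ P ^ (v + 1) ∣ Q ^ p → p ∣ v := by
  intro v
  induction v using Nat.strong_induction_on with
  | _ v ih =>
    intro Q h h'
    rcases Nat.eq_zero_or_pos v with rfl | hv
    · exact dvd_zero p
    rcases eq_or_ne p 0 with rfl | hp
    · rw [pow_zero] at h
      exact absurd (isUnit_of_dvd_one ((dvd_pow_self P hv.ne').trans h)) hP.not_isUnit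
    obtain ⟨Q', rfl⟩ : P ∣ Q := hP.dvd_of_dvd_pow ((dvd_pow_self P hv.ne').trans h)
    rw [mul_pow] at h h'
    have hpv : p ≤ v := by
      by_contra hlt
      exact h' ((pow_dvd_pow P (by omega)).mul_right _)
    obtain ⟨v', rfl⟩ : ∃ v', v = p + v' := ⟨v - p, by omega⟩
    rw [pow_add, mul_dvd_mul_iff_left (pow_ne_zero p hP.ne_zero)] at h
    rw [add_assoc, pow_add, mul_dvd_mul_iff_left (pow_ne_zero p hP.ne_zero)] at h'
    exact Nat.dvd_add (dvd_refl p) (ih v' (by omega) Q' h h')

/-- An element integral over `A` divides a nonzero image. -/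
lemma exists_dvd_map_ne_zero {A E : Type*} [CommRing A] [CommRing E] [IsDomain E] (φ : A →+* E)
    {f : E} (hf : f ≠ 0) (hint : φ.IsIntegralElem f) : ∃ a, φ a ≠ 0 ∧ f ∣ φ a := by
  obtain ⟨Q, hQ, hQf⟩ := hint
  obtain ⟨R, hR, hndvd⟩ :=
    (Q.map φ).exists_eq_pow_rootMultiplicity_mul_and_not_dvd (hQ.map φ).ne_zero 0
  set m := (Q.map φ).rootMultiplicity 0
  rw [map_zero, sub_zero] at hR hndvd
  have hRf : R.eval f = 0 := by
    have := congrArg (Polynomial.eval f) hR
    rw [eval_map, hQf, eval_mul, eval_pow, eval_X, eq_comm, mul_eq_zero] at this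
    exact this.resolve_left (pow_ne_zero _ hf)
  have hc : φ (Q.coeff m) = R.coeff 0 := by
    rw [← coeff_map, hR]
    simpa using coeff_X_pow_mul R m 0
  refine ⟨Q.coeff m, hc ▸ fun h0 => hndvd (X_dvd_iff.2 h0), ?_⟩
  rw [hc, ← X_mul_divX_add R] at *
  rw [eval_add, eval_mul, eval_X, eval_C] at hRf
  simp only [coeff_add, mul_coeff_zero, coeff_X_zero, zero_mul, coeff_C_zero, zero_add]
  exact ⟨-R.divX.eval f, by linear_combination hRf⟩

/-- **Exact roots in a disc.** -/
theorem exists_root_of_certificate {B : Type} [CommRing B] [IsDomain B] [IsPrincipalIdealRing B]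
    [IsLocalRing B] [IsAdicComplete (maximalIdeal B) B] {π : B}
    (hmax : maximalIdeal B = Ideal.span {π}) (hπ : π ≠ 0) {p : ℕ} (hp : p.Prime) (hp2 : p ≠ 2)
    {μ : B} (hμ : IsUnit μ) (hpB : (p : B) = π ^ p * μ) {x : PowerSeries B} (hx : x ≠ 0)
    {m N₀ : ℕ} {A D Cc : Fin m → PowerSeries B} (he : ∀ j, A j ^ p = D j * x)
    (hsum : ∑ j, Cc j * D j = PowerSeries.C π ^ N₀)
    (happ : ∀ R, ∃ Q d, ¬ PowerSeries.C π ∣ d ∧ PowerSeries.C π ^ R ∣ d ^ p * x - Q ^ p) :
    ∃ G, G ^ p = x := by
  have hP := prime_C_powerSeries hmax hπ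
  set P : PowerSeries B := PowerSeries.C π
  obtain ⟨v, x₀, hx₀, rfl⟩ := WfDvdMonoid.max_power_factor hx hP.irreducible
  obtain ⟨a, rfl⟩ : p ∣ v := by
    obtain ⟨Q, d, hd, hQ⟩ := happ (v + 1)
    have hQv : P ^ v ∣ Q ^ p := by
      have := dvd_sub ((dvd_mul_right (P ^ v) x₀).mul_left (d ^ p))
        ((pow_dvd_pow _ v.le_succ).trans hQ)
      rwa [sub_sub_cancel] at this
    refine dvd_of_exact_pow hP v Q hQv fun h => ?_
    have h1 := dvd_add hQ h
    rw [sub_add_cancel, mul_left_comm, pow_succ, mul_dvd_mul_iff_left (pow_ne_zero v hP.ne_zero)]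
      at h1
    exact hP.not_dvd_mul (fun h2 => hd (hP.dvd_of_dvd_pow h2)) hx₀ h1
  have hPpow : ∀ P' : PowerSeries B, Prime P' → ¬ P' ∣ P → ∀ k : ℕ, ¬ P' ∣ P ^ k :=
    fun P' hP' h k hd => h (hP'.dvd_of_dvd_pow hd)
  obtain ⟨u, G, hu, rfl⟩ := exists_eq_unit_mul_pow hP hp.ne_zero hx₀
    (α := P ^ (p * a)) (β := 1) (fun P' h1 h2 _ => hPpow P' h1 h2 _)
    (fun P' h1 _ _ h3 => h1.not_isUnit (isUnit_of_dvd_one h3)) (fun P' h1 h2 _ => hPpow P' h1 h2 _)
    (fun j => by rw [one_mul, he j]; ring) hsum
  obtain ⟨v, hv⟩ := exists_powerSeries_root hmax hπ hp hp2 hμ hpB hu fun R => by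
    obtain ⟨Q, d, hd, hQ⟩ := happ (R + p * a)
    obtain ⟨Q', rfl⟩ : P ^ a ∣ Q := by
      refine pow_dvd_of_pow_mul_dvd_pow hP hp.ne_zero a Q ?_
      have := dvd_sub ((dvd_mul_right (P ^ (p * a)) (u * G ^ p)).mul_left (d ^ p))
        ((pow_dvd_pow _ (Nat.le_add_left _ R)).trans hQ)
      rwa [sub_sub_cancel] at this
    refine ⟨Q', d * G, hP.not_dvd_mul hd fun h => hx₀
      ((h.trans (dvd_pow_self _ hp.ne_zero)).mul_left _),
      (mul_dvd_mul_iff_left (pow_ne_zero (p * a) hP.ne_zero)).1 ?_⟩
    rw [← pow_add, add_comm]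
    convert hQ using 1
    ring
  exact ⟨P ^ a * (v * G), by rw [mul_pow, mul_pow, hv, ← pow_mul, mul_comm a p]⟩

end Fermat.Agent.AtP.Glue
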