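import Fermat.Agent.AtP.GlueCusp
import Fermat.Agent.AtP.GlueDistinguished
import Fermat.Agent.AtP.AssemblyDiscs
import Fermat.Agent.AtP.AssemblyNode

/-!
# The maps of the extension at an ordinary point

Over the disc `λ = x₀ + T` one branch is a series in `T`; the other is `B⟦U⟧`, `λ (pτ) = x₁ + U`,
where `x₁ ^ p` reduces to `x₀`. Both send functions small on a branch at `∞` to small series.
-/

set_option autoImplicit false

noncomputable section

open UpperHalfPlane CongruenceSubgroup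
open Polynomial hiding comp
open scoped MatrixGroups
open Fermat.Agent.KummerES
open ModularCurve (qExpand coeffMap)
open IsLocalRing (residue ResidueField maximalIdeal)

namespace Fermat.Agent.AtP

namespace Points

variable {M L : ℕ} [NeZero L] {B : Subring ℂ} (H : LevelHyp M L B)

/-- There is a point over every good value of the coordinate. -/
theorem exists_point_tL [IsLocalRing B] [IsAlgClosed (ResidueField B)] (z : ResidueField B)
    (hu : (badPoly H).eval₂ (residue B) z ≠ 0) :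
    ∃ s : LRing L B →+* ResidueField B, IsPoint H s ∧ s (tL H) = z := by
  classical
  obtain ⟨g, hg, hgt⟩ := exists_hom_M H (residue B) z (isUnit_iff_ne_zero.2 hu)
  obtain ⟨ι, _, ⟨D⟩⟩ := exists_sepData H
  let : Algebra (MRing M L B) (LRing L B) := (inclLevel H.dvd).toAlgebra
  have : Module.Finite (MRing M L B) (LRing L B) := ⟨⟨Finset.univ.image D.x, eq_top_iff.2 fun a _ => by
    rw [← D.eq_x a]
    refine sum_mem fun i _ => ?_
    rw [mul_comm]
    exact Submodule.smul_mem _ (D.tr (D.y i * a)) (Submodule.subset_span (by simp))⟩⟩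
  have : Algebra.IsIntegral (MRing M L B) (LRing L B) := Algebra.IsIntegral.of_finite _ _
  have hsurj : Function.Surjective g := fun x => by
    obtain ⟨b, rfl⟩ := IsLocalRing.residue_surjective x
    exact ⟨constM b, hg b⟩
  have : (RingHom.ker g).IsMaximal := RingHom.ker_isMaximal_of_surjective g hsurj
  obtain ⟨m, hm, hcomap⟩ := Ideal.exists_ideal_over_maximal_of_isIntegral (S := LRing L B)
    (RingHom.ker g) (by
      intro a ha
      have : a = 0 := Subtype.ext (congrArg (fun f : LRing L B => f.1) (RingHom.mem_ker.1 ha) :)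
      rw [this]
      exact zero_mem _)
  have hmem : ∀ a, g a = 0 → inclLevel H.dvd a ∈ m := fun a ha => by
    have : a ∈ m.comap (algebraMap (MRing M L B) (LRing L B)) := hcomap.symm ▸ ha
    exact this
  obtain ⟨s, hs, hker⟩ := exists_point_of_isMaximal H m fun c hc => hmem _ (by
    rw [hg, IsLocalRing.residue_eq_zero_iff]; exact hc)
  refine ⟨s, hs, ?_⟩
  obtain ⟨z₀, rfl⟩ := IsLocalRing.residue_surjective z
  have h := hmem (tM H - constM z₀) (by rw [map_sub, hgt, hg, sub_self])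
  rw [← hker, RingHom.mem_ker, map_sub, map_sub] at h
  rw [show s (tL H) = s (inclLevel H.dvd (tM H)) from rfl, sub_eq_zero.1 h]
  exact hs z₀

end Points

namespace Coeff

attribute [local instance] isDomain_LRing

variable {p : ℕ} [hp : Fact p.Prime] (C : Coeff p) {M : ℕ} [NeZero M] (hp2 : p ≠ 2) (hpM : ¬ p ∣ M)

lemma lamL_mul_tL : C.lamL hp2 hpM * Points.tL (C.levelHyp hp2 hpM) = 1 :=
  Subtype.ext (funext fun τ => by
    show (C.lamL hp2 hpM : LRing (2 * M) C.B).1 τ * (lam τ)⁻¹ = 1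
    rw [C.coe_lamL, mul_inv_cancel₀ (lam_ne_zero τ)])

/-- An ordinary point over the `p`-th root of the value of `λ`. -/
theorem exists_root_point {s : LRing (2 * M) C.B →+* ResidueField C.B}
    [CharP (ResidueField C.B) p]
    (hord : (ordPoly p hp2).eval₂ (ZMod.castHom dvd_rfl (ResidueField C.B))
      (s (C.lamL hp2 hpM)) ≠ 0) :
    ∃ s' : LRing (2 * M) C.B →+* ResidueField C.B, Points.IsPoint (C.levelHyp hp2 hpM) s' ∧
      s' (C.lamL hp2 hpM) ^ p = s (C.lamL hp2 hpM) ∧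
      (ordPoly p hp2).eval₂ (ZMod.castHom dvd_rfl (ResidueField C.B))
        (s' (C.lamL hp2 hpM)) ≠ 0 := by
  classical
  obtain ⟨x₁, hx₁⟩ := IsAlgClosed.exists_pow_nat_eq (s (C.lamL hp2 hpM)) hp.out.pos
  have hx0 : x₁ ≠ 0 := fun h0 => by
    rw [h0, zero_pow hp.out.ne_zero] at hx₁
    have h := point_lamL_mul_tL (hp2 := hp2) (hpM := hpM) s
    rw [← hx₁, zero_mul] at h
    exact zero_ne_one h
  have hx1 : x₁ ≠ 1 := fun h1 => C.point_lamA_ne_one (s := s) (by
    rw [show lamA C M = C.lamL hp2 hpM from Subtype.ext (C.coe_lamL hp2 hpM).symm, ← hx₁, h1,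
      one_pow])
  obtain ⟨s', hs', hs't⟩ := Points.exists_point_tL (C.levelHyp hp2 hpM) x₁⁻¹ (by
    rw [badPoly, eval₂_finsetProd, Finset.prod_ne_zero_iff]
    rintro ⟨c, hc⟩ -
    rw [eval₂_sub, eval₂_X, eval₂_C]
    have hc' : c = 0 ∨ c = 1 := by
      have h := hc
      rw [show (C.levelHyp (M := M) hp2 hpM).T.bad = {0, 1} from lamBase_bad _ _] at h
      simpa using h
    rcases hc' with rfl | rfl
    · exact fun h => inv_ne_zero hx0 ((sub_eq_zero.1 h).trans (map_zero _))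
    · exact fun h => hx1 (inv_eq_one.1 ((sub_eq_zero.1 h).trans (map_one _))))
  have hl : s' (C.lamL hp2 hpM) = x₁ := by
    have h := point_lamL_mul_tL (hp2 := hp2) (hpM := hpM) s'
    rwa [hs't, mul_inv_eq_iff_eq_mul₀ hx0, one_mul] at h
  refine ⟨s', hs', by rw [hl, hx₁], fun h0 => hord ?_⟩
  have h := congrArg (frobenius (ResidueField C.B) p) h0
  rw [hl, map_zero, hom_eval₂, frobenius_def, hx₁] at h
  rw [← h]
  congr 1
  exact RingHom.ext_zmod _ _

/-- The disc with `λ ↦ x₀ + T`. -/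
theorem exists_disc_lamL {s : LRing (2 * M) C.B →+* ResidueField C.B}
    (hs : Points.IsPoint (C.levelHyp hp2 hpM) s) :
    ∃ (x₀ : C.B) (ψ : LRing (2 * M) C.B →+* PowerSeries C.B),
      Points.IsDisc (C.levelHyp hp2 hpM) s ψ ∧ residue C.B x₀ = s (C.lamL hp2 hpM) ∧
        ψ (C.lamL hp2 hpM) = PowerSeries.C x₀ + PowerSeries.X := by
  obtain ⟨x₀, hx₀⟩ := IsLocalRing.residue_surjective (s (C.lamL hp2 hpM))
  obtain ⟨ψ, hψ, hψt⟩ := Points.exists_disc_inv (C.levelHyp hp2 hpM) hs (x₀ := x₀)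
    (by rw [hx₀]; exact point_lamL_mul_tL s)
  exact ⟨x₀, ψ, hψ, hx₀, left_inv_eq_right_inv (a := ψ (Points.tL (C.levelHyp hp2 hpM)))
    (by rw [← map_mul, C.lamL_mul_tL, map_one]) hψt⟩

/-! ## Identities in the extension -/

/-- The generator is a root of the modular polynomial. -/
theorem eval₂_lamV_glueGen :
    (C.lamV hp2 hpM).eval₂ (C.glueMap M) (C.glueGen hp2 hpM) = 0 := by
  refine Subtype.ext ?_
  rw [← Subring.subtype_apply, hom_eval₂]
  obtain ⟨y, hy, -⟩ := C.exists_lamP_series (M := M) hp2 hpM (one_mem (Gamma0 p))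
  show (C.lamV hp2 hpM).eval₂ (C.expK M) (expansion (2 * M) (lamP p)) = 0
  rw [show expansion (2 * M) (lamP p) = coeffMap C.B.subtype y from by
      rw [KummerES.comp_one] at hy; exact hy.expansion_eq, expK, ← hom_eval₂,
    show (C.lamV hp2 hpM).eval₂ (C.expA M) y = 0 from eval₂_expB_eq_zero hy (C.lamV_fun hp2 hpM),
    map_zero]

/-- The transform `a ↦ a (pτ)`. -/
def glueTwist : LRing (2 * M) C.B →+* C.glueRing M :=
  ((qExpand ℂ p).comp (C.expK M)).codRestrict _ (C.qExpand_expK_mem_algElts hp2 hpM)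

theorem glueTwist_lamL : C.glueTwist hp2 hpM (C.lamL hp2 hpM) = C.glueGen hp2 hpM := by
  refine Subtype.ext ?_
  show qExpand ℂ p (C.expK M (C.lamL hp2 hpM)) = expansion (2 * M) (lamP p)
  rw [← C.expansion_swapFun_A, C.coe_lamL]
  congr 1
  funext τ
  exact lam_swapMap (Dvd.intro M rfl) τ

/-- The symmetry of the modular equation. -/
theorem eval₂_lamV_glueTwist :
    (C.lamV hp2 hpM).eval₂ (C.glueTwist hp2 hpM) (C.glueMap M (C.lamL hp2 hpM)) = 0 := by
  refine Subtype.ext ?_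
  rw [← Subring.subtype_apply, hom_eval₂]
  show (C.lamV hp2 hpM).eval₂ ((qExpand ℂ p).comp (C.expK M)) (C.expK M (C.lamL hp2 hpM)) = 0
  have h0 : expansion (2 * M) (0 : ℍ → ℂ) = 0 := HasExp.zero.expansion_eq
  have h1 := C.swap_eval₂_eq hp2 hpM (F := 0) (zero_mem _) (D := 1) (P := C.lamV hp2 hpM) (by
    rw [h0, mul_zero]
    exact (congrArg Subtype.val (C.eval₂_lamV_glueGen (M := M) hp2 hpM)).symm.trans
      (by rw [← Subring.subtype_apply, hom_eval₂]; rfl))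
  rw [show swapFun p (2 * M) (0 : ℍ → ℂ) = 0 from rfl, h0, mul_zero] at h1
  rw [C.expK_apply, C.coe_lamL, ← h1]

/-- `λ ^ (p ^ 2) - λ` is nonzero modulo `ϖ`. -/
theorem not_piA_dvd_lamL_pow_sub :
    ¬ C.piA M ∣ C.lamL hp2 hpM ^ (p * p) - C.lamL hp2 hpM := by
  rw [lamL, ← map_pow, ← map_sub]
  refine C.not_piA_dvd_polyLam hp2 hpM fun h0 => ?_
  have hc := congrArg (fun q : (ZMod p)[X] => q.coeff 1) h0
  have hpp : (1 : ℕ) ≠ p * p := by nlinarith [hp.out.one_lt]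
  simp [coeff_X_pow, hpp] at hc

/-! ## Transfer from `∞` -/

include hp2 hpM in
/-- A function small on a branch at `∞` is small on the corresponding branch over a point. -/
theorem pow_dvd_of_brExt (k : Fin 2) {ψ : LRing (2 * M) C.B →+* PowerSeries C.B}
    (hπ : ψ (C.piA M) = PowerSeries.C C.unif)
    (hsat : ∀ a, PowerSeries.C C.unif ∣ ψ a → C.piA M ∣ a)
    {θ : C.glueRing M →+* PowerSeries C.B} (hθ : ∀ a, θ (C.glueMap M a) = ψ a)
    (hW : ¬ PowerSeries.C C.unif ∣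
      (C.brCofactor hp2 hpM k).eval₂ ψ (θ (C.glueGen hp2 hpM)))
    {n : ℕ} {e : C.glueRing M}
    (h : HahnSeries.C C.unif ^ n ∣ C.brExt hp2 hpM 1 k e) :
    PowerSeries.C C.unif ^ n ∣ θ e := by
  obtain ⟨-, P, D, hD, hP⟩ := e.2
  obtain ⟨v, D₀, rfl, hD₀⟩ := C.exists_eq_piA_pow_mul hp2 hpM hD
  have hψ : θ.comp (C.glueMap M) = ψ := RingHom.ext hθ
  have hrel : C.glueMap M (C.piA M ^ v * D₀) * e =
      P.eval₂ (C.glueMap M) (C.glueGen hp2 hpM) := Subtype.ext (by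
    rw [← Subring.subtype_apply, ← Subring.subtype_apply (P.eval₂ _ _), hom_eval₂, map_mul]
    exact hP)
  have hrelθ := congrArg θ hrel
  rw [map_mul, hom_eval₂, hψ, hθ, map_mul, map_pow, hπ] at hrelθ
  have hroot := congrArg θ (C.eval₂_lamV_glueGen (M := M) hp2 hpM)
  rw [hom_eval₂, hψ, map_zero] at hroot
  obtain ⟨H, hH⟩ := C.exists_brFactor_eq hp2 hpM k
  obtain ⟨hm, h1⟩ := C.brFactor_monic (M := M) hp2 hpM k
  have hPS : Prime (PowerSeries.C C.unif : PowerSeries C.B) :=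
    Points.prime_C_pi (C.coeffHyp (M := M) hp2 hpM)
  have h2 := Glue.pow_dvd_eval₂_of_factor hH hm h1 (C.prime_brHom_piA hp2 hpM 1 k)
    (hπ ▸ hPS : Prime (ψ (C.piA M))) (C.brRoot_root hp2 hpM 1 k) hroot
    (by rw [C.brHom_piA]; exact C.not_dvd_brCofactor hp2 hpM 1 k)
    (by rw [hπ]; exact hW)
    (fun P hd hP => C.piA_dvd_of_degree_lt hp2 hpM 1 k P hd (by rwa [C.brHom_piA] at hP))
    (v + n) P (by
      rw [← C.brExt_spec hp2 hpM 1 k hP, map_mul, map_pow, mul_assoc, pow_add,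
        C.brHom_piA]
      exact mul_dvd_mul_left _ (h.mul_left _))
  rw [hπ, ← hrelθ, mul_assoc, pow_add, mul_dvd_mul_iff_left (pow_ne_zero _ hPS.ne_zero)] at h2
  exact hPS.pow_dvd_of_dvd_mul_left n (fun hd => hD₀ (hsat _ hd)) h2

/-- Modulo `ϖ` the first branch of a disc is `λ ↦ λ ^ p`. -/
theorem dvd_disc_glueGen_sub {ψ : LRing (2 * M) C.B →+* PowerSeries C.B}
    {θ : C.glueRing M →+* PowerSeries C.B}
    (hθc : ∀ (e : C.glueRing M) (eS : LaurentSeries C.B),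
      coeffMap C.B.subtype eS = e.1 → ∀ (a d : LRing (2 * M) C.B) (n : ℕ),
        C.expA M (C.piA M) ^ n ∣ C.expA M d * eS - C.expA M a →
          PowerSeries.C C.unif ^ n ∣ ψ d * θ e - ψ a) :
    PowerSeries.C C.unif ∣ θ (C.glueGen hp2 hpM) - ψ (C.lamL hp2 hpM) ^ p := by
  obtain ⟨y, hy, hy0⟩ := C.exists_lamP_series (M := M) hp2 hpM (one_mem (Gamma0 p))
  rw [KummerES.comp_one] at hy
  have h := hθc (C.glueGen hp2 hpM) y hy.expansion_eq.symm (C.lamL hp2 hpM ^ p) 1 1 (by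
    rw [pow_one, map_one, one_mul, C.expA_piA]; exact hy0)
  rwa [pow_one, map_one, one_mul, map_pow] at h

/-- **The maps at an ordinary point.** -/
structure IsOrdMaps (s : LRing (2 * M) C.B →+* ResidueField C.B)
    (ψ : LRing (2 * M) C.B →+* PowerSeries C.B) (w : PowerSeries C.B)
    (hmem : w ∈ maximalIdeal (PowerSeries C.B)) (x₁ : C.B)
    (θ θ₂ : C.glueRing M →+* PowerSeries C.B) : Prop where
  disc : Points.IsDisc (C.levelHyp hp2 hpM) s ψ
  map_w : PowerSeries.map (residue C.B) w = PowerSeries.X ^ p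
  θ_map : ∀ a, θ (C.glueMap M a) = ψ a
  θ₂_map : ∀ a, θ₂ (C.glueMap M a) = Glue.substDisc hmem (ψ a)
  θ₂_gen : θ₂ (C.glueGen hp2 hpM) = PowerSeries.C x₁ + PowerSeries.X
  not_dvd₁ : ¬ PowerSeries.C C.unif ∣ θ (C.glueGen hp2 hpM) ^ p - ψ (C.lamL hp2 hpM)
  dvd₂ : PowerSeries.C C.unif ∣
    θ₂ (C.glueGen hp2 hpM) ^ p - Glue.substDisc hmem (ψ (C.lamL hp2 hpM))
  not_dvd₂ : ¬ PowerSeries.C C.unif ∣
    θ₂ (C.glueGen hp2 hpM) - Glue.substDisc hmem (ψ (C.lamL hp2 hpM)) ^ p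

/-- **The maps exist.** -/
theorem exists_ordMaps {s : LRing (2 * M) C.B →+* ResidueField C.B}
    (hs : Points.IsPoint (C.levelHyp hp2 hpM) s)
    (hord : (ordPoly p hp2).eval₂ (have := C.charP; ZMod.castHom dvd_rfl (ResidueField C.B))
      (s (C.lamL hp2 hpM)) ≠ 0) :
    ∃ ψ w hmem x₁ θ θ₂, C.IsOrdMaps hp2 hpM s ψ w hmem x₁ θ θ₂ := by
  have := C.charP
  have := C.isIntegrallyClosed_powerSeries
  obtain ⟨s', hs', hss', hord'⟩ := C.exists_root_point hp2 hpM hord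
  obtain ⟨x₀, ψ, hψ, hx₀, hψl⟩ := C.exists_disc_lamL hp2 hpM hs
  obtain ⟨x₁, ψ', hψ', hx₁, hψ'l⟩ := C.exists_disc_lamL hp2 hpM hs'
  obtain ⟨θ, hθA, hθc⟩ := exists_disc_hom hψ (point_vY_ne_zero hord)
  obtain ⟨θ', hθ'A, hθ'c⟩ := exists_disc_hom hψ' (point_vY_ne_zero hord')
  replace hθA : ∀ a, θ (C.glueMap M a) = ψ a := hθA
  replace hθ'A : ∀ a, θ' (C.glueMap M a) = ψ' a := hθ'A
  set x₂ := θ' (C.glueGen hp2 hpM)
  set y := θ (C.glueGen hp2 hpM)
  have hy1 : PowerSeries.C C.unif ∣ y - ψ (C.lamL hp2 hpM) ^ p :=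
    C.dvd_disc_glueGen_sub hp2 hpM hθc
  have hy2 : PowerSeries.C C.unif ∣ x₂ - ψ' (C.lamL hp2 hpM) ^ p :=
    C.dvd_disc_glueGen_sub hp2 hpM hθ'c
  have hB := C.coeffHyp (M := M) hp2 hpM
  have hw : PowerSeries.map (residue C.B) (x₂ - PowerSeries.C x₀) = PowerSeries.X ^ p := by
    have : CharP (PowerSeries (ResidueField C.B)) p :=
      charP_of_injective_ringHom (f := PowerSeries.C) PowerSeries.C_injective p
    have h := (Points.redPS_eq_zero_iff hB _).2 hy2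
    rw [Points.redPS, map_sub, sub_eq_zero, map_pow, hψ'l, map_add, PowerSeries.map_C,
      PowerSeries.map_X, hx₁, add_pow_char, ← map_pow, hss'] at h
    rw [map_sub, h, PowerSeries.map_C, hx₀, add_sub_cancel_left]
  have hmem := Glue.mem_maximalIdeal_of_map_residue hp.out.ne_zero hw
  set Ψ₂ := (Glue.substDisc hmem).comp ψ with hΨ₂
  have hΨl : Ψ₂ (C.lamL hp2 hpM) = x₂ := by
    rw [hΨ₂, RingHom.comp_apply, hψl, map_add, Glue.substDisc_C, Glue.substDisc_X, add_sub_cancel]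
  have hΨc : ∀ r, Ψ₂ (C.polyLam hp2 hpM (Polynomial.C r)) =
      θ' (C.glueTwist hp2 hpM (C.polyLam hp2 hpM (Polynomial.C r))) := fun r =>
    RingHom.congr_fun (R2_ringHom_ext (Ψ₂.comp ((C.polyLam hp2 hpM).comp Polynomial.C))
      ((θ'.comp (C.glueTwist hp2 hpM)).comp ((C.polyLam hp2 hpM).comp Polynomial.C))) r
  have hy : (C.lamV hp2 hpM).eval₂ Ψ₂ (ψ' (C.lamL hp2 hpM)) = 0 := by
    have h := congrArg θ' (C.eval₂_lamV_glueTwist (M := M) hp2 hpM)
    rw [hom_eval₂, hθ'A, map_zero, lamV, eval₂_map] at h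
    rw [← h, lamV, eval₂_map]
    congr 1
    refine Polynomial.ringHom_ext hΨc ?_
    show Ψ₂ (C.lamL hp2 hpM) = θ' (C.glueTwist hp2 hpM (C.lamL hp2 hpM))
    rw [C.glueTwist_lamL, hΨl]
  have hinj : Function.Injective Ψ₂ := by
    obtain ⟨-, hψinj⟩ := disc_injective hψ
    refine Function.Injective.comp (g := Glue.substDisc hmem)
      ((injective_iff_map_eq_zero _).2 fun f hf => ?_) hψinj
    have := Glue.C_dvd_of_substDisc hmem hw hp.out.ne_zero (b := 0) (f := f)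
      (by rw [hf]; exact dvd_zero _)
    simpa using this
  obtain ⟨θ₂, hθ₂⟩ := exists_ext (φ := C.expK M) (z := expansion (2 * M) (lamP p))
    (fun Q hQ => C.lamV_dvd hp2 hpM (hasExp_lamP hp2) hQ) hy hinj
  have hθ₂A : ∀ a, θ₂ (C.glueMap M a) = Ψ₂ a := fun a => by
    have h := hθ₂ (C.glueMap M a) (Polynomial.C a) 1 (by rw [map_one, one_mul, eval₂_C]; rfl)
    rwa [map_one, one_mul, eval₂_C] at h
  have hθ₂z : θ₂ (C.glueGen hp2 hpM) = ψ' (C.lamL hp2 hpM) := by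
    have h := hθ₂ (C.glueGen hp2 hpM) X 1 (by rw [map_one, one_mul, eval₂_X]; rfl)
    rwa [map_one, one_mul, eval₂_X] at h
  refine ⟨ψ, _, hmem, x₁, θ, θ₂, hψ, hw, hθA, hθ₂A, hθ₂z.trans hψ'l, fun h => ?_, ?_, fun h => ?_⟩
  · refine C.not_piA_dvd_lamL_pow_sub hp2 hpM ((disc_injective hψ).1 _ ?_)
    have := dvd_sub h (hy1.trans (sub_dvd_pow_sub_pow _ _ p))
    rwa [sub_sub_sub_cancel_left, ← pow_mul, ← map_pow, ← map_sub] at this
  · show PowerSeries.C C.unif ∣ θ₂ (C.glueGen hp2 hpM) ^ p - Ψ₂ (C.lamL hp2 hpM)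
    rw [hθ₂z, hΨl, ← dvd_neg, neg_sub]
    exact hy2
  · refine C.not_piA_dvd_lamL_pow_sub hp2 hpM ((disc_injective hψ').1 _ ?_)
    change PowerSeries.C C.unif ∣ θ₂ (C.glueGen hp2 hpM) - Ψ₂ (C.lamL hp2 hpM) ^ p at h
    rw [hθ₂z, hΨl] at h
    have := dvd_add h (hy2.trans (sub_dvd_pow_sub_pow _ _ p))
    rw [sub_add_sub_cancel, ← pow_mul] at this
    rw [map_sub, map_pow, ← dvd_neg, neg_sub]
    exact this

end Coeff

end Fermat.Agent.AtP
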