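import Fermat.Agent.AtP.GlueMain
import Fermat.Agent.AtP.GlueOrdinaryMaps

/-!
# Trace data at the ordinary points

Over the disc of an ordinary point the root is exact on both branches, `B⟦T⟧` and its cover
`B⟦U⟧` of degree `p`; the traces are those of the algebra `B⟦T⟧ × B⟦U⟧`.
-/

set_option autoImplicit false

noncomputable section

open UpperHalfPlane CongruenceSubgroup
open Polynomial hiding comp
open scoped MatrixGroups
open Fermat.Agent.KummerES
open ModularCurve (qExpand coeffMap)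
open IsLocalRing (residue ResidueField maximalIdeal)

namespace Fermat.Agent.AtP

namespace Glue

/-- A larger bound will do. -/
theorem IsTraceVals.mono {A E ι S : Type*} [CommRing A] [CommRing E] [CommRing S] {p : ℕ}
    {φ : A →+* E} {z f : E} {π : A} {V : A[X]} {Sm : ι → ℕ → E → Prop} {ψ : A →+* S} {t : ℕ → S}
    {e e' : ℕ} (h : IsTraceVals p φ z f π V Sm ψ t e) (he : e ≤ e') :
    IsTraceVals p φ z f π V Sm ψ t e' :=
  fun R Q d hQ j => (pow_dvd_pow _ (Nat.sub_le_sub_left he R)).trans (h R Q d hQ j)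

end Glue

namespace Coeff

attribute [local instance] isDomain_LRing

variable {p : ℕ} [hp : Fact p.Prime] (C : Coeff p) {M : ℕ} [NeZero M] (hp2 : p ≠ 2) (hpM : ¬ p ∣ M)

include hp2 hpM in
/-- A uniform bound on the order of `ϖ` in the images of a nonzero element of the extension. -/
theorem exists_order_bound {f : C.glueRing M} (hf : f ≠ 0) :
    ∃ W : ℕ, ∀ (ψ : LRing (2 * M) C.B →+* PowerSeries C.B) (θ : C.glueRing M →+* PowerSeries C.B),
      ψ (C.piA M) = PowerSeries.C C.unif → (∀ a, PowerSeries.C C.unif ∣ ψ a → C.piA M ∣ a) →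
      (∀ a, θ (C.glueMap M a) = ψ a) → ¬ PowerSeries.C C.unif ^ (W + 1) ∣ θ f := by
  obtain ⟨⟨Q, hQ, hQf⟩, -⟩ := f.2
  obtain ⟨a, ha, hfa⟩ := Glue.exists_dvd_map_ne_zero (C.glueMap M) hf
    ⟨Q, hQ, Subtype.ext (by rw [← Subring.subtype_apply, hom_eval₂]; exact hQf)⟩
  obtain ⟨W, d₀, rfl, hd₀⟩ := C.exists_eq_piA_pow_mul hp2 hpM
    (D := a) (fun h => ha (by rw [h, map_zero]))
  refine ⟨W, fun ψ θ hπ hsat hθ h => hd₀ (hsat _ ?_)⟩
  have h1 := h.trans (map_dvd θ hfa)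
  rw [hθ, map_mul, map_pow, hπ, pow_succ] at h1
  exact (mul_dvd_mul_iff_left (pow_ne_zero W
    (Points.prime_C_pi (C.coeffHyp (M := M) hp2 hpM)).ne_zero)).1 h1

/-- **Exact roots over the points.** -/
theorem exists_point_root {ψ : LRing (2 * M) C.B →+* PowerSeries C.B}
    (hπ : ψ (C.piA M) = PowerSeries.C C.unif)
    (hsat : ∀ a, PowerSeries.C C.unif ∣ ψ a → C.piA M ∣ a)
    {θ : C.glueRing M →+* PowerSeries C.B} (hθ : ∀ a, θ (C.glueMap M a) = ψ a)
    {k : Fin 2} (hW : ¬ PowerSeries.C C.unif ∣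
      (C.brCofactor hp2 hpM k).eval₂ ψ (θ (C.glueGen hp2 hpM)))
    {f : C.glueRing M} (hf0 : θ f ≠ 0) {m N₀ : ℕ} {A D Cc : Fin m → C.glueRing M}
    (he : ∀ j, A j ^ p = D j * f) (hsum : ∑ j, Cc j * D j = C.glueMap M (C.piA M ^ N₀))
    (happ : ∀ R, ∃ Q d, Glue.IsApprox p (C.glueMap M) (C.glueGen hp2 hpM) f (C.piA M)
      (C.glueSm hp2 hpM) R Q d) :
    ∃ G, G ^ p = θ f := by
  refine Glue.exists_root_of_certificate C.irred.maximalIdeal_eq C.irred.ne_zero hp.out hp2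
    C.mu_isUnit C.p_eq hf0 (A := fun j => θ (A j)) (D := fun j => θ (D j))
    (Cc := fun j => θ (Cc j)) (N₀ := N₀) (fun j => by rw [← map_pow, he, map_mul]) ?_ fun R => ?_
  · simp only [← map_mul]
    rw [← map_sum, hsum, hθ, map_pow, hπ]
  · obtain ⟨Q, d, hd, hQ⟩ := happ R
    refine ⟨θ (Q.eval₂ (C.glueMap M) (C.glueGen hp2 hpM)), ψ d, fun h => hd (hsat d h), ?_⟩
    have h := C.pow_dvd_of_brExt hp2 hpM k hπ hsat hθ hW (hQ k)
    rwa [map_sub, map_mul, map_pow, map_pow, hθ] at h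

variable {C hp2 hpM}

section Maps

variable {s : LRing (2 * M) C.B →+* ResidueField C.B}
  {ψ : LRing (2 * M) C.B →+* PowerSeries C.B} {w : PowerSeries C.B}
  {hmem : w ∈ maximalIdeal (PowerSeries C.B)} {x₁ : C.B}
  {θ θ₂ : C.glueRing M →+* PowerSeries C.B} (h : C.IsOrdMaps hp2 hpM s ψ w hmem x₁ θ θ₂)
include h

lemma IsOrdMaps.saturated₂ (a : LRing (2 * M) C.B)
    (ha : PowerSeries.C C.unif ∣ Glue.substDisc hmem (ψ a)) : C.piA M ∣ a :=
  (disc_injective h.disc).1 a (Glue.C_dvd_of_substDisc hmem h.map_w hp.out.ne_zero ha)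

/-- The degree `p + 1` algebra of the two branches computes the trace. -/
theorem IsOrdMaps.trace_eq (Q : (LRing (2 * M) C.B)[X]) :
    Algebra.trace (PowerSeries C.B) (PowerSeries C.B × Glue.Along (Glue.substDisc hmem))
      ((θ.prod (Glue.toAlong (Glue.substDisc hmem) θ₂))
        (Q.eval₂ (C.glueMap M) (C.glueGen hp2 hpM))) =
      ψ (Glue.polyTrace (C.lamV hp2 hpM) Q) := by
  set ι := Glue.substDisc hmem
  set Θ := θ.prod (Glue.toAlong ι θ₂) with hΘ
  have hcomp : Θ.comp (C.glueMap M) =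
      (algebraMap (PowerSeries C.B) (PowerSeries C.B × Glue.Along ι)).comp ψ :=
    RingHom.ext fun a => Prod.ext (h.θ_map a) (h.θ₂_map a :)
  have hdeg := C.natDegree_lamV (M := M) hp2 hpM
  have hroot := congrArg Θ (C.eval₂_lamV_glueGen (M := M) hp2 hpM)
  rw [hom_eval₂, hcomp, map_zero] at hroot
  rw [hom_eval₂, hcomp]
  refine (Glue.map_polyTrace_of_basis ψ (C.lamV_monic hp2 hpM)
    ((Module.Basis.singleton Unit (PowerSeries C.B)).prod (Glue.basisU hmem h.map_w))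
    (by rw [hdeg, Fintype.card_sum, Fintype.card_unit, Fintype.card_fin, add_comm]) hroot
    (fun P hP hy => ?_) Q).symm
  rw [hdeg] at hP
  rw [aeval_def] at hy
  have hP1 : P.eval (θ (C.glueGen hp2 hpM)) = 0 := by
    have h1 := congrArg (RingHom.fst (PowerSeries C.B) (Glue.Along ι)) hy
    rw [hom_eval₂, map_zero] at h1
    exact h1
  have hP2 : P.eval₂ ι (PowerSeries.C x₁ + PowerSeries.X) = 0 := by
    have h2 := congrArg (RingHom.snd (PowerSeries C.B) (Glue.Along ι)) hy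
    rw [hom_eval₂, map_zero] at h2
    rw [← h.θ₂_gen]
    exact h2
  obtain ⟨q, hq⟩ := h.dvd₂
  obtain ⟨Pq, hPq, hPqe⟩ := Glue.exists_poly_eq hmem h.map_w x₁ q
  set G : (PowerSeries C.B)[X] := X ^ p - Polynomial.C (ψ (C.lamL hp2 hpM)) -
    Polynomial.C (PowerSeries.C C.unif) * Pq with hG
  have hG2 : G.eval₂ ι (PowerSeries.C x₁ + PowerSeries.X) = 0 := by
    rw [hG, eval₂_sub, eval₂_sub, eval₂_mul, eval₂_X_pow, eval₂_C, eval₂_C, hPqe,
      Glue.substDisc_C, ← h.θ₂_gen, hq, sub_self]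
  have hGc : ∀ i, p ≤ i → G.coeff i = if i = p then 1 else 0 := fun i hi => by
    have h1 : Pq.coeff i = 0 := coeff_eq_zero_of_degree_lt (hPq.trans_le (by exact_mod_cast hi))
    rw [hG, coeff_sub, coeff_sub, coeff_X_pow, coeff_C, coeff_C_mul, h1, mul_zero, sub_zero,
      if_neg (show i ≠ 0 by have := hp.out.pos; omega), sub_zero]
  have hPG : P - Polynomial.C (P.coeff p) * G = 0 := by
    refine Glue.eq_zero_of_eval₂_eq_zero hmem h.map_w x₁ ?_
      (by rw [eval₂_sub, eval₂_mul, hP2, hG2, mul_zero, sub_zero])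
    rw [degree_lt_iff_coeff_zero]
    intro i hi
    rw [coeff_sub, coeff_C_mul, hGc i hi]
    rcases hi.eq_or_lt with rfl | hlt
    · rw [if_pos rfl, mul_one, sub_self]
    · rw [if_neg hlt.ne', mul_zero, sub_zero]
      exact coeff_eq_zero_of_degree_lt (hP.trans_le (by exact_mod_cast (hlt : p + 1 ≤ i)))
  rw [sub_eq_zero] at hPG
  have hGne : G.eval (θ (C.glueGen hp2 hpM)) ≠ 0 := fun h0 => h.not_dvd₁
    ⟨Pq.eval (θ (C.glueGen hp2 hpM)), by
      rw [hG, eval_sub, eval_sub, eval_mul, eval_pow, eval_X, eval_C, eval_C] at h0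
      linear_combination h0⟩
  rw [hPG, eval_mul, eval_C, mul_eq_zero] at hP1
  rw [hPG, hP1.resolve_right hGne, map_zero, zero_mul]

end Maps

variable (C hp2 hpM)

/-- **Trace values at the ordinary points**, with a uniform bound. -/
theorem exists_traceVals_ordinary {f : C.glueRing M} (hf : f ≠ 0) {m N₀ : ℕ}
    {A D Cc : Fin m → C.glueRing M} (he : ∀ j, A j ^ p = D j * f)
    (hsum : ∑ j, Cc j * D j = C.glueMap M (C.piA M ^ N₀))
    (happ : ∀ R, ∃ Q d, Glue.IsApprox p (C.glueMap M) (C.glueGen hp2 hpM) f (C.piA M)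
      (C.glueSm hp2 hpM) R Q d) :
    ∃ e₀ : ℕ, ∀ s : LRing (2 * M) C.B →+* ResidueField C.B,
      Points.IsPoint (C.levelHyp hp2 hpM) s →
      (ordPoly p hp2).eval₂ (have := C.charP; ZMod.castHom dvd_rfl (ResidueField C.B))
        (s (C.lamL hp2 hpM)) ≠ 0 →
      ∀ e, e₀ ≤ e → ∃ ψ, Points.IsDisc (C.levelHyp hp2 hpM) s ψ ∧
        ∃ t, Glue.IsTraceVals p (C.glueMap M) (C.glueGen hp2 hpM) f (C.piA M)
          (C.lamV hp2 hpM) (C.glueSm hp2 hpM) ψ t e := by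
  obtain ⟨W, hW⟩ := C.exists_order_bound hp2 hpM hf
  refine ⟨p + p * W, fun s hs hord e he' => ?_⟩
  obtain ⟨ψ, w, hmem, x₁, θ, θ₂, h⟩ := C.exists_ordMaps hp2 hpM hs hord
  set ι := Glue.substDisc hmem
  have hπ : ψ (C.piA M) = PowerSeries.C C.unif := h.disc.const C.unif
  have hπ₂ : (ι.comp ψ) (C.piA M) = PowerSeries.C C.unif := by
    rw [RingHom.comp_apply, hπ]; exact Glue.substDisc_C hmem _
  have hne₁ := hW ψ θ hπ (disc_injective h.disc).1 h.θ_map
  have hne₂ := hW (ι.comp ψ) θ₂ hπ₂ h.saturated₂ h.θ₂_map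
  have hP : Prime (PowerSeries.C C.unif : PowerSeries C.B) :=
    Points.prime_C_pi (C.coeffHyp (M := M) hp2 hpM)
  have hW₁ : ¬ PowerSeries.C C.unif ∣
      (C.brCofactor hp2 hpM 0).eval₂ ψ (θ (C.glueGen hp2 hpM)) := by
    simpa [brCofactor] using h.not_dvd₁
  have hW₂ : ¬ PowerSeries.C C.unif ∣
      (C.brCofactor hp2 hpM 1).eval₂ (ι.comp ψ) (θ₂ (C.glueGen hp2 hpM)) := by
    simpa [brCofactor, eval₂_pow] using h.not_dvd₂
  obtain ⟨G₁, hG₁⟩ := C.exists_point_root hp2 hpM hπ (disc_injective h.disc).1 h.θ_map hW₁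
    (fun h0 => hne₁ (h0 ▸ dvd_zero _)) he hsum happ
  obtain ⟨G₂, hG₂⟩ := C.exists_point_root hp2 hpM hπ₂ h.saturated₂ h.θ₂_map hW₂
    (fun h0 => hne₂ (h0 ▸ dvd_zero _)) he hsum happ
  refine ⟨ψ, h.disc, fun j => Algebra.trace (PowerSeries C.B) (PowerSeries C.B × Glue.Along ι)
    ((G₁, Glue.toAlong ι (RingHom.id _) G₂) *
      (θ.prod (Glue.toAlong ι θ₂)) (C.glueGen hp2 hpM) ^ j),
    Glue.IsTraceVals.mono ?_ he'⟩
  refine Glue.isTraceVals_of_root hp.out hp2 (algebraMap _ _)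
    (Algebra.trace (PowerSeries C.B) (PowerSeries C.B × Glue.Along ι)).toAddMonoidHom
    (fun a x => ?_) (θ.prod (Glue.toAlong ι θ₂))
    (fun a => Prod.ext (h.θ_map a) (h.θ₂_map a)) h.trace_eq (G := (G₁, Glue.toAlong ι (RingHom.id _) G₂)) (Prod.ext hG₁.symm hG₂.symm)
    (T := fun _ : Fin 2 => PowerSeries C.B)
    ![RingHom.fst (PowerSeries C.B) (Glue.Along ι),
      (Glue.ofAlong ι).comp (RingHom.snd (PowerSeries C.B) (Glue.Along ι))]
    (fun _ => PowerSeries.C C.unif) (fun _ => PowerSeries.C C.mu) (fun _ => hP)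
    (fun _ => by rw [← map_natCast (PowerSeries.C (R := C.B)), C.p_eq, map_mul, map_pow])
    (fun _ hd => hP.not_isUnit (isUnit_of_dvd_unit hd (C.mu_isUnit.map _)))
    (fun k a hk => ?_) (w := W) (fun k hk => ?_) (fun n x hx => ?_) id (fun k n x hx => ?_)
  · rw [← Algebra.smul_def]
    exact (Algebra.trace (PowerSeries C.B) (PowerSeries C.B × Glue.Along ι)).map_smul a x
  · fin_cases k
    · exact (disc_injective h.disc).1 a hk
    · exact h.saturated₂ a hk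
  · fin_cases k
    · exact hne₁ (hG₁ ▸ hk.trans (dvd_pow_self _ hp.out.ne_zero))
    · exact hne₂ (hG₂ ▸ hk.trans (dvd_pow_self _ hp.out.ne_zero))
  · obtain ⟨a, ha⟩ := hx 0
    obtain ⟨b, hb⟩ := hx 1
    refine ⟨(a, Glue.toAlong ι (RingHom.id _) b), Prod.ext ?_ ?_⟩
    · show x.1 = ψ (C.piA M) ^ n * a
      rw [hπ]
      exact ha
    · show Glue.ofAlong ι x.2 = ι (ψ (C.piA M)) ^ n * b
      rw [show ι (ψ (C.piA M)) = PowerSeries.C C.unif from hπ₂]
      exact hb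
  · fin_cases k
    · exact C.pow_dvd_of_brExt hp2 hpM 0 hπ (disc_injective h.disc).1 h.θ_map hW₁ hx
    · exact C.pow_dvd_of_brExt hp2 hpM 1 hπ₂ h.saturated₂ h.θ₂_map hW₂ hx

end Coeff

namespace Setting

attribute [local instance] isDomain_LRing

variable {p : ℕ} [hp : Fact p.Prime] {C : Coeff p} {M : ℕ} [NeZero M] (S : Setting C M)
  (hp2 : p ≠ 2) (hpM : ¬ p ∣ M)

include hp2 hpM in
/-- **The ordinary part of `HasPointTraces`.** -/
theorem exists_pointTraces_ordinary (hres : ∃ w, coeffMap (residue C.B) S.s₁ = w ^ p) {N : ℕ}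
    {f : C.glueRing M} (hf : (f : LaurentSeries ℂ) =
      coeffMap C.B.subtype (HahnSeries.C C.unif ^ N * qExpand C.B (2 * M) S.s₁))
    (hpN : p ∣ N) (hNj : p * (S.j₁ - S.j₂).natAbs ≤ N) :
    ∃ e₀ : ℕ, ∀ s : LRing (2 * M) C.B →+* ResidueField C.B,
      Points.IsPoint (C.levelHyp hp2 hpM) s →
      (ordPoly p hp2).eval₂ (have := C.charP; ZMod.castHom dvd_rfl (ResidueField C.B))
        (s (C.lamL hp2 hpM)) ≠ 0 →
      ∀ e, e₀ ≤ e → ∃ ψ, Points.IsDisc (C.levelHyp hp2 hpM) s ψ ∧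
        ∃ t, Glue.IsTraceVals p (C.glueMap M) (C.glueGen hp2 hpM) f (C.piA M)
          (C.lamV hp2 hpM) (C.glueSm hp2 hpM) ψ t e := by
  have := C.charP
  obtain ⟨N₁, rfl⟩ := hpN
  have hNj' := Nat.le_of_mul_le_mul_left hNj hp.out.pos
  obtain ⟨N₂, hN⟩ : ∃ N₂ : ℕ, (N₂ : ℤ) = N₁ + S.j₁ - S.j₂ :=
    ⟨_, Int.toNat_of_nonneg (by omega)⟩
  obtain ⟨hf₀, hf₁⟩ := S.brExt_scaled hp2 hpM hN hf
  obtain ⟨x₀, hx₀, hfx⟩ := S.exists_content hp2 hpM hN hf 1 0
  have hf0 : f ≠ 0 := fun h => hx₀ (by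
    rw [h, map_zero, eq_comm, mul_eq_zero] at hfx
    rw [hfx.resolve_left (pow_ne_zero _ (C.prime_C_unif (M := M) hp2 hpM).ne_zero)]
    exact dvd_zero _)
  -- the certificate, rescaled
  obtain ⟨N', m, N₀, hN'j, ⟨k', rfl⟩, e, A, D, Cc, he, hAD, hsum⟩ :=
    S.exists_certificate_algElts hp2 hpM
  have hscale : C.glueMap M (C.piA M ^ (p * k')) * f = C.glueMap M (C.piA M ^ (p * N₁)) * e := by
    have hpi : ∀ n, C.expK M (C.piA M ^ n) = coeffMap C.B.subtype (HahnSeries.C C.unif ^ n) :=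
      fun n => by rw [Coeff.expK, RingHom.comp_apply, map_pow, C.expA_piA]
    refine Subtype.ext ?_
    show C.expK M (C.piA M ^ (p * k')) * (f : LaurentSeries ℂ) =
      C.expK M (C.piA M ^ (p * N₁)) * (e : LaurentSeries ℂ)
    rw [hf, he, hpi, hpi, ← map_mul, ← map_mul]
    ring_nf
  refine C.exists_traceVals_ordinary hp2 hpM hf0
    (A := fun j => C.glueMap M (C.piA M ^ N₁) * A j)
    (D := fun j => C.glueMap M (C.piA M ^ (p * k')) * D j) (Cc := Cc) (N₀ := p * k' + N₀)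
    (fun j => ?_) ?_ fun R => ?_
  · rw [mul_pow, hAD, ← map_pow, ← pow_mul, mul_comm N₁ p, mul_left_comm, ← hscale]
    ring
  · simp only [mul_left_comm (Cc _)]
    rw [← Finset.mul_sum, hsum, show (⟨_, map_mem_algElts _ _ (C.piA M ^ N₀)⟩ : C.glueRing M) =
      C.glueMap M (C.piA M ^ N₀) from rfl, pow_add, map_mul]
  · obtain ⟨Q, d, hd, h₁, h₂⟩ := S.exists_approx hp2 hpM hres hN R
    refine ⟨Q, d, hd, fun k => ?_⟩
    show _ ∣ C.brExt hp2 hpM 1 k _
    rw [map_sub, map_mul, map_pow, map_pow, C.brExt_glueMap, C.brExt_eval₂]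
    fin_cases k
    · simp only [Fin.zero_eta, hf₀]
      exact h₁
    · simp only [Fin.mk_one, hf₁]
      exact h₂

end Setting

end Fermat.Agent.AtP
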