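import Fermat.Agent.LevelLowering.FreyDescent
import Fermat.Agent.LevelLowering.General
import Fermat.Agent.LevelLowering.Upgrade
import Fermat.Agent.S29
import Fermat.Agent.TWHyp.Curve

/-!
# Level lowering at `p` for the Frey curve from Mazur's principle at `p`

`MazurAtP` speaks about congruences at almost all primes.  Residual attachment, the density of
Frobenius elements and the characteristic polynomials on the `p`-torsion upgrade them to
congruences at every good prime, so a modular Frey representation of conductor level divisible by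
`p` is modular of a level prime to `p` (`s44_of_mazurAtP`).
-/

set_option autoImplicit false

noncomputable section

open WeierstrassCurve WeierstrassCurve.Affine WeierstrassCurve.Affine.Point Polynomial
open scoped Classical
open scoped WeierstrassCurve.Affine
open Fermat.Agent.LevelLowering

namespace Fermat.Agent.AtP

/-- Galois representations attached to eigenforms reduce to residual representations. -/
theorem residualAttachment : ResidualAttachment := fun {_ _} hg {_} hp {_} _ _ φ =>
  S29.result hg hp φ

/-- Every automorphism is given on a finite level by a Frobenius element outside a finite set. -/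
theorem frobeniusDensity : FrobeniusDensity := fun L hL σ S => by
  obtain ⟨ℓ, hℓ, hS, A, hA, φ, hφ, a, ha⟩ := TWHyp.frobGenerates S L hL σ
  exact ⟨ℓ, hℓ, by simpa using hS, A, hA, φ, hφ, a, fun x hx => (ha x hx).symm⟩

/-- A characteristic polynomial in rank two. -/
theorem charpoly_eq_of_finrank_two {k V : Type*} [Field k] [AddCommGroup V] [Module k V]
    [Module.Finite k V] (hV : Module.finrank k V = 2) (f : Module.End k V) :
    LinearMap.charpoly f =
      X ^ 2 - C (LinearMap.trace k V f) * X + C (LinearMap.det f) := by
  let b := Module.finBasisOfFinrankEq k V hV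
  rw [← LinearMap.charpoly_toMatrix f b, Matrix.charpoly_fin_two,
    LinearMap.trace_eq_matrix_trace k b f, LinearMap.det_toMatrix b f]

/-- The characteristic polynomial of Frobenius on the `p`-torsion at a good prime. -/
theorem ellipticFrobenius (W : WeierstrassCurve ℤ) (p : ℕ) [Fact p.Prime] :
    EllipticFrobenius W p := fun hcard hker ℓ hℓ hgood hℓp A hA σ hσ => by
  have h := TWHyp.frobenius_trace_det (n := p) W hℓ
    (fun hd => hℓp ((Nat.prime_dvd_prime_iff_eq hℓ Fact.out).mp hd)) hgood hA hσ
  refine (charpoly_eq_of_finrank_two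
    ((W.map (Int.castRingHom ℚ)).residualGaloisRepOf p hcard hker).finrank_eq _).trans ?_
  exact congrArg₂ (fun a d => X ^ 2 - C a * X + C d) h.1 h.2

/-- Congruence at almost all primes gives `IsResiduallyModularOfLevel`, for any curve. -/
theorem isResiduallyModularOfLevel_of_cofiniteResModular {W : WeierstrassCurve ℤ} (hΔ : W.Δ ≠ 0)
    {p : ℕ} [Fact p.Prime] {M : ℕ} (hM : M ≠ 0) (h : CofiniteResModular W p M) :
    W.IsResiduallyModularOfLevel p M :=
  isResiduallyModularOfLevel_of_cofinite residualAttachment frobeniusDensity hΔ
    (ECTorsion.card_torsionBy_int W hΔ (Fact.out : p.Prime).ne_zero)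
    (ECTorsion.galoisFactorsThroughFiniteLevel _ (ECTorsion.Δ_map_intCast_ne_zero W hΔ)
      (Fact.out : p.Prime).ne_zero)
    (ellipticFrobenius W p) hM h

theorem modularRepOfLevel_of_freyModular (P : FreyPackage) {M : ℕ} (hM : M ≠ 0)
    (h : FreyModular P M) : P.ModularRepOfLevel M :=
  haveI : Fact P.p.Prime := ⟨P.pp⟩
  LevelTwo.modularRepOfLevel_of_freyCurveInt P
    (isResiduallyModularOfLevel_of_cofiniteResModular (FreyModel.freyCurveInt_Δ_ne_zero P) hM h)

/-- Given Mazur's principle, a modular Frey representation of conductor level `N` divisible by `p`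
is modular of some level `M ∣ N` prime to `p`. -/
theorem s44_of_mazurAtP (hP : ∀ P : FreyPackage, MazurAtP P) (P : FreyPackage) {N : ℕ}
    (hcond : P.IsConductorLevel N) (hpN : P.p ∣ N)
    (hirr : GaloisRepIsIrreducible (K := AlgebraicClosure ℚ) ℚ P.freyCurve P.p)
    (hmod : P.ModularRepOfLevel N) :
    ∃ M : ℕ, M ∣ N ∧ ¬ P.p ∣ M ∧ P.ModularRepOfLevel M := by
  have habc := hcond.p_dvd_abc hpN
  have hsq := hcond.squarefree
  have hmod' := freyModular_of_modularRepOfLevel P hcond.pos.ne' hmod
  obtain ⟨M, rfl⟩ := hpN
  refine ⟨M, dvd_mul_left M P.p, fun hd => ?_, modularRepOfLevel_of_freyModular P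
    (right_ne_zero_of_mul hcond.pos.ne') (hP P hirr habc M hsq hmod')⟩
  exact P.pp.ne_one (Nat.isUnit_iff.mp (hsq P.p (mul_dvd_mul_left P.p hd)))

end Fermat.Agent.AtP
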