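import Fermat.Agent.AtP.AssemblyCusps
import Fermat.Agent.AtP.AssemblyDiscs
import Fermat.Agent.AtP.AssemblyInput
import Fermat.Agent.AtP.AssemblyNodeDisc
import Fermat.Agent.AtP.ClassConjInput
import Fermat.Agent.AtP.MainConclusion
import Fermat.Agent.AtP.S44Glue

/-!
# Mazur's principle at `p`

For the function of a `Setting` the reduction is a unit times a `p`-th power at every disc and at
every cusp.  If a reduction which is a `p`-th power at `∞` glues to a root (`GlueInput p`, proved in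
`GlueInput.lean`), the logarithmic derivative of the reduction gives a congruent eigenform of level
`M`, or `2 M` for `p = 3` and `M` odd.  Main results: `Setting.conclusion_of_glue`,
`cofiniteResModular_of_localSplit`, `mazurAtP_of_glue`.
-/

set_option autoImplicit false

noncomputable section

open UpperHalfPlane CongruenceSubgroup
open scoped MatrixGroups
open Fermat.Agent.KummerES (LRing weak)
open ModularCurve (coeffMap qExpand)
open IsLocalRing (maximalIdeal residue ResidueField)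
open Fermat.Agent.LevelLowering (CofiniteResModular TorsionFiniteAt RemoveAtP MazurAtP)

namespace Fermat.Agent.AtP

variable {p : ℕ} [hp : Fact p.Prime]

/-- If the reduction at `∞` is a `p`-th power, the Kummer root has level `Γ₀(p) ∩ Γ(2 M)`. -/
def GlueInput (p : ℕ) [Fact p.Prime] : Prop :=
  ∀ (C : Coeff p) (M : ℕ) [NeZero M] (S : Setting C M), p ≠ 2 → ¬ p ∣ M →
    (∃ w, S.sbar = w ^ p) → S.g ∈ weak (levelP p (2 * M)) (p * (2 * M)) ⊤

namespace Setting

variable {C : Coeff p} {M : ℕ} [NeZero M] (S : Setting C M)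

/-- A representative of the reduced function whose logarithmic derivative is regular on all discs
and cusps and invariant under `Γ₀(M)`. -/
theorem exists_discPow_rep (hp2 : p ≠ 2) (hpM : ¬ p ∣ M) :
    ∃ a d : LRing (2 * M) C.B, ¬ C.piA M ∣ a ∧ ¬ C.piA M ∣ d ∧
      C.expA M (C.piA M) ∣ C.expA M d * qExpand C.B (2 * M) S.s₁ - C.expA M a ∧
      C.DiscPow hp2 hpM a d ∧ C.CuspPow a d ∧ C.RedInvariant M a d := by
  have hz0 : C.expA M (C.piA M) ∣ muSer C M - C.expA M (lamA C M ^ p) := by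
    rw [C.expA_piA]; exact unif_dvd_muSer_sub C M hp2
  obtain ⟨a₁, d₁, ha, hd, h1⟩ := S.exists_rep₁ hp2 hpM C.coeffMap_muSer
    (not_piA_dvd_derivative C M hp2) (eval₂_lamPolyA_muSer C M hp2) hz0
  have hrep := (dvd_pow_self (C.expA M (C.piA M)) two_ne_zero).trans h1
  refine ⟨_, _, ha, hd, hrep, fun s hs => ?_, S.cuspPow hp2 hpM ha hd hrep,
    S.redInvariant hp2 hpM hd hrep⟩
  by_cases hord : (ordPoly p hp2).eval₂ (have := C.charP; ZMod.castHom dvd_rfl (ResidueField C.B))
      (s (C.lamL hp2 hpM)) = 0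
  · exact S.discPow_of_supersingular hp2 hpM hrep s hs hord
  · exact S.discPow_of_ordinary hp2 hpM ha hd hrep s hs hord

/-- A congruent eigenform of level `M`, or `2 M` when `p = 3` and `M` is odd, given `GlueInput p`. -/
theorem conclusion_of_glue (hp2 : p ≠ 2) (hpM : ¬ p ∣ M) (hglue : GlueInput p) (hχ : S.χ ≠ 0)
    {ℓ₀ : ℕ} [Fact ℓ₀.Prime] (hℓ₀ : ¬ ℓ₀ ∣ p * M) {a₀ : ℤ}
    (hT₀ : HeckeLattice.transfer hℓ₀ S.χ = a₀ • S.χ) (hne₀ : ((ℓ₀ : ZMod p) + 1 - a₀) ≠ 0)
    (W : WeierstrassCurve ℤ) (T : Finset ℕ)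
    (heig : ∀ ℓ : ℕ, ℓ.Prime → ℓ ∉ T → ∀ n : ℤ,
      (serLogDeriv S.sbar).coeff (ℓ * n) + (ℓ : ResidueField C.B) *
          (if (ℓ : ℤ) ∣ n then (serLogDeriv S.sbar).coeff (n / ℓ) else 0) =
        (W.apOfModel ℓ : ResidueField C.B) * (serLogDeriv S.sbar).coeff n) :
    (p = 3 ∧ Odd M → CofiniteResModular W p (2 * M)) ∧
      (¬ (p = 3 ∧ Odd M) → CofiniteResModular W p M) := by
  obtain ⟨a, d, ha, hd, hrep, hdisc, hcusp, hinv⟩ := S.exists_discPow_rep hp2 hpM
  exact S.conclusion hp2 hpM hχ hℓ₀ hT₀ hne₀ (hglue C M S hp2 hpM) ha hd hrep hdisc hcusp hinv W T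
    heig

end Setting

/-- **Mazur's principle at `p ≥ 5`** for a curve with a local vector. -/
theorem cofiniteResModular_of_localSplit (hglue : GlueInput p)
    {W : WeierstrassCurve ℤ} (hΔ : W.Δ ≠ 0) (hp5 : 5 ≤ p) (hirr : W.ModRepIsIrreducible p)
    (hloc : ∀ (O : Subring ℂ) [IsDiscreteValuationRing O] [IsAdicComplete (maximalIdeal O) O]
      [IsAlgClosed (ResidueField O)], Irreducible (p : O) → HasLocalSplit W p O)
    {M : ℕ} (hsq : Squarefree (p * M)) (hmod : CofiniteResModular W p (p * M)) :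
    CofiniteResModular W p M := by
  have hM0 : NeZero M := ⟨right_ne_zero_of_mul hsq.ne_zero⟩
  have hpM : ¬ p ∣ M := fun h =>
    hp.out.ne_one (Nat.isUnit_iff.1 (hsq p (mul_dvd_mul_left p h)))
  have hp2 : p ≠ 2 := by omega
  by_contra hnot
  obtain ⟨O, _, _, _, hO⟩ := exists_coeffRing p
  obtain ⟨u, v, huv⟩ := Nat.isCoprime_iff_coprime.2 (hp.out.coprime_iff_not_dvd.2 hpM)
  have h : (p : ℤ) * u - (M : ℤ) * (-v) = 1 := by linear_combination huv
  obtain ⟨C, S, -, hχ, ⟨ℓ₀, hℓp, hℓ₀, a₀, hT₀, hne₀⟩, T, heig⟩ :=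
    exists_setting hp2 hpM hO (exists_hasClass hΔ hp5 hirr hpM hmod hnot h O (hloc O hO))
  exact hnot ((S.conclusion_of_glue hp2 hpM hglue hχ hℓ₀ hT₀ hne₀ W T heig).2 (by omega))

/-- Mazur's principle at `p` for the Frey curve, given `GlueInput p`. -/
theorem mazurAtP_of_glue (P : FreyPackage) (hglue : ∀ [Fact P.p.Prime], GlueInput P.p) :
    MazurAtP P := by
  have : Fact P.p.Prime := ⟨P.pp⟩
  intro hirr hdvd M hsq hmod
  exact cofiniteResModular_of_localSplit hglue (FreyModel.freyCurveInt_Δ_ne_zero P) P.hp5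
    (by rwa [WeierstrassCurve.ModRepIsIrreducible, FreyModel.map_freyCurveInt])
    (fun O _ _ _ hO => freyCurve_hasLocalSplit P hdvd O hO) hsq hmod

/-- Finite torsion at `p` makes `p` divide the valuation of the discriminant. -/
theorem dvd_padicValInt_of_torsionFiniteAt {W : WeierstrassCurve ℤ} {p : ℕ}
    (h : TorsionFiniteAt W p) : p ∣ padicValInt p W.Δ := by
  rcases h with h | h
  · rw [padicValInt.eq_zero_of_not_dvd h]
    exact dvd_zero p
  · rw [WeierstrassCurve.IsPeuRamifieeAt, WeierstrassCurve.map_Δ, eq_intCast,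
      padicValRat.of_int] at h
    exact Int.natCast_dvd_natCast.1 h

end Fermat.Agent.AtP
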