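import Fermat.Agent.AtP.GlueNode
import Fermat.Agent.AtP.GlueOrdinary
import Fermat.Agent.AtP.Main

/-!
# The gluing theorem, and Mazur's principle at `p` for the Frey curve

`glueInput` proves `GlueInput p` from the traces at the supersingular and at the ordinary points;
`mazurAtP` is the resulting principle for every Frey package.
-/

set_option autoImplicit false

noncomputable section

open IsLocalRing (ResidueField)

namespace Fermat.Agent.AtP

/-- The gluing theorem: if the reduction at `∞` is a `p`-th power, the root has level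
`Γ₀(p) ∩ Γ(2 M)`. -/
theorem glueInput (p : ℕ) [Fact p.Prime] : GlueInput p := by
  intro C M _ S hp2 hpM hw
  refine S.mem_levelP_of_pow hp2 hpM hw fun N f hf hpN hNj => ?_
  obtain ⟨e₁, h₁⟩ := S.exists_traceVals_supersingular hp2 hpM hw hf hpN hNj
  obtain ⟨e₂, h₂⟩ := S.exists_pointTraces_ordinary hp2 hpM hw hf hpN hNj
  refine ⟨max e₁ e₂, fun s hs => ?_⟩
  by_cases hord : (ordPoly p hp2).eval₂ (have := C.charP; ZMod.castHom dvd_rfl (ResidueField C.B))
      (s (C.lamL hp2 hpM)) = 0
  · obtain ⟨ψ, hψ, t, ht⟩ := h₁ s hs hord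
    exact ⟨ψ, hψ, t, ht.mono (le_max_left _ _)⟩
  · exact h₂ s hs hord _ (le_max_right _ _)

open Fermat.Agent.LevelLowering (MazurAtP) in
/-- **Mazur's principle at `p`** for the Frey curve. -/
theorem mazurAtP (P : FreyPackage) : MazurAtP P :=
  mazurAtP_of_glue P fun {_} => glueInput P.p

end Fermat.Agent.AtP
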