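import Fermat.Agent.AtP.ModelApprox
import Mathlib.Data.Nat.Choose.Dvd
import Mathlib.Algebra.Polynomial.Div

/-!
# Approximate roots in `A[z]` localised at `π`

On a branch `φ : A → S`, `z ∈ S`, the elements which are, modulo every power of `π`, quotients
`Q(z) / φ d` with `π ∤ d` contain the `p`-th roots of their elements. Two branches which a
polynomial separates modulo `π` are glued.
-/

set_option autoImplicit false

noncomputable section

namespace Fermat.Agent.AtP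

open Polynomial

variable {A S : Type*} [CommRing A] [CommRing S]

/-- `x` is a quotient `Q(z) / φ d` modulo `π ^ n`. -/
def IsApp (φ : A →+* S) (z : S) (π : A) (n : ℕ) (x : S) : Prop :=
  ∃ (Q : A[X]) (d : A), ¬ π ∣ d ∧ φ π ^ n ∣ φ d * x - Q.eval₂ φ z

variable {φ : A →+* S} {z : S} {π : A}

namespace IsApp

lemma of_eval (hπ : Prime π) (n : ℕ) (Q : A[X]) : IsApp φ z π n (Q.eval₂ φ z) :=
  ⟨Q, 1, hπ.not_dvd_one, by simp⟩

/-- Elements of `A` are approximated at every order. -/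
lemma map (hπ : Prime π) (n : ℕ) (a : A) : IsApp φ z π n (φ a) := by
  simpa using of_eval (φ := φ) (z := z) hπ n (C a)

/-- Every element is approximated at order `0`. -/
lemma zero (hπ : Prime π) (x : S) : IsApp φ z π 0 x := ⟨0, 1, hπ.not_dvd_one, by simp⟩

/-- Approximation at a higher order implies approximation at a lower one. -/
lemma mono {m n : ℕ} {x : S} (h : IsApp φ z π n x) (hmn : m ≤ n) : IsApp φ z π m x := by
  obtain ⟨Q, d, hd, hQ⟩ := h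
  exact ⟨Q, d, hd, (pow_dvd_pow _ hmn).trans hQ⟩

/-- Approximation only depends on the class modulo `π ^ n`. -/
lemma congr {n : ℕ} {x y : S} (h : IsApp φ z π n x) (hxy : φ π ^ n ∣ x - y) :
    IsApp φ z π n y := by
  obtain ⟨Q, d, hd, hQ⟩ := h
  refine ⟨Q, d, hd, ?_⟩
  convert dvd_sub hQ (hxy.mul_left (φ d)) using 1
  ring

/-- Sums of approximated elements are approximated. -/
lemma add (hπ : Prime π) {n : ℕ} {x y : S} (hx : IsApp φ z π n x) (hy : IsApp φ z π n y) :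
    IsApp φ z π n (x + y) := by
  obtain ⟨Q, d, hd, h⟩ := hx
  obtain ⟨Q', d', hd', h'⟩ := hy
  refine ⟨C d' * Q + C d * Q', d * d', hπ.not_dvd_mul hd hd', ?_⟩
  convert dvd_add (h.mul_left (φ d')) (h'.mul_left (φ d)) using 1
  rw [eval₂_add, eval₂_mul, eval₂_mul, eval₂_C, eval₂_C, map_mul]
  ring

/-- Products of approximated elements are approximated. -/
lemma mul (hπ : Prime π) {n : ℕ} {x y : S} (hx : IsApp φ z π n x) (hy : IsApp φ z π n y) :
    IsApp φ z π n (x * y) := by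
  obtain ⟨Q, d, hd, h⟩ := hx
  obtain ⟨Q', d', hd', h'⟩ := hy
  refine ⟨Q * Q', d * d', hπ.not_dvd_mul hd hd', ?_⟩
  convert dvd_add (h.mul_left (φ d' * y)) (h'.mul_left (Q.eval₂ φ z)) using 1
  rw [eval₂_mul, map_mul]
  ring

/-- Opposites of approximated elements are approximated. -/
lemma neg {n : ℕ} {x : S} (hx : IsApp φ z π n x) : IsApp φ z π n (-x) := by
  obtain ⟨Q, d, hd, h⟩ := hx
  refine ⟨-Q, d, hd, ?_⟩
  convert h.neg_right using 1
  rw [eval₂_neg]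
  ring

/-- Differences of approximated elements are approximated. -/
lemma sub (hπ : Prime π) {n : ℕ} {x y : S} (hx : IsApp φ z π n x) (hy : IsApp φ z π n y) :
    IsApp φ z π n (x - y) := by
  rw [sub_eq_add_neg]
  exact hx.add hπ hy.neg

lemma pi_mul {n : ℕ} {x : S} (hx : IsApp φ z π n x) : IsApp φ z π (n + 1) (φ π * x) := by
  obtain ⟨Q, d, hd, h⟩ := hx
  refine ⟨C π * Q, d, hd, ?_⟩
  convert mul_dvd_mul_left (φ π) h using 1
  · rw [pow_succ']
  · rw [eval₂_mul, eval₂_C]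
    ring

lemma of_map_mul (hπ : Prime π) {n : ℕ} {c : A} (hc : ¬ π ∣ c) {x : S}
    (hx : IsApp φ z π n (φ c * x)) : IsApp φ z π n x := by
  obtain ⟨Q, d, hd, h⟩ := hx
  refine ⟨Q, d * c, hπ.not_dvd_mul hd hc, ?_⟩
  rwa [map_mul, mul_assoc]

end IsApp

/-- What is used of a branch. -/
structure GlueHyp (φ : A →+* S) (z : S) (π : A) (p : ℕ) : Prop where
  prime : Prime π
  primeS : Prime (φ π)
  sat : ∀ a, φ π ∣ φ a → π ∣ a
  div : ∀ (m : ℕ) (P : A[X]) (x : S), P.eval₂ φ z = φ π * x → IsApp φ z π m x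
  root : ∀ x, IsApp φ z π 1 (x ^ p) → IsApp φ z π 1 x
  inv : ∀ Q : A[X], ¬ φ π ∣ Q.eval₂ φ z →
    ∃ (Q₀ : A[X]) (d₀ : A), ¬ π ∣ d₀ ∧ φ π ∣ Q.eval₂ φ z * Q₀.eval₂ φ z - φ d₀

namespace GlueHyp

variable [IsDomain S] {p : ℕ} (H : GlueHyp φ z π p)
include H

omit [IsDomain S] in
/-- A value divisible by a power of `π`, divided by it. -/
theorem div_pow' : ∀ (v m : ℕ) (P : A[X]) (x : S),
    P.eval₂ φ z = φ π ^ v * x → IsApp φ z π m x := by
  intro v
  induction v with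
  | zero =>
    intro m P x h
    rw [pow_zero, one_mul] at h
    exact h ▸ IsApp.of_eval H.prime m P
  | succ v ih =>
    intro m P x h
    obtain ⟨Q, d, hd, w, hw⟩ := H.div (m + v) P (φ π ^ v * x) (by rw [h, pow_succ', mul_assoc])
    refine IsApp.of_map_mul H.prime hd ((ih m Q (φ d * x - φ π ^ m * w) ?_).congr ?_)
    · rw [pow_add] at hw
      linear_combination -hw
    · exact ⟨-w, by ring⟩

omit [IsDomain S] in
/-- Division by a power of `π`. -/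
theorem div_pow {m v : ℕ} {x : S} (h : IsApp φ z π (m + v) (φ π ^ v * x)) : IsApp φ z π m x := by
  obtain ⟨Q, d, hd, w, hw⟩ := h
  refine IsApp.of_map_mul H.prime hd ((H.div_pow' v m Q (φ d * x - φ π ^ m * w) ?_).congr
    ⟨-w, by ring⟩)
  rw [pow_add] at hw
  linear_combination -hw

omit [IsDomain S] in
/-- An element algebraic over `A` of degree one in `z` is approximable. -/
theorem of_eq {D : A} {v : ℕ} {D₀ : A} (hD : D = π ^ v * D₀) (hD₀ : ¬ π ∣ D₀) {P : A[X]} {x : S}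
    (h : φ D * x = P.eval₂ φ z) (m : ℕ) : IsApp φ z π m x :=
  IsApp.of_map_mul H.prime hD₀
    (H.div_pow' v m P (φ D₀ * x) (by rw [← h, hD, map_mul, map_pow, mul_assoc]))

end GlueHyp

/-- `(x + y) ^ p` up to the square of `y`. -/
theorem add_pow_prime_eq_sq {R : Type*} [CommRing R] {p : ℕ} (hp : p.Prime) (x y : R) :
    ∃ w, (x + y) ^ p = x ^ p + y ^ p + (p : R) * (x ^ (p - 1) * y + y ^ 2 * w) := by
  obtain ⟨m, rfl⟩ : ∃ m, p = m + 2 := ⟨p - 2, by have := hp.two_le; omega⟩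
  have h : ∀ i ∈ Finset.range m, ∃ c : R, y ^ (i + 2) * x ^ (m + 2 - (i + 2)) *
      ((m + 2).choose (i + 2) : R) = ((m + 2 : ℕ) : R) * y ^ 2 * c := by
    intro i hi
    rw [Finset.mem_range] at hi
    obtain ⟨c, hc⟩ := hp.dvd_choose_self (show i + 2 ≠ 0 by omega) (show i + 2 < m + 2 by omega)
    refine ⟨y ^ i * x ^ (m + 2 - (i + 2)) * c, ?_⟩
    rw [hc, pow_add, Nat.cast_mul]
    ring
  choose! c hc using h
  refine ⟨∑ i ∈ Finset.range m, c i, ?_⟩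
  rw [add_comm x y, add_pow, Finset.sum_range_succ, Finset.sum_range_succ',
    Finset.sum_range_succ', Finset.sum_congr rfl hc, ← Finset.mul_sum, Nat.choose_self,
    Nat.choose_zero_right, Nat.sub_self, Nat.sub_zero, Nat.choose_one_right]
  simp only [pow_zero, zero_add, pow_one, Nat.cast_one, mul_one, one_mul,
    show m + 2 - 1 = m + 1 from rfl]
  ring

namespace GlueHyp

variable [IsDomain S] {p : ℕ} (H : GlueHyp φ z π p)
include H

omit [IsDomain S] in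
/-- **Lifting of `p`-th roots.** -/
theorem app_of_pow (hp : p.Prime) (hp3 : 3 ≤ p) {ν νi : A} (hν : ν * νi = 1)
    (hpπ : (p : S) = φ π ^ p * φ ν) {h : S} (hh : ¬ φ π ∣ h) {R : ℕ}
    (happ : IsApp φ z π (R + p) (h ^ p)) : IsApp φ z π R h := by
  suffices ∀ k ≤ R, IsApp φ z π k h from this R le_rfl
  intro k
  induction k with
  | zero => exact fun _ => IsApp.zero H.prime h
  | succ k ih =>
    intro hk
    rcases Nat.eq_zero_or_pos k with rfl | hk1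
    · exact H.root h (happ.mono (by omega))
    obtain ⟨Q, d, hd, r, hr⟩ := ih (by omega)
    set x := Q.eval₂ φ z with hx
    have hxπ : ¬ φ π ∣ x := fun h0 => by
      have h2 : φ π ∣ φ d * h := by
        rw [show φ d * h = x + φ π ^ k * r by rw [← hr]; ring]
        exact dvd_add h0 ((dvd_pow_self _ (by omega)).mul_right r)
      exact (H.primeS.dvd_or_dvd h2).elim (fun h3 => hd (H.sat _ h3)) hh
    suffices hr1 : IsApp φ z π 1 r by
      obtain ⟨Q₃, d₃, hd₃, v, hv⟩ := hr1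
      refine ⟨C d₃ * Q + C (π ^ k) * Q₃, d * d₃, H.prime.not_dvd_mul hd hd₃, v, ?_⟩
      rw [eval₂_add, eval₂_mul, eval₂_mul, eval₂_C, eval₂_C, map_mul, map_pow, ← hx]
      rw [pow_one] at hv
      linear_combination φ d₃ * hr + φ π ^ k * hv
    have happ' : IsApp φ z π (R + p) (φ d ^ p * h ^ p - x ^ p) := by
      refine IsApp.sub H.prime (IsApp.mul H.prime ?_ happ) ?_
      · rw [← map_pow]; exact IsApp.map H.prime _ _
      · rw [hx, ← eval₂_pow]; exact IsApp.of_eval H.prime _ _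
    obtain ⟨w, hw⟩ := add_pow_prime_eq_sq hp x (φ π ^ k * r)
    rw [show x + φ π ^ k * r = φ d * h by rw [← hr]; ring, mul_pow (φ d), hpπ] at hw
    rcases Nat.lt_or_ge k 2 with hk2 | hk2
    · obtain rfl : k = 1 := by omega
      refine H.root r (IsApp.congr (x := r ^ p + φ π * (φ ν * (x ^ (p - 1) * r + φ π * (r ^ 2 * w))))
        (H.div_pow (v := p) ?_) ⟨φ ν * (x ^ (p - 1) * r + φ π * (r ^ 2 * w)), by ring⟩)
      have e : φ π ^ p * (r ^ p + φ π * (φ ν * (x ^ (p - 1) * r + φ π * (r ^ 2 * w)))) =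
          φ d ^ p * h ^ p - x ^ p := by
        rw [hw, mul_pow]; ring
      rw [e]
      exact happ'.mono (by omega)
    · have hx' : ¬ φ π ∣ (Q ^ (p - 1)).eval₂ φ z := fun h0 => by
        rw [eval₂_pow] at h0
        exact hxπ (H.primeS.dvd_of_dvd_pow h0)
      obtain ⟨Q₀, d₀, hd₀, v, hv⟩ := H.inv _ hx'
      rw [eval₂_pow, ← hx] at hv
      obtain ⟨j, hj⟩ : ∃ j, k * p = p + k + 1 + j :=
        ⟨k * p - (p + k + 1), by
          have h1 : 2 * p ≤ k * p := Nat.mul_le_mul_right p hk2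
          have h2 : k * 3 ≤ k * p := Nat.mul_le_mul_left k hp3
          omega⟩
      obtain ⟨i, rfl⟩ : ∃ i, k = i + 1 := ⟨k - 1, by omega⟩
      have h1 : IsApp φ z π 1 (φ ν * x ^ (p - 1) * r) := by
        refine IsApp.congr (x := φ ν * x ^ (p - 1) * r +
            φ π * (φ π ^ j * r ^ p + φ ν * φ π ^ i * r ^ 2 * w)) (H.div_pow (v := p + (i + 1)) ?_)
          ⟨φ π ^ j * r ^ p + φ ν * φ π ^ i * r ^ 2 * w, by ring⟩
        have e : φ π ^ (p + (i + 1)) * (φ ν * x ^ (p - 1) * r +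
            φ π * (φ π ^ j * r ^ p + φ ν * φ π ^ i * r ^ 2 * w)) =
            φ d ^ p * h ^ p - x ^ p := by
          rw [hw, mul_pow, ← pow_mul, hj]; ring
        rw [e]
        exact happ'.mono (by omega)
      refine IsApp.of_map_mul H.prime hd₀
        (IsApp.congr (x := φ νi * Q₀.eval₂ φ z * (φ ν * x ^ (p - 1) * r)) ?_ ⟨v * r, ?_⟩)
      · exact IsApp.mul H.prime (IsApp.mul H.prime (IsApp.map H.prime 1 νi)
          (IsApp.of_eval H.prime 1 Q₀)) h1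
      · have hν' : φ ν * φ νi = 1 := by rw [← map_mul, hν, map_one]
        rw [pow_one]
        linear_combination r * hv + Q₀.eval₂ φ z * x ^ (p - 1) * r * hν'

end GlueHyp

/-! ## The two kinds of branches -/

/-- `Q(z) ^ p` is, modulo `π`, a value at `z ^ p`. -/
theorem exists_eval_pow_congr {p : ℕ} (hp : p.Prime) (hpπ : φ π ∣ (p : S)) {lA : A}
    (hl : φ π ∣ z ^ p - φ lA) (Q : A[X]) : ∃ c, φ π ∣ Q.eval₂ φ z ^ p - φ c := by
  induction Q using Polynomial.induction_on' with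
  | add P Q hP hQ =>
    obtain ⟨c, hc⟩ := hP
    obtain ⟨c', hc'⟩ := hQ
    refine ⟨c + c', ?_⟩
    obtain ⟨w, hw⟩ := add_pow_prime_eq_sq hp (P.eval₂ φ z) (Q.eval₂ φ z)
    rw [eval₂_add, hw, map_add]
    convert dvd_add (dvd_add hc hc') (hpπ.mul_right
      (P.eval₂ φ z ^ (p - 1) * Q.eval₂ φ z + Q.eval₂ φ z ^ 2 * w)) using 1
    ring
  | monomial i a =>
    refine ⟨a ^ p * lA ^ i, ?_⟩
    rw [eval₂_monomial, mul_pow, ← pow_mul, mul_comm i p, pow_mul, map_mul, map_pow, map_pow,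
      ← mul_sub]
    exact (hl.trans (sub_dvd_pow_sub_pow _ _ i)).mul_left _

variable [IsDomain A] [IsDomain S] {p : ℕ}

omit [IsDomain A] in
/-- A branch with a simple root modulo `π`. -/
theorem glueHyp_simple (hπ : Prime π) (hπS : Prime (φ π)) (hsat : ∀ a, φ π ∣ φ a → π ∣ a)
    {V : A[X]} {y₀ : A} (hV1 : ¬ π ∣ V.derivative.eval y₀) (hz : V.eval₂ φ z = 0)
    (hz0 : φ π ∣ z - φ y₀)
    (hroot : ∀ (x : S) (a d : A), ¬ π ∣ d → φ π ∣ φ d * x ^ p - φ a →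
      ∃ a' d' : A, ¬ π ∣ d' ∧ φ π ∣ φ d' * x - φ a') :
    GlueHyp φ z π p := by
  have hev : ∀ Q : A[X], φ π ∣ Q.eval₂ φ z - φ (Q.eval y₀) := fun Q => by
    rw [← eval₂_at_apply, ← eval_map, ← eval_map]
    exact hz0.trans (sub_dvd_eval_sub _ _ _)
  refine ⟨hπ, hπS, hsat, fun m P x hx => ?_, fun x hx => ?_, fun Q hQ => ?_⟩
  · obtain ⟨P₁, hP₁⟩ : ∃ P₁, P - C (P.eval y₀) = (X - C y₀) * P₁ := dvd_iff_isRoot.2 (by simp)
    obtain ⟨a, ha⟩ : π ∣ P.eval y₀ := hsat _ (by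
      have h := dvd_sub (Dvd.intro x hx.symm) (hev P)
      rwa [sub_sub_cancel] at h)
    obtain ⟨aₘ, d, hd, w, hw⟩ := isFrac_root hπ hsat hπS.ne_zero hV1 hz hz0 (m + 1)
    obtain ⟨b, hb⟩ : π ∣ aₘ - d * y₀ := hsat _ (by
      rw [show φ (aₘ - d * y₀) = φ d * (z - φ y₀) - φ π ^ (m + 1) * w by
        rw [map_sub, map_mul, ← hw]; ring]
      exact dvd_sub (hz0.mul_left _) (Dvd.dvd.mul_right (dvd_pow_self _ m.succ_ne_zero) _))
    refine ⟨C d * C a + C b * P₁, d, hd, w * P₁.eval₂ φ z, mul_left_cancel₀ hπS.ne_zero ?_⟩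
    have h2 := congrArg (eval₂ φ z) hP₁
    rw [eval₂_sub, eval₂_mul, eval₂_sub, eval₂_C, eval₂_X, eval₂_C, hx, ha, map_mul] at h2
    have h3 := congrArg φ hb
    rw [map_sub, map_mul, map_mul] at h3
    rw [eval₂_add, eval₂_mul, eval₂_mul, eval₂_C, eval₂_C, eval₂_C]
    linear_combination φ d * h2 + P₁.eval₂ φ z * (hw + h3)
  · obtain ⟨Q, d, hd, hQ⟩ := hx
    rw [pow_one] at hQ
    obtain ⟨a', d', hd', h'⟩ := hroot x (Q.eval y₀) d hd (by
      convert dvd_add hQ (hev Q) using 1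
      ring)
    exact ⟨C a', d', hd', by simpa using h'⟩
  · refine ⟨1, Q.eval y₀, fun h => hQ ?_, by simpa using hev Q⟩
    have h2 := dvd_add (hev Q) (map_dvd φ h)
    rwa [sub_add_cancel] at h2

/-- A branch where `z` is a `p`-th root modulo `π`. -/
theorem glueHyp_insep (hπ : Prime π) (hπS : Prime (φ π)) (hsat : ∀ a, φ π ∣ φ a → π ∣ a)
    (hp : p.Prime) (hpπ : φ π ∣ (p : S)) {lA : A} {W H₁ : A[X]} {g : S}
    (hg : z ^ p - φ lA = φ π * g) (hW : ¬ φ π ∣ W.eval₂ φ z)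
    (hgW : g * W.eval₂ φ z = φ π * H₁.eval₂ φ z)
    (hindep : ∀ P : A[X], P.degree < (p : ℕ) → φ π ∣ P.eval₂ φ z → C π ∣ P)
    (hroot : ∀ (x : S) (d : A) (Q : A[X]), ¬ π ∣ d → φ π ∣ φ d * x ^ p - Q.eval₂ φ z →
      ∃ (Q' : A[X]) (d' : A), ¬ π ∣ d' ∧ φ π ∣ φ d' * x - Q'.eval₂ φ z) :
    GlueHyp φ z π p := by
  have hinv : ∀ Q : A[X], ¬ φ π ∣ Q.eval₂ φ z →
      ∃ c, ¬ π ∣ c ∧ φ π ∣ Q.eval₂ φ z ^ p - φ c := fun Q hQ => by
    obtain ⟨c, hc⟩ := exists_eval_pow_congr hp hpπ (Dvd.intro g hg.symm) Q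
    refine ⟨c, fun h => hQ (hπS.dvd_of_dvd_pow (n := p) ?_), hc⟩
    have h2 := dvd_add hc (map_dvd φ h)
    rwa [sub_add_cancel] at h2
  have hdiv : ∀ m, IsApp φ z π m g → ∀ (P : A[X]) (x : S),
      P.eval₂ φ z = φ π * x → IsApp φ z π m x := by
    intro m hm P x hx
    have hG : (X ^ p - C lA : A[X]).Monic := monic_X_pow_sub_C lA hp.ne_zero
    set P₁ := P /ₘ (X ^ p - C lA)
    have hP : P %ₘ (X ^ p - C lA) + (X ^ p - C lA) * P₁ = P := modByMonic_add_div P _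
    have hev := congrArg (eval₂ φ z) hP
    rw [eval₂_add, eval₂_mul, eval₂_sub, eval₂_X_pow, eval₂_C, hg, hx] at hev
    obtain ⟨P₂, hP₂⟩ := hindep (P %ₘ (X ^ p - C lA)) (by
      have h := degree_modByMonic_lt P hG
      rwa [degree_X_pow_sub_C hp.pos lA] at h)
      ⟨x - g * P₁.eval₂ φ z, by linear_combination hev⟩
    have e : x = g * P₁.eval₂ φ z + P₂.eval₂ φ z := by
      refine mul_left_cancel₀ hπS.ne_zero ?_
      rw [hP₂, eval₂_mul, eval₂_C] at hev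
      linear_combination -hev
    rw [e]
    exact (hm.mul hπ (IsApp.of_eval hπ m P₁)).add hπ (IsApp.of_eval hπ m P₂)
  have hgapp : ∀ m, IsApp φ z π m g := by
    intro m
    induction m with
    | zero => exact IsApp.zero hπ g
    | succ m ih =>
      obtain ⟨c, hc, u, hu⟩ := hinv W hW
      have hu' : IsApp φ z π m u := hdiv m ih (W ^ p - C c) u (by
        rw [eval₂_sub, eval₂_pow, eval₂_C, hu])
      refine IsApp.of_map_mul hπ hc ?_
      have e : φ c * g = φ π * (H₁ * W ^ (p - 1)).eval₂ φ z - φ π * (g * u) := by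
        have h1 : W.eval₂ φ z ^ p = W.eval₂ φ z * W.eval₂ φ z ^ (p - 1) := by
          rw [← pow_succ', Nat.sub_add_cancel hp.one_le]
        rw [eval₂_mul, eval₂_pow]
        linear_combination -g * hu + g * h1 + W.eval₂ φ z ^ (p - 1) * hgW
      rw [e]
      exact ((IsApp.of_eval hπ m _).pi_mul).sub hπ ((ih.mul hπ hu').pi_mul)
  refine ⟨hπ, hπS, hsat, fun m => hdiv m (hgapp m), fun x hx => ?_, fun Q hQ => ?_⟩
  · obtain ⟨Q, d, hd, hQ⟩ := hx
    rw [pow_one] at hQ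
    obtain ⟨Q', d', hd', h⟩ := hroot x d Q hd hQ
    exact ⟨Q', d', hd', by rwa [pow_one]⟩
  · obtain ⟨c, hc, h⟩ := hinv Q hQ
    refine ⟨Q ^ (p - 1), c, hc, ?_⟩
    rwa [eval₂_pow, ← pow_succ', Nat.sub_add_cancel hp.one_le]

/-! ## Gluing of two branches -/

omit [IsDomain A] [IsDomain S] in
/-- **Two branches** separated by `G` are approximated together. -/
theorem exists_app_pair {φ₁ φ₂ : A →+* S} {z₁ z₂ : S} (H₁ : GlueHyp φ₁ z₁ π p) {G : A[X]}
    (hG₁ : ¬ φ₁ π ∣ G.eval₂ φ₁ z₁) (hG₂ : φ₂ π ∣ G.eval₂ φ₂ z₂) {R : ℕ} {x₁ x₂ : S}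
    (h₁ : IsApp φ₁ z₁ π R x₁) (h₂ : IsApp φ₂ z₂ π R x₂) :
    ∃ (Q : A[X]) (d : A), ¬ π ∣ d ∧ φ₁ π ^ R ∣ φ₁ d * x₁ - Q.eval₂ φ₁ z₁ ∧
      φ₂ π ^ R ∣ φ₂ d * x₂ - Q.eval₂ φ₂ z₂ := by
  obtain ⟨Q₁, d₁, hd₁, hQ₁⟩ := h₁
  obtain ⟨Q₂, d₂, hd₂, hQ₂⟩ := h₂
  obtain ⟨Q₀, δ, hδ, hQ₀⟩ := H₁.inv G hG₁
  set T := C δ - G * Q₀ with hTdef
  set a := C (δ ^ R) - T ^ R with hadef
  set e := a ^ R with hedef
  set D := δ ^ (R * R) with hDdef
  have ha₁ : φ₁ π ^ R ∣ a.eval₂ φ₁ z₁ - φ₁ (δ ^ R) := by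
    rw [hadef, eval₂_sub, eval₂_C, sub_sub_cancel_left, dvd_neg, eval₂_pow]
    refine pow_dvd_pow_of_dvd ?_ R
    rw [hTdef, eval₂_sub, eval₂_C, eval₂_mul, ← dvd_neg, neg_sub]
    exact hQ₀
  have ha₂ : φ₂ π ∣ a.eval₂ φ₂ z₂ := by
    rw [hadef, eval₂_sub, eval₂_C, eval₂_pow, map_pow]
    refine Dvd.dvd.trans ?_ (sub_dvd_pow_sub_pow _ _ R)
    rw [hTdef, eval₂_sub, eval₂_C, sub_sub_cancel, eval₂_mul]
    exact hG₂.mul_right _
  have he₁ : φ₁ π ^ R ∣ e.eval₂ φ₁ z₁ - φ₁ D := by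
    rw [hedef, eval₂_pow, hDdef, pow_mul, map_pow φ₁ (δ ^ R) R]
    exact ha₁.trans (sub_dvd_pow_sub_pow _ _ R)
  have he₂ : φ₂ π ^ R ∣ e.eval₂ φ₂ z₂ := by
    rw [hedef, eval₂_pow]
    exact pow_dvd_pow_of_dvd ha₂ R
  refine ⟨C d₂ * Q₁ * e + C d₁ * Q₂ * (C D - e), d₁ * d₂ * D,
    H₁.prime.not_dvd_mul (H₁.prime.not_dvd_mul hd₁ hd₂)
      (fun h => hδ (H₁.prime.dvd_of_dvd_pow h)), ?_, ?_⟩
  · have := dvd_add (dvd_sub (hQ₁.mul_left (φ₁ d₂ * φ₁ D))
      (he₁.mul_left (φ₁ d₂ * Q₁.eval₂ φ₁ z₁))) (he₁.mul_left (φ₁ d₁ * Q₂.eval₂ φ₁ z₁))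
    convert this using 1
    simp only [eval₂_add, eval₂_mul, eval₂_sub, eval₂_C, map_mul]
    ring
  · have := dvd_add (hQ₂.mul_left (φ₂ d₁ * φ₂ D))
      (he₂.mul_left (φ₂ d₁ * Q₂.eval₂ φ₂ z₂ - φ₂ d₂ * Q₁.eval₂ φ₂ z₂))
    convert this using 1
    simp only [eval₂_add, eval₂_mul, eval₂_sub, eval₂_C, map_mul]
    ring

end Fermat.Agent.AtP
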