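import Fermat.Agent.AtP.GlueTrace
import Fermat.Agent.AtP.AssemblyFactor
import Fermat.Agent.AtP.GlueLift
import Fermat.Agent.Carayol.Local.Series
import Fermat.Agent.KummerES.GluingSeries
import Mathlib.GroupTheory.MonoidLocalization.UniqueFactorization
import Mathlib.RingTheory.DiscreteValuationRing.Basic
import Mathlib.RingTheory.AdicCompletion.Basic
import Mathlib.RingTheory.PowerSeries.Inverse

/-!
# Exact `p`-th roots of series

Over a complete discrete valuation ring with `p = π ^ p μ`, a unit series which, after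
multiplication by series nonzero modulo `π`, is a `p`-th power modulo every power of `π` is a
`p`-th power.
-/

set_option autoImplicit false

noncomputable section

open PowerSeries (C map)
open IsLocalRing (residue ResidueField)

namespace Fermat.Agent.AtP.Glue

variable {B : Type} [CommRing B] [IsDomain B] [IsLocalRing B] {π : B}
  (hmax : IsLocalRing.maximalIdeal B = Ideal.span {π})

omit [IsDomain B] in
include hmax in
/-- The kernel of the reduction is generated by `π`. -/
lemma residue_eq_zero_iff_dvd_of_max (b : B) : residue B b = 0 ↔ π ∣ b := by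
  rw [IsLocalRing.residue_eq_zero_iff, hmax, Ideal.mem_span_singleton]

omit [IsDomain B] in
include hmax in
lemma C_dvd_iff_map_residue (s : PowerSeries B) : C π ∣ s ↔ map (residue B) s = 0 := by
  constructor
  · rintro ⟨t, rfl⟩
    rw [map_mul, PowerSeries.map_C, (residue_eq_zero_iff_dvd_of_max hmax π).2 dvd_rfl, map_zero,
      zero_mul]
  · intro h
    choose c hc using fun n => (residue_eq_zero_iff_dvd_of_max hmax (PowerSeries.coeff n s)).1
      (by simpa using congrArg (PowerSeries.coeff n) h)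
    exact ⟨PowerSeries.mk c, PowerSeries.ext fun n => by simp [hc]⟩

omit [IsDomain B] [IsLocalRing B] in
/-- Divisibility by `π ^ n` of a series is coefficientwise. -/
lemma C_pow_dvd_iff (n : ℕ) (s : PowerSeries B) :
    C π ^ n ∣ s ↔ ∀ i, π ^ n ∣ PowerSeries.coeff i s := by
  rw [← map_pow]
  constructor
  · rintro ⟨t, rfl⟩ i
    exact ⟨PowerSeries.coeff i t, by rw [PowerSeries.coeff_C_mul]⟩
  · intro h
    choose c hc using h
    exact ⟨PowerSeries.mk c, PowerSeries.ext fun i => by
      rw [PowerSeries.coeff_C_mul, PowerSeries.coeff_mk, hc]⟩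

variable (hπ : π ≠ 0) {p : ℕ} (hp : p.Prime) (hp2 : p ≠ 2) {μ : B} (hμ : IsUnit μ)
  (hpB : (p : B) = π ^ p * μ)

omit [IsDomain B] in
include hmax hπ in
/-- `π` is prime in the power series. -/
lemma prime_C_powerSeries : Prime (C π : PowerSeries B) := by
  refine ⟨fun h => hπ (by simpa using congrArg PowerSeries.constantCoeff h), fun h => ?_,
    fun a b h => ?_⟩
  · have h1 := (C_dvd_iff_map_residue hmax 1).1 h.dvd
    rw [map_one] at h1
    exact one_ne_zero h1
  · simp only [C_dvd_iff_map_residue hmax, map_mul] at h ⊢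
    exact mul_eq_zero.1 h

include hmax hπ hp hp2 hμ hpB

/-- An approximate root `Q / D` is a series modulo `π ^ j`. -/
theorem exists_sub_mul_series {u Q D : PowerSeries B} (hu : IsUnit u) (hD : ¬ C π ∣ D) {R : ℕ}
    (h : C π ^ R ∣ D ^ p * u - Q ^ p) : ∀ j, j + p ≤ R → ∃ w, C π ^ j ∣ Q - D * w := by
  have hp3 : 3 ≤ p := by have := hp.two_le; omega
  set r := map (residue B) with hr
  have hP := prime_C_powerSeries hmax hπ
  have hrD : r D ≠ 0 := fun h0 => hD ((C_dvd_iff_map_residue hmax D).2 h0)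
  have hru : IsUnit (r u) := hu.map r
  have hru' := hru.ne_zero
  have hsurj : Function.Surjective r := PowerSeries.map_surjective _ IsLocalRing.residue_surjective
  have hrC : ∀ x, r (C π * x) = 0 := fun x => (C_dvd_iff_map_residue hmax _).1 (dvd_mul_right _ _)
  intro j
  induction j with
  | zero => exact fun _ => ⟨0, by simp⟩
  | succ j ih =>
    intro hj
    obtain ⟨w, δ, hw⟩ := ih (by omega)
    suffices r D ∣ r δ by
      obtain ⟨ε', hε⟩ := this
      obtain ⟨ε, rfl⟩ := hsurj ε'
      refine ⟨w + C π ^ j * ε, ?_⟩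
      rw [show Q - D * (w + C π ^ j * ε) = C π ^ j * (δ - D * ε) by linear_combination hw, pow_succ]
      exact mul_dvd_mul_left _ ((C_dvd_iff_map_residue hmax _).2 (by
        rw [map_sub, map_mul, ← hr, hε, sub_self]))
    rcases Nat.eq_zero_or_pos j with rfl | hjpos
    · have h1 := (C_dvd_iff_map_residue hmax _).1 ((dvd_pow_self (C π) (by omega : R ≠ 0)).trans h)
      rw [map_sub, sub_eq_zero, map_mul, map_pow, map_pow] at h1
      have h2 : r D ∣ r Q := (IsIntegrallyClosed.pow_dvd_pow_iff hp.ne_zero).1 (h1 ▸ dvd_mul_right _ _)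
      rw [pow_zero, one_mul] at hw
      rw [← hw, map_sub, map_mul]
      exact dvd_sub h2 (dvd_mul_right _ _)
    obtain ⟨t, ht⟩ := add_pow_prime_eq_sq hp (D * w) (C π ^ j * δ)
    rw [← hw, add_sub_cancel, hw, show (p : PowerSeries B) = C π ^ p * C μ by
      rw [← map_natCast (C (R := B)), hpB, map_mul, map_pow]] at ht
    rcases (show j = 1 ∨ 2 ≤ j by omega) with rfl | hj2
    · -- `D ^ p (u - w ^ p) ≡ π ^ p δ ^ p`
      have h1 : C π ^ (p + 1) ∣ D ^ p * (u - w ^ p) - C π ^ p * δ ^ p := by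
        have e : D ^ p * (u - w ^ p) - C π ^ p * δ ^ p = (D ^ p * u - Q ^ p) +
            C π ^ p * C μ * ((D * w) ^ (p - 1) * (C π ^ 1 * δ) + (C π ^ 1 * δ) ^ 2 * t) := by
          rw [ht]; ring
        rw [e]
        exact dvd_add ((pow_dvd_pow _ (by omega)).trans h)
          ⟨C μ * ((D * w) ^ (p - 1) * δ + C π * δ ^ 2 * t), by ring⟩
      obtain ⟨η, hη⟩ : C π ^ p ∣ u - w ^ p := by
        refine hP.pow_dvd_of_dvd_mul_left p (a := D ^ p) (fun hd => hD (hP.dvd_of_dvd_pow hd)) ?_
        have := dvd_add ((pow_dvd_pow _ p.le_succ).trans h1) (dvd_mul_right (C π ^ p) (δ ^ p))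
        rwa [sub_add_cancel] at this
      rw [hη, mul_left_comm, ← mul_sub, pow_succ,
        mul_dvd_mul_iff_left (pow_ne_zero _ hP.ne_zero), C_dvd_iff_map_residue hmax, map_sub,
        map_mul, map_pow, map_pow, sub_eq_zero] at h1
      exact (IsIntegrallyClosed.pow_dvd_pow_iff hp.ne_zero).1 (h1 ▸ dvd_mul_right _ _)
    · -- `D ^ p (u - w ^ p) ≡ π ^ (p + j) μ (D w) ^ (p - 1) δ`
      have hexp : j + p + 1 ≤ j * p := by nlinarith
      have h1 : C π ^ (p + j + 1) ∣
          D ^ p * (u - w ^ p) - C π ^ (p + j) * (C μ * (D * w) ^ (p - 1) * δ) := by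
        have e : D ^ p * (u - w ^ p) - C π ^ (p + j) * (C μ * (D * w) ^ (p - 1) * δ) =
            (D ^ p * u - Q ^ p) + C π ^ (j * p) * δ ^ p +
              C π ^ (p + (j + j)) * (C μ * δ ^ 2 * t) := by
          rw [ht, pow_add, pow_add, pow_add, pow_mul]; ring
        rw [e]
        exact dvd_add (dvd_add ((pow_dvd_pow _ (by omega)).trans h)
          ((pow_dvd_pow _ (by omega)).mul_right _)) ((pow_dvd_pow _ (by omega)).mul_right _)
      obtain ⟨η, hη⟩ : C π ^ (p + j) ∣ u - w ^ p := by
        refine hP.pow_dvd_of_dvd_mul_left _ (a := D ^ p) (fun hd => hD (hP.dvd_of_dvd_pow hd)) ?_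
        have := dvd_add ((pow_dvd_pow _ (p + j).le_succ).trans h1)
          (dvd_mul_right (C π ^ (p + j)) (C μ * (D * w) ^ (p - 1) * δ))
        rwa [sub_add_cancel] at this
      rw [hη, mul_left_comm, ← mul_sub, pow_succ,
        mul_dvd_mul_iff_left (pow_ne_zero _ hP.ne_zero), C_dvd_iff_map_residue hmax, map_sub,
        map_mul, map_mul, map_mul, map_pow, map_pow, map_mul, sub_eq_zero, mul_pow] at h1
      have hμ' : IsUnit (r (C μ)) := (hμ.map C).map r
      have hw' : IsUnit (r w) := by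
        have h2 : r u = r w ^ p := by
          have := congrArg r hη
          rwa [map_sub, map_mul, map_pow, map_pow, show r (C π) = 0 by simpa using hrC 1,
            zero_pow (by omega), zero_mul, sub_eq_zero] at this
        exact (isUnit_pow_iff hp.ne_zero).1 (h2 ▸ hru)
      have h3 : r D * r η = r (C μ) * r w ^ (p - 1) * r δ := by
        refine mul_left_cancel₀ (pow_ne_zero (p - 1) hrD) ?_
        rw [show r D ^ p = r D ^ (p - 1) * r D by rw [← pow_succ, Nat.sub_add_cancel hp.one_le]] at h1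
        linear_combination h1
      exact (hμ'.mul (hw'.pow (p - 1))).dvd_mul_left.1 (h3 ▸ dvd_mul_right _ _)

variable [IsAdicComplete (IsLocalRing.maximalIdeal B) B]

/-- **A unit series with approximate roots is a `p`-th power.** -/
theorem exists_powerSeries_root {u : PowerSeries B} (hu : IsUnit u)
    (h : ∀ R, ∃ Q D, ¬ C π ∣ D ∧ C π ^ R ∣ D ^ p * u - Q ^ p) : ∃ v, v ^ p = u := by
  have hP := prime_C_powerSeries hmax hπ
  have hμ' : ¬ C π ∣ C μ := fun h1 => hP.not_isUnit (isUnit_of_dvd_unit h1 (hμ.map C))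
  have hpS : (p : PowerSeries B) = C π ^ p * C μ := by
    rw [← map_natCast (C (R := B)), hpB, map_mul, map_pow]
  have key : ∀ n, ∃ w, C π ^ n ∣ u - w ^ p := fun n => by
    obtain ⟨Q, D, hD, hQ⟩ := h (n + p)
    obtain ⟨w, hw⟩ := exists_sub_mul_series hmax hπ hp hp2 hμ hpB hu hD hQ n le_rfl
    refine ⟨w, hP.pow_dvd_of_dvd_mul_left n (fun hd => hD (hP.dvd_of_dvd_pow hd)) (a := D ^ p) ?_⟩
    have := dvd_add ((pow_dvd_pow _ (Nat.le_add_right n p)).trans hQ)
      (hw.trans (sub_dvd_pow_sub_pow _ _ p))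
    convert this using 1
    ring
  choose w hw using key
  have hwu : ∀ n, 1 ≤ n → ¬ C π ∣ w n := fun n hn hd => by
    refine hP.not_isUnit (isUnit_of_dvd_unit ?_ hu)
    have := dvd_add ((dvd_pow_self (C π) (by omega : n ≠ 0)).trans (hw n))
      (hd.trans (dvd_pow_self _ hp.ne_zero))
    rwa [sub_add_cancel] at this
  have hcomp : ∀ n m, n ≤ m → C π ^ n ∣ w (n + p) - w (m + p) := fun n m hnm => by
    have h1 := pow_dvd_sub_of_pow_dvd_pow_sub_unit hp hp2 hP hpS hμ'
      (hwu _ (by have := hp.one_le; omega)) (n := n + p) (b := w (m + p))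
      (a := w (n + p)) (by
        have := dvd_sub ((pow_dvd_pow _ (Nat.add_le_add_right hnm p)).trans (hw (m + p))) (hw (n + p))
        rwa [sub_sub_sub_cancel_left] at this)
    rwa [Nat.add_sub_cancel] at h1
  have hI : ∀ (n : ℕ) (x : B),
      x ∈ (IsLocalRing.maximalIdeal B ^ n • ⊤ : Submodule B B) ↔ π ^ n ∣ x := fun n x => by
    rw [smul_eq_mul, Ideal.mul_top, hmax, Ideal.span_singleton_pow, Ideal.mem_span_singleton]
  choose L hL using fun i => IsPrecomplete.prec (I := IsLocalRing.maximalIdeal B) inferInstance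
    (f := fun n => PowerSeries.coeff i (w (n + p))) fun {a b} hab => by
      rw [SModEq.sub_mem, hI]
      simpa using (C_pow_dvd_iff _ _).1 (hcomp a b hab) i
  refine ⟨PowerSeries.mk L, sub_eq_zero.1 (PowerSeries.ext fun i => ?_)⟩
  refine IsHausdorff.haus (I := IsLocalRing.maximalIdeal B) inferInstance _ fun n => ?_
  rw [SModEq.zero, hI]
  refine (C_pow_dvd_iff n _).1 ?_ i
  have h1 : C π ^ n ∣ PowerSeries.mk L - w (n + p) := (C_pow_dvd_iff _ _).2 fun i => by
    have := hL i n
    rw [SModEq.sub_mem, hI] at this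
    simpa using (dvd_neg.2 this)
  have := dvd_sub (h1.trans (sub_dvd_pow_sub_pow _ _ p))
    ((pow_dvd_pow _ (Nat.le_add_right n p)).trans (hw (n + p)))
  convert this using 1
  ring

end Fermat.Agent.AtP.Glue

namespace Fermat.Agent.AtP.Glue

open HahnSeries (ofPowerSeries single)

/-- Laurent series over a principal ideal domain form a factorial ring. -/
theorem uniqueFactorizationMonoid_laurentSeries (O : Type) [CommRing O] [IsDomain O]
    [IsPrincipalIdealRing O] : UniqueFactorizationMonoid (LaurentSeries O) :=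
  UniqueFactorizationMonoid.of_isLocalization
    (S := Submonoid.powers (PowerSeries.X : PowerSeries O)) (LaurentSeries O)

/-- After a large shift a Laurent series is a power series. -/
lemma exists_shift {R : Type*} [CommRing R] (s : LaurentSeries R) :
    ∃ T₀ : ℤ, ∀ T, T₀ ≤ T → ∃ f : PowerSeries R, single T (1 : R) * s = ofPowerSeries ℤ R f := by
  refine ⟨-s.order, fun T hT => ⟨PowerSeries.X ^ (T + s.order).toNat * s.powerSeriesPart, ?_⟩⟩
  conv_lhs => rw [← LaurentSeries.single_order_mul_powerSeriesPart s]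
  rw [← mul_assoc, HahnSeries.single_mul_single, one_mul, map_mul, HahnSeries.ofPowerSeries_X_pow,
    Int.toNat_of_nonneg (by omega)]

lemma C_pow_dvd_of_ofPowerSeries {R : Type*} [CommRing R] {π : R} {n : ℕ} {s : PowerSeries R}
    (h : HahnSeries.C π ^ n ∣ ofPowerSeries ℤ R s) : C π ^ n ∣ s := by
  obtain ⟨t, ht⟩ := h
  rw [← map_pow, HahnSeries.C_mul_eq_smul] at ht
  rw [← map_pow]
  refine ⟨PowerSeries.mk fun i => t.coeff i, PowerSeries.ext fun i => ?_⟩
  have := congrArg (fun z : LaurentSeries R => z.coeff (i : ℤ)) ht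
  rw [PowerSeries.coeff_C_mul, PowerSeries.coeff_mk]
  simpa [HahnSeries.ofPowerSeries_apply_coeff] using this

variable {B : Type} [CommRing B] [IsDomain B] [IsPrincipalIdealRing B] [IsLocalRing B] {π : B}
  (hmax : IsLocalRing.maximalIdeal B = Ideal.span {π}) (hπ : π ≠ 0) {p : ℕ} (hp : p.Prime)
  (hp2 : p ≠ 2) {μ : B} (hμ : IsUnit μ) (hpB : (p : B) = π ^ p * μ)
  [IsAdicComplete (IsLocalRing.maximalIdeal B) B]

include hmax hπ hp hp2 hμ hpB

omit [IsPrincipalIdealRing B] in
/-- A unit Laurent series with approximate roots is a `p`-th power. -/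
theorem exists_laurent_root {u : LaurentSeries B} (hu : IsUnit u)
    (h : ∀ R, ∃ Q D, ¬ HahnSeries.C π ∣ D ∧ HahnSeries.C π ^ R ∣ D ^ p * u - Q ^ p) :
    ∃ v, v ^ p = u := by
  obtain ⟨v, hv⟩ := hu.exists_right_inv
  have hu0 : u ≠ 0 := left_ne_zero_of_mul_eq_one hv
  have hlead : IsUnit u.leadingCoeff := by
    refine IsUnit.of_mul_eq_one v.leadingCoeff ?_
    rw [← HahnSeries.leadingCoeff_mul, hv, HahnSeries.leadingCoeff_one]
  set m := u.order with hm
  set f := u.powerSeriesPart
  have hf : IsUnit f := by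
    rw [PowerSeries.isUnit_iff_constantCoeff]
    simpa [f, ← PowerSeries.coeff_zero_eq_constantCoeff_apply, LaurentSeries.powerSeriesPart_coeff,
      HahnSeries.leadingCoeff_eq] using hlead
  have hdiv : (p : ℤ) ∣ m := by
    obtain ⟨Q, D, hD, hQ⟩ := h 1
    set r := ModularCurve.coeffMap (residue B) with hr
    have hres : ∀ b, residue B b = 0 ↔ π ∣ b := residue_eq_zero_iff_dvd_of_max hmax
    obtain ⟨t, ht⟩ := hQ
    have h1 := congrArg r ht
    rw [pow_one, map_mul _ (HahnSeries.C π), hr, HahnSeries.C_apply, ModularCurve.coeffMap_single,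
      (hres π).2 dvd_rfl, HahnSeries.single_eq_zero, zero_mul, ← hr, map_sub, map_mul, map_pow,
      map_pow, sub_eq_zero] at h1
    have hrD : r D ≠ 0 := fun h0 =>
      hD ((KummerES.C_dvd_iff_residue_eq_zero hmax hπ D).2 h0)
    have hru : r u ≠ 0 := (hu.map r).ne_zero
    have hord : (r u).order = m := by
      refine le_antisymm (HahnSeries.order_le_of_coeff_ne_zero ?_) ?_
      · rw [hr, ModularCurve.coeffMap_coeff, hm, ← HahnSeries.leadingCoeff_eq]
        exact (hlead.map (residue B)).ne_zero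
      · refine not_lt.1 fun hlt => mt HahnSeries.coeff_order_eq_zero.1 hru ?_
        rw [hr, ModularCurve.coeffMap_coeff, HahnSeries.coeff_eq_zero_of_lt_order hlt, map_zero]
    have h2 := congrArg HahnSeries.order h1
    rw [HahnSeries.order_mul (pow_ne_zero _ hrD) hru, HahnSeries.order_pow, HahnSeries.order_pow,
      hord, nsmul_eq_mul, nsmul_eq_mul] at h2
    exact ⟨(r Q).order - (r D).order, by linear_combination h2⟩
  obtain ⟨k, hk⟩ := hdiv
  obtain ⟨g, hg⟩ := exists_powerSeries_root hmax hπ hp hp2 hμ hpB hf fun R => by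
    obtain ⟨Q, D, hD, hQ⟩ := h R
    obtain ⟨a, ha⟩ := exists_shift D
    obtain ⟨b, hb⟩ := exists_shift Q
    set T := max a (b + k) with hT
    obtain ⟨D', hD'⟩ := ha T (le_max_left _ _)
    obtain ⟨Q', hQ'⟩ := hb (T - k) (by have := le_max_right a (b + k); omega)
    refine ⟨Q', D', fun hd => hD ?_, C_pow_dvd_of_ofPowerSeries ?_⟩
    · have h1 := map_dvd (ofPowerSeries ℤ B) hd
      rw [HahnSeries.ofPowerSeries_C, ← hD'] at h1
      have h2 := h1.mul_left (single (-T) (1 : B))
      rwa [← mul_assoc, HahnSeries.single_mul_single, neg_add_cancel, one_mul,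
        HahnSeries.single_zero_one, one_mul] at h2
    · rw [map_sub, map_mul, map_pow, map_pow, ← hD', ← hQ', mul_pow, mul_pow,
        HahnSeries.single_pow, HahnSeries.single_pow, one_pow, mul_assoc,
        show ofPowerSeries ℤ B f = single (-m) (1 : B) * u by
          conv_rhs => rw [← LaurentSeries.single_order_mul_powerSeriesPart u]
          rw [← mul_assoc, HahnSeries.single_mul_single, neg_add_cancel, one_mul,
            HahnSeries.single_zero_one, one_mul],
        show (p • (T - k) : ℤ) = p • T + -m by rw [hk, nsmul_eq_mul, nsmul_eq_mul]; ring,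
        show single (p • T + -m) (1 : B) = single (p • T) 1 * single (-m) 1 by
          rw [HahnSeries.single_mul_single, one_mul]]
      convert hQ.mul_left (single (p • T) (1 : B) * single (-m) 1) using 1
      ring
  refine ⟨single k 1 * ofPowerSeries ℤ B g, ?_⟩
  rw [mul_pow, ← map_pow (ofPowerSeries ℤ B), hg, HahnSeries.single_pow, one_pow, nsmul_eq_mul, ← hk]
  exact LaurentSeries.single_order_mul_powerSeriesPart u

/-- **Exact roots** from a certificate and approximants. -/
theorem exists_series_root {x x₀ : LaurentSeries B} {w : ℕ}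
    (hx : x = HahnSeries.C π ^ (p * w) * x₀) (hx₀ : ¬ HahnSeries.C π ∣ x₀)
    (hC : Prime (HahnSeries.C π : LaurentSeries B)) {m N₀ : ℕ}
    {A D Cc : Fin m → LaurentSeries B} (he : ∀ j, A j ^ p = D j * x)
    (hsum : ∑ j, Cc j * D j = HahnSeries.C π ^ N₀)
    (happ : ∀ R, ∃ Q d, ¬ HahnSeries.C π ∣ d ∧ HahnSeries.C π ^ R ∣ d ^ p * x - Q ^ p) :
    ∃ G, G ^ p = x ∧ ¬ HahnSeries.C π ^ (w + 1) ∣ G := by
  have := uniqueFactorizationMonoid_laurentSeries B
  have := Carayol.Local.isIntegrallyClosed_laurentSeries B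
  have hP : ∀ P : LaurentSeries B, Prime P → ¬ P ∣ HahnSeries.C π → ∀ k : ℕ,
      ¬ P ∣ HahnSeries.C π ^ k := fun P hP h k hd => h (hP.dvd_of_dvd_pow hd)
  obtain ⟨u, G, hu, hG⟩ := exists_eq_unit_mul_pow hC hp.ne_zero hx₀
    (α := HahnSeries.C π ^ (p * w)) (β := 1) (fun P h1 h2 _ => hP P h1 h2 _)
    (fun P h1 _ _ h3 => h1.not_isUnit (isUnit_of_dvd_one h3)) (fun P h1 h2 _ => hP P h1 h2 _)
    (fun j => by rw [one_mul, he j, hx]; ring) hsum
  obtain ⟨v, hv⟩ := exists_laurent_root hmax hπ hp hp2 hμ hpB hu fun R => by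
    obtain ⟨Q, d, hd, hQ⟩ := happ (R + p * w)
    obtain ⟨Q', rfl⟩ : HahnSeries.C π ^ w ∣ Q := by
      refine (IsIntegrallyClosed.pow_dvd_pow_iff hp.ne_zero).1 ?_
      rw [← pow_mul, mul_comm w p]
      have := dvd_sub (show HahnSeries.C π ^ (p * w) ∣ d ^ p * x from
        hx ▸ (dvd_mul_right _ _).mul_left _) ((pow_dvd_pow _ (Nat.le_add_left _ R)).trans hQ)
      rwa [sub_sub_cancel] at this
    refine ⟨Q', d * G, hC.not_dvd_mul hd fun h => hx₀ ?_,
      (mul_dvd_mul_iff_left (pow_ne_zero (p * w) hC.ne_zero)).1 ?_⟩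
    · rw [hG]
      exact (h.trans (dvd_pow_self _ hp.ne_zero)).mul_left _
    · rw [← pow_add, add_comm]
      convert hQ using 1
      rw [hx, hG, mul_pow, mul_pow, ← pow_mul, mul_comm w p]
      ring
  refine ⟨HahnSeries.C π ^ w * (v * G), ?_, fun hd => hx₀ ?_⟩
  · rw [hx, hG, mul_pow, mul_pow, hv, ← pow_mul, mul_comm w p]
  · rw [pow_succ, mul_dvd_mul_iff_left (pow_ne_zero w hC.ne_zero)] at hd
    rw [hG, ← hv, ← mul_pow]
    exact hd.trans (dvd_pow_self _ hp.ne_zero)

end Fermat.Agent.AtP.Glue
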