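import Fermat.Agent.AtP.GlueCusp
import Fermat.Agent.AtP.GlueBranch
import Fermat.Agent.AtP.GlueRoot
import Fermat.Agent.AtP.GlueEnd
import Fermat.Agent.AtP.GlueApprox
import Fermat.Agent.AtP.AssemblyCertificate

/-!
# Gluing: if the reduction of `f₁` is a `p`-th power, the root has level `Γ₀(p) ∩ Γ(2 M)`

The exact roots at the cusps come from the certificate and the approximants; their traces, with
those at the points, are functions of level `2 M`, and the dual basis gives the root back.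
-/

set_option autoImplicit false

noncomputable section

open UpperHalfPlane CongruenceSubgroup
open Polynomial hiding comp
open scoped MatrixGroups Manifold
open Fermat.Agent.KummerES
open ModularCurve (qExpand coeffMap)
open IsLocalRing (residue ResidueField)

namespace Fermat.Agent.AtP

variable {p : ℕ} [hp : Fact p.Prime]

namespace Coeff

attribute [local instance] isDomain_LRing

variable (C : Coeff p) {M : ℕ} [NeZero M] (hp2 : p ≠ 2) (hpM : ¬ p ∣ M)

/-- Smallness on the branch `k`. -/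
def glueSm (k : Fin 2) (n : ℕ) (e : C.glueRing M) : Prop :=
  HahnSeries.C C.unif ^ n ∣ C.brExt hp2 hpM 1 k e

/-- The modular polynomial over level `2 M` has degree `p + 1`. -/
theorem natDegree_lamV : (C.lamV (M := M) hp2 hpM).natDegree = p + 1 := by
  rw [lamV, (lamPoly_monic hp2).natDegree_map, natDegree_lamPoly hp2]

omit hp in
theorem natCast_eq_C_unif_pow :
    (p : LaurentSeries C.B) = HahnSeries.C C.unif ^ p * HahnSeries.C C.mu := by
  rw [← map_natCast (HahnSeries.C : C.B →+* LaurentSeries C.B), C.p_eq, map_mul, map_pow]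

include hp2 hpM in
theorem not_dvd_C_mu : ¬ HahnSeries.C C.unif ∣ (HahnSeries.C C.mu : LaurentSeries C.B) := fun h =>
  (C.prime_C_unif (M := M) hp2 hpM).not_isUnit (isUnit_of_dvd_unit h (C.mu_isUnit.map HahnSeries.C))

theorem exists_coeff_lamL_ne_zero (δ : SL(2, ℤ)) :
    ∃ i : ℤ, ¬ (p : ℤ) ∣ i ∧ (expB (2 * M) C.B δ (C.lamL hp2 hpM)).coeff i ≠ 0 := by
  have := C.charP
  by_contra h
  push Not at h
  refine C.thetaOp_residue_lamL hp2 hpM δ (HahnSeries.ext (funext fun i => ?_))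
  rw [thetaOp_coeff, HahnSeries.coeff_zero]
  by_cases hi : (p : ℤ) ∣ i
  · rw [(CharP.intCast_eq_zero_iff (ResidueField C.B) p i).2 hi, zero_mul]
  · rw [ModularCurve.coeffMap_coeff, h i hi, map_zero, mul_zero]

/-- The trace on the two branches at a cusp. -/
def cuspTau : LaurentSeries C.B × LaurentSeries C.B →+ LaurentSeries C.B :=
  AddMonoidHom.fst _ _ + (Glue.traceContract C.B p).comp (AddMonoidHom.snd _ _)

theorem cuspTau_apply (x : LaurentSeries C.B × LaurentSeries C.B) :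
    C.cuspTau x = x.1 + Glue.traceContract C.B p x.2 := rfl

/-- **Exact roots on both branches at a cusp give trace values there.** -/
theorem isTraceVals_cusp (δ : SL(2, ℤ)) {f : C.glueRing M} {w : ℕ}
    {G : LaurentSeries C.B × LaurentSeries C.B}
    (h₀ : G.1 ^ p = C.brExt hp2 hpM δ 0 f) (h₁ : G.2 ^ p = C.brExt hp2 hpM δ 1 f)
    (hw₀ : ¬ HahnSeries.C C.unif ^ (w + 1) ∣ G.1) (hw₁ : ¬ HahnSeries.C C.unif ^ (w + 1) ∣ G.2) :
    Glue.IsTraceVals p (C.glueMap M) (C.glueGen hp2 hpM) f (C.piA M) (C.lamV hp2 hpM)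
      (C.glueSm hp2 hpM) (expB (2 * M) C.B δ)
      (fun j => C.cuspTau (G * ((C.brExt hp2 hpM δ 0).prod (C.brExt hp2 hpM δ 1))
        (C.glueGen hp2 hpM) ^ j)) (p + p * w) := by
  set P : LaurentSeries C.B := HahnSeries.C C.unif
  have hP := C.prime_C_unif (M := M) hp2 hpM
  refine Glue.isTraceVals_of_root hp.out hp2
    ((RingHom.id _).prod (qExpand C.B p)) C.cuspTau (fun a x => ?_)
    ((C.brExt hp2 hpM δ 0).prod (C.brExt hp2 hpM δ 1)) (fun a => ?_) (fun Q => ?_)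
    (G := G) ?_ (T := fun _ : Fin 2 => LaurentSeries C.B)
    ![RingHom.fst _ _, RingHom.snd _ _] (fun _ => P) (fun _ => HahnSeries.C C.mu) (fun _ => hP)
    (fun _ => C.natCast_eq_C_unif_pow) (fun _ => C.not_dvd_C_mu (M := M) hp2 hpM)
    (fun k a ha => ?_) (fun k => ?_) (fun n x hx => ?_) id (fun k n x hx => ?_)
  · simp only [cuspTau_apply, RingHom.prod_apply, RingHom.id_apply, Prod.fst_mul, Prod.snd_mul,
      Glue.traceContract_qExpand_mul, mul_add]
  · simp only [RingHom.prod_apply, brExt_glueMap, RingHom.id_apply]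
    rfl
  · simp only [cuspTau_apply, RingHom.prod_apply, brExt_eval₂]
    exact Glue.polyTrace_cusp (expB (2 * M) C.B δ) (C.lamV_monic hp2 hpM)
      (C.natDegree_lamV hp2 hpM) (C.brRoot_root hp2 hpM δ 0) (C.brRoot_root hp2 hpM δ 1)
      (C.exists_coeff_lamL_ne_zero hp2 hpM δ) Q
  · exact Prod.ext h₀.symm h₁.symm
  · refine C.piA_dvd_of_brHom hp2 hpM (δ := δ) (k := k) ?_
    fin_cases k <;> exact ha
  · fin_cases k
    · exact hw₀
    · exact hw₁
  · obtain ⟨a, ha⟩ := hx 0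
    obtain ⟨b, hb⟩ := hx 1
    refine ⟨(a, b), ?_⟩
    rw [RingHom.prod_apply, RingHom.id_apply, C.expB_piA,
      show qExpand C.B p (HahnSeries.C C.unif) = P by
        rw [HahnSeries.C_apply, ModularCurve.qExpand_single, mul_zero]; rfl, Prod.pow_mk,
      Prod.mk_mul_mk]
    exact Prod.ext ha hb
  · have h := C.pow_dvd_brExt hp2 hpM (δ' := δ) hx
    fin_cases k <;> exact h

/-- The derivative of the modular polynomial is not divisible by `ϖ` at its root. -/
theorem not_dvd_derivative_lamV (δ : SL(2, ℤ)) :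
    ¬ HahnSeries.C C.unif ∣
      (C.lamV hp2 hpM).derivative.eval₂ (C.brHom δ 0) (C.brRoot hp2 hpM δ 0) := by
  set φ := C.brHom (M := M) δ 0
  set z := C.brRoot hp2 hpM δ 0
  set G := C.brFactor (M := M) hp2 hpM 0 with hGdef
  set W := C.brCofactor (M := M) hp2 hpM 0
  obtain ⟨H, hH⟩ := C.exists_brFactor_eq hp2 hpM (0 : Fin 2)
  have hP := C.prime_C_unif (M := M) hp2 hpM
  have hW := C.not_dvd_brCofactor hp2 hpM δ 0
  have hG : HahnSeries.C C.unif ∣ G.eval₂ φ z := by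
    refine (hP.dvd_or_dvd ⟨H.eval₂ φ z, ?_⟩).resolve_left hW
    rw [← eval₂_mul, hH, eval₂_add, C.brRoot_root hp2 hpM δ 0, zero_add, eval₂_mul, eval₂_C,
      C.brHom_piA]
  intro h
  refine hW ?_
  have hd := congrArg (fun Q => eval₂ φ z (derivative Q)) hH
  have hG' : derivative G = 1 := by
    simp only [hGdef, brFactor, Matrix.cons_val_zero, derivative_X_sub_C]
  simp only [derivative_mul, derivative_add, derivative_C, zero_mul, zero_add, eval₂_add,
    eval₂_mul, eval₂_C] at hd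
  rw [show derivative (C.brFactor hp2 hpM 0) = 1 from hG', eval₂_one, mul_one,
    C.brHom_piA] at hd
  rw [show (C.brCofactor hp2 hpM 0).eval₂ φ z = (C.lamV hp2 hpM).derivative.eval₂ φ z +
    HahnSeries.C C.unif * (derivative H).eval₂ φ z -
      (derivative W).eval₂ φ z * G.eval₂ φ z by linear_combination hd]
  exact dvd_sub (dvd_add h (dvd_mul_right _ _)) (hG.mul_left _)

/-- A polynomial in `λ (pτ)` over level `2 M` has level `Γ₀(p) ∩ Γ(2 M)`. -/
theorem polyFun_mem_levelP (hp2 : p ≠ 2) (P : (LRing (2 * M) C.B)[X]) :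
    (fun τ => P.eval₂ (C.evA M τ) (lamP p τ)) ∈ weak (levelP p (2 * M)) (p * (2 * M)) ⊤ := by
  induction P using Polynomial.induction_on' with
  | add P Q hP hQ => simp only [eval₂_add]; exact add_mem hP hQ
  | monomial n a =>
    simp only [eval₂_monomial]
    exact mul_mem (weak_mono le_rfl le_top (weak_Gamma_le_levelP _ a.2))
      (pow_mem (lamP_mem hp2 (Dvd.intro M rfl)) n)

end Coeff

namespace Setting

attribute [local instance] isDomain_LRing

variable {C : Coeff p} {M : ℕ} [NeZero M] (S : Setting C M) (hp2 : p ≠ 2) (hpM : ¬ p ∣ M)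

/-- At every point, in some disc, the approximate roots of `ϖ ^ N f₁` have traces congruent to
fixed values. -/
def HasPointTraces : Prop :=
  ∀ (N : ℕ) (f : C.glueRing M),
    (f : LaurentSeries ℂ) =
      coeffMap C.B.subtype (HahnSeries.C C.unif ^ N * qExpand C.B (2 * M) S.s₁) →
    p ∣ N → p * (S.j₁ - S.j₂).natAbs ≤ N →
    ∃ e : ℕ, ∀ s : LRing (2 * M) C.B →+* ResidueField C.B,
      Points.IsPoint (C.levelHyp hp2 hpM) s → ∃ ψ, Points.IsDisc (C.levelHyp hp2 hpM) s ψ ∧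
        ∃ t, Glue.IsTraceVals p (C.glueMap M) (C.glueGen hp2 hpM) f (C.piA M) (C.lamV hp2 hpM)
          (C.glueSm hp2 hpM) ψ t e

include hp2 hpM

/-- The expansions on the branches at `∞` of the scaled function. -/
theorem brExt_scaled {N₁ N₂ : ℕ} (hN : (N₂ : ℤ) = N₁ + S.j₁ - S.j₂) {f : C.glueRing M}
    (hf : (f : LaurentSeries ℂ) =
      coeffMap C.B.subtype (HahnSeries.C C.unif ^ (p * N₁) * qExpand C.B (2 * M) S.s₁)) :
    C.brExt hp2 hpM 1 0 f = HahnSeries.C C.unif ^ (p * N₁) * qExpand C.B (2 * M) S.s₁ ∧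
      C.brExt hp2 hpM 1 1 f = HahnSeries.C C.unif ^ (p * N₂) * qExpand C.B (2 * M) S.s₂ := by
  obtain ⟨D, P, hD, h₁, h₂⟩ := S.exists_rep hp2 hpM hN
  have hrel : C.expK M D * (f : LaurentSeries ℂ) =
      P.eval₂ (C.expK M) (expansion (2 * M) (lamP p)) := by
    rw [hf, ← C.coeffMap_lamPS' hp2 hpM, Coeff.expK, RingHom.comp_apply, ← map_mul, ← hom_eval₂]
    exact congrArg _ h₁
  refine ⟨C.coeffMap_subtype_injective' ((C.coeffMap_brExt_one_zero hp2 hpM f).trans hf),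
    mul_left_cancel₀ (fun h0 => hD (C.brHom_injective 1 1 (h0.trans (map_zero _).symm))) ?_⟩
  rw [C.brExt_spec hp2 hpM 1 1 hrel]
  exact h₂.symm

/-- The contents of the scaled function at a cusp. -/
theorem exists_content {N₁ N₂ : ℕ} (hN : (N₂ : ℤ) = N₁ + S.j₁ - S.j₂) {f : C.glueRing M}
    (hf : (f : LaurentSeries ℂ) =
      coeffMap C.B.subtype (HahnSeries.C C.unif ^ (p * N₁) * qExpand C.B (2 * M) S.s₁))
    (δ : SL(2, ℤ)) (k : Fin 2) :
    ∃ x₀ : LaurentSeries C.B, ¬ HahnSeries.C C.unif ∣ x₀ ∧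
      C.brExt hp2 hpM δ k f = HahnSeries.C C.unif ^ (p * ![N₁, N₂] k) * x₀ := by
  have hP := C.prime_C_unif (M := M) hp2 hpM
  obtain ⟨h₁, h₂⟩ := S.brExt_scaled hp2 hpM hN hf
  have hprim : ∀ {s : LaurentSeries C.B}, IsPrim C.unif s →
      ¬ HahnSeries.C C.unif ∣ qExpand C.B (2 * M) s := fun {s} ⟨i, hi⟩ hd => by
    rw [C.C_unif_dvd_iff, ModularCurve.coeffMap_qExpand,
      map_eq_zero_iff _ (ModularCurve.qExpand_injective _)] at hd
    refine hi ((Glue.residue_eq_zero_iff_dvd_of_max C.irred.maximalIdeal_eq _).1 ?_)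
    simpa using congrArg (fun t => t.coeff i) hd
  obtain ⟨t, ht, hk⟩ : ∃ t, ¬ HahnSeries.C C.unif ∣ t ∧
      C.brExt hp2 hpM 1 k f = HahnSeries.C C.unif ^ (p * ![N₁, N₂] k) * t := by
    fin_cases k
    · exact ⟨_, hprim S.prim₁, h₁⟩
    · exact ⟨_, hprim S.prim₂, h₂⟩
  obtain ⟨x₀, hx₀⟩ := C.pow_dvd_brExt hp2 hpM (δ' := δ) (Dvd.intro t hk.symm)
  refine ⟨x₀, fun hd => ht ?_, hx₀⟩
  have h := C.pow_dvd_brExt hp2 hpM (δ := δ) (δ' := 1) (n := p * ![N₁, N₂] k + 1) (k := k) (e := f)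
    (by rw [hx₀, pow_succ]; exact mul_dvd_mul_left _ hd)
  rw [hk, pow_succ] at h
  exact (mul_dvd_mul_iff_left (pow_ne_zero _ hP.ne_zero)).1 h

/-- **Gluing.** If the reduction of `s₁` is a `p`-th power then `g` has level `Γ₀(p) ∩ Γ(2 M)`. -/
theorem mem_levelP_of_pow (hres : ∃ w, coeffMap (residue C.B) S.s₁ = w ^ p)
    (hpts : S.HasPointTraces hp2 hpM) :
    S.g ∈ weak (levelP p (2 * M)) (p * (2 * M)) ⊤ := by
  have := C.charP
  obtain ⟨N, m, N₀, hNj, hpN, f, A, D, Cc, hf, hAD, hsum⟩ :=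
    S.exists_certificate_algElts hp2 hpM
  obtain ⟨e, hdisc⟩ := hpts N f hf hpN hNj
  obtain ⟨N₁, rfl⟩ := hpN
  have hNj' := Nat.le_of_mul_le_mul_left hNj hp.out.pos
  obtain ⟨N₂, hN⟩ : ∃ N₂ : ℕ, (N₂ : ℤ) = N₁ + S.j₁ - S.j₂ :=
    ⟨_, Int.toNat_of_nonneg (by omega)⟩
  obtain ⟨hf₀, hf₁⟩ := S.brExt_scaled hp2 hpM hN hf
  have hP := C.prime_C_unif (M := M) hp2 hpM
  -- approximants
  have happ : ∀ R, ∃ Q d, Glue.IsApprox p (C.glueMap M) (C.glueGen hp2 hpM) f (C.piA M)
      (C.glueSm hp2 hpM) R Q d := fun R => by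
    obtain ⟨Q, d, hd, h₁, h₂⟩ := S.exists_approx hp2 hpM hres hN R
    refine ⟨Q, d, hd, fun k => ?_⟩
    show _ ∣ C.brExt hp2 hpM 1 k _
    rw [map_sub, map_mul, map_pow, map_pow, C.brExt_glueMap, C.brExt_eval₂]
    fin_cases k
    · simp only [Fin.zero_eta, hf₀]
      exact h₁
    · simp only [Fin.mk_one, hf₁]
      exact h₂
  -- exact roots at the cusps
  have hroot : ∀ (δ : SL(2, ℤ)) (k : Fin 2), ∃ G : LaurentSeries C.B,
      G ^ p = C.brExt hp2 hpM δ k f ∧ ¬ HahnSeries.C C.unif ^ (max N₁ N₂ + 1) ∣ G := by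
    intro δ k
    obtain ⟨x₀, hx₀, hx⟩ := S.exists_content hp2 hpM hN hf δ k
    set θ := C.brExt hp2 hpM δ k
    obtain ⟨G, hG, hG'⟩ := Glue.exists_series_root C.irred.maximalIdeal_eq C.irred.ne_zero hp.out
      hp2 C.mu_isUnit C.p_eq hx hx₀ hP (A := fun j => θ (A j)) (D := fun j => θ (D j))
      (Cc := fun j => θ (Cc j)) (N₀ := N₀)
      (fun j => by rw [← map_pow, hAD, map_mul])
      (by
        simp only [← map_mul, ← map_sum, hsum]
        rw [← C.brHom_piA (M := M) δ k, ← map_pow]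
        exact C.brExt_glueMap hp2 hpM δ k (C.piA M ^ N₀))
      fun R => by
        obtain ⟨Q, d, hd, hQ⟩ := happ R
        refine ⟨θ (Q.eval₂ (C.glueMap M) (C.glueGen hp2 hpM)), θ (C.glueMap M d), fun h => hd ?_,
          ?_⟩
        · exact C.piA_dvd_of_brHom hp2 hpM (by rwa [← C.brExt_glueMap hp2 hpM δ k])
        · rw [← map_pow θ, ← map_mul θ, ← map_pow θ, ← map_sub θ]
          exact C.pow_dvd_brExt hp2 hpM (hQ k)
    refine ⟨G, hG, fun h => hG' ((pow_dvd_pow _ ?_).trans h)⟩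
    fin_cases k <;> simp
  choose G hG hG' using hroot
  set w := max N₁ N₂
  -- traces
  set θ := fun δ => (C.brExt hp2 hpM δ 0).prod (C.brExt hp2 hpM δ 1) with hθ
  obtain ⟨b, hb⟩ := Glue.exists_traces (C.levelHyp hp2 hpM) (C.coeffHyp (M := M) hp2 hpM)
    (f := f) (e := max e (p + p * w)) (V := C.lamV hp2 hpM) happ
    (fun s hs => by
      obtain ⟨ψ, hψ, t, ht⟩ := hdisc s hs
      exact ⟨ψ, hψ, t, fun R Q d hQ j => (pow_dvd_pow _ (Nat.sub_le_sub_left (le_max_left _ _) R)).trans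
        (ht R Q d hQ j)⟩)
    (fun δ j => C.cuspTau ((G δ 0, G δ 1) * θ δ (C.glueGen hp2 hpM) ^ j))
    (fun δ R Q d hQ j => (pow_dvd_pow _ (Nat.sub_le_sub_left (le_max_right _ _) R)).trans
      (C.isTraceVals_cusp hp2 hpM δ (G := (G δ 0, G δ 1)) (hG δ 0) (hG δ 1) (hG' δ 0) (hG' δ 1)
        R Q d hQ j))
  -- the dual basis at `∞`
  set V := C.lamV (M := M) hp2 hpM
  set φ := C.brHom (M := M) 1 0
  set z := C.brRoot hp2 hpM 1 0
  have hdual := Glue.sum_dualComb φ V (z := z) (C.brRoot_root hp2 hpM 1 0) (qExpand C.B p)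
    (Glue.traceContract C.B p) Glue.traceContract_qExpand_mul (Y := C.brRoot hp2 hpM 1 1)
    (C.brRoot_root hp2 hpM 1 1)
    (fun h => by
      refine C.thetaOp_residue_lamL hp2 hpM 1 ?_
      have h' := congrArg (coeffMap (residue C.B)) h
      rw [ModularCurve.coeffMap_qExpand] at h'
      rw [show expB (2 * M) C.B 1 (C.lamL hp2 hpM) = C.brRoot hp2 hpM 1 1 from rfl, h']
      exact Glue.thetaOp_qExpand_char _)
    (G 1 0) (G 1 1) (b := b) (fun j => by
      rw [show φ (b j) = _ from hb 1 j, Coeff.cuspTau_apply, Prod.fst_mul, Prod.snd_mul,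
        Prod.pow_fst, Prod.pow_snd]
      simp only [hθ, RingHom.prod_apply, C.brExt_glueGen]
      rfl)
  set P : (LRing (2 * M) C.B)[X] :=
    ∑ j ∈ Finset.range V.natDegree, Polynomial.C (Glue.dualComb V b j) * X ^ j
  have hP' : P.eval₂ φ z = G 1 0 * V.derivative.eval₂ φ z := by
    rw [← hdual, eval₂_finsetSum]
    simp
  -- back to functions
  set F : ℍ → ℂ := fun τ => P.eval₂ (C.evA M τ) (lamP p τ)
  set Dv : ℍ → ℂ := fun τ => V.derivative.eval₂ (C.evA M τ) (lamP p τ)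
  have hz : coeffMap C.B.subtype z = expansion (2 * M) (lamP p) := by
    have h := C.coeffMap_brExt_one_zero hp2 hpM (C.glueGen hp2 hpM)
    rwa [C.brExt_glueGen] at h
  have hexp : ∀ T : (LRing (2 * M) C.B)[X], HasExp (2 * M) (fun τ => T.eval₂ (C.evA M τ) (lamP p τ))
      (coeffMap C.B.subtype (T.eval₂ φ z)) := fun T => by
    rw [hom_eval₂, hz]
    exact C.hasExp_polyFun (Coeff.hasExp_lamP hp2) T
  set c : ℂ := (C.unif : ℂ) ^ (p * N₁) * S.c₁
  have hfexp : HasExp (2 * M) (fun τ => c * S.g τ ^ p)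
      (coeffMap C.B.subtype (C.brExt hp2 hpM 1 0 f)) := by
    rw [hf₀, coeffMap_C_pow_mul,
      show (fun τ => c * S.g τ ^ p) = (fun _ => (C.unif : ℂ) ^ (p * N₁)) * S.f₁ from
        funext fun τ => by simp [c, S.f₁_eq, mul_assoc]]
    exact (HasExp.const _).mul (S.hasExp_f₁ hp2 hpM)
  have hid : ∀ τ, F τ ^ p = c * S.g τ ^ p * Dv τ ^ p := by
    have h1 : HasExp (2 * M) (F ^ p) (coeffMap C.B.subtype (P.eval₂ φ z) ^ p) := (hexp P).pow p
    have h2 : HasExp (2 * M) ((fun τ => c * S.g τ ^ p) * Dv ^ p)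
        (coeffMap C.B.subtype (C.brExt hp2 hpM 1 0 f) *
          coeffMap C.B.subtype (V.derivative.eval₂ φ z) ^ p) := hfexp.mul ((hexp _).pow p)
    rw [hP', map_mul, mul_pow, ← map_pow, hG 1 0] at h1
    intro τ
    exact congrFun (h1.fun_eq h2) τ
  have hle : levelP p (2 * M) ≤ Gamma0 (p * M) :=
    levelP_le_Gamma0_mul (Coeff.not_dvd_two_mul hp2 hpM) (Dvd.intro_left 2 rfl)
  have hLΓ : Gamma (p * (2 * M)) ≤ Gamma0 (p * M) := fun γ hγ =>
    Gamma0_mono (mul_dvd_mul_left p (Dvd.intro_left 2 rfl)) (Gamma0_mem.2 (Gamma_mem.1 hγ).2.2.1)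
  refine Glue.mem_weak_of_pow_eq hLΓ (χ := ⟨S.χ, S.parabolic⟩) S.kummer hle
    (C.polyFun_mem_levelP hp2 P) (C.polyFun_mem_levelP hp2 V.derivative) (fun h0 => ?_)
    (mul_ne_zero (pow_ne_zero _ C.unif_ne_zero) S.c₁_ne) hid
  refine C.not_dvd_derivative_lamV hp2 hpM 1 ?_
  have h := hexp V.derivative
  rw [show (fun τ => V.derivative.eval₂ (C.evA M τ) (lamP p τ)) = 0 from h0] at h
  rw [show V.derivative.eval₂ φ z = 0 from
    C.coeffMap_subtype_injective' (h.eq_zero_of_fun_zero.trans (map_zero _).symm)]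
  exact dvd_zero _

end Setting

end Fermat.Agent.AtP
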