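import Fermat.Agent.AtP.NodeBranch
import Fermat.Agent.AtP.SeriesEval
import Mathlib.Data.Nat.Choose.Dvd
import Mathlib.RingTheory.IntegralClosure.IntegrallyClosed

/-!
# Units of the node ring which are `p`-th powers on both branches

Here `p = ϖ ^ p * μ` with `μ` a unit. A unit which is congruent to a `p`-th power of a fraction
modulo a high power of each of `x`, `y` is a `p`-th power.
-/

set_option autoImplicit false

noncomputable section

open IsLocalRing
open scoped PowerSeries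

namespace Fermat.Agent.AtP

variable {B : Type} [CommRing B] [IsDomain B] [IsDiscreteValuationRing B] {ϖ μ : B} {p : ℕ}

/-- `U` is congruent, near the branch `y = 0`, to the `p`-th power of a fraction modulo `y ^ N`. -/
def IsBranchPow (p N : ℕ) (U : Node ϖ) : Prop :=
  ∃ a b : Node ϖ, ¬ ny ϖ ∣ b ∧ ny ϖ ^ N ∣ b ^ p * U - a ^ p

variable (hp : p.Prime) (hϖ : Irreducible ϖ) (hpϖ : (p : B) = ϖ ^ p * μ)
include hp hϖ hpϖ

/-- The residue field has characteristic `p`. -/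
theorem charP_residue : CharP (ResidueField B) p := by
  refine (CharP.charP_iff_prime_eq_zero hp).2 ?_
  rw [← map_natCast (residue B), hpϖ, map_mul, map_pow,
    (residue_eq_zero_iff ϖ).2 (mem_max_of_irreducible hϖ), zero_pow hp.ne_zero, zero_mul]

omit hϖ hpϖ in
theorem exists_pow_eq_of_mul_pow [CharP (ResidueField B) p] {c e b : PowerSeries (ResidueField B)}
    (hb : b ≠ 0) (h : c * b ^ p = e ^ p) : ∃ g, c = g ^ p := by
  obtain ⟨g, rfl⟩ : b ∣ e := (IsIntegrallyClosed.pow_dvd_pow_iff hp.ne_zero).1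
    ⟨c, by rw [← h, mul_comm]⟩
  exact ⟨g, mul_right_cancel₀ (pow_ne_zero p hb) (by rw [h, mul_pow, mul_comm])⟩

/-- The reduction of a branch power is a `p`-th power. -/
theorem IsBranchPow.exists_q₁_eq {N : ℕ} (hN : 1 ≤ N) {U : Node ϖ} (h : IsBranchPow p N U) :
    ∃ g, q₁ ϖ (mem_max_of_irreducible hϖ) U = g ^ p := by
  have := charP_residue hp hϖ hpϖ
  obtain ⟨a, b, hb, hab⟩ := h
  have hk := ker_q₁ hϖ
  have h0 : q₁ ϖ (mem_max_of_irreducible hϖ) (b ^ p * U - a ^ p) = 0 := by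
    rw [← RingHom.mem_ker, hk, Ideal.mem_span_singleton]
    exact (dvd_pow_self _ (by omega)).trans hab
  rw [map_sub, map_mul, map_pow, map_pow, sub_eq_zero] at h0
  refine exists_pow_eq_of_mul_pow hp (b := q₁ ϖ (mem_max_of_irreducible hϖ) b) ?_
    (by rw [mul_comm]; exact h0)
  exact fun h => hb (Ideal.mem_span_singleton.1 (hk ▸ RingHom.mem_ker.2 h))

/-- One step on a branch: for `U = z ^ p * (1 + ϖ ^ r c)`. -/
theorem IsBranchPow.step {r : ℕ} (hr : 1 ≤ r) (hrp : r ≤ p + 1) {z c : Node ϖ}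
    (hz : IsUnit z) (h : IsBranchPow p (p + 2) (z ^ p * (1 + nc ϖ ϖ ^ r * c))) :
    (r ≠ p → ny ϖ ∣ c) ∧ ∃ g, r = p → q₁ ϖ (mem_max_of_irreducible hϖ) c = g ^ p := by
  have := charP_residue hp hϖ hpϖ
  have := isDomain_node hϖ
  have := Fact.mk hp
  have hp2 := hp.two_le
  have hy := prime_ny hϖ
  set Y := ny ϖ
  set X := nx ϖ
  have hXY : nc ϖ ϖ = Y * X := by rw [← nx_mul_ny, mul_comm]
  have hYX : ¬ Y ∣ X := not_ny_dvd_nx hϖ
  have hk := ker_q₁ hϖ
  set q := q₁ ϖ (mem_max_of_irreducible hϖ) with hq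
  have hq0 : ∀ w : Node ϖ, q w = 0 ↔ Y ∣ w := fun w => by
    rw [← Ideal.mem_span_singleton, ← hk, RingHom.mem_ker]
  obtain ⟨a, b₀, hb₀, hab⟩ := h
  set b := b₀ * z with hbdef
  have hb : ¬ Y ∣ b := fun hd => (hy.dvd_or_dvd hd).elim hb₀
    fun hd => hy.not_isUnit (isUnit_of_dvd_unit hd hz)
  replace hab : Y ^ (p + 2) ∣ b ^ p + nc ϖ ϖ ^ r * c * b ^ p - a ^ p := by
    convert hab using 1
    rw [hbdef]; ring
  -- `a ≡ b` modulo `y`
  obtain ⟨e, he⟩ : Y ∣ a - b := by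
    rw [← hq0, map_sub, sub_eq_zero]
    have : CharP (PowerSeries (ResidueField B)) p :=
      charP_of_injective_ringHom (f := PowerSeries.C) PowerSeries.C_injective p
    refine frobenius_inj (PowerSeries (ResidueField B)) p ?_
    rw [frobenius_def, frobenius_def, ← map_pow, ← map_pow, eq_comm, ← sub_eq_zero, ← map_sub, hq0]
    have h1 : Y ∣ b ^ p + nc ϖ ϖ ^ r * c * b ^ p - a ^ p := (dvd_pow_self Y (by omega)).trans hab
    have h2 : Y ∣ nc ϖ ϖ ^ r * c * b ^ p :=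
      ((hXY ▸ dvd_mul_right Y X).trans (dvd_pow_self _ (by omega))).mul_right c |>.mul_right _
    have := dvd_sub h1 h2
    rwa [show b ^ p + nc ϖ ϖ ^ r * c * b ^ p - a ^ p - nc ϖ ϖ ^ r * c * b ^ p = b ^ p - a ^ p by ring]
      at this
  obtain ⟨w, hw⟩ := exists_add_pow_prime_eq hp (Y * e) b
  rw [show Y * e + b = a by rw [← he]; ring] at hw
  have hpY : ((p : ℕ) : Node ϖ) = Y ^ p * (X ^ p * nc ϖ μ) := by
    rw [← map_natCast (nc ϖ), hpϖ, map_mul, map_pow, hXY]; ring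
  have key : Y ^ (p + 2) ∣ Y ^ r * (X ^ r * c * b ^ p) - Y ^ p * e ^ p
      - Y ^ (p + 1) * (X ^ p * nc ϖ μ * e * b * w) := by
    convert hab using 1
    rw [hw, hpY, hXY]; ring
  refine ⟨fun hne => ?_, ?_⟩
  · have hc : Y ∣ X ^ r * c * b ^ p := by
      rcases Nat.lt_or_ge r p with hlt | hge
      · have h2 : Y ^ (r + 1) ∣ Y ^ r * (X ^ r * c * b ^ p) := by
          have h3 := dvd_add ((pow_dvd_pow Y (show r + 1 ≤ p + 2 by omega)).trans key)
            (dvd_add (((pow_dvd_pow Y (show r + 1 ≤ p by omega))).mul_right (e ^ p))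
              (((pow_dvd_pow Y (show r + 1 ≤ p + 1 by omega))).mul_right
                (X ^ p * nc ϖ μ * e * b * w)))
          convert h3 using 1
          ring
        rw [pow_succ] at h2
        exact (mul_dvd_mul_iff_left (pow_ne_zero r hy.ne_zero)).1 h2
      · have hr1 : r = p + 1 := by omega
        subst hr1
        -- first `y ∣ e`
        obtain ⟨e', he'⟩ : Y ∣ e := by
          refine hy.dvd_of_dvd_pow (n := p) ?_
          have h2 : Y ^ (p + 1) ∣ Y ^ p * e ^ p := by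
            have h3 := dvd_sub (dvd_sub (dvd_mul_right (Y ^ (p + 1)) (X ^ (p + 1) * c * b ^ p))
              ((pow_dvd_pow Y (show p + 1 ≤ p + 2 by omega)).trans key))
              (dvd_mul_right (Y ^ (p + 1)) (X ^ p * nc ϖ μ * e * b * w))
            convert h3 using 1
            ring
          rw [pow_succ] at h2
          exact (mul_dvd_mul_iff_left (pow_ne_zero p hy.ne_zero)).1 h2
        have h2 : Y ^ (p + 2) ∣ Y ^ (p + 1) * (X ^ (p + 1) * c * b ^ p) := by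
          have h3 := dvd_add key (dvd_add
            ((pow_dvd_pow Y (show p + 2 ≤ p + p by omega)).mul_right (e' ^ p))
            ((dvd_refl (Y ^ (p + 2))).mul_right (X ^ p * nc ϖ μ * e' * b * w)))
          convert h3 using 1
          rw [he']; ring
        rw [pow_succ Y (p + 1)] at h2
        exact (mul_dvd_mul_iff_left (pow_ne_zero _ hy.ne_zero)).1 h2
    rcases hy.dvd_or_dvd hc with hd | hd
    · exact (hy.dvd_or_dvd hd).resolve_left fun hd' => hYX (hy.dvd_of_dvd_pow hd')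
    · exact absurd (hy.dvd_of_dvd_pow hd) hb
  · by_cases hrp' : r = p
    swap
    · exact ⟨0, fun h => absurd h hrp'⟩
    subst hrp'
    have h2 : Y ^ r * Y ∣ Y ^ r * (X ^ r * c * b ^ r - e ^ r) := by
      have h3 := dvd_add ((pow_dvd_pow Y (show r + 1 ≤ r + 2 by omega)).trans key)
        (dvd_mul_right (Y ^ (r + 1)) (X ^ r * nc ϖ μ * e * b * w))
      rw [pow_succ] at h3
      convert h3 using 1
      ring
    have h4 := (mul_dvd_mul_iff_left (pow_ne_zero r hy.ne_zero)).1 h2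
    rw [← hq0, map_sub, sub_eq_zero, map_mul, map_mul, map_pow, map_pow, map_pow] at h4
    obtain ⟨g, hg⟩ := exists_pow_eq_of_mul_pow hp (b := q X * q b) (c := q c) (e := q e)
      (mul_ne_zero (fun h => hYX ((hq0 X).1 h)) fun h => hb ((hq0 b).1 h))
      (by rw [mul_pow]; linear_combination h4)
    exact ⟨g, fun _ => hg⟩

omit hp hpϖ in
theorem isUnit_one_add_nc_mul [IsLocalRing (Node ϖ)] (c : Node ϖ) :
    IsUnit (1 + nc ϖ ϖ * c) := by
  by_contra h
  have h1 : (1 + nc ϖ ϖ * c) - nc ϖ ϖ * c ∈ maximalIdeal (Node ϖ) := by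
    refine sub_mem ((mem_maximalIdeal _).2 h) ((Ideal.mul_mem_right _ _) ?_)
    rw [← nx_mul_ny, maximalIdeal_node hϖ]
    exact Ideal.mul_mem_right _ _ (Ideal.subset_span (by simp))
  rw [add_sub_cancel_right] at h1
  exact (Ideal.ne_top_iff_one _).1 (maximalIdeal.isMaximal _).ne_top h1

/-- `1 + ϖ ^ (p + 2) * c` is a `p`-th power. -/
theorem exists_pow_eq_one_add [IsAdicComplete (maximalIdeal B) B] (hp2 : p ≠ 2) (hμ : IsUnit μ)
    (c : Node ϖ) : ∃ u : Node ϖ, u ^ p = 1 + nc ϖ ϖ ^ (p + 2) * c := by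
  classical
  have hp3 : 3 ≤ p := by have := hp.two_le; omega
  have := isLocalRing_node ϖ (mem_max_of_irreducible hϖ)
  have := isAdicComplete_node hϖ
  obtain ⟨ν, hν⟩ := hμ.exists_right_inv
  set v := nc ϖ ϖ with hv
  have hvm : v ∈ maximalIdeal (Node ϖ) := by
    rw [hv, ← nx_mul_ny, maximalIdeal_node hϖ]
    exact Ideal.mul_mem_right _ _ (Ideal.subset_span (by simp))
  let G : Polynomial (Node ϖ) :=
    Polynomial.C (v ^ (p - 3)) * Polynomial.X ^ p + ∑ i ∈ Finset.Ico 2 p,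
      Polynomial.C (nc ϖ μ * ((p.choose i / p : ℕ) : Node ϖ) * v ^ (2 * i - 3)) * Polynomial.X ^ i
  have hexp : ∀ w, (1 + v ^ 2 * w) ^ p = 1 + v ^ (p + 2) * (nc ϖ μ * w + v * G.eval w) := by
    intro w
    rw [add_comm (1 : Node ϖ) (v ^ 2 * w), add_pow, Finset.sum_range_succ, Finset.range_eq_Ico,
      Finset.sum_eq_sum_Ico_succ_bot hp.pos, Finset.sum_eq_sum_Ico_succ_bot hp.one_lt]
    simp only [one_pow, mul_one, Nat.choose_zero_right, Nat.cast_one, Nat.choose_one_right,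
      Nat.choose_self, pow_zero, pow_one, G, Polynomial.eval_add, Polynomial.eval_mul,
      Polynomial.eval_C, Polynomial.eval_pow, Polynomial.eval_X, Polynomial.eval_finsetSum]
    have hpv : ((p : ℕ) : Node ϖ) = v ^ p * nc ϖ μ := by
      rw [← map_natCast (nc ϖ), hpϖ, map_mul, map_pow]
    have hs : ∀ i ∈ Finset.Ico 2 p, (v ^ 2 * w) ^ i * ((p.choose i : ℕ) : Node ϖ) =
        v ^ (p + 2) * (v * (nc ϖ μ * ((p.choose i / p : ℕ) : Node ϖ) * v ^ (2 * i - 3) * w ^ i)) := by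
      intro i hi
      rw [Finset.mem_Ico] at hi
      obtain ⟨j, rfl⟩ : ∃ j, i = j + 2 := ⟨i - 2, by omega⟩
      have hd := Nat.div_mul_cancel (Nat.Prime.dvd_choose_self hp (show j + 2 ≠ 0 by omega) hi.2)
      generalize p.choose (j + 2) / p = m at hd
      rw [← hd, Nat.cast_mul, hpv, show 2 * (j + 2) - 3 = 2 * j + 1 by omega]
      ring
    have htop : (v ^ 2 * w) ^ p = v ^ (p + 2) * (v * (v ^ (p - 3) * w ^ p)) := by
      obtain ⟨j, rfl⟩ : ∃ j, p = j + 3 := ⟨p - 3, by omega⟩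
      rw [show j + 3 - 3 = j by omega]; ring
    rw [Finset.sum_congr rfl hs, htop, hpv, ← Finset.mul_sum, ← Finset.mul_sum]
    ring
  obtain ⟨w, hw⟩ := exists_fixedPoint (I := maximalIdeal (Node ϖ))
    (fun w => nc ϖ ν * (c - v * G.eval w)) fun n a b hab => by
      have h : nc ϖ ν * (c - v * G.eval a) - nc ϖ ν * (c - v * G.eval b) =
          v * (nc ϖ ν * (G.eval b - G.eval a)) := by ring
      rw [h, pow_succ']
      refine Ideal.mul_mem_mul hvm (Ideal.mul_mem_left _ _ (Ideal.mem_of_dvd _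
        (G.sub_dvd_eval_sub b a) ?_))
      rw [← neg_sub]; exact neg_mem hab
  refine ⟨1 + v ^ 2 * w, ?_⟩
  rw [hexp]
  have hμν : nc ϖ μ * nc ϖ ν = 1 := by rw [← map_mul, hν, map_one]
  linear_combination v ^ (p + 2) * (c - v * G.eval w) * hμν - v ^ (p + 2) * nc ϖ μ * hw

/-- A unit which is a `p`-th power near both branches is a `p`-th power. -/
theorem exists_root [IsAdicComplete (maximalIdeal B) B] (hp2 : p ≠ 2) (hμ : IsUnit μ)
    {U : Node ϖ} (hU : IsUnit U) (h₁ : IsBranchPow p (p + 2) U)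
    (h₂ : IsBranchPow p (p + 2) (swap ϖ U)) : ∃ z : Node ϖ, z ^ p = U := by
  have := charP_residue hp hϖ hpϖ
  have := isLocalRing_node ϖ (mem_max_of_irreducible hϖ)
  have hϖm := mem_max_of_irreducible hϖ
  suffices hind : ∀ r, 1 ≤ r → r ≤ p + 2 →
      ∃ z c, IsUnit z ∧ U = z ^ p * (1 + nc ϖ ϖ ^ r * c) by
    obtain ⟨z, c, -, hzc⟩ := hind (p + 2) (by omega) le_rfl
    obtain ⟨u, hu⟩ := exists_pow_eq_one_add hp hϖ hpϖ hp2 hμ c
    exact ⟨z * u, by rw [mul_pow, hu, hzc]⟩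
  intro r hr hrp
  induction r, hr using Nat.le_induction with
  | base =>
    obtain ⟨g₁, hg₁⟩ := h₁.exists_q₁_eq hp hϖ hpϖ (by omega)
    obtain ⟨g₂, hg₂⟩ := h₂.exists_q₁_eq hp hϖ hpϖ (by omega)
    obtain ⟨z, d, hd⟩ := exists_pow_dvd_sub hϖm hϖ hp hg₁ hg₂
    obtain ⟨Ui, hUi⟩ := hU.exists_right_inv
    have hz : z ^ p = U * (1 + nc ϖ ϖ * (d * Ui)) := by
      linear_combination hd - (nc ϖ ϖ * d) * hUi
    have hzu : IsUnit z :=
      (isUnit_pow_iff hp.ne_zero).1 (hz ▸ hU.mul (isUnit_one_add_nc_mul hϖ _))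
    obtain ⟨zi, hzi⟩ := hzu.exists_right_inv
    have hzip : z ^ p * zi ^ p = 1 := by rw [← mul_pow, hzi, one_pow]
    exact ⟨z, -(d * zi ^ p), hzu, by
      linear_combination (nc ϖ ϖ * d) * hzip - hd⟩
  | succ r hr ih =>
    obtain ⟨z, c, hz, hzc⟩ := ih (by omega)
    have hs₂ : swap ϖ U = swap ϖ z ^ p * (1 + nc ϖ ϖ ^ r * swap ϖ c) := by
      simp [hzc]
    obtain ⟨H₁, g₁, H₁'⟩ := IsBranchPow.step hp hϖ hpϖ hr (by omega) hz (c := c) (hzc ▸ h₁)
    obtain ⟨H₂, g₂, H₂'⟩ := IsBranchPow.step hp hϖ hpϖ hr (by omega) (hz.map (swap ϖ))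
      (c := swap ϖ c) (hs₂ ▸ h₂)
    by_cases hrp' : r = p
    · subst hrp'
      obtain ⟨w, d, hd⟩ := exists_pow_dvd_sub hϖm hϖ hp (H₁' rfl) (H₂' rfl)
      -- replace `z` by `z * (1 + ϖ w)`
      obtain ⟨e, he⟩ := exists_add_pow_prime_eq hp (nc ϖ ϖ * w) (1 : Node ϖ)
      have hpv : ((r : ℕ) : Node ϖ) = nc ϖ ϖ ^ r * nc ϖ μ := by
        rw [← map_natCast (nc ϖ), hpϖ, map_mul, map_pow]
      have hu := isUnit_one_add_nc_mul hϖ w
      obtain ⟨ui, hui⟩ := (hu.pow r).exists_right_inv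
      refine ⟨z * (1 + nc ϖ ϖ * w), -(d + nc ϖ μ * w * e) * ui, hz.mul hu, ?_⟩
      rw [add_comm (nc ϖ ϖ * w), one_pow, mul_one, hpv] at he
      rw [hzc, mul_pow]
      linear_combination (z ^ r * nc ϖ ϖ ^ (r + 1) * (d + nc ϖ μ * w * e)) * hui - z ^ r * he
        - z ^ r * nc ϖ ϖ ^ r * hd
    · have hyc : ny ϖ ∣ c := H₁ hrp'
      have hxc : nx ϖ ∣ c := by
        have := map_dvd (swap ϖ) (H₂ hrp')
        rwa [swap_swap, swap_ny] at this
      obtain ⟨c', rfl⟩ := nc_dvd_of_nx_dvd_of_ny_dvd hϖ hxc hyc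
      exact ⟨z, c', hz, by rw [hzc]; ring⟩

end Fermat.Agent.AtP
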