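import Fermat.Agent.AtP.GlueNodeBranch
import Fermat.Agent.AtP.GlueMain
import Fermat.Agent.AtP.AssemblyCertificate
import Fermat.Agent.AtP.NodeRoot
import Fermat.Agent.AtP.GlueRoot
import Fermat.Agent.AtP.AssemblyDiscs
import Fermat.Agent.AtP.Series

/-!
# The trace values at a supersingular node

At the node the scaled function has an exact root `G`, divisible by exactly `y ^ N₁` and `x ^ N₂`.
The trace of `G Y ^ j` over the series in `T - x₀`, divided by a fixed integer, gives the trace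
values.
-/

set_option autoImplicit false

noncomputable section

open UpperHalfPlane CongruenceSubgroup IsLocalRing
open Polynomial hiding comp
open scoped PowerSeries DualNumber MatrixGroups
open Fermat.Agent.KummerES
open ModularCurve (coeffMap qExpand)

namespace Fermat.Agent.AtP

/-- A congruence with `P ^ (p N)` in front gives one without. -/
theorem exists_congr_div_pow {R : Type*} [CommRing R] [IsDomain R] [IsIntegrallyClosed R] {P : R}
    (hP : Prime P) {p : ℕ} (hp : p ≠ 0) {N n r : ℕ} (hr : p * N + n ≤ r) {c U b : R}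
    (h : P ^ r ∣ c ^ p * (P ^ (p * N) * U) - b ^ p) : ∃ b', P ^ n ∣ c ^ p * U - b' ^ p := by
  obtain ⟨b', rfl⟩ : P ^ N ∣ b := by
    refine (IsIntegrallyClosed.pow_dvd_pow_iff hp).1 ?_
    rw [← pow_mul, mul_comm N p]
    have := dvd_sub ((dvd_mul_right (P ^ (p * N)) U).mul_left (c ^ p))
      ((pow_dvd_pow P ((Nat.le_add_right _ n).trans hr)).trans h)
    rwa [sub_sub_cancel] at this
  refine ⟨b', (mul_dvd_mul_iff_left (pow_ne_zero (p * N) hP.ne_zero)).1 ?_⟩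
  rw [← pow_add]
  refine (pow_dvd_pow P hr).trans (h.trans (dvd_of_eq ?_))
  rw [mul_pow, ← pow_mul, mul_comm N p]
  ring

namespace Setting

attribute [local instance] isDomain_LRing

variable {p : ℕ} [hp : Fact p.Prime] {C : Coeff p} {M : ℕ} [NeZero M] (S : Setting C M)
  (hp2 : p ≠ 2) (hpM : ¬ p ∣ M) {N₁ N₂ : ℕ}
  {f : C.glueRing M}

include hp2 hpM in
/-- The scaled function on the two branches. -/
theorem node_brExt_scaled (hN : (N₂ : ℤ) = N₁ + S.j₁ - S.j₂)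
    (hf : (f : LaurentSeries ℂ) =
      coeffMap C.B.subtype (C.unifS ^ (p * N₁) * qExpand C.B (2 * M) S.s₁)) (k : Fin 2) :
    C.brExt hp2 hpM 1 k f = C.unifS ^ (p * ![N₁, N₂] k) * qExpand C.B (2 * M) (![S.s₁, S.s₂] k) := by
  fin_cases k
  · exact (S.brExt_scaled hp2 hpM hN hf).1
  · exact (S.brExt_scaled hp2 hpM hN hf).2

theorem not_unif_dvd_prim (k : Fin 2) :
    ¬ HahnSeries.C C.unif ∣ qExpand C.B (2 * M) (![S.s₁, S.s₂] k) := by
  rw [Coeff.C_unif_dvd_iff, ModularCurve.coeffMap_qExpand,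
    map_eq_zero_iff _ (ModularCurve.qExpand_injective (2 * M))]
  fin_cases k
  · exact (coeffMap_red_cst (Glue.residue_eq_zero_iff_dvd_of_max C.irred.maximalIdeal_eq)).1 S.prim₁
  · exact (coeffMap_red_cst (Glue.residue_eq_zero_iff_dvd_of_max C.irred.maximalIdeal_eq)).1 S.prim₂

variable (hres : ∃ w, coeffMap (residue C.B) S.s₁ = w ^ p)

include hp2 hpM hres in
/-- Approximate roots in the extension. -/
theorem exists_approx_brExt (hN : (N₂ : ℤ) = N₁ + S.j₁ - S.j₂)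
    (hf : (f : LaurentSeries ℂ) =
      coeffMap C.B.subtype (C.unifS ^ (p * N₁) * qExpand C.B (2 * M) S.s₁)) (R : ℕ) :
    ∃ (Q : (LRing (2 * M) C.B)[X]) (d : LRing (2 * M) C.B), ¬ C.piA M ∣ d ∧
      ∀ k, HahnSeries.C C.unif ^ R ∣ C.brExt hp2 hpM 1 k
        (C.glueMap M d ^ p * f - Q.eval₂ (C.glueMap M) (C.glueGen hp2 hpM) ^ p) := by
  obtain ⟨Q, d, hd, h₁, h₂⟩ := S.exists_approx hp2 hpM hres hN R
  refine ⟨Q, d, hd, fun k => ?_⟩
  rw [map_sub, map_mul, map_pow, map_pow, C.brExt_glueMap, C.brExt_eval₂,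
    S.node_brExt_scaled hp2 hpM hN hf]
  fin_cases k
  · exact h₁
  · exact h₂

section Node

variable {s : LRing (2 * M) C.B →+* ResidueField C.B} {xbar : ResidueField C.B}
  {T Y : Node C.unif} {x₀ : C.B} {hum : T - nc C.unif x₀ ∈ maximalIdeal (Node C.unif)}
  {hum₂ : swap C.unif (Y - nc C.unif (x₀ ^ p)) ∈ maximalIdeal (Node C.unif)}
  {s' : LRing (2 * M) C.B →+* ResidueField C.B} {ψ ψ' : LRing (2 * M) C.B →+* C.B⟦X⟧}
  {θ θ₂ : algElts (C.expK M) (expansion (2 * M) (lamP p)) →+* Node C.unif}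
  (hM : C.IsNodeMaps hp2 hpM s xbar T Y x₀ hum hum₂ s' ψ ψ' θ θ₂)
  (hN : (N₂ : ℤ) = N₁ + S.j₁ - S.j₂)
  (hf : (f : LaurentSeries ℂ) =
    coeffMap C.B.subtype (C.unifS ^ (p * N₁) * qExpand C.B (2 * M) S.s₁))
include hM

theorem not_nBr_dvd_nHom (k : Fin 2) {d : LRing (2 * M) C.B} (hd : ¬ C.piA M ∣ d) :
    ¬ C.nBr k ∣ C.nHom hum ψ d := by
  intro h
  have h1 := C.piA_dvd_of_nBr hM k (Polynomial.C d) (by
    rw [natDegree_C]
    exact Nat.pos_of_ne_zero fun h0 => (C.brFactor_monic hp2 hpM k).2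
      (eq_one_of_monic_natDegree_zero (C.brFactor_monic hp2 hpM k).1 h0)) (by rwa [eval₂_C])
  exact hd (by simpa using (C_dvd_iff_dvd_coeff _ _).1 h1 0)

theorem node_approx {R : ℕ} {Q : (LRing (2 * M) C.B)[X]} {d : LRing (2 * M) C.B}
    (h : ∀ k, HahnSeries.C C.unif ^ R ∣ C.brExt hp2 hpM 1 k
      (C.glueMap M d ^ p * f - Q.eval₂ (C.glueMap M) (C.glueGen hp2 hpM) ^ p)) (k : Fin 2) :
    C.nBr k ^ R ∣ C.nHom hum ψ d ^ p * θ f - Q.eval₂ (C.nHom hum ψ) Y ^ p := by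
  have h1 := (C.nBr_pow_dvd_iff hM k R _).2 (h k)
  rw [map_sub, map_mul, map_pow, map_pow, C.node_θ_eval₂ hM] at h1
  rwa [show θ (C.glueMap M d) = C.nHom hum ψ d from hM.θ_A d] at h1

include hN hf in
theorem node_exact (k : Fin 2) :
    C.nBr k ^ (p * ![N₁, N₂] k) ∣ θ f ∧ ¬ C.nBr k ^ (p * ![N₁, N₂] k + 1) ∣ θ f := by
  rw [C.nBr_pow_dvd_iff hM, C.nBr_pow_dvd_iff hM, S.node_brExt_scaled hp2 hpM hN hf]
  refine ⟨dvd_mul_right _ _, fun h => S.not_unif_dvd_prim k ?_⟩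
  rw [pow_succ, show HahnSeries.C C.unif = C.unifS from rfl,
    mul_dvd_mul_iff_left (pow_ne_zero _ (C.prime_unifS (M := M) hp2 hpM).ne_zero)] at h
  exact h

include hres hN hf in
/-- **The exact root at the node.** -/
theorem exists_node_root :
    ∃ G : Node C.unif, G ^ p = θ f ∧ ∀ k, ¬ C.nBr k ^ (![N₁, N₂] k + 1) ∣ G := by
  have hy := prime_ny C.irred
  have hx := prime_nx C.irred
  have hexy := S.node_exact hp2 hpM hM hN hf 0
  have hexx := S.node_exact hp2 hpM hM hN hf 1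
  obtain ⟨x', hx'⟩ : nx C.unif ^ (p * N₂) * ny C.unif ^ (p * N₁) ∣ θ f := by
    obtain ⟨y₁, hy₁⟩ := hexx.1
    rw [hy₁]
    exact mul_dvd_mul_left _ (hy.pow_dvd_of_dvd_mul_left _
      (fun hd => not_ny_dvd_nx C.irred (hy.dvd_of_dvd_pow hd)) (hy₁ ▸ hexy.1))
  have hny : ¬ ny C.unif ∣ x' := fun hd => hexy.2 (by
    rw [hx', mul_assoc]
    exact ((dvd_of_eq (pow_succ _ _)).trans (mul_dvd_mul_left _ hd)).mul_left _)
  have hnx : ¬ nx C.unif ∣ x' := fun hd => hexx.2 (by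
    rw [hx', mul_comm (nx C.unif ^ _), mul_assoc]
    exact ((dvd_of_eq (pow_succ _ _)).trans (mul_dvd_mul_left _ hd)).mul_left _)
  obtain ⟨N, m, N₀, -, -, e₁, A, D, Cc, he₁, hA, hsum⟩ := S.exists_certificate_algElts hp2 hpM
  have hπ : θ (C.glueMap M (C.piA M)) = nc C.unif C.unif := by
    rw [show θ (C.glueMap M (C.piA M)) = C.nHom hum ψ (C.piA M) from hM.θ_A _,
      C.node_piA hM 0, C.nBr_mul_nOth]
  have he : nc C.unif C.unif ^ (p * N₁) * θ e₁ = nc C.unif C.unif ^ N * θ f := by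
    have h1 : C.glueMap M (C.piA M) ^ (p * N₁) * e₁ = C.glueMap M (C.piA M) ^ N * f := by
      refine Subtype.ext ?_
      rw [Subring.coe_mul, Subring.coe_mul, SubmonoidClass.coe_pow, SubmonoidClass.coe_pow,
        show (C.glueMap M (C.piA M) : LaurentSeries ℂ) = C.expK M (C.piA M) from rfl,
        Coeff.expK, RingHom.comp_apply, C.expA_piA, he₁, hf,
        show HahnSeries.C C.unif = C.unifS from rfl]
      simp only [map_mul, map_pow]
      ring
    have h2 := congrArg θ h1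
    rwa [map_mul, map_mul, map_pow, map_pow, hπ] at h2
  have hP : ∀ P, Prime P → ¬ P ∣ nx C.unif → P ∣ x' → ∀ n, ¬ P ∣ nc C.unif C.unif ^ n := by
    intro P hP hPx hPx' n hd
    have hd' := hP.dvd_of_dvd_pow hd
    rw [← nx_mul_ny] at hd'
    exact hny (((hP.associated_of_dvd hy ((hP.dvd_or_dvd hd').resolve_left hPx)).symm.dvd).trans hPx')
  obtain ⟨U, g, hU, hUg⟩ := exists_eq_unit_mul_pow hx hp.out.ne_zero hnx
    (α := nc C.unif C.unif ^ N * (nx C.unif ^ (p * N₂) * ny C.unif ^ (p * N₁)))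
    (β := nc C.unif C.unif ^ (p * N₁)) (γ := nc C.unif C.unif ^ N₀)
    (D := fun j => θ (D j)) (A := fun j => θ (A j)) (Cc := fun j => θ (Cc j))
    (fun P hP' hPx hPx' hd => by
      rcases hP'.dvd_or_dvd hd with h | h
      · exact hP P hP' hPx hPx' N h
      rcases hP'.dvd_or_dvd h with h | h
      · exact hPx (hP'.dvd_of_dvd_pow h)
      · exact hny (((hP'.associated_of_dvd hy (hP'.dvd_of_dvd_pow h)).symm.dvd).trans hPx'))
    (fun P hP' hPx hPx' => hP P hP' hPx hPx' _) (fun P hP' hPx hPx' => hP P hP' hPx hPx' _)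
    (fun j => by
      rw [← map_pow θ, hA, map_mul θ]
      linear_combination -(θ (D j)) * he - θ (D j) * nc C.unif C.unif ^ N * hx')
    (by
      have h := congrArg θ hsum
      simp only [map_sum, map_mul] at h
      rw [h, show θ ⟨C.expK M (C.piA M ^ N₀), map_mem_algElts _ _ _⟩ = C.nHom hum ψ (C.piA M ^ N₀)
        from hM.θ_A _, map_pow, C.node_piA hM 0, C.nBr_mul_nOth])
  -- branch congruences of the unit
  have hbr : ∀ k, ∃ c b, ¬ C.nBr k ∣ c ∧ C.nBr k ^ (p + 2) ∣ c ^ p * U - b ^ p := by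
    intro k
    obtain ⟨Q, d, hd, hQ⟩ := S.exists_approx_brExt hp2 hpM hres hN hf
      (p * ![N₁, N₂] k + (p + 2))
    refine ⟨C.nHom hum ψ d * C.nOth k ^ (![N₂, N₁] k) * g, ?_⟩
    obtain ⟨b, hb⟩ := exists_congr_div_pow (C.prime_nBr k) hp.out.ne_zero le_rfl
      (c := C.nHom hum ψ d * C.nOth k ^ (![N₂, N₁] k) * g) (U := U)
      (b := Q.eval₂ (C.nHom hum ψ) Y) (by
        refine (node_approx hp2 hpM hM hQ k).trans (dvd_of_eq ?_)
        rw [hx', hUg]
        fin_cases k <;> simp [Coeff.nBr, Coeff.nOth] <;> ring)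
    refine ⟨b, (C.prime_nBr k).not_dvd_mul ((C.prime_nBr k).not_dvd_mul
      (not_nBr_dvd_nHom hp2 hpM hM k hd)
      (fun h => C.not_nBr_dvd_nOth k ((C.prime_nBr k).dvd_of_dvd_pow h))) ?_, hb⟩
    intro h
    have hgx : C.nBr k ∣ x' := hUg ▸ (h.trans (dvd_pow_self _ hp.out.ne_zero)).mul_left _
    revert hgx
    fin_cases k
    · exact hny
    · exact hnx
  have := C.charP
  obtain ⟨zr, hzr⟩ := exists_root hp.out C.irred C.p_eq hp2 C.mu_isUnit hU
    (by
      obtain ⟨c, b, hc, hcb⟩ := hbr 0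
      exact ⟨b, c, hc, hcb⟩)
    (by
      obtain ⟨c, b, hc, hcb⟩ := hbr 1
      refine ⟨swap C.unif b, swap C.unif c, fun hd => hc ?_, ?_⟩
      · have := map_dvd (swap C.unif) hd
        rw [swap_swap, swap_ny] at this
        exact this
      · have := map_dvd (swap C.unif) hcb
        rwa [map_sub, map_mul, map_pow, map_pow, map_pow,
          show C.nBr 1 = nx C.unif from rfl, swap_nx] at this)
  refine ⟨nx C.unif ^ N₂ * ny C.unif ^ N₁ * (zr * g), ?_, fun k hd => ?_⟩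
  · rw [hx', hUg, ← hzr, mul_pow, mul_pow, mul_pow, ← pow_mul, ← pow_mul, mul_comm N₂ p,
      mul_comm N₁ p]
  · have h1 := pow_dvd_pow_of_dvd hd p
    rw [← pow_mul, show (nx C.unif ^ N₂ * ny C.unif ^ N₁ * (zr * g)) ^ p = θ f by
      rw [hx', hUg, ← hzr, mul_pow, mul_pow, mul_pow, ← pow_mul, ← pow_mul, mul_comm N₂ p,
        mul_comm N₁ p]] at h1
    refine (S.node_exact hp2 hpM hM hN hf k).2 ((pow_dvd_pow _ ?_).trans h1)
    have := hp.out.one_le
    nlinarith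

/-- An approximant is congruent to a multiple of the root. -/
theorem node_congr {G : Node C.unif} (hG : G ^ p = θ f)
    (hw : ∀ k, ¬ C.nBr k ^ (![N₁, N₂] k + 1) ∣ G) {R : ℕ}
    {Q : (LRing (2 * M) C.B)[X]} {d : LRing (2 * M) C.B} (hd : ¬ C.piA M ∣ d)
    (h : ∀ k, HahnSeries.C C.unif ^ R ∣ C.brExt hp2 hpM 1 k
      (C.glueMap M d ^ p * f - Q.eval₂ (C.glueMap M) (C.glueGen hp2 hpM) ^ p)) :
    nc C.unif C.unif ^ (R - (p + p * max N₁ N₂)) ∣
      C.nHom hum ψ d * G - Q.eval₂ (C.nHom hum ψ) Y := by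
  refine C.nc_pow_dvd_of_nBr fun k => ?_
  refine Glue.pow_dvd_sub_of_pow_dvd_pow_sub_pow hp.out hp2 (C.prime_nBr k)
    (u := C.nOth k ^ p * nc C.unif C.mu) ?_ ?_ (fun hdd => hw k ?_) ?_
  · rw [← mul_assoc, ← mul_pow, C.nBr_mul_nOth, ← map_pow, ← map_mul, ← map_natCast (nc C.unif),
      C.p_eq]
  · exact (C.prime_nBr k).not_dvd_mul
      (fun h => C.not_nBr_dvd_nOth k ((C.prime_nBr k).dvd_of_dvd_pow h))
      fun h => (C.prime_nBr k).not_isUnit (isUnit_of_dvd_unit h (C.mu_isUnit.map _))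
  · refine (pow_dvd_pow _ ?_).trans ((C.prime_nBr k).pow_dvd_of_dvd_mul_left _
      (not_nBr_dvd_nHom hp2 hpM hM k hd) hdd)
    fin_cases k <;> simp
  · rw [mul_pow, hG]
    exact node_approx hp2 hpM hM h k

end Node

include hp2 hpM hres in
/-- **Trace values at a supersingular point.** -/
theorem exists_traceVals_node (hN : (N₂ : ℤ) = N₁ + S.j₁ - S.j₂)
    (hf : (f : LaurentSeries ℂ) =
      coeffMap C.B.subtype (C.unifS ^ (p * N₁) * qExpand C.B (2 * M) S.s₁))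
    {ι : Type*} {Sm : ι → ℕ → C.glueRing M → Prop} (br : Fin 2 → ι)
    (hSm : ∀ k R x, Sm (br k) R x → HahnSeries.C C.unif ^ R ∣ C.brExt hp2 hpM 1 k x)
    (s : LRing (2 * M) C.B →+* ResidueField C.B) (hs : Points.IsPoint (C.levelHyp hp2 hpM) s)
    (hord : (ordPoly p hp2).eval₂ (have := C.charP; ZMod.castHom dvd_rfl (ResidueField C.B))
      (s (C.lamL hp2 hpM)) = 0) :
    ∃ ψ, Points.IsDisc (C.levelHyp hp2 hpM) s ψ ∧ ∃ t, Glue.IsTraceVals p (C.glueMap M)
      (C.glueGen hp2 hpM) f (C.piA M) (C.lamV hp2 hpM) Sm ψ t (p + p * max N₁ N₂) := by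
  classical
  obtain ⟨T, Y, x₀, hum, hum₂, s', ψ, ψ', θ, θ₂, hM⟩ :=
    C.exists_nodeMaps hp2 hpM hs (Coeff.point_lamL_mul_tL (hp2 := hp2) (hpM := hpM) s) hord
  refine ⟨ψ, hM.disc, ?_⟩
  obtain ⟨G, hG, hGw⟩ := S.exists_node_root hp2 hpM hres hM hN hf
  set e := p + p * max N₁ N₂
  set E := evalSeries (nc C.unif) (T - nc C.unif x₀) hum
  set c := (PowerSeries.C C.unif : C.B⟦X⟧)
  have hc : Prime c := Glue.prime_C_powerSeries C.irred.maximalIdeal_eq C.irred.ne_zero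
  have hψπ : ψ (C.piA M) = c := hM.disc.const _
  have hEc : ∀ n, E c ^ n = nc C.unif C.unif ^ n := fun n => by rw [evalSeries_C]
  set V := (C.lamV hp2 hpM).map ψ
  have hVm : V.Monic := (C.lamV_monic hp2 hpM).map ψ
  have hVd : V.natDegree = p + 1 := by
    rw [(C.lamV_monic hp2 hpM).natDegree_map ψ, Coeff.lamV,
      (lamPoly_monic hp2).natDegree_map, natDegree_lamPoly hp2]
  have hVY : V.eval₂ E Y = 0 := by rw [eval₂_map]; exact C.node_root hM
  obtain ⟨τ, n, hn, hτ, hτtr⟩ := Glue.exists_trace E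
    (evalSeries_finite_node C.irred hum hM.coord.q_ne_zero.1 hM.coord.q_ne_zero.2)
    (evalSeries_injective_node C.irred hum hM.coord.q_ne_zero.1) hVm hVY (fun P hP hP0 => by
      ext1 i
      rw [coeff_zero]
      refine PowerSeries.ext fun l => ?_
      rw [map_zero]
      by_contra hne
      obtain ⟨m, v, hv⟩ := IsDiscreteValuationRing.eq_unit_mul_pow_irreducible hne C.irred
      have h1 := (C_dvd_iff_dvd_coeff _ _).1
        (C.node_saturated hum hM.coord (m + 1) P (by omega) (hP0 ▸ dvd_zero _)) i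
      have h2 := (Glue.C_pow_dvd_iff (m + 1) _).1 h1 l
      rw [hv, pow_succ', mul_dvd_mul_iff_right (pow_ne_zero m C.irred.ne_zero)] at h2
      exact C.irred.not_isUnit (isUnit_of_dvd_unit h2 v.isUnit))
  obtain ⟨v, un, hun⟩ := IsDiscreteValuationRing.eq_unit_mul_pow_irreducible
    (show ((n : ℕ) : C.B) ≠ 0 from fun h0 => hn.ne' (by
      have := congrArg Subtype.val h0
      simpa using this)) C.irred
  have hnS : ((n : ℕ) : C.B⟦X⟧) = PowerSeries.C (un : C.B) * c ^ v := by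
    rw [← map_natCast (PowerSeries.C (R := C.B)), hun, map_mul, map_pow]
  have hnu : IsUnit (PowerSeries.C (un : C.B)) := un.isUnit.map _
  set Tj : ℕ → C.B⟦X⟧ := fun j => τ (G * Y ^ j)
  -- the trace of an approximant
  have key : ∀ R Q d, ¬ C.piA M ∣ d → (∀ k, HahnSeries.C C.unif ^ R ∣ C.brExt hp2 hpM 1 k
      (C.glueMap M d ^ p * f - Q.eval₂ (C.glueMap M) (C.glueGen hp2 hpM) ^ p)) → ∀ j,
      c ^ (R - e) ∣ ψ d * Tj j - n * ψ (Glue.polyTrace (C.lamV hp2 hpM) (Q * X ^ j)) := by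
    intro R Q d hd hQ j
    obtain ⟨x, hx⟩ := node_congr hp2 hpM hM hG hGw hd hQ
    refine ⟨τ (x * Y ^ j), ?_⟩
    rw [Glue.map_polyTrace_map ψ (C.lamV_monic hp2 hpM), ← hτtr, ← hτ, ← hτ, ← map_sub]
    refine congrArg τ ?_
    rw [eval₂_map, eval₂_mul, eval₂_X_pow, map_pow, hEc]
    linear_combination (Y ^ j) * hx
  have hdne : ∀ {d}, ¬ C.piA M ∣ d → ¬ c ∣ ψ d := fun hd h => hd (C.piA_dvd_of_C_dvd hM h)
  have ht : ∀ j, ∃ t, Tj j = n * t := by
    intro j
    obtain ⟨Q, d, hd, hQ⟩ := S.exists_approx_brExt hp2 hpM hres hN hf (e + v)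
    have h1 := key _ _ _ hd hQ j
    rw [Nat.add_sub_cancel_left] at h1
    obtain ⟨t₀, ht₀⟩ : c ^ v ∣ Tj j := by
      refine hc.pow_dvd_of_dvd_mul_left v (hdne hd) ?_
      have h2 : c ^ v ∣ (n : C.B⟦X⟧) * ψ (Glue.polyTrace (C.lamV hp2 hpM) (Q * X ^ j)) :=
        hnS ▸ (dvd_mul_left _ _).mul_right _
      simpa using dvd_add h1 h2
    obtain ⟨ui, hui⟩ := hnu.exists_right_inv
    exact ⟨t₀ * ui, by rw [ht₀, hnS]; linear_combination -(c ^ v * t₀) * hui⟩
  choose t ht using ht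
  refine ⟨t, fun R Q d hQ j => ?_⟩
  rw [hψπ]
  have hQ' := fun k => hSm k R _ (hQ.2 (br k))
  obtain ⟨Q₁, d₁, hd₁, hQ₁⟩ := S.exists_approx_brExt hp2 hpM hres hN hf (R + v + e)
  have h1 : c ^ R ∣ ψ d₁ * t j - ψ (Glue.polyTrace (C.lamV hp2 hpM) (Q₁ * X ^ j)) := by
    have h2 := key _ _ _ hd₁ hQ₁ j
    rw [Nat.add_sub_cancel, ht, hnS, add_comm R v, pow_add,
      show ψ d₁ * (PowerSeries.C (un : C.B) * c ^ v * t j) - PowerSeries.C (un : C.B) * c ^ v *
          ψ (Glue.polyTrace (C.lamV hp2 hpM) (Q₁ * X ^ j)) =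
        c ^ v * (PowerSeries.C (un : C.B) *
          (ψ d₁ * t j - ψ (Glue.polyTrace (C.lamV hp2 hpM) (Q₁ * X ^ j)))) by ring,
      mul_dvd_mul_iff_left (pow_ne_zero _ hc.ne_zero), hnu.dvd_mul_left] at h2
    exact h2
  have h2 : c ^ (R - e) ∣ ψ d₁ * ψ (Glue.polyTrace (C.lamV hp2 hpM) (Q * X ^ j)) -
      ψ d * ψ (Glue.polyTrace (C.lamV hp2 hpM) (Q₁ * X ^ j)) := by
    rw [Glue.map_polyTrace_map ψ (C.lamV_monic hp2 hpM),
      Glue.map_polyTrace_map ψ (C.lamV_monic hp2 hpM), ← Glue.polyTrace_C_mul,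
      ← Glue.polyTrace_C_mul, ← Glue.polyTrace_sub]
    set P := Polynomial.C (ψ d₁) * (Q * X ^ j).map ψ - Polynomial.C (ψ d) * (Q₁ * X ^ j).map ψ
    refine Glue.dvd_polyTrace (C.node_saturated hum hM.coord (R - e) (P %ₘ V) ?_ ?_)
    · have := natDegree_modByMonic_lt P hVm (fun h => by
        rw [h, natDegree_one] at hVd; omega)
      omega
    · have hPV : (P %ₘ V).eval₂ E Y = P.eval₂ E Y := by
        conv_rhs => rw [← modByMonic_add_div P (q := V)]
        rw [eval₂_add, eval₂_mul, hVY, zero_mul, add_zero]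
      rw [hPV]
      have g1 := (node_congr hp2 hpM hM hG hGw hQ.1 hQ').mul_left (E (ψ d₁) * Y ^ j)
      have g2 := ((pow_dvd_pow _ (show R - e ≤ R + v + e - e by omega)).trans
        (node_congr hp2 hpM hM hG hGw hd₁ hQ₁)).mul_left (E (ψ d) * Y ^ j)
      have g3 := dvd_sub g2 g1
      convert g3 using 1
      simp only [P, eval₂_sub, eval₂_mul, eval₂_C, eval₂_map, eval₂_X_pow, Coeff.nHom,
        RingHom.comp_apply]
      simp only [E]
      ring
  refine hc.pow_dvd_of_dvd_mul_left _ (hdne hd₁) ?_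
  have h3 := dvd_sub h2 (((pow_dvd_pow c (Nat.sub_le R e)).trans h1).mul_left (ψ d))
  convert h3 using 1
  ring

include hp2 hpM in
/-- The case of the supersingular points in `HasPointTraces`. -/
theorem exists_traceVals_supersingular (hres : ∃ w, coeffMap (residue C.B) S.s₁ = w ^ p) {N : ℕ}
    {f : C.glueRing M}
    (hf : (f : LaurentSeries ℂ) =
      coeffMap C.B.subtype (HahnSeries.C C.unif ^ N * qExpand C.B (2 * M) S.s₁))
    (hpN : p ∣ N) (hNj : p * (S.j₁ - S.j₂).natAbs ≤ N) :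
    ∃ e : ℕ, ∀ s : LRing (2 * M) C.B →+* ResidueField C.B,
      Points.IsPoint (C.levelHyp hp2 hpM) s →
      (ordPoly p hp2).eval₂ (have := C.charP; ZMod.castHom dvd_rfl (ResidueField C.B))
        (s (C.lamL hp2 hpM)) = 0 →
      ∃ ψ, Points.IsDisc (C.levelHyp hp2 hpM) s ψ ∧
        ∃ t, Glue.IsTraceVals p (C.glueMap M) (C.glueGen hp2 hpM) f (C.piA M) (C.lamV hp2 hpM)
          (C.glueSm hp2 hpM) ψ t e := by
  obtain ⟨N₁, rfl⟩ := hpN
  have h := Nat.le_of_mul_le_mul_left hNj hp.out.pos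
  obtain ⟨N₂, hN⟩ : ∃ N₂ : ℕ, (N₂ : ℤ) = N₁ + S.j₁ - S.j₂ :=
    ⟨_, Int.toNat_of_nonneg (by omega)⟩
  exact ⟨p + p * max N₁ N₂, fun s hs hord => S.exists_traceVals_node hp2 hpM hres hN hf id
    (fun k R x hx => hx) s hs hord⟩

end Setting

end Fermat.Agent.AtP
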