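import Fermat.Agent.AtP.GlueTrace
import Mathlib.RingTheory.IntegralClosure.IntegralRestrict
import Mathlib.FieldTheory.IntermediateField.Adjoin.Basic
import Mathlib.RingTheory.Localization.Integral

/-!
# Traces of a finite extension on the subring generated by a root

For a finite extension `R / S` of normal domains and a root `y ∈ R` of the monic `V`, of least
degree, the trace of `R / S` on `S[y]` is a multiple of the trace of `S[X] / (V)`. Also: divisibility
by powers of two primes passes between two roots of `V`.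
-/

set_option autoImplicit false

noncomputable section

open Polynomial IntermediateField
open scoped nonZeroDivisors

namespace Fermat.Agent.AtP.Glue

section PolyTrace

variable {A : Type*} [CommRing A]

/-- The trace of polynomials is additive. -/
theorem polyTrace_sub (V P Q : A[X]) : polyTrace V (P - Q) = polyTrace V P - polyTrace V Q := by
  rw [polyTrace, map_sub, map_sub]; rfl

/-- The trace of polynomials is linear over `A`. -/
theorem polyTrace_C_mul (V : A[X]) (c : A) (P : A[X]) :
    polyTrace V (C c * P) = c * polyTrace V P := by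
  rw [polyTrace, ← smul_eq_C_mul, ← AdjoinRoot.smul_mk, map_smul, smul_eq_mul]
  rfl

theorem polyTrace_modByMonic (V P : A[X]) : polyTrace V (P %ₘ V) = polyTrace V P := by
  conv_rhs => rw [← modByMonic_add_div P (q := V)]
  rw [polyTrace, polyTrace, map_add (AdjoinRoot.mk V) (P %ₘ V), map_mul, AdjoinRoot.mk_self,
    zero_mul, add_zero]

/-- If the remainder is divisible by a constant, so is the trace. -/
theorem dvd_polyTrace {V P : A[X]} {c : A} (h : C c ∣ P %ₘ V) : c ∣ polyTrace V P := by
  obtain ⟨P', hP'⟩ := h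
  rw [← polyTrace_modByMonic, hP', polyTrace_C_mul]
  exact dvd_mul_right _ _

theorem polyTrace_eq_sum {V : A[X]} (hV : V.Monic) (Q : A[X]) :
    polyTrace V Q = ∑ i ∈ Finset.range V.natDegree, ((Q * X ^ i) %ₘ V).coeff i := by
  rw [polyTrace, Algebra.trace_eq_matrix_trace (AdjoinRoot.powerBasisAux' hV), Matrix.trace,
    Finset.sum_range]
  refine Finset.sum_congr rfl fun i _ => ?_
  have hb : AdjoinRoot.powerBasisAux' hV i = AdjoinRoot.mk V (X ^ (i : ℕ)) := by
    have h := (AdjoinRoot.powerBasis' hV).basis_eq_pow i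
    rw [map_pow, AdjoinRoot.mk_X]
    exact h
  rw [Matrix.diag_apply, Algebra.leftMulMatrix_eq_repr_mul, hb, ← map_mul,
    AdjoinRoot.powerBasisAux'_repr_apply_to_fun, AdjoinRoot.modByMonicHom_mk]

/-- The trace commutes with change of the coefficients. -/
theorem map_polyTrace_map {A' : Type*} [CommRing A'] [Nontrivial A'] (f : A →+* A') {V : A[X]}
    (hV : V.Monic) (Q : A[X]) : f (polyTrace V Q) = polyTrace (V.map f) (Q.map f) := by
  rw [polyTrace_eq_sum hV, polyTrace_eq_sum (hV.map f), hV.natDegree_map f, map_sum]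
  refine Finset.sum_congr rfl fun i _ => ?_
  rw [← coeff_map, map_modByMonic f hV, Polynomial.map_mul, Polynomial.map_pow, map_X]

end PolyTrace

section Trace

attribute [local instance] FractionRing.liftAlgebra FractionRing.isScalarTower_liftAlgebra

variable {S R : Type*} [CommRing S] [IsDomain S] [IsIntegrallyClosed S] [CommRing R] [IsDomain R]
  [IsIntegrallyClosed R]

/-- **The trace on the subring generated by a root.** -/
theorem exists_trace (f : S →+* R) (hfin : f.Finite) (hf : Function.Injective f) {V : S[X]}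
    (hV : V.Monic) {y : R} (hy : V.eval₂ f y = 0)
    (hindep : ∀ P : S[X], P.natDegree < V.natDegree → P.eval₂ f y = 0 → P = 0) :
    ∃ (τ : R →+ S) (n : ℕ), 0 < n ∧ (∀ a x, τ (f a * x) = a * τ x) ∧
      ∀ P : S[X], τ (P.eval₂ f y) = n * polyTrace V P := by
  classical
  let _ := f.toAlgebra
  have : Module.Finite S R := hfin
  have : FaithfulSMul S R := (faithfulSMul_iff_algebraMap_injective S R).2 hf
  have : IsIntegralClosure R S (FractionRing R) := IsIntegralClosure.of_isIntegrallyClosed _ _ _
  have : Algebra.IsAlgebraic (FractionRing S) (FractionRing R) :=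
    isAlgebraic_of_isFractionRing S R ..
  have : IsLocalization (Algebra.algebraMapSubmonoid R S⁰) (FractionRing R) :=
    IsIntegralClosure.isLocalization _ (FractionRing S) _ _
  have : FiniteDimensional (FractionRing S) (FractionRing R) := .of_isLocalization S R S⁰
  set L := FractionRing S
  set y' := algebraMap R (FractionRing R) y with hy'
  set VL := V.map (algebraMap S L) with hVL
  have hev : ∀ P : S[X], aeval y' (P.map (algebraMap S L)) =
      algebraMap R (FractionRing R) (P.eval₂ f y) := fun P => by
    rw [aeval_def, eval₂_map, hom_eval₂, ← IsScalarTower.algebraMap_eq S L (FractionRing R),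
      IsScalarTower.algebraMap_eq S R (FractionRing R), RingHom.algebraMap_toAlgebra]
  have hroot : aeval y' VL = 0 := by rw [hev, hy, map_zero]
  have hmin : VL = minpoly L y' := by
    refine minpoly.unique' _ _ (hV.map _) hroot fun q hq => or_iff_not_imp_left.2 fun hq0 hq1 => ?_
    obtain ⟨b, hb, hbq⟩ := IsLocalization.integerNormalization_spec S⁰ q
    set q₀ := IsLocalization.integerNormalization S⁰ q
    refine hq0 ((IsLocalization.integerNormalization_eq_zero_iff (M := S⁰) le_rfl q).1
      (hindep q₀ ?_ ?_))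
    · have hne : q₀ ≠ 0 := fun h => hq0
        ((IsLocalization.integerNormalization_eq_zero_iff (M := S⁰) le_rfl q).1 h)
      have hdeg : q₀.natDegree ≤ q.natDegree := by
        refine natDegree_le_iff_coeff_eq_zero.2 fun i hi => notMem_support_iff.1 fun h => ?_
        exact (le_natDegree_of_mem_supp i (IsLocalization.integerNormalization_support S⁰ q h)).not_gt hi
      refine lt_of_le_of_lt hdeg ?_
      rw [← hV.natDegree_map (algebraMap S L)]
      exact natDegree_lt_natDegree hq0 hq
    · refine IsFractionRing.injective R (FractionRing R) ?_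
      rw [← hev, hbq, map_zero, Algebra.smul_def, map_mul, hq1, mul_zero]
  have hint : IsIntegral L y' := ⟨VL, hV.map _, hroot⟩
  refine ⟨(Algebra.intTrace S R).toAddMonoidHom, Module.finrank L⟮y'⟯ (FractionRing R),
    Module.finrank_pos, fun a x => ?_, fun P => ?_⟩
  · show Algebra.intTrace S R (f a * x) = a * Algebra.intTrace S R x
    rw [← RingHom.algebraMap_toAlgebra f, ← Algebra.smul_def, map_smul, smul_eq_mul]
  refine IsFractionRing.injective S L ?_
  show algebraMap S L (Algebra.intTrace S R (P.eval₂ f y)) = _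
  rw [Algebra.algebraMap_intTrace_fractionRing, ← hev, map_mul, map_natCast]
  set PL := P.map (algebraMap S L)
  have hgen : aeval y' PL = algebraMap L⟮y'⟯ (FractionRing R) (aeval (AdjoinSimple.gen L y') PL) := by
    rw [← aeval_algebraMap_apply, AdjoinSimple.algebraMap_gen]
  rw [hgen, ← Algebra.trace_trace (S := L⟮y'⟯), Algebra.trace_algebraMap, map_nsmul, nsmul_eq_mul]
  congr 1
  have he : adjoinRootEquivAdjoin L hint (AdjoinRoot.mk (minpoly L y') PL) =
      aeval (AdjoinSimple.gen L y') PL := by
    refine (congrArg _ (AdjoinRoot.aeval_eq PL).symm).trans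
      ((hom_eval₂ PL (algebraMap L (AdjoinRoot (minpoly L y')))
        (adjoinRootEquivAdjoin L hint : AdjoinRoot (minpoly L y') →+* L⟮y'⟯) _).trans ?_)
    rw [aeval_def]
    congr 1
    · exact RingHom.ext fun l => (adjoinRootEquivAdjoin L hint).commutes l
    · exact adjoinRootEquivAdjoin_apply_root L hint
  rw [← he, Algebra.trace_eq_of_algEquiv, map_polyTrace_map _ hV, ← hVL, hmin]
  rfl

end Trace

/-- Divisibility by powers of primes over `π` passes between two roots of `V`, when `V ≡ W G`
modulo `π`, `W` is invertible at both and `G` is irreducible at the first. -/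
theorem pow_dvd_eval₂_of_branch {A S R : Type*} [CommRing A] [CommRing S] [IsDomain S]
    [CommRing R] [IsDomain R] {φ : A →+* S} {Ψ : A →+* R} {z : S} {y : R} {π : A}
    {G W V H : A[X]} (hWG : W * G = V + C π * H) (hG : G.Monic) (hG0 : G ≠ 1)
    {P x : S} (hP : Prime P) (hπ : φ π = P * x) (hx : ¬ P ∣ x)
    {Q x' : R} (hQ : Prime Q) (hπ' : Ψ π = Q * x')
    (hz : V.eval₂ φ z = 0) (hy : V.eval₂ Ψ y = 0)
    (hWz : ¬ P ∣ W.eval₂ φ z) (hWy : ¬ Q ∣ W.eval₂ Ψ y)
    (hindep : ∀ F : A[X], F.natDegree < G.natDegree → P ∣ F.eval₂ φ z → C π ∣ F) :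
    ∀ (n : ℕ) (F : A[X]), P ^ n ∣ F.eval₂ φ z → Q ^ n ∣ F.eval₂ Ψ y := by
  have hGz : P ∣ G.eval₂ φ z := by
    refine (hP.dvd_or_dvd ⟨x * H.eval₂ φ z, ?_⟩).resolve_left hWz
    rw [← eval₂_mul, hWG, eval₂_add, hz, zero_add, eval₂_mul, eval₂_C, hπ, mul_assoc]
  intro n
  induction n with
  | zero => intro F _; simp
  | succ n ih =>
    intro F hF
    set F₁ := F /ₘ G
    have hdiv : F %ₘ G + G * F₁ = F := modByMonic_add_div F _
    obtain ⟨F₂, hF₂⟩ : C π ∣ F %ₘ G := by
      refine hindep _ (natDegree_modByMonic_lt F hG hG0) ?_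
      have h1 := congrArg (eval₂ φ z) hdiv
      rw [eval₂_add, eval₂_mul] at h1
      rw [show (F %ₘ G).eval₂ φ z = F.eval₂ φ z - G.eval₂ φ z * F₁.eval₂ φ z by
        linear_combination h1]
      exact dvd_sub ((dvd_pow_self _ n.succ_ne_zero).trans hF) (hGz.mul_right _)
    set F' := W * F₂ + H * F₁
    have hid : W * F = C π * F' + V * F₁ := by
      linear_combination (-W) * hdiv + W * hF₂ + F₁ * hWG
    have hz' := congrArg (eval₂ φ z) hid
    have hy' := congrArg (eval₂ Ψ y) hid
    simp only [eval₂_add, eval₂_mul, eval₂_C, hz, hy, zero_mul, add_zero] at hz' hy'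
    have h2 : P ^ n ∣ F'.eval₂ φ z := by
      have h3 := hF.mul_left (W.eval₂ φ z)
      rw [hz', hπ, pow_succ', mul_assoc, mul_dvd_mul_iff_left hP.ne_zero] at h3
      exact hP.pow_dvd_of_dvd_mul_left n hx h3
    have h4 : Q ^ (n + 1) ∣ W.eval₂ Ψ y * F.eval₂ Ψ y := by
      rw [hy', hπ', mul_assoc, pow_succ']
      exact mul_dvd_mul_left Q ((ih F' h2).mul_left _)
    exact hQ.pow_dvd_of_dvd_mul_left _ hWy h4

end Fermat.Agent.AtP.Glue
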