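import Fermat.Agent.AtP.AssemblyNodeCoord
import Mathlib.RingTheory.AdicCompletion.Functoriality
import Mathlib.RingTheory.Finiteness.Basic

/-!
# The node ring is finite over the power series in a coordinate

If `u` vanishes at the node but on neither branch modulo `ϖ`, then `B⟦T⟧ → Node ϖ`, `T ↦ u`, is
injective and finite.
-/

set_option autoImplicit false

noncomputable section

open IsLocalRing
open scoped PowerSeries

namespace Fermat.Agent.AtP

/-- Finite powers of a precomplete ring are precomplete. -/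
theorem isPrecomplete_pi_fintype {R : Type*} [CommRing R] (I : Ideal R) [IsPrecomplete I R]
    (ι : Type*) [Fintype ι] : IsPrecomplete I (ι → R) := by
  classical
  have hmem : ∀ (n : ℕ) (x : ι → R),
      x ∈ (I ^ n • ⊤ : Submodule R (ι → R)) ↔ ∀ i, x i ∈ I ^ n := by
    intro n x
    constructor
    · intro hx i
      induction hx using Submodule.smul_induction_on' with
      | smul r hr y _ => exact Ideal.mul_mem_right _ _ hr
      | add a _ b _ ha hb => exact add_mem ha hb
    · intro hx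
      rw [pi_eq_sum_univ x]
      exact sum_mem fun i _ => Submodule.smul_mem_smul (hx i) Submodule.mem_top
  refine ⟨fun f hf => ?_⟩
  have hc : ∀ i, ∃ L : R, ∀ n, f n i ≡ L [SMOD (I ^ n • ⊤ : Submodule R R)] := fun i =>
    IsPrecomplete.prec inferInstance fun {m n} hmn => by
      rw [SModEq.sub_mem, smul_eq_mul, Ideal.mul_top]
      exact (hmem m _).1 (SModEq.sub_mem.1 (hf hmn)) i
  choose L hL using hc
  refine ⟨L, fun n => SModEq.sub_mem.2 ((hmem n _).2 fun i => ?_)⟩
  have := SModEq.sub_mem.1 (hL i n)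
  rwa [smul_eq_mul, Ideal.mul_top] at this

/-- A complete base and a separated target: generators modulo `m S` generate. -/
theorem finite_of_generators {R S : Type*} [CommRing R] [CommRing S] (g : R →+* S) (m : Ideal R)
    [IsPrecomplete m R] [IsHausdorff (m.map g) S] {ι : Type*} [Fintype ι] (v : ι → S)
    (h : ∀ y, ∃ c : ι → R, y - ∑ i, g (c i) * v i ∈ m.map g) : g.Finite := by
  classical
  let := g.toAlgebra
  show Module.Finite R S
  have : IsHausdorff m S :=
    IsHausdorff.map_algebraMap_iff.mp (show IsHausdorff (m.map (algebraMap R S)) S from inferInstance)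
  have := isPrecomplete_pi_fintype m ι
  refine Module.Finite.of_surjective (Fintype.linearCombination R v)
    (surjective_of_mkQ_comp_surjective (I := m) fun y => ?_)
  obtain ⟨r, rfl⟩ := Submodule.mkQ_surjective _ y
  obtain ⟨c, hc⟩ := h r
  refine ⟨c, (Submodule.Quotient.eq _).2 ?_⟩
  rw [Ideal.smul_top_eq_map, Submodule.restrictScalars_mem, Fintype.linearCombination_apply]
  have := neg_mem hc
  rw [neg_sub] at this
  simpa only [Algebra.smul_def, RingHom.algebraMap_toAlgebra] using this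

variable {B : Type} [CommRing B] [IsDomain B] [IsDiscreteValuationRing B] {ϖ : B}
  (hϖ : Irreducible ϖ)

section

variable [IsLocalRing (Node ϖ)]

include hϖ in
/-- Elements of the maximal ideal vanish at the node. -/
theorem constantCoeff_q₁_eq_zero {r : Node ϖ} (hr : r ∈ maximalIdeal (Node ϖ)) :
    PowerSeries.constantCoeff (q₁ ϖ (mem_max_of_irreducible hϖ) r) = 0 :=
  not_not.mp fun h => (mem_maximalIdeal r).1 hr (isUnit_of_constantCoeff_ne_zero ϖ _ h)

include hϖ in
theorem nc_mem_maximalIdeal {b : B} (hb : b ∈ maximalIdeal B) :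
    nc ϖ b ∈ maximalIdeal (Node ϖ) := by
  refine (mem_maximalIdeal _).2 fun hu => ?_
  have := (hu.map (q₁ ϖ (mem_max_of_irreducible hϖ))).map PowerSeries.constantCoeff
  rw [q₁_nc, PowerSeries.constantCoeff_C, (residue_eq_zero_iff b).2 hb] at this
  exact not_isUnit_zero this

variable [IsAdicComplete (maximalIdeal (Node ϖ)) (Node ϖ)] {u : Node ϖ}
  (hum : u ∈ maximalIdeal (Node ϖ))

include hϖ in
/-- A series nonzero modulo `ϖ` is nonzero on a branch where the coordinate is. -/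
theorem q₁_evalSeries_ne_zero_of_ne (hq : q₁ ϖ (mem_max_of_irreducible hϖ) u ≠ 0) {F : B⟦X⟧}
    (hF : PowerSeries.map (residue B) F ≠ 0) :
    q₁ ϖ (mem_max_of_irreducible hϖ) (evalSeries (nc ϖ) u hum F) ≠ 0 := by
  set F₁ := PowerSeries.map (residue B) F
  have hX := PowerSeries.X_pow_order_mul_divXPowOrder (f := F₁)
  obtain ⟨G, hG⟩ := map_residue_surjective (B := B) (PowerSeries.divXPowOrder F₁)
  obtain ⟨R, hR⟩ := dvd_of_map_residue_eq_zero hϖ
    (show PowerSeries.map (residue B) (F - PowerSeries.X ^ F₁.order.toNat * G) = 0 by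
      rw [map_sub, map_mul, map_pow, PowerSeries.map_X, hG, hX, sub_self])
  have hunit : IsUnit G := by
    rw [PowerSeries.isUnit_iff_constantCoeff, ← residue_ne_zero_iff_isUnit]
    have h0 := (PowerSeries.constantCoeff_divXPowOrder_eq_zero_iff (f := F₁)).not.2 hF
    rwa [← hG, ← PowerSeries.coeff_zero_eq_constantCoeff_apply, PowerSeries.coeff_map,
      PowerSeries.coeff_zero_eq_constantCoeff_apply] at h0
  rw [sub_eq_iff_eq_add'] at hR
  rw [hR]
  simp only [map_add, map_mul, map_pow, evalSeries_X, evalSeries_C, q₁_nc,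
    (residue_eq_zero_iff ϖ).2 (mem_max_of_irreducible hϖ), map_zero, zero_mul, add_zero]
  exact mul_ne_zero (pow_ne_zero _ hq) ((hunit.map _).map _).ne_zero

include hϖ in
/-- `T ↦ u` is injective. -/
theorem evalSeries_injective_node (hq : q₁ ϖ (mem_max_of_irreducible hϖ) u ≠ 0) :
    Function.Injective (evalSeries (nc ϖ) u hum) := by
  have := isDomain_node hϖ
  have hnc : nc ϖ ϖ ≠ 0 := by
    rw [← nx_mul_ny]; exact mul_ne_zero (nx_ne_zero hϖ) (ny_ne_zero hϖ)
  rw [injective_iff_map_eq_zero]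
  intro F hF
  by_contra h0
  have hsep : ∀ (n : ℕ) (F : B⟦X⟧), evalSeries (nc ϖ) u hum F = 0 →
      PowerSeries.C ϖ ^ n ∣ F := by
    intro n
    induction n with
    | zero => intro F _; simp
    | succ n ih =>
      intro F hF
      obtain ⟨G, rfl⟩ := dvd_of_map_residue_eq_zero hϖ (by
        by_contra h
        exact q₁_evalSeries_ne_zero_of_ne hϖ hum hq h (by rw [hF, map_zero]))
      rw [map_mul, evalSeries_C] at hF
      rw [pow_succ']
      exact mul_dvd_mul_left _ (ih G ((mul_eq_zero.1 hF).resolve_left hnc))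
  obtain ⟨i, hi⟩ := (PowerSeries.exists_coeff_ne_zero_iff_ne_zero (φ := F)).2 h0
  obtain ⟨n, v, hv⟩ := IsDiscreteValuationRing.eq_unit_mul_pow_irreducible hi hϖ
  obtain ⟨G, hG⟩ := hsep (n + 1) F hF
  rw [hG, ← map_pow, PowerSeries.coeff_C_mul] at hv
  have : ϖ ^ (n + 1) ∣ ↑v * ϖ ^ n := ⟨_, hv.symm⟩
  rw [pow_succ', mul_dvd_mul_iff_right (pow_ne_zero n hϖ.ne_zero)] at this
  exact hϖ.not_isUnit (isUnit_of_dvd_unit this v.isUnit)

omit [IsDomain B] [IsDiscreteValuationRing B] [IsLocalRing (Node ϖ)]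
  [IsAdicComplete (maximalIdeal (Node ϖ)) (Node ϖ)] in
/-- A power of a coordinate lies in the ideal generated by `ϖ` and `u`. -/
theorem exists_pow_mem_span {u z z' : Node ϖ} (hzz : z * z' = nc ϖ ϖ) {k : Type*} [Field k]
    {q : Node ϖ →+* k⟦X⟧} (hker : RingHom.ker q = Ideal.span {z'}) (hqz : q z = PowerSeries.X)
    (hsurj : Function.Surjective q)
    (hunit : ∀ r, PowerSeries.constantCoeff (q r) ≠ 0 → IsUnit r) (hqu : q u ≠ 0) :
    ∃ a : ℕ, z ^ a ∈ Ideal.span {nc ϖ ϖ, u} := by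
  obtain ⟨g, hg⟩ := hsurj (PowerSeries.divXPowOrder (q u))
  have hgu : IsUnit g := hunit g (by
    rw [hg]; exact (PowerSeries.constantCoeff_divXPowOrder_eq_zero_iff).not.2 hqu)
  have hk : u - z ^ (q u).order.toNat * g ∈ RingHom.ker q := by
    rw [RingHom.mem_ker, map_sub, map_mul, map_pow, hqz, hg,
      PowerSeries.X_pow_order_mul_divXPowOrder, sub_self]
  rw [hker, Ideal.mem_span_singleton'] at hk
  obtain ⟨d, hd⟩ := hk
  obtain ⟨g, rfl⟩ := hgu
  refine ⟨(q u).order.toNat + 1, Ideal.mem_span_pair.2 ⟨-(d * ↑g⁻¹), z * ↑g⁻¹, ?_⟩⟩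
  have hgg : (g : Node ϖ) * ↑g⁻¹ = 1 := g.mul_inv
  rw [← hzz, pow_succ]
  linear_combination (-(z * ↑g⁻¹ : Node ϖ)) * hd + (z ^ (q u).order.toNat * z) * hgg

variable [IsAdicComplete (maximalIdeal B) B]
include hϖ

/-- **`T ↦ u` makes the node ring a finite module.** -/
theorem evalSeries_finite_node (hq₁ : q₁ ϖ (mem_max_of_irreducible hϖ) u ≠ 0)
    (hq₂ : q₂ ϖ (mem_max_of_irreducible hϖ) u ≠ 0) :
    (evalSeries (nc ϖ) u hum).Finite := by
  classical
  set g := evalSeries (nc ϖ) u hum with hg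
  have := isAdicComplete_powerSeries (B := B)
  set m := maximalIdeal B⟦X⟧ with hm
  have hgm : m.map g ≤ maximalIdeal (Node ϖ) := by
    refine Ideal.map_le_iff_le_comap.2 fun F hF => ?_
    rw [Ideal.mem_comap, PowerSeries.eq_X_mul_shift_add_const F, map_add, map_mul, hg,
      evalSeries_X, evalSeries_C]
    refine add_mem (Ideal.mul_mem_right _ _ hum) (nc_mem_maximalIdeal hϖ ?_)
    rw [hm, mem_maximalIdeal, mem_nonunits_iff, PowerSeries.isUnit_iff_constantCoeff] at hF
    exact (mem_maximalIdeal _).2 hF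
  have : IsHausdorff (m.map g) (Node ϖ) := ⟨fun x hx => by
    refine IsHausdorff.haus (I := maximalIdeal (Node ϖ)) inferInstance x fun n => ?_
    have h := hx n
    rw [SModEq.zero, smul_eq_mul, Ideal.mul_top] at h ⊢
    exact Ideal.pow_right_mono hgm n h⟩
  set hm' := mem_max_of_irreducible hϖ
  obtain ⟨a, ha⟩ := exists_pow_mem_span (u := u) (nx_mul_ny ϖ) (q := q₁ ϖ hm') (ker_q₁ hϖ)
    (q₁_nx ϖ hm') (q₁_surjective ϖ hm') (fun r => isUnit_of_constantCoeff_ne_zero ϖ hm') hq₁
  obtain ⟨b, hb⟩ := exists_pow_mem_span (u := u) ((mul_comm _ _).trans (nx_mul_ny ϖ))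
    (q := q₂ ϖ hm') (ker_q₂ hϖ) (by simp [q₂]) (q₂_surjective ϖ hm')
    (fun r h => isUnit_of_constantCoeff_ne_zero ϖ hm' (by rwa [← constantCoeff_q₂])) hq₂
  set J : Ideal (Node ϖ) := Ideal.span {nc ϖ ϖ, u} with hJdef
  set N := a + b + 1 with hNdef
  let v : Fin N ⊕ Fin N → Node ϖ := Sum.elim (fun i => nx ϖ ^ (i : ℕ)) (fun i => ny ϖ ^ (i : ℕ))
  have hJ : J ≤ m.map g := by
    rw [hJdef, Ideal.span_le]
    rintro z (rfl | rfl)
    · rw [← evalSeries_C (nc ϖ) u hum ϖ]
      exact Ideal.mem_map_of_mem _ ((mem_maximalIdeal _).2 fun h => hϖ.not_isUnit (by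
        simpa [PowerSeries.isUnit_iff_constantCoeff] using h))
    · rw [← evalSeries_X (nc ϖ) z hum]
      exact Ideal.mem_map_of_mem _ ((mem_maximalIdeal _).2 fun h => not_isUnit_zero
        (PowerSeries.constantCoeff_X (R := B) ▸ PowerSeries.isUnit_iff_constantCoeff.1 h :
          IsUnit (0 : B)))
  refine finite_of_generators g m v fun r => ?_
  let P : Node ϖ → Prop := fun y => ∃ c : Fin N ⊕ Fin N → B⟦X⟧, y - ∑ i, g (c i) * v i ∈ J
  suffices hP : P r from hP.imp fun c hc => hJ hc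
  have hadd : ∀ y z, P y → P z → P (y + z) := by
    rintro y z ⟨c, hc⟩ ⟨d, hd⟩
    refine ⟨c + d, ?_⟩
    have := add_mem hc hd
    convert this using 1
    simp only [Pi.add_apply, map_add, add_mul, Finset.sum_add_distrib]
    ring
  have hPJ : ∀ y ∈ J, P y := fun y hy => ⟨0, by simpa using hy⟩
  have hv : ∀ (c : B) (i : Fin N ⊕ Fin N), P (nc ϖ c * v i) := fun c i => by
    refine ⟨Pi.single i (PowerSeries.C c), ?_⟩
    rw [Finset.sum_eq_single i (fun j _ hj => by rw [Pi.single_eq_of_ne hj, map_zero, zero_mul])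
      (fun h => absurd (Finset.mem_univ i) h), Pi.single_eq_same, hg, evalSeries_C, sub_self]
    exact zero_mem _
  have hstep : ∀ r' : Node ϖ, ∃ (c : B) (s t : Node ϖ),
      r' = nc ϖ c + nx ϖ * s + ny ϖ * t := by
    intro r'
    obtain ⟨c, hc⟩ := residue_surjective (PowerSeries.constantCoeff (q₁ ϖ hm' r'))
    have hr : r' - nc ϖ c ∈ maximalIdeal (Node ϖ) := by
      refine (mem_maximalIdeal _).2 fun h => ?_
      have := (h.map (q₁ ϖ hm')).map PowerSeries.constantCoeff
      rw [map_sub, map_sub, q₁_nc, PowerSeries.constantCoeff_C, hc, sub_self] at this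
      exact not_isUnit_zero this
    rw [maximalIdeal_node hϖ, Ideal.mem_span_pair] at hr
    obtain ⟨s, t, hst⟩ := hr
    exact ⟨c, s, t, by linear_combination -hst⟩
  have hxy : ∀ w : Node ϖ, P (nx ϖ * ny ϖ * w) := fun w => hPJ _ (by
    rw [nx_mul_ny]
    exact J.mul_mem_right w (Ideal.subset_span (Set.mem_insert _ _)))
  have hmain : ∀ n, n ≤ N → ∀ r' : Node ϖ, ∃ s t : Node ϖ,
      P (r' - (nx ϖ ^ n * s + ny ϖ ^ n * t)) := by
    intro n
    induction n with
    | zero => exact fun _ r' => ⟨r', 0, hPJ _ (by simp)⟩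
    | succ n ih =>
      intro hn r'
      obtain ⟨s, t, h⟩ := ih (by omega) r'
      obtain ⟨c, s₁, t₁, hs⟩ := hstep s
      obtain ⟨c', s₂, t₂, ht⟩ := hstep t
      have hx : P (nc ϖ c * nx ϖ ^ n) := hv c (Sum.inl ⟨n, by omega⟩)
      have hy : P (nc ϖ c' * ny ϖ ^ n) := hv c' (Sum.inr ⟨n, by omega⟩)
      rcases Nat.eq_zero_or_pos n with rfl | hn0
      · refine ⟨s₁ + s₂, t₁ + t₂, ?_⟩
        have := hadd _ _ (hadd _ _ h hx) hy
        convert this using 1
        rw [hs, ht]; ring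
      · obtain ⟨n, rfl⟩ : ∃ k, n = k + 1 := ⟨n - 1, by omega⟩
        refine ⟨s₁, t₂, ?_⟩
        have := hadd _ _ (hadd _ _ (hadd _ _ h hx) hy)
          (hxy (nx ϖ ^ n * t₁ + ny ϖ ^ n * s₂))
        convert this using 1
        rw [hs, ht]; ring
  obtain ⟨s, t, hst⟩ := hmain N le_rfl r
  have hx : nx ϖ ^ N * s ∈ J := J.mul_mem_right _ (J.pow_mem_of_pow_mem ha (by omega))
  have hy : ny ϖ ^ N * t ∈ J := J.mul_mem_right _ (J.pow_mem_of_pow_mem hb (by omega))
  rw [← sub_add_cancel r (nx ϖ ^ N * s + ny ϖ ^ N * t)]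
  exact hadd _ _ hst (hPJ _ (add_mem hx hy))

end

namespace Coeff

variable {p : ℕ} [hp : Fact p.Prime] (C : Coeff p) {xbar : ResidueField C.B} {T Y : Node C.unif}
  {x₀ : C.B}

/-- The coordinate `T - x₀` is nonzero modulo `ϖ` on both branches. -/
theorem NodeCoord.q_ne_zero (hN : C.NodeCoord xbar T Y x₀) :
    q₁ C.unif (mem_max_of_irreducible C.irred) (T - nc C.unif x₀) ≠ 0 ∧
      q₂ C.unif (mem_max_of_irreducible C.irred) (T - nc C.unif x₀) ≠ 0 := by
  set hm := mem_max_of_irreducible C.irred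
  have := C.charP
  have : CharP (ResidueField C.B)⟦X⟧ p :=
    charP_of_injective_ringHom PowerSeries.C_injective p
  obtain ⟨c, -, hc⟩ := hN.coord₁
  obtain ⟨w, v, hw, -, hw0, -⟩ := hc.order
  obtain ⟨w', v', hw', -, hw0', -⟩ := hN.coord₂.order
  have h1 : q₁ C.unif hm (T - nc C.unif x₀) ≠ 0 := by
    rw [hw]
    exact mul_ne_zero (pow_ne_zero _ PowerSeries.X_ne_zero) fun h => hw0 (by rw [h, map_zero])
  refine ⟨h1, ?_⟩
  have h2 : q₂ C.unif hm (Y - nc C.unif (x₀ ^ p)) ≠ 0 := by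
    rw [q₂, RingHom.comp_apply, hw']
    exact mul_ne_zero (pow_ne_zero _ PowerSeries.X_ne_zero) fun h => hw0' (by rw [h, map_zero])
  have e : q₂ C.unif hm (T - nc C.unif x₀) = q₂ C.unif hm (Y - nc C.unif (x₀ ^ p)) ^ p +
      PowerSeries.C ((residue C.B x₀ ^ p) ^ p - residue C.B x₀) := by
    rw [hN.eq₁]
    simp only [map_sub, map_add, map_mul, map_pow, q₂, RingHom.comp_apply, swap_nx, swap_nc,
      q₁_ny, q₁_nc, zero_pow hp.out.ne_zero, mul_zero, zero_add, sub_pow_char]
    ring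
  have h0 : (residue C.B x₀ ^ p) ^ p - residue C.B x₀ = 0 := by
    have h := constantCoeff_q₂ C.unif hm (T - nc C.unif x₀)
    rw [e, map_add, map_pow, PowerSeries.constantCoeff_C, constantCoeff_q₂] at h
    have hnu : ∀ r : Node C.unif, r ∈ nonunits (Node C.unif) →
        PowerSeries.constantCoeff (q₁ C.unif hm r) = 0 :=
      fun r hr => not_not.mp fun h => hr (isUnit_of_constantCoeff_ne_zero _ hm h)
    rw [hnu _ hN.sub₁, hnu _ hN.sub₂, zero_pow hp.out.ne_zero, zero_add] at h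
    exact h
  rw [e, h0, map_zero, add_zero]
  exact pow_ne_zero _ h2

end Coeff

end Fermat.Agent.AtP
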