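import Fermat.Agent.AtP.AssemblyNode
import Fermat.Agent.AtP.NodeFinite
import Fermat.Agent.AtP.GlueCusp
import Fermat.Agent.AtP.GlueNodeTrace

/-!
# The two branches at infinity and at a supersingular node

Over the series in `T - x₀`, the element `Y` satisfies nothing of degree `≤ p` modulo `ϖ`.
Divisibility by powers of `y`, resp. `x`, in the node ring is divisibility by powers of `ϖ` on the
branches `λ (pτ) ≡ λ ^ p`, resp. `λ (pτ) ^ p ≡ λ`.
-/

set_option autoImplicit false

noncomputable section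

open UpperHalfPlane CongruenceSubgroup IsLocalRing
open Polynomial hiding comp
open scoped PowerSeries DualNumber MatrixGroups
open Fermat.Agent.KummerES
open ModularCurve (coeffMap qExpand)

namespace Fermat.Agent.AtP

/-- Series with distinct orders have nonzero sum. -/
theorem sum_ne_zero_of_orders {k ι : Type*} [Field k] {s : Finset ι} (hs : s.Nonempty)
    {f g : ι → PowerSeries k} {e : ι → ℕ} (hf : ∀ i ∈ s, f i = PowerSeries.X ^ e i * g i)
    (hg : ∀ i ∈ s, PowerSeries.constantCoeff (g i) ≠ 0)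
    (he : ∀ i ∈ s, ∀ j ∈ s, e i = e j → i = j) : ∑ i ∈ s, f i ≠ 0 := by
  obtain ⟨i₀, hi₀, hmin⟩ := s.exists_min_image e hs
  intro h
  have h1 := congrArg (PowerSeries.coeff (e i₀)) h
  rw [map_sum, map_zero, Finset.sum_eq_single i₀ (fun i hi hne => ?_) fun hn => absurd hi₀ hn] at h1
  · rw [hf i₀ hi₀, PowerSeries.coeff_X_pow_mul', if_pos le_rfl, Nat.sub_self,
      PowerSeries.coeff_zero_eq_constantCoeff_apply] at h1
    exact hg i₀ hi₀ h1
  · rw [hf i hi, PowerSeries.coeff_X_pow_mul', if_neg]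
    exact fun hle => hne (he i hi i₀ hi₀ (le_antisymm hle (hmin i hi)))

section Order

variable {B : Type} [CommRing B] [IsDomain B] [IsDiscreteValuationRing B] {ϖ : B}
  (hϖ : Irreducible ϖ) [IsLocalRing (Node ϖ)]
  [IsAdicComplete (maximalIdeal (Node ϖ)) (Node ϖ)]

include hϖ in
/-- The order on a branch of a function of the coordinate. -/
theorem exists_order_evalSeries {u : Node ϖ} (hum : u ∈ maximalIdeal (Node ϖ))
    {q : Node ϖ →+* PowerSeries (ResidueField B)}
    (hq : ∀ b, q (nc ϖ b) = PowerSeries.C (residue B b)) {m : ℕ}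
    {w : PowerSeries (ResidueField B)} (hw : q u = PowerSeries.X ^ m * w)
    (hw0 : PowerSeries.constantCoeff w ≠ 0) {F : B⟦X⟧}
    (hF : PowerSeries.map (residue B) F ≠ 0) :
    ∃ (n : ℕ) (g : PowerSeries (ResidueField B)), PowerSeries.constantCoeff g ≠ 0 ∧
      q (evalSeries (nc ϖ) u hum F) = PowerSeries.X ^ (m * n) * g := by
  set F₁ := PowerSeries.map (residue B) F
  obtain ⟨G, hG⟩ := map_residue_surjective (B := B) (PowerSeries.divXPowOrder F₁)
  obtain ⟨R, hR⟩ := dvd_of_map_residue_eq_zero hϖ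
    (show PowerSeries.map (residue B) (F - PowerSeries.X ^ F₁.order.toNat * G) = 0 by
      rw [map_sub, map_mul, map_pow, PowerSeries.map_X, hG,
        PowerSeries.X_pow_order_mul_divXPowOrder, sub_self])
  have hunit : IsUnit G := by
    rw [PowerSeries.isUnit_iff_constantCoeff, ← residue_ne_zero_iff_isUnit]
    have h0 := (PowerSeries.constantCoeff_divXPowOrder_eq_zero_iff (f := F₁)).not.2 hF
    rwa [← hG, ← PowerSeries.coeff_zero_eq_constantCoeff_apply, PowerSeries.coeff_map,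
      PowerSeries.coeff_zero_eq_constantCoeff_apply] at h0
  refine ⟨F₁.order.toNat, w ^ F₁.order.toNat * q (evalSeries (nc ϖ) u hum G), ?_, ?_⟩
  · rw [map_mul, map_pow]
    exact mul_ne_zero (pow_ne_zero _ hw0) (((hunit.map _).map q).map PowerSeries.constantCoeff).ne_zero
  · rw [sub_eq_iff_eq_add'] at hR
    rw [hR]
    simp only [map_add, map_mul, map_pow, evalSeries_X, evalSeries_C, hq, hw,
      (residue_eq_zero_iff ϖ).2 (mem_max_of_irreducible hϖ), map_zero, zero_mul, add_zero]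
    ring

end Order

namespace Coeff

attribute [local instance] isDomain_LRing

variable {p : ℕ} [hp : Fact p.Prime] (C : Coeff p) {M : ℕ} [NeZero M]
variable {xbar : ResidueField C.B} {T Y : Node C.unif} {x₀ : C.B}

omit hp in
theorem q₂_nc (b : C.B) :
    q₂ C.unif C.unif_mem (nc C.unif b) = PowerSeries.C (residue C.B b) := by
  rw [q₂, RingHom.comp_apply, swap_nc, q₁_nc]

omit hp in
theorem q₁_eq_zero_iff (r : Node C.unif) : q₁ C.unif C.unif_mem r = 0 ↔ ny C.unif ∣ r := by
  rw [← RingHom.mem_ker, ker_q₁ C.irred, Ideal.mem_span_singleton]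

omit hp in
theorem q₂_eq_zero_iff (r : Node C.unif) : q₂ C.unif C.unif_mem r = 0 ↔ nx C.unif ∣ r := by
  rw [← RingHom.mem_ker, ker_q₂ C.irred, Ideal.mem_span_singleton]

/-- The coordinates on the branch `x = 0`. -/
theorem NodeCoord.exists_q₂ (hN : C.NodeCoord xbar T Y x₀) :
    ∃ w : PowerSeries (ResidueField C.B), PowerSeries.constantCoeff w ≠ 0 ∧
      q₂ C.unif C.unif_mem (Y - nc C.unif (x₀ ^ p)) = PowerSeries.X ^ p * w ∧
      q₂ C.unif C.unif_mem T = q₂ C.unif C.unif_mem Y ^ p ∧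
      q₂ C.unif C.unif_mem (T - nc C.unif x₀) = PowerSeries.X ^ (p * p) * w ^ p := by
  have := C.charP
  have : CharP (PowerSeries (ResidueField C.B)) p :=
    charP_of_injective_ringHom PowerSeries.C_injective p
  obtain ⟨w, -, hw, -, hw0, -⟩ := hN.coord₂.order
  have hY : q₂ C.unif C.unif_mem (Y - nc C.unif (x₀ ^ p)) = PowerSeries.X ^ p * w := hw
  have hT : q₂ C.unif C.unif_mem T = q₂ C.unif C.unif_mem Y ^ p := by
    conv_lhs => rw [hN.eq₁]
    simp [q₂, zero_pow hp.out.ne_zero]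
  refine ⟨w, hw0, hY, hT, ?_⟩
  set c := PowerSeries.C ((residue C.B x₀ ^ p) ^ p - residue C.B x₀)
  have h1 : q₂ C.unif C.unif_mem (T - nc C.unif x₀) = PowerSeries.X ^ (p * p) * w ^ p + c := by
    rw [pow_mul, ← mul_pow, ← hY, map_sub, map_sub, hT, C.q₂_nc, C.q₂_nc, sub_pow_char,
      map_pow (residue C.B), show c = PowerSeries.C _ from rfl, map_sub]
    simp only [map_pow]
    ring
  have h0 : PowerSeries.constantCoeff (q₂ C.unif C.unif_mem (T - nc C.unif x₀)) = 0 := by
    rw [constantCoeff_q₂]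
    exact constantCoeff_q₁_eq_zero C.irred ((mem_maximalIdeal _).2 hN.sub₁)
  rw [h1, map_add, map_mul, map_pow, PowerSeries.constantCoeff_X,
    zero_pow (Nat.mul_ne_zero hp.out.ne_zero hp.out.ne_zero), zero_mul, zero_add,
    PowerSeries.constantCoeff_C] at h0
  rw [h1, show c = 0 by rw [show c = PowerSeries.C _ from rfl, h0, map_zero], add_zero]

variable (hum : T - nc C.unif x₀ ∈ maximalIdeal (Node C.unif))

/-- Functions of `T - x₀` vanishing on `y = 0` vanish modulo `ϖ`. -/
theorem C_dvd_of_ny_dvd (hN : C.NodeCoord xbar T Y x₀) {F : C.B⟦X⟧}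
    (h : ny C.unif ∣ evalSeries (nc C.unif) _ hum F) : PowerSeries.C C.unif ∣ F := by
  refine dvd_of_map_residue_eq_zero C.irred (by_contra fun hF => ?_)
  exact q₁_evalSeries_ne_zero_of_ne C.irred hum hN.q_ne_zero.1 hF ((C.q₁_eq_zero_iff _).2 h)

/-- `Y` satisfies nothing of degree `< p` on `x = 0`. -/
theorem C_dvd_of_nx_dvd (hN : C.NodeCoord xbar T Y x₀) {H : (C.B⟦X⟧)[X]} (hH : H.natDegree < p)
    (h : nx C.unif ∣ H.eval₂ (evalSeries (nc C.unif) _ hum) Y) :
    Polynomial.C (PowerSeries.C C.unif) ∣ H := by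
  classical
  obtain ⟨w, hw0, hY, -, hu⟩ := hN.exists_q₂
  set E := evalSeries (nc C.unif) _ hum
  set r := PowerSeries.map (residue C.B)
  set a : C.B⟦X⟧ := PowerSeries.C (x₀ ^ p)
  set H' := H.comp (X + Polynomial.C a)
  have hH' : H'.natDegree < p := by rwa [natDegree_comp, natDegree_X_add_C, mul_one]
  have hev : H'.eval₂ E (Y - nc C.unif (x₀ ^ p)) = H.eval₂ E Y := by
    rw [eval₂_comp, eval₂_add, eval₂_X, eval₂_C, evalSeries_C, sub_add_cancel]
  have h0 := (C.q₂_eq_zero_iff _).2 h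
  rw [← hev, eval₂_eq_sum_range' E hH', map_sum] at h0
  have hzero : ∀ i < p, r (H'.coeff i) = 0 := by
    by_contra hne
    push Not at hne
    set s := (Finset.range p).filter fun i => r (H'.coeff i) ≠ 0
    have hs : s.Nonempty := by
      obtain ⟨i, hi, hi'⟩ := hne
      exact ⟨i, Finset.mem_filter.2 ⟨Finset.mem_range.2 hi, hi'⟩⟩
    choose! n g hg hng using fun i (hi : i ∈ s) => exists_order_evalSeries C.irred hum
      (q := q₂ C.unif C.unif_mem) C.q₂_nc hu (by rw [map_pow]; exact pow_ne_zero _ hw0)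
      (Finset.mem_filter.1 hi).2
    refine sum_ne_zero_of_orders hs
      (f := fun i => q₂ C.unif C.unif_mem (E (H'.coeff i) * (Y - nc C.unif (x₀ ^ p)) ^ i))
      (g := fun i => g i * w ^ i) (e := fun i => p * p * n i + p * i) (fun i hi => ?_)
      (fun i hi => ?_) (fun i hi j hj hij => ?_) ?_
    · rw [map_mul, map_pow, hng i hi, hY, mul_pow, ← pow_mul, pow_add]
      ring
    · rw [map_mul, map_pow]
      exact mul_ne_zero (hg i hi) (pow_ne_zero _ hw0)
    · have h1 : p * n i + i = p * n j + j :=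
        mul_left_cancel₀ hp.out.ne_zero (by linear_combination hij)
      have h2 := congrArg (· % p) h1
      simpa [Nat.mod_eq_of_lt (Finset.mem_range.1 (Finset.mem_filter.1 hi).1),
        Nat.mod_eq_of_lt (Finset.mem_range.1 (Finset.mem_filter.1 hj).1)] using h2
    · rw [← h0]
      refine Finset.sum_filter_of_ne fun i _ hne hri => hne ?_
      obtain ⟨c, hc⟩ := dvd_of_map_residue_eq_zero C.irred hri
      rw [hc, map_mul E, evalSeries_C, map_mul, map_mul, C.q₂_nc,
        (residue_eq_zero_iff _).2 C.unif_mem, map_zero, zero_mul, zero_mul]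
  rw [C_dvd_iff_dvd_coeff]
  have hH'0 : H'.map r = 0 := by
    ext1 i
    rcases lt_or_ge i p with hi | hi
    · rw [coeff_map, hzero i hi, coeff_zero]
    · rw [coeff_map, coeff_eq_zero_of_natDegree_lt (hH'.trans_le hi), map_zero, coeff_zero]
  have hH0 : H.map r = 0 := by
    have h1 := congrArg (fun P => Polynomial.comp P (X - Polynomial.C (r a))) hH'0
    simpa [H', Polynomial.map_comp, comp_assoc] using h1
  exact fun i => dvd_of_map_residue_eq_zero C.irred (by
    have := congrArg (fun P => P.coeff i) hH0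
    rwa [coeff_map, coeff_zero] at this)

/-- **`1, Y, …, Y ^ p` are independent modulo `ϖ`.** -/
theorem node_saturated (hN : C.NodeCoord xbar T Y x₀) :
    ∀ (n : ℕ) (P : (C.B⟦X⟧)[X]), P.natDegree ≤ p →
      nc C.unif C.unif ^ n ∣ P.eval₂ (evalSeries (nc C.unif) _ hum) Y →
      Polynomial.C (PowerSeries.C C.unif ^ n) ∣ P := by
  have := C.charP
  set E := evalSeries (nc C.unif) _ hum
  have hncE : nc C.unif C.unif = E (PowerSeries.C C.unif) := (evalSeries_C _ _ _ _).symm
  intro n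
  induction n with
  | zero => intro P _ _; simp
  | succ n ih =>
    intro P hP h
    suffices h1 : Polynomial.C (PowerSeries.C C.unif) ∣ P by
      obtain ⟨P', rfl⟩ := h1
      have hP' : P'.natDegree ≤ p := by
        rcases eq_or_ne P' 0 with rfl | h0
        · simp
        · rwa [natDegree_C_mul (fun h => C.irred.ne_zero (by
            simpa using congrArg PowerSeries.constantCoeff h))] at hP
      rw [eval₂_mul, eval₂_C, ← hncE, pow_succ', mul_dvd_mul_iff_left (by
        rw [← nx_mul_ny]; exact mul_ne_zero (nx_ne_zero C.irred) (ny_ne_zero C.irred))] at h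
      rw [pow_succ', map_mul]
      exact mul_dvd_mul_left _ (ih P' hP' h)
    set t : C.B⟦X⟧ := PowerSeries.C x₀ + PowerSeries.X
    have ht : E t = T := by
      rw [map_add, evalSeries_C, evalSeries_X, add_sub_cancel]
    set c := P.coeff p
    set G : (C.B⟦X⟧)[X] := X ^ p - Polynomial.C t
    set R := P - Polynomial.C c * G
    have hR : R.natDegree < p := by
      refine lt_of_le_of_lt (natDegree_le_iff_coeff_eq_zero.2 fun i hi => ?_)
        (Nat.sub_lt hp.out.pos one_pos)
      simp only [R, G, coeff_sub, coeff_C_mul, coeff_X_pow, coeff_C]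
      rcases eq_or_ne i p with rfl | hne
      · simp [hp.out.ne_zero, c]
      · rw [coeff_eq_zero_of_natDegree_lt (show P.natDegree < i by omega), if_neg hne,
          if_neg (show i ≠ 0 by omega)]
        simp
    have hG : G.eval₂ E Y = -(nc C.unif C.mu * nx C.unif ^ p) := by
      rw [eval₂_sub, eval₂_X_pow, eval₂_C, ht, hN.eq₁]; ring
    have hPR : P.eval₂ E Y = R.eval₂ E Y + E c * G.eval₂ E Y := by
      simp only [R, eval₂_sub, eval₂_mul, eval₂_C]; ring
    have hxy : nx C.unif ∣ nc C.unif C.unif ∧ ny C.unif ∣ nc C.unif C.unif := by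
      rw [← nx_mul_ny]; exact ⟨dvd_mul_right _ _, dvd_mul_left _ _⟩
    have hdvd := (dvd_pow_self (nc C.unif C.unif) n.succ_ne_zero).trans h
    obtain ⟨R', hR'⟩ : Polynomial.C (PowerSeries.C C.unif) ∣ R := by
      refine C.C_dvd_of_nx_dvd hum hN hR ?_
      rw [show R.eval₂ E Y = P.eval₂ E Y - E c * G.eval₂ E Y by rw [hPR]; ring]
      refine dvd_sub (hxy.1.trans hdvd) (Dvd.dvd.mul_left ?_ _)
      rw [hG]
      exact (((dvd_pow_self _ hp.out.ne_zero).mul_left _)).neg_right
    have hc : ny C.unif ∣ E c := by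
      have h2 : ny C.unif ∣ E c * G.eval₂ E Y := by
        rw [show E c * G.eval₂ E Y = P.eval₂ E Y - R.eval₂ E Y by rw [hPR]; ring]
        refine dvd_sub (hxy.2.trans hdvd) ?_
        rw [hR', eval₂_mul, eval₂_C, ← hncE]
        exact hxy.2.mul_right _
      refine ((prime_ny C.irred).dvd_or_dvd h2).resolve_right ?_
      rw [hG, dvd_neg]
      refine (prime_ny C.irred).not_dvd_mul (fun hd => ?_)
        fun hd => not_ny_dvd_nx C.irred ((prime_ny C.irred).dvd_of_dvd_pow hd)
      exact (prime_ny C.irred).not_isUnit (isUnit_of_dvd_unit hd (C.mu_isUnit.map _))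
    rw [show P = R + Polynomial.C c * G by simp [R]]
    exact dvd_add ⟨R', hR'⟩ ((map_dvd Polynomial.C (C.C_dvd_of_ny_dvd hum hN hc)).mul_right _)

/-! ## Comparison with the branches at infinity -/

/-- The branches of the node, in the order of the branches at infinity. -/
def nBr (k : Fin 2) : Node C.unif := ![ny C.unif, nx C.unif] k

/-- The other branch. -/
def nOth (k : Fin 2) : Node C.unif := ![nx C.unif, ny C.unif] k

omit hp in
/-- The two branches multiply to the uniformiser. -/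
theorem nBr_mul_nOth (k : Fin 2) : C.nBr k * C.nOth k = nc C.unif C.unif := by
  fin_cases k <;> simp [nBr, nOth, ← nx_mul_ny, mul_comm]

omit hp in
/-- The branches are prime. -/
theorem prime_nBr (k : Fin 2) : Prime (C.nBr k) := by
  fin_cases k
  · exact prime_ny C.irred
  · exact prime_nx C.irred

omit hp in
/-- The branches are distinct primes. -/
theorem not_nBr_dvd_nOth (k : Fin 2) : ¬ C.nBr k ∣ C.nOth k := by
  fin_cases k
  · exact not_ny_dvd_nx C.irred
  · exact not_nx_dvd_ny C.irred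

omit hp in
/-- Powers of both branches give powers of `ϖ`. -/
theorem nc_pow_dvd_of_nBr {n : ℕ} {x : Node C.unif} (h : ∀ k, C.nBr k ^ n ∣ x) :
    nc C.unif C.unif ^ n ∣ x := by
  obtain ⟨y, rfl⟩ : nx C.unif ^ n ∣ x := h 1
  rw [← nx_mul_ny, mul_pow]
  exact mul_dvd_mul_left _ ((prime_ny C.irred).pow_dvd_of_dvd_mul_left n
    (fun hd => not_ny_dvd_nx C.irred ((prime_ny C.irred).dvd_of_dvd_pow hd)) (h 0))

/-- Functions of level `2 M` in the node ring. -/
abbrev nHom (ψ : LRing (2 * M) C.B →+* C.B⟦X⟧) : LRing (2 * M) C.B →+* Node C.unif :=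
  (evalSeries (nc C.unif) (T - nc C.unif x₀) hum).comp ψ

variable {hum} {hp2 : p ≠ 2} {hpM : ¬ p ∣ M}
  {s : LRing (2 * M) C.B →+* ResidueField C.B}
  {hum₂ : swap C.unif (Y - nc C.unif (x₀ ^ p)) ∈ maximalIdeal (Node C.unif)}
  {s' : LRing (2 * M) C.B →+* ResidueField C.B} {ψ ψ' : LRing (2 * M) C.B →+* C.B⟦X⟧}
  {θ θ₂ : algElts (C.expK M) (expansion (2 * M) (lamP p)) →+* Node C.unif}
  (hN : C.IsNodeMaps hp2 hpM s xbar T Y x₀ hum hum₂ s' ψ ψ' θ θ₂)
include hN

/-- The map of the extension on polynomials in the generator. -/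
theorem node_θ_eval₂ (Q : (LRing (2 * M) C.B)[X]) :
    θ (Q.eval₂ (C.glueMap M) (C.glueGen hp2 hpM)) = Q.eval₂ (C.nHom hum ψ) Y := by
  rw [hom_eval₂]
  congr 1
  · exact RingHom.ext hN.θ_A
  · exact hN.θ_root _

/-- `Y` is a root of the modular polynomial in the node ring. -/
theorem node_root : (C.lamV hp2 hpM).eval₂ (C.nHom hum ψ) Y = 0 := by
  rw [← C.node_θ_eval₂ hN, show (C.lamV hp2 hpM).eval₂ (C.glueMap M) (C.glueGen hp2 hpM) = 0 from
    Subtype.ext (by rw [← C.coeffMap_brExt_one_zero hp2 hpM, brExt_eval₂, brRoot_root, map_zero]; rfl),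
    map_zero]

/-- The uniformiser goes to the product of the branches. -/
theorem node_piA (k : Fin 2) : (C.nHom hum ψ) (C.piA M) = C.nBr k * C.nOth k := by
  rw [C.nBr_mul_nOth, RingHom.comp_apply,
    show C.piA M = Points.cstL (C.levelHyp hp2 hpM) C.unif from rfl, hN.disc.const, evalSeries_C]

/-- A function vanishing modulo `ϖ` on a disc is divisible by the uniformiser. -/
theorem piA_dvd_of_C_dvd {a : LRing (2 * M) C.B} (h : PowerSeries.C C.unif ∣ ψ a) : C.piA M ∣ a := by
  refine Points.piL_dvd_of_redPS_eq_zero (C.coeffHyp hp2 hpM) hN.disc ?_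
  obtain ⟨b, hb⟩ := h
  show PowerSeries.map (residue C.B) (ψ a) = 0
  rw [hb, map_mul, PowerSeries.map_C, (residue_eq_zero_iff _).2 C.unif_mem, map_zero,
    zero_mul]

/-- `ψ λ ≡ x₀ + T`. -/
theorem node_lam_congr : nc C.unif C.unif ∣ (C.nHom hum ψ) (C.lamL hp2 hpM) - T := by
  have := C.charP
  have : CharP (PowerSeries (ResidueField C.B)) p :=
    charP_of_injective_ringHom PowerSeries.C_injective p
  have := Fact.mk hp.out
  have hl : C.lamL hp2 hpM = lamA C M := Subtype.ext (C.coe_lamL hp2 hpM)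
  have h1 := hN.congr₁ (C.glueGen hp2 hpM) (muSer C M) C.coeffMap_muSer (lamA C M ^ p) 1 1 (by
    rw [pow_one, map_one, one_mul, C.expA_piA]
    exact unif_dvd_muSer_sub C M hp2)
  rw [pow_one, map_one, map_one, one_mul, show θ (C.glueGen hp2 hpM) = Y from hN.θ_root _,
    map_pow, map_pow, ← hl, ← C.q₁_eq_zero_iff, map_sub, sub_eq_zero, map_pow] at h1
  have h2 := (C.q₁_eq_zero_iff _).2 hN.coord.eq₂
  rw [map_sub, sub_eq_zero, map_pow, h1] at h2
  have h3 := frobenius_inj (PowerSeries (ResidueField C.B)) p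
    (show frobenius _ p (q₁ C.unif C.unif_mem ((C.nHom hum ψ) (C.lamL hp2 hpM))) =
      frobenius _ p (q₁ C.unif C.unif_mem T) from h2)
  have h4 : ny C.unif ∣ evalSeries (nc C.unif) _ hum
      (ψ (C.lamL hp2 hpM) - (PowerSeries.C x₀ + PowerSeries.X)) := by
    rw [← C.q₁_eq_zero_iff, map_sub, map_add, evalSeries_C, evalSeries_X, add_sub_cancel, map_sub,
      sub_eq_zero]
    exact h3
  have h5 := map_dvd (evalSeries (nc C.unif) _ hum) (C.C_dvd_of_ny_dvd hum hN.coord h4)
  rwa [evalSeries_C, map_sub, map_add, evalSeries_C, evalSeries_X, add_sub_cancel] at h5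

theorem not_nBr_dvd_brCofactor (k : Fin 2) :
    ¬ C.nBr k ∣ (C.brCofactor hp2 hpM k).eval₂ (C.nHom hum ψ) Y := by
  have := C.charP
  have : CharP (PowerSeries (ResidueField C.B)) p :=
    charP_of_injective_ringHom PowerSeries.C_injective p
  have hl := C.node_lam_congr hN
  rw [← nx_mul_ny] at hl
  fin_cases k
  · show ¬ ny C.unif ∣ (X ^ p - Polynomial.C (C.lamL hp2 hpM)).eval₂ (C.nHom hum ψ) Y
    rw [eval₂_sub, eval₂_X_pow, eval₂_C]
    intro h
    have h1 : ny C.unif ∣ nc C.unif C.mu * nx C.unif ^ p := by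
      have := (dvd_neg.2 (dvd_add h ((dvd_mul_left _ _).trans hl)))
      rw [sub_add_sub_cancel] at this
      convert this using 1
      rw [hN.coord.eq₁]; ring
    rcases (prime_ny C.irred).dvd_or_dvd h1 with h2 | h2
    · exact (prime_ny C.irred).not_isUnit (isUnit_of_dvd_unit h2 (C.mu_isUnit.map _))
    · exact not_ny_dvd_nx C.irred ((prime_ny C.irred).dvd_of_dvd_pow h2)
  · show ¬ nx C.unif ∣ (X - Polynomial.C (C.lamL hp2 hpM ^ p)).eval₂ (C.nHom hum ψ) Y
    rw [eval₂_sub, eval₂_X, eval₂_C, map_pow, ← C.q₂_eq_zero_iff, map_sub, map_pow]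
    have h2 := (C.q₂_eq_zero_iff _).2 ((dvd_mul_right _ _).trans hl)
    rw [map_sub, sub_eq_zero] at h2
    obtain ⟨w, hw0, hY, hT, -⟩ := hN.coord.exists_q₂
    rw [h2, hT]
    intro h
    rw [map_sub, C.q₂_nc, sub_eq_iff_eq_add] at hY
    rw [hY, add_pow_char, add_pow_char, mul_pow, mul_pow, ← pow_mul, ← pow_mul,
      ← map_pow, ← map_pow] at h
    have h3 := congrArg (PowerSeries.coeff p) h
    simp only [map_sub, map_add, PowerSeries.coeff_X_pow_mul', PowerSeries.coeff_C,
      hp.out.ne_zero, if_false, map_zero] at h3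
    rw [if_pos le_rfl, Nat.sub_self, PowerSeries.coeff_zero_eq_constantCoeff_apply, if_neg,
      zero_add, add_zero, sub_zero] at h3
    · exact hw0 h3
    · have := hp.out.two_le
      intro h4
      nlinarith [Nat.mul_le_mul this this]

/-- Below the degree of a factor, small at `Y` implies small coefficients. -/
theorem piA_dvd_of_nBr (k : Fin 2) (P : (LRing (2 * M) C.B)[X])
    (hdeg : P.natDegree < (C.brFactor (M := M) hp2 hpM k).natDegree)
    (h : C.nBr k ∣ P.eval₂ (C.nHom hum ψ) Y) : Polynomial.C (C.piA M) ∣ P := by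
  rw [C_dvd_iff_dvd_coeff]
  intro i
  refine C.piA_dvd_of_C_dvd hN ?_
  fin_cases k
  · simp only [brFactor, Fin.zero_eta, Matrix.cons_val_zero, natDegree_X_sub_C,
      Nat.lt_one_iff] at hdeg
    obtain ⟨a, rfl⟩ := natDegree_eq_zero.1 hdeg
    rw [eval₂_C] at h
    rcases i with _ | i
    · rw [coeff_C_zero]
      exact C.C_dvd_of_ny_dvd hum hN.coord h
    · simp
  · simp only [brFactor, Fin.mk_one, Matrix.cons_val_one, Matrix.cons_val_fin_one,
      natDegree_X_pow_sub_C] at hdeg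
    have h1 := C.C_dvd_of_nx_dvd hum hN.coord (H := P.map ψ) (natDegree_map_le.trans_lt hdeg)
      (by rwa [eval₂_map])
    rw [C_dvd_iff_dvd_coeff] at h1
    simpa using h1 i

theorem nBr_pow_dvd_eval₂_iff (k : Fin 2) (n : ℕ) (P : (LRing (2 * M) C.B)[X]) :
    C.nBr k ^ n ∣ P.eval₂ (C.nHom hum ψ) Y ↔
      HahnSeries.C C.unif ^ n ∣ P.eval₂ (C.brHom 1 k) (C.brRoot hp2 hpM 1 k) := by
  obtain ⟨H, hH⟩ := C.exists_brFactor_eq hp2 hpM k
  obtain ⟨hm, h1⟩ := C.brFactor_monic (M := M) hp2 hpM k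
  have hπ : C.brHom 1 k (C.piA M) = HahnSeries.C C.unif * 1 := by
    rw [C.brHom_piA, mul_one]
  have hx : ¬ HahnSeries.C C.unif ∣ (1 : LaurentSeries C.B) := fun h =>
    (C.prime_C_unif (M := M) hp2 hpM).not_isUnit (isUnit_of_dvd_one h)
  constructor
  · exact Glue.pow_dvd_eval₂_of_branch hH hm h1 (C.prime_nBr k) (C.node_piA hN k)
      (C.not_nBr_dvd_nOth k) (C.prime_C_unif (M := M) hp2 hpM) hπ (C.node_root hN)
      (C.brRoot_root hp2 hpM 1 k) (C.not_nBr_dvd_brCofactor hN k)
      (C.not_dvd_brCofactor hp2 hpM 1 k) (C.piA_dvd_of_nBr hN k) n P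
  · exact Glue.pow_dvd_eval₂_of_branch hH hm h1 (C.prime_C_unif (M := M) hp2 hpM) hπ hx
      (C.prime_nBr k) (C.node_piA hN k) (C.brRoot_root hp2 hpM 1 k) (C.node_root hN)
      (C.not_dvd_brCofactor hp2 hpM 1 k) (C.not_nBr_dvd_brCofactor hN k)
      (C.piA_dvd_of_degree_lt hp2 hpM 1 k) n P

/-- **The branches at the node are the branches at infinity.** -/
theorem nBr_pow_dvd_iff (k : Fin 2) (n : ℕ) (e : C.glueRing M) :
    C.nBr k ^ n ∣ θ e ↔ HahnSeries.C C.unif ^ n ∣ C.brExt hp2 hpM 1 k e := by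
  obtain ⟨-, P, D, hD, hP⟩ := e.2
  obtain ⟨v, D₀, rfl, hD₀⟩ := C.exists_eq_piA_pow_mul hp2 hpM hD
  have hser := C.brExt_spec hp2 hpM 1 k hP
  have hnode : (C.nHom hum ψ) (C.piA M ^ v * D₀) * θ e = P.eval₂ (C.nHom hum ψ) Y := by
    have h1 : C.glueMap M (C.piA M ^ v * D₀) * e =
        P.eval₂ (C.glueMap M) (C.glueGen hp2 hpM) := Subtype.ext (by
      rw [← Subring.subtype_apply, ← Subring.subtype_apply (P.eval₂ _ _), hom_eval₂]
      exact hP)
    have h2 := congrArg θ h1
    rw [map_mul, C.node_θ_eval₂ hN] at h2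
    rw [← h2]
    exact congrArg (· * θ e) (hN.θ_A _).symm
  rw [map_mul, map_pow, C.brHom_piA, mul_assoc] at hser
  rw [map_mul, map_pow, C.node_piA hN k, mul_pow, mul_assoc, mul_assoc] at hnode
  have hN' : C.nBr k ^ n ∣ θ e ↔ C.nBr k ^ (v + n) ∣ P.eval₂ (C.nHom hum ψ) Y := by
    rw [← hnode, pow_add, mul_dvd_mul_iff_left (pow_ne_zero _ (C.prime_nBr k).ne_zero)]
    refine ⟨fun h => (h.mul_left _).mul_left _, fun h => ?_⟩
    refine (C.prime_nBr k).pow_dvd_of_dvd_mul_left n ?_
      ((C.prime_nBr k).pow_dvd_of_dvd_mul_left n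
        (fun hd => C.not_nBr_dvd_nOth k ((C.prime_nBr k).dvd_of_dvd_pow hd)) h)
    intro hd
    refine hD₀ ?_
    have h1 := C.piA_dvd_of_nBr hN k (Polynomial.C D₀) (by
      rw [natDegree_C]
      exact Nat.pos_of_ne_zero fun h0 => (C.brFactor_monic hp2 hpM k).2
        (eq_one_of_monic_natDegree_zero (C.brFactor_monic hp2 hpM k).1 h0)) (by rwa [eval₂_C])
    simpa using (C_dvd_iff_dvd_coeff _ _).1 h1 0
  have hS : HahnSeries.C C.unif ^ n ∣ C.brExt hp2 hpM 1 k e ↔
      HahnSeries.C C.unif ^ (v + n) ∣ P.eval₂ (C.brHom 1 k) (C.brRoot hp2 hpM 1 k) := by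
    rw [← hser, pow_add,
      mul_dvd_mul_iff_left (pow_ne_zero _ (C.prime_C_unif (M := M) hp2 hpM).ne_zero)]
    exact ⟨fun h => h.mul_left _, fun h => (C.prime_C_unif (M := M) hp2 hpM).pow_dvd_of_dvd_mul_left
      n (fun hd => hD₀ (C.piA_dvd_of_brHom hp2 hpM hd)) h⟩
  rw [hN', hS, C.nBr_pow_dvd_eval₂_iff hN]

end Coeff

end Fermat.Agent.AtP
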