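import Mathlib.RingTheory.Derivation.MapCoeffs
import Mathlib.FieldTheory.Separable
import Mathlib.Algebra.CharP.Lemmas
import Mathlib.Algebra.Algebra.ZMod
import Mathlib.Algebra.Module.ZMod
import Mathlib.FieldTheory.Finite.Basic

/-!
# The zeros of the reduced ordinary locus polynomial

Pure characteristic `p` algebra behind the Kronecker congruence at level `(2,p)`: if
`A * (X^(p^2) - X) = N` and `θA = (X^(p-1) - (θX)^(p-1)) θX` at a transcendental series `X = L`,
and `P/den = (θX)^(1-p)`, then every zero `x` of `P` (with `den x ≠ 0`) satisfies `x^(p^2) = x`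
and `N x ≠ 0`.
-/

set_option autoImplicit false

open Polynomial

namespace Fermat.Agent.AtP

variable {p : ℕ} [Fact p.Prime]
variable {F : Type*} [Field F] [Algebra (ZMod p) F]

/-- The polynomial identity extracted from the series relations. -/
theorem lambdaP_polynomial_identity (D₀ : F →+ F)
    (hmul : ∀ a b : F, D₀ (a * b) = a * D₀ b + b * D₀ a) {L A : F}
    (hL : Function.Injective (aeval L : (ZMod p)[X] →ₐ[ZMod p] F)) (hDL : D₀ L ≠ 0)
    {N P den : (ZMod p)[X]} (hA : A * (L ^ (p ^ 2) - L) = aeval L N)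
    (hDA : D₀ A = (L ^ (p - 1) - D₀ L ^ (p - 1)) * D₀ L)
    (hP : aeval L P * D₀ L ^ (p - 1) = aeval L den) :
    P * (derivative N * (X ^ (p ^ 2) - X) + N) =
      (X ^ (p ^ 2) - X) ^ 2 * (X ^ (p - 1) * P - den) := by
  let D : Derivation (ZMod p) F F :=
    Derivation.mk' (D₀.toZModLinearMap p) fun a b => by simpa using hmul a b
  change D L ≠ 0 at hDL
  change D A = (L ^ (p - 1) - D L ^ (p - 1)) * D L at hDA
  change aeval L P * D L ^ (p - 1) = aeval L den at hP
  have hchar : ((p ^ 2 : ℕ) : F) = 0 := by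
    have h : ((p : ℕ) : F) = algebraMap (ZMod p) F ((p : ℕ) : ZMod p) := (map_natCast _ p).symm
    rw [ZMod.natCast_self, map_zero] at h
    rw [Nat.cast_pow, h, zero_pow two_ne_zero]
  have h1 := congrArg D hA
  rw [D.leibniz, Derivation.map_aeval D, map_sub, D.leibniz_pow] at h1
  simp only [smul_eq_mul, nsmul_eq_mul, hchar, zero_mul, zero_sub] at h1
  have h2 : D A * (L ^ (p ^ 2) - L) ^ 2 =
      D L * (aeval L (derivative N) * (L ^ (p ^ 2) - L) + aeval L N) := by
    rw [← hA]
    linear_combination (L ^ (p ^ 2) - L) * h1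
  apply hL
  simp only [map_mul, map_add, map_sub, map_pow, aeval_X]
  refine mul_right_cancel₀ hDL ?_
  have h3 := hDA ▸ h2
  linear_combination (-(aeval L P)) * h3 +
    (-(L ^ (p ^ 2) - L) ^ 2 * D L) * hP

/-- At a zero of `P` where `den` does not vanish: `x ^ p² = x` and `N x ≠ 0`. -/
theorem lambdaP_zero_key {N P den : (ZMod p)[X]}
    (hid : P * (derivative N * (X ^ (p ^ 2) - X) + N) =
      (X ^ (p ^ 2) - X) ^ 2 * (X ^ (p - 1) * P - den))
    {k : Type*} [Field k] [Algebra (ZMod p) k] {x : k} (hx : aeval x P = 0)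
    (hden : aeval x den ≠ 0) :
    x ^ (p ^ 2) = x ∧ aeval x N ≠ 0 := by
  have hD : x ^ (p ^ 2) = x := by
    have := congrArg (aeval x) hid
    simp only [map_mul, map_sub, map_pow, aeval_X, hx, zero_mul, mul_zero, zero_sub,
      mul_neg, eq_comm (a := (0 : k)), neg_eq_zero, mul_eq_zero, pow_eq_zero_iff two_ne_zero,
      hden, or_false, sub_eq_zero] at this
    exact this
  refine ⟨hD, fun hN => ?_⟩
  set φ := algebraMap (ZMod p) k
  have hchar : ((p ^ 2 : ℕ) : k) = 0 := by
    have h : ((p : ℕ) : k) = φ ((p : ℕ) : ZMod p) := (map_natCast _ p).symm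
    rw [ZMod.natCast_self, map_zero] at h
    rw [Nat.cast_pow, h, zero_pow two_ne_zero]
  set N' := N.map φ
  set P' := P.map φ
  set den' := den.map φ
  set E : k[X] := X ^ (p ^ 2) - X
  have hid' : P' * (derivative N' * E + N') = E ^ 2 * (X ^ (p - 1) * P' - den') := by
    simpa [N', P', den', E, derivative_map] using congrArg (Polynomial.map φ) hid
  have hev : ∀ q : (ZMod p)[X], (q.map φ).eval x = aeval x q := fun q => by
    rw [eval_map, aeval_def]
  obtain ⟨u, hu⟩ : X - C x ∣ E := dvd_iff_isRoot.2 (by simp [E, IsRoot, hD])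
  obtain ⟨N₁, hN₁⟩ : X - C x ∣ N' := dvd_iff_isRoot.2 (by simp [N', IsRoot, hev, hN])
  obtain ⟨P₁, hP₁⟩ : X - C x ∣ P' := dvd_iff_isRoot.2 (by simp [P', IsRoot, hev, hx])
  have hdE : derivative E = -1 := by
    simp only [E, derivative_sub, derivative_X_pow, derivative_X, hchar, C_0, zero_mul, zero_sub]
  have hu' : u.eval x = -1 := by
    have := congrArg (fun q : k[X] => (derivative q).eval x) hu
    simpa [hdE] using this.symm
  have hN₁' : (derivative N').eval x = N₁.eval x := by
    rw [hN₁]; simp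
  obtain ⟨M, hM⟩ : X - C x ∣ derivative N' * u + N₁ :=
    dvd_iff_isRoot.2 (by simp [IsRoot, hu', hN₁'])
  have hsq : (X - C x) ^ 2 * ((X - C x) * (P₁ * M)) =
      (X - C x) ^ 2 * (u ^ 2 * (X ^ (p - 1) * P' - den')) := by
    have e : derivative N' * E + N' = (X - C x) ^ 2 * M := by
      rw [hu, hN₁, show (X - C x) ^ 2 * M = (X - C x) * ((X - C x) * M) by ring, ← hM, ← hN₁]
      rw [hN₁]; ring
    calc (X - C x) ^ 2 * ((X - C x) * (P₁ * M))
        = P' * ((X - C x) ^ 2 * M) := by rw [hP₁]; ring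
      _ = E ^ 2 * (X ^ (p - 1) * P' - den') := by rw [← e, hid']
      _ = _ := by rw [hu]; ring
  have := congrArg (fun q : k[X] => q.eval x)
    (mul_left_cancel₀ (pow_ne_zero 2 (X_sub_C_ne_zero x)) hsq)
  simp [hu', P', den', hev, hx] at this
  exact hden this

end Fermat.Agent.AtP
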