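import Fermat.Agent.AtP.NodeRing
import Mathlib.Algebra.DualNumber
import Mathlib.RingTheory.LaurentSeries
import Mathlib.RingTheory.PowerSeries.Derivative
import Mathlib.Algebra.CharP.Lemmas

/-!
# The two branches of a node modulo `ϖ ^ 2`

`red₂ : B → k[ε]` sends `ϖ` to `ε`. The branch `y = 0` is read in `k((X))[ε]` by `x ↦ X`,
`y ↦ ε / X`. A unit whose reductions are `p`-th powers has `ε`-logarithmic parts with the same
constant term on both branches.
-/

set_option autoImplicit false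

noncomputable section

open IsLocalRing
open scoped PowerSeries DualNumber

namespace Fermat.Agent.AtP

section Local

variable {B : Type} [CommRing B] [IsLocalRing B]

local notation "k" => ResidueField B
local notation "L" => LaurentSeries (ResidueField B)

variable (red₂ : B →+* DualNumber (ResidueField B)) (hfst : ∀ b, TrivSqZeroExt.fst (red₂ b) = residue B b)

local notation "ι" => HahnSeries.ofPowerSeries ℤ (ResidueField B)

/-- The `ε`-parts of the coefficients. -/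
def epsPart (F : B⟦X⟧) : PowerSeries k :=
  PowerSeries.mk fun n => TrivSqZeroExt.snd (red₂ (PowerSeries.coeff n F))

include hfst in
theorem epsPart_mul (F G : B⟦X⟧) :
    epsPart red₂ (F * G) = PowerSeries.map (residue B) F * epsPart red₂ G +
      epsPart red₂ F * PowerSeries.map (residue B) G := by
  ext n
  simp only [epsPart, PowerSeries.coeff_mk, map_add, PowerSeries.coeff_mul, PowerSeries.coeff_map,
    map_sum, map_mul, TrivSqZeroExt.snd_sum]
  rw [← Finset.sum_add_distrib]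
  refine Finset.sum_congr rfl fun x _ => ?_
  rw [TrivSqZeroExt.snd_mul, hfst, hfst]
  simp [mul_comm]

/-- `S ↦ X + ε / X`. -/
def branchHom : B⟦X⟧ →+* DualNumber L where
  toFun F := TrivSqZeroExt.inl (ι (PowerSeries.map (residue B) F)) +
    TrivSqZeroExt.inr (ι (epsPart red₂ F) + HahnSeries.single (-1 : ℤ) 1 *
      ι (PowerSeries.derivative k (PowerSeries.map (residue B) F)))
  map_one' := by
    have : epsPart red₂ (1 : B⟦X⟧) = 0 := by
      ext n
      rcases eq_or_ne n 0 with rfl | hn <;> simp [epsPart, PowerSeries.coeff_one, *]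
    refine TrivSqZeroExt.ext ?_ ?_ <;> simp [this]
  map_zero' := by
    have : epsPart red₂ (0 : B⟦X⟧) = 0 := by ext n; simp [epsPart]
    refine TrivSqZeroExt.ext ?_ ?_ <;> simp [this]
  map_add' F G := by
    have : epsPart red₂ (F + G) = epsPart red₂ F + epsPart red₂ G := by ext n; simp [epsPart]
    refine TrivSqZeroExt.ext ?_ ?_ <;> simp [this, mul_add]
    abel
  map_mul' F G := by
    refine TrivSqZeroExt.ext ?_ ?_
    · simp
    · simp [epsPart_mul red₂ hfst, Derivation.leibniz]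
      ring

theorem branchHom_fst (F : B⟦X⟧) :
    TrivSqZeroExt.fst (branchHom red₂ hfst F) = ι (PowerSeries.map (residue B) F) := by
  simp [branchHom]

theorem branchHom_C (b : B) : branchHom red₂ hfst (PowerSeries.C b) =
    TrivSqZeroExt.inl (HahnSeries.C (residue B b)) +
      TrivSqZeroExt.inr (HahnSeries.C (TrivSqZeroExt.snd (red₂ b))) := by
  have : epsPart red₂ (PowerSeries.C b) = PowerSeries.C (TrivSqZeroExt.snd (red₂ b)) := by
    ext n
    rcases eq_or_ne n 0 with rfl | hn <;> simp [epsPart, PowerSeries.coeff_C, *]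
  refine TrivSqZeroExt.ext ?_ ?_ <;> simp [branchHom, this, HahnSeries.ofPowerSeries_C]

theorem branchHom_X : branchHom red₂ hfst PowerSeries.X =
    TrivSqZeroExt.inl (HahnSeries.single (1 : ℤ) 1) +
      TrivSqZeroExt.inr (HahnSeries.single (-1 : ℤ) 1) := by
  have : epsPart red₂ (PowerSeries.X : B⟦X⟧) = 0 := by
    ext n
    rcases eq_or_ne n 1 with rfl | hn <;> simp [epsPart, PowerSeries.coeff_X, *]
  refine TrivSqZeroExt.ext ?_ ?_ <;> simp [branchHom, this]

variable {ϖ : B} (hϖm : ϖ ∈ maximalIdeal B) (hsnd : TrivSqZeroExt.snd (red₂ ϖ) = 1)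

/-- The branch `y = 0` modulo `ϖ ^ 2`. -/
def β : Node ϖ →+* DualNumber L :=
  AdjoinRoot.lift (branchHom red₂ hfst) (TrivSqZeroExt.inl (HahnSeries.single (1 : ℤ) 1)) (by
    show Polynomial.eval₂ (branchHom red₂ hfst) _
      (Polynomial.X ^ 2 - Polynomial.C PowerSeries.X * Polynomial.X +
        Polynomial.C (PowerSeries.C ϖ)) = 0
    simp only [Polynomial.eval₂_add, Polynomial.eval₂_sub, Polynomial.eval₂_pow,
      Polynomial.eval₂_X, Polynomial.eval₂_mul, Polynomial.eval₂_C, branchHom_X, branchHom_C,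
      (residue_eq_zero_iff ϖ).2 hϖm, hsnd]
    refine TrivSqZeroExt.ext ?_ ?_ <;> simp [sq, HahnSeries.single_mul_single])

/-- The branch on power series in the sum of the coordinates. -/
@[simp] theorem β_of (F : B⟦X⟧) :
    β red₂ hfst hϖm hsnd (AdjoinRoot.of _ F) = branchHom red₂ hfst F := by simp [β]

/-- The branch sends `x` to `X`. -/
@[simp] theorem β_nx : β red₂ hfst hϖm hsnd (nx ϖ) =
    TrivSqZeroExt.inl (HahnSeries.single (1 : ℤ) 1) := by simp [β, nx]

/-- The branch sends `y` to `ε / X`. -/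
theorem β_ny : β red₂ hfst hϖm hsnd (ny ϖ) =
    TrivSqZeroExt.inr (HahnSeries.single (-1 : ℤ) 1) := by
  rw [ny, map_sub, β_of, β_nx, branchHom_X, add_sub_cancel_left]

/-- The branch on constants. -/
theorem β_nc (b : B) : β red₂ hfst hϖm hsnd (nc ϖ b) =
    TrivSqZeroExt.inl (HahnSeries.C (residue B b)) +
      TrivSqZeroExt.inr (HahnSeries.C (TrivSqZeroExt.snd (red₂ b))) := by
  rw [nc, RingHom.comp_apply, β_of, branchHom_C]

/-- Modulo `ε` the branch is the restriction to `y = 0`. -/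
theorem β_fst (r : Node ϖ) :
    TrivSqZeroExt.fst (β red₂ hfst hϖm hsnd r) = ι (q₁ ϖ hϖm r) := by
  obtain ⟨a, b, rfl⟩ := exists_eq_of_add_mul_nx ϖ r
  simp [branchHom_fst]

theorem β_nc_mul (r : Node ϖ) : β red₂ hfst hϖm hsnd (nc ϖ ϖ * r) =
    TrivSqZeroExt.inr (ι (q₁ ϖ hϖm r)) := by
  rw [map_mul, β_nc, (residue_eq_zero_iff ϖ).2 hϖm, hsnd, ← β_fst red₂ hfst hϖm hsnd r]
  refine TrivSqZeroExt.ext ?_ ?_ <;> simp

end Local

section DVR

variable {B : Type} [CommRing B] [IsDomain B] [IsDiscreteValuationRing B]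
  (red₂ : B →+* DualNumber (ResidueField B))
  (hfst : ∀ b, TrivSqZeroExt.fst (red₂ b) = residue B b) {ϖ : B} (hϖm : ϖ ∈ maximalIdeal B)
  (hsnd : TrivSqZeroExt.snd (red₂ ϖ) = 1)

local notation "k" => ResidueField B
local notation "L" => LaurentSeries (ResidueField B)
local notation "ι" => HahnSeries.ofPowerSeries ℤ (ResidueField B)

include hϖm in
/-- A unit whose reductions on both branches are `p`-th powers is a `p`-th power modulo `ϖ`. -/
theorem exists_pow_dvd_sub (hϖ : Irreducible ϖ) {p : ℕ}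
    (hp : p.Prime) [CharP k p] {U : Node ϖ} {h₁ h₂ : PowerSeries k}
    (H₁ : q₁ ϖ hϖm U = h₁ ^ p) (H₂ : q₂ ϖ hϖm U = h₂ ^ p) : ∃ z, nc ϖ ϖ ∣ z ^ p - U := by
  have := Fact.mk hp
  have := isDomain_node hϖ
  obtain ⟨a, rfl⟩ := q₁_surjective ϖ hϖm h₁
  obtain ⟨b, rfl⟩ := q₂_surjective ϖ hϖm h₂
  have hab : PowerSeries.constantCoeff (q₁ ϖ hϖm a) = PowerSeries.constantCoeff (q₁ ϖ hϖm b) := by
    refine frobenius_inj k p ?_
    rw [frobenius_def, frobenius_def, ← map_pow, ← H₁, ← constantCoeff_q₂ ϖ hϖm b, ← map_pow,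
      ← H₂, constantCoeff_q₂]
  obtain ⟨g, hg⟩ : PowerSeries.X ∣ q₁ ϖ hϖm (a - b) := by
    rw [PowerSeries.X_dvd_iff]; simp [hab]
  obtain ⟨g, rfl⟩ := q₁_surjective ϖ hϖm g
  have hk : a - b - nx ϖ * g ∈ RingHom.ker (q₁ ϖ (mem_max_of_irreducible hϖ)) := by
    rw [RingHom.mem_ker, map_sub, map_mul, q₁_nx, hg, sub_self]
  rw [ker_q₁ hϖ, Ideal.mem_span_singleton'] at hk
  obtain ⟨d, hd⟩ := hk
  refine ⟨a - d * ny ϖ, nc_dvd_of_nx_dvd_of_ny_dvd hϖ ?_ ?_⟩
  · rw [← Ideal.mem_span_singleton, ← ker_q₂ hϖ, RingHom.mem_ker, map_sub, map_pow, H₂,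
      show a - d * ny ϖ = b + nx ϖ * g by linear_combination -hd]
    simp [q₂]
  · rw [← Ideal.mem_span_singleton, ← ker_q₁ hϖ, RingHom.mem_ker, map_sub, map_pow, H₁]
    simp

/-- The `ε`-logarithmic parts on the two branches have the same constant term. -/
theorem exists_common_constant (hϖ : Irreducible ϖ)
    {p : ℕ} (hp : p.Prime) [CharP k p] {U : Node ϖ} (hU : IsUnit U) {h₁ h₂ : PowerSeries k}
    (H₁ : q₁ ϖ hϖm U = h₁ ^ p) (H₂ : q₂ ϖ hϖm U = h₂ ^ p) :
    ∃ b₁ b₂ : PowerSeries k, PowerSeries.constantCoeff b₁ = PowerSeries.constantCoeff b₂ ∧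
      TrivSqZeroExt.snd (β red₂ hfst hϖm hsnd U) =
        TrivSqZeroExt.fst (β red₂ hfst hϖm hsnd U) * ι b₁ ∧
      TrivSqZeroExt.snd (β red₂ hfst hϖm hsnd (swap ϖ U)) =
        TrivSqZeroExt.fst (β red₂ hfst hϖm hsnd (swap ϖ U)) * ι b₂ := by
  obtain ⟨z, d, hd⟩ := exists_pow_dvd_sub hϖm hϖ hp H₁ H₂
  obtain ⟨Ui, hUi⟩ := hU.exists_right_inv
  -- `z ^ p = U * (1 + ϖ c)`
  set c := d * Ui with hc
  have hzU : z ^ p = U + U * (nc ϖ ϖ * c) := by
    rw [hc]; linear_combination hd - (nc ϖ ϖ * d) * hUi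
  have hchar : (p : L) = 0 := by
    rw [← map_natCast (HahnSeries.C : k →+* L), CharP.cast_eq_zero, map_zero]
  have key : ∀ v w e : Node ϖ, v ^ p = w + w * (nc ϖ ϖ * e) →
      TrivSqZeroExt.snd (β red₂ hfst hϖm hsnd w) =
        TrivSqZeroExt.fst (β red₂ hfst hϖm hsnd w) * ι (-(q₁ ϖ hϖm e)) := by
    intro v w e hvw
    have h := congrArg (fun r => TrivSqZeroExt.snd (β red₂ hfst hϖm hsnd r)) hvw
    simp only [map_pow, map_add, map_mul (β red₂ hfst hϖm hsnd) w, β_nc_mul,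
      TrivSqZeroExt.snd_pow, TrivSqZeroExt.snd_add, TrivSqZeroExt.snd_mul,
      TrivSqZeroExt.fst_inr, TrivSqZeroExt.snd_inr, nsmul_eq_mul, hchar, zero_mul] at h
    simp only [smul_eq_mul, MulOpposite.smul_eq_mul_unop, MulOpposite.unop_op, mul_zero,
      add_zero] at h
    rw [map_neg]
    linear_combination -h
  refine ⟨-(q₁ ϖ hϖm c), -(q₁ ϖ hϖm (swap ϖ c)), ?_, key z U c hzU,
    key (swap ϖ z) (swap ϖ U) (swap ϖ c) ?_⟩
  · rw [map_neg, map_neg, show q₁ ϖ hϖm (swap ϖ c) = q₂ ϖ hϖm c from rfl, constantCoeff_q₂]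
  · simp only [← map_pow, hzU, map_add, map_mul, swap_nc]

end DVR

end Fermat.Agent.AtP
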