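import Mathlib.Algebra.CharP.Lemmas
import Mathlib.Algebra.CharP.Reduced
import Mathlib.Data.Nat.Choose.Dvd
import Mathlib.LinearAlgebra.Matrix.CharP
import Mathlib.LinearAlgebra.Matrix.Polynomial
import Mathlib.RingTheory.Norm.Basic
import Mathlib.RingTheory.Henselian
import Mathlib.Tactic

/-!
# The norm along a Frobenius lift contracts

If `A → S` is free of rank `p` and purely inseparable modulo `π`, then the norm maps
`1 + π ^ n S` into `1 + π ^ (n + 1) A`.  Consequently an element congruent to `1` modulo `π`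
becomes a `p`-th power after finitely many norms: the contraction behind the `U_p`-step.
-/

set_option autoImplicit false

open Polynomial Matrix

namespace Fermat.Agent.AtP

section Det

variable {n : Type*} [DecidableEq n] [Fintype n] {p : ℕ}

/-- Over a domain of characteristic `p`: if `M` is `p × p` and `M ^ p = s`, then
`det (1 + X M) = 1 + s X ^ p`. -/
theorem det_one_add_X_smul_of_pow_eq {k : Type*} [CommRing k] [IsDomain k] (hp : p.Prime)
    [CharP k p] (hn : Fintype.card n = p) (M : Matrix n n k) (s : k)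
    (hM : M ^ p = s • (1 : Matrix n n k)) :
    ((X : k[X]) • M.map C + (1 : Matrix n n k).map C).det = 1 + C s * X ^ p := by
  have := Fact.mk hp
  have : Nonempty n := Fintype.card_pos_iff.1 (hn ▸ hp.pos)
  refine frobenius_inj k[X] p ?_
  rw [frobenius_def, frobenius_def, ← det_pow]
  have : CharP (Matrix n n k[X]) p := inferInstance
  rw [Matrix.map_one C (map_zero C) (map_one C),
    add_pow_char_of_commute p (Commute.one_right _), one_pow, _root_.smul_pow,
    ← RingHom.mapMatrix_apply, ← map_pow, hM]
  have : (X : k[X]) ^ p • (C : k →+* k[X]).mapMatrix (s • (1 : Matrix n n k)) + 1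
      = (1 + C s * X ^ p) • (1 : Matrix n n k[X]) := by
    ext i j
    by_cases h : i = j <;> simp [h]
    ring
  rw [this, det_smul, det_one, mul_one, hn]

/-- The congruence for the determinant of `1 + ε M`. -/
theorem exists_det_one_add_eq {A : Type*} [CommRing A] {π : A} (hp : p.Prime)
    (hπp : π ∣ (p : A)) (hπ : (Ideal.span {π}).IsPrime) (hn : Fintype.card n = p)
    (M : Matrix n n A) (s : A) (hM : ∀ i j, π ∣ (M ^ p - s • 1) i j) (ε : A) :
    ∃ r r' : A, (1 + ε • M).det = 1 + π * ε * r + ε ^ p * r' := by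
  have := hπ
  set P : A[X] := ((X : A[X]) • M.map C + (1 : Matrix n n A).map C).det with hP
  have : CharP (A ⧸ Ideal.span {π}) p := by
    refine (CharP.charP_iff_prime_eq_zero hp).2 ?_
    rw [← map_natCast (Ideal.Quotient.mk (Ideal.span {π})), Ideal.Quotient.eq_zero_iff_mem]
    exact Ideal.mem_span_singleton.2 hπp
  set f := Ideal.Quotient.mk (Ideal.span {π}) with hf
  have hred : P.map f = 1 + C (f s) * X ^ p := by
    rw [← det_one_add_X_smul_of_pow_eq hp hn (f.mapMatrix M) (f s) (by
        rw [← map_pow]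
        ext i j
        have h := Ideal.Quotient.eq.2 (Ideal.mem_span_singleton.2 (by simpa using hM i j) :
          (M ^ p) i j - (s • (1 : Matrix n n A)) i j ∈ Ideal.span {π})
        by_cases hij : i = j <;> simp_all [Matrix.one_apply]), hP, ← coe_mapRingHom,
      RingHom.map_det]
    congr 1
    ext i j
    by_cases h : i = j <;> simp [h]
  have h0 : P.coeff 0 = 1 := by rw [hP, coeff_det_X_add_C_zero, det_one]
  have hdeg : P.natDegree < p + 1 :=
    Nat.lt_succ_of_le (hn ▸ natDegree_det_X_add_C_le M 1)
  have hev : (1 + ε • M).det = P.eval ε := by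
    rw [hP, ← coe_evalRingHom, RingHom.map_det]
    congr 1
    ext i j
    by_cases h : i = j <;> simp [h] <;> ring
  have hmid : ∀ k : ℕ, ∃ c, 1 ≤ k → k < p → P.coeff k = π * c := by
    intro k
    by_cases hk : 1 ≤ k ∧ k < p
    · have : f (P.coeff k) = 0 := by
        rw [← coeff_map, hred]
        simp [coeff_one, show k ≠ 0 by omega, show k ≠ p by omega]
      obtain ⟨c, hc⟩ := Ideal.mem_span_singleton.1 (Ideal.Quotient.eq_zero_iff_mem.1 this)
      exact ⟨c, fun _ _ => hc⟩
    · exact ⟨0, fun h1 h2 => absurd ⟨h1, h2⟩ hk⟩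
  choose c hc using hmid
  refine ⟨∑ k ∈ Finset.Ico 1 p, c k * ε ^ (k - 1), P.coeff p, ?_⟩
  rw [hev, eval_eq_sum_range' hdeg, Finset.sum_range_succ, Finset.range_eq_Ico,
    Finset.sum_eq_sum_Ico_succ_bot hp.pos, h0, Finset.mul_sum]
  simp only [pow_zero, mul_one, zero_add]
  rw [mul_comm (P.coeff p)]
  congr 2
  refine Finset.sum_congr rfl fun k hk => ?_
  rw [Finset.mem_Ico] at hk
  rw [hc k hk.1 hk.2]
  have : ε ^ k = ε * ε ^ (k - 1) := by rw [← pow_succ']; congr 1; omega
  rw [this]; ring

end Det

section Root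

variable {S : Type*} [CommRing S] {π : S} [IsAdicComplete (Ideal.span {π}) S] {p : ℕ}

end Root

end Fermat.Agent.AtP
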