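import Fermat.Agent.AtP.ClassThree
import Fermat.Agent.AtP.GlueInput
import Fermat.Agent.Lifting.MinimalForm

/-!
# Mazur's principle at every odd `p`

`cofiniteResModular_of_peu` lowers level `p M` to `M`, except that for `p = 3` and `M` odd the
averaging over cosets may give level `2 M`.  For semistable curves
`isResiduallyModularOfLevel_minimalLevel_of_mul` then removes the prime `2` by level lowering at
`2`, taken as a hypothesis.  The direct lift to level `M` is in `AtP/ThreeOdd`.
-/

set_option autoImplicit false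

noncomputable section

open IsLocalRing (maximalIdeal ResidueField)
open Fermat.Agent.LevelLowering (CofiniteResModular TorsionFiniteAt)

namespace Fermat.Agent.AtP

variable {p : ℕ} [hp : Fact p.Prime]

/-- **Mazur's principle at an odd prime `p`** for a curve with a local vector. -/
theorem cofiniteResModular_of_localSplit_odd
    {W : WeierstrassCurve ℤ} (hΔ : W.Δ ≠ 0) (hp2 : p ≠ 2) (hirr : W.ModRepIsIrreducible p)
    (hloc : ∀ (O : Subring ℂ) [IsDiscreteValuationRing O] [IsAdicComplete (maximalIdeal O) O]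
      [IsAlgClosed (ResidueField O)], Irreducible (p : O) → HasLocalSplit W p O)
    {M : ℕ} [NeZero M] (hpM : ¬ p ∣ M) (hmod : CofiniteResModular W p (p * M)) :
    CofiniteResModular W p M ∨ (p = 3 ∧ Odd M ∧ CofiniteResModular W p (2 * M)) := by
  by_cases hnot : CofiniteResModular W p M
  · exact Or.inl hnot
  obtain ⟨O, _, _, _, hO⟩ := exists_coeffRing p
  obtain ⟨u, v, huv⟩ := Nat.isCoprime_iff_coprime.2 (hp.out.coprime_iff_not_dvd.2 hpM)
  have h : (p : ℤ) * u - (M : ℤ) * (-v) = 1 := by linear_combination huv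
  obtain ⟨C, S, -, hχ, ⟨ℓ₀, hℓp, hℓ₀, a₀, hT₀, hne₀⟩, T, heig⟩ :=
    exists_setting hp2 hpM hO (exists_hasClass_of_odd hΔ hp2 hirr hpM hmod hnot h O (hloc O hO))
  have hc := S.conclusion_of_glue hp2 hpM (glueInput p) hχ hℓ₀ hT₀ hne₀ W T heig
  by_cases h3 : p = 3 ∧ Odd M
  · exact Or.inr ⟨h3.1, h3.2, hc.1 h3⟩
  · exact Or.inl (hc.2 h3)

/-- The supersingular exclusion: a curve good and supersingular at `p` which is modular of level
`p M` is modular of level `M`. -/
def SupersingularExclusion (W : WeierstrassCurve ℤ) (p : ℕ) : Prop :=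
  W.ModRepIsIrreducible p → ¬ (p : ℤ) ∣ W.Δ → (p : ℤ) ∣ W.apOfModel p →
    ∀ M : ℕ, 0 < M → ¬ p ∣ M → CofiniteResModular W p (p * M) → CofiniteResModular W p M

/-- **Mazur's principle at an odd `p`** for a curve semistable at `p` with finite torsion. -/
theorem cofiniteResModular_of_peu
    {W : WeierstrassCurve ℤ} (hss : SupersingularExclusion W p) (hΔ : W.Δ ≠ 0) (hp2 : p ≠ 2)
    (hsemi : (p : ℤ) ∣ W.Δ → ¬ (p : ℤ) ∣ W.c₄) (hirr : W.ModRepIsIrreducible p)
    (hpeu : p ∣ padicValInt p W.Δ) {M : ℕ} (hM : 0 < M) (hpM : ¬ p ∣ M)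
    (hmod : CofiniteResModular W p (p * M)) :
    CofiniteResModular W p M ∨ (p = 3 ∧ Odd M ∧ CofiniteResModular W p (2 * M)) := by
  have : NeZero M := ⟨hM.ne'⟩
  by_cases hs : ¬ (p : ℤ) ∣ W.Δ ∧ (p : ℤ) ∣ W.apOfModel p
  · exact Or.inl (hss hirr hs.1 hs.2 M hM hpM hmod)
  push Not at hs
  exact cofiniteResModular_of_localSplit_odd hΔ hp2 hirr
    (fun O _ _ _ hO => hasLocalSplit_of_semistable W hΔ hp2 hsemi hpeu hs O hO) hpM hmod

omit hp in
/-- Peu ramifiée at `p` makes the valuation of `Δ` divisible by `p`. -/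
lemma padicValInt_of_isPeuRamifieeAt {W : WeierstrassCurve ℤ}
    (h : (W.map (Int.castRingHom ℚ)).IsPeuRamifieeAt p p) : p ∣ padicValInt p W.Δ :=
  dvd_padicValInt_of_torsionFiniteAt (Or.inr h)

omit hp in
/-- For semistable `W`, level `p` times the minimal level lowers to the minimal level. -/
theorem isResiduallyModularOfLevel_minimalLevel_of_mul
    (h38 : Lifting.LevelLoweringSqf)
    {W : WeierstrassCurve ℤ} (hΔ : W.Δ ≠ 0) (hW : W.IsSemistableModel) {p : ℕ} [Fact p.Prime]
    (hp : p = 3 ∨ p = 5) (hss : SupersingularExclusion W p) (hirr : W.ModRepIsIrreducible p)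
    (hv : p ∣ padicValInt p W.Δ)
    (h : W.IsResiduallyModularOfLevel p (p * Lifting.minimalLevel W p)) :
    W.IsResiduallyModularOfLevel p (Lifting.minimalLevel W p) := by
  have hpr : p.Prime := Fact.out
  have hp2 : p ≠ 2 := by omega
  set N := Lifting.minimalLevel W p
  have hsq : Squarefree N := Lifting.squarefree_minimalLevel W p
  have hN : ¬ p ∣ N := fun hd =>
    Lifting.notMem_ramifiedPrimes_self W p ((Lifting.prime_dvd_minimalLevel_iff W p hpr).1 hd)
  rcases cofiniteResModular_of_peu hss hΔ hp2 (hW p hpr) hirr hv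
    (Nat.pos_of_ne_zero hsq.ne_zero) hN
    (LevelLowering.cofiniteResModular_of_isResiduallyModularOfLevel hΔ
      (mul_ne_zero hpr.ne_zero hsq.ne_zero) h) with h1 | ⟨-, hodd, h2⟩
  · exact isResiduallyModularOfLevel_of_cofiniteResModular hΔ hsq.ne_zero h1
  · have h2N : ¬ 2 ∣ N := fun hd =>
      Nat.not_even_iff_odd.2 hodd (even_iff_two_dvd.2 hd)
    have hsq2 : Squarefree (2 * N) := by
      rw [Nat.squarefree_mul ((Nat.Prime.coprime_iff_not_dvd Nat.prime_two).2 h2N)]
      exact ⟨Nat.prime_two.squarefree, hsq⟩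
    have h3 := h38 p hp W hΔ hW _ _ hirr (2 * N) 2 Nat.prime_two hp2.symm (dvd_mul_right 2 N)
      (fun hd => h2N (Nat.dvd_of_mul_dvd_mul_left two_pos (by rwa [← pow_two]))) hsq2
      ((Lifting.residualRep_isUnramifiedAt_iff W hΔ p hW hp2 Nat.prime_two hp2.symm).mpr
        fun hd => h2N ((Lifting.prime_dvd_minimalLevel_iff W p Nat.prime_two).2 hd))
      (isResiduallyModularOfLevel_of_cofiniteResModular hΔ hsq2.ne_zero h2)
    rwa [Nat.mul_div_cancel_left N two_pos] at h3

end Fermat.Agent.AtP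

end
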