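import Fermat.Agent.AtP.ClassOrdinary
import Fermat.Agent.AtP.RemoveAtPAll
import Fermat.Agent.OrdinaryCurve.Main

/-!
# Mazur's principle at `p ≥ 5` for semistable curves

`supersingularExclusion` treats supersingular reduction at `p`; with it `removeAtP` removes `p` from
a squarefree level when the `p`-torsion is finite at `p`.
-/

set_option autoImplicit false

noncomputable section

open Fermat.Agent.LevelLowering (RemoveAtP)

namespace Fermat.Agent.AtP

/-- A curve supersingular at an odd `p` which is modular of level `p M` is modular of level `M`. -/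
theorem supersingularExclusion (W : WeierstrassCurve ℤ) (hΔ : W.Δ ≠ 0) (p : ℕ) [Fact p.Prime]
    (hp2 : p ≠ 2) : SupersingularExclusion W p := fun _ hgood hss M hM hpM hmod =>
  have : NeZero M := ⟨hM.ne'⟩
  cofiniteResModular_of_supersingular hΔ hp2 hgood hss hpM
    (fun {_} => OrdinaryCurve.ordinaryTate _ _) hmod

/-- **Mazur's principle at `p ≥ 5`** for semistable curves. -/
theorem removeAtP {W : WeierstrassCurve ℤ} (hΔ : W.Δ ≠ 0) (hW : W.IsSemistableModel) (p : ℕ)
    [Fact p.Prime] (hp5 : 5 ≤ p) : RemoveAtP W p := fun hirr hfin M hsq hmod => by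
  have hp : p.Prime := Fact.out
  have hM : 0 < M := Nat.pos_of_ne_zero (right_ne_zero_of_mul hsq.ne_zero)
  have hpM : ¬ p ∣ M := fun h => hp.ne_one (Nat.isUnit_iff.1 (hsq p (mul_dvd_mul_left p h)))
  rcases cofiniteResModular_of_peu (supersingularExclusion W hΔ p (by omega)) hΔ (by omega)
    (hW p hp) hirr (dvd_padicValInt_of_torsionFiniteAt hfin) hM hpM hmod with h | h
  · exact h
  · omega

end Fermat.Agent.AtP

end
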