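import Fermat.Agent.KummerES.HeckeSeries
import Fermat.Agent.AtP.NormContraction
import Mathlib.LinearAlgebra.Vandermonde

/-!
# The norm from `R((q^(1/r)))` to `R((q))`

`uNorm r s` is the determinant of multiplication by `s` on the basis `u ^ a`, `a < r`, of
`R((u))` over `R((q))`, `q = u ^ r`.  Over a field with a primitive `r`-th root of unity it is the
product of the twists of `s`.  For `r` prime and zero modulo `π` it maps `1 + ε x` into
`1 + (π ε, ε ^ r)`.
-/

set_option autoImplicit false

noncomputable section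



namespace Fermat.Agent.AtP

open KummerES (contract twist twistMod)
open ModularCurve (qExpand coeffMap)
open HahnSeries (single)

variable {R : Type*} [CommRing R] (r : ℕ) [NeZero r]

lemma contract_add (x y : LaurentSeries R) :
    contract r (x + y) = contract r x + contract r y := by ext i; simp

lemma contract_single_mul_qExpand (c : ℤ) (hc : |c| < r) (y : LaurentSeries R) :
    contract r (single c (1 : R) * qExpand R r y) = if c = 0 then y else 0 := by
  ext i
  rw [KummerES.contract_coeff, HahnSeries.coeff_single_mul, one_mul]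
  split_ifs with h
  · rw [h, sub_zero, ModularCurve.qExpand_coeff_mul]
  · rw [ModularCurve.qExpand_coeff_of_not_dvd r _ ?_, HahnSeries.coeff_zero]
    rintro ⟨k, hk⟩
    exact h (Int.eq_zero_of_abs_lt_dvd ⟨i - k, by linear_combination -hk⟩ hc)

/-- The decomposition in the basis `u ^ a`. -/
lemma sum_single_mul_qExpand_contract (s : LaurentSeries R) :
    ∑ a : Fin r, single ((a : ℕ) : ℤ) (1 : R) *
      qExpand R r (contract r (single (-((a : ℕ) : ℤ)) (1 : R) * s)) = s := by
  ext i
  rw [HahnSeries.coeff_sum]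
  have hr : (0 : ℤ) < r := by exact_mod_cast Nat.pos_of_ne_zero (NeZero.ne r)
  let a₀ : Fin r := ⟨(i % r).toNat, by
    have := Int.emod_lt_of_pos i hr
    have := Int.emod_nonneg i hr.ne'
    omega⟩
  have ha₀ : ((a₀ : ℕ) : ℤ) = i % r := Int.toNat_of_nonneg (Int.emod_nonneg i hr.ne')
  rw [Finset.sum_eq_single a₀ (fun a _ ha => ?_) (fun h => absurd (Finset.mem_univ _) h)]
  · rw [HahnSeries.coeff_single_mul, one_mul, ha₀,
      show i - i % r = (r : ℤ) * (i / r) by linarith [Int.mul_ediv_add_emod i r],
      ModularCurve.qExpand_coeff_mul, KummerES.contract_coeff, HahnSeries.coeff_single_mul, one_mul,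
      sub_neg_eq_add, Int.mul_ediv_add_emod]
  · rw [HahnSeries.coeff_single_mul, one_mul, ModularCurve.qExpand_coeff_of_not_dvd]
    intro hd
    refine ha (Fin.ext (Int.ofNat.inj ?_))
    show ((a : ℕ) : ℤ) = ((a₀ : ℕ) : ℤ)
    rw [ha₀, ← Int.emod_eq_of_lt (a := ((a : ℕ) : ℤ)) (b := r) (by omega)
      (by exact_mod_cast a.isLt)]
    exact Int.emod_eq_emod_iff_emod_sub_eq_zero.mpr
      (Int.emod_eq_zero_of_dvd (by simpa using hd.neg_right))

/-- The matrix of multiplication by `s`. -/
def uMat (s : LaurentSeries R) : Matrix (Fin r) (Fin r) (LaurentSeries R) :=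
  Matrix.of fun a b => contract r (single (((b : ℕ) : ℤ) - ((a : ℕ) : ℤ)) (1 : R) * s)

lemma sum_single_mul_uMat (s : LaurentSeries R) (b : Fin r) :
    ∑ a : Fin r, single ((a : ℕ) : ℤ) (1 : R) * qExpand R r (uMat r s a b)
      = single ((b : ℕ) : ℤ) (1 : R) * s := by
  conv_rhs => rw [← sum_single_mul_qExpand_contract r (single ((b : ℕ) : ℤ) (1 : R) * s)]
  refine Finset.sum_congr rfl fun a _ => ?_
  rw [uMat, Matrix.of_apply, ← mul_assoc, HahnSeries.single_mul_single, one_mul, ← sub_eq_neg_add]

lemma uMat_one : uMat r (1 : LaurentSeries R) = 1 := by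
  refine Matrix.ext fun a b => ?_
  rw [uMat, Matrix.of_apply, ← map_one (qExpand R r), contract_single_mul_qExpand r _ ?_,
    Matrix.one_apply]
  · congr 1
    rw [eq_iff_iff, sub_eq_zero, Int.ofNat_inj]
    exact ⟨fun h => (Fin.ext h).symm, fun h => by rw [h]⟩
  · have := a.isLt
    have := b.isLt
    rw [abs_lt]
    omega

lemma uMat_mul (x y : LaurentSeries R) : uMat r (x * y) = uMat r x * uMat r y := by
  refine Matrix.ext fun c b => ?_
  have h : single ((b : ℕ) : ℤ) (1 : R) * (x * y) =
      ∑ a : Fin r, single ((a : ℕ) : ℤ) (1 : R) *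
        qExpand R r ((uMat r x * uMat r y) a b) := by
    calc single ((b : ℕ) : ℤ) (1 : R) * (x * y)
        = x * ∑ a : Fin r, single ((a : ℕ) : ℤ) (1 : R) * qExpand R r (uMat r y a b) := by
          rw [sum_single_mul_uMat]; ring
      _ = ∑ a : Fin r, (single ((a : ℕ) : ℤ) (1 : R) * x) * qExpand R r (uMat r y a b) := by
          rw [Finset.mul_sum]; exact Finset.sum_congr rfl fun a _ => by ring
      _ = ∑ a : Fin r, ∑ c : Fin r, single ((c : ℕ) : ℤ) (1 : R) *
            qExpand R r (uMat r x c a * uMat r y a b) := by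
          refine Finset.sum_congr rfl fun a _ => ?_
          rw [← sum_single_mul_uMat r x a, Finset.sum_mul]
          exact Finset.sum_congr rfl fun c _ => by rw [map_mul, mul_assoc]
      _ = _ := by
          rw [Finset.sum_comm]
          exact Finset.sum_congr rfl fun c _ => by
            rw [Matrix.mul_apply, map_sum, Finset.mul_sum]
  rw [uMat, Matrix.of_apply, show single (((b : ℕ) : ℤ) - ((c : ℕ) : ℤ)) (1 : R) * (x * y)
      = single (-((c : ℕ) : ℤ)) (1 : R) * (single ((b : ℕ) : ℤ) (1 : R) * (x * y)) by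
    rw [← mul_assoc (single _ _) (single _ _), HahnSeries.single_mul_single, one_mul,
      neg_add_eq_sub], h, Finset.mul_sum]
  have hsum : ∀ (T : Finset (Fin r)) (f : Fin r → LaurentSeries R),
      contract r (∑ a ∈ T, f a) = ∑ a ∈ T, contract r (f a) := fun T f => by
    ext i; simp [HahnSeries.coeff_sum]
  rw [hsum, Finset.sum_eq_single c (fun a _ ha => ?_) (fun h => absurd (Finset.mem_univ _) h)]
  · rw [← mul_assoc, HahnSeries.single_mul_single, neg_add_cancel, one_mul,
      contract_single_mul_qExpand r 0 (by simpa using Nat.pos_of_ne_zero (NeZero.ne r)), if_pos rfl]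
  · rw [← mul_assoc, HahnSeries.single_mul_single, one_mul, contract_single_mul_qExpand r _ ?_,
      if_neg ?_]
    · exact fun h => ha (Fin.ext (by omega))
    · have := a.isLt
      have := c.isLt
      rw [abs_lt]
      omega

/-- Multiplication matrices, as a ring homomorphism. -/
def uMatHom : LaurentSeries R →+* Matrix (Fin r) (Fin r) (LaurentSeries R) where
  toFun := uMat r
  map_one' := uMat_one r
  map_mul' := uMat_mul r
  map_zero' := Matrix.ext fun a b => by
    rw [uMat, Matrix.of_apply, mul_zero]; ext i; simp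
  map_add' x y := Matrix.ext fun a b => by
    simp only [uMat, Matrix.of_apply, Matrix.add_apply, mul_add, contract_add]

@[simp] lemma uMatHom_apply (s : LaurentSeries R) : uMatHom r s = uMat r s := rfl

lemma uMat_qExpand (y : LaurentSeries R) : uMat r (qExpand R r y) = y • 1 := by
  refine Matrix.ext fun a b => ?_
  rw [uMat, Matrix.of_apply, contract_single_mul_qExpand r _ ?_, Matrix.smul_apply,
    Matrix.one_apply, smul_eq_mul]
  · rcases eq_or_ne a b with rfl | hab
    · simp
    · rw [if_neg hab, mul_zero, if_neg]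
      exact fun h => hab (Fin.ext (by omega))
  · have := a.isLt
    have := b.isLt
    rw [abs_lt]
    omega

/-- The norm. -/
def uNorm : LaurentSeries R →* LaurentSeries R where
  toFun s := (uMat r s).det
  map_one' := by rw [uMat_one, Matrix.det_one]
  map_mul' x y := by rw [uMat_mul, Matrix.det_mul]

lemma uNorm_apply (s : LaurentSeries R) : uNorm r s = (uMat r s).det := rfl

/-- The norm of a series in `q` is its `r`-th power. -/
lemma uNorm_qExpand (y : LaurentSeries R) : uNorm r (qExpand R r y) = y ^ r := by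
  rw [uNorm_apply, uMat_qExpand, Matrix.det_smul, Matrix.det_one, mul_one, Fintype.card_fin]

/-- The norm of a constant. -/
lemma uNorm_single_zero (c : R) : uNorm r (single 0 c) = single 0 (c ^ r) := by
  rw [show single (0 : ℤ) c = qExpand R r (single 0 c) by
    rw [ModularCurve.qExpand_single, mul_zero], uNorm_qExpand, HahnSeries.single_pow, smul_zero]

/-- The norm commutes with maps of coefficients. -/
lemma coeffMap_uNorm {S : Type*} [CommRing S] (f : R →+* S) (s : LaurentSeries R) :
    coeffMap f (uNorm r s) = uNorm r (coeffMap f s) := by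
  rw [uNorm_apply, uNorm_apply, RingHom.map_det]
  congr 1
  refine Matrix.ext fun a b => ?_
  rw [RingHom.mapMatrix_apply, Matrix.map_apply, uMat, Matrix.of_apply, uMat, Matrix.of_apply,
    KummerES.coeffMap_contract, map_mul]
  congr 2
  ext i
  rcases eq_or_ne i (((b : ℕ) : ℤ) - ((a : ℕ) : ℤ)) with rfl | hi <;> simp [*]

/-- Over a field with a primitive root of unity the norm is the product of the twists. -/
theorem qExpand_uNorm {K : Type*} [Field K] {ζ : K} (hζ : IsPrimitiveRoot ζ r)
    (s : LaurentSeries K) :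
    qExpand K r (uNorm r s) = ∏ j : Fin r, twist (ζ ^ (j : ℕ))
      (pow_ne_zero _ (hζ.ne_zero (NeZero.ne r))) s := by
  set tw : Fin r → LaurentSeries K →+* LaurentSeries K := fun j =>
    twist (ζ ^ (j : ℕ)) (pow_ne_zero _ (hζ.ne_zero (NeZero.ne r)))
  set z : Fin r → LaurentSeries K := fun j => single (1 : ℤ) (ζ ^ (j : ℕ)) with hz
  have hzpow : ∀ (j : Fin r) (a : ℕ), z j ^ a = tw j (single (a : ℤ) (1 : K)) := by
    intro j a
    ext i
    rw [hz, HahnSeries.single_pow, KummerES.twist_coeff]
    rcases eq_or_ne i (a : ℤ) with rfl | hi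
    · simp
    · simp [HahnSeries.coeff_single_of_ne hi]
  have hE : ∀ (j : Fin r) (y : LaurentSeries K), tw j (qExpand K r y) = qExpand K r y := by
    intro j y
    ext i
    rw [KummerES.twist_coeff]
    by_cases hi : (r : ℤ) ∣ i
    · obtain ⟨m, rfl⟩ := hi
      rw [zpow_mul, zpow_natCast, ← pow_mul, mul_comm (j : ℕ) r, pow_mul, hζ.pow_eq_one, one_pow,
        one_zpow, one_mul]
    · rw [ModularCurve.qExpand_coeff_of_not_dvd r _ hi, mul_zero]
  set V : Matrix (Fin r) (Fin r) (LaurentSeries K) := Matrix.vandermonde z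
  have key : V * (qExpand K r).mapMatrix (uMat r s) = Matrix.diagonal (fun j => tw j s) * V := by
    refine Matrix.ext fun j b => ?_
    rw [Matrix.diagonal_mul, Matrix.mul_apply]
    simp only [V, Matrix.vandermonde_apply, RingHom.mapMatrix_apply, Matrix.map_apply, hzpow]
    rw [← map_mul, mul_comm s, ← sum_single_mul_uMat r s b, map_sum]
    exact Finset.sum_congr rfl fun a _ => by rw [map_mul, hE]
  have hdet : V.det ≠ 0 := by
    refine Matrix.det_vandermonde_ne_zero_iff.mpr fun i j hij => Fin.ext (hζ.pow_inj i.isLt j.isLt ?_)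
    simpa [hz] using congrArg (fun t : LaurentSeries K => t.coeff 1) hij
  have := congrArg Matrix.det key
  rw [Matrix.det_mul, Matrix.det_mul, Matrix.det_diagonal, ← RingHom.map_det, mul_comm] at this
  exact mul_right_cancel₀ hdet this

section contraction

variable {R : Type*} [CommRing R] {p : ℕ} [hp : Fact p.Prime] {π : R}

/-- A series with all coefficients divisible by `π` is a multiple of `π`. -/
lemma exists_eq_smul_of_coeff (s : LaurentSeries R) (h : ∀ i, π ∣ s.coeff i) :
    ∃ t : LaurentSeries R, s = single 0 π * t := by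
  classical
  choose c hc using h
  let t : LaurentSeries R :=
    { coeff := fun i => if s.coeff i = 0 then 0 else c i
      isPWO_support' := s.isPWO_support.mono fun i hi h0 => hi (if_pos h0) }
  refine ⟨t, ?_⟩
  ext i
  rw [HahnSeries.coeff_single_mul, sub_zero]
  show s.coeff i = π * (if s.coeff i = 0 then 0 else c i)
  split_ifs with h0
  · rw [h0, mul_zero]
  · exact hc i

/-- The ideal of `π` is the kernel of reduction modulo `π`. -/
lemma mem_span_single_iff (s : LaurentSeries R) :
    s ∈ Ideal.span {single (0 : ℤ) π} ↔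
      coeffMap (Ideal.Quotient.mk (Ideal.span {π})) s = 0 := by
  rw [Ideal.mem_span_singleton]
  constructor
  · rintro ⟨t, rfl⟩
    ext i
    rw [ModularCurve.coeffMap_coeff, HahnSeries.coeff_single_mul, HahnSeries.coeff_zero,
      Ideal.Quotient.eq_zero_iff_mem]
    exact Ideal.mem_span_singleton.mpr (dvd_mul_right _ _)
  · intro h
    obtain ⟨t, ht⟩ := exists_eq_smul_of_coeff s fun i => by
      have := congrArg (fun u : LaurentSeries (R ⧸ Ideal.span {π}) => u.coeff i) h
      rw [ModularCurve.coeffMap_coeff, HahnSeries.coeff_zero,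
        Ideal.Quotient.eq_zero_iff_mem] at this
      exact Ideal.mem_span_singleton.mp this
    exact ⟨t, ht⟩

lemma isPrime_span_single (hπ : (Ideal.span {π}).IsPrime) :
    (Ideal.span {single (0 : ℤ) π} : Ideal (LaurentSeries R)).IsPrime := by
  have := hπ
  have h : RingHom.ker (coeffMap (Ideal.Quotient.mk (Ideal.span {π})))
      = (Ideal.span {single (0 : ℤ) π} : Ideal (LaurentSeries R)) :=
    Ideal.ext fun s => by rw [RingHom.mem_ker, mem_span_single_iff]
  rw [← h]
  exact RingHom.ker_isPrime _

/-- In characteristic `p`, `s(q) ^ p = (φ s)(q ^ p)`. -/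
lemma pow_char_eq_qExpand {S : Type*} [CommRing S] [CharP S p] (s : LaurentSeries S) :
    s ^ p = qExpand S p (coeffMap (frobenius S p) s) := by
  have hP : ∀ P : PowerSeries S, (P : LaurentSeries S) ^ p
      = qExpand S p (coeffMap (frobenius S p) (P : LaurentSeries S)) := by
    intro P
    have hpow : P ^ p = PowerSeries.map (frobenius S p) (PowerSeries.expand p hp.out.ne_zero P) :=
      (MvPowerSeries.map_frobenius_expand p hp.out.ne_zero (f := P)).symm
    rw [← map_pow]
    ext i
    by_cases hi : (p : ℤ) ∣ i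
    · obtain ⟨m, rfl⟩ := hi
      rw [ModularCurve.qExpand_coeff_mul, ModularCurve.coeffMap_coeff]
      rcases lt_or_ge m 0 with hm | hm
      · have h1 : (p : ℤ) * m < 0 := by
          have : (1 : ℤ) ≤ p := by exact_mod_cast hp.out.one_le
          nlinarith
        rw [PowerSeries.coeff_coe, PowerSeries.coeff_coe]
        simp only [hm, h1, if_true]
        rw [map_zero]
      · lift m to ℕ using hm
        rw [← Nat.cast_mul, LaurentSeries.coeff_coe_powerSeries,
          LaurentSeries.coeff_coe_powerSeries, hpow, PowerSeries.coeff_map,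
          PowerSeries.coeff_expand_mul]
    · rw [ModularCurve.qExpand_coeff_of_not_dvd p _ hi]
      rcases lt_or_ge i 0 with hm | hm
      · rw [PowerSeries.coeff_coe]; simp [hm]
      · lift i to ℕ using hm
        rw [LaurentSeries.coeff_coe_powerSeries, hpow, PowerSeries.coeff_map,
          PowerSeries.coeff_expand_of_not_dvd p _ _ (fun h => hi (by exact_mod_cast h)), map_zero]
  conv_lhs => rw [← s.single_order_mul_powerSeriesPart, mul_pow, hP]
  conv_rhs => rw [← s.single_order_mul_powerSeriesPart, map_mul, map_mul]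
  congr 1
  simp [HahnSeries.single_pow]

/-- Modulo `π ∣ p`, a `p`-th power only has exponents divisible by `p`. -/
lemma exists_pow_sub_qExpand (hπp : π ∣ (p : R)) (hπ : (Ideal.span {π}).IsPrime)
    (s : LaurentSeries R) : ∃ y z, s ^ p = qExpand R p y + single 0 π * z := by
  have := hπ
  set f := Ideal.Quotient.mk (Ideal.span {π})
  have : CharP (R ⧸ Ideal.span {π}) p := by
    refine (CharP.charP_iff_prime_eq_zero hp.out).2 ?_
    rw [← map_natCast f, Ideal.Quotient.eq_zero_iff_mem]
    exact Ideal.mem_span_singleton.2 hπp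
  refine ⟨contract p (s ^ p), ?_⟩
  have hmem : s ^ p - qExpand R p (contract p (s ^ p)) ∈ Ideal.span {single (0 : ℤ) π} := by
    rw [mem_span_single_iff, map_sub, ModularCurve.coeffMap_qExpand, KummerES.coeffMap_contract,
      map_pow, pow_char_eq_qExpand, KummerES.contract_qExpand, sub_self]
  obtain ⟨z, hz⟩ := Ideal.mem_span_singleton.1 hmem
  exact ⟨z, sub_eq_iff_eq_add'.1 hz⟩

/-- **Contraction**: `uNorm (1 + ε x) ∈ 1 + (π ε, ε ^ p)`. -/
theorem exists_uNorm_one_add (hπp : π ∣ (p : R)) (hπ : (Ideal.span {π}).IsPrime) (ε : R)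
    (x : LaurentSeries R) : ∃ a b : LaurentSeries R,
      uNorm p (1 + single 0 ε * x) = 1 + single 0 (π * ε) * a + single 0 (ε ^ p) * b := by
  obtain ⟨y, z, hyz⟩ := exists_pow_sub_qExpand hπp hπ x
  have hC : ∀ c : R, uMat p (single (0 : ℤ) c) = single (0 : ℤ) c • 1 := fun c => by
    rw [← uMat_qExpand, ModularCurve.qExpand_single, mul_zero]
  have hM : ∀ i j, single (0 : ℤ) π ∣ ((uMat p x) ^ p - y • 1) i j := by
    intro i j
    rw [← uMatHom_apply, ← map_pow, hyz, map_add, uMatHom_apply, uMat_qExpand, map_mul,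
      uMatHom_apply, hC, smul_mul_assoc, one_mul, add_sub_cancel_left, Matrix.smul_apply]
    exact dvd_mul_right _ _
  have hπp' : single (0 : ℤ) π ∣ ((p : ℕ) : LaurentSeries R) := by
    obtain ⟨c, hc⟩ := hπp
    refine ⟨single 0 c, ?_⟩
    rw [HahnSeries.single_mul_single, zero_add, ← hc, ← map_natCast HahnSeries.C]
    rfl
  obtain ⟨a, b, hab⟩ := exists_det_one_add_eq hp.out hπp' (isPrime_span_single hπ)
    (Fintype.card_fin p) (uMat p x) y hM (single 0 ε)
  refine ⟨a, b, ?_⟩
  rw [uNorm_apply, ← uMatHom_apply, map_add, map_one, map_mul, uMatHom_apply, uMatHom_apply, hC,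
    smul_mul_assoc, one_mul, hab, HahnSeries.single_mul_single, zero_add, HahnSeries.single_pow,
    smul_zero]

end contraction

end Fermat.Agent.AtP
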