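import Fermat.Agent.KummerES.HeckeWeak
import Fermat.Agent.KummerES.RootExpansion
import Fermat.Agent.AtP.LevelOperators

/-!
# Products over families of representatives of Kummer roots
-/

set_option autoImplicit false

noncomputable section

open UpperHalfPlane CongruenceSubgroup
open scoped MatrixGroups Manifold OnePoint

namespace Fermat.Agent.AtP

open HeckeLattice (toGL Idx rep)
open KummerES (HasExp weak rootPow IsKummer qL zetaC coeffSubring)
open Matrix.SpecialLinearGroup (mapGL)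

namespace Reps

variable {Γ Γ' : Subgroup SL(2, ℤ)} {P : Type*} [Fintype P] (C : Reps Γ Γ' P)

/-- The product over the representatives. -/
def prodFun (f : ℍ → ℂ) : ℍ → ℂ := fun τ => ∏ x : P, f (C.β x • τ)

/-- The product over the representatives is multiplicative. -/
lemma prodFun_mul (f g : ℍ → ℂ) : C.prodFun (f * g) = C.prodFun f * C.prodFun g :=
  funext fun _ => Finset.prod_mul_distrib

/-- The product over the representatives respects powers. -/
lemma prodFun_pow (f : ℍ → ℂ) (n : ℕ) : C.prodFun (f ^ n) = C.prodFun f ^ n :=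
  funext fun _ => Finset.prod_pow _ _ _

lemma prodFun_comp {n : ℕ} [NeZero n] {χ : Additive Γ →+ ZMod n} {g : ℍ → ℂ}
    (hg : ∀ γ : Γ, KummerES.comp g γ = fun τ => rootPow n (χ (Additive.ofMul γ)) * g τ) (γ : Γ') :
    KummerES.comp (C.prodFun g) γ
      = fun τ => rootPow n (C.transfer χ (Additive.ofMul γ)) * C.prodFun g τ := by
  funext τ
  have hstep : ∀ x, g (C.β x • ((γ : SL(2, ℤ)) • τ))
      = rootPow n (χ (Additive.ofMul (C.cocycle γ x))) * g (C.β (C.next γ x) • τ) := by
    intro x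
    rw [← KummerES.toGL_smul, ← mul_smul, C.rep_mul, mul_smul, KummerES.toGL_smul]
    exact congrFun (hg _) _
  show ∏ x, g (C.β x • ((γ : SL(2, ℤ)) • τ)) = _
  rw [Finset.prod_congr rfl fun x _ => hstep x, Finset.prod_mul_distrib, transfer_apply,
    KummerES.rootPow_sum]
  congr 1
  exact Equiv.prod_comp (C.nextPerm γ) (fun y => g (C.β y • τ))

/-- The product of an invariant function is invariant. -/
lemma comp_prodFun_eq {f : ℍ → ℂ} (hf : ∀ γ ∈ Γ, KummerES.comp f γ = f) {γ : SL(2, ℤ)} (hγ : γ ∈ Γ') :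
    KummerES.comp (C.prodFun f) γ = C.prodFun f := by
  have h := C.prodFun_comp (n := 1) (χ := 0) (g := f)
    (fun α => by rw [hf _ α.2]; funext τ; rw [KummerES.rootPow_zmod_one, one_mul]) ⟨γ, hγ⟩
  rw [h]
  funext τ
  rw [KummerES.rootPow_zmod_one, one_mul]

/-- The representatives are standard ones at the prime `r`, up to `SL(2, ℤ)` on the left. -/
def IsStd (r : ℕ) : Prop :=
  ∀ x, ∃ (u : SL(2, ℤ)) (y : Idx r), C.β x = mapGL ℝ u * rep r y

variable {C} {r : ℕ} [hr : Fact r.Prime]

omit hr in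
lemma mdiff_prodFun (hC : C.IsStd r) {f : ℍ → ℂ} (hf : MDiff f) : MDiff (C.prodFun f) := by
  classical
  have key : ∀ T : Finset P, MDiff (fun τ => ∏ x ∈ T, f (C.β x • τ)) := by
    intro T
    induction T using Finset.induction_on with
    | empty => simpa using (mdifferentiable_const (c := (1 : ℂ)))
    | insert a T ha ih =>
      simp only [Finset.prod_insert ha]
      obtain ⟨u, y, hy⟩ := hC a
      have hdet : 0 < ((C.β a).det : ℝ) := by
        rw [hy, map_mul, Units.val_mul]
        refine mul_pos ?_ (KummerES.det_rep_pos' y)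
        simp
      exact (hf.comp (mdifferentiable_smul hdet)).mul ih
  exact key Finset.univ

/-- The product of a weakly holomorphic function is weakly holomorphic. -/
theorem prodFun_mem_weak (hC : C.IsStd r) {L : ℕ} [NeZero L] (hL : Gamma L ≤ Γ')
    {B : Subring ℂ} (hζ : zetaC (L * r) ∈ B) {f : ℍ → ℂ} (hf : f ∈ weak (Gamma L) L B)
    (hfΓ : ∀ γ ∈ Γ, KummerES.comp f γ = f) : C.prodFun f ∈ weak (Gamma L) L B := by
  classical
  have hinv : ∀ γ ∈ Gamma L, KummerES.comp (C.prodFun f) γ = C.prodFun f :=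
    fun γ hγ => C.comp_prodFun_eq hfΓ (hL hγ)
  refine ⟨mdiff_prodFun hC hf.1, hinv, fun δ => ?_⟩
  have key : ∀ x, ∃ s ∈ coeffSubring B,
      HasExp (L * r) (fun τ => f (C.β x • (δ • τ))) s := by
    intro x
    obtain ⟨u, y, hy⟩ := hC x
    obtain ⟨v, z, hv⟩ := KummerES.exists_rep_mul_SL y δ
    obtain ⟨c, e, hc, he, hcB, hq⟩ := KummerES.qL_rep_coeff_mem (ℓ := r) z hζ
    have : NeZero e := ⟨he⟩
    obtain ⟨s, hsB, hs⟩ := hf.2.2 (u * v)
    refine ⟨ModularCurve.qExpand ℂ e (KummerES.twist c hc s),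
      KummerES.qExpand_mem_coeffSubring e fun i => ?_, ?_⟩
    · rw [KummerES.twist_coeff]
      exact mul_mem (hcB i) (hsB i)
    · have h2 := hs.subst (L' := L * r) (fun τ => rep r z • τ) hc e hq
      have h3 : (fun τ => f (C.β x • (δ • τ))) = KummerES.comp f (u * v) ∘ fun τ => rep r z • τ := by
        funext τ
        show f (C.β x • (mapGL ℝ δ • τ)) = f (mapGL ℝ (u * v) • (rep r z • τ))
        rw [← mul_smul, ← mul_smul, hy, mul_assoc, hv, ← mul_assoc, map_mul]
      rw [h3]
      exact h2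
  choose s hsB hs using key
  have hprod : ∀ T : Finset P,
      HasExp (L * r) (fun τ => ∏ x ∈ T, f (C.β x • (δ • τ))) (∏ x ∈ T, s x) := by
    intro T
    induction T using Finset.induction_on with
    | empty => simpa [Pi.one_def] using (HasExp.one (L := L * r))
    | insert a T ha ih =>
      simp only [Finset.prod_insert ha]
      exact (hs a).mul ih
  exact KummerES.exists_hasExp_of_comp_T_pow (hprod Finset.univ) (prod_mem fun x _ => hsB x)
    (KummerES.comp_comp_T_pow hinv δ)

end Reps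

section roots

variable {r M : ℕ} [hr : Fact r.Prime]

/-- The representatives of `U_r` are standard. -/
lemma isStd_uReps : (uReps r M).IsStd r := fun j =>
  ⟨1, (j : Idx r), by rw [map_one, one_mul]; rfl⟩

/-- The Atkin–Lehner representative is standard. -/
lemma isStd_alReps {b d : ℤ} (h : (r : ℤ) * d - (M : ℤ) * b = 1) : (alReps h).IsStd r := fun _ =>
  ⟨Newforms.alSL r M b d h, ∞, rfl⟩

/-- The representatives of `T_ℓ` are standard. -/
lemma isStd_gamma0 {N ℓ : ℕ} [Fact ℓ.Prime] (hℓN : ¬ ℓ ∣ N) :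
    (Reps.ofCosetSystem (HeckeLattice.gamma0System N ℓ hℓN)).IsStd ℓ := fun x =>
  ⟨1, x, by rw [map_one, one_mul]; rfl⟩

omit hr in
/-- A product of Kummer roots with trivial multiplier is a modular function. -/
theorem exists_modular_of_rel {P : Type*} [Fintype P] (C : Reps (Gamma0 (r * M)) (Gamma0 (r * M)) P)
    {ℓ : ℕ} [Fact ℓ.Prime] (hC : C.IsStd ℓ) {L n : ℕ} [NeZero L] [NeZero n]
    (hL : Gamma L ≤ Gamma0 (r * M)) {χ : Additive (Gamma0 (r * M)) →+ ZMod n} {g : ℍ → ℂ}
    (hg : IsKummer L n χ g) (m : ℕ) (hrel : C.transfer χ + m • χ = 0) :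
    C.prodFun g * g ^ m ∈ weak (Gamma0 (r * M)) L ⊤ ∧
      (C.prodFun g * g ^ m) ^ n = C.prodFun (g ^ n) * (g ^ n) ^ m := by
  have hpow : (C.prodFun g * g ^ m) ^ n = C.prodFun (g ^ n) * (g ^ n) ^ m := by
    rw [mul_pow, C.prodFun_pow, ← pow_mul, ← pow_mul, mul_comm m n]
  refine ⟨KummerES.root_mem_weak (NeZero.ne n) hL
    ((Reps.mdiff_prodFun hC hg.holo).mul (hg.pow_nat m).holo) (fun γ hγ => ?_) ?_, hpow⟩
  · funext τ
    show C.prodFun g ((γ : SL(2, ℤ)) • τ) * (g ^ m) (γ • τ) = C.prodFun g τ * (g ^ m) τ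
    have h1 := congrFun (C.prodFun_comp hg.comp_eq ⟨γ, hγ⟩) τ
    have h2 := congrFun ((hg.pow_nat m).comp_eq ⟨γ, hγ⟩) τ
    simp only [KummerES.comp_apply] at h1 h2
    rw [h1, h2, mul_mul_mul_comm, ← KummerES.rootPow_add, ← AddMonoidHom.add_apply, hrel,
      AddMonoidHom.zero_apply, KummerES.rootPow_zero, one_mul]
  · rw [hpow]
    exact mul_mem (Reps.prodFun_mem_weak hC hL (Subring.mem_top _) hg.pow_mem
      fun γ hγ => hg.pow_comp_eq hγ) (pow_mem hg.pow_mem m)

end roots

end Fermat.Agent.AtP
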